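import Fermat.Agent.S14x.ChiNontrivial

/-!
# S14 project, DICT : generic infinite Galois theory for an open normal subgroup of `G_ℚ`

`N` an open (normal) subgroup of `s14G = Gal(Q̄/ℚ)`, `L = fixedField N`.
-/

set_option autoImplicit false

namespace Fermat.Agent.S14x

open IntermediateField

variable (N : Subgroup s14G)

/-- an open subgroup as a closed subgroup -/
def dg_closed (hN : IsOpen (N : Set s14G)) : ClosedSubgroup s14G :=
  { N with isClosed' := Subgroup.isClosed_of_isOpen N hN }

theorem dg_fixingSubgroup_fixedField (hN : IsOpen (N : Set s14G)) :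
    (fixedField N).fixingSubgroup = N :=
  have := Fermat.Agent.S13x.fr_isGalois_Qb
  InfiniteGalois.fixingSubgroup_fixedField (dg_closed N hN)

theorem dg_finiteDimensional (hN : IsOpen (N : Set s14G)) :
    FiniteDimensional ℚ (fixedField N) := by
  have := Fermat.Agent.S13x.fr_isGalois_Qb
  rw [← InfiniteGalois.isOpen_iff_finite, dg_fixingSubgroup_fixedField N hN]
  exact hN

theorem dg_isGalois (hN : IsOpen (N : Set s14G)) [hn : N.Normal] :
    IsGalois ℚ (fixedField N) := by
  have := Fermat.Agent.S13x.fr_isGalois_Qb
  have key : @IsGalois ℚ _ (fixedField N) _ (IntermediateField.algebra' (fixedField N)) := by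
    rw [← InfiniteGalois.normal_iff_isGalois, dg_fixingSubgroup_fixedField N hN]
    exact hn
  have e : (IntermediateField.algebra' (fixedField N) : Algebra ℚ (fixedField N)) =
      DivisionRing.toRatAlgebra := Subsingleton.elim _ _
  rw [← e]
  exact key

theorem dg_numberField (hN : IsOpen (N : Set s14G)) : NumberField (fixedField N) :=
  haveI := dg_finiteDimensional N hN
  ⟨⟩

/-- membership in the fixed field -/
theorem dg_mem_fixedField (x : AlgebraicClosure ℚ) :
    x ∈ fixedField N ↔ ∀ σ ∈ N, σ x = x := by
  rw [IntermediateField.mem_fixedField_iff]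

/-- two automorphisms which differ by an element of `N` agree on `fixedField N` -/
theorem dg_apply_eq_of_mem {σ τ : s14G} (h : σ⁻¹ * τ ∈ N) {x : AlgebraicClosure ℚ}
    (hx : x ∈ fixedField N) : σ x = τ x := by
  have h1 := (dg_mem_fixedField N x).mp hx _ h
  have : τ x = σ ((σ⁻¹ * τ) x) := by
    rw [AlgEquiv.mul_apply]
    exact (AlgEquiv.apply_symm_apply σ (τ x)).symm
  rw [this, h1]

/-- an automorphism fixing `fixedField N` pointwise is in `N` (for `N` open) -/
theorem dg_mem_of_fixes (hN : IsOpen (N : Set s14G)) {σ : s14G}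
    (h : ∀ x ∈ fixedField N, σ x = x) : σ ∈ N := by
  rw [← dg_fixingSubgroup_fixedField N hN, IntermediateField.mem_fixingSubgroup_iff]
  exact h

end Fermat.Agent.S14x
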