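/-
S14 (ExtVanishingCts) project: shared REAL definitions (architect helper22).
Every S14x module may import this file.  No sorry here.  NEVER edit once landed (add new files).
-/
import Mathlib
import Fermat.Prelude.Def_ExtCitation_AdmissibleExtension_v2

set_option autoImplicit false

namespace Fermat.Agent.S14x

open NumberField IsDedekindDomain

/-- finite primes of a number field -/
abbrev Pl (F : Type*) [Field F] [NumberField F] := HeightOneSpectrum (𝓞 F)

/-- divisors = free abelian group on the finite primes -/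
abbrev Dv (F : Type*) [Field F] [NumberField F] := Pl F →₀ ℤ

section Basic

variable {F : Type*} [Field F] [NumberField F]

/-- order of `x` at the finite prime `v` (junk value `0` at `x = 0`). -/
noncomputable def ordAt (v : Pl F) (x : F) : ℤ := - WithZero.log (v.valuation F x)

/-- absolute norm of a finite prime -/
noncomputable def plNorm (v : Pl F) : ℕ := Ideal.absNorm v.asIdeal

theorem ordAt_finite_support (x : F) : {v : Pl F | ordAt v x ≠ 0}.Finite := by
  by_cases hx : x = 0
  · subst hx
    simp [ordAt]
  · have h1 := HeightOneSpectrum.Support.finite (𝓞 F) x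
    have h2 := HeightOneSpectrum.Support.finite (𝓞 F) x⁻¹
    refine (h1.union h2).subset ?_
    intro v hv
    simp only [Set.mem_ofPred_eq, ordAt, ne_eq, neg_eq_zero] at hv
    have hne : v.valuation F x ≠ 0 := (Valuation.ne_zero_iff _).mpr hx
    have h1' : v.valuation F x ≠ 1 := by
      intro h
      apply hv
      rw [h]
      simp
    rcases lt_or_gt_of_ne h1' with h | h
    · right
      simp only [HeightOneSpectrum.Support, Set.mem_ofPred_eq, map_inv₀]
      exact (one_lt_inv₀ (zero_lt_iff.mpr hne)).mpr h
    · left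
      exact h

/-- principal divisor of `x` (junk value `0` at `x = 0`). -/
noncomputable def divOf (x : F) : Dv F :=
  Finsupp.ofSupportFinite (fun v => ordAt v x) (ordAt_finite_support x)

@[simp] theorem divOf_apply (x : F) (v : Pl F) : divOf x v = ordAt v x := rfl

/-- the divisor `D` is prime to the integer `m`. -/
def CoprimeTo (m : ℕ) (D : Dv F) : Prop := ∀ v : Pl F, (m : 𝓞 F) ∈ v.asIdeal → D v = 0

end Basic

section Ext

variable (F M : Type*) [Field F] [NumberField F] [Field M] [NumberField M] [Algebra F M]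

/-- `w` lies over `v`. -/
def PlOver (w : Pl M) (v : Pl F) : Prop := w.asIdeal.under (𝓞 F) = v.asIdeal

/-- `M/F` is unramified at every finite prime. -/
def UnramifiedEverywhere : Prop :=
  ∀ w : Pl M, Ideal.ramificationIdx w.asIdeal (𝓞 F) = 1

/-- `v` splits completely in `M` : every prime over it has `e = f = 1`. -/
def SplitsCompletely (v : Pl F) : Prop :=
  ∀ w : Pl M, PlOver F M w v →
    Ideal.ramificationIdx w.asIdeal (𝓞 F) = 1 ∧ Ideal.inertiaDeg w.asIdeal (𝓞 F) = 1

variable {F M}

theorem exists_plOver (v : Pl F) : ∃ w : Pl M, PlOver F M w v := by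
  obtain ⟨Q, _, hQ2⟩ := Ideal.exists_ideal_over_prime_of_isIntegral v.asIdeal (⊥ : Ideal (𝓞 M))
    (by simp)
  have hQ2' : Q.comap (algebraMap (𝓞 F) (𝓞 M)) = v.asIdeal := hQ2.2
  have hne : Q ≠ ⊥ := by
    rintro rfl
    have : v.asIdeal = ⊥ := by
      rw [← hQ2']
      exact Ideal.comap_bot_of_injective _ (FaithfulSMul.algebraMap_injective (𝓞 F) (𝓞 M))
    exact v.ne_bot this
  exact ⟨⟨Q, hQ2.1, hne⟩, hQ2'⟩

variable (F M)

/-- a chosen prime of `M` over `v`. -/
noncomputable def plAbove (v : Pl F) : Pl M := (exists_plOver (M := M) v).choose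

theorem plAbove_over (v : Pl F) : PlOver F M (plAbove F M v) v :=
  (exists_plOver (M := M) v).choose_spec

/-- Frobenius element at `v` for a Galois extension `M/F` (meaningful for abelian `M/F`
and `v` unramified): `arithFrobAt` at a chosen prime above `v`. -/
noncomputable def frob [IsGalois F M] (v : Pl F) : M ≃ₐ[F] M :=
  haveI : Finite (𝓞 M ⧸ (plAbove F M v).asIdeal) :=
    Ideal.finiteQuotientOfFreeOfNeBot _ (plAbove F M v).ne_bot
  arithFrobAt (𝓞 F) (M ≃ₐ[F] M) (plAbove F M v).asIdeal

variable (p : ℕ) [NeZero p]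

/-- exponent of the Frobenius at `v` with respect to a generator `g` of the (cyclic, order `p`)
Galois group: `frob v = g ^ (frobExp v).val` (junk value `0` if `frob v` is not a power of `g`). -/
noncomputable def frobExp [IsGalois F M] (g : M ≃ₐ[F] M) (v : Pl F) : ZMod p :=
  open Classical in
  if h : ∃ e : ZMod p, frob F M v = g ^ e.val then h.choose else 0

/-- the Artin map on divisors, written additively with values in `ZMod p`
(via the generator `g`). -/
noncomputable def artZ [IsGalois F M] (g : M ≃ₐ[F] M) : Dv F →+ ZMod p :=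
  Finsupp.liftAddHom (fun v => (AddMonoidHom.mulRight (frobExp F M p g v)).comp (Int.castAddHom (ZMod p)))

/-- the "norm group" `P_F · N(I_M)` of a cyclic unramified extension of prime degree `p`,
in divisor language: generated by principal divisors, completely split primes and `p`-th
multiples of all primes. -/
noncomputable def normGroup : AddSubgroup (Dv F) :=
  AddSubgroup.closure
    ({D | ∃ x : F, x ≠ 0 ∧ D = divOf x} ∪
     {D | ∃ v : Pl F, SplitsCompletely F M v ∧ D = Finsupp.single v 1} ∪
     {D | ∃ v : Pl F, D = Finsupp.single v (p : ℤ)})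

/-- the "ray group mod m" `P_{F,m} · <split primes>`: generated by the principal divisors of
integers `x ≡ 1 mod m` and by the completely split primes not dividing `m`. -/
noncomputable def rayGroup (m : ℕ) : AddSubgroup (Dv F) :=
  AddSubgroup.closure
    ({D | ∃ x : 𝓞 F, x ≠ 0 ∧ x - 1 ∈ Ideal.span {(m : 𝓞 F)} ∧ D = divOf (x : F)} ∪
     {D | ∃ v : Pl F, SplitsCompletely F M v ∧ (m : 𝓞 F) ∉ v.asIdeal ∧ D = Finsupp.single v 1})

end Ext

section Norm

variable (F M : Type*) [Field F] [NumberField F] [Field M] [NumberField M] [Algebra F M]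

/-- the prime of `F` below the prime `w` of `M`. -/
noncomputable def plUnder (w : Pl M) : Pl F :=
  ⟨w.asIdeal.under (𝓞 F), inferInstance, Ideal.under_ne_bot (𝓞 F) w.ne_bot⟩

theorem plUnder_over (w : Pl M) : PlOver F M w (plUnder F M w) := rfl

/-- the norm map on divisors: `[w] ↦ f(w|v) [v]`. -/
noncomputable def dvNorm : Dv M →+ Dv F :=
  Finsupp.liftAddHom (fun w : Pl M =>
    (Finsupp.singleAddHom (plUnder F M w)).comp
      ((AddMonoidHom.mulLeft ((Ideal.inertiaDeg w.asIdeal (𝓞 F) : ℕ) : ℤ))))

theorem dvNorm_single (w : Pl M) (n : ℤ) :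
    dvNorm F M (Finsupp.single w n) =
      Finsupp.single (plUnder F M w) ((Ideal.inertiaDeg w.asIdeal (𝓞 F) : ℤ) * n) := by
  simp [dvNorm]

end Norm

/-- `M/F` is an everywhere unramified cyclic extension of prime degree `p` with generator `g`,
and `F` contains the `p`-th roots of unity (so `F` is totally complex when `p` is odd). -/
structure IsUCyc (p : ℕ) (F M : Type*) [Field F] [NumberField F] [Field M] [NumberField M]
    [Algebra F M] [IsGalois F M] (g : M ≃ₐ[F] M) : Prop where
  g_ne_one : g ≠ 1
  finrank_eq : Module.finrank F M = p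
  unram : UnramifiedEverywhere F M
  zeta : ∃ ζ : F, IsPrimitiveRoot ζ p

/-- the number field tower attached to a non-split admissible extension. -/
structure Tower (p : ℕ) where
  K : Type
  L : Type
  [instFieldK : Field K]
  [instFieldL : Field L]
  [instNFK : NumberField K]
  [instNFL : NumberField L]
  [instAlg : Algebra K L]
  [instCyc : IsCyclotomicExtension {p} ℚ K]
  [instGalKL : IsGalois K L]
  [instGalQL : IsGalois ℚ L]
  /-- a generator of `Gal(L/K)` -/
  g : L ≃ₐ[K] L
  g_ne_one : g ≠ 1
  finrank_eq : Module.finrank K L = p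
  unram : UnramifiedEverywhere K L
  split_p : ∀ v : Pl K, (p : 𝓞 K) ∈ v.asIdeal → SplitsCompletely K L v
  /-- `σ h^k σ⁻¹ = h` when `σ ζ = ζ^k`, i.e. `Gal(K/ℚ)` acts on `Gal(L/K)` through `ω⁻¹`. -/
  conj : ∀ (σ : L ≃ₐ[ℚ] L) (h : L ≃ₐ[K] L) (ζ : K) (k : ℕ), IsPrimitiveRoot ζ p →
      σ (algebraMap K L ζ) = (algebraMap K L ζ) ^ k → ∀ x : L, σ ((h ^ k) x) = h (σ x)

attribute [instance] Tower.instFieldK Tower.instFieldL Tower.instNFK Tower.instNFL Tower.instAlg
  Tower.instCyc Tower.instGalKL Tower.instGalQL

end Fermat.Agent.S14x
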