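import Mathlib
import Fermat.Agent.S14x.Defs
import Fermat.Agent.S13x.Minkowski

/-!
# S14 project, module DICT (c): the valuation-subring ↔ prime-ideal dictionary (helper74)

`K ⊆ L ⊆ ℚ̄` number fields, `L/ℚ` and `L/K` Galois, `w` a finite prime of `L` over the rational
prime `q`.

* `dictv_ramificationIdx_eq_one`: if for every valuation subring `A` of `ℚ̄` over `q` every element
  of the inertia subgroup `A.inertiaSubgroupIn ℚ` which fixes `K` also fixes `L`, then
  `e(w | L/K) = 1`.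
* `dictv_ramificationIdx_inertiaDeg_eq_one`: same with the decomposition subgroup; conclusion
  `e(w | L/K) = 1 ∧ f(w | L/K) = 1`.

The proofs reuse the S13x machinery (`il_lift_inertia`, `gu_mem_inertia_locVS`, `locVS`).
-/

set_option autoImplicit false

namespace Fermat.Agent.S14x

open Polynomial NumberField IsDedekindDomain
open scoped Pointwise

noncomputable section

local notation "Ω" => AlgebraicClosure ℚ
local notation "Γ" => (AlgebraicClosure ℚ ≃ₐ[ℚ] AlgebraicClosure ℚ)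
local notation "𝓑" => integralClosure ℤ (AlgebraicClosure ℚ)

open Fermat.Agent.S54x Fermat.Agent.S13x

section Abstract

variable {B : Type*} [CommRing B] {G : Type*} [Group G] [MulSemiringAction G B]
  [TopologicalSpace G] [CompactSpace G] [TotallyDisconnectedSpace G] [IsTopologicalGroup G]
  [TopologicalSpace B] [DiscreteTopology B] [ContinuousSMul G B]

/-- lifting decomposition-group elements through a closed normal subgroup -/
theorem dictv_lift_stabilizer (N : Subgroup G) (hN : IsClosed (N : Set G))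
    (Q : Ideal B) [Q.IsPrime] (σ : G)
    (hσ : ∀ a : B, (∀ n ∈ N, n • a = a) → (σ⁻¹ • a ∈ Q ↔ a ∈ Q)) :
    ∃ n ∈ N, (n * σ) • Q = Q := by
  have : CompactSpace N := isCompact_iff_compactSpace.mp hN.isCompact
  have := il_isInvariant (B := B) N
  set A₁ := FixedPoints.subalgebra ℤ B N with hA₁
  have hunder : (σ • Q).under A₁ = Q.under A₁ := by
    ext a
    simp only [Ideal.under_def, Ideal.mem_comap]
    rw [Ideal.mem_pointwise_smul_iff_inv_smul_mem]
    have ha : ∀ n ∈ N, n • (a : B) = a := fun n hn ↦ a.2 ⟨n, hn⟩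
    exact hσ _ ha
  obtain ⟨n₁, hn₁⟩ := Algebra.IsInvariant.exists_smul_of_under_eq_of_profinite (A := A₁) (G := N)
    (σ • Q) Q hunder
  refine ⟨n₁, n₁.2, ?_⟩
  rw [mul_smul]
  exact hn₁.symm

end Abstract

section Concrete

variable (K L : Type) [Field K] [NumberField K] [Field L] [NumberField L] [Algebra K L]
  [Algebra K Ω] [Algebra L Ω] [IsScalarTower K L Ω]

/-- a prime of `𝓑` above a given finite prime of `L`, together with the valuation subring of `ℚ̄`
obtained by localizing `𝓑` there. -/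
theorem dictv_exists_prime_above (w : Pl L) (q : ℕ) (hq : q.Prime) (hqw : (q : 𝓞 L) ∈ w.asIdeal) :
    ∃ (Q : Ideal 𝓑) (_ : Q.IsPrime), Q.comap (guJ L) = w.asIdeal ∧
      Q.comap (algebraMap ℤ 𝓑) = Ideal.span {(q : ℤ)} := by
  let _ : Algebra (𝓞 L) 𝓑 := (guJ L).toAlgebra
  have hint : Algebra.IsIntegral (𝓞 L) 𝓑 := by
    refine ⟨fun b => ?_⟩
    have hb : IsIntegral ℤ b := by
      have := b.2
      exact (isIntegral_algebraMap_iff (B := Ω) Subtype.val_injective).mp this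
    exact hb.tower_top
  have hinj : Function.Injective (algebraMap (𝓞 L) 𝓑) := by
    intro x y hxy
    have h1 : ((guJ L x : 𝓑) : Ω) = ((guJ L y : 𝓑) : Ω) := congrArg Subtype.val hxy
    rw [guJ_coe, guJ_coe] at h1
    exact RingOfIntegers.ext ((algebraMap L Ω).injective h1)
  have hker : RingHom.ker (algebraMap (𝓞 L) 𝓑) ≤ w.asIdeal := by
    rw [(RingHom.injective_iff_ker_eq_bot _).mp hinj]
    exact bot_le
  obtain ⟨Q, hQprime, hQw⟩ := Ideal.exists_ideal_over_prime_of_isIntegral_of_isDomain w.asIdeal hker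
  have hQw' : Q.comap (guJ L) = w.asIdeal := hQw
  refine ⟨Q, hQprime, hQw', ?_⟩
  have hq' : Prime (q : ℤ) := Nat.prime_iff_prime_int.mp hq
  have hmax : (Ideal.span {(q : ℤ)}).IsMaximal :=
    PrincipalIdealRing.isMaximal_of_irreducible hq'.irreducible
  have hne : Q.comap (algebraMap ℤ 𝓑) ≠ ⊤ := (Ideal.comap_isPrime (algebraMap ℤ 𝓑) Q).ne_top
  refine (hmax.eq_of_le hne ?_).symm
  rw [Ideal.span_singleton_le_iff_mem, Ideal.mem_comap]
  have h1 : guJ L (q : 𝓞 L) ∈ Q := by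
    have : (q : 𝓞 L) ∈ Q.comap (guJ L) := by rw [hQw']; exact hqw
    exact this
  rw [map_natCast] at h1
  simpa using h1

/-- the closed normal subgroup of `Γ` fixing `L` pointwise, and its basic properties -/
theorem dictv_fixing_props [IsGalois ℚ L] :
    ∃ N : Subgroup Γ, N.Normal ∧ IsClosed (N : Set Γ) ∧
      (∀ n : Γ, n ∈ N ↔ ∀ x : L, n (algebraMap L Ω x) = algebraMap L Ω x) ∧
      (∀ a : 𝓑, (∀ n ∈ N, n • a = a) → ∃ y : 𝓞 L, guJ L y = a) := by
  have hgalΩ := isGalois_Qbar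
  have hnormΩ : Normal ℚ Ω := hgalΩ.to_normal
  let N : Subgroup Γ := (AlgEquiv.restrictNormalHom (F := ℚ) (K₁ := Ω) L).ker
  have hNnormal : N.Normal := MonoidHom.normal_ker _
  have hinj : Function.Injective (algebraMap L Ω) := (algebraMap L Ω).injective
  have hNmem : ∀ n : Γ, n ∈ N ↔ ∀ x : L, n (algebraMap L Ω x) = algebraMap L Ω x := by
    intro n
    rw [MonoidHom.mem_ker]
    constructor
    · intro h x
      have h1 := AlgEquiv.restrictNormal_commutes n L x
      have h2 : n.restrictNormal L = 1 := h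
      rw [h2] at h1
      exact h1.symm
    · intro h
      apply AlgEquiv.ext
      intro x
      apply hinj
      have h1 := AlgEquiv.restrictNormal_commutes n L x
      rw [h x] at h1
      exact h1
  let F : IntermediateField ℚ Ω := (IsScalarTower.toAlgHom ℚ L Ω).fieldRange
  have hNF : N = F.fixingSubgroup := by
    ext n
    rw [hNmem, IntermediateField.mem_fixingSubgroup_iff]
    constructor
    · rintro h _ ⟨x, rfl⟩
      exact h x
    · intro h x
      exact h _ ⟨x, rfl⟩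
  have hNclosed : IsClosed (N : Set Γ) := by
    rw [hNF]
    exact InfiniteGalois.fixingSubgroup_isClosed F
  refine ⟨N, hNnormal, hNclosed, hNmem, ?_⟩
  intro a ha
  have haF : (a : Ω) ∈ F := by
    rw [← InfiniteGalois.fixedField_fixingSubgroup F, IntermediateField.mem_fixedField_iff]
    intro n hn
    rw [← hNF] at hn
    exact congrArg Subtype.val (ha n hn)
  obtain ⟨y, hy⟩ := haF
  have hy' : algebraMap L Ω y = (a : Ω) := hy
  have hyint : IsIntegral ℤ y := by
    have h1 : IsIntegral ℤ (algebraMap L Ω y) := by rw [hy']; exact a.2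
    exact (isIntegral_algebraMap_iff hinj).mp h1
  exact ⟨⟨y, hyint⟩, Subtype.ext hy'⟩

omit [Algebra K Ω] [IsScalarTower K L Ω] in
/-- lifting an element of `Gal(L/K)` to the absolute Galois group of `ℚ` -/
theorem dictv_exists_lift [IsGalois ℚ L] (σ₀ : Gal(L/K)) :
    ∃ σ : Γ, ∀ y : L, σ (algebraMap L Ω y) = algebraMap L Ω (σ₀ y) := by
  have hgalΩ := isGalois_Qbar
  have hnormΩ : Normal ℚ Ω := hgalΩ.to_normal
  let σ₁ : Gal(L/ℚ) := σ₀.restrictScalars ℚ
  obtain ⟨σ, hσ⟩ := AlgEquiv.restrictNormalHom_surjective (F := ℚ) (K₁ := L) Ω σ₁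
  refine ⟨σ, fun y => ?_⟩
  have h1 := AlgEquiv.restrictNormal_commutes σ L y
  have h2 : σ.restrictNormal L = σ₁ := hσ
  rw [h2] at h1
  exact h1.symm

omit [NumberField K] [NumberField L] in
/-- an element of `Γ` which restricts to a `K`-automorphism of `L` fixes `K` -/
theorem dictv_fixes_of_restrict (σ₀ : Gal(L/K)) (τ : Γ)
    (hτ : ∀ y : L, τ (algebraMap L Ω y) = algebraMap L Ω (σ₀ y)) (x : K) :
    τ (algebraMap K Ω x) = algebraMap K Ω x := by
  rw [IsScalarTower.algebraMap_apply K L Ω, hτ, σ₀.commutes]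

omit [Algebra K Ω] [IsScalarTower K L Ω] in
theorem dictv_exists_lift_inertia [IsGalois K L] [IsGalois ℚ L] (w : Pl L) (q : ℕ) (hq : q.Prime)
    (hqw : (q : 𝓞 L) ∈ w.asIdeal) (σ₀ : Gal(L/K)) (hσ₀ : σ₀ ∈ w.asIdeal.inertia Gal(L/K)) :
    ∃ A : ValuationSubring Ω, A.LiesOverPrime q ∧ ∃ τ ∈ A.inertiaSubgroupIn ℚ,
      ∀ y : L, τ (algebraMap L Ω y) = algebraMap L Ω (σ₀ y) := by
  have hgalΩ := isGalois_Qbar
  obtain ⟨Q, hQprime, hQw, hQP⟩ := dictv_exists_prime_above L w q hq hqw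
  obtain ⟨N, hNnormal, hNclosed, hNmem, hNfix⟩ := dictv_fixing_props L
  obtain ⟨σ, hσ⟩ := dictv_exists_lift K L σ₀
  have hσQ : ∀ a : 𝓑, (∀ n ∈ N, n • a = a) → σ • a - a ∈ Q := by
    intro a ha
    obtain ⟨y', hJy⟩ := hNfix a ha
    have h1 : σ₀ • y' - y' ∈ w.asIdeal := hσ₀ y'
    rw [← hQw] at h1
    have h2 : guJ L (σ₀ • y' - y') ∈ Q := h1
    have h3 : guJ L (σ₀ • y' - y') = σ • a - a := by
      apply Subtype.ext
      rw [map_sub, hJy]
      have ha' : (a : Ω) = algebraMap L Ω (y' : L) := by rw [← hJy]; rfl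
      show algebraMap L Ω (σ₀ (y' : L)) - (a : Ω) = σ (a : Ω) - (a : Ω)
      rw [ha', hσ]
    rwa [h3] at h2
  let _ : TopologicalSpace 𝓑 := ⊥
  have : DiscreteTopology 𝓑 := ⟨rfl⟩
  have : ContinuousSMul Γ 𝓑 := continuousSMul_iff_stabilizer_isOpen.mpr stabilizer_isOpen_B
  obtain ⟨n, hnN, hτ⟩ := il_lift_inertia N hNclosed Q σ hσQ
  have halg := exists_poly_B q hq Q hQP
  have hmem := gu_mem_inertia_locVS Q halg (n * σ) hτ
  have hqQ : (q : 𝓑) ∈ Q := by
    have : (q : ℤ) ∈ Q.comap (algebraMap ℤ 𝓑) := by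
      rw [hQP]; exact Ideal.mem_span_singleton_self _
    simpa using this
  refine ⟨locVS 𝓑 mem_of_isIntegral_B Q halg, ?_, n * σ, hmem, fun y => ?_⟩
  · have := coe_mem_nonunits_locVS 𝓑 mem_of_isIntegral_B Q halg hqQ
    simpa [ValuationSubring.LiesOverPrime] using this
  · show n (σ (algebraMap L Ω y)) = _
    rw [hσ, (hNmem n).mp hnN]

omit [Algebra K Ω] [IsScalarTower K L Ω] in
theorem dictv_exists_lift_decomposition [IsGalois K L] [IsGalois ℚ L] (w : Pl L) (q : ℕ)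
    (hq : q.Prime) (hqw : (q : 𝓞 L) ∈ w.asIdeal) (σ₀ : Gal(L/K))
    (hσ₀ : σ₀ ∈ MulAction.stabilizer Gal(L/K) w.asIdeal) :
    ∃ A : ValuationSubring Ω, A.LiesOverPrime q ∧ ∃ τ ∈ A.decompositionSubgroup ℚ,
      ∀ y : L, τ (algebraMap L Ω y) = algebraMap L Ω (σ₀ y) := by
  have hgalΩ := isGalois_Qbar
  obtain ⟨Q, hQprime, hQw, hQP⟩ := dictv_exists_prime_above L w q hq hqw
  obtain ⟨N, hNnormal, hNclosed, hNmem, hNfix⟩ := dictv_fixing_props L
  obtain ⟨σ, hσ⟩ := dictv_exists_lift K L σ₀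
  have hσ₀w : σ₀ • w.asIdeal = w.asIdeal := MulAction.mem_stabilizer_iff.mp hσ₀
  have hσinv : ∀ y : L, σ⁻¹ (algebraMap L Ω y) = algebraMap L Ω (σ₀⁻¹ y) := by
    intro y
    have h1 := hσ (σ₀⁻¹ y)
    have h2 : σ₀ (σ₀⁻¹ y) = y := by
      show (σ₀ * σ₀⁻¹) y = y
      rw [mul_inv_cancel]; rfl
    rw [h2] at h1
    rw [← h1]
    show (σ⁻¹ * σ) _ = _
    rw [inv_mul_cancel]; rfl
  have hσQ : ∀ a : 𝓑, (∀ n ∈ N, n • a = a) → (σ⁻¹ • a ∈ Q ↔ a ∈ Q) := by
    intro a ha
    obtain ⟨y', hJy⟩ := hNfix a ha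
    have ha' : (a : Ω) = algebraMap L Ω (y' : L) := by rw [← hJy]; rfl
    have h3 : σ⁻¹ • a = guJ L (σ₀⁻¹ • y') := by
      apply Subtype.ext
      show σ⁻¹ (a : Ω) = algebraMap L Ω (σ₀⁻¹ (y' : L))
      rw [ha', hσinv]
    rw [h3, ← hJy]
    show σ₀⁻¹ • y' ∈ Q.comap (guJ L) ↔ y' ∈ Q.comap (guJ L)
    rw [hQw, ← Ideal.mem_pointwise_smul_iff_inv_smul_mem, hσ₀w]
  let _ : TopologicalSpace 𝓑 := ⊥
  have : DiscreteTopology 𝓑 := ⟨rfl⟩
  have : ContinuousSMul Γ 𝓑 := continuousSMul_iff_stabilizer_isOpen.mpr stabilizer_isOpen_B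
  obtain ⟨n, hnN, hτQ⟩ := dictv_lift_stabilizer N hNclosed Q σ hσQ
  have halg := exists_poly_B q hq Q hQP
  have hqQ : (q : 𝓑) ∈ Q := by
    have : (q : ℤ) ∈ Q.comap (algebraMap ℤ 𝓑) := by
      rw [hQP]; exact Ideal.mem_span_singleton_self _
    simpa using this
  have hτinvQ : (n * σ)⁻¹ • Q = Q := by
    conv_lhs => rw [← hτQ]
    rw [inv_smul_smul]
  refine ⟨locVS 𝓑 mem_of_isIntegral_B Q halg, ?_, n * σ, ?_, fun y => ?_⟩
  · have := coe_mem_nonunits_locVS 𝓑 mem_of_isIntegral_B Q halg hqQ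
    simpa [ValuationSubring.LiesOverPrime] using this
  · rw [ValuationSubring.decompositionSubgroup, MulAction.mem_stabilizer_iff]
    ext x
    rw [ValuationSubring.mem_pointwise_smul_iff_inv_smul_mem]
    constructor
    · intro h
      have := smul_mem_locVS Q halg (n * σ) hτQ _ h
      simpa using this
    · intro h
      exact smul_mem_locVS Q halg (n * σ)⁻¹ hτinvQ _ h
  · show n (σ (algebraMap L Ω y)) = _
    rw [hσ, (hNmem n).mp hnN]

/-- **Dictionary, inertia form.**  If, for every valuation subring `A` of `ℚ̄` over `q`, every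
element of the inertia subgroup of `A` fixing `K` also fixes `L`, then every prime `w` of `L` over
`q` is unramified over `K`. -/
theorem dictv_ramificationIdx_eq_one [IsGalois K L] [IsGalois ℚ L] (w : Pl L) (q : ℕ)
    (hq : q.Prime) (hqw : (q : 𝓞 L) ∈ w.asIdeal)
    (h : ∀ A : ValuationSubring Ω, A.LiesOverPrime q → ∀ σ ∈ A.inertiaSubgroupIn ℚ,
      (∀ x : K, σ (algebraMap K Ω x) = algebraMap K Ω x) →
      ∀ y : L, σ (algebraMap L Ω y) = algebraMap L Ω y) :
    Ideal.ramificationIdx w.asIdeal (𝓞 K) = 1 := by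
  have hcard : Nat.card (w.asIdeal.inertia Gal(L/K)) = w.asIdeal.ramificationIdx (𝓞 K) := by
    rw [Ideal.card_inertia_eq_ramificationIdxIn (G := Gal(L/K)) (w.asIdeal.under (𝓞 K)) w.asIdeal,
      Ideal.ramificationIdxIn_eq_ramificationIdx (w.asIdeal.under (𝓞 K)) w.asIdeal Gal(L/K)]
  rw [← hcard]
  have hbot : w.asIdeal.inertia Gal(L/K) = ⊥ := by
    rw [Subgroup.eq_bot_iff_forall]
    intro σ₀ hσ₀
    obtain ⟨A, hA, τ, hτA, hτ⟩ := dictv_exists_lift_inertia K L w q hq hqw σ₀ hσ₀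
    have h1 := h A hA τ hτA (dictv_fixes_of_restrict K L σ₀ τ hτ)
    apply AlgEquiv.ext
    intro y
    have h2 := h1 y
    rw [hτ] at h2
    exact (algebraMap L Ω).injective h2
  rw [hbot]
  simp

/-- **Dictionary, decomposition form.**  If, for every valuation subring `A` of `ℚ̄` over `q`, every
element of the decomposition subgroup of `A` fixing `K` also fixes `L`, then every prime `w` of `L`
over `q` has `e = f = 1` over `K`. -/
theorem dictv_ramificationIdx_inertiaDeg_eq_one [IsGalois K L] [IsGalois ℚ L] (w : Pl L) (q : ℕ)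
    (hq : q.Prime) (hqw : (q : 𝓞 L) ∈ w.asIdeal)
    (h : ∀ A : ValuationSubring Ω, A.LiesOverPrime q → ∀ σ ∈ A.decompositionSubgroup ℚ,
      (∀ x : K, σ (algebraMap K Ω x) = algebraMap K Ω x) →
      ∀ y : L, σ (algebraMap L Ω y) = algebraMap L Ω y) :
    Ideal.ramificationIdx w.asIdeal (𝓞 K) = 1 ∧ Ideal.inertiaDeg w.asIdeal (𝓞 K) = 1 := by
  have hcard : Nat.card (MulAction.stabilizer Gal(L/K) w.asIdeal) =
      w.asIdeal.ramificationIdx (𝓞 K) * w.asIdeal.inertiaDeg (𝓞 K) := by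
    rw [Ideal.card_stabilizer_eq (G := Gal(L/K)) (w.asIdeal.under (𝓞 K)) w.asIdeal,
      Ideal.ramificationIdxIn_eq_ramificationIdx (w.asIdeal.under (𝓞 K)) w.asIdeal Gal(L/K),
      Ideal.inertiaDegIn_eq_inertiaDeg (w.asIdeal.under (𝓞 K)) w.asIdeal Gal(L/K)]
  have hbot : MulAction.stabilizer Gal(L/K) w.asIdeal = ⊥ := by
    rw [Subgroup.eq_bot_iff_forall]
    intro σ₀ hσ₀
    obtain ⟨A, hA, τ, hτA, hτ⟩ := dictv_exists_lift_decomposition K L w q hq hqw σ₀ hσ₀
    have h1 := h A hA τ hτA (dictv_fixes_of_restrict K L σ₀ τ hτ)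
    apply AlgEquiv.ext
    intro y
    have h2 := h1 y
    rw [hτ] at h2
    exact (algebraMap L Ω).injective h2
  rw [hbot] at hcard
  have h1 : w.asIdeal.ramificationIdx (𝓞 K) * w.asIdeal.inertiaDeg (𝓞 K) = 1 := by
    rw [← hcard]; simp
  exact ⟨Nat.eq_one_of_mul_eq_one_right h1, Nat.eq_one_of_mul_eq_one_left h1⟩

omit [Algebra L Ω] in
/-- every finite prime of a number field lies over a rational prime -/
theorem dictv_exists_prime_mem (w : Pl L) : ∃ q : ℕ, q.Prime ∧ (q : 𝓞 L) ∈ w.asIdeal := by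
  have hne : w.asIdeal.under ℤ ≠ ⊥ := Ideal.under_ne_bot ℤ w.ne_bot
  have hprime : (w.asIdeal.under ℤ).IsPrime := inferInstance
  obtain ⟨g, hg⟩ := IsPrincipalIdealRing.principal (w.asIdeal.under ℤ)
  have hg' : w.asIdeal.under ℤ = Ideal.span {g} := hg
  have hg0 : g ≠ 0 := by
    rintro rfl
    apply hne
    rw [hg']
    simp
  have hgp : Prime g := by
    rw [← Ideal.span_singleton_prime hg0, ← hg']
    exact hprime
  refine ⟨g.natAbs, Int.prime_iff_natAbs_prime.mp hgp, ?_⟩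
  have h1 : (g.natAbs : ℤ) ∈ w.asIdeal.under ℤ := by
    rw [hg', Ideal.mem_span_singleton]
    exact Int.dvd_natAbs_self
  have h2 : algebraMap ℤ (𝓞 L) (g.natAbs : ℤ) ∈ w.asIdeal := h1
  simpa using h2

omit [Algebra K Ω] [Algebra L Ω] [IsScalarTower K L Ω] in
/-- a rational integer in `v` is in every `w` over `v` -/
theorem dictv_natCast_mem_of_plOver (w : Pl L) (v : Pl K) (hwv : PlOver K L w v) (m : ℕ)
    (hm : (m : 𝓞 K) ∈ v.asIdeal) : (m : 𝓞 L) ∈ w.asIdeal := by
  rw [← hwv] at hm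
  have h1 : algebraMap (𝓞 K) (𝓞 L) (m : 𝓞 K) ∈ w.asIdeal := hm
  simpa using h1

end Concrete

end

end Fermat.Agent.S14x
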