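import Mathlib
import Fermat.Agent.S14x.Defs
import Fermat.Agent.S14x.DictVal

/-!
# S14 project, module DICT-C: the ramification dictionary (helper74)

Exact `DictSpec` shapes, deduced from the generic statements of `DictVal.lean`.
-/

set_option autoImplicit false

namespace Fermat.Agent.S14x

open NumberField IsDedekindDomain
open scoped Pointwise

section Ram

variable (Lf : IntermediateField ℚ (AlgebraicClosure ℚ)) [NumberField Lf] [IsGalois ℚ Lf]
  (Kf : IntermediateField ℚ Lf) [NumberField Kf]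

/-- if every inertia element (at every valuation subring of `ℚ̄` over the residue characteristic
of `w`) which fixes `Kf` also fixes `Lf`, then `w` is unramified over `Kf`. -/
theorem dc_ramificationIdx_eq_one (w : Pl Lf) (ℓ : ℕ) (hℓ : ℓ.Prime) (hw : (ℓ : 𝓞 Lf) ∈ w.asIdeal)
    (h : ∀ A : ValuationSubring (AlgebraicClosure ℚ), A.LiesOverPrime ℓ →
      ∀ σ ∈ A.inertiaSubgroupIn ℚ,
        (∀ x : Lf, x ∈ Kf → σ (x : AlgebraicClosure ℚ) = x) →
        ∀ x : Lf, σ (x : AlgebraicClosure ℚ) = x) :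
    Ideal.ramificationIdx w.asIdeal (𝓞 Kf) = 1 := by
  refine dictv_ramificationIdx_eq_one Kf Lf w ℓ hℓ hw ?_
  intro A hA σ hσ hK y
  exact h A hA σ hσ (fun x hx => hK ⟨x, hx⟩) y

/-- the same with decomposition groups: `e = f = 1`. -/
theorem dc_splitsCompletely (v : Pl Kf) (ℓ : ℕ) (hℓ : ℓ.Prime) (hv : (ℓ : 𝓞 Kf) ∈ v.asIdeal)
    (h : ∀ A : ValuationSubring (AlgebraicClosure ℚ), A.LiesOverPrime ℓ →
      ∀ σ ∈ A.decompositionSubgroup ℚ,
        (∀ x : Lf, x ∈ Kf → σ (x : AlgebraicClosure ℚ) = x) →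
        ∀ x : Lf, σ (x : AlgebraicClosure ℚ) = x) :
    SplitsCompletely Kf Lf v := by
  intro w hwv
  refine dictv_ramificationIdx_inertiaDeg_eq_one Kf Lf w ℓ hℓ
    (dictv_natCast_mem_of_plOver Kf Lf w v hwv ℓ hv) ?_
  intro A hA σ hσ hK y
  exact h A hA σ hσ (fun x hx => hK ⟨x, hx⟩) y

/-- every prime of a number field contains a unique rational prime -/
theorem dc_exists_prime_mem (w : Pl Lf) : ∃ ℓ : ℕ, ℓ.Prime ∧ (ℓ : 𝓞 Lf) ∈ w.asIdeal :=
  dictv_exists_prime_mem Lf w

end Ram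

end Fermat.Agent.S14x
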