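import Fermat.Agent.S14x.DictCocycle
import Fermat.Agent.S14x.DictGal
import Fermat.Agent.S14x.DictRam

/-!
# S14 project, DICT-B/D (shadow, helper97): the tower attached to a non-split admissible extension

`dt_tower_of` : pure Galois theory.  From an open normal subgroup `N ≤ ker ω` of `G_ℚ` with
`ker ω / N` generated by `σ₀` of order `p`, the conjugation relation and the local conditions,
build a `Tower p` with `L = fixedField N`, `K = ℚ(ζ_p) ⊆ L`.

`dt_exists_tower` : the statement of `Spec.exists_tower`.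
-/

set_option autoImplicit false
set_option linter.unusedSectionVars false

namespace Fermat.Agent.S14x

open NumberField IsDedekindDomain ExtCitation IntermediateField

local notation "Ω" => AlgebraicClosure ℚ

section Lift

variable (Lf : IntermediateField ℚ Ω) [NumberField Lf] [IsGalois ℚ Lf]
  (Kf : IntermediateField ℚ Lf)

/-- restriction of an element of `G_ℚ` to `Lf` -/
noncomputable def dt_res (σ : s14G) : Lf ≃ₐ[ℚ] Lf :=
  AlgEquiv.restrictNormalHom (F := ℚ) (K₁ := Ω) Lf σ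

theorem dt_res_apply (σ : s14G) (x : Lf) : ((dt_res Lf σ x : Lf) : Ω) = σ (x : Ω) :=
  AlgEquiv.restrictNormal_commutes σ Lf x

theorem dt_res_mul (σ τ : s14G) : dt_res Lf (σ * τ) = dt_res Lf σ * dt_res Lf τ :=
  map_mul _ σ τ

theorem dt_res_pow (σ : s14G) (k : ℕ) : dt_res Lf (σ ^ k) = dt_res Lf σ ^ k :=
  map_pow _ σ k

/-- every `ℚ`-automorphism of `Lf` is a restriction -/
theorem dt_exists_lift (s : Lf ≃ₐ[ℚ] Lf) : ∃ σ : s14G, ∀ y : Lf, σ (y : Ω) = ((s y : Lf) : Ω) := by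
  obtain ⟨σ, hσ⟩ := dictv_exists_lift ℚ Lf s
  exact ⟨σ, hσ⟩

/-- every `Kf`-automorphism of `Lf` is a restriction -/
theorem dt_exists_lift' (h : Lf ≃ₐ[Kf] Lf) :
    ∃ σ : s14G, ∀ y : Lf, σ (y : Ω) = ((h y : Lf) : Ω) := by
  obtain ⟨σ, hσ⟩ := dictv_exists_lift Kf Lf h
  exact ⟨σ, hσ⟩

theorem dt_lift_pow {h : Lf ≃ₐ[Kf] Lf} {σ : s14G}
    (hσ : ∀ y : Lf, σ (y : Ω) = ((h y : Lf) : Ω)) (k : ℕ) (y : Lf) :
    (σ ^ k) (y : Ω) = (((h ^ k) y : Lf) : Ω) := by
  induction k generalizing y with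
  | zero => simp
  | succ n ih =>
    rw [pow_succ, pow_succ, AlgEquiv.mul_apply, AlgEquiv.mul_apply, hσ, ih]

end Lift

section Builder

variable {p : ℕ} [Fact p.Prime] (N : Subgroup s14G)

/-- a primitive `p`-th root of unity of `ℚ̄` lies in `fixedField N` when `N ≤ ker ω` -/
theorem dt_zeta_mem (hNle : N ≤ (s14Chi p).ker) {ζ : Ω} (hζ : IsPrimitiveRoot ζ p) :
    ζ ∈ fixedField N := by
  rw [dg_mem_fixedField]
  intro σ hσ
  exact (dca_chi_eq_one_iff hζ σ).mp (MonoidHom.mem_ker.mp (hNle hσ))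

variable (Lf : IntermediateField ℚ Ω) [NumberField Lf] [IsGalois ℚ Lf]

/-- an element of `G_ℚ` fixing `ℚ(ζ) ⊆ Lf` pointwise has `ω = 1` -/
theorem dt_chi_eq_one_of_fixes {ζL : Lf} (hζL : IsPrimitiveRoot ζL p) {σ : s14G}
    (h : ∀ x : Lf, x ∈ IntermediateField.adjoin ℚ {ζL} → σ (x : Ω) = x) : s14Chi p σ = 1 := by
  have hζ : IsPrimitiveRoot ((ζL : Lf) : Ω) p :=
    hζL.map_of_injective (f := algebraMap Lf Ω) (algebraMap Lf Ω).injective
  rw [dca_chi_eq_one_iff hζ]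
  exact h ζL (IntermediateField.subset_adjoin ℚ {ζL} rfl)

/-- an element of `G_ℚ` with `ω = 1` fixes `ℚ(ζ) ⊆ Lf` pointwise -/
theorem dt_res_mem_fixingSubgroup {ζL : Lf} (hζL : IsPrimitiveRoot ζL p) {σ : s14G}
    (hσ : s14Chi p σ = 1) :
    dt_res Lf σ ∈ (IntermediateField.adjoin ℚ {ζL}).fixingSubgroup := by
  have hζ : IsPrimitiveRoot ((ζL : Lf) : Ω) p :=
    hζL.map_of_injective (f := algebraMap Lf Ω) (algebraMap Lf Ω).injective
  have hfix : dt_res Lf σ ζL = ζL := by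
    apply Subtype.ext
    rw [dt_res_apply]
    exact (dca_chi_eq_one_iff hζ σ).mp hσ
  have hle : IntermediateField.adjoin ℚ {ζL} ≤
      IntermediateField.fixedField (Subgroup.zpowers (dt_res Lf σ)) := by
    rw [IntermediateField.adjoin_le_iff]
    rintro x rfl
    rw [SetLike.mem_coe, IntermediateField.mem_fixedField_iff]
    rintro f hf
    obtain ⟨n, rfl⟩ := Subgroup.mem_zpowers_iff.mp hf
    have h1 : ∀ m : ℕ, ((dt_res Lf σ) ^ m) x = x := by
      intro m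
      induction m with
      | zero => simp
      | succ k ih => rw [pow_succ, AlgEquiv.mul_apply, hfix, ih]
    have h2 : ∀ m : ℕ, ((dt_res Lf σ)⁻¹ ^ m) x = x := by
      intro m
      have := h1 m
      rw [inv_pow]
      calc ((dt_res Lf σ ^ m)⁻¹) x = ((dt_res Lf σ ^ m)⁻¹) ((dt_res Lf σ ^ m) x) := by rw [this]
        _ = x := by
          rw [← AlgEquiv.mul_apply, inv_mul_cancel, AlgEquiv.one_apply]
    rcases Int.eq_nat_or_neg n with ⟨m, rfl | rfl⟩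
    · rw [zpow_natCast]; exact h1 m
    · rw [zpow_neg, zpow_natCast, ← inv_pow]; exact h2 m
  exact (IntermediateField.le_iff_le _ _).mp hle (Subgroup.mem_zpowers _)

variable {Lf}

/-- the group theory of `Gal(Lf/ℚ(ζ))` : generated by the restriction of `σ₀` -/
theorem dt_gal_props (hN : IsOpen (N : Set s14G)) (hL : Lf = fixedField N)
    {ζL : Lf} (hζL : IsPrimitiveRoot ζL p)
    (σ₀ : s14G) (hσ₀ : s14Chi p σ₀ = 1) (hσ₀N : σ₀ ∉ N) (hσ₀p : σ₀ ^ p ∈ N)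
    (hpow : ∀ σ : s14G, s14Chi p σ = 1 → ∃ k : ℕ, (σ₀ ^ k)⁻¹ * σ ∈ N) :
    ∃ g : Lf ≃ₐ[IntermediateField.adjoin ℚ {ζL}] Lf, g ≠ 1 ∧
      Module.finrank (IntermediateField.adjoin ℚ {ζL}) Lf = p := by
  set Kf : IntermediateField ℚ Lf := IntermediateField.adjoin ℚ {ζL} with hKf
  -- the generator
  let g₀ : Kf.fixingSubgroup := ⟨dt_res Lf σ₀, dt_res_mem_fixingSubgroup Lf hζL hσ₀⟩
  let g : Lf ≃ₐ[Kf] Lf := IntermediateField.fixingSubgroupEquiv Kf g₀
  have hg_apply : ∀ y : Lf, ((g y : Lf) : Ω) = σ₀ (y : Ω) := by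
    intro y
    have : g y = dt_res Lf σ₀ y := rfl
    rw [this, dt_res_apply]
  have hg_pow : ∀ (k : ℕ) (y : Lf), (((g ^ k) y : Lf) : Ω) = (σ₀ ^ k) (y : Ω) := by
    intro k y
    exact (dt_lift_pow Lf Kf (h := g) (σ := σ₀) (fun y => (hg_apply y).symm) k y).symm
  have hmemL : ∀ y : Lf, (y : Ω) ∈ fixedField N := fun y => hL ▸ y.2
  have hg1 : g ≠ 1 := by
    intro h1
    apply hσ₀N
    apply dg_mem_of_fixes N hN
    intro x hx
    have hx' : x ∈ Lf := hL ▸ hx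
    have := hg_apply ⟨x, hx'⟩
    rw [h1, AlgEquiv.one_apply] at this
    exact this.symm
  have hgp : g ^ p = 1 := by
    apply AlgEquiv.ext
    intro y
    apply Subtype.ext
    rw [hg_pow, AlgEquiv.one_apply]
    exact (dg_mem_fixedField N _).mp (hmemL y) _ hσ₀p
  have hgen : ∀ h : Lf ≃ₐ[Kf] Lf, h ∈ Subgroup.zpowers g := by
    intro h
    obtain ⟨σ, hσ⟩ := dt_exists_lift' Lf Kf h
    have hχ : s14Chi p σ = 1 := by
      apply dt_chi_eq_one_of_fixes Lf hζL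
      intro x hx
      rw [hσ x]
      have : h x = x := h.commutes ⟨x, hx⟩
      rw [this]
    obtain ⟨k, hk⟩ := hpow σ hχ
    refine Subgroup.mem_zpowers_iff.mpr ⟨(k : ℤ), ?_⟩
    rw [zpow_natCast]
    apply AlgEquiv.ext
    intro y
    apply Subtype.ext
    rw [hg_pow, ← hσ y]
    exact dg_apply_eq_of_mem N hk (hmemL y)
  have hord : orderOf g = p := orderOf_eq_prime hgp hg1
  have hcard : Nat.card (Lf ≃ₐ[Kf] Lf) = p := by
    rw [← orderOf_eq_card_of_forall_mem_zpowers hgen, hord]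
  refine ⟨g, hg1, ?_⟩
  rw [← IsGalois.card_aut_eq_finrank, hcard]

/-- the hypothesis of `dc_ramificationIdx_eq_one` / `dc_splitsCompletely` from a group-theoretic
inclusion -/
theorem dt_fixes_of_le (hL : Lf = fixedField N) {ζL : Lf} (hζL : IsPrimitiveRoot ζL p)
    {D : Subgroup s14G} (hD : D ⊓ (s14Chi p).ker ≤ N) (σ : s14G) (hσ : σ ∈ D)
    (hK : ∀ x : Lf, x ∈ IntermediateField.adjoin ℚ {ζL} → σ (x : Ω) = x) (x : Lf) :
    σ (x : Ω) = x := by
  have hχ : s14Chi p σ = 1 := dt_chi_eq_one_of_fixes Lf hζL hK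
  have hσN : σ ∈ N := hD ⟨hσ, MonoidHom.mem_ker.mpr hχ⟩
  have hx : (x : Ω) ∈ fixedField N := hL ▸ x.2
  exact (dg_mem_fixedField N _).mp hx σ hσN

/-- primes over `p` split completely -/
theorem dt_split_p (hL : Lf = fixedField N) {ζL : Lf} (hζL : IsPrimitiveRoot ζL p)
    (hdec : ∀ A : ValuationSubring Ω, A.LiesOverPrime p →
      A.decompositionSubgroup ℚ ⊓ (s14Chi p).ker ≤ N)
    (v : Pl (IntermediateField.adjoin ℚ {ζL}))
    (hv : (p : 𝓞 (IntermediateField.adjoin ℚ {ζL})) ∈ v.asIdeal) :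
    SplitsCompletely (IntermediateField.adjoin ℚ {ζL}) Lf v :=
  dc_splitsCompletely Lf _ v p (Fact.out : p.Prime) hv fun A hA σ hσ hK x =>
    dt_fixes_of_le N hL hζL (hdec A hA) σ hσ hK x

/-- unramified everywhere -/
theorem dt_unram (hL : Lf = fixedField N) {ζL : Lf} (hζL : IsPrimitiveRoot ζL p)
    (hin : ∀ ℓ : ℕ, ℓ.Prime → ℓ ≠ p → ∀ A : ValuationSubring Ω, A.LiesOverPrime ℓ →
      A.inertiaSubgroupIn ℚ ≤ N)
    (hdec : ∀ A : ValuationSubring Ω, A.LiesOverPrime p →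
      A.decompositionSubgroup ℚ ⊓ (s14Chi p).ker ≤ N) :
    UnramifiedEverywhere (IntermediateField.adjoin ℚ {ζL}) Lf := by
  intro w
  obtain ⟨ℓ, hℓ, hℓw⟩ := dc_exists_prime_mem Lf w
  by_cases hℓp : ℓ = p
  · subst hℓp
    set Kf : IntermediateField ℚ Lf := IntermediateField.adjoin ℚ {ζL} with hKf
    have hv : (ℓ : 𝓞 Kf) ∈ (plUnder Kf Lf w).asIdeal := by
      show (ℓ : 𝓞 Kf) ∈ w.asIdeal.under (𝓞 Kf)
      rw [Ideal.under_def, Ideal.mem_comap, map_natCast]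
      exact hℓw
    exact (dt_split_p N hL hζL hdec (plUnder Kf Lf w) hv w (plUnder_over Kf Lf w)).1
  · refine dc_ramificationIdx_eq_one Lf _ w ℓ hℓ hℓw fun A hA σ hσ hK x => ?_
    have hσN : σ ∈ N := hin ℓ hℓ hℓp A hA hσ
    have hx : (x : Ω) ∈ fixedField N := hL ▸ x.2
    exact (dg_mem_fixedField N _).mp hx σ hσN

/-- the conjugation relation (for an abstract intermediate field `Kf`) -/
theorem dt_conj_aux (hL : Lf = fixedField N) (Kf : IntermediateField ℚ Lf)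
    (hKf : ∀ σ : s14G, (∀ x : Lf, x ∈ Kf → σ (x : Ω) = x) → s14Chi p σ = 1)
    (hconj : ∀ (τ σ : s14G) (k : ℕ), s14Chi p σ = 1 →
      (k : ZMod p) = ((s14Chi p τ : (ZMod p)ˣ) : ZMod p) → (σ * τ)⁻¹ * (τ * σ ^ k) ∈ N)
    (s : Lf ≃ₐ[ℚ] Lf) (h : Lf ≃ₐ[Kf] Lf) (ζ' : Kf) (k : ℕ) (hζ' : IsPrimitiveRoot ζ' p)
    (hs : s (algebraMap Kf Lf ζ') = (algebraMap Kf Lf ζ') ^ k) (x : Lf) :
    s ((h ^ k) x) = h (s x) := by
  obtain ⟨τ, hτ⟩ := dt_exists_lift Lf s
  obtain ⟨σ, hσ⟩ := dt_exists_lift' Lf Kf h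
  have hχσ : s14Chi p σ = 1 := by
    apply hKf
    intro y hy
    rw [hσ y]
    have : h y = y := h.commutes ⟨y, hy⟩
    rw [this]
  -- the primitive root `ζ'` inside `Ω`
  set z : Ω := ((algebraMap Kf Lf ζ' : Lf) : Ω) with hz
  have hzprim : IsPrimitiveRoot z p := by
    have h1 : IsPrimitiveRoot (algebraMap Kf Lf ζ') p :=
      hζ'.map_of_injective (algebraMap Kf Lf).injective
    exact h1.map_of_injective (f := algebraMap Lf Ω) (algebraMap Lf Ω).injective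
  have hτz : τ z = z ^ k := by
    rw [hz, hτ, hs]
    rfl
  have hk : (k : ZMod p) = ((s14Chi p τ : (ZMod p)ˣ) : ZMod p) :=
    (dca_apply_zeta_eq_pow_iff hzprim τ k).mp hτz
  have hmem := hconj τ σ k hχσ hk
  have hxL : ((x : Lf) : Ω) ∈ fixedField N := hL ▸ x.2
  have hagree : (σ * τ) (x : Ω) = (τ * σ ^ k) (x : Ω) := dg_apply_eq_of_mem N hmem hxL
  apply Subtype.ext
  rw [← hτ, ← dt_lift_pow Lf Kf hσ k x, ← hσ, ← hτ]
  exact hagree.symm

variable (Lf) in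
/-- `ℚ(ζ) ⊆ Lf` is a cyclotomic extension of `ℚ` (with the `ℚ`-algebra structure of a field) -/
theorem dt_isCyclotomicExtension {ζL : Lf} (hζL : IsPrimitiveRoot ζL p) :
    IsCyclotomicExtension {p} ℚ (IntermediateField.adjoin ℚ {ζL}) := by
  have : NeZero p := ⟨(Fact.out : p.Prime).ne_zero⟩
  have key : @IsCyclotomicExtension {p} ℚ (IntermediateField.adjoin ℚ {ζL}) _ _
      (IntermediateField.algebra' (IntermediateField.adjoin ℚ {ζL})) := by
    exact hζL.intermediateField_adjoin_isCyclotomicExtension ℚ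
  have e : (IntermediateField.algebra' (IntermediateField.adjoin ℚ {ζL}) :
      Algebra ℚ (IntermediateField.adjoin ℚ {ζL})) = DivisionRing.toRatAlgebra :=
    Subsingleton.elim _ _
  rw [← e]
  exact key

/-- **The tower from group-theoretic data.** -/
theorem dt_tower_of [N.Normal] (hN : IsOpen (N : Set s14G)) (hNle : N ≤ (s14Chi p).ker)
    (σ₀ : s14G) (hσ₀ : s14Chi p σ₀ = 1) (hσ₀N : σ₀ ∉ N) (hσ₀p : σ₀ ^ p ∈ N)
    (hpow : ∀ σ : s14G, s14Chi p σ = 1 → ∃ k : ℕ, (σ₀ ^ k)⁻¹ * σ ∈ N)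
    (hconj : ∀ (τ σ : s14G) (k : ℕ), s14Chi p σ = 1 →
      (k : ZMod p) = ((s14Chi p τ : (ZMod p)ˣ) : ZMod p) → (σ * τ)⁻¹ * (τ * σ ^ k) ∈ N)
    (hin : ∀ ℓ : ℕ, ℓ.Prime → ℓ ≠ p → ∀ A : ValuationSubring Ω, A.LiesOverPrime ℓ →
      A.inertiaSubgroupIn ℚ ≤ N)
    (hdec : ∀ A : ValuationSubring Ω, A.LiesOverPrime p →
      A.decompositionSubgroup ℚ ⊓ (s14Chi p).ker ≤ N) :
    Nonempty (Tower p) := by
  have : NeZero p := ⟨(Fact.out : p.Prime).ne_zero⟩
  have hNF : NumberField (fixedField N) := dg_numberField N hN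
  have hGal : IsGalois ℚ (fixedField N) := dg_isGalois N hN
  obtain ⟨ζ, hζ⟩ := HasEnoughRootsOfUnity.exists_primitiveRoot Ω p
  let ζL : fixedField N := ⟨ζ, dt_zeta_mem N hNle hζ⟩
  have hζL : IsPrimitiveRoot ζL p :=
    IsPrimitiveRoot.of_map_of_injective (f := algebraMap (fixedField N) Ω) hζ
      (algebraMap (fixedField N) Ω).injective
  obtain ⟨g, hg1, hfin⟩ := dt_gal_props N hN rfl hζL σ₀ hσ₀ hσ₀N hσ₀p hpow
  have hcyc := dt_isCyclotomicExtension (fixedField N) hζL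
  exact ⟨{
    K := IntermediateField.adjoin ℚ {ζL}
    L := fixedField N
    g := g
    g_ne_one := hg1
    finrank_eq := hfin
    unram := dt_unram N rfl hζL hin hdec
    split_p := dt_split_p N rfl hζL hdec
    conj := dt_conj_aux N rfl _ (fun σ h => dt_chi_eq_one_of_fixes _ hζL h) hconj }⟩

end Builder

/-- **DICT** (`Spec.exists_tower`): a non-split continuous admissible extension produces a tower. -/
theorem dt_exists_tower {p : ℕ} [Fact p.Prime] (h3 : 3 ≤ p)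
    (V : Type) [AddCommGroup V] [Module (ZMod p) V]
    [DistribMulAction (AlgebraicClosure ℚ ≃ₐ[ℚ] AlgebraicClosure ℚ) V]
    [SMulCommClass (AlgebraicClosure ℚ ≃ₐ[ℚ] AlgebraicClosure ℚ) (ZMod p) V]
    (C : Submodule (ZMod p) V) (hadm : IsAdmissibleExtensionCts p V C)
    (hns : ¬ SplitsGlobally C) : Nonempty (Tower p) := by
  have hC : IsAdmissibleExtension p V C := hadm.toIsAdmissibleExtension
  obtain ⟨σ₀, hσ₀, hσ₀N⟩ := dca_exists_gen h3 hC hns
  refine dt_tower_of (dca_kerRho V) (dca_isOpen_kerRho hadm) (dca_kerRho_le hC) σ₀ hσ₀ hσ₀N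
    (dca_pow_p_mem hC hσ₀) ?_ ?_ ?_ ?_
  · intro σ hσ
    obtain ⟨k, _, hk⟩ := dca_exists_pow hC hσ₀ hσ₀N hσ
    exact ⟨k, hk⟩
  · intro τ σ k hσ hk
    exact dca_conj_mem hC τ hσ k hk
  · intro ℓ hℓ hℓp A hA
    exact dca_inertia_le hC hℓ hℓp A hA
  · intro A hA
    exact dca_decomp_le hC A hA

end Fermat.Agent.S14x
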