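/-
S14 project, module AAPI (Artin-map API): Frobenius elements of an everywhere unramified cyclic
extension `M/F` of prime degree `p` (helper33).  Prefix `aa_`; the Spec-named exports are
`frob_eq_pow`, `frobExp_eq_zero_iff`, `frob_spec`, `frob_unique`, `tower_isUCyc`.
-/
import Fermat.Agent.S14x.Defs

set_option autoImplicit false
set_option linter.unusedSectionVars false

namespace Fermat.Agent.S14x

open NumberField IsDedekindDomain
open scoped Pointwise

section General

variable {p : ℕ} [Fact p.Prime]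
variable {F M : Type} [Field F] [NumberField F] [Field M] [NumberField M] [Algebra F M]
  [IsGalois F M] {g : M ≃ₐ[F] M}

/-! ### the Galois group is cyclic of order `p`, generated by `g` -/

theorem aa_card (h : IsUCyc p F M g) : Nat.card (M ≃ₐ[F] M) = p := by
  rw [IsGalois.card_aut_eq_finrank, h.finrank_eq]

theorem aa_orderOf (h : IsUCyc p F M g) : orderOf g = p := by
  have hd : orderOf g ∣ p := by
    rw [← aa_card h]
    exact orderOf_dvd_natCard g
  rcases (Nat.dvd_prime Fact.out).mp hd with h1 | h1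
  · exact absurd (orderOf_eq_one_iff.mp h1) h.g_ne_one
  · exact h1

theorem aa_zpowers_eq_top (h : IsUCyc p F M g) : Subgroup.zpowers g = ⊤ := by
  apply Subgroup.eq_top_of_card_eq
  rw [Nat.card_zpowers, aa_orderOf h, aa_card h]

/-- every element of the Galois group is `g ^ e.val` for some `e : ZMod p` -/
theorem aa_exists_pow (h : IsUCyc p F M g) (s : M ≃ₐ[F] M) : ∃ e : ZMod p, s = g ^ e.val := by
  have hs : s ∈ Subgroup.zpowers g := by
    rw [aa_zpowers_eq_top h]
    exact Subgroup.mem_top s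
  obtain ⟨k, rfl⟩ := Subgroup.mem_zpowers_iff.mp hs
  refine ⟨(k : ZMod p), ?_⟩
  have h1 : ((k : ZMod p).val : ℤ) = k % (p : ℤ) := ZMod.val_intCast k
  rw [← zpow_natCast, h1, ← aa_orderOf h, zpow_mod_orderOf]

theorem aa_pow_val_injective (h : IsUCyc p F M g) {a b : ZMod p}
    (hab : g ^ a.val = g ^ b.val) : a = b := by
  have h1 : a.val ≡ b.val [MOD orderOf g] := pow_eq_pow_iff_modEq.mp hab
  rw [aa_orderOf h] at h1
  have h2 : a.val = b.val := Nat.ModEq.eq_of_lt_of_lt h1 (ZMod.val_lt a) (ZMod.val_lt b)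
  exact ZMod.val_injective p h2

/-- the Galois group is commutative -/
theorem aa_comm (h : IsUCyc p F M g) (s t : M ≃ₐ[F] M) : s * t = t * s := by
  obtain ⟨a, rfl⟩ := aa_exists_pow h s
  obtain ⟨b, rfl⟩ := aa_exists_pow h t
  rw [← pow_add, ← pow_add, add_comm]

/-- every element of `Gal(M/F)` is a power of `g`, hence `frobExp` is the true exponent. -/
theorem frob_eq_pow (h : IsUCyc p F M g) (v : Pl F) :
    frob F M v = g ^ (frobExp F M p g v).val := by
  have hex : ∃ e : ZMod p, frob F M v = g ^ e.val := aa_exists_pow h _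
  unfold frobExp
  rw [dif_pos hex]
  exact hex.choose_spec

theorem aa_frobExp_eq_iff (h : IsUCyc p F M g) (v : Pl F) (e : ZMod p) :
    frobExp F M p g v = e ↔ frob F M v = g ^ e.val := by
  constructor
  · rintro rfl
    exact frob_eq_pow h v
  · intro he
    apply aa_pow_val_injective h
    rw [← frob_eq_pow h v, he]

theorem aa_frobExp_eq_zero_iff_frob (h : IsUCyc p F M g) (v : Pl F) :
    frobExp F M p g v = 0 ↔ frob F M v = 1 := by
  rw [aa_frobExp_eq_iff h v 0, ZMod.val_zero, pow_zero]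

/-! ### Frobenius elements at all primes above `v` -/

theorem aa_card_quot (v : Pl F) : Nat.card (𝓞 F ⧸ v.asIdeal) = plNorm v := by
  rw [plNorm, Ideal.absNorm_apply, Submodule.cardQuot_apply]

theorem aa_finite_quot (w : Pl M) : Finite (𝓞 M ⧸ w.asIdeal) :=
  Ideal.finiteQuotientOfFreeOfNeBot _ w.ne_bot

/-- `frob F M v` is an arithmetic Frobenius at the chosen prime above `v`. -/
theorem aa_isArithFrobAt_plAbove (v : Pl F) :
    IsArithFrobAt (𝓞 F) (frob F M v) (plAbove F M v).asIdeal := by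
  have : Finite (𝓞 M ⧸ (plAbove F M v).asIdeal) := aa_finite_quot _
  exact IsArithFrobAt.arithFrobAt (𝓞 F) (M ≃ₐ[F] M) (plAbove F M v).asIdeal

/-- `frob F M v` is an arithmetic Frobenius at EVERY prime above `v`. -/
theorem aa_isArithFrobAt (h : IsUCyc p F M g) (v : Pl F) (w : Pl M) (hw : PlOver F M w v) :
    IsArithFrobAt (𝓞 F) (frob F M v) w.asIdeal := by
  have h0 := aa_isArithFrobAt_plAbove (M := M) v
  have hunder : (plAbove F M v).asIdeal.under (𝓞 F) = w.asIdeal.under (𝓞 F) := by
    rw [plAbove_over F M v, hw]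
  obtain ⟨τ, hτ⟩ := Algebra.IsInvariant.exists_smul_of_under_eq (𝓞 F) (𝓞 M) (M ≃ₐ[F] M)
    (plAbove F M v).asIdeal w.asIdeal hunder
  have h1 := h0.conj τ
  have h2 : τ * frob F M v * τ⁻¹ = frob F M v := by
    rw [aa_comm h τ, mul_inv_cancel_right]
  rw [h2, ← hτ] at h1
  exact h1

/-- the Frobenius `frob F M v` does not depend on the chosen prime above (abelian case):
it is an arithmetic Frobenius at EVERY prime `w` above `v`. -/
theorem frob_spec (h : IsUCyc p F M g) (v : Pl F) (w : Pl M) (hw : PlOver F M w v)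
    (x : 𝓞 M) : (frob F M v • x) - x ^ plNorm v ∈ w.asIdeal := by
  have h1 := aa_isArithFrobAt h v w hw x
  rw [hw, aa_card_quot] at h1
  exact h1

theorem aa_isArithFrobAt_of (v : Pl F) (w : Pl M) (hw : PlOver F M w v)
    (s : M ≃ₐ[F] M) (hs : ∀ x : 𝓞 M, (s • x) - x ^ plNorm v ∈ w.asIdeal) :
    IsArithFrobAt (𝓞 F) s w.asIdeal := by
  intro x
  rw [hw, aa_card_quot]
  exact hs x

/-- the inertia group of an unramified prime is trivial -/
theorem aa_inertia_eq_bot (h : IsUCyc p F M g) (w : Pl M) :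
    w.asIdeal.inertia (M ≃ₐ[F] M) = ⊥ := by
  have : w.asIdeal.LiesOver (plUnder F M w).asIdeal := ⟨rfl⟩
  have h1 := Ideal.card_inertia_eq_ramificationIdxIn (G := M ≃ₐ[F] M) (plUnder F M w).asIdeal
    w.asIdeal
  rw [Ideal.ramificationIdxIn_eq_ramificationIdx (plUnder F M w).asIdeal w.asIdeal
    (M ≃ₐ[F] M), h.unram w] at h1
  exact Subgroup.eq_bot_of_card_eq _ h1

/-- ...and is characterised by this property at ONE prime above. -/
theorem frob_unique (h : IsUCyc p F M g) (v : Pl F) (w : Pl M) (hw : PlOver F M w v)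
    (s : M ≃ₐ[F] M) (hs : ∀ x : 𝓞 M, (s • x) - x ^ plNorm v ∈ w.asIdeal) :
    s = frob F M v := by
  have h1 := aa_isArithFrobAt_of v w hw s hs
  have h2 := aa_isArithFrobAt h v w hw
  have h3 := h1.mul_inv_mem_inertia h2
  rw [aa_inertia_eq_bot h w, Subgroup.mem_bot] at h3
  exact mul_inv_eq_one.mp h3

/-! ### completely split primes -/

theorem aa_two_le_plNorm (v : Pl F) : 2 ≤ plNorm v := by
  have h1 : plNorm v ≠ 0 := by
    rw [plNorm, ne_eq, Ideal.absNorm_eq_zero_iff]
    exact v.ne_bot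
  have h2 : plNorm v ≠ 1 := by
    rw [plNorm, ne_eq, Ideal.absNorm_eq_one_iff]
    exact v.isPrime.ne_top
  omega

theorem aa_card_le_of_pow_eq {k : Type*} [Field k] [Fintype k] {q : ℕ} (hq : 2 ≤ q)
    (h : ∀ y : k, y ^ q = y) : Fintype.card k ≤ q := by
  classical
  have hne : (Polynomial.X ^ q - Polynomial.X : Polynomial k) ≠ 0 :=
    FiniteField.X_pow_card_sub_X_ne_zero k (by omega)
  have hsub : (Finset.univ : Finset k).val ⊆ (Polynomial.X ^ q - Polynomial.X : Polynomial k).roots := by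
    intro y _
    rw [Polynomial.mem_roots hne]
    simp [h y]
  have := Polynomial.card_le_degree_of_subset_roots hsub
  rw [Finset.card_univ] at this
  refine this.trans ?_
  rw [FiniteField.X_pow_card_sub_X_natDegree_eq k (by omega)]

/-- if the identity is an arithmetic Frobenius at `w` then the residue degree is `1` -/
theorem aa_inertiaDeg_eq_one_of_one (v : Pl F) (w : Pl M) (hw : PlOver F M w v)
    (h1 : ∀ x : 𝓞 M, x - x ^ plNorm v ∈ w.asIdeal) :
    Ideal.inertiaDeg w.asIdeal (𝓞 F) = 1 := by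
  classical
  have hLO : w.asIdeal.LiesOver v.asIdeal := ⟨hw.symm⟩
  have hfin : Finite (𝓞 M ⧸ w.asIdeal) := aa_finite_quot w
  let _ : Field (𝓞 M ⧸ w.asIdeal) := Ideal.Quotient.field w.asIdeal
  let _ : Fintype (𝓞 M ⧸ w.asIdeal) := Fintype.ofFinite _
  have hq2 : 2 ≤ plNorm v := aa_two_le_plNorm v
  -- every element of the residue field is a root of `X ^ q - X`
  have hroot : ∀ y : 𝓞 M ⧸ w.asIdeal, y ^ plNorm v = y := by
    intro y
    obtain ⟨x, rfl⟩ := Ideal.Quotient.mk_surjective y
    rw [← map_pow, eq_comm, Ideal.Quotient.eq]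
    exact h1 x
  have hcard : Fintype.card (𝓞 M ⧸ w.asIdeal) ≤ plNorm v := aa_card_le_of_pow_eq hq2 hroot
  have habs : Ideal.absNorm w.asIdeal ≤ plNorm v := by
    rw [Ideal.absNorm_apply, Submodule.cardQuot_apply, Nat.card_eq_fintype_card]
    exact hcard
  have hpow := Ideal.absNorm_pow_inertiaDeg v.asIdeal w.asIdeal
  rw [← hpow] at habs
  have hpos : 0 < Ideal.inertiaDeg w.asIdeal (𝓞 F) := Ideal.inertiaDeg_pos _ _
  by_contra hne
  have h2 : 2 ≤ Ideal.inertiaDeg w.asIdeal (𝓞 F) := by omega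
  have h3 : plNorm v ^ 2 ≤ plNorm v ^ Ideal.inertiaDeg w.asIdeal (𝓞 F) :=
    Nat.pow_le_pow_right (by omega) h2
  have h4 : plNorm v ^ 2 ≤ plNorm v := h3.trans habs
  nlinarith

/-- a completely split prime has trivial Frobenius, and conversely. -/
theorem frobExp_eq_zero_iff (h : IsUCyc p F M g) (v : Pl F) :
    frobExp F M p g v = 0 ↔ SplitsCompletely F M v := by
  rw [aa_frobExp_eq_zero_iff_frob h v]
  constructor
  · intro h1 w hw
    refine ⟨h.unram w, aa_inertiaDeg_eq_one_of_one v w hw ?_⟩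
    intro x
    have := frob_spec h v w hw x
    rwa [h1, one_smul] at this
  · intro hs
    set w := plAbove F M v with hwdef
    have hw : PlOver F M w v := plAbove_over F M v
    obtain ⟨he, hf⟩ := hs w hw
    have hLO : w.asIdeal.LiesOver v.asIdeal := ⟨hw.symm⟩
    have hcard := Ideal.card_stabilizer_eq (G := M ≃ₐ[F] M) v.asIdeal w.asIdeal
    rw [Ideal.ramificationIdxIn_eq_ramificationIdx v.asIdeal w.asIdeal (M ≃ₐ[F] M),
      Ideal.inertiaDegIn_eq_inertiaDeg v.asIdeal w.asIdeal (M ≃ₐ[F] M), he, hf, mul_one] at hcard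
    have hbot := Subgroup.eq_bot_of_card_eq _ hcard
    have hmem : frob F M v ∈ MulAction.stabilizer (M ≃ₐ[F] M) w.asIdeal :=
      (aa_isArithFrobAt_plAbove (M := M) v).mem_stabilizer
    rw [hbot, Subgroup.mem_bot] at hmem
    exact hmem

end General

/-! ### the tower -/

theorem tower_isUCyc {p : ℕ} [Fact p.Prime] (T : Tower p) : IsUCyc p T.K T.L T.g where
  g_ne_one := T.g_ne_one
  finrank_eq := T.finrank_eq
  unram := T.unram
  zeta := by
    have hp : p ≠ 0 := (Fact.out : p.Prime).ne_zero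
    exact IsCyclotomicExtension.exists_isPrimitiveRoot ℚ T.K (Set.mem_singleton p) hp

end Fermat.Agent.S14x
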