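/-
S14 project, module EQUIV core (helper89, file EquivCore.lean): Galois equivariance of the Frobenius exponent of the tower.
If `σ ∈ Gal(K/ℚ)` acts on `μ_p` by `ζ ↦ ζ^k`, then `k * frobExp (σ v) = frobExp v`.

`frobExp_equivariant_of` takes the two AAPI facts it needs (`frob_eq_pow`, `frob_unique` for the
tower) as hypotheses; the Spec-named `frobExp_equivariant` is a one-line corollary once AAPI lands.
-/
import Fermat.Agent.S14x.Defs

set_option autoImplicit false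

namespace Fermat.Agent.S14x

open NumberField IsDedekindDomain
open scoped Pointwise

/-! ## absolute norm of a prime is invariant under automorphisms -/

theorem eq_plNorm_eq_card {F : Type*} [Field F] [NumberField F] (v : Pl F) :
    plNorm v = Nat.card (𝓞 F ⧸ v.asIdeal) := by
  rw [plNorm, Ideal.absNorm_apply, Submodule.cardQuot_apply]

theorem eq_plNorm_smul {F : Type*} [Field F] [NumberField F] (σ : F ≃ₐ[ℚ] F) (v w : Pl F)
    (hw : w.asIdeal = σ • v.asIdeal) : plNorm w = plNorm v := by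
  rw [eq_plNorm_eq_card, eq_plNorm_eq_card]
  have e : 𝓞 F ⧸ v.asIdeal ≃+* 𝓞 F ⧸ w.asIdeal :=
    Ideal.quotientEquiv v.asIdeal w.asIdeal (MulSemiringAction.toRingEquiv _ (𝓞 F) σ) (by
      rw [hw]; rfl)
  exact (Nat.card_congr e.toEquiv).symm

/-! ## pulling a prime of `L` back along an automorphism -/

section Pull

variable {E : Type*} [Field E] [NumberField E]

/-- the prime `s⁻¹ W = {x | s x ∈ W}`. -/
noncomputable def eqPull (s : E ≃ₐ[ℚ] E) (W : Pl E) : Pl E where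
  asIdeal := W.asIdeal.comap (MulSemiringAction.toRingEquiv (E ≃ₐ[ℚ] E) (𝓞 E) s : 𝓞 E →+* 𝓞 E)
  isPrime := Ideal.comap_isPrime _ _
  ne_bot := by
    obtain ⟨x, hx, hx0⟩ := Submodule.exists_mem_ne_zero_of_ne_bot W.ne_bot
    intro hbot
    have hmem : (s⁻¹ • x : 𝓞 E) ∈
        W.asIdeal.comap (MulSemiringAction.toRingEquiv (E ≃ₐ[ℚ] E) (𝓞 E) s : 𝓞 E →+* 𝓞 E) := by
      rw [Ideal.mem_comap]
      show (s • (s⁻¹ • x) : 𝓞 E) ∈ W.asIdeal
      rw [smul_inv_smul]; exact hx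
    rw [hbot, Ideal.mem_bot] at hmem
    apply hx0
    have := congrArg (fun y => s • y) hmem
    simpa using this

theorem mem_eqPull (s : E ≃ₐ[ℚ] E) (W : Pl E) (x : 𝓞 E) :
    x ∈ (eqPull s W).asIdeal ↔ (s • x : 𝓞 E) ∈ W.asIdeal := Iff.rfl

end Pull

/-! ## the main statement -/

variable {p : ℕ} [Fact p.Prime]

theorem eq_orderOf_g (T : Tower p) : orderOf T.g = p := by
  have hcard : Nat.card (T.L ≃ₐ[T.K] T.L) = p := by
    rw [IsGalois.card_aut_eq_finrank, T.finrank_eq]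
  have h1 : T.g ^ p = 1 := by
    have h := pow_card_eq_one' (G := T.L ≃ₐ[T.K] T.L) (x := T.g)
    rwa [hcard] at h
  have hd : orderOf T.g ∣ p := orderOf_dvd_of_pow_eq_one h1
  rcases (Nat.dvd_prime (Fact.out : p.Prime)).mp hd with h | h
  · exact absurd (orderOf_eq_one_iff.mp h) T.g_ne_one
  · exact h

/-- EQUIV, with the two AAPI inputs as hypotheses. -/
theorem frobExp_equivariant_of (T : Tower p)
    (hpow : ∀ v : Pl T.K, frob T.K T.L v = T.g ^ (frobExp T.K T.L p T.g v).val)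
    (huniq : ∀ (v : Pl T.K) (w : Pl T.L), PlOver T.K T.L w v → ∀ s : T.L ≃ₐ[T.K] T.L,
      (∀ x : 𝓞 T.L, (s • x) - x ^ plNorm v ∈ w.asIdeal) → s = frob T.K T.L v)
    (σ : T.K ≃ₐ[ℚ] T.K) (ζ : T.K) (k : ℕ)
    (hζ : IsPrimitiveRoot ζ p) (hσ : σ ζ = ζ ^ k) (v w : Pl T.K)
    (hw : w.asIdeal = σ • v.asIdeal) :
    (k : ZMod p) * frobExp T.K T.L p T.g w = frobExp T.K T.L p T.g v := by
  classical
  -- lift `σ` to `s ∈ Gal(L/ℚ)`
  let s : T.L ≃ₐ[ℚ] T.L := AlgEquiv.liftNormal σ T.L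
  have hs : ∀ x : T.K, s (algebraMap T.K T.L x) = algebraMap T.K T.L (σ x) :=
    fun x => AlgEquiv.liftNormal_commutes σ T.L x
  -- the chosen prime above `w`, its Frobenius
  let W : Pl T.L := plAbove T.K T.L w
  have hWw : PlOver T.K T.L W w := plAbove_over T.K T.L w
  let Fw : T.L ≃ₐ[T.K] T.L := frob T.K T.L w
  have : Finite (𝓞 T.L ⧸ W.asIdeal) := Ideal.finiteQuotientOfFreeOfNeBot _ W.ne_bot
  have hFw : ∀ x : 𝓞 T.L, (Fw • x) - x ^ plNorm w ∈ W.asIdeal := by
    intro x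
    have h := IsArithFrobAt.arithFrobAt (𝓞 T.K) (T.L ≃ₐ[T.K] T.L) W.asIdeal x
    have hcard : Nat.card (𝓞 T.K ⧸ W.asIdeal.under (𝓞 T.K)) = plNorm w := by
      rw [eq_plNorm_eq_card]
      have : W.asIdeal.under (𝓞 T.K) = w.asIdeal := hWw
      rw [this]
    rw [hcard] at h
    exact h
  -- the conjugation relation from the tower
  have hζs : s (algebraMap T.K T.L ζ) = (algebraMap T.K T.L ζ) ^ k := by
    rw [hs, hσ, map_pow]
  have hconj : ∀ x : T.L, s ((Fw ^ k) x) = Fw (s x) := T.conj s Fw ζ k hζ hζs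
  -- the pulled back prime lies over `v`
  have hV : PlOver T.K T.L (eqPull s W) v := by
    show (eqPull s W).asIdeal.under (𝓞 T.K) = v.asIdeal
    ext x
    rw [Ideal.under_def, Ideal.mem_comap, mem_eqPull]
    have h1 : (s • (algebraMap (𝓞 T.K) (𝓞 T.L) x) : 𝓞 T.L)
        = algebraMap (𝓞 T.K) (𝓞 T.L) (σ • x) := by
      apply Subtype.ext
      show s (algebraMap T.K T.L (x : T.K)) = algebraMap T.K T.L (σ (x : T.K))
      exact hs _
    rw [h1]
    have h2 : algebraMap (𝓞 T.K) (𝓞 T.L) (σ • x) ∈ W.asIdeal ↔ (σ • x) ∈ w.asIdeal := by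
      rw [← hWw, Ideal.under_def, Ideal.mem_comap]
    rw [h2, hw, Ideal.smul_mem_pointwise_smul_iff]
  -- `Fw ^ k` is a Frobenius at the pulled back prime
  have hnorm : plNorm w = plNorm v := eq_plNorm_smul σ v w hw
  have hFr : ∀ x : 𝓞 T.L, ((Fw ^ k) • x) - x ^ plNorm v ∈ (eqPull s W).asIdeal := by
    intro x
    rw [mem_eqPull]
    have h1 : (s • (((Fw ^ k) • x) - x ^ plNorm v) : 𝓞 T.L)
        = (Fw • (s • x)) - (s • x) ^ plNorm w := by
      apply Subtype.ext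
      show s ((Fw ^ k) (x : T.L) - (x : T.L) ^ plNorm v)
        = Fw (s (x : T.L)) - (s (x : T.L)) ^ plNorm w
      rw [map_sub, map_pow, hconj, hnorm]
    rw [h1]
    exact hFw _
  have hkey : Fw ^ k = frob T.K T.L v := huniq v (eqPull s W) hV (Fw ^ k) hFr
  -- translate to exponents
  have e1 : (T.g ^ (frobExp T.K T.L p T.g w).val) ^ k = T.g ^ (frobExp T.K T.L p T.g v).val := by
    rw [← hpow w, ← hpow v]; exact hkey
  rw [← pow_mul, pow_eq_pow_iff_modEq, eq_orderOf_g] at e1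
  have e2 := (ZMod.natCast_eq_natCast_iff _ _ _).mpr e1
  push_cast at e2
  rw [ZMod.natCast_zmod_val, ZMod.natCast_zmod_val] at e2
  rw [mul_comm]; exact e2

end Fermat.Agent.S14x
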