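/-
S14 project, module EQUIV (helper89): Galois equivariance of the Frobenius exponent of the tower,
exact Spec statement `frobExp_equivariant`.  Core = S14x/EquivCore.lean, AAPI = S14x/Artin.lean.
-/
import Fermat.Agent.S14x.EquivCore
import Fermat.Agent.S14x.Artin

set_option autoImplicit false

namespace Fermat.Agent.S14x

open NumberField IsDedekindDomain
open scoped Pointwise

variable {p : ℕ} [Fact p.Prime]

/-- EQUIV: Galois-equivariance of the Frobenius exponent: if `σ ∈ Gal(K/ℚ)` acts on `μ_p` by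
`ζ ↦ ζ^k` then `k * frobExp (σ v) = frobExp v`. -/
theorem frobExp_equivariant (T : Tower p) (σ : T.K ≃ₐ[ℚ] T.K) (ζ : T.K) (k : ℕ)
    (hζ : IsPrimitiveRoot ζ p) (hσ : σ ζ = ζ ^ k) (v w : Pl T.K)
    (hw : w.asIdeal = σ • v.asIdeal) :
    (k : ZMod p) * frobExp T.K T.L p T.g w = frobExp T.K T.L p T.g v :=
  frobExp_equivariant_of T (fun v => frob_eq_pow (tower_isUCyc T) v)
    (fun v w hw s hs => frob_unique (tower_isUCyc T) v w hw s hs) σ ζ k hζ hσ v w hw

end Fermat.Agent.S14x
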