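import Mathlib

/-!
# S14x / JacobiCong : the mod-`𝔮` congruence for Jacobi sums `J(χ, χ)`

Prototype for module (2) of the S14 plan (helper22): finite-field part.

* `jc_sum_pow_mul_one_sub_pow` : in a finite field `F` with `q` elements,
  `∑ x, x ^ a * (1 - x) ^ a = 0` as soon as `2 * a < q - 1`.
* `jc_red_jacobiSum` : if `red : R →+* F` and a multiplicative character `χ : MulChar F R`
  satisfy `red (χ x) = x ^ a` for all `x` (with `0 < a`), then
  `red (jacobiSum χ χ) = ∑ x, x ^ a * (1 - x) ^ a`.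
-/

set_option autoImplicit false

namespace Fermat.Agent.S14x

open Finset

variable {F : Type*} [Field F] [Fintype F]

/-- `∑_{x ∈ F} x^a (1-x)^a = 0` when `2a < q - 1`. -/
theorem jc_sum_pow_mul_one_sub_pow (a : ℕ) (h : 2 * a < Fintype.card F - 1) :
    ∑ x : F, x ^ a * (1 - x) ^ a = 0 := by
  have hexp : ∀ x : F, x ^ a * (1 - x) ^ a
      = ∑ k ∈ range (a + 1), ((-1 : F) ^ k * (a.choose k : F)) * x ^ (a + k) := by
    intro x
    have h1 : (1 - x) ^ a = ∑ k ∈ range (a + 1), (-x) ^ k * 1 ^ (a - k) * (a.choose k : F) := by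
      rw [sub_eq_neg_add, add_pow]
    rw [h1, Finset.mul_sum]
    refine Finset.sum_congr rfl fun k _ => ?_
    rw [one_pow, mul_one, neg_pow, pow_add]
    ring
  simp_rw [hexp]
  rw [Finset.sum_comm]
  refine Finset.sum_eq_zero fun k hk => ?_
  rw [← Finset.mul_sum]
  have hk' : k ≤ a := Nat.lt_succ_iff.mp (Finset.mem_range.mp hk)
  rw [FiniteField.sum_pow_lt_card_sub_one F (a + k) (by omega), mul_zero]

variable {R : Type*} [CommRing R]

/-- Reduction of a Jacobi sum `J(χ, χ)` when `χ` reduces to the power map `x ↦ x ^ a`. -/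
theorem jc_red_jacobiSum (red : R →+* F) (χ : MulChar F R) (a : ℕ)
    (hχ : ∀ x : F, red (χ x) = x ^ a) :
    red (jacobiSum χ χ) = ∑ x : F, x ^ a * (1 - x) ^ a := by
  rw [jacobiSum, map_sum]
  refine Finset.sum_congr rfl fun x _ => ?_
  rw [map_mul, hχ, hχ]

/-- Combined: the Jacobi sum lies in the kernel of the reduction when `2a < q - 1`. -/
theorem jc_jacobiSum_mem_ker (red : R →+* F) (χ : MulChar F R) (a : ℕ)
    (hχ : ∀ x : F, red (χ x) = x ^ a) (h : 2 * a < Fintype.card F - 1) :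
    jacobiSum χ χ ∈ RingHom.ker red := by
  rw [RingHom.mem_ker, jc_red_jacobiSum red χ a hχ, jc_sum_pow_mul_one_sub_pow a h]

end Fermat.Agent.S14x
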