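import Mathlib
import Fermat.Agent.S14x.JacobiCong

/-!
# S14x / JacobiChar : the `p`-th power residue character with values in a domain `R`

Given a ring hom `red : R →+* F` onto (or just into) a finite field `F`, and `ζ : R` with
`ζ ^ p = 1` whose reduction is a primitive `p`-th root of unity of `F`, we construct a
multiplicative character `χ : MulChar F R` with `red (χ x) = x ^ ((q - 1) / p)` and values in
`{0} ∪ {ζ ^ k}`.
-/

set_option autoImplicit false

namespace Fermat.Agent.S14x

open Finset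

variable {F : Type*} [Field F] [Fintype F] {R : Type*} [CommRing R]

theorem jc_dvd_card_sub_one {p : ℕ} {ξ : F} (hξ : IsPrimitiveRoot ξ p) (hp : 0 < p) :
    p ∣ Fintype.card F - 1 := by
  have h0 : ξ ≠ 0 := hξ.ne_zero hp.ne'
  exact hξ.dvd_of_pow_eq_one _ (FiniteField.pow_card_sub_one_eq_one ξ h0)

/-- Existence of the power residue character. -/
theorem jc_exists_char (red : R →+* F) {p : ℕ} (hp : 0 < p) (ζ : R) (hζ : ζ ^ p = 1)
    (hred : IsPrimitiveRoot (red ζ) p) :
    ∃ χ : MulChar F R, (∀ x : F, red (χ x) = x ^ ((Fintype.card F - 1) / p)) ∧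
      (∀ x : F, x ≠ 0 → ∃ k : ℕ, χ x = ζ ^ k) := by
  classical
  obtain ⟨g, hg⟩ := IsCyclic.exists_generator (α := Fˣ)
  set q := Fintype.card F with hq
  have hdvd : p ∣ q - 1 := jc_dvd_card_sub_one hred hp
  obtain ⟨M, hM⟩ := hdvd
  have hMdiv : (q - 1) / p = M := by rw [hM]; exact Nat.mul_div_cancel_left M hp
  have hq1 : 0 < q - 1 := by
    have : 1 < q := Fintype.one_lt_card
    omega
  have hMpos : 0 < M := by
    rcases Nat.eq_zero_or_pos M with h | h
    · rw [h, mul_zero] at hM; omega
    · exact h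
  -- `g ^ M` is a `p`-th root of unity
  have hgM : ((g : F) ^ M) ^ p = 1 := by
    rw [← pow_mul, mul_comm, ← hM]
    exact FiniteField.pow_card_sub_one_eq_one _ (Units.ne_zero g)
  have : NeZero p := ⟨hp.ne'⟩
  obtain ⟨k, -, hk⟩ := hred.eq_pow_of_pow_eq_one hgM
  -- the unit `ζ ^ k`
  have hζu : IsUnit ζ := IsUnit.of_pow_eq_one hζ hp.ne'
  let u : Rˣ := hζu.unit ^ k
  have hu : (u : R) = ζ ^ k := by simp [u]
  have hucard : u ∈ rootsOfUnity (Fintype.card Fˣ) R := by
    rw [mem_rootsOfUnity, Units.ext_iff, Units.val_pow_eq_pow_val, hu, Units.val_one,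
      Fintype.card_units, ← hq, hM, ← pow_mul, mul_comm k, mul_assoc, pow_mul, hζ, one_pow]
  refine ⟨MulChar.ofRootOfUnity hucard hg, ?_, ?_⟩
  · intro x
    rw [hMdiv]
    rcases eq_or_ne x 0 with rfl | hx
    · rw [MulChar.map_zero, map_zero, zero_pow hMpos.ne']
    · obtain ⟨n, hn⟩ := (mem_powers_iff_mem_zpowers).mpr (hg (Units.mk0 x hx))
      have hx' : x = (g : F) ^ n := by
        have := congrArg Units.val hn
        simpa using this.symm
      rw [hx', map_pow, MulChar.ofRootOfUnity_spec, hu, map_pow, map_pow, hk, ← pow_mul, ← pow_mul,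
        mul_comm]
  · intro x hx
    obtain ⟨n, hn⟩ := (mem_powers_iff_mem_zpowers).mpr (hg (Units.mk0 x hx))
    have hx' : x = (g : F) ^ n := by
      have := congrArg Units.val hn
      simpa using this.symm
    exact ⟨k * n, by rw [hx', map_pow, MulChar.ofRootOfUnity_spec, hu, ← pow_mul]⟩

end Fermat.Agent.S14x
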