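import Mathlib
import Fermat.Agent.S14x.JacobiChar

/-!
# S14x / JacobiIdeal : Jacobi sums in `ℤ[ζ_p]` and conjugates of a prime `𝔮 ∤ p`

`K = ℚ(ζ_p)`, `𝔮` a maximal ideal of `𝓞 K` of norm `q` prime to `p`.  We produce `J J' : 𝓞 K` with
`J * J' = q`, `σ • J ∈ 𝔮` whenever `σ ζ = ζ ^ t` with `2 t < p`, and `σ • J' ∈ 𝔮` whenever `p < 2 t`.
-/

set_option autoImplicit false

namespace Fermat.Agent.S14x

open NumberField IsCyclotomicExtension IsCyclotomicExtension.Rat Finset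
open scoped Pointwise

variable {p : ℕ} [hp : Fact p.Prime] {K : Type*} [Field K] [NumberField K]
  [IsCyclotomicExtension {p} ℚ K]

/-- The exponent `t` with `σ ζ = ζ ^ t`. -/
noncomputable abbrev jcExp (σ : Gal(K/ℚ)) : ℕ := ((galEquivZMod p K σ : (ZMod p)ˣ) : ZMod p).val

theorem jcExp_pos (σ : Gal(K/ℚ)) : 0 < jcExp (p := p) σ := by
  rw [jcExp, ZMod.val_pos]
  exact Units.ne_zero _

theorem jcExp_lt (σ : Gal(K/ℚ)) : jcExp (p := p) σ < p := ZMod.val_lt _

attribute [local instance] Ideal.Quotient.field in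
/-- Existence of the Jacobi sum elements. -/
theorem jc_exists_jacobi (hp2 : p ≠ 2) (𝔮 : Ideal (𝓞 K)) [𝔮.IsMaximal]
    (hcop : (Ideal.absNorm 𝔮).Coprime p) :
    ∃ J J' : 𝓞 K, J * J' = (Ideal.absNorm 𝔮 : 𝓞 K) ∧
      (∀ σ : Gal(K/ℚ), 2 * jcExp (p := p) σ < p → σ • J ∈ 𝔮) ∧
      (∀ σ : Gal(K/ℚ), p < 2 * jcExp (p := p) σ → σ • J' ∈ 𝔮) := by
  classical
  have hppos : 0 < p := hp.out.pos
  let _ : Fintype (𝓞 K ⧸ 𝔮) := Fintype.ofFinite _
  set F := 𝓞 K ⧸ 𝔮 with hF
  set red : 𝓞 K →+* F := Ideal.Quotient.mk 𝔮 with hredef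
  have hζK := zeta_spec p ℚ K
  set ζ : 𝓞 K := hζK.toInteger with hζdef
  have hζ : IsPrimitiveRoot ζ p := hζK.toInteger_isPrimitiveRoot
  have hne1 : Ideal.absNorm 𝔮 ≠ 1 := fun h =>
    (Ideal.IsMaximal.ne_top inferInstance) (Ideal.absNorm_eq_one_iff.mp h)
  have hred : IsPrimitiveRoot (red ζ) p := hζ.idealQuotient_mk hne1 hcop
  obtain ⟨χ, hχ1, hχ2⟩ := jc_exists_char red hppos ζ hζ.pow_eq_one hred
  set q := Fintype.card F with hq
  have hqnorm : Ideal.absNorm 𝔮 = q := by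
    rw [Ideal.absNorm_apply, Submodule.cardQuot_apply, hq, Nat.card_eq_fintype_card]
  obtain ⟨M, hM⟩ := jc_dvd_card_sub_one hred hppos
  rw [← hq] at hM
  have hMdiv : (q - 1) / p = M := by rw [hM]; exact Nat.mul_div_cancel_left M hppos
  rw [hMdiv] at hχ1
  have hq1 : 1 < q := Fintype.one_lt_card
  have hMpos : 0 < M := by
    rcases Nat.eq_zero_or_pos M with h | h
    · rw [h, mul_zero] at hM; omega
    · exact h
  -- powers of `χ`
  have hχpow : ∀ (n : ℕ), n ≠ 0 → ∀ x : F, red ((χ ^ n) x) = x ^ (M * n) := by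
    intro n hn x
    rw [MulChar.pow_apply' χ hn, map_pow, hχ1, ← pow_mul]
  -- nontriviality: `χ ^ n ≠ 1` for `0 < n < p`
  have hχne : ∀ n : ℕ, 0 < n → n < p → χ ^ n ≠ 1 := by
    intro n hn0 hnp h
    have h1 : ∀ x : Fˣ, x ^ (M * n) = 1 := by
      intro x
      have := hχpow n hn0.ne' (x : F)
      rw [h, MulChar.one_apply_coe, map_one] at this
      exact Units.ext (by simpa using this.symm)
    have h2 := (FiniteField.forall_pow_eq_one_iff F (M * n)).mp h1
    rw [← hq, hM, mul_comm M n] at h2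
    have h3 : p ∣ n := by
      obtain ⟨c, hc⟩ := h2
      have : n = p * c := by
        have h4 : n * M = (p * c) * M := by rw [hc]; ring
        exact Nat.eq_of_mul_eq_mul_right hMpos h4
      exact ⟨c, this⟩
    exact absurd (Nat.le_of_dvd hn0 h3) (by omega)
  have hχp : χ ^ p = 1 := by
    refine MulChar.ext fun a => ?_
    rw [MulChar.pow_apply_coe, MulChar.one_apply_coe]
    obtain ⟨k, hk⟩ := hχ2 (a : F) (Units.ne_zero a)
    rw [hk, ← pow_mul, mul_comm, pow_mul, hζ.pow_eq_one, one_pow]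
  have hp3 : 2 < p := by
    have := hp.out.two_le
    omega
  -- the product formula
  have hprod : jacobiSum χ χ * jacobiSum χ⁻¹ χ⁻¹ = (q : 𝓞 K) := by
    have hinj : Function.Injective (algebraMap (𝓞 K) K) := RingOfIntegers.coe_injective
    apply hinj
    rw [map_mul, ← jacobiSum_ringHomComp, ← jacobiSum_ringHomComp, map_natCast,
      ← MulChar.ringHomComp_inv]
    have hchar : ringChar K ≠ ringChar F := by
      rw [ringChar.eq_zero]
      exact (CharP.ringChar_ne_zero_of_finite F).symm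
    have hχ1' : χ ≠ 1 := by simpa using hχne 1 one_pos (by omega)
    have hχ2' : χ * χ ≠ 1 := by
      rw [← pow_two]
      exact hχne 2 two_pos hp3
    refine jacobiSum_mul_jacobiSum_inv hchar ?_ ?_ ?_
    · exact (MulChar.ringHomComp_ne_one_iff hinj).mpr hχ1'
    · exact (MulChar.ringHomComp_ne_one_iff hinj).mpr hχ1'
    · rw [← MulChar.ringHomComp_mul]
      exact (MulChar.ringHomComp_ne_one_iff hinj).mpr hχ2'
  -- Galois action on `χ`
  have hσχ : ∀ σ : Gal(K/ℚ),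
      χ.ringHomComp (MulSemiringAction.toRingHom Gal(K/ℚ) (𝓞 K) σ) = χ ^ jcExp (p := p) σ := by
    intro σ
    refine MulChar.ext fun a => ?_
    rw [MulChar.ringHomComp_apply, MulSemiringAction.toRingHom_apply, MulChar.pow_apply_coe]
    obtain ⟨k, hk⟩ := hχ2 (a : F) (Units.ne_zero a)
    rw [hk]
    have hk1 : (ζ ^ k) ^ p = 1 := by
      rw [← pow_mul, mul_comm, pow_mul, hζ.pow_eq_one, one_pow]
    exact galEquivZMod_smul_of_pow_eq p K σ hk1
  -- membership criterion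
  have hmem : ∀ n : ℕ, 0 < n → 2 * n < p → jacobiSum (χ ^ n) (χ ^ n) ∈ 𝔮 := by
    intro n hn0 hn
    have h := jc_jacobiSum_mem_ker red (χ ^ n) (M * n) (hχpow n hn0.ne') (by
      rw [← hq, hM]
      calc 2 * (M * n) = M * (2 * n) := by ring
        _ < M * p := Nat.mul_lt_mul_of_pos_left hn hMpos
        _ = p * M := mul_comm _ _)
    rwa [hredef, Ideal.mk_ker] at h
  refine ⟨jacobiSum χ χ, jacobiSum χ⁻¹ χ⁻¹, ?_, ?_, ?_⟩
  · rw [hprod, hqnorm]
  · intro σ hσ
    have : σ • jacobiSum χ χ = jacobiSum (χ ^ jcExp (p := p) σ) (χ ^ jcExp (p := p) σ) := by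
      rw [← hσχ σ, jacobiSum_ringHomComp, MulSemiringAction.toRingHom_apply]
    rw [this]
    exact hmem _ (jcExp_pos σ) hσ
  · intro σ hσ
    have hlt := jcExp_lt (p := p) σ
    have hinv : χ⁻¹.ringHomComp (MulSemiringAction.toRingHom Gal(K/ℚ) (𝓞 K) σ)
        = χ ^ (p - jcExp (p := p) σ) := by
      rw [← MulChar.ringHomComp_inv, hσχ σ]
      refine inv_eq_of_mul_eq_one_left ?_
      rw [← pow_add, Nat.sub_add_cancel hlt.le, hχp]
    have : σ • jacobiSum χ⁻¹ χ⁻¹ = jacobiSum (χ ^ (p - jcExp (p := p) σ))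
        (χ ^ (p - jcExp (p := p) σ)) := by
      rw [← hinv, jacobiSum_ringHomComp, MulSemiringAction.toRingHom_apply]
    rw [this]
    exact hmem _ (by omega) (by omega)

end Fermat.Agent.S14x
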