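import Mathlib
import Fermat.Agent.S14x.JacobiIdeal

/-!
# S14x / JacobiMain : the "mini-Stickelberger" factorisation and its consequence

`K = ℚ(ζ_p)`, `p` odd.  For a maximal ideal `𝔮` of `𝓞 K` with norm prime to `p` and trivial
decomposition group, `(J(χ_𝔮, χ_𝔮)) = ∏_{σ : 2 t(σ) < p} σ⁻¹ • 𝔮`  (`jc_span_eq_prod`).

Consequence (`jc_phi_prime_eq_one`): a multiplicative map `φ` from nonzero ideals to an abelian
group of exponent `p` that kills principal ideals and satisfies `φ (σ • I) ^ t(σ) = φ I`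
(i.e. `Gal(K/ℚ)` acts through `ω⁻¹`) kills every prime `𝔮 ∤ p`.
-/

set_option autoImplicit false

namespace Fermat.Agent.S14x

open NumberField IsCyclotomicExtension IsCyclotomicExtension.Rat Finset
open scoped Pointwise

variable {p : ℕ} [hp : Fact p.Prime] {K : Type*} [Field K] [NumberField K]
  [IsCyclotomicExtension {p} ℚ K]

omit hp [IsCyclotomicExtension {p} ℚ K] in
/-- The absolute norm is Galois invariant. -/
theorem jc_absNorm_smul (σ : Gal(K/ℚ)) (I : Ideal (𝓞 K)) :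
    Ideal.absNorm (σ • I) = Ideal.absNorm I := by
  rw [Ideal.absNorm_apply, Ideal.absNorm_apply, Submodule.cardQuot_apply, Submodule.cardQuot_apply]
  have e : (𝓞 K ⧸ I) ≃+* (𝓞 K ⧸ σ • I) :=
    Ideal.quotientEquiv I (σ • I) (MulSemiringAction.toRingEquiv Gal(K/ℚ) (𝓞 K) σ)
      (by rw [Ideal.pointwise_smul_def]; rfl)
  exact (Nat.card_congr e.toEquiv).symm

omit hp [IsCyclotomicExtension {p} ℚ K] in
theorem jc_smul_ne_bot (σ : Gal(K/ℚ)) {I : Ideal (𝓞 K)} (hI : I ≠ ⊥) : σ • I ≠ ⊥ := by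
  intro h
  have h1 := jc_absNorm_smul σ I
  rw [h, Ideal.absNorm_bot] at h1
  exact hI (Ideal.absNorm_eq_zero_iff.mp h1.symm)

omit hp [IsCyclotomicExtension {p} ℚ K] in
theorem jc_smul_isPrime (σ : Gal(K/ℚ)) (I : Ideal (𝓞 K)) [hI : I.IsPrime] : (σ • I).IsPrime := by
  rw [Ideal.pointwise_smul_def]
  exact Ideal.map_isPrime_of_equiv (MulSemiringAction.toRingEquiv Gal(K/ℚ) (𝓞 K) σ)

omit hp [IsCyclotomicExtension {p} ℚ K] in
theorem jc_absNorm_span_natCast (q : ℕ) :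
    Ideal.absNorm (Ideal.span {(q : 𝓞 K)}) = q ^ Module.finrank ℚ K := by
  rw [Ideal.absNorm_span_singleton]
  have : (q : 𝓞 K) = algebraMap ℤ (𝓞 K) (q : ℤ) := by simp
  rw [this, Algebra.norm_algebraMap, RingOfIntegers.rank, Int.natAbs_pow, Int.natAbs_natCast]

/-- The factorisation of the Jacobi sum ideal. -/
theorem jc_span_eq_prod (hp2 : p ≠ 2) (𝔮 : Ideal (𝓞 K)) [𝔮.IsMaximal]
    (hcop : (Ideal.absNorm 𝔮).Coprime p)
    (hstab : ∀ σ : Gal(K/ℚ), σ • 𝔮 = 𝔮 → σ = 1) :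
    ∃ J : 𝓞 K, J ≠ 0 ∧ Ideal.span {J} =
      ∏ σ ∈ (univ.filter fun σ : Gal(K/ℚ) => 2 * jcExp (p := p) σ < p), σ⁻¹ • 𝔮 := by
  classical
  obtain ⟨J, J', hJJ, hJ, hJ'⟩ := jc_exists_jacobi hp2 𝔮 hcop
  have h𝔮0 : 𝔮 ≠ ⊥ := by
    intro h
    have : Ideal.absNorm 𝔮 = 0 := by rw [h, Ideal.absNorm_bot]
    rw [this, Nat.coprime_zero_left] at hcop
    exact hp.out.one_lt.ne' hcop
  set q := Ideal.absNorm 𝔮 with hq
  have hq0 : q ≠ 0 := fun h => h𝔮0 (Ideal.absNorm_eq_zero_iff.mp h)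
  set f : Gal(K/ℚ) → Ideal (𝓞 K) := fun σ => σ⁻¹ • 𝔮 with hf
  have hfinj : Function.Injective f := by
    intro σ τ h
    have h1 : (τ * σ⁻¹) • 𝔮 = 𝔮 := by
      rw [mul_smul]
      have : σ⁻¹ • 𝔮 = τ⁻¹ • 𝔮 := h
      rw [this, smul_inv_smul]
    have h2 := hstab _ h1
    have : τ = σ := by
      have := congrArg (· * σ) h2
      simpa using this
    exact this.symm
  have hfprime : ∀ σ, Prime (f σ) := fun σ =>
    Ideal.prime_of_isPrime (jc_smul_ne_bot _ h𝔮0) (jc_smul_isPrime _ 𝔮)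
  have hfnorm : ∀ σ, Ideal.absNorm (f σ) = q := fun σ => jc_absNorm_smul _ _
  set S₁ := univ.filter fun σ : Gal(K/ℚ) => 2 * jcExp (p := p) σ < p with hS₁
  set S₂ := univ.filter fun σ : Gal(K/ℚ) => ¬ 2 * jcExp (p := p) σ < p with hS₂
  have hS₂' : ∀ σ ∈ S₂, p < 2 * jcExp (p := p) σ := by
    intro σ hσ
    have h1 : ¬ 2 * jcExp (p := p) σ < p := (Finset.mem_filter.mp hσ).2
    have h2 : 2 * jcExp (p := p) σ ≠ p := by
      intro h
      have : 2 ∣ p := ⟨_, h.symm⟩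
      exact hp2 ((Nat.prime_dvd_prime_iff_eq Nat.prime_two hp.out).mp this).symm
    omega
  -- divisibility
  have hdvd : ∀ (S : Finset Gal(K/ℚ)) (x : 𝓞 K), (∀ σ ∈ S, σ • x ∈ 𝔮) →
      ∏ σ ∈ S, f σ ∣ Ideal.span {x} := by
    intro S x hx
    rw [← Finset.prod_image (s := S) (g := f) (f := fun P => P) (fun a _ b _ h => hfinj h)]
    refine Finset.prod_primes_dvd _ ?_ ?_
    · intro P hP
      obtain ⟨σ, -, rfl⟩ := Finset.mem_image.mp hP
      exact hfprime σ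
    · intro P hP
      obtain ⟨σ, hσ, rfl⟩ := Finset.mem_image.mp hP
      rw [Ideal.dvd_span_singleton, hf, Ideal.mem_pointwise_smul_iff_inv_smul_mem, inv_inv]
      exact hx σ hσ
  obtain ⟨X, hX⟩ := hdvd S₁ J (fun σ hσ => hJ σ (Finset.mem_filter.mp hσ).2)
  obtain ⟨Y, hY⟩ := hdvd S₂ J' (fun σ hσ => hJ' σ (hS₂' σ hσ))
  have hAB : (∏ σ ∈ S₁, f σ) * (∏ σ ∈ S₂, f σ) = ∏ σ : Gal(K/ℚ), f σ :=
    Finset.prod_filter_mul_prod_filter_not univ _ f
  have hnormAB : Ideal.absNorm ((∏ σ ∈ S₁, f σ) * (∏ σ ∈ S₂, f σ)) = q ^ Module.finrank ℚ K := by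
    have : IsGalois ℚ K := IsCyclotomicExtension.isGalois {p} ℚ K
    rw [hAB, map_prod, Finset.prod_congr rfl (fun σ _ => hfnorm σ), Finset.prod_const,
      Finset.card_univ, ← Nat.card_eq_fintype_card, IsGalois.card_aut_eq_finrank]
  have hspan : Ideal.span {J} * Ideal.span {J'} = Ideal.span {(q : 𝓞 K)} := by
    rw [Ideal.span_singleton_mul_span_singleton, hJJ]
  have hXY : Ideal.absNorm X * Ideal.absNorm Y = 1 := by
    have h1 : Ideal.absNorm (Ideal.span {J} * Ideal.span {J'}) = q ^ Module.finrank ℚ K := by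
      rw [hspan, jc_absNorm_span_natCast]
    rw [hX, hY, mul_mul_mul_comm, map_mul, hnormAB, map_mul] at h1
    have h2 : q ^ Module.finrank ℚ K ≠ 0 := pow_ne_zero _ hq0
    exact Nat.eq_of_mul_eq_mul_left (Nat.pos_of_ne_zero h2) (by rw [h1, mul_one])
  have hX1 : X = ⊤ := by
    have : Ideal.absNorm X = 1 := Nat.eq_one_of_mul_eq_one_right hXY
    exact Ideal.absNorm_eq_one_iff.mp this
  refine ⟨J, ?_, ?_⟩
  · intro h
    rw [h, zero_mul] at hJJ
    exact hq0 (by exact_mod_cast hJJ.symm)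
  · rw [hX, hX1, ← Ideal.one_eq_top, mul_one]

omit hp [NumberField K] [IsCyclotomicExtension {p} ℚ K] in
theorem jc_sum_Icc_id_mul_two (m : ℕ) : (∑ n ∈ Finset.Icc 1 m, n) * 2 = m * (m + 1) := by
  induction m with
  | zero => simp
  | succ k ih =>
    rw [Finset.sum_Icc_succ_top (by omega), add_mul, ih]
    ring

/-- `∑_{σ : 2 t(σ) < p} t(σ) = ∑_{n = 1}^{(p-1)/2} n`. -/
theorem jc_sum_jcExp :
    ∑ σ ∈ (univ.filter fun σ : Gal(K/ℚ) => 2 * jcExp (p := p) σ < p), jcExp (p := p) σ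
      = ∑ n ∈ Finset.Icc 1 ((p - 1) / 2), n := by
  classical
  symm
  have hcop : ∀ n ∈ Finset.Icc 1 ((p - 1) / 2), n.Coprime p := by
    intro n hn
    rw [Finset.mem_Icc] at hn
    exact (Nat.coprime_of_lt_prime (by omega) (by omega) hp.out).symm
  have hval : ∀ n (hn : n ∈ Finset.Icc 1 ((p - 1) / 2)),
      jcExp (p := p) ((galEquivZMod p K).symm (ZMod.unitOfCoprime n (hcop n hn))) = n := by
    intro n hn
    rw [Finset.mem_Icc] at hn
    rw [jcExp, MulEquiv.apply_symm_apply, ZMod.coe_unitOfCoprime, ZMod.val_natCast_of_lt (by omega)]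
  refine Finset.sum_bij (fun n hn => (galEquivZMod p K).symm (ZMod.unitOfCoprime n (hcop n hn)))
    ?_ ?_ ?_ ?_
  · intro n hn
    rw [Finset.mem_filter]
    refine ⟨Finset.mem_univ _, ?_⟩
    rw [hval n hn]
    rw [Finset.mem_Icc] at hn
    omega
  · intro a ha b hb hab
    have := congrArg (jcExp (p := p)) hab
    rwa [hval a ha, hval b hb] at this
  · intro σ hσ
    have h2 : 2 * jcExp (p := p) σ < p := (Finset.mem_filter.mp hσ).2
    have h0 := jcExp_pos (p := p) σ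
    have hmem : jcExp (p := p) σ ∈ Finset.Icc 1 ((p - 1) / 2) := by
      rw [Finset.mem_Icc]
      omega
    refine ⟨jcExp (p := p) σ, hmem, ?_⟩
    apply (galEquivZMod p K).injective
    rw [MulEquiv.apply_symm_apply]
    ext
    rw [ZMod.coe_unitOfCoprime, jcExp, ZMod.natCast_zmod_val]
  · intro n hn
    exact (hval n hn).symm

omit [NumberField K] [IsCyclotomicExtension {p} ℚ K] in
theorem jc_not_dvd_sum (hp2 : p ≠ 2) : ¬ p ∣ ∑ n ∈ Finset.Icc 1 ((p - 1) / 2), n := by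
  intro h
  have h2 : p ∣ (∑ n ∈ Finset.Icc 1 ((p - 1) / 2), n) * 2 := Dvd.dvd.mul_right h 2
  rw [jc_sum_Icc_id_mul_two] at h2
  have hp3 : 3 ≤ p := by
    have := hp.out.two_le
    omega
  rcases (Nat.Prime.dvd_mul hp.out).mp h2 with h3 | h3
  · have := Nat.le_of_dvd (by omega) h3
    omega
  · have := Nat.le_of_dvd (by omega) h3
    omega

/-- **Main consequence.**  A multiplicative map on nonzero ideals of `ℤ[ζ_p]` with values in an
abelian group of exponent `p`, trivial on principal ideals, on which `Gal(K/ℚ)` acts through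
`ω⁻¹`, is trivial on all primes not dividing `p`. -/
theorem jc_phi_prime_eq_one (hp2 : p ≠ 2) {G : Type*} [CommGroup G] (hG : ∀ g : G, g ^ p = 1)
    (φ : Ideal (𝓞 K) → G)
    (hmul : ∀ I J : Ideal (𝓞 K), I ≠ ⊥ → J ≠ ⊥ → φ (I * J) = φ I * φ J)
    (hprinc : ∀ x : 𝓞 K, x ≠ 0 → φ (Ideal.span {x}) = 1)
    (hequiv : ∀ (σ : Gal(K/ℚ)) (I : Ideal (𝓞 K)), I ≠ ⊥ →
      φ (σ • I) ^ ((galEquivZMod p K σ : (ZMod p)ˣ) : ZMod p).val = φ I)
    (𝔮 : Ideal (𝓞 K)) [h𝔮 : 𝔮.IsPrime] (h0 : 𝔮 ≠ ⊥) (hp𝔮 : (p : 𝓞 K) ∉ 𝔮) : φ 𝔮 = 1 := by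
  classical
  have hmax : 𝔮.IsMaximal := Ideal.IsPrime.isMaximal h𝔮 h0
  -- coprimality of the norm with `p`
  have hcop : (Ideal.absNorm 𝔮).Coprime p := by
    rw [Nat.coprime_comm, Nat.Prime.coprime_iff_not_dvd hp.out]
    intro hdvd
    let _ := Ideal.Quotient.field 𝔮
    let _ : Fintype (𝓞 K ⧸ 𝔮) := Fintype.ofFinite _
    obtain ⟨n, hℓ, hcard⟩ := FiniteField.card (𝓞 K ⧸ 𝔮) (ringChar (𝓞 K ⧸ 𝔮))
    have hnorm : Ideal.absNorm 𝔮 = Fintype.card (𝓞 K ⧸ 𝔮) := by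
      rw [Ideal.absNorm_apply, Submodule.cardQuot_apply, Nat.card_eq_fintype_card]
    rw [hnorm, hcard] at hdvd
    have h1 : p = ringChar (𝓞 K ⧸ 𝔮) :=
      (Nat.prime_dvd_prime_iff_eq hp.out hℓ).mp (hp.out.dvd_of_dvd_pow hdvd)
    apply hp𝔮
    rw [← Ideal.Quotient.eq_zero_iff_mem, map_natCast, h1]
    exact ringChar.Nat.cast_ringChar
  -- a general cancellation principle
  have hkey : ∀ (g : G) (N : ℕ), g ^ N = 1 → ¬ p ∣ N → g = 1 := by
    intro g N hN hpN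
    have h1 := pow_gcd_eq_one.mpr ⟨hN, hG g⟩
    rwa [(Nat.Prime.coprime_iff_not_dvd hp.out).mpr hpN |>.symm.gcd_eq_one, pow_one] at h1
  by_cases hst : ∃ σ : Gal(K/ℚ), σ ≠ 1 ∧ σ • 𝔮 = 𝔮
  · obtain ⟨σ, hσ1, hσ𝔮⟩ := hst
    have ht := hequiv σ 𝔮 h0
    rw [hσ𝔮] at ht
    have ht0 := jcExp_pos (p := p) σ
    have htp := jcExp_lt (p := p) σ
    have ht1 : jcExp (p := p) σ ≠ 1 := by
      intro h
      apply hσ1
      apply (galEquivZMod p K).injective
      rw [map_one]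
      ext
      have : Fact (1 < p) := ⟨hp.out.one_lt⟩
      exact ZMod.val_injective p (h.trans (ZMod.val_one p).symm)
    change φ 𝔮 ^ jcExp (p := p) σ = φ 𝔮 at ht
    refine hkey (φ 𝔮) (jcExp (p := p) σ - 1) ?_ ?_
    · have h2 : φ 𝔮 ^ (jcExp (p := p) σ - 1) * φ 𝔮 = 1 * φ 𝔮 := by
        rw [← pow_succ, Nat.sub_add_cancel ht0, one_mul, ht]
      exact mul_right_cancel h2
    · intro hd
      have := Nat.le_of_dvd (by omega) hd
      omega
  · have hstab : ∀ σ : Gal(K/ℚ), σ • 𝔮 = 𝔮 → σ = 1 := by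
      intro σ hσ
      by_contra h
      exact hst ⟨σ, h, hσ⟩
    obtain ⟨J, hJ0, hJspan⟩ := jc_span_eq_prod hp2 𝔮 hcop hstab
    have h1 := hprinc J hJ0
    rw [hJspan] at h1
    have hφ1 : φ 1 = 1 := by
      have := hprinc 1 one_ne_zero
      rwa [Ideal.span_singleton_one, ← Ideal.one_eq_top] at this
    have hprod : ∀ (S : Finset Gal(K/ℚ)),
        φ (∏ σ ∈ S, σ⁻¹ • 𝔮) = ∏ σ ∈ S, φ (σ⁻¹ • 𝔮) := by
      intro S
      induction S using Finset.induction_on with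
      | empty => simpa using hφ1
      | insert a S ha ih =>
        rw [Finset.prod_insert ha, Finset.prod_insert ha, hmul _ _ (jc_smul_ne_bot _ h0) ?_, ih]
        rw [← Ideal.zero_eq_bot, Finset.prod_ne_zero_iff]
        intro σ _
        rw [Ideal.zero_eq_bot]
        exact jc_smul_ne_bot _ h0
    have hconj : ∀ σ : Gal(K/ℚ), φ (σ⁻¹ • 𝔮) = φ 𝔮 ^ jcExp (p := p) σ := by
      intro σ
      have := hequiv σ (σ⁻¹ • 𝔮) (jc_smul_ne_bot _ h0)
      rw [smul_inv_smul] at this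
      exact this.symm
    rw [hprod, Finset.prod_congr rfl (fun σ _ => hconj σ), Finset.prod_pow_eq_pow_sum,
      jc_sum_jcExp] at h1
    exact hkey _ _ h1 (jc_not_dvd_sum hp2)

end Fermat.Agent.S14x
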