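import Mathlib
import Fermat.Agent.S14x.Defs
import Fermat.Agent.S14x.JacobiMain

/-!
# S14x / JacobiKill : module JAC of the S14 plan (owner helper96)

`jacobi_kill` : exactly the statement `Spec.jacobi_kill`.  An equivariant `ZMod p`-valued function on
the primes of `ℚ(ζ_p)` which kills principal divisors vanishes at every prime not above `p`.

Proof: decomposition-group argument for primes with non-trivial stabiliser; for the others the
Jacobi sum factorisation `jc_span_eq_prod` of `JacobiMain.lean`, translated to divisors.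
-/

set_option autoImplicit false

namespace Fermat.Agent.S14x

open NumberField IsDedekindDomain IsCyclotomicExtension IsCyclotomicExtension.Rat Finset
open scoped Pointwise nonZeroDivisors

/-- `ordAt v x` is the exponent of `v` in the factorisation of `(x)`. -/
theorem jk_ordAt_eq_count {F : Type*} [Field F] [NumberField F] (v : Pl F) (x : 𝓞 F) (hx : x ≠ 0) :
    ordAt v (x : F) =
      FractionalIdeal.count F v ((Ideal.span {x} : Ideal (𝓞 F)) : FractionalIdeal (𝓞 F)⁰ F) := by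
  have hspan : (Ideal.span {x} : Ideal (𝓞 F)) ≠ 0 := by
    rw [Ideal.zero_eq_bot, Ne, Ideal.span_singleton_eq_bot]
    exact hx
  rw [ordAt, HeightOneSpectrum.valuation_of_algebraMap, HeightOneSpectrum.intValuation_if_neg v hx,
    WithZero.log_exp, neg_neg, FractionalIdeal.count_coe F v hspan]

variable {p : ℕ} [hp : Fact p.Prime]

/-- a prime of `𝓞 K` not containing `p` has norm prime to `p`. -/
theorem jk_coprime_of_not_mem {K : Type*} [Field K] [NumberField K] (𝔮 : Ideal (𝓞 K))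
    [h𝔮 : 𝔮.IsMaximal] (hp𝔮 : (p : 𝓞 K) ∉ 𝔮) : (Ideal.absNorm 𝔮).Coprime p := by
  rw [Nat.coprime_comm, Nat.Prime.coprime_iff_not_dvd hp.out]
  intro hdvd
  let _ := Ideal.Quotient.field 𝔮
  let _ : Fintype (𝓞 K ⧸ 𝔮) := Fintype.ofFinite _
  obtain ⟨n, hℓ, hcard⟩ := FiniteField.card (𝓞 K ⧸ 𝔮) (ringChar (𝓞 K ⧸ 𝔮))
  have hnorm : Ideal.absNorm 𝔮 = Fintype.card (𝓞 K ⧸ 𝔮) := by
    rw [Ideal.absNorm_apply, Submodule.cardQuot_apply, Nat.card_eq_fintype_card]
  rw [hnorm, hcard] at hdvd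
  have h1 : p = ringChar (𝓞 K ⧸ 𝔮) :=
    (Nat.prime_dvd_prime_iff_eq hp.out hℓ).mp (hp.out.dvd_of_dvd_pow hdvd)
  apply hp𝔮
  rw [← Ideal.Quotient.eq_zero_iff_mem, map_natCast, h1]
  exact ringChar.Nat.cast_ringChar

/-- **JAC**: exactly `Spec.jacobi_kill`. -/
theorem jacobi_kill {p : ℕ} [Fact p.Prime] (hp : p ≠ 2)
    (K : Type) [Field K] [NumberField K] [IsCyclotomicExtension {p} ℚ K]
    (φ : Pl K → ZMod p)
    (hrec : ∀ x : K, x ≠ 0 → (divOf x).sum (fun v n => (n : ZMod p) * φ v) = 0)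
    (hequiv : ∀ (σ : K ≃ₐ[ℚ] K) (ζ : K) (k : ℕ), IsPrimitiveRoot ζ p → σ ζ = ζ ^ k →
      ∀ v w : Pl K, w.asIdeal = σ • v.asIdeal → (k : ZMod p) * φ w = φ v)
    (v : Pl K) (hv : (p : 𝓞 K) ∉ v.asIdeal) : φ v = 0 := by
  classical
  have hpP : p.Prime := Fact.out
  haveI : NeZero p := ⟨hpP.ne_zero⟩
  have hmax : v.asIdeal.IsMaximal := v.isMaximal
  have hcop : (Ideal.absNorm v.asIdeal).Coprime p := jk_coprime_of_not_mem v.asIdeal hv
  have hζ := zeta_spec p ℚ K
  -- `σ ζ = ζ ^ t(σ)`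
  have hσζ : ∀ σ : Gal(K/ℚ), σ (zeta p ℚ K) = zeta p ℚ K ^ jcExp (p := p) σ := fun σ =>
    galEquivZMod_apply_of_pow_eq p K σ hζ.pow_eq_one
  by_cases hst : ∃ σ : Gal(K/ℚ), σ ≠ 1 ∧ σ • v.asIdeal = v.asIdeal
  · obtain ⟨σ, hσ1, hσv⟩ := hst
    have h1 := hequiv σ _ _ hζ (hσζ σ) v v hσv.symm
    have hk : ((jcExp (p := p) σ : ℕ) : ZMod p) ≠ 1 := by
      rw [jcExp, ZMod.natCast_zmod_val]
      intro h
      apply hσ1
      apply (galEquivZMod p K).injective
      rw [map_one]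
      exact Units.ext h
    have h2 : (((jcExp (p := p) σ : ℕ) : ZMod p) - 1) * φ v = 0 := by
      rw [sub_mul, one_mul, h1, sub_self]
    rcases mul_eq_zero.mp h2 with h3 | h3
    · exact absurd (sub_eq_zero.mp h3) hk
    · exact h3
  · have hstab : ∀ σ : Gal(K/ℚ), σ • v.asIdeal = v.asIdeal → σ = 1 := by
      intro σ hσ
      by_contra h
      exact hst ⟨σ, h, hσ⟩
    obtain ⟨J, hJ0, hJspan⟩ := jc_span_eq_prod hp v.asIdeal hcop hstab
    set S₁ := univ.filter fun σ : Gal(K/ℚ) => 2 * jcExp (p := p) σ < p with hS₁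
    -- the conjugate primes
    let w : Gal(K/ℚ) → Pl K := fun σ =>
      ⟨σ⁻¹ • v.asIdeal, jc_smul_isPrime _ _, jc_smul_ne_bot _ v.ne_bot⟩
    have hJK : ((J : 𝓞 K) : K) ≠ 0 := by
      intro h
      exact hJ0 (RingOfIntegers.coe_injective (by simpa using h))
    have hdiv : divOf ((J : 𝓞 K) : K) = ∑ σ ∈ S₁, Finsupp.single (w σ) (1 : ℤ) := by
      ext u
      rw [divOf_apply, jk_ordAt_eq_count u J hJ0, hJspan, Finsupp.finsetSum_apply]
      have hcoe : ((∏ σ ∈ S₁, σ⁻¹ • v.asIdeal : Ideal (𝓞 K)) : FractionalIdeal (𝓞 K)⁰ K) =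
          ∏ σ ∈ S₁, (((w σ).asIdeal : Ideal (𝓞 K)) : FractionalIdeal (𝓞 K)⁰ K) :=
        map_prod (FractionalIdeal.coeIdealHom (𝓞 K)⁰ K) _ _
      rw [hcoe, FractionalIdeal.count_prod K u S₁ _
        (fun σ _ => FractionalIdeal.coeIdeal_ne_zero.mpr (w σ).ne_bot)]
      refine Finset.sum_congr rfl fun σ _ => ?_
      rw [FractionalIdeal.count_maximal K u (w σ), Finsupp.single_apply]
    have h0 := hrec _ hJK
    rw [hdiv, ← Finsupp.sum_finsetSum_index (by intro a; simp)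
      (by intro a b₁ b₂; push_cast; ring)] at h0
    have h1 : ∀ σ ∈ S₁, (Finsupp.single (w σ) (1 : ℤ)).sum (fun v n => (n : ZMod p) * φ v)
        = ((jcExp (p := p) σ : ℕ) : ZMod p) * φ v := by
      intro σ _
      rw [Finsupp.sum_single_index (by simp)]
      have h2 := hequiv σ _ _ hζ (hσζ σ) (w σ) v (by
        show v.asIdeal = σ • (σ⁻¹ • v.asIdeal)
        rw [smul_inv_smul])
      rw [h2]
      simp
    rw [Finset.sum_congr rfl h1, ← Finset.sum_mul, ← Nat.cast_sum, jc_sum_jcExp] at h0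
    rcases mul_eq_zero.mp h0 with h3 | h3
    · exfalso
      rw [ZMod.natCast_eq_zero_iff] at h3
      exact jc_not_dvd_sum hp h3
    · exact h3

end Fermat.Agent.S14x
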