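/-
S14 project, module CROSS (Artin's cyclotomic crossing), REAL shared definitions, part 2 (helper88):
the ambient field `Ω = L(ζ_n)` of the crossing argument, its Galois group over `K`, the two
characters `crRes : Gal(Ω/K) → Gal(L/K)` and `crChi : Gal(Ω/K) → (ℤ/n)ˣ`, and the structure
`CrossAmb` (output of Artin's lemma + disjointness + Frobenius elements, input of the field
construction).  No sorry here.  NEVER edit once landed (add new files).
-/
import Fermat.Agent.S14x.CrossDefs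

set_option autoImplicit false

namespace Fermat.Agent.S14x

open NumberField IsDedekindDomain Polynomial

/-- a finite normal extension is the splitting field of a NON-ZERO polynomial -/
theorem cr_exists_isSplittingField_ne_zero (K L : Type) [Field K] [Field L] [Algebra K L]
    [Normal K L] [FiniteDimensional K L] : ∃ f : K[X], f ≠ 0 ∧ IsSplittingField K L f := by
  obtain ⟨f, hf⟩ := Normal.exists_isSplittingField K L
  by_cases h0 : f = 0
  · subst h0
    refine ⟨1, one_ne_zero, ⟨by simp, ?_⟩⟩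
    have := hf.adjoin_rootSet
    simpa [rootSet] using this
  · exact ⟨f, h0, hf⟩

variable {p : ℕ} (T : Tower p) (n : ℕ) [NeZero n]

/-- the ambient field `Ω = L(ζ_n)` (Mathlib supplies `Algebra T.K Ω`, `IsScalarTower T.K T.L Ω`,
`NumberField Ω`, `FiniteDimensional T.K Ω`, `IsCyclotomicExtension {n} T.L Ω`). -/
abbrev crΩ : Type := CyclotomicField n T.L

instance crGalLΩ : IsGalois T.L (crΩ T n) := IsCyclotomicExtension.isGalois {n} T.L (crΩ T n)

instance crGalKΩ : IsGalois T.K (crΩ T n) := by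
  obtain ⟨f, hf0, hf⟩ := cr_exists_isSplittingField_ne_zero T.K T.L
  have h1 : IsSplittingField T.L (crΩ T n) ((cyclotomic n T.K).map (algebraMap T.K T.L)) := by
    rw [map_cyclotomic]
    exact IsCyclotomicExtension.splitting_field_cyclotomic n T.L (crΩ T n)
  have h2 := IsSplittingField.mul (F := T.K) (K := T.L) (crΩ T n) f (cyclotomic n T.K) hf0
    (cyclotomic_ne_zero n T.K)
  have : Normal T.K (crΩ T n) := Normal.of_isSplittingField (f * cyclotomic n T.K)
  exact ⟨⟩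

/-- the chosen primitive `n`-th root of unity of `Ω` -/
noncomputable def crZeta : crΩ T n := IsCyclotomicExtension.zeta n T.L (crΩ T n)

theorem crZeta_spec : IsPrimitiveRoot (crZeta T n) n :=
  IsCyclotomicExtension.zeta_spec n T.L (crΩ T n)

/-- the mod-`n` cyclotomic character of `Gal(Ω/K)`: `σ ζ = ζ ^ (crChi σ)` -/
noncomputable def crChi : (crΩ T n ≃ₐ[T.K] crΩ T n) →* (ZMod n)ˣ :=
  (crZeta_spec T n).autToPow T.K

/-- restriction `Gal(Ω/K) → Gal(L/K)` -/
noncomputable def crRes : (crΩ T n ≃ₐ[T.K] crΩ T n) →* (T.L ≃ₐ[T.K] T.L) :=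
  AlgEquiv.restrictNormalHom T.L

theorem crChi_spec (σ : crΩ T n ≃ₐ[T.K] crΩ T n) :
    σ (crZeta T n) = crZeta T n ^ ((crChi T n σ : (ZMod n)ˣ) : ZMod n).val :=
  ((crZeta_spec T n).autToPow_spec T.K σ).symm

theorem crRes_spec (σ : crΩ T n ≃ₐ[T.K] crΩ T n) (x : T.L) :
    algebraMap T.L (crΩ T n) (crRes T n σ x) = σ (algebraMap T.L (crΩ T n) x) :=
  AlgEquiv.restrictNormal_commutes σ T.L x

/-- Ambient crossing datum for two primes `v₁ v₂` of `K`: a modulus `n` prime to both, an element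
`s ∈ Gal(L(ζ_n)/K)` of order `p` restricting to the generator `g` of `Gal(L/K)`, Frobenius elements
`σ₁ σ₂` at primes `P₁ P₂` of `Ω` above `v₁ v₂`, and Artin's independence property:
an element of `⟨s, σᵢ⟩` fixing `ζ_n` fixes `L`. -/
structure CrossAmb {p : ℕ} (T : Tower p) (v₁ v₂ : Pl T.K) where
  n : ℕ
  [neZero_n : NeZero n]
  coprime₁ : (n : 𝓞 T.K) ∉ v₁.asIdeal
  coprime₂ : (n : 𝓞 T.K) ∉ v₂.asIdeal
  s : crΩ T n ≃ₐ[T.K] crΩ T n
  σ₁ : crΩ T n ≃ₐ[T.K] crΩ T n
  σ₂ : crΩ T n ≃ₐ[T.K] crΩ T n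
  P₁ : Pl (crΩ T n)
  P₂ : Pl (crΩ T n)
  res_s : crRes T n s = T.g
  s_pow : s ^ p = 1
  P₁_over : PlOver T.K (crΩ T n) P₁ v₁
  P₂_over : PlOver T.K (crΩ T n) P₂ v₂
  frob₁ : IsArithFrobAt (𝓞 T.K) σ₁ P₁.asIdeal
  frob₂ : IsArithFrobAt (𝓞 T.K) σ₂ P₂.asIdeal
  ind₁ : ∀ a b : ℤ, crChi T n (s ^ a * σ₁ ^ b) = 1 → crRes T n (s ^ a * σ₁ ^ b) = 1
  ind₂ : ∀ a b : ℤ, crChi T n (s ^ a * σ₂ ^ b) = 1 → crRes T n (s ^ a * σ₂ ^ b) = 1

attribute [instance] CrossAmb.neZero_n

end Fermat.Agent.S14x
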