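/-
S14 / CROSS leaf X1 (helper69): Galois theory of `Ω = L(ζ_m)` over `K` for a tower `T : Tower p`
(`p ≠ 2`, `m` prime to `p`).

Exports (all for `(Ω : Type*) [Field Ω] [Algebra T.K Ω] [Algebra T.L Ω] [IsScalarTower T.K T.L Ω]
[IsCyclotomicExtension {m} T.L Ω]`, e.g. `Ω := CyclotomicField m T.L`):
* `cg_normal`, `cg_isGalois`        : `Ω/K` is Galois
* `cg_not_le`                       : `L ⊄ K(ζ_m)` (because `L/ℚ` is not abelian: `Tower.conj`)
* `cg_finrank_adjoin`               : `[K(ζ_m):K] = φ(m)`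
* `cg_finrank`, `cg_finrank_L`      : `[Ω:K] = p φ(m)`, `[Ω:L] = φ(m)`
* `cg_irreducible`                  : `Φ_m` is irreducible over `L`
* `cg_exists_aut`                   : every `(h, τ) ∈ Gal(L/K) × (ℤ/m)ˣ` is realised in `Gal(Ω/K)`
* `cg_ext`, `cg_comm`               : uniqueness, commutativity
* `cg_res`, `cg_chi`, `cg_resChi`, `cg_equiv` : `Gal(Ω/K) ≃* Gal(L/K) × (ℤ/m)ˣ`
-/
import Mathlib
import Fermat.Agent.S14x.Defs

set_option autoImplicit false
set_option linter.style.haveILetI false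
set_option linter.unusedSectionVars false

namespace Fermat.Agent.S14x

open Polynomial IntermediateField

/-- `L/F` finite Galois and `Ω = L(ζ_m)` ⇒ `Ω/F` normal. -/
theorem cg_normal (F L Ω : Type*) [Field F] [Field L] [Field Ω] [Algebra F L] [Algebra L Ω]
    [Algebra F Ω] [IsScalarTower F L Ω] [IsGalois F L] [FiniteDimensional F L]
    (m : ℕ) [NeZero m] [IsCyclotomicExtension {m} L Ω] : Normal F Ω := by
  obtain ⟨f, hfsep, hf⟩ := IsGalois.is_separable_splitting_field F L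
  have := hf
  have h1 : (X ^ m - 1 : F[X]) ≠ 0 := X_pow_sub_C_ne_zero (NeZero.pos m) 1
  have : IsSplittingField L Ω ((X ^ m - 1 : F[X]).map (algebraMap F L)) := by
    have : (X ^ m - 1 : F[X]).map (algebraMap F L) = X ^ m - 1 := by simp
    rw [this]
    exact IsCyclotomicExtension.isSplittingField_X_pow_sub_one m L Ω
  have := IsSplittingField.mul (F := F) (K := L) Ω f (X ^ m - 1) hfsep.ne_zero h1
  exact Normal.of_isSplittingField (f * (X ^ m - 1))

/-- two ring automorphisms commute on `K(ζ)` as soon as they commute on `K`. -/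
theorem cg_commute_on_adjoin {K Ω : Type*} [Field K] [Field Ω] [Algebra K Ω] {ζ : Ω} {m : ℕ}
    [NeZero m] (hζ : IsPrimitiveRoot ζ m) (s t : Ω ≃+* Ω)
    (hK : ∀ x : K, s (t (algebraMap K Ω x)) = t (s (algebraMap K Ω x))) :
    ∀ y ∈ K⟮ζ⟯, s (t y) = t (s y) := by
  obtain ⟨a, -, ha⟩ := hζ.eq_pow_of_pow_eq_one (ξ := s ζ) (by rw [← map_pow, hζ.pow_eq_one, map_one])
  obtain ⟨b, -, hb⟩ := hζ.eq_pow_of_pow_eq_one (ξ := t ζ) (by rw [← map_pow, hζ.pow_eq_one, map_one])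
  intro y hy
  induction hy using IntermediateField.adjoin_induction with
  | mem x hx =>
    rw [Set.mem_singleton_iff] at hx
    subst hx
    rw [← ha, ← hb, map_pow, map_pow, ← ha, ← hb, ← pow_mul, ← pow_mul, mul_comm]
  | algebraMap x => exact hK x
  | add x y _ _ hx hy => rw [map_add, map_add, map_add, map_add, hx, hy]
  | inv x _ hx => rw [map_inv₀, map_inv₀, map_inv₀, map_inv₀, hx]
  | mul x y _ _ hx hy => rw [map_mul, map_mul, map_mul, map_mul, hx, hy]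

/-- `ζ ^ a` only depends on `a mod m` when `ζ ^ m = 1`. -/
theorem cg_pow_eq_of_zmod {R : Type*} [Monoid R] {m : ℕ} {ζ : R} (h : ζ ^ m = 1) (a b : ℕ)
    (hab : (a : ZMod m) = (b : ZMod m)) : ζ ^ a = ζ ^ b := by
  have hmod : a % m = b % m := (ZMod.natCast_eq_natCast_iff' a b m).mp hab
  rw [← Nat.mod_add_div a m, ← Nat.mod_add_div b m, pow_add, pow_add, pow_mul, pow_mul, h,
    one_pow, one_pow, hmod]

section
variable {p : ℕ} [Fact p.Prime] (T : Tower p) (m : ℕ) [NeZero m]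
variable (Ω : Type*) [Field Ω] [Algebra T.K Ω] [Algebra T.L Ω] [IsScalarTower T.K T.L Ω]
  [IsCyclotomicExtension {m} T.L Ω]

include T in
theorem cg_charZero : CharZero Ω :=
  charZero_of_injective_algebraMap (FaithfulSMul.algebraMap_injective T.L Ω)

/-- `L` is not contained in `K(ζ_m)` because `L/ℚ` is not abelian. -/
theorem cg_not_le (hp : p ≠ 2) {ζ : Ω} (hζ : IsPrimitiveRoot ζ m)
    (hle : ∀ y : T.L, algebraMap T.L Ω y ∈ T.K⟮ζ⟯) : False := by
  haveI := cg_charZero T Ω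
  have hpp : p.Prime := Fact.out
  haveI : NeZero p := ⟨hpp.ne_zero⟩
  have hN1 : Normal ℚ Ω := cg_normal ℚ T.L Ω m
  have hN2 : Normal T.K Ω := cg_normal T.K T.L Ω m
  -- the automorphism `ζ_p ↦ ζ_p ^ 2` of `K`
  have hz := IsCyclotomicExtension.zeta_spec p ℚ T.K
  set ζp := IsCyclotomicExtension.zeta p ℚ T.K with hζp
  have h2p : Nat.Coprime 2 p := by
    rw [Nat.coprime_comm]
    exact (Nat.coprime_primes hpp Nat.prime_two).mpr hp
  have hirr : Irreducible (cyclotomic p ℚ) := cyclotomic.irreducible_rat hpp.pos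
  set σ₀ : T.K ≃ₐ[ℚ] T.K := IsCyclotomicExtension.fromZetaAut (hz.pow_of_coprime 2 h2p) hirr
    with hσ₀
  have hσ₀z : σ₀ ζp = ζp ^ 2 := IsCyclotomicExtension.fromZetaAut_spec _ hirr
  set σ : T.L ≃ₐ[ℚ] T.L := σ₀.liftNormal T.L with hσ
  have hσK : ∀ x : T.K, σ (algebraMap T.K T.L x) = algebraMap T.K T.L (σ₀ x) :=
    fun x => AlgEquiv.liftNormal_commutes σ₀ T.L x
  have hconj := T.conj σ T.g ζp 2 hz (by rw [hσK, hσ₀z, map_pow])
  set σ' : Ω ≃ₐ[ℚ] Ω := σ.liftNormal Ω with hσ'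
  set g' : Ω ≃ₐ[T.K] Ω := T.g.liftNormal Ω with hg'
  have hσ'L : ∀ x : T.L, σ' (algebraMap T.L Ω x) = algebraMap T.L Ω (σ x) :=
    fun x => AlgEquiv.liftNormal_commutes σ Ω x
  have hg'L : ∀ x : T.L, g' (algebraMap T.L Ω x) = algebraMap T.L Ω (T.g x) :=
    fun x => AlgEquiv.liftNormal_commutes T.g Ω x
  have hK : ∀ x : T.K, (σ' : Ω ≃+* Ω) ((g' : Ω ≃+* Ω) (algebraMap T.K Ω x)) =
      (g' : Ω ≃+* Ω) ((σ' : Ω ≃+* Ω) (algebraMap T.K Ω x)) := by
    intro x
    have e1 : σ' (algebraMap T.K Ω x) = algebraMap T.K Ω (σ₀ x) := by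
      rw [IsScalarTower.algebraMap_apply T.K T.L Ω, hσ'L, hσK,
        ← IsScalarTower.algebraMap_apply T.K T.L Ω]
    show σ' (g' (algebraMap T.K Ω x)) = g' (σ' (algebraMap T.K Ω x))
    rw [g'.commutes, e1, g'.commutes]
  have hcomm := cg_commute_on_adjoin (K := T.K) hζ (σ' : Ω ≃+* Ω) (g' : Ω ≃+* Ω) hK
  have hcommL : ∀ y : T.L, σ (T.g y) = T.g (σ y) := by
    intro y
    apply FaithfulSMul.algebraMap_injective T.L Ω
    have := hcomm _ (hle y)
    change σ' (g' (algebraMap T.L Ω y)) = g' (σ' (algebraMap T.L Ω y)) at this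
    rw [hg'L, hσ'L, hσ'L, hg'L] at this
    exact this
  apply T.g_ne_one
  ext y
  obtain ⟨x, rfl⟩ := σ.surjective y
  have h1 := hconj x
  rw [pow_two, AlgEquiv.mul_apply, hcommL, hcommL] at h1
  have := T.g.injective h1
  simpa using this

/-- `[K(ζ_m) : K] = φ(m)` for `m` prime to `p` (`K = ℚ(ζ_p)`). -/
theorem cg_finrank_adjoin (hm : p.Coprime m) {ζ : Ω} (hζ : IsPrimitiveRoot ζ m) :
    Module.finrank T.K T.K⟮ζ⟯ = m.totient := by
  haveI := cg_charZero T Ω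
  have hpp : p.Prime := Fact.out
  haveI : NeZero p := ⟨hpp.ne_zero⟩
  have hz := IsCyclotomicExtension.zeta_spec p ℚ T.K
  set ζp := IsCyclotomicExtension.zeta p ℚ T.K with hζp
  have hz' : IsPrimitiveRoot (algebraMap T.K Ω ζp) p :=
    hz.map_of_injective (FaithfulSMul.algebraMap_injective T.K Ω)
  set ξ : Ω := algebraMap T.K Ω ζp * ζ with hξdef
  have hord : orderOf ξ = p * m := by
    rw [hξdef, (Commute.all _ _).orderOf_mul_eq_mul_orderOf_of_coprime, ← hz'.eq_orderOf,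
      ← hζ.eq_orderOf]
    rwa [← hz'.eq_orderOf, ← hζ.eq_orderOf]
  have hξ : IsPrimitiveRoot ξ (p * m) := hord ▸ IsPrimitiveRoot.orderOf ξ
  have hpm : 0 < p * m := Nat.mul_pos hpp.pos (NeZero.pos m)
  have hmin : minpoly ℚ ξ = cyclotomic (p * m) ℚ := (cyclotomic_eq_minpoly_rat hξ hpm).symm
  have hint : IsIntegral ℚ ξ := (hξ.isIntegral hpm).tower_top
  have d1 : Module.finrank ℚ ℚ⟮ξ⟯ = (p * m).totient := by
    rw [IntermediateField.adjoin.finrank hint, hmin, natDegree_cyclotomic]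
  have hle : ℚ⟮ξ⟯ ≤ (T.K⟮ζ⟯).restrictScalars ℚ := by
    rw [IntermediateField.adjoin_le_iff, Set.singleton_subset_iff]
    show ξ ∈ T.K⟮ζ⟯
    exact mul_mem (IntermediateField.algebraMap_mem _ _) (mem_adjoin_simple_self T.K ζ)
  have d2 : Module.finrank ℚ ((T.K⟮ζ⟯).restrictScalars ℚ) =
      Module.finrank ℚ T.K * Module.finrank T.K T.K⟮ζ⟯ :=
    (Module.finrank_mul_finrank ℚ T.K T.K⟮ζ⟯).symm
  have hirr : Irreducible (cyclotomic p ℚ) := cyclotomic.irreducible_rat hpp.pos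
  have d3 : Module.finrank ℚ T.K = p - 1 := by
    rw [IsCyclotomicExtension.finrank T.K hirr, Nat.totient_prime hpp]
  have hζint : IsIntegral T.K ζ := (hζ.isIntegral (NeZero.pos m)).tower_top
  have d4 : Module.finrank T.K T.K⟮ζ⟯ ≤ m.totient := by
    rw [IntermediateField.adjoin.finrank hζint, ← natDegree_cyclotomic m T.K]
    apply natDegree_le_of_dvd _ (cyclotomic_ne_zero m T.K)
    apply minpoly.dvd
    rw [aeval_def, eval₂_eq_eval_map, map_cyclotomic]
    exact hζ.isRoot_cyclotomic (NeZero.pos m)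
  haveI : FiniteDimensional T.K T.K⟮ζ⟯ := IntermediateField.adjoin.finiteDimensional hζint
  haveI : FiniteDimensional ℚ ((T.K⟮ζ⟯).restrictScalars ℚ) := by
    show FiniteDimensional ℚ T.K⟮ζ⟯
    exact Module.Finite.trans T.K _
  have d5 := IntermediateField.finrank_le_of_le_right hle
  rw [d1, d2, d3, Nat.totient_mul hm, Nat.totient_prime hpp] at d5
  have hp1 : 0 < p - 1 := Nat.sub_pos_of_lt hpp.one_lt
  exact le_antisymm d4 (Nat.le_of_mul_le_mul_left d5 hp1)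

/-- `[L(ζ_m) : K] = p φ(m)`. -/
theorem cg_finrank (hp : p ≠ 2) (hm : p.Coprime m) :
    Module.finrank T.K Ω = p * m.totient := by
  have hpp : p.Prime := Fact.out
  obtain ⟨ζ, hζ⟩ := IsCyclotomicExtension.exists_isPrimitiveRoot T.L Ω (Set.mem_singleton m)
    (NeZero.ne m)
  set A : IntermediateField T.K Ω := (IsScalarTower.toAlgHom T.K T.L Ω).fieldRange with hA
  let e : T.L ≃ₐ[T.K] A := AlgEquiv.ofInjectiveField (IsScalarTower.toAlgHom T.K T.L Ω)
  haveI : IsGalois T.K A := IsGalois.of_algEquiv e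
  haveI : FiniteDimensional T.K A := Module.Finite.equiv e.toLinearEquiv
  have hAfin : Module.finrank T.K A = p := by
    rw [← e.toLinearEquiv.finrank_eq, T.finrank_eq]
  have hζint : IsIntegral T.K ζ := (hζ.isIntegral (NeZero.pos m)).tower_top
  haveI : FiniteDimensional T.K T.K⟮ζ⟯ := IntermediateField.adjoin.finiteDimensional hζint
  have hAmem : ∀ y : T.L, algebraMap T.L Ω y ∈ A := fun y => ⟨y, rfl⟩
  have hsup : A ⊔ T.K⟮ζ⟯ = ⊤ := by
    rw [eq_top_iff]
    intro x _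
    have hx : x ∈ Algebra.adjoin T.L ({ζ} : Set Ω) := by
      rw [IsCyclotomicExtension.adjoin_primitive_root_eq_top hζ]
      trivial
    induction hx using Algebra.adjoin_induction with
    | mem x hx =>
      rw [Set.mem_singleton_iff] at hx
      subst hx
      exact (le_sup_right : T.K⟮x⟯ ≤ A ⊔ T.K⟮x⟯) (mem_adjoin_simple_self T.K x)
    | algebraMap r => exact (le_sup_left : A ≤ A ⊔ T.K⟮ζ⟯) (hAmem r)
    | add x y _ _ hx hy => exact add_mem (hx trivial) (hy trivial)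
    | mul x y _ _ hx hy => exact mul_mem (hx trivial) (hy trivial)
  have hinf : A ⊓ T.K⟮ζ⟯ = ⊥ := by
    have hdvd : Module.finrank T.K ↥(A ⊓ T.K⟮ζ⟯) ∣ Module.finrank T.K A :=
      IntermediateField.finrank_dvd_of_le_right inf_le_left
    rw [hAfin] at hdvd
    rcases (Nat.dvd_prime hpp).mp hdvd with h1 | h1
    · exact IntermediateField.finrank_eq_one_iff.mp h1
    · exfalso
      have hEq : A ⊓ T.K⟮ζ⟯ = A :=
        IntermediateField.eq_of_le_of_finrank_eq inf_le_left (h1.trans hAfin.symm)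
      have hle : A ≤ T.K⟮ζ⟯ := by
        rw [← hEq]
        exact inf_le_right
      exact cg_not_le T m Ω hp hζ (fun y => hle (hAmem y))
  have hLD : A.LinearDisjoint T.K⟮ζ⟯ := IntermediateField.LinearDisjoint.of_inf_eq_bot hinf
  have := hLD.finrank_sup
  rw [hsup, IntermediateField.finrank_top', hAfin, cg_finrank_adjoin T m Ω hm hζ] at this
  exact this

theorem cg_finrank_L (hp : p ≠ 2) (hm : p.Coprime m) :
    Module.finrank T.L Ω = m.totient := by
  have hpp : p.Prime := Fact.out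
  have h1 := Module.finrank_mul_finrank T.K T.L Ω
  rw [cg_finrank T m Ω hp hm, T.finrank_eq] at h1
  exact Nat.eq_of_mul_eq_mul_left hpp.pos h1

include Ω in
theorem cg_irreducible_aux (hp : p ≠ 2) (hm : p.Coprime m) :
    Irreducible (cyclotomic m T.L) := by
  obtain ⟨ζ, hζ⟩ := IsCyclotomicExtension.exists_isPrimitiveRoot T.L Ω (Set.mem_singleton m)
    (NeZero.ne m)
  have hζint : IsIntegral T.L ζ := hζ.isIntegral (NeZero.pos m) |>.tower_top
  have hdeg : (minpoly T.L ζ).natDegree = m.totient := by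
    rw [← hζ.powerBasis_dim T.L, ← (hζ.powerBasis T.L).finrank, cg_finrank_L T m Ω hp hm]
  have hdvd : minpoly T.L ζ ∣ cyclotomic m T.L := by
    apply minpoly.dvd
    rw [aeval_def, eval₂_eq_eval_map, map_cyclotomic]
    exact hζ.isRoot_cyclotomic (NeZero.pos m)
  have heq : cyclotomic m T.L = minpoly T.L ζ :=
    eq_of_monic_of_dvd_of_natDegree_le (minpoly.monic hζint) (cyclotomic.monic m T.L) hdvd
      (by rw [hdeg, natDegree_cyclotomic])
  rw [heq]
  exact minpoly.irreducible hζint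

omit Ω in
/-- `Φ_m` is irreducible over `L`. -/
theorem cg_irreducible (hp : p ≠ 2) (hm : p.Coprime m) :
    Irreducible (cyclotomic m T.L) := by
  exact cg_irreducible_aux T m (CyclotomicField m T.L) hp hm

/-- two `K`-automorphisms of `Ω = L(ζ_m)` agreeing on `L` and at one primitive `m`-th root of unity
are equal. -/
theorem cg_ext {ζ : Ω} (hζ : IsPrimitiveRoot ζ m) (s t : Ω ≃ₐ[T.K] Ω)
    (hL : ∀ x : T.L, s (algebraMap T.L Ω x) = t (algebraMap T.L Ω x)) (hz : s ζ = t ζ) :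
    s = t := by
  ext x
  have hx : x ∈ Algebra.adjoin T.L ({ζ} : Set Ω) := by
    rw [IsCyclotomicExtension.adjoin_primitive_root_eq_top hζ]
    trivial
  induction hx using Algebra.adjoin_induction with
  | mem x hx =>
    rw [Set.mem_singleton_iff] at hx
    subst hx
    exact hz
  | algebraMap r => exact hL r
  | add x y _ _ hx hy => rw [map_add, map_add, hx, hy]
  | mul x y _ _ hx hy => rw [map_mul, map_mul, hx, hy]

/-- **X1**: `Gal(L(ζ_m)/K) = Gal(L/K) × (ℤ/m)ˣ` (surjectivity part): every pair `(h, τ)` is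
realised. -/
theorem cg_exists_aut (hp : p ≠ 2) (hm : p.Coprime m) (h : T.L ≃ₐ[T.K] T.L) (τ : (ZMod m)ˣ) :
    ∃ s : Ω ≃ₐ[T.K] Ω, (∀ x : T.L, s (algebraMap T.L Ω x) = algebraMap T.L Ω (h x)) ∧
      ∀ ζ : Ω, ζ ^ m = 1 → s ζ = ζ ^ (τ : ZMod m).val := by
  have hirr := cg_irreducible T m hp hm
  haveI : Normal T.K Ω := cg_normal T.K T.L Ω m
  set s₀ : Ω ≃ₐ[T.K] Ω := h.liftNormal Ω with hs₀
  have hs₀L : ∀ x : T.L, s₀ (algebraMap T.L Ω x) = algebraMap T.L Ω (h x) :=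
    fun x => AlgEquiv.liftNormal_commutes h Ω x
  have hz := IsCyclotomicExtension.zeta_spec m T.L Ω
  set z := IsCyclotomicExtension.zeta m T.L Ω with hzdef
  set a : (ZMod m)ˣ := hz.autToPow T.K s₀ with ha
  have has₀ : z ^ (a : ZMod m).val = s₀ z := hz.autToPow_spec T.K s₀
  set ρ : Ω ≃ₐ[T.L] Ω := (IsCyclotomicExtension.autEquivPow Ω hirr).symm (a⁻¹ * τ) with hρ
  have hρ1 : hz.autToPow T.L ρ = a⁻¹ * τ := by
    have := (IsCyclotomicExtension.autEquivPow Ω hirr).apply_symm_apply (a⁻¹ * τ)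
    rw [← hρ] at this
    exact this
  have hρz : z ^ ((a⁻¹ * τ : (ZMod m)ˣ) : ZMod m).val = ρ z := by
    rw [← hρ1]
    exact hz.autToPow_spec T.L ρ
  refine ⟨s₀ * ρ.restrictScalars T.K, ?_, ?_⟩
  · intro x
    rw [AlgEquiv.mul_apply, AlgEquiv.restrictScalars_apply, ρ.commutes, hs₀L]
  · have key : (s₀ * ρ.restrictScalars T.K) z = z ^ (τ : ZMod m).val := by
      rw [AlgEquiv.mul_apply, AlgEquiv.restrictScalars_apply, ← hρz, map_pow, ← has₀, ← pow_mul]
      apply cg_pow_eq_of_zmod hz.pow_eq_one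
      simp only [Nat.cast_mul, ZMod.natCast_val, ZMod.cast_id', id_eq]
      rw [Units.val_mul, ← mul_assoc, ← Units.val_mul, mul_inv_cancel, Units.val_one, one_mul]
    intro ζ hζ
    obtain ⟨i, -, rfl⟩ := hz.eq_pow_of_pow_eq_one hζ
    rw [map_pow, key, ← pow_mul, ← pow_mul, mul_comm]

include m in
/-- `L(ζ_m)/K` is Galois. -/
theorem cg_isGalois : IsGalois T.K Ω := by
  haveI := cg_normal T.K T.L Ω m
  haveI := cg_charZero T Ω
  exact ⟨⟩

/-- the cyclotomic character of `Gal(L(ζ_m)/K)`. -/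
noncomputable def cg_chi : (Ω ≃ₐ[T.K] Ω) →* (ZMod m)ˣ :=
  (IsCyclotomicExtension.zeta_spec m T.L Ω).autToPow T.K

theorem cg_chi_spec (s : Ω ≃ₐ[T.K] Ω) {ζ : Ω} (hζ : ζ ^ m = 1) :
    s ζ = ζ ^ ((cg_chi T m Ω s : (ZMod m)ˣ) : ZMod m).val := by
  have hz := IsCyclotomicExtension.zeta_spec m T.L Ω
  obtain ⟨i, -, rfl⟩ := hz.eq_pow_of_pow_eq_one hζ
  have := hz.autToPow_spec T.K s
  rw [map_pow, ← this, ← pow_mul, ← pow_mul, mul_comm]
  rfl

/-- `cg_chi` is characterised by its value at one primitive root. -/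
theorem cg_chi_eq_of_apply (s : Ω ≃ₐ[T.K] Ω) {ζ : Ω} (hζ : IsPrimitiveRoot ζ m) (τ : (ZMod m)ˣ)
    (h : s ζ = ζ ^ (τ : ZMod m).val) : cg_chi T m Ω s = τ := by
  have h1 := cg_chi_spec T m Ω s hζ.pow_eq_one
  rw [h] at h1
  have h2 := (hζ.pow_inj (ZMod.val_lt _) (ZMod.val_lt _) h1)
  exact (Units.ext (ZMod.val_injective m h2)).symm

/-- restriction to `L`. -/
noncomputable def cg_res : (Ω ≃ₐ[T.K] Ω) →* (T.L ≃ₐ[T.K] T.L) :=
  AlgEquiv.restrictNormalHom T.L

theorem cg_res_spec (s : Ω ≃ₐ[T.K] Ω) (x : T.L) :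
    s (algebraMap T.L Ω x) = algebraMap T.L Ω (cg_res T Ω s x) :=
  (AlgEquiv.restrictNormal_commutes s T.L x).symm

theorem cg_res_eq_of_apply (s : Ω ≃ₐ[T.K] Ω) (h : T.L ≃ₐ[T.K] T.L)
    (hs : ∀ x : T.L, s (algebraMap T.L Ω x) = algebraMap T.L Ω (h x)) : cg_res T Ω s = h := by
  ext x
  apply FaithfulSMul.algebraMap_injective T.L Ω
  rw [← cg_res_spec, hs]

/-- `Gal(L(ζ_m)/K) → Gal(L/K) × (ℤ/m)ˣ`. -/
noncomputable def cg_resChi : (Ω ≃ₐ[T.K] Ω) →* (T.L ≃ₐ[T.K] T.L) × (ZMod m)ˣ :=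
  (cg_res T Ω).prod (cg_chi T m Ω)

theorem cg_resChi_injective : Function.Injective (cg_resChi T m Ω) := by
  intro s t hst
  have h1 : cg_res T Ω s = cg_res T Ω t := congrArg Prod.fst hst
  have h2 : cg_chi T m Ω s = cg_chi T m Ω t := congrArg Prod.snd hst
  have hz := IsCyclotomicExtension.zeta_spec m T.L Ω
  apply cg_ext T m Ω hz
  · intro x
    rw [cg_res_spec, cg_res_spec, h1]
  · rw [cg_chi_spec T m Ω s hz.pow_eq_one, cg_chi_spec T m Ω t hz.pow_eq_one, h2]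

theorem cg_resChi_surjective (hp : p ≠ 2) (hm : p.Coprime m) :
    Function.Surjective (cg_resChi T m Ω) := by
  rintro ⟨h, τ⟩
  obtain ⟨s, hs1, hs2⟩ := cg_exists_aut T m Ω hp hm h τ
  have hz := IsCyclotomicExtension.zeta_spec m T.L Ω
  refine ⟨s, Prod.ext ?_ ?_⟩
  · exact cg_res_eq_of_apply T Ω s h hs1
  · exact cg_chi_eq_of_apply T m Ω s hz τ (hs2 _ hz.pow_eq_one)

/-- **X1**: `Gal(L(ζ_m)/K) ≃ Gal(L/K) × (ℤ/m)ˣ`. -/
noncomputable def cg_equiv (hp : p ≠ 2) (hm : p.Coprime m) :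
    (Ω ≃ₐ[T.K] Ω) ≃* (T.L ≃ₐ[T.K] T.L) × (ZMod m)ˣ :=
  MulEquiv.ofBijective (cg_resChi T m Ω)
    ⟨cg_resChi_injective T m Ω, cg_resChi_surjective T m Ω hp hm⟩

omit m in
theorem cg_comm_L (a b : T.L ≃ₐ[T.K] T.L) : a * b = b * a := by
  have hcard : Nat.card (T.L ≃ₐ[T.K] T.L) = p := by
    rw [IsGalois.card_aut_eq_finrank, T.finrank_eq]
  haveI := isCyclic_of_prime_card hcard
  letI := IsCyclic.commGroup (α := T.L ≃ₐ[T.K] T.L)
  exact mul_comm a b

include m in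
/-- `Gal(L(ζ_m)/K)` is abelian. -/
theorem cg_comm (a b : Ω ≃ₐ[T.K] Ω) : a * b = b * a := by
  apply cg_resChi_injective T m Ω
  rw [map_mul, map_mul]
  refine Prod.ext ?_ ?_
  · exact cg_comm_L T _ _
  · exact mul_comm _ _

end

end Fermat.Agent.S14x
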