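/-
S14 project, module CROSS, rows AMB0 + DISJ of `CrossPlan.lean` (helper88): basic facts on
`Γ = Gal(L(ζ_n)/K)` in the `crΩ / crRes / crChi` language of `CrossAmbient.lean`.
Thin wrappers around helper69's `CrossGalois.lean` (`cg_*`).
-/
import Fermat.Agent.S14x.CrossAmbient
import Fermat.Agent.S14x.CrossGalois

set_option autoImplicit false

namespace Fermat.Agent.S14x

open NumberField IsDedekindDomain

section
variable {p : ℕ} [Fact p.Prime] (T : Tower p) (n : ℕ) [NeZero n]

theorem ca0_crChi_eq : crChi T n = cg_chi T n (crΩ T n) := rfl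

theorem ca0_crRes_eq : crRes T n = cg_res T (crΩ T n) := rfl

/-- `(crRes, crChi)` is injective: `Ω = L(ζ_n)`. -/
theorem cr_res_chi_injective (σ σ' : crΩ T n ≃ₐ[T.K] crΩ T n)
    (hr : crRes T n σ = crRes T n σ') (hc : crChi T n σ = crChi T n σ') : σ = σ' :=
  cg_resChi_injective T n (crΩ T n) (Prod.ext hr hc)

/-- `Γ` is commutative. -/
theorem cr_comm (σ σ' : crΩ T n ≃ₐ[T.K] crΩ T n) : σ * σ' = σ' * σ :=
  cg_comm T n (crΩ T n) σ σ'

/-- for `n` prime to `p`: every pair (automorphism of `L/K`, unit mod `n`) is realised in `Γ`. -/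
theorem cr_exists_res_chi (hp : p ≠ 2) (hn : n.Coprime p) (x : T.L ≃ₐ[T.K] T.L) (t : (ZMod n)ˣ) :
    ∃ σ : crΩ T n ≃ₐ[T.K] crΩ T n, crRes T n σ = x ∧ crChi T n σ = t := by
  obtain ⟨σ, hσ⟩ := cg_resChi_surjective T n (crΩ T n) hp hn.symm (x, t)
  exact ⟨σ, congrArg Prod.fst hσ, congrArg Prod.snd hσ⟩

/-- `crRes` is onto. -/
theorem cr_res_surjective : Function.Surjective (crRes T n) :=
  AlgEquiv.restrictNormalHom_surjective (crΩ T n)

/-- the commutative group structure on `Γ` (NOT an instance). -/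
@[reducible] noncomputable def ca0_commGroup : CommGroup (crΩ T n ≃ₐ[T.K] crΩ T n) :=
  { (inferInstance : Group (crΩ T n ≃ₐ[T.K] crΩ T n)) with mul_comm := cr_comm T n }

end

end Fermat.Agent.S14x
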