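/-
S14 project, module BC (helper28), part 1: `isUCyc_baseChange`.
The base change `M' = M F'` of an everywhere unramified cyclic extension `M/F` of prime degree `p`
is again everywhere unramified cyclic of degree `p` (when `[M':F'] = p`).
Prefix `bcu_`.  Imports only Mathlib + Defs.
-/
import Fermat.Agent.S14x.Defs

set_option autoImplicit false

namespace Fermat.Agent.S14x

open NumberField IsDedekindDomain
open scoped Pointwise

section Cyc

variable {p : ℕ} [Fact p.Prime]
variable {F M : Type} [Field F] [NumberField F] [Field M] [NumberField M] [Algebra F M]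
  [IsGalois F M] {g : M ≃ₐ[F] M}

theorem bcu_card_gal (h : IsUCyc p F M g) : Nat.card (M ≃ₐ[F] M) = p := by
  rw [IsGalois.card_aut_eq_finrank, h.finrank_eq]

theorem bcu_exists_pow (h : IsUCyc p F M g) (s : M ≃ₐ[F] M) : ∃ k : ℕ, s = g ^ k := by
  obtain ⟨k, hk⟩ := mem_powers_of_prime_card (bcu_card_gal h) h.g_ne_one (g' := s)
  exact ⟨k, hk.symm⟩

theorem bcu_pow_p (h : IsUCyc p F M g) : g ^ p = 1 := by
  have := pow_card_eq_one' (G := M ≃ₐ[F] M) (x := g)
  rwa [bcu_card_gal h] at this

theorem bcu_orderOf (h : IsUCyc p F M g) : orderOf g = p :=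
  orderOf_eq_prime (bcu_pow_p h) h.g_ne_one

theorem bcu_pow_eq_one_iff (h : IsUCyc p F M g) (k : ℕ) : g ^ k = 1 ↔ p ∣ k := by
  rw [← bcu_orderOf h, orderOf_dvd_iff_pow_eq_one]

/-- the inertia group of an unramified prime is trivial -/
theorem bcu_inertia_trivial (h : IsUCyc p F M g) (w : Pl M) (s : M ≃ₐ[F] M)
    (hs : ∀ x : 𝓞 M, s • x - x ∈ w.asIdeal) : s = 1 := by
  have hmem : s ∈ w.asIdeal.inertia (M ≃ₐ[F] M) := hs
  have hcard : Nat.card (w.asIdeal.inertia (M ≃ₐ[F] M)) = 1 := by
    have hv : (w.asIdeal.under (𝓞 F)).IsMaximal := (plUnder F M w).isMaximal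
    have : Finite ((w.asIdeal.under (𝓞 F)).ResidueField) := by
      have : Finite (𝓞 F ⧸ w.asIdeal.under (𝓞 F)) :=
        Ideal.finiteQuotientOfFreeOfNeBot _ (plUnder F M w).ne_bot
      exact Finite.of_surjective _ (Ideal.bijective_algebraMap_quotient_residueField
        (w.asIdeal.under (𝓞 F))).2
    rw [Ideal.card_inertia_eq_ramificationIdxIn (G := M ≃ₐ[F] M) (w.asIdeal.under (𝓞 F)) w.asIdeal,
      Ideal.ramificationIdxIn_eq_ramificationIdx (w.asIdeal.under (𝓞 F)) w.asIdeal (M ≃ₐ[F] M)]
    exact h.unram w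
  have := (Subgroup.card_eq_one.mp hcard)
  rw [this] at hmem
  exact Subgroup.mem_bot.mp hmem

end Cyc

theorem bcu_pow_compat {F M F' M' : Type} [Field F] [Field M] [Algebra F M] [Field F'] [Field M']
    [Algebra F' M'] [Algebra M M'] {g : M ≃ₐ[F] M} {g' : M' ≃ₐ[F'] M'}
    (hg : ∀ x : M, g' (algebraMap M M' x) = algebraMap M M' (g x)) (k : ℕ) (x : M) :
    (g' ^ k) (algebraMap M M' x) = algebraMap M M' ((g ^ k) x) := by
  induction k generalizing x with
  | zero => simp
  | succ k ih =>
    rw [pow_succ, pow_succ, AlgEquiv.mul_apply, AlgEquiv.mul_apply, hg, ih]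

section BaseChange

variable {p : ℕ} [Fact p.Prime]
variable {F M : Type} [Field F] [NumberField F] [Field M] [NumberField M] [Algebra F M]
  [IsGalois F M] {g : M ≃ₐ[F] M}
variable {F' M' : Type} [Field F'] [NumberField F'] [Field M'] [NumberField M']
  [Algebra F F'] [Algebra F' M'] [Algebra M M'] [Algebra F M']
  [IsScalarTower F F' M'] [IsScalarTower F M M'] [IsGalois F' M'] {g' : M' ≃ₐ[F'] M'}

theorem isUCyc_baseChange (h : IsUCyc p F M g)
    (hg : ∀ x : M, g' (algebraMap M M' x) = algebraMap M M' (g x))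
    (hdeg : Module.finrank F' M' = p) : IsUCyc p F' M' g' := by
  have hinj : Function.Injective (algebraMap M M') := (algebraMap M M').injective
  have hg'1 : g' ≠ 1 := by
    intro h1
    apply h.g_ne_one
    ext x
    apply hinj
    rw [← hg, h1]
    simp
  -- preliminary structure without `unram`, to use the cyclic lemmas on `M'/F'`
  have hcard : Nat.card (M' ≃ₐ[F'] M') = p := by
    rw [IsGalois.card_aut_eq_finrank, hdeg]
  refine ⟨hg'1, hdeg, ?_, ?_⟩
  · intro w'
    -- the inertia group of `w'` is trivial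
    have hv : (w'.asIdeal.under (𝓞 F')).IsMaximal := (plUnder F' M' w').isMaximal
    have : Finite ((w'.asIdeal.under (𝓞 F')).ResidueField) := by
      have : Finite (𝓞 F' ⧸ w'.asIdeal.under (𝓞 F')) :=
        Ideal.finiteQuotientOfFreeOfNeBot _ (plUnder F' M' w').ne_bot
      exact Finite.of_surjective _ (Ideal.bijective_algebraMap_quotient_residueField
        (w'.asIdeal.under (𝓞 F'))).2
    rw [← Ideal.ramificationIdxIn_eq_ramificationIdx (w'.asIdeal.under (𝓞 F')) w'.asIdeal
      (M' ≃ₐ[F'] M'),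
      ← Ideal.card_inertia_eq_ramificationIdxIn (G := M' ≃ₐ[F'] M') (w'.asIdeal.under (𝓞 F'))
        w'.asIdeal]
    rw [Subgroup.card_eq_one, Subgroup.eq_bot_iff_forall]
    intro σ' hσ'
    obtain ⟨k, hk⟩ := mem_powers_of_prime_card hcard hg'1 (g' := σ')
    have hk' : σ' = g' ^ k := hk.symm
    -- the restriction `g ^ k` lies in the inertia group of the prime below
    have hgk : g ^ k = 1 := by
      apply bcu_inertia_trivial h (plUnder M M' w')
      intro x
      show g ^ k • x - x ∈ w'.asIdeal.under (𝓞 M)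
      rw [Ideal.under_def, Ideal.mem_comap, map_sub]
      have h1 : algebraMap (𝓞 M) (𝓞 M') (g ^ k • x) = σ' • algebraMap (𝓞 M) (𝓞 M') x := by
        apply RingOfIntegers.ext
        show algebraMap M M' ((g ^ k) (x : M)) = σ' (algebraMap M M' (x : M))
        rw [hk', bcu_pow_compat hg]
      rw [h1]
      exact hσ' _
    have hpk : p ∣ k := (bcu_pow_eq_one_iff h k).mp hgk
    obtain ⟨j, rfl⟩ := hpk
    rw [hk', pow_mul]
    have : g' ^ p = 1 := by
      have := pow_card_eq_one' (G := M' ≃ₐ[F'] M') (x := g')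
      rwa [hcard] at this
    rw [this, one_pow]
  · obtain ⟨ζ, hζ⟩ := h.zeta
    let φ : F →+* F' := algebraMap F F'
    exact ⟨φ ζ, hζ.map_of_injective φ.injective⟩

end BaseChange

end Fermat.Agent.S14x
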