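/-
S14 project, module CROSS, rows X3/X4 (helper33): the FIELD PACKAGE.
`Ω/K` a finite abelian Galois extension of number fields containing the everywhere unramified
cyclic degree `p` extension `L/K`.  For a subgroup `H` of `Gal(Ω/K)`:
  `cfd_F H`   := fixed field of `H`                      (the base field `F`)
  `cfd_M L H` := fixed field of `H ⊓ Gal(Ω/L)`           (the compositum `L F`)
with all the algebra / scalar tower instances needed by the BC statements.  Prefix `cfd_`.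
-/
import Fermat.Agent.S14x.Artin
import Fermat.Agent.S14x.BaseChangeUnram

set_option autoImplicit false
set_option linter.unusedSectionVars false

namespace Fermat.Agent.S14x

open NumberField IsDedekindDomain IntermediateField
open scoped Pointwise

section Defs

variable {K L Ω : Type} [Field K] [Field L] [Field Ω]
  [Algebra K L] [Algebra L Ω] [Algebra K Ω] [IsScalarTower K L Ω]

variable (L) in
/-- the automorphisms of `Ω/K` which are trivial on `L` -/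
def cfd_NL : Subgroup (Ω ≃ₐ[K] Ω) where
  carrier := {σ | ∀ x : L, σ (algebraMap L Ω x) = algebraMap L Ω x}
  mul_mem' := by
    intro a b ha hb x
    rw [AlgEquiv.mul_apply, hb x, ha x]
  one_mem' := fun x => rfl
  inv_mem' := by
    intro a ha x
    change a.symm (algebraMap L Ω x) = algebraMap L Ω x
    rw [AlgEquiv.symm_apply_eq, ha x]

theorem cfd_mem_NL_iff (σ : Ω ≃ₐ[K] Ω) :
    σ ∈ cfd_NL L ↔ ∀ x : L, σ (algebraMap L Ω x) = algebraMap L Ω x := Iff.rfl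

/-- the base field: the fixed field of `H` -/
def cfd_F (H : Subgroup (Ω ≃ₐ[K] Ω)) : IntermediateField K Ω := fixedField H

variable (L) in
/-- the top field: the fixed field of `H ⊓ Gal(Ω/L)` -/
def cfd_M (H : Subgroup (Ω ≃ₐ[K] Ω)) : IntermediateField K Ω := fixedField (H ⊓ cfd_NL L)

theorem cfd_mem_F_iff (H : Subgroup (Ω ≃ₐ[K] Ω)) (x : Ω) :
    x ∈ cfd_F H ↔ ∀ σ ∈ H, σ x = x := by
  rw [cfd_F, mem_fixedField_iff]

theorem cfd_mem_M_iff (H : Subgroup (Ω ≃ₐ[K] Ω)) (x : Ω) :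
    x ∈ cfd_M L H ↔ ∀ σ ∈ H, σ ∈ cfd_NL L → σ x = x := by
  rw [cfd_M, mem_fixedField_iff]
  constructor
  · intro h σ h1 h2
    exact h σ ⟨h1, h2⟩
  · intro h σ hσ
    exact h σ hσ.1 hσ.2

theorem cfd_F_le_M (H : Subgroup (Ω ≃ₐ[K] Ω)) : cfd_F H ≤ cfd_M L H := by
  intro x hx
  rw [cfd_mem_M_iff]
  rw [cfd_mem_F_iff] at hx
  exact fun σ h1 _ => hx σ h1

theorem cfd_F_mono {H H' : Subgroup (Ω ≃ₐ[K] Ω)} (hle : H' ≤ H) : cfd_F H ≤ cfd_F H' := by
  intro x hx
  rw [cfd_mem_F_iff] at hx ⊢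
  exact fun σ h1 => hx σ (hle h1)

theorem cfd_M_mono {H H' : Subgroup (Ω ≃ₐ[K] Ω)} (hle : H' ≤ H) : cfd_M L H ≤ cfd_M L H' := by
  intro x hx
  rw [cfd_mem_M_iff] at hx ⊢
  exact fun σ h1 h2 => hx σ (hle h1) h2

theorem cfd_algebraMap_mem_M (H : Subgroup (Ω ≃ₐ[K] Ω)) (x : L) :
    algebraMap L Ω x ∈ cfd_M L H := by
  rw [cfd_mem_M_iff]
  exact fun σ _ h2 => h2 x

/-! ### the instances -/

noncomputable instance cfd_algFM (H : Subgroup (Ω ≃ₐ[K] Ω)) : Algebra (cfd_F H) (cfd_M L H) :=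
  (IntermediateField.inclusion (cfd_F_le_M (L := L) H)).toRingHom.toAlgebra

theorem cfd_algFM_apply (H : Subgroup (Ω ≃ₐ[K] Ω)) (x : cfd_F H) :
    ((algebraMap (cfd_F H) (cfd_M L H) x : cfd_M L H) : Ω) = (x : Ω) := rfl

instance cfd_towerKFM (H : Subgroup (Ω ≃ₐ[K] Ω)) : IsScalarTower K (cfd_F H) (cfd_M L H) :=
  IsScalarTower.of_algebraMap_eq (fun _ => rfl)

instance cfd_towerFMΩ (H : Subgroup (Ω ≃ₐ[K] Ω)) : IsScalarTower (cfd_F H) (cfd_M L H) Ω :=
  IsScalarTower.of_algebraMap_eq (fun _ => rfl)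

noncomputable instance cfd_algLM (H : Subgroup (Ω ≃ₐ[K] Ω)) : Algebra L (cfd_M L H) :=
  ((algebraMap L Ω).codRestrict (cfd_M L H).toSubfield
    (fun x => cfd_algebraMap_mem_M H x)).toAlgebra

theorem cfd_algLM_apply (H : Subgroup (Ω ≃ₐ[K] Ω)) (x : L) :
    ((algebraMap L (cfd_M L H) x : cfd_M L H) : Ω) = algebraMap L Ω x := rfl

instance cfd_towerKLM (H : Subgroup (Ω ≃ₐ[K] Ω)) : IsScalarTower K L (cfd_M L H) :=
  IsScalarTower.of_algebraMap_eq (fun x => by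
    apply Subtype.ext
    rw [cfd_algLM_apply]
    exact IsScalarTower.algebraMap_apply K L Ω x)

instance cfd_towerLMΩ (H : Subgroup (Ω ≃ₐ[K] Ω)) : IsScalarTower L (cfd_M L H) Ω :=
  IsScalarTower.of_algebraMap_eq (fun _ => rfl)

section Mono

variable {H H' : Subgroup (Ω ≃ₐ[K] Ω)} [hle : Fact (H' ≤ H)]

noncomputable instance cfd_algFF : Algebra (cfd_F H) (cfd_F H') :=
  (IntermediateField.inclusion (cfd_F_mono hle.out)).toRingHom.toAlgebra

noncomputable instance cfd_algMM : Algebra (cfd_M L H) (cfd_M L H') :=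
  (IntermediateField.inclusion (cfd_M_mono (L := L) hle.out)).toRingHom.toAlgebra

noncomputable instance cfd_algFM' : Algebra (cfd_F H) (cfd_M L H') :=
  (IntermediateField.inclusion
    ((cfd_F_mono hle.out).trans (cfd_F_le_M (L := L) H'))).toRingHom.toAlgebra

instance cfd_towerKFF : IsScalarTower K (cfd_F H) (cfd_F H') :=
  IsScalarTower.of_algebraMap_eq (fun _ => rfl)

instance cfd_towerFFM : IsScalarTower (cfd_F H) (cfd_F H') (cfd_M L H') :=
  IsScalarTower.of_algebraMap_eq (fun _ => rfl)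

instance cfd_towerFMM : IsScalarTower (cfd_F H) (cfd_M L H) (cfd_M L H') :=
  IsScalarTower.of_algebraMap_eq (fun _ => rfl)

instance cfd_towerLMM : IsScalarTower L (cfd_M L H) (cfd_M L H') :=
  IsScalarTower.of_algebraMap_eq (fun _ => rfl)

theorem cfd_algMM_apply (x : cfd_M L H) :
    ((algebraMap (cfd_M L H) (cfd_M L H') x : cfd_M L H') : Ω) = (x : Ω) := rfl

theorem cfd_algFF_apply (x : cfd_F H) :
    ((algebraMap (cfd_F H) (cfd_F H') x : cfd_F H') : Ω) = (x : Ω) := rfl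

end Mono

end Defs

/-! ### Galois theory of the package -/

section Galois

variable {K L Ω : Type} [Field K] [NumberField K] [Field L] [NumberField L] [Field Ω]
  [NumberField Ω] [Algebra K L] [Algebra L Ω] [Algebra K Ω] [IsScalarTower K L Ω]
  [IsGalois K L] [IsGalois K Ω]

/-- `cfd_M L H` is stable under every automorphism (abelian case). -/
theorem cfd_apply_mem_M (hcomm : ∀ a b : Ω ≃ₐ[K] Ω, a * b = b * a)
    (H : Subgroup (Ω ≃ₐ[K] Ω)) (s : Ω ≃ₐ[K] Ω) {x : Ω} (hx : x ∈ cfd_M L H) :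
    s x ∈ cfd_M L H := by
  rw [cfd_mem_M_iff] at hx ⊢
  intro σ h1 h2
  have h3 : σ (s x) = s (σ x) := by
    have := congrArg (fun f : Ω ≃ₐ[K] Ω => f x) (hcomm σ s)
    simpa [AlgEquiv.mul_apply] using this
  rw [h3, hx σ h1 h2]

/-- the restriction of `s ∈ H` to `cfd_M L H`, as an automorphism over `cfd_F H`. -/
noncomputable def cfd_g (hcomm : ∀ a b : Ω ≃ₐ[K] Ω, a * b = b * a)
    (H : Subgroup (Ω ≃ₐ[K] Ω)) (s : Ω ≃ₐ[K] Ω) (hs : s ∈ H) :
    cfd_M L H ≃ₐ[cfd_F H] cfd_M L H where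
  toFun x := ⟨s x, cfd_apply_mem_M hcomm H s x.2⟩
  invFun x := ⟨s.symm x, cfd_apply_mem_M hcomm H s.symm x.2⟩
  left_inv x := Subtype.ext (s.symm_apply_apply x)
  right_inv x := Subtype.ext (s.apply_symm_apply x)
  map_mul' x y := Subtype.ext (map_mul s (x : Ω) (y : Ω))
  map_add' x y := Subtype.ext (map_add s (x : Ω) (y : Ω))
  commutes' a := by
    apply Subtype.ext
    change s ((a : Ω)) = (a : Ω)
    exact (cfd_mem_F_iff H _).mp a.2 s hs

theorem cfd_g_coe (hcomm : ∀ a b : Ω ≃ₐ[K] Ω, a * b = b * a)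
    (H : Subgroup (Ω ≃ₐ[K] Ω)) (s : Ω ≃ₐ[K] Ω) (hs : s ∈ H) (x : cfd_M L H) :
    ((cfd_g hcomm H s hs x : cfd_M L H) : Ω) = s (x : Ω) := rfl

theorem cfd_g_algebraMap (hcomm : ∀ a b : Ω ≃ₐ[K] Ω, a * b = b * a)
    (H : Subgroup (Ω ≃ₐ[K] Ω)) (s : Ω ≃ₐ[K] Ω) (hs : s ∈ H) (g : L ≃ₐ[K] L)
    (hsg : ∀ x : L, s (algebraMap L Ω x) = algebraMap L Ω (g x)) (x : L) :
    cfd_g hcomm H s hs (algebraMap L (cfd_M L H) x) = algebraMap L (cfd_M L H) (g x) := by
  apply Subtype.ext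
  rw [cfd_g_coe, cfd_algLM_apply, cfd_algLM_apply, hsg]

theorem cfd_normal_of_comm (hcomm : ∀ a b : Ω ≃ₐ[K] Ω, a * b = b * a)
    (N : Subgroup (Ω ≃ₐ[K] Ω)) : N.Normal := by
  constructor
  intro n hn a
  rw [hcomm a n, mul_inv_cancel_right]
  exact hn

theorem cfd_isGalois_K_M (hcomm : ∀ a b : Ω ≃ₐ[K] Ω, a * b = b * a)
    (H : Subgroup (Ω ≃ₐ[K] Ω)) : IsGalois K (cfd_M L H) := by
  have : (H ⊓ cfd_NL L).Normal := cfd_normal_of_comm hcomm _
  exact IsGalois.of_fixedField_normal_subgroup (H ⊓ cfd_NL L)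

theorem cfd_isGalois_K_F (hcomm : ∀ a b : Ω ≃ₐ[K] Ω, a * b = b * a)
    (H : Subgroup (Ω ≃ₐ[K] Ω)) : IsGalois K (cfd_F H) := by
  have : H.Normal := cfd_normal_of_comm hcomm _
  exact IsGalois.of_fixedField_normal_subgroup H

/-- `cfd_M L H / cfd_F H` is Galois. -/
theorem cfd_isGalois (hcomm : ∀ a b : Ω ≃ₐ[K] Ω, a * b = b * a)
    (H : Subgroup (Ω ≃ₐ[K] Ω)) : IsGalois (cfd_F H) (cfd_M L H) := by
  have := cfd_isGalois_K_M (L := L) hcomm H
  exact IsGalois.tower_top_of_isGalois K (cfd_F H) (cfd_M L H)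

/-! ### the degree -/

theorem cfd_restrict_eq_iff (σ : Ω ≃ₐ[K] Ω) (g : L ≃ₐ[K] L) :
    AlgEquiv.restrictNormalHom L σ = g ↔
      ∀ x : L, σ (algebraMap L Ω x) = algebraMap L Ω (g x) := by
  constructor
  · rintro rfl x
    exact (AlgEquiv.restrictNormal_commutes σ L x).symm
  · intro h
    ext x
    apply FaithfulSMul.algebraMap_injective L Ω
    rw [← h x]
    exact AlgEquiv.restrictNormal_commutes σ L x

theorem cfd_restrict_eq_one_iff (σ : Ω ≃ₐ[K] Ω) :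
    AlgEquiv.restrictNormalHom L σ = 1 ↔ σ ∈ cfd_NL L := by
  rw [cfd_restrict_eq_iff, cfd_mem_NL_iff]
  rfl

variable {p : ℕ} [Fact p.Prime] {g : L ≃ₐ[K] L}

theorem cfd_card_eq (h : IsUCyc p K L g) (H : Subgroup (Ω ≃ₐ[K] Ω)) (s : Ω ≃ₐ[K] Ω)
    (hs : s ∈ H) (hsg : ∀ x : L, s (algebraMap L Ω x) = algebraMap L Ω (g x)) :
    Nat.card H = Nat.card (H ⊓ cfd_NL L : Subgroup (Ω ≃ₐ[K] Ω)) * p := by
  let φ : H →* (L ≃ₐ[K] L) := (AlgEquiv.restrictNormalHom L).comp H.subtype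
  have hφ : ∀ σ : H, φ σ = AlgEquiv.restrictNormalHom L (σ : Ω ≃ₐ[K] Ω) := fun _ => rfl
  -- the range is everything
  have hrange : φ.range = ⊤ := by
    rw [eq_top_iff, ← aa_zpowers_eq_top h, Subgroup.zpowers_le]
    exact ⟨⟨s, hs⟩, (cfd_restrict_eq_iff s g).mpr hsg⟩
  have h1 : Nat.card φ.range = p := by
    rw [hrange, Subgroup.card_top, aa_card h]
  -- the kernel
  have h2 : Nat.card φ.ker = Nat.card (H ⊓ cfd_NL L : Subgroup (Ω ≃ₐ[K] Ω)) := by
    apply Nat.card_congr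
    refine ⟨fun σ => ⟨σ.1.1, σ.1.2, ?_⟩, fun σ => ⟨⟨σ.1, σ.2.1⟩, ?_⟩, ?_, ?_⟩
    · have := σ.2
      rw [MonoidHom.mem_ker, hφ, cfd_restrict_eq_one_iff] at this
      exact this
    · rw [MonoidHom.mem_ker, hφ, cfd_restrict_eq_one_iff]
      exact σ.2.2
    · intro σ
      rfl
    · intro σ
      rfl
  have h3 := Subgroup.card_mul_index φ.ker
  rw [Subgroup.index_ker, h1, h2] at h3
  exact h3.symm

theorem cfd_finrank (h : IsUCyc p K L g) (H : Subgroup (Ω ≃ₐ[K] Ω)) (s : Ω ≃ₐ[K] Ω)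
    (hs : s ∈ H) (hsg : ∀ x : L, s (algebraMap L Ω x) = algebraMap L Ω (g x)) :
    Module.finrank (cfd_F H) (cfd_M L H) = p := by
  have h1 : Module.finrank (cfd_F H) Ω = Nat.card H := finrank_fixedField_eq_card H
  have h2 : Module.finrank (cfd_M L H) Ω = Nat.card (H ⊓ cfd_NL L : Subgroup (Ω ≃ₐ[K] Ω)) :=
    finrank_fixedField_eq_card (H ⊓ cfd_NL L)
  have h3 := Module.finrank_mul_finrank (cfd_F H) (cfd_M L H) Ω
  rw [h1, h2, cfd_card_eq h H s hs hsg, mul_comm] at h3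
  have hpos : 0 < Nat.card (H ⊓ cfd_NL L : Subgroup (Ω ≃ₐ[K] Ω)) := Nat.card_pos
  exact Nat.eq_of_mul_eq_mul_left hpos h3

/-- the package is again an everywhere unramified cyclic extension of degree `p`. -/
theorem cfd_isUCyc (hcomm : ∀ a b : Ω ≃ₐ[K] Ω, a * b = b * a) (h : IsUCyc p K L g)
    (H : Subgroup (Ω ≃ₐ[K] Ω)) (s : Ω ≃ₐ[K] Ω)
    (hs : s ∈ H) (hsg : ∀ x : L, s (algebraMap L Ω x) = algebraMap L Ω (g x)) :
    haveI := cfd_isGalois (L := L) hcomm H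
    IsUCyc p (cfd_F H) (cfd_M L H) (cfd_g hcomm H s hs) := by
  haveI := cfd_isGalois (L := L) hcomm H
  exact isUCyc_baseChange h (cfd_g_algebraMap hcomm H s hs g hsg) (cfd_finrank h H s hs hsg)

/-! ### the cyclotomic instance -/

/-- if no non-trivial element of `H` fixes the primitive `m`-th root of unity `ζ` then
`Ω = (cfd_F H)(ζ)`. -/
theorem cfd_isCyclotomicExtension (H : Subgroup (Ω ≃ₐ[K] Ω)) (m : ℕ) [NeZero m] {ζ : Ω}
    (hζ : IsPrimitiveRoot ζ m) (hH : ∀ σ ∈ H, σ ζ = ζ → σ = 1) :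
    IsCyclotomicExtension {m} (cfd_F H) Ω := by
  rw [IsCyclotomicExtension.iff_singleton]
  refine ⟨⟨ζ, hζ⟩, ?_⟩
  have hE : IntermediateField.adjoin (cfd_F H) {ζ} = ⊤ := by
    rw [← IsGalois.fixedField_fixingSubgroup (IntermediateField.adjoin (cfd_F H) {ζ})]
    have hbot : (IntermediateField.adjoin (cfd_F H) {ζ}).fixingSubgroup = ⊥ := by
      rw [eq_bot_iff]
      intro τ hτ
      rw [Subgroup.mem_bot]
      rw [IntermediateField.mem_fixingSubgroup_iff] at hτ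
      have hτζ : τ ζ = ζ := hτ ζ (IntermediateField.mem_adjoin_simple_self _ ζ)
      have hσH : τ.restrictScalars K ∈ H := by
        have h0 : τ.restrictScalars K ∈ (IntermediateField.fixedField H).fixingSubgroup := by
          rw [IntermediateField.mem_fixingSubgroup_iff]
          intro x hx
          exact τ.commutes ⟨x, hx⟩
        rwa [IntermediateField.fixingSubgroup_fixedField H] at h0
      have h1 := hH _ hσH hτζ
      ext x
      exact congrArg (fun f : Ω ≃ₐ[K] Ω => f x) h1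
    rw [hbot, IntermediateField.fixedField_bot]
  intro x
  have hx : x ∈ (IntermediateField.adjoin (cfd_F H) {ζ}).toSubalgebra := by
    rw [hE]
    trivial
  rw [IntermediateField.adjoin_simple_toSubalgebra_of_isAlgebraic
    (Algebra.IsAlgebraic.isAlgebraic ζ)] at hx
  refine Algebra.adjoin_mono ?_ hx
  intro y hy
  rw [Set.mem_singleton_iff] at hy
  subst hy
  exact hζ.pow_eq_one

end Galois

end Fermat.Agent.S14x
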