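/-
S14 project, module CROSS, row BUILD (helper33): ambient datum ⇒ crossing data,
`cb3_data_of_amb : CrossAmb T v₁ v₂ → Nonempty (CrossData T v₁ v₂)`, built on the field package
`S14x/CrossField.lean`:  `Hᵢ = ⟨s, σᵢ⟩`, `Hc = ⟨s⟩`, `Fᵢ = cfd_F Hᵢ`, `Mᵢ = cfd_M L Hᵢ`,
`Fc = cfd_F Hc`, `Mc = cfd_M L Hc`, `Ωᵢ = Ω = L(ζ_n)`, `Wᵢ = Pᵢ ∩ Fᵢ`.  Prefix `cb3_`.
-/
import Fermat.Agent.S14x.CrossAmb0
import Fermat.Agent.S14x.CrossField
import Fermat.Agent.S14x.CrossFrob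

set_option autoImplicit false
set_option linter.unusedSectionVars false

namespace Fermat.Agent.S14x

open NumberField IsDedekindDomain IntermediateField
open scoped Pointwise

/-! ### group theory: the subgroup generated by two commuting elements -/

theorem cb3_mem_closure_pair {G : Type*} [Group G] (a b : G) (hab : Commute a b) {x : G}
    (hx : x ∈ Subgroup.closure ({a, b} : Set G)) : ∃ m n : ℤ, x = a ^ m * b ^ n := by
  induction hx using Subgroup.closure_induction with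
  | mem y hy =>
    rcases hy with rfl | hy
    · exact ⟨1, 0, by simp⟩
    · rw [Set.mem_singleton_iff] at hy
      subst hy
      exact ⟨0, 1, by simp⟩
  | one => exact ⟨0, 0, by simp⟩
  | mul y z _ _ hy hz =>
    obtain ⟨m, n, rfl⟩ := hy
    obtain ⟨m', n', rfl⟩ := hz
    refine ⟨m + m', n + n', ?_⟩
    have h1 : Commute (b ^ n) (a ^ m') := (hab.zpow_zpow m' n).symm
    calc a ^ m * b ^ n * (a ^ m' * b ^ n') = a ^ m * (b ^ n * a ^ m') * b ^ n' := by group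
      _ = a ^ m * (a ^ m' * b ^ n) * b ^ n' := by rw [h1.eq]
      _ = a ^ (m + m') * b ^ (n + n') := by rw [zpow_add, zpow_add]; group
  | inv y _ hy =>
    obtain ⟨m, n, rfl⟩ := hy
    refine ⟨-m, -n, ?_⟩
    have h1 : Commute (b ^ (-n)) (a ^ (-m)) := (hab.zpow_zpow (-m) (-n)).symm
    calc (a ^ m * b ^ n)⁻¹ = b ^ (-n) * a ^ (-m) := by group
      _ = a ^ (-m) * b ^ (-n) := h1.eq

/-! ### the degree one prime below a Frobenius prime -/

section DegOne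

variable {K Ω : Type} [Field K] [NumberField K] [Field Ω] [NumberField Ω] [Algebra K Ω]
  [IsGalois K Ω]
variable {F : Type} [Field F] [NumberField F] [Algebra K F] [Algebra F Ω] [IsScalarTower K F Ω]

theorem cb3_plUnder_plUnder (P : Pl Ω) : plUnder K F (plUnder F Ω P) = plUnder K Ω P := by
  apply HeightOneSpectrum.ext
  change ((P.asIdeal.under (𝓞 F)).under (𝓞 K)) = P.asIdeal.under (𝓞 K)
  rw [Ideal.under_under]

theorem cb3_deg_one (P : Pl Ω) (σ : Ω ≃ₐ[K] Ω) (hσ : IsArithFrobAt (𝓞 K) σ P.asIdeal)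
    (hfix : ∀ x : F, σ (algebraMap F Ω x) = algebraMap F Ω x) :
    Ideal.inertiaDeg (plUnder F Ω P).asIdeal (𝓞 K) = 1 := by
  have hover : PlOver K F (plUnder F Ω P) (plUnder K Ω P) := by
    have := cb3_plUnder_plUnder (K := K) (F := F) P
    exact congrArg HeightOneSpectrum.asIdeal this
  apply cf_inertiaDeg_eq_one_of_one (plUnder K Ω P) (plUnder F Ω P) hover
  intro x
  change _ ∈ P.asIdeal.under (𝓞 F)
  rw [Ideal.under_def, Ideal.mem_comap, map_sub, map_pow]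
  have h0 := hσ (algebraMap (𝓞 F) (𝓞 Ω) x)
  have hq : Nat.card (𝓞 K ⧸ P.asIdeal.under (𝓞 K)) = plNorm (plUnder K Ω P) :=
    aa_card_quot (plUnder K Ω P)
  rw [hq] at h0
  have h1 : (MulSemiringAction.toAlgHom (𝓞 K) (𝓞 Ω) σ) (algebraMap (𝓞 F) (𝓞 Ω) x)
      = algebraMap (𝓞 F) (𝓞 Ω) x := by
    apply RingOfIntegers.ext
    exact hfix (x : F)
  rw [h1] at h0
  exact h0

end DegOne

/-! ### BUILD -/

section Build

variable {p : ℕ} [Fact p.Prime] (T : Tower p) (n : ℕ) [NeZero n]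

theorem cb3_hsg (s : crΩ T n ≃ₐ[T.K] crΩ T n) (hres : crRes T n s = T.g) (x : T.L) :
    s (algebraMap T.L (crΩ T n) x) = algebraMap T.L (crΩ T n) (T.g x) := by
  rw [← hres]
  exact (crRes_spec T n s x).symm

theorem cb3_pow_eq_pow_iff {R : Type*} [CommRing R] [IsDomain R] {z : R} {n : ℕ} [NeZero n]
    (hz : IsPrimitiveRoot z n) (a b : ℕ) : z ^ a = z ^ b ↔ (a : ZMod n) = (b : ZMod n) := by
  obtain ⟨u, rfl⟩ := hz.isUnit (NeZero.ne n)
  have hu : IsPrimitiveRoot u n := IsPrimitiveRoot.coe_units_iff.mp hz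
  rw [← Units.val_pow_eq_pow_val, ← Units.val_pow_eq_pow_val, Units.val_inj,
    pow_eq_pow_iff_modEq, ← hu.eq_orderOf, ZMod.natCast_eq_natCast_iff]

/-- `χ(σ) = 1` as soon as `σ` fixes `ζ_n`. -/
theorem cb3_chi_eq_one (σ : crΩ T n ≃ₐ[T.K] crΩ T n) (hσ : σ (crZeta T n) = crZeta T n) :
    crChi T n σ = 1 := by
  have h1 := crChi_spec T n σ
  rw [hσ] at h1
  have h2 : crZeta T n ^ ((crChi T n σ : (ZMod n)ˣ) : ZMod n).val = crZeta T n ^ 1 := by
    rw [pow_one]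
    exact h1.symm
  rw [cb3_pow_eq_pow_iff (crZeta_spec T n), ZMod.natCast_zmod_val, Nat.cast_one] at h2
  exact Units.ext h2

/-- Artin's independence, in the form needed by `cfd_isCyclotomicExtension`. -/
theorem cb3_indep (s σ : crΩ T n ≃ₐ[T.K] crΩ T n)
    (hind : ∀ a b : ℤ, crChi T n (s ^ a * σ ^ b) = 1 → crRes T n (s ^ a * σ ^ b) = 1)
    (τ : crΩ T n ≃ₐ[T.K] crΩ T n) (hτ : τ ∈ Subgroup.closure ({s, σ} : Set _))
    (hτζ : τ (crZeta T n) = crZeta T n) : τ = 1 := by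
  obtain ⟨a, b, rfl⟩ := cb3_mem_closure_pair s σ (cr_comm T n s σ) hτ
  have h1 := cb3_chi_eq_one T n _ hτζ
  have h2 := hind a b h1
  apply cr_res_chi_injective T n
  · rw [h2, map_one]
  · rw [h1, map_one]

theorem cb3_zpowers_le (s σ : crΩ T n ≃ₐ[T.K] crΩ T n) :
    Subgroup.zpowers s ≤ Subgroup.closure ({s, σ} : Set (crΩ T n ≃ₐ[T.K] crΩ T n)) := by
  rw [Subgroup.zpowers_le]
  exact Subgroup.subset_closure (Set.mem_insert s {σ})

theorem cb3_mem_closure_right (s σ : crΩ T n ≃ₐ[T.K] crΩ T n) :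
    σ ∈ Subgroup.closure ({s, σ} : Set (crΩ T n ≃ₐ[T.K] crΩ T n)) :=
  Subgroup.subset_closure (Set.mem_insert_of_mem s rfl)

theorem cb3_mem_closure_left (s σ : crΩ T n ≃ₐ[T.K] crΩ T n) :
    s ∈ Subgroup.closure ({s, σ} : Set (crΩ T n ≃ₐ[T.K] crΩ T n)) :=
  Subgroup.subset_closure (Set.mem_insert s {σ})

/-- one leg of the crossing datum, over the common top pair `Ω^{⟨s⟩} ⊆ (L·Ω^{⟨s⟩})`. -/
noncomputable def cb3_leg (v : Pl T.K) (hv : (n : 𝓞 T.K) ∉ v.asIdeal)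
    (s σ : crΩ T n ≃ₐ[T.K] crΩ T n) (P : Pl (crΩ T n)) (hres : crRes T n s = T.g)
    (hP : PlOver T.K (crΩ T n) P v) (hfrob : IsArithFrobAt (𝓞 T.K) σ P.asIdeal)
    (hind : ∀ a b : ℤ, crChi T n (s ^ a * σ ^ b) = 1 → crRes T n (s ^ a * σ ^ b) = 1) :
    @CrossLeg p T (cfd_F (Subgroup.zpowers s)) (cfd_M T.L (Subgroup.zpowers s)) _ _ _ _ _ _
      (cfd_isGalois (cr_comm T n) (Subgroup.zpowers s))
      (cfd_g (cr_comm T n) (Subgroup.zpowers s) s (Subgroup.mem_zpowers s)) v :=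
  letI : Fact (Subgroup.zpowers s ≤ Subgroup.closure ({s, σ} : Set (crΩ T n ≃ₐ[T.K] crΩ T n))) :=
    ⟨cb3_zpowers_le T n s σ⟩
  letI := cfd_isGalois (L := T.L) (cr_comm T n) (Subgroup.zpowers s)
  { m := n
    F := cfd_F (Subgroup.closure ({s, σ} : Set (crΩ T n ≃ₐ[T.K] crΩ T n)))
    M := cfd_M T.L (Subgroup.closure ({s, σ} : Set (crΩ T n ≃ₐ[T.K] crΩ T n)))
    Ω := crΩ T n
    galFM := cfd_isGalois (cr_comm T n) _
    cycΩ := cfd_isCyclotomicExtension _ n (crZeta_spec T n)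
      (fun τ hτ hτζ => cb3_indep T n s σ hind τ hτ hτζ)
    gF := cfd_g (cr_comm T n) _ s (cb3_mem_closure_left T n s σ)
    gF_compat := cfd_g_algebraMap (cr_comm T n) _ s (cb3_mem_closure_left T n s σ) T.g
      (cb3_hsg T n s hres)
    gc_compat := fun _ => rfl
    finrank_FM := cfd_finrank (tower_isUCyc T) _ s (cb3_mem_closure_left T n s σ)
      (cb3_hsg T n s hres)
    coprime_v := hv
    W := plUnder _ (crΩ T n) P
    W_under := (cb3_plUnder_plUnder P).trans (HeightOneSpectrum.ext hP)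
    W_deg := cb3_deg_one P σ hfrob (fun x =>
      (cfd_mem_F_iff _ _).mp x.2 σ (cb3_mem_closure_right T n s σ)) }

/-- **BUILD**: an ambient datum produces the crossing data. -/
theorem cb3_data_of_amb {v₁ v₂ : Pl T.K} (X : CrossAmb T v₁ v₂) :
    Nonempty (CrossData T v₁ v₂) :=
  ⟨{ Fc := cfd_F (Subgroup.zpowers X.s)
     Mc := cfd_M T.L (Subgroup.zpowers X.s)
     galFcMc := cfd_isGalois (cr_comm T X.n) (Subgroup.zpowers X.s)
     gc := cfd_g (cr_comm T X.n) (Subgroup.zpowers X.s) X.s (Subgroup.mem_zpowers X.s)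
     finrank_FcMc := cfd_finrank (tower_isUCyc T) _ X.s (Subgroup.mem_zpowers X.s)
       (cb3_hsg T X.n X.s X.res_s)
     leg₁ := cb3_leg T X.n v₁ X.coprime₁ X.s X.σ₁ X.P₁ X.res_s X.P₁_over X.frob₁ X.ind₁
     leg₂ := cb3_leg T X.n v₂ X.coprime₂ X.s X.σ₂ X.P₂ X.res_s X.P₂_over X.frob₂ X.ind₂ }⟩

end Build

end Fermat.Agent.S14x
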