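/-
S14 project, module BC (helper28), part 3: `dvNorm_divOf`
(the divisor norm of a principal divisor is the principal divisor of the norm),
via `Ideal.relNorm_singleton` and `Ideal.relNorm_eq_pow_of_isMaximal`.
Imports only Mathlib + Defs.  Prefix `bcn_`.
-/
import Fermat.Agent.S14x.Defs

set_option autoImplicit false

namespace Fermat.Agent.S14x

open NumberField IsDedekindDomain nonZeroDivisors

section DivI

variable {K : Type*} [Field K] [NumberField K]

/-- divisor of a (nonzero) integral ideal. -/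
noncomputable def bcn_divI (I : Ideal (𝓞 K)) : Dv K :=
  Finsupp.ofSupportFinite
    (fun v => FractionalIdeal.count K v (I : FractionalIdeal (𝓞 K)⁰ K))
    (FractionalIdeal.finite_factors (I : FractionalIdeal (𝓞 K)⁰ K))

@[simp] theorem bcn_divI_apply (I : Ideal (𝓞 K)) (v : Pl K) :
    bcn_divI I v = FractionalIdeal.count K v (I : FractionalIdeal (𝓞 K)⁰ K) := rfl

theorem bcn_divI_mul {I J : Ideal (𝓞 K)} (hI : I ≠ ⊥) (hJ : J ≠ ⊥) :
    bcn_divI (I * J) = bcn_divI I + bcn_divI J := by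
  ext v
  simp only [bcn_divI_apply, Finsupp.add_apply, FractionalIdeal.coeIdeal_mul]
  exact FractionalIdeal.count_mul K v (FractionalIdeal.coeIdeal_ne_zero.mpr hI)
    (FractionalIdeal.coeIdeal_ne_zero.mpr hJ)

theorem bcn_divI_top : bcn_divI (⊤ : Ideal (𝓞 K)) = 0 := by
  ext v
  simp only [bcn_divI_apply, Finsupp.zero_apply, FractionalIdeal.coeIdeal_top]
  exact FractionalIdeal.count_one K v

theorem bcn_divI_prime (w : Pl K) : bcn_divI w.asIdeal = Finsupp.single w 1 := by
  classical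
  ext v
  rw [bcn_divI_apply, Finsupp.single_apply, FractionalIdeal.count_maximal K v w]

theorem bcn_divI_pow (I : Ideal (𝓞 K)) (n : ℕ) : bcn_divI (I ^ n) = n • bcn_divI I := by
  ext v
  simp only [bcn_divI_apply, Finsupp.smul_apply, FractionalIdeal.coeIdeal_pow,
    FractionalIdeal.count_pow, nsmul_eq_mul]

/-- the principal divisor of a nonzero integer is the divisor of the principal ideal. -/
theorem bcn_divOf_eq_divI (a : 𝓞 K) (ha : a ≠ 0) :
    divOf (a : K) = bcn_divI (Ideal.span {a}) := by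
  ext v
  have hne : (Ideal.span {a} : Ideal (𝓞 K)) ≠ 0 := by
    rw [Ne, Ideal.zero_eq_bot, Ideal.span_singleton_eq_bot]
    exact ha
  rw [divOf_apply, bcn_divI_apply, FractionalIdeal.count_coe K v hne, ordAt,
    HeightOneSpectrum.valuation_of_algebraMap, v.intValuation_if_neg ha, WithZero.log_exp, neg_neg]

theorem bcn_divOf_mul (x y : K) (hx : x ≠ 0) (hy : y ≠ 0) :
    divOf (x * y) = divOf x + divOf y := by
  ext v
  simp only [divOf_apply, Finsupp.add_apply, ordAt, map_mul]
  rw [WithZero.log_mul ((Valuation.ne_zero_iff _).mpr hx) ((Valuation.ne_zero_iff _).mpr hy)]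
  ring

end DivI

section Norm

variable (F F' : Type*) [Field F] [NumberField F] [Field F'] [NumberField F'] [Algebra F F']

/-- the relative norm of a prime is the prime below to the power of the inertia degree. -/
theorem bcn_relNorm_prime (w : Pl F') :
    Ideal.relNorm (𝓞 F) w.asIdeal =
      (plUnder F F' w).asIdeal ^ (Ideal.inertiaDeg w.asIdeal (𝓞 F)) := by
  have : w.asIdeal.LiesOver (plUnder F F' w).asIdeal := ⟨rfl⟩
  have := (plUnder F F' w).isMaximal
  have := w.isMaximal
  exact Ideal.relNorm_eq_pow_of_isMaximal w.asIdeal (plUnder F F' w).asIdeal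

theorem bcn_dvNorm_divI (I : Ideal (𝓞 F')) (hI : I ≠ ⊥) :
    dvNorm F F' (bcn_divI I) = bcn_divI (Ideal.relNorm (𝓞 F) I) := by
  induction I using UniqueFactorizationMonoid.induction_on_prime with
  | h₁ => exact absurd rfl hI
  | h₂ x hx =>
    have : x = ⊤ := Ideal.isUnit_iff.mp hx
    subst this
    rw [bcn_divI_top, map_zero, Ideal.relNorm_top, bcn_divI_top]
  | h₃ a P ha hP ih =>
    have hPne : P ≠ ⊥ := hP.ne_zero
    have hPprime : P.IsPrime := Ideal.isPrime_of_prime hP
    let w : Pl F' := ⟨P, hPprime, hPne⟩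
    have hr1 : Ideal.relNorm (𝓞 F) P ≠ ⊥ := by
      rw [Ne, Ideal.relNorm_eq_bot_iff]
      exact hPne
    have hr2 : Ideal.relNorm (𝓞 F) a ≠ ⊥ := by
      rw [Ne, Ideal.relNorm_eq_bot_iff]
      exact ha
    rw [bcn_divI_mul hPne ha, map_add, ih ha, map_mul, bcn_divI_mul hr1 hr2]
    congr 1
    show dvNorm F F' (bcn_divI w.asIdeal) = bcn_divI (Ideal.relNorm (𝓞 F) w.asIdeal)
    rw [bcn_divI_prime, dvNorm_single, mul_one, bcn_relNorm_prime, bcn_divI_pow, bcn_divI_prime,
      Finsupp.smul_single, nsmul_eq_mul, mul_one]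

/-- integral case of `dvNorm_divOf`. -/
theorem bcn_dvNorm_divOf_int (a : 𝓞 F') (ha : a ≠ 0) :
    dvNorm F F' (divOf (a : F')) = divOf (Algebra.norm F (a : F')) := by
  have hne : (Ideal.span {a} : Ideal (𝓞 F')) ≠ ⊥ := by
    rw [Ne, Ideal.span_singleton_eq_bot]
    exact ha
  have hn : Algebra.intNorm (𝓞 F) (𝓞 F') a ≠ 0 := by
    rw [Ne, Algebra.intNorm_eq_zero]
    exact ha
  rw [bcn_divOf_eq_divI a ha, bcn_dvNorm_divI F F' _ hne, Ideal.relNorm_singleton,
    ← bcn_divOf_eq_divI _ hn]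
  congr 1
  exact Algebra.algebraMap_intNorm (A := 𝓞 F) (K := F) (L := F') (B := 𝓞 F') a

end Norm

section General

variable {p : ℕ} [Fact p.Prime]
variable {F M : Type} [Field F] [NumberField F] [Field M] [NumberField M] [Algebra F M]
  [IsGalois F M] {g : M ≃ₐ[F] M}
variable {F' M' : Type} [Field F'] [NumberField F'] [Field M'] [NumberField M']
  [Algebra F F'] [Algebra F' M'] [Algebra M M'] [Algebra F M']
  [IsScalarTower F F' M'] [IsScalarTower F M M'] [IsGalois F' M'] {g' : M' ≃ₐ[F'] M'}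

theorem dvNorm_divOf (x : F') (hx : x ≠ 0) :
    dvNorm F F' (divOf x) = divOf (Algebra.norm F x) := by
  obtain ⟨a, b, hb, rfl⟩ := IsFractionRing.div_surjective (A := 𝓞 F') x
  have hb0 : b ≠ 0 := nonZeroDivisors.ne_zero hb
  have hb' : (algebraMap (𝓞 F') F' b) ≠ 0 := by
    simpa using hb0
  have ha0 : a ≠ 0 := by
    rintro rfl
    simp at hx
  have ha' : (algebraMap (𝓞 F') F' a) ≠ 0 := by
    simpa using ha0
  have hmul : (algebraMap (𝓞 F') F' a / algebraMap (𝓞 F') F' b) * algebraMap (𝓞 F') F' b =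
      algebraMap (𝓞 F') F' a := div_mul_cancel₀ _ hb'
  have h1 := bcn_divOf_mul _ _ hx hb'
  rw [hmul] at h1
  have hN : Algebra.norm F (algebraMap (𝓞 F') F' a / algebraMap (𝓞 F') F' b) *
      Algebra.norm F (algebraMap (𝓞 F') F' b) = Algebra.norm F (algebraMap (𝓞 F') F' a) := by
    rw [← map_mul, hmul]
  have hNx : Algebra.norm F (algebraMap (𝓞 F') F' a / algebraMap (𝓞 F') F' b) ≠ 0 :=
    Algebra.norm_ne_zero_iff.mpr hx
  have hNb : Algebra.norm F (algebraMap (𝓞 F') F' b) ≠ 0 := Algebra.norm_ne_zero_iff.mpr hb'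
  have h2 := bcn_divOf_mul _ _ hNx hNb
  rw [hN] at h2
  have h3 := bcn_dvNorm_divOf_int F F' a ha0
  have h4 := bcn_dvNorm_divOf_int F F' b hb0
  have h5 : dvNorm F F' (divOf (algebraMap (𝓞 F') F' a)) =
      dvNorm F F' (divOf (algebraMap (𝓞 F') F' a / algebraMap (𝓞 F') F' b)) +
        dvNorm F F' (divOf (algebraMap (𝓞 F') F' b)) := by
    rw [h1, map_add]
  rw [h3, h4, h2] at h5
  exact (add_right_cancel h5).symm

end General

end Fermat.Agent.S14x
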