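/-
S14 project, module BC, statement `dvNorm_rayGroup_le` in HYPOTHESIS FORM (helper52):
the norm of the ray group of `M'/F'` lands in the norm group of `M/F`, given
* functoriality of the Artin map (`Spec.artZ_baseChange`) and
* the norm of a principal divisor (`Spec.dvNorm_divOf`).
Uses the landed AAPI module `S14x/Artin.lean` (`frobExp_eq_zero_iff`).
-/
import Fermat.Agent.S14x.Artin

set_option autoImplicit false

namespace Fermat.Agent.S14x

open NumberField IsDedekindDomain

section BCR

variable {p : ℕ} [Fact p.Prime]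
variable {F M : Type} [Field F] [NumberField F] [Field M] [NumberField M] [Algebra F M]
  [IsGalois F M] {g : M ≃ₐ[F] M}
variable {F' M' : Type} [Field F'] [NumberField F'] [Field M'] [NumberField M']
  [Algebra F F'] [Algebra F' M'] [IsGalois F' M'] {g' : M' ≃ₐ[F'] M'}

theorem bcr_artZ_single (v : Pl F) (n : ℤ) :
    artZ F M p g (Finsupp.single v n) = (n : ZMod p) * frobExp F M p g v := by
  simp [artZ]

/-- multiples of a completely split prime are in the norm group -/
theorem bcr_split_mem (v : Pl F) (hv : SplitsCompletely F M v) (n : ℤ) :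
    Finsupp.single v n ∈ normGroup F M p := by
  have h1 : (Finsupp.single v (1 : ℤ) : Dv F) ∈ normGroup F M p :=
    AddSubgroup.subset_closure (Or.inl (Or.inr ⟨v, hv, rfl⟩))
  have h2 : (Finsupp.single v n : Dv F) = n • Finsupp.single v (1 : ℤ) := by
    rw [Finsupp.smul_single, smul_eq_mul, mul_one]
  rw [h2]
  exact AddSubgroup.zsmul_mem _ h1 n

/-- multiples of `p [v]` are in the norm group -/
theorem bcr_pmul_mem (v : Pl F) (n : ℤ) :
    (Finsupp.single v ((p : ℤ) * n) : Dv F) ∈ normGroup F M p := by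
  have h1 : (Finsupp.single v (p : ℤ) : Dv F) ∈ normGroup F M p :=
    AddSubgroup.subset_closure (Or.inr ⟨v, rfl⟩)
  have h2 : (Finsupp.single v ((p : ℤ) * n) : Dv F) = n • Finsupp.single v (p : ℤ) := by
    rw [Finsupp.smul_single, smul_eq_mul, mul_comm]
  rw [h2]
  exact AddSubgroup.zsmul_mem _ h1 n

/-- principal divisors are in the norm group -/
theorem bcr_divOf_mem (x : F) (hx : x ≠ 0) : divOf x ∈ normGroup F M p :=
  AddSubgroup.subset_closure (Or.inl (Or.inl ⟨x, hx, rfl⟩))

/-- `dvNorm_rayGroup_le`, hypothesis form. -/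
theorem bcr_dvNorm_rayGroup_le_of (h : IsUCyc p F M g) (h' : IsUCyc p F' M' g')
    (hart : ∀ D' : Dv F', artZ F' M' p g' D' = artZ F M p g (dvNorm F F' D'))
    (hdiv : ∀ x : F', x ≠ 0 → dvNorm F F' (divOf x) = divOf (Algebra.norm F x))
    (m : ℕ) :
    (rayGroup F' M' m).map (dvNorm F F') ≤ normGroup F M p := by
  rw [AddSubgroup.map_le_iff_le_comap]
  unfold rayGroup
  rw [AddSubgroup.closure_le]
  rintro D (⟨x, hx, -, rfl⟩ | ⟨w, hw, -, rfl⟩)
  · -- principal divisors
    show dvNorm F F' (divOf (x : F')) ∈ normGroup F M p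
    have hx' : (x : F') ≠ 0 := by
      intro h0
      exact hx (by exact_mod_cast h0)
    rw [hdiv _ hx']
    exact bcr_divOf_mem _ ((Algebra.norm_ne_zero_iff).mpr hx')
  · -- completely split primes
    show dvNorm F F' (Finsupp.single w 1) ∈ normGroup F M p
    have h0 : artZ F' M' p g' (Finsupp.single w 1) = 0 := by
      rw [bcr_artZ_single, (frobExp_eq_zero_iff h' w).mpr hw, mul_zero]
    rw [hart, dvNorm_single, mul_one, bcr_artZ_single] at h0
    rw [dvNorm_single, mul_one]
    rcases mul_eq_zero.mp h0 with h1 | h1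
    · -- `p ∣ f`
      have h2 : (p : ℤ) ∣ ((Ideal.inertiaDeg w.asIdeal (𝓞 F) : ℕ) : ℤ) :=
        (ZMod.intCast_zmod_eq_zero_iff_dvd _ p).mp h1
      obtain ⟨n, hn⟩ := h2
      rw [hn]
      exact bcr_pmul_mem _ n
    · exact bcr_split_mem _ ((frobExp_eq_zero_iff h _).mp h1) _

end BCR

end Fermat.Agent.S14x
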