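/-
S14 project, module BC (helper28), final file: all four BC statements available from ONE import.
* `isUCyc_baseChange`  (S14x/BaseChangeUnram.lean, helper28)
* `artZ_baseChange`    (S14x/BaseChangeArtin.lean, helper28)
* `dvNorm_divOf`       (S14x/BaseChangeNorm.lean, helper28)
* `dvNorm_rayGroup_le` (here; one-liner over helper52's `bcr_dvNorm_rayGroup_le_of`,
                        S14x/BaseChangeRay.lean)
(transitivity of `dvNorm`: `bc_dvNorm_trans` in S14x/DvNormTrans.lean, helper52.)
-/
import Fermat.Agent.S14x.BaseChangeArtin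
import Fermat.Agent.S14x.BaseChangeNorm
import Fermat.Agent.S14x.BaseChangeRay

set_option autoImplicit false

namespace Fermat.Agent.S14x

open NumberField IsDedekindDomain

section General

variable {p : ℕ} [Fact p.Prime]
variable {F M : Type} [Field F] [NumberField F] [Field M] [NumberField M] [Algebra F M]
  [IsGalois F M] {g : M ≃ₐ[F] M}
variable {F' M' : Type} [Field F'] [NumberField F'] [Field M'] [NumberField M']
  [Algebra F F'] [Algebra F' M'] [Algebra M M'] [Algebra F M']
  [IsScalarTower F F' M'] [IsScalarTower F M M'] [IsGalois F' M'] {g' : M' ≃ₐ[F'] M'}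

/-- the norm of the ray group of `M'/F'` lands in the norm group of `M/F`. -/
theorem dvNorm_rayGroup_le (h : IsUCyc p F M g) (h' : IsUCyc p F' M' g')
    (hg : ∀ x : M, g' (algebraMap M M' x) = algebraMap M M' (g x)) (m : ℕ) :
    (rayGroup F' M' m).map (dvNorm F F') ≤ normGroup F M p :=
  bcr_dvNorm_rayGroup_le_of h h' (fun D' => artZ_baseChange h h' hg D')
    (fun x hx => dvNorm_divOf x hx) m

end General

end Fermat.Agent.S14x
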