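/-
S14 project, module CROSS (Artin's cyclotomic crossing), shared REAL definitions (helper88).
`CrossLeg` packages, for ONE prime `v` of `K`, the auxiliary fields produced by Artin's lemma,
relative to a common top pair `Mc/Fc`:

      K ⊆ F ⊆ Fc        L ⊆ M = L·F ⊆ Mc = L·Fc        M ⊆ Ω = F(ζ_m)

No sorry here.  NEVER edit once landed (add new files).
-/
import Fermat.Agent.S14x.Defs

set_option autoImplicit false

namespace Fermat.Agent.S14x

open NumberField IsDedekindDomain

/-- One leg of the crossing argument: an intermediate pair `M/F` between `L/K` and `Mc/Fc`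
which is sub-cyclotomic (`M ⊆ Ω = F(ζ_m)`) and in which `v` has a prime `W` of degree one. -/
structure CrossLeg {p : ℕ} (T : Tower p) (Fc Mc : Type) [Field Fc] [NumberField Fc]
    [Field Mc] [NumberField Mc] [Algebra T.K Fc] [Algebra Fc Mc] [IsGalois Fc Mc]
    (gc : Mc ≃ₐ[Fc] Mc) (v : Pl T.K) where
  /-- the auxiliary modulus from Artin's lemma -/
  m : ℕ
  [neZero_m : NeZero m]
  F : Type
  M : Type
  Ω : Type
  [fieldF : Field F]
  [nfF : NumberField F]
  [fieldM : Field M]
  [nfM : NumberField M]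
  [fieldΩ : Field Ω]
  [algKF : Algebra T.K F]
  [algFM : Algebra F M]
  [algLM : Algebra T.L M]
  [algKM : Algebra T.K M]
  [algFFc : Algebra F Fc]
  [algMMc : Algebra M Mc]
  [algFMc : Algebra F Mc]
  [algFΩ : Algebra F Ω]
  [algMΩ : Algebra M Ω]
  [towerKFM : IsScalarTower T.K F M]
  [towerKLM : IsScalarTower T.K T.L M]
  [towerFFcMc : IsScalarTower F Fc Mc]
  [towerFMMc : IsScalarTower F M Mc]
  [towerFMΩ : IsScalarTower F M Ω]
  [towerKFFc : IsScalarTower T.K F Fc]
  [galFM : IsGalois F M]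
  [cycΩ : IsCyclotomicExtension {m} F Ω]
  /-- generator of `Gal(M/F)`, restricting to `T.g` on `L` -/
  gF : M ≃ₐ[F] M
  gF_compat : ∀ x : T.L, gF (algebraMap T.L M x) = algebraMap T.L M (T.g x)
  /-- `gc` restricts to `gF` on `M` -/
  gc_compat : ∀ y : M, gc (algebraMap M Mc y) = algebraMap M Mc (gF y)
  finrank_FM : Module.finrank F M = p
  /-- `v` is prime to `m` -/
  coprime_v : (m : 𝓞 T.K) ∉ v.asIdeal
  /-- a prime of `F` above `v` of residue degree one -/
  W : Pl F
  W_under : plUnder T.K F W = v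
  W_deg : Ideal.inertiaDeg W.asIdeal (𝓞 T.K) = 1

attribute [instance] CrossLeg.neZero_m CrossLeg.fieldF CrossLeg.nfF CrossLeg.fieldM CrossLeg.nfM
  CrossLeg.fieldΩ CrossLeg.algKF CrossLeg.algFM CrossLeg.algLM CrossLeg.algKM CrossLeg.algFFc
  CrossLeg.algMMc CrossLeg.algFMc CrossLeg.algFΩ CrossLeg.algMΩ CrossLeg.towerKFM
  CrossLeg.towerKLM CrossLeg.towerFFcMc CrossLeg.towerFMMc CrossLeg.towerFMΩ CrossLeg.towerKFFc
  CrossLeg.galFM CrossLeg.cycΩ

/-- The full crossing datum for two primes `v₁ v₂` of `K`: a common top pair `Mc/Fc`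
(cyclic of degree `p`, generator `gc`) and one leg for each prime. -/
structure CrossData {p : ℕ} (T : Tower p) (v₁ v₂ : Pl T.K) where
  Fc : Type
  Mc : Type
  [fieldFc : Field Fc]
  [nfFc : NumberField Fc]
  [fieldMc : Field Mc]
  [nfMc : NumberField Mc]
  [algKFc : Algebra T.K Fc]
  [algFcMc : Algebra Fc Mc]
  [galFcMc : IsGalois Fc Mc]
  gc : Mc ≃ₐ[Fc] Mc
  finrank_FcMc : Module.finrank Fc Mc = p
  leg₁ : CrossLeg T Fc Mc gc v₁
  leg₂ : CrossLeg T Fc Mc gc v₂

attribute [instance] CrossData.fieldFc CrossData.nfFc CrossData.fieldMc CrossData.nfMc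
  CrossData.algKFc CrossData.algFcMc CrossData.galFcMc

end Fermat.Agent.S14x
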