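/-
S14 project, module BC (extra export requested by the architect for CROSS):
transitivity of the divisor norm in a tower of number fields `F ⊆ F' ⊆ F''`.  (helper52)
-/
import Fermat.Agent.S14x.Defs

set_option autoImplicit false

namespace Fermat.Agent.S14x

open NumberField IsDedekindDomain

section Trans

variable (F F' F'' : Type*) [Field F] [NumberField F] [Field F'] [NumberField F']
  [Field F''] [NumberField F''] [Algebra F F'] [Algebra F' F''] [Algebra F F'']
  [IsScalarTower F F' F'']

/-- the prime below, in a tower -/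
theorem dnt_plUnder_plUnder (w : Pl F'') :
    plUnder F F' (plUnder F' F'' w) = plUnder F F'' w := by
  apply HeightOneSpectrum.ext
  show ((w.asIdeal.under (𝓞 F')).under (𝓞 F)) = w.asIdeal.under (𝓞 F)
  exact Ideal.under_under (A := 𝓞 F) (B := 𝓞 F') w.asIdeal

/-- multiplicativity of the inertia degree, in the shape used by `dvNorm` -/
theorem dnt_inertiaDeg_tower (w : Pl F'') :
    Ideal.inertiaDeg w.asIdeal (𝓞 F) =
      Ideal.inertiaDeg (plUnder F' F'' w).asIdeal (𝓞 F) * Ideal.inertiaDeg w.asIdeal (𝓞 F') := by
  have : w.asIdeal.LiesOver (plUnder F' F'' w).asIdeal := ⟨rfl⟩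
  exact Ideal.inertiaDeg_tower (R := 𝓞 F) (plUnder F' F'' w).asIdeal w.asIdeal

/-- transitivity of the divisor norm: `N_{F'/F} ∘ N_{F''/F'} = N_{F''/F}`. -/
theorem bc_dvNorm_trans (D : Dv F'') :
    dvNorm F F' (dvNorm F' F'' D) = dvNorm F F'' D := by
  induction D using Finsupp.induction_linear with
  | zero => simp
  | add D E hD hE => rw [map_add, map_add, map_add, hD, hE]
  | single w n =>
    rw [dvNorm_single, dvNorm_single, dvNorm_single, dnt_plUnder_plUnder,
      dnt_inertiaDeg_tower F F' F'' w]
    congr 1
    push_cast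
    ring

end Trans

end Fermat.Agent.S14x
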