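/-
S14 project, module CROSS, rows LEG + END (helper52, prefix `clg_`), HYPOTHESIS FORM:
`clg_leg_of` (= `CrossPlan.cr_leg` given KER) and `clg_cross_of_data_of`
(= `CrossPlan.cr_cross_of_data` given KER and DENS).  The statements of KER and DENS are packaged
as the propositions `clg_KER p`, `clg_DENS p` (exactly `Spec.ker_artZ_le_rayGroup`,
`Spec.exists_frobExp_ne_zero` without the hypothesis `p ≠ 2`).
-/
import Fermat.Agent.S14x.CrossDefs
import Fermat.Agent.S14x.CrossEnd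
import Fermat.Agent.S14x.BaseChange
import Fermat.Agent.S14x.DvNormTrans
import Fermat.Agent.S14x.Artin

set_option autoImplicit false

namespace Fermat.Agent.S14x

open NumberField IsDedekindDomain

/-- the statement of KER (`Spec.ker_artZ_le_rayGroup`) -/
def clg_KER (p : ℕ) [Fact p.Prime] : Prop :=
  ∀ (F M : Type) [Field F] [NumberField F] [Field M] [NumberField M] [Algebra F M]
    [IsGalois F M] (g : M ≃ₐ[F] M) (_ : IsUCyc p F M g) (Ω : Type) [Field Ω] [Algebra F Ω]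
    [Algebra M Ω] [IsScalarTower F M Ω] (m : ℕ) [NeZero m] [IsCyclotomicExtension {m} F Ω]
    (D : Dv F), CoprimeTo m D → artZ F M p g D = 0 → D ∈ rayGroup F M m

/-- the statement of DENS (`Spec.exists_frobExp_ne_zero`) -/
def clg_DENS (p : ℕ) [Fact p.Prime] : Prop :=
  ∀ (F M : Type) [Field F] [NumberField F] [Field M] [NumberField M] [Algebra F M]
    [IsGalois F M] (g : M ≃ₐ[F] M) (_ : IsUCyc p F M g) (m : ℕ) (_ : m ≠ 0),
    ∃ v : Pl F, (m : 𝓞 F) ∉ v.asIdeal ∧ frobExp F M p g v ≠ 0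

section Aux

variable {p : ℕ} [Fact p.Prime]
variable {F M : Type} [Field F] [NumberField F] [Field M] [NumberField M] [Algebra F M]
  [IsGalois F M] {g : M ≃ₐ[F] M}

theorem clg_artZ_single (v : Pl F) (n : ℤ) :
    artZ F M p g (Finsupp.single v n) = (n : ZMod p) * frobExp F M p g v := by
  simp [artZ]

/-- a natural number outside the prime below stays outside the prime above -/
theorem clg_not_mem_under {F F' : Type} [Field F] [NumberField F] [Field F'] [NumberField F']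
    [Algebra F F'] (m : ℕ) (w : Pl F') (hm : (m : 𝓞 F') ∉ w.asIdeal) :
    (m : 𝓞 F) ∉ (plUnder F F' w).asIdeal := by
  intro h
  apply hm
  have h1 : (m : 𝓞 F) ∈ w.asIdeal.under (𝓞 F) := h
  rw [Ideal.under_def, Ideal.mem_comap, map_natCast] at h1
  exact h1

/-- a natural number outside the prime below stays outside any prime above -/
theorem clg_not_mem_over {F F' : Type} [Field F] [NumberField F] [Field F'] [NumberField F']
    [Algebra F F'] (m : ℕ) (w : Pl F') (hm : (m : 𝓞 F) ∉ (plUnder F F' w).asIdeal) :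
    (m : 𝓞 F') ∉ w.asIdeal := by
  intro h
  apply hm
  show (m : 𝓞 F) ∈ w.asIdeal.under (𝓞 F)
  rw [Ideal.under_def, Ideal.mem_comap, map_natCast]
  exact h

theorem clg_coprimeTo_single {m : ℕ} {v : Pl F} (hv : (m : 𝓞 F) ∉ v.asIdeal) (n : ℤ) :
    CoprimeTo m (Finsupp.single v n : Dv F) := by
  classical
  intro u hu
  rw [Finsupp.single_apply, if_neg]
  rintro rfl
  exact hv hu

theorem clg_coprimeTo_sub {m : ℕ} {D E : Dv F} (hD : CoprimeTo m D) (hE : CoprimeTo m E) :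
    CoprimeTo m (D - E) := by
  intro u hu
  rw [Finsupp.sub_apply, hD u hu, hE u hu, sub_zero]

theorem clg_coprimeTo_zsmul {m : ℕ} {D : Dv F} (hD : CoprimeTo m D) (n : ℤ) :
    CoprimeTo m (n • D) := by
  intro u hu
  rw [Finsupp.smul_apply, hD u hu, smul_zero]

end Aux

section LEG

variable {p : ℕ} [Fact p.Prime]

/-- LEG, hypothesis form (KER given). -/
theorem clg_leg_of (hKER : clg_KER p) (T : Tower p) {Fc Mc : Type} [Field Fc] [NumberField Fc]
    [Field Mc] [NumberField Mc] [Algebra T.K Fc] [Algebra Fc Mc] [IsGalois Fc Mc]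
    (gc : Mc ≃ₐ[Fc] Mc) (hc : Module.finrank Fc Mc = p) (v : Pl T.K)
    (X : CrossLeg T Fc Mc gc v)
    (b : Pl Fc) (hb : (X.m : 𝓞 Fc) ∉ b.asIdeal) (e d : ℤ)
    (he : (e : ZMod p) = frobExp Fc Mc p gc b) (hd : (d : ZMod p) = frobExp T.K T.L p T.g v) :
    e • Finsupp.single v (1 : ℤ) - d • dvNorm T.K Fc (Finsupp.single b (1 : ℤ)) ∈
      normGroup T.K T.L p := by
  -- the three cyclic unramified layers
  have hKL : IsUCyc p T.K T.L T.g := tower_isUCyc T
  have hFM : IsUCyc p X.F X.M X.gF := isUCyc_baseChange hKL X.gF_compat X.finrank_FM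
  have hFcMc : IsUCyc p Fc Mc gc := isUCyc_baseChange hFM X.gc_compat hc
  -- the divisor `D` on `F`
  set D : Dv X.F := e • Finsupp.single X.W (1 : ℤ)
      - d • dvNorm X.F Fc (Finsupp.single b (1 : ℤ)) with hD
  -- its norm down to `K`
  have hNW : dvNorm T.K X.F (Finsupp.single X.W (1 : ℤ)) = Finsupp.single v (1 : ℤ) := by
    rw [dvNorm_single, X.W_under, X.W_deg]
    simp
  have hND : dvNorm T.K X.F D =
      e • Finsupp.single v (1 : ℤ) - d • dvNorm T.K Fc (Finsupp.single b (1 : ℤ)) := by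
    rw [hD, map_sub, map_zsmul, map_zsmul, hNW, bc_dvNorm_trans T.K X.F Fc]
  -- Artin symbol of `D`
  have hA1 : artZ X.F X.M p X.gF (Finsupp.single X.W (1 : ℤ)) = (d : ZMod p) := by
    rw [artZ_baseChange hKL hFM X.gF_compat, hNW, clg_artZ_single, hd]
    simp
  have hA2 : artZ X.F X.M p X.gF (dvNorm X.F Fc (Finsupp.single b (1 : ℤ))) = (e : ZMod p) := by
    rw [← artZ_baseChange hFM hFcMc X.gc_compat, clg_artZ_single, he]
    simp
  have hA : artZ X.F X.M p X.gF D = 0 := by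
    rw [hD, map_sub, map_zsmul, map_zsmul, hA1, hA2]
    simp only [zsmul_eq_mul]
    ring
  -- `D` is prime to `m`
  have hWm : (X.m : 𝓞 X.F) ∉ X.W.asIdeal := by
    apply clg_not_mem_over (F := T.K) X.m X.W
    rw [X.W_under]
    exact X.coprime_v
  have hbm : (X.m : 𝓞 X.F) ∉ (plUnder X.F Fc b).asIdeal := clg_not_mem_under X.m b hb
  have hcop : CoprimeTo X.m D := by
    rw [hD]
    refine clg_coprimeTo_sub (clg_coprimeTo_zsmul (clg_coprimeTo_single hWm 1) e)
      (clg_coprimeTo_zsmul ?_ d)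
    rw [dvNorm_single]
    exact clg_coprimeTo_single hbm _
  -- KER, then push down
  have hray : D ∈ rayGroup X.F X.M X.m := hKER X.F X.M X.gF hFM X.Ω X.m D hcop hA
  have hmem : dvNorm T.K X.F D ∈ (rayGroup X.F X.M X.m).map (dvNorm T.K X.F) :=
    AddSubgroup.mem_map_of_mem _ hray
  have := dvNorm_rayGroup_le hKL hFM X.gF_compat X.m hmem
  rwa [hND] at this

/-- END, hypothesis form (KER and DENS given). -/
theorem clg_cross_of_data_of (hKER : clg_KER p) (hDENS : clg_DENS p) (T : Tower p)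
    (v₁ v₂ : Pl T.K) (X : CrossData T v₁ v₂) (k : ℤ)
    (hk : (k : ZMod p) * frobExp T.K T.L p T.g v₂ = frobExp T.K T.L p T.g v₁) :
    Finsupp.single v₁ (1 : ℤ) - k • Finsupp.single v₂ (1 : ℤ) ∈ normGroup T.K T.L p := by
  have hKL : IsUCyc p T.K T.L T.g := tower_isUCyc T
  have hFM : IsUCyc p X.leg₁.F X.leg₁.M X.leg₁.gF :=
    isUCyc_baseChange hKL X.leg₁.gF_compat X.leg₁.finrank_FM
  have hFcMc : IsUCyc p X.Fc X.Mc X.gc :=
    isUCyc_baseChange hFM X.leg₁.gc_compat X.finrank_FcMc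
  have hm0 : X.leg₁.m * X.leg₂.m ≠ 0 :=
    mul_ne_zero (NeZero.ne X.leg₁.m) (NeZero.ne X.leg₂.m)
  obtain ⟨b, hbm, hbe⟩ := hDENS X.Fc X.Mc X.gc hFcMc (X.leg₁.m * X.leg₂.m) hm0
  have hb1 : (X.leg₁.m : 𝓞 X.Fc) ∉ b.asIdeal := by
    intro h
    apply hbm
    rw [Nat.cast_mul]
    exact b.asIdeal.mul_mem_right _ h
  have hb2 : (X.leg₂.m : 𝓞 X.Fc) ∉ b.asIdeal := by
    intro h
    apply hbm
    rw [Nat.cast_mul]
    exact b.asIdeal.mul_mem_left _ h
  set e : ℤ := ((frobExp X.Fc X.Mc p X.gc b).val : ℤ) with he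
  set d₁ : ℤ := ((frobExp T.K T.L p T.g v₁).val : ℤ) with hd₁
  set d₂ : ℤ := ((frobExp T.K T.L p T.g v₂).val : ℤ) with hd₂
  have hecast : (e : ZMod p) = frobExp X.Fc X.Mc p X.gc b := by
    rw [he, Int.cast_natCast, ZMod.natCast_zmod_val]
  have hd₁cast : (d₁ : ZMod p) = frobExp T.K T.L p T.g v₁ := by
    rw [hd₁, Int.cast_natCast, ZMod.natCast_zmod_val]
  have hd₂cast : (d₂ : ZMod p) = frobExp T.K T.L p T.g v₂ := by
    rw [hd₂, Int.cast_natCast, ZMod.natCast_zmod_val]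
  have h1 := clg_leg_of hKER T X.gc X.finrank_FcMc v₁ X.leg₁ b hb1 e d₁ hecast hd₁cast
  have h2 := clg_leg_of hKER T X.gc X.finrank_FcMc v₂ X.leg₂ b hb2 e d₂ hecast hd₂cast
  refine ce_cross_endgame v₁ v₂ (dvNorm T.K X.Fc (Finsupp.single b (1 : ℤ))) e d₁ d₂ k ?_ ?_ h1 h2
  · rw [hecast]; exact hbe
  · rw [hd₁cast, hd₂cast, hk]

end LEG

end Fermat.Agent.S14x
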