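/-
S14 project, module CROSS, rows AMBEX + BUILD combined (helper33):
`cb3_exists_data : Nonempty (CrossData T v₁ v₂)` for ALL primes `v₁ v₂` of `K`, directly from the
two-prime Artin lemma `cx_artin_two`, `cr_exists_res_chi` (DISJ) and the Frobenius elements of
`Ω = L(ζ_m)` over `K` (CrossFrob), bypassing the field `s_pow` of `CrossAmb`.
Consequence: `cb3_cross_of` = `Spec.cross` from KER and DENS.  Prefix `cb3_`.
-/
import Fermat.Agent.S14x.CrossBuild33
import Fermat.Agent.S14x.CrossBArtin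
import Fermat.Agent.S14x.CrossLegLemma

set_option autoImplicit false
set_option linter.unusedSectionVars false

namespace Fermat.Agent.S14x

open NumberField IsDedekindDomain IntermediateField
open scoped Pointwise

/-- a natural number prime to the norm of `v` is not in `v`. -/
theorem cb3_not_mem_of_coprime {F : Type} [Field F] [NumberField F] (v : Pl F) (m : ℕ)
    (h : m.Coprime (plNorm v)) : (m : 𝓞 F) ∉ v.asIdeal := by
  intro hm
  have hN : (plNorm v : 𝓞 F) ∈ v.asIdeal := Ideal.absNorm_mem v.asIdeal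
  have h1 : ((Nat.gcd m (plNorm v) : ℕ) : 𝓞 F) ∈ v.asIdeal := by
    have hb := Nat.gcd_eq_gcd_ab m (plNorm v)
    have h2 : ((Nat.gcd m (plNorm v) : ℕ) : 𝓞 F) =
        (m : 𝓞 F) * ((Nat.gcdA m (plNorm v) : ℤ) : 𝓞 F) +
          (plNorm v : 𝓞 F) * ((Nat.gcdB m (plNorm v) : ℤ) : 𝓞 F) := by
      have := congrArg (fun z : ℤ => (z : 𝓞 F)) hb
      simpa using this
    rw [h2]
    exact v.asIdeal.add_mem (v.asIdeal.mul_mem_right _ hm) (v.asIdeal.mul_mem_right _ hN)
  rw [h, Nat.cast_one] at h1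
  exact v.isPrime.ne_top ((Ideal.eq_top_iff_one _).mpr h1)

section

variable {p : ℕ} [Fact p.Prime] (T : Tower p) (n : ℕ) [NeZero n]

/-- the Frobenius of `Ω/K` at `v ∤ n`: restriction and cyclotomic character. -/
theorem cb3_res_frob (v : Pl T.K) :
    crRes T n (frob T.K (crΩ T n) v) = frob T.K T.L v :=
  cf_restrictNormal_frob (Ω := crΩ T n) (tower_isUCyc T) v

theorem cb3_chi_frob (v : Pl T.K) (hv : (n : 𝓞 T.K) ∉ v.asIdeal) :
    ((crChi T n (frob T.K (crΩ T n) v) : (ZMod n)ˣ) : ZMod n) = (plNorm v : ZMod n) := by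
  have h1 := crChi_spec T n (frob T.K (crΩ T n) v)
  rw [cf_frob_apply_root n v hv (crZeta T n) (crZeta_spec T n).pow_eq_one,
    cb3_pow_eq_pow_iff (crZeta_spec T n), ZMod.natCast_zmod_val] at h1
  exact h1.symm

theorem cb3_zpow_eq_one_of_dvd (x : T.L ≃ₐ[T.K] T.L) (a : ℤ) (ha : (p : ℤ) ∣ a) : x ^ a = 1 := by
  obtain ⟨c, rfl⟩ := ha
  have h1 : x ^ p = 1 := by
    have := pow_card_eq_one' (G := T.L ≃ₐ[T.K] T.L) (x := x)
    rwa [aa_card (tower_isUCyc T)] at this
  rw [zpow_mul, zpow_natCast, h1, one_zpow]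

/-- **AMBEX + BUILD**: the crossing data exist for every pair of primes. -/
theorem cb3_exists_data (hp : p ≠ 2) (v₁ v₂ : Pl T.K) : Nonempty (CrossData T v₁ v₂) := by
  have hpp : p.Prime := Fact.out
  obtain ⟨m, hm1, hmp, hma₁, hma₂, τ, hτ⟩ := cx_artin_two p (plNorm v₁) (plNorm v₂) p
    (aa_two_le_plNorm v₁) (aa_two_le_plNorm v₂) hpp.ne_zero
  have : NeZero m := ⟨by omega⟩
  have hv₁ : (m : 𝓞 T.K) ∉ v₁.asIdeal := cb3_not_mem_of_coprime v₁ m hma₁
  have hv₂ : (m : 𝓞 T.K) ∉ v₂.asIdeal := cb3_not_mem_of_coprime v₂ m hma₂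
  obtain ⟨s, hs1, hs2⟩ := cr_exists_res_chi T m hp hmp T.g τ
  -- the independence property for both primes
  have hind : ∀ v : Pl T.K, (m : 𝓞 T.K) ∉ v.asIdeal → (plNorm v = plNorm v₁ ∨ plNorm v = plNorm v₂) →
      ∀ a b : ℤ, crChi T m (s ^ a * frob T.K (crΩ T m) v ^ b) = 1 →
        crRes T m (s ^ a * frob T.K (crΩ T m) v ^ b) = 1 := by
    intro v hv hN a b hab
    rw [map_mul, map_zpow, map_zpow, hs2] at hab
    obtain ⟨h1, h2⟩ := hτ (plNorm v) hN _ (cb3_chi_frob T m v hv) a b hab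
    rw [map_mul, map_zpow, map_zpow, cb3_zpow_eq_one_of_dvd T _ a h1,
      cb3_zpow_eq_one_of_dvd T _ b h2, one_mul]
  exact ⟨{ Fc := cfd_F (Subgroup.zpowers s)
           Mc := cfd_M T.L (Subgroup.zpowers s)
           galFcMc := cfd_isGalois (cr_comm T m) (Subgroup.zpowers s)
           gc := cfd_g (cr_comm T m) (Subgroup.zpowers s) s (Subgroup.mem_zpowers s)
           finrank_FcMc := cfd_finrank (tower_isUCyc T) _ s (Subgroup.mem_zpowers s)
             (cb3_hsg T m s hs1)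
           leg₁ := cb3_leg T m v₁ hv₁ s (frob T.K (crΩ T m) v₁) (plAbove T.K (crΩ T m) v₁) hs1
             (plAbove_over T.K (crΩ T m) v₁) (aa_isArithFrobAt_plAbove v₁)
             (hind v₁ hv₁ (Or.inl rfl))
           leg₂ := cb3_leg T m v₂ hv₂ s (frob T.K (crΩ T m) v₂) (plAbove T.K (crΩ T m) v₂) hs1
             (plAbove_over T.K (crΩ T m) v₂) (aa_isArithFrobAt_plAbove v₂)
             (hind v₂ hv₂ (Or.inr rfl)) }⟩

/-- **CROSS**, in hypothesis form: `Spec.cross` from KER and DENS. -/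
theorem cb3_cross_of (hKER : clg_KER p) (hDENS : clg_DENS p) (hp : p ≠ 2) (v₁ v₂ : Pl T.K)
    (k : ℤ) (hk : (k : ZMod p) * frobExp T.K T.L p T.g v₂ = frobExp T.K T.L p T.g v₁) :
    Finsupp.single v₁ (1 : ℤ) - k • Finsupp.single v₂ (1 : ℤ) ∈ normGroup T.K T.L p := by
  obtain ⟨X⟩ := cb3_exists_data T hp v₁ v₂
  exact clg_cross_of_data_of hKER hDENS T v₁ v₂ X k hk

end

end Fermat.Agent.S14x
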