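/-
S14 project, module DENS (core): approximation lemma for divisors and the deduction
"all primes not dividing `m` split completely ⇒ normGroup = ⊤".  helper76, prefix `dn_`.
-/
import Fermat.Agent.S14x.Defs

set_option autoImplicit false

namespace Fermat.Agent.S14x

open NumberField IsDedekindDomain

section Approx

variable {F : Type*} [Field F] [NumberField F]

/-- `ordAt` of an algebraic integer from ideal membership. -/
theorem dn_ordAt_of_mem (v : Pl F) (a : 𝓞 F) (n : ℕ) (h1 : a ∈ v.asIdeal ^ n)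
    (h2 : a ∉ v.asIdeal ^ (n + 1)) : ordAt v (a : F) = n := by
  have ha : a ≠ 0 := by
    rintro rfl
    exact h2 (Ideal.zero_mem _)
  have hval : v.valuation F (a : F) = v.intValuation a := by
    exact HeightOneSpectrum.valuation_of_algebraMap v a
  have h1' := (v.intValuation_le_pow_iff_mem a n).mpr h1
  have h2' := (v.intValuation_le_pow_iff_mem a (n + 1)).not.mpr h2
  rw [v.intValuation_if_neg ha] at h1' h2'
  rw [WithZero.exp_le_exp] at h1' h2'
  unfold ordAt
  rw [hval, v.intValuation_if_neg ha, WithZero.log_exp]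
  push_cast at h1' h2' ⊢
  omega

theorem dn_ordAt_mul (v : Pl F) {x y : F} (hx : x ≠ 0) (hy : y ≠ 0) :
    ordAt v (x * y) = ordAt v x + ordAt v y := by
  unfold ordAt
  rw [map_mul, WithZero.log_mul ((Valuation.ne_zero_iff _).mpr hx) ((Valuation.ne_zero_iff _).mpr hy)]
  ring

theorem dn_ordAt_inv (v : Pl F) (x : F) : ordAt v x⁻¹ = - ordAt v x := by
  unfold ordAt
  rw [map_inv₀, WithZero.log_inv]

theorem dn_ordAt_div (v : Pl F) {x y : F} (hx : x ≠ 0) (hy : y ≠ 0) :
    ordAt v (x / y) = ordAt v x - ordAt v y := by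
  rw [div_eq_mul_inv, dn_ordAt_mul v hx (inv_ne_zero hy), dn_ordAt_inv]
  ring

/-- CRT: a nonzero integer with prescribed (nonnegative) orders at finitely many primes. -/
theorem dn_exists_integer (S : Finset (Pl F)) (n : Pl F → ℕ) :
    ∃ a : 𝓞 F, a ≠ 0 ∧ ∀ v ∈ S, ordAt v (a : F) = n v := by
  classical
  by_cases hS : S = ∅
  · subst hS
    exact ⟨1, one_ne_zero, by simp⟩
  -- choose x_v ∈ v^{n_v} \ v^{n_v + 1}
  have hx : ∀ v : Pl F, ∃ x : 𝓞 F, x ∈ v.asIdeal ^ n v ∧ x ∉ v.asIdeal ^ (n v + 1) :=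
    fun v => Ideal.exists_mem_pow_notMem_pow_succ v.asIdeal v.ne_bot v.isPrime.ne_top (n v)
  choose x hx1 hx2 using hx
  obtain ⟨y, hy⟩ := IsDedekindDomain.exists_forall_sub_mem_ideal
    (s := S) (fun v : Pl F => v.asIdeal) (fun v => n v + 1)
    (fun v _ => v.prime)
    (fun v _ w _ hvw h => hvw (HeightOneSpectrum.ext h))
    (fun v => x v.1)
  have hmem : ∀ v ∈ S, y ∈ v.asIdeal ^ n v ∧ y ∉ v.asIdeal ^ (n v + 1) := by
    intro v hv
    have h := hy v hv
    have hle : v.asIdeal ^ (n v + 1) ≤ v.asIdeal ^ n v := Ideal.pow_le_pow_right (Nat.le_succ _)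
    constructor
    · have : y = (y - x v) + x v := by ring
      rw [this]
      exact Ideal.add_mem _ (hle h) (hx1 v)
    · intro hy'
      apply hx2 v
      have : x v = y - (y - x v) := by ring
      rw [this]
      exact Ideal.sub_mem _ hy' h
  obtain ⟨v0, hv0⟩ := Finset.nonempty_iff_ne_empty.mpr hS
  refine ⟨y, ?_, fun v hv => dn_ordAt_of_mem v y (n v) (hmem v hv).1 (hmem v hv).2⟩
  rintro rfl
  exact (hmem v0 hv0).2 (Ideal.zero_mem _)

/-- approximation: a nonzero element of `F` with prescribed orders at finitely many primes. -/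
theorem dn_exists_elt (S : Finset (Pl F)) (n : Pl F → ℤ) :
    ∃ x : F, x ≠ 0 ∧ ∀ v ∈ S, ordAt v x = n v := by
  obtain ⟨a, ha, ha'⟩ := dn_exists_integer S (fun v => (n v).toNat)
  obtain ⟨b, hb, hb'⟩ := dn_exists_integer S (fun v => (- n v).toNat)
  have haF : (a : F) ≠ 0 := by
    simpa using (RingOfIntegers.coe_ne_zero_iff.mpr ha)
  have hbF : (b : F) ≠ 0 := by
    simpa using (RingOfIntegers.coe_ne_zero_iff.mpr hb)
  refine ⟨(a : F) / (b : F), div_ne_zero haF hbF, fun v hv => ?_⟩
  rw [dn_ordAt_div v haF hbF, ha' v hv, hb' v hv]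
  omega

/-- the primes containing a nonzero integer `m` form a finite set -/
theorem dn_finite_primes_over (m : ℕ) (hm : m ≠ 0) :
    {v : Pl F | (m : 𝓞 F) ∈ v.asIdeal}.Finite := by
  have hm' : (Ideal.span {(m : 𝓞 F)} : Ideal (𝓞 F)) ≠ 0 := by
    rw [Ne, Ideal.zero_eq_bot, Ideal.span_singleton_eq_bot]
    exact_mod_cast hm
  refine (Ideal.finite_factors hm').subset ?_
  intro v hv
  show v.asIdeal ∣ Ideal.span {(m : 𝓞 F)}
  rw [Ideal.dvd_span_singleton]
  exact hv

/-- every divisor is a principal divisor plus a divisor prime to `m` -/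
theorem dn_exists_coprime (m : ℕ) (hm : m ≠ 0) (D : Dv F) :
    ∃ x : F, x ≠ 0 ∧ CoprimeTo m (D - divOf x) := by
  classical
  obtain ⟨x, hx, hx'⟩ := dn_exists_elt (dn_finite_primes_over (F := F) m hm).toFinset (fun v => D v)
  refine ⟨x, hx, fun v hv => ?_⟩
  have hv' : v ∈ (dn_finite_primes_over (F := F) m hm).toFinset := by
    simpa using hv
  rw [Finsupp.sub_apply, divOf_apply, hx' v hv', sub_self]

end Approx

section Main

variable {p : ℕ} [Fact p.Prime]
variable {F M : Type} [Field F] [NumberField F] [Field M] [NumberField M] [Algebra F M]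
  [IsGalois F M] {g : M ≃ₐ[F] M}

omit [Fact p.Prime] [IsGalois F M] in
/-- If every prime not dividing `m` splits completely, the norm group is everything. -/
theorem dn_normGroup_eq_top (m : ℕ) (hm : m ≠ 0)
    (hall : ∀ v : Pl F, (m : 𝓞 F) ∉ v.asIdeal → SplitsCompletely F M v) :
    normGroup F M p = ⊤ := by
  classical
  rw [eq_top_iff]
  intro D _
  obtain ⟨x, hx, hcop⟩ := dn_exists_coprime m hm D
  have h1 : divOf x ∈ normGroup F M p :=
    AddSubgroup.subset_closure (Or.inl (Or.inl ⟨x, hx, rfl⟩))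
  have h2 : D - divOf x ∈ normGroup F M p := by
    rw [← Finsupp.sum_single (D - divOf x)]
    unfold Finsupp.sum
    refine AddSubgroup.sum_mem _ fun v hv => ?_
    have hv0 : (D - divOf x) v ≠ 0 := Finsupp.mem_support_iff.mp hv
    have hmv : (m : 𝓞 F) ∉ v.asIdeal := fun hmem => hv0 (hcop v hmem)
    have hs : Finsupp.single v (1 : ℤ) ∈ normGroup F M p :=
      AddSubgroup.subset_closure (Or.inl (Or.inr ⟨v, hall v hmv, rfl⟩))
    have : Finsupp.single v ((D - divOf x) v) = ((D - divOf x) v) • Finsupp.single v (1 : ℤ) := by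
      rw [Finsupp.smul_single, smul_eq_mul, mul_one]
    rw [this]
    exact AddSubgroup.zsmul_mem _ hs _
  have : D = (D - divOf x) + divOf x := by abel
  rw [this]
  exact AddSubgroup.add_mem _ h2 h1

/-- **DENS, core form**: `hSI` is SI (`normGroup_ne_top`) and `hAAPI` is the AAPI statement
`frobExp_eq_zero_iff`. -/
theorem dn_exists_frobExp_ne_zero_of
    (hSI : normGroup F M p ≠ ⊤)
    (hAAPI : ∀ v : Pl F, frobExp F M p g v = 0 ↔ SplitsCompletely F M v)
    (m : ℕ) (hm : m ≠ 0) :
    ∃ v : Pl F, (m : 𝓞 F) ∉ v.asIdeal ∧ frobExp F M p g v ≠ 0 := by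
  by_contra hcon
  apply hSI
  refine dn_normGroup_eq_top m hm fun v hv => (hAAPI v).mp ?_
  by_contra hne
  exact hcon ⟨v, hv, hne⟩

end Main

end Fermat.Agent.S14x
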