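/-
S14 project (own-risk leaf, helper48): abstract index calculus for Herbrand quotients.
Everything here is Mathlib-only.  Prefix `hq_`.

For an additive commutative group `M` with two endomorphisms `f g` and a subgroup `A`, we put
`hq_a f g A = [A ⊓ ker f : g(A)]` (as a `relIndex`, so `0` means infinite).
Main result `hq_herbrand_finite_index`: for `A' ≤ A` of finite index, both stable under `f` and `g`,
`hq_a f g A * hq_a g f A' = hq_a f g A' * hq_a g f A`.
-/
import Mathlib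

set_option autoImplicit false

namespace Fermat.Agent.S14x

open AddSubgroup

variable {M : Type*} [AddCommGroup M]

/-- kernel-image index formula: `[A : A'] = [A ∩ ker f : A' ∩ ker f] * [f A : f A']`. -/
theorem hq_relIndex_ker_mul_map {M' : Type*} [AddCommGroup M'] (f : M →+ M')
    {A' A : AddSubgroup M} (h : A' ≤ A) :
    (A' ⊓ f.ker).relIndex (A ⊓ f.ker) * (A'.map f).relIndex (A.map f) = A'.relIndex A := by
  -- chain A' ≤ A' ⊔ (A ⊓ ker f) ≤ A
  have h1 : A' ≤ A' ⊔ (A ⊓ f.ker) := le_sup_left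
  have h2 : A' ⊔ (A ⊓ f.ker) ≤ A := sup_le h inf_le_left
  rw [← relIndex_mul_relIndex A' (A' ⊔ (A ⊓ f.ker)) A h1 h2]
  congr 1
  · -- second isomorphism theorem
    rw [sup_comm, relIndex_sup_right, ← inf_relIndex_right A' (A ⊓ f.ker)]
    congr 1
    rw [← inf_assoc, inf_eq_left.mpr h]
  · rw [relIndex_map_map]
    -- (A' ⊔ ker f).relIndex (A ⊔ ker f) = (A' ⊔ (A ⊓ ker f)).relIndex A
    have e1 : (A' ⊔ f.ker) ⊓ A = A' ⊔ (A ⊓ f.ker) := by
      apply le_antisymm
      · rintro x ⟨hx1, hx2⟩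
        obtain ⟨a, ha, k, hk, rfl⟩ := AddSubgroup.mem_sup.mp hx1
        refine AddSubgroup.mem_sup.mpr ⟨a, ha, k, ⟨?_, hk⟩, rfl⟩
        have : k = (a + k) - a := by abel
        rw [this]
        exact A.sub_mem hx2 (h ha)
      · exact le_inf (sup_le_sup_left inf_le_right _) h2
    have e2 : A ⊔ f.ker = (A' ⊔ f.ker) ⊔ A := by
      rw [sup_comm (A' ⊔ f.ker) A, ← sup_assoc, sup_eq_left.mpr h]
    rw [e2, relIndex_sup_left, ← inf_relIndex_right, e1]


/-- `hq_a f g A = [A ⊓ ker f : g(A)]` (`0` if infinite). -/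
noncomputable def hq_a (f g : M →+ M) (A : AddSubgroup M) : ℕ :=
  (A.map g).relIndex (A ⊓ f.ker)

/-- first comparison identity -/
theorem hq_a_compare (f g : M →+ M) (hfg : ∀ x, f (g x) = 0)
    {A' A : AddSubgroup M} (h : A' ≤ A) (hgA : A.map g ≤ A) (hgA' : A'.map g ≤ A') :
    hq_a f g A * (A'.map g).relIndex (A.map g) =
      (A' ⊓ f.ker).relIndex (A ⊓ f.ker) * hq_a f g A' := by
  unfold hq_a
  have k1 : A.map g ≤ A ⊓ f.ker := by
    refine le_inf hgA ?_
    rintro _ ⟨x, -, rfl⟩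
    exact hfg x
  have k2 : A'.map g ≤ A' ⊓ f.ker := by
    refine le_inf hgA' ?_
    rintro _ ⟨x, -, rfl⟩
    exact hfg x
  have k3 : A'.map g ≤ A.map g := AddSubgroup.map_mono h
  have k4 : A' ⊓ f.ker ≤ A ⊓ f.ker := inf_le_inf_right _ h
  rw [mul_comm, relIndex_mul_relIndex _ _ _ k3 k1, mul_comm,
    relIndex_mul_relIndex _ _ _ k2 k4]

/-- **Herbrand's lemma for finite-index subgroups** (index form). -/
theorem hq_herbrand_finite_index (f g : M →+ M) (hfg : ∀ x, f (g x) = 0) (hgf : ∀ x, g (f x) = 0)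
    {A' A : AddSubgroup M} (h : A' ≤ A) (hfin : A'.relIndex A ≠ 0)
    (hfA : A.map f ≤ A) (hgA : A.map g ≤ A) (hfA' : A'.map f ≤ A') (hgA' : A'.map g ≤ A') :
    hq_a f g A * hq_a g f A' = hq_a f g A' * hq_a g f A := by
  have E1 := hq_a_compare f g hfg h hgA hgA'
  have E2 := hq_a_compare g f hgf h hfA hfA'
  have K1 := hq_relIndex_ker_mul_map f h
  have K2 := hq_relIndex_ker_mul_map g h
  set X := (A' ⊓ f.ker).relIndex (A ⊓ f.ker)
  set Y := (A'.map f).relIndex (A.map f)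
  set Z := (A' ⊓ g.ker).relIndex (A ⊓ g.ker)
  set W := (A'.map g).relIndex (A.map g)
  set n := A'.relIndex A
  have hW : W ≠ 0 := fun h0 => hfin (by rw [← K2, h0, mul_zero])
  have hZ : Z ≠ 0 := fun h0 => hfin (by rw [← K2, h0, zero_mul])
  have hZW : Z * W ≠ 0 := mul_ne_zero hZ hW
  apply Nat.eq_of_mul_eq_mul_right (Nat.pos_of_ne_zero hZW)
  calc hq_a f g A * hq_a g f A' * (Z * W)
      = (hq_a f g A * W) * (Z * hq_a g f A') := by ring
    _ = (X * hq_a f g A') * (hq_a g f A * Y) := by rw [E1, E2]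
    _ = hq_a f g A' * hq_a g f A * (X * Y) := by ring
    _ = hq_a f g A' * hq_a g f A * (Z * W) := by rw [K1, K2]

/-- nonvanishing transfers up -/
theorem hq_a_ne_zero_of_sub (f g : M →+ M) (hfg : ∀ x, f (g x) = 0)
    {A' A : AddSubgroup M} (h : A' ≤ A) (hfin : A'.relIndex A ≠ 0)
    (hgA : A.map g ≤ A) (hgA' : A'.map g ≤ A') (h0 : hq_a f g A' ≠ 0) : hq_a f g A ≠ 0 := by
  have E1 := hq_a_compare f g hfg h hgA hgA'
  have K1 := hq_relIndex_ker_mul_map f h
  intro hz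
  rw [hz, zero_mul] at E1
  have hX : (A' ⊓ f.ker).relIndex (A ⊓ f.ker) ≠ 0 := fun h0 => hfin (by rw [← K1, h0, zero_mul])
  exact (mul_ne_zero hX h0) E1.symm

/-- nonvanishing transfers down -/
theorem hq_a_ne_zero_of_sup (f g : M →+ M) (hfg : ∀ x, f (g x) = 0)
    {A' A : AddSubgroup M} (h : A' ≤ A) (hfin : A'.relIndex A ≠ 0)
    (hgA : A.map g ≤ A) (hgA' : A'.map g ≤ A') (h0 : hq_a f g A ≠ 0) : hq_a f g A' ≠ 0 := by
  have E1 := hq_a_compare f g hfg h hgA hgA'
  have K2 := hq_relIndex_ker_mul_map g h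
  intro hz
  rw [hz, mul_zero] at E1
  have hW : (A'.map g).relIndex (A.map g) ≠ 0 := fun h0 => hfin (by rw [← K2, h0, mul_zero])
  exact (mul_ne_zero h0 hW) E1

end Fermat.Agent.S14x
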