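/-
S14 project (own-risk leaf, helper48): the polynomial `Φ_p(1+X) = ∑_{k<p} C(p,k+1) X^k`
and the module-theoretic consequence: a free `ℤ`-module `K` of rank `s` with an endomorphism `D`
killed by `Φ_p(1+X)` has `[K : D K]^(p-1) = p^s`.   Mathlib-only.  Prefix `hq_`.
-/
import Mathlib

set_option autoImplicit false

namespace Fermat.Agent.S14x

open Polynomial

/-- `Φ_p(1+X) = ∑_{k<p} C(p,k+1) X^k`. -/
noncomputable def hqP (p : ℕ) : ℤ[X] :=
  ∑ k ∈ Finset.range p, C ((p.choose (k + 1) : ℕ) : ℤ) * X ^ k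

/-- `(Φ_p(1+X) - X^(p-1)) / p`. -/
noncomputable def hqU (p : ℕ) : ℤ[X] :=
  ∑ k ∈ Finset.range (p - 1), C ((p.choose (k + 1) / p : ℕ) : ℤ) * X ^ k

/-- `(hqU - 1) / X`. -/
noncomputable def hqV (p : ℕ) : ℤ[X] :=
  ∑ k ∈ Finset.range (p - 2), C ((p.choose (k + 2) / p : ℕ) : ℤ) * X ^ k

theorem hqP_mul_X (p : ℕ) : hqP p * X = (X + 1) ^ p - 1 := by
  rw [add_pow, Finset.sum_range_succ', hqP, Finset.sum_mul]
  simp only [one_pow, mul_one, pow_zero, Nat.choose_zero_right, Nat.cast_one, add_sub_cancel_right]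
  refine Finset.sum_congr rfl fun k _ => ?_
  rw [pow_succ]
  simp only [map_natCast]
  ring

theorem hq_geom_sum_eq_hqP (p : ℕ) : ∑ i ∈ Finset.range p, (X + 1 : ℤ[X]) ^ i = hqP p := by
  have h := geom_sum_mul (X + 1 : ℤ[X]) p
  rw [add_sub_cancel_right, ← hqP_mul_X] at h
  exact mul_right_cancel₀ X_ne_zero h

theorem hqP_eq (p : ℕ) (hp : p.Prime) : hqP p = X ^ (p - 1) + C (p : ℤ) * hqU p := by
  have h1 : p = (p - 1) + 1 := (Nat.sub_add_cancel hp.one_le).symm
  rw [hqP]
  conv_lhs => rw [h1, Finset.sum_range_succ]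
  rw [← h1, Nat.choose_self, Nat.cast_one, map_one, one_mul, add_comm, hqU, Finset.mul_sum]
  congr 1
  refine Finset.sum_congr rfl fun k hk => ?_
  have hk' : k + 1 < p := by
    have := Finset.mem_range.mp hk
    omega
  have hdvd : p ∣ p.choose (k + 1) := hp.dvd_choose_self (Nat.succ_ne_zero k) hk'
  rw [← mul_assoc, ← C_mul]
  congr 2
  rw [← Nat.cast_mul, Nat.mul_div_cancel' hdvd]

theorem hqU_eq (p : ℕ) (hp : p.Prime) : hqU p = 1 + X * hqV p := by
  have h1 : p - 1 = (p - 2) + 1 := by have := hp.two_le; omega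
  rw [hqU, h1, Finset.sum_range_succ', hqV, Finset.mul_sum]
  simp only [zero_add, Nat.choose_one_right, pow_zero, mul_one]
  rw [Nat.div_self hp.pos, Nat.cast_one, map_one, add_comm]
  congr 1
  refine Finset.sum_congr rfl fun k _ => ?_
  rw [pow_succ]
  ring

/-- Bezout relation: `hqU` is invertible modulo `hqP`. -/
theorem hq_bezout (p : ℕ) (hp : p.Prime) : ∃ W Q : ℤ[X], W * hqU p + Q * hqP p = 1 := by
  rw [← Ideal.mem_span_pair]
  set I : Ideal ℤ[X] := Ideal.span {hqU p, hqP p}
  have hU : hqU p ∈ I := Ideal.subset_span (by simp)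
  have hP : hqP p ∈ I := Ideal.subset_span (by simp)
  have hX : (X : ℤ[X]) ^ (p - 1) ∈ I := by
    have : (X : ℤ[X]) ^ (p - 1) = hqP p - C (p : ℤ) * hqU p := by rw [hqP_eq p hp]; ring
    rw [this]
    exact I.sub_mem hP (I.mul_mem_left _ hU)
  have hb : (-(X * hqV p)) ^ (p - 1) ∈ I := by
    rw [neg_pow, mul_pow]
    exact I.mul_mem_left _ (I.mul_mem_right _ hX)
  have ha : (hqU p) ^ 1 ∈ I := by simpa using hU
  have := I.add_pow_mem_of_pow_mem_of_le ha hb (k := p - 1) (by omega)
  rw [hqU_eq p hp] at this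
  simpa using this

section module

variable {K : Type*} [AddCommGroup K] [Module.Free ℤ K] [Module.Finite ℤ K]

omit [Module.Finite ℤ K] in
theorem hq_injective_of_aeval_hqP (p : ℕ) (hp : p.Prime) (D : Module.End ℤ K)
    (hD : aeval D (hqP p) = 0) : Function.Injective D := by
  rw [injective_iff_map_eq_zero]
  intro x hx
  have h1 : hqP p = C (p : ℤ) + (X ^ (p - 2) + C (p : ℤ) * hqV p) * X := by
    rw [hqP_eq p hp, hqU_eq p hp]
    have : (X : ℤ[X]) ^ (p - 1) = X ^ (p - 2) * X := by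
      rw [← pow_succ]; congr 1; have := hp.two_le; omega
    rw [this]; ring
  have h2 := congrArg (fun f : Module.End ℤ K => f x) hD
  simp only [h1, map_add, map_mul, aeval_C, aeval_X, LinearMap.zero_apply, LinearMap.add_apply,
    Module.End.mul_apply, hx, map_zero, add_zero] at h2
  have h3 : (p : ℤ) • x = 0 := by simpa [Algebra.algebraMap_eq_smul_one] using h2
  have hp0 : (p : ℤ) ≠ 0 := by exact_mod_cast hp.ne_zero
  exact (smul_eq_zero.mp h3).resolve_left hp0

omit [Module.Finite ℤ K] in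
theorem hq_det_pow (p : ℕ) (hp : p.Prime) (D : Module.End ℤ K)
    (hD : aeval D (hqP p) = 0) :
    (LinearMap.det D).natAbs ^ (p - 1) = p ^ Module.finrank ℤ K := by
  obtain ⟨W, Q, hWQ⟩ := hq_bezout p hp
  set u : Module.End ℤ K := aeval D (hqU p) with hu
  set w : Module.End ℤ K := aeval D W with hw
  have huw : w * u = 1 := by
    have := congrArg (aeval D) hWQ
    simpa [hD] using this
  have hdetu : (LinearMap.det u).natAbs = 1 := by
    have h1 : LinearMap.det w * LinearMap.det u = 1 := by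
      rw [← LinearMap.det_comp, ← Module.End.mul_eq_comp, huw, Module.End.one_eq_id, LinearMap.det_id]
    exact Int.natAbs_of_isUnit (IsUnit.of_mul_eq_one _ ((mul_comm _ _).trans h1))
  have hpow : D ^ (p - 1) = -((p : ℤ) • u) := by
    have := congrArg (aeval D) (hqP_eq p hp)
    rw [hD] at this
    simp only [map_add, map_pow, aeval_X, map_mul, aeval_C] at this
    rw [eq_neg_iff_add_eq_zero, hu, this, Algebra.algebraMap_eq_smul_one, smul_mul_assoc, one_mul]
  have hdet : (LinearMap.det D) ^ (p - 1) = (-(p : ℤ)) ^ Module.finrank ℤ K * LinearMap.det u := by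
    rw [← map_pow, hpow, ← neg_smul, LinearMap.det_smul]
  have := congrArg Int.natAbs hdet
  rw [Int.natAbs_pow, Int.natAbs_mul, Int.natAbs_pow, Int.natAbs_neg, Int.natAbs_natCast, hdetu,
    mul_one] at this
  exact this

theorem hq_index_range (D : Module.End ℤ K) (hinj : Function.Injective D) :
    (LinearMap.range D).toAddSubgroup.index = (LinearMap.det D).natAbs := by
  let e : K ≃ₗ[ℤ] LinearMap.range D := LinearEquiv.ofInjective D hinj
  have h := Submodule.natAbs_det_equiv (LinearMap.range D) e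
  have h2 : (LinearMap.range D).subtype ∘ₗ AddMonoidHom.toIntLinearMap (e : K →+ LinearMap.range D) = D := by
    ext x; rfl
  rw [h2] at h
  rw [h, AddSubgroup.index_eq_card]
  rfl

/-- **Part I**: `[K : D K]^(p-1) = p^rank`. -/
theorem hq_index_range_pow (p : ℕ) (hp : p.Prime) (D : Module.End ℤ K)
    (hD : aeval D (hqP p) = 0) :
    (LinearMap.range D).toAddSubgroup.index ^ (p - 1) = p ^ Module.finrank ℤ K := by
  rw [hq_index_range D (hq_injective_of_aeval_hqP p hp D hD), hq_det_pow p hp D hD]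

end module

end Fermat.Agent.S14x
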