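/-
S14 project (own-risk leaf, helper48): Herbrand quotient of a finitely generated abelian group
with an automorphism of prime order `p`, in terms of ranks.   Mathlib-only.  Prefix `hq_`.
-/
import Fermat.Agent.S14x.HqIndex
import Fermat.Agent.S14x.HqPoly

set_option autoImplicit false

namespace Fermat.Agent.S14x

open Polynomial Module

section basic

variable {M : Type*} [AddCommGroup M] (p : ℕ) (s : Module.End ℤ M)

/-- the norm element `∑_{i<p} s^i` -/
noncomputable def hqN : Module.End ℤ M := ∑ i ∈ Finset.range p, s ^ i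

theorem hq_D_mul_N (hs : s ^ p = 1) : (s - 1) * hqN p s = 0 := by
  rw [hqN, mul_geom_sum, hs, sub_self]

theorem hq_N_mul_D (hs : s ^ p = 1) : hqN p s * (s - 1) = 0 := by
  rw [hqN, geom_sum_mul, hs, sub_self]

theorem hq_N_eq_aeval : aeval (s - 1) (hqP p) = hqN p s := by
  rw [← hq_geom_sum_eq_hqP, map_sum, hqN]
  refine Finset.sum_congr rfl fun i _ => ?_
  rw [map_pow, map_add, aeval_X, map_one, sub_add_cancel]

theorem hq_N_apply_of_fixed {x : M} (hx : s x = x) : hqN p s x = p • x := by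
  have h : ∀ i : ℕ, (s ^ i) x = x := by
    intro i
    induction i with
    | zero => simp
    | succ i ih => rw [pow_succ, Module.End.mul_apply, hx, ih]
  rw [hqN, LinearMap.sum_apply, Finset.sum_congr rfl (fun i _ => h i), Finset.sum_const,
    Finset.card_range]

theorem hq_N_mul_s (hs : s ^ p = 1) : hqN p s * s = hqN p s := by
  have := hq_N_mul_D p s hs
  rwa [mul_sub, mul_one, sub_eq_zero] at this

theorem hq_N_mul_N (hs : s ^ p = 1) : hqN p s * hqN p s = p • hqN p s := by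
  have h : ∀ i : ℕ, hqN p s * s ^ i = hqN p s := by
    intro i
    induction i with
    | zero => simp
    | succ i ih => rw [pow_succ, ← mul_assoc, ih, hq_N_mul_s p s hs]
  conv_lhs => rw [hqN, Finset.mul_sum]
  rw [← hqN, Finset.sum_congr rfl (fun i _ => h i), Finset.sum_const, Finset.card_range]

end basic


section general

variable {M : Type*} [AddCommGroup M]

/-- relative index of `f S` in `S` as an honest index in `↥S`. -/
theorem hq_relIndex_map_eq_index_range (S : Submodule ℤ M) (f : Module.End ℤ M)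
    (hf : ∀ x ∈ S, f x ∈ S) :
    (S.map f).toAddSubgroup.relIndex S.toAddSubgroup =
      (LinearMap.range (f.restrict hf)).toAddSubgroup.index := by
  rw [AddSubgroup.relIndex]
  congr 1
  ext ⟨x, hx⟩
  simp only [AddSubgroup.mem_addSubgroupOf, Submodule.mem_toAddSubgroup, Submodule.mem_map,
    LinearMap.mem_range, Subtype.exists]
  constructor
  · rintro ⟨y, hy, hxy⟩
    exact ⟨y, hy, Subtype.ext hxy⟩
  · rintro ⟨y, hy, hxy⟩
    exact ⟨y, hy, congrArg Subtype.val hxy⟩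

/-- `aeval` commutes with restriction to an invariant submodule. -/
theorem hq_aeval_restrict (S : Submodule ℤ M) (f : Module.End ℤ M)
    (hf : ∀ x ∈ S, f x ∈ S) (P : ℤ[X]) (x : S) :
    ((aeval (f.restrict hf) P) x : M) = (aeval f P) (x : M) := by
  have hpow : ∀ (k : ℕ) (y : S), (((f.restrict hf) ^ k) y : M) = (f ^ k) (y : M) := by
    intro k
    induction k with
    | zero => intro y; simp
    | succ k ih =>
      intro y
      rw [pow_succ, pow_succ, Module.End.mul_apply, Module.End.mul_apply, ih]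
      rfl
  rw [Polynomial.aeval_endomorphism, Polynomial.aeval_endomorphism, Polynomial.sum_def,
    Polynomial.sum_def, Submodule.coe_sum]
  refine Finset.sum_congr rfl fun k _ => ?_
  rw [Submodule.coe_smul, hpow]

variable [Module.Finite ℤ M]

/-- torsion is killed by a single positive integer -/
theorem hq_exists_torsion_bound :
    ∃ n : ℕ, 0 < n ∧ ∀ x : M, (∃ k : ℤ, k ≠ 0 ∧ k • x = 0) → n • x = 0 := by
  have hfin : Finite (Submodule.torsion ℤ M) :=
    Module.finite_of_fg_torsion _ Submodule.torsion_isTorsion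
  refine ⟨Nat.card (Submodule.torsion ℤ M), Nat.card_pos, ?_⟩
  rintro x ⟨k, hk, hkx⟩
  have hx : x ∈ Submodule.torsion ℤ M := by
    rw [Submodule.mem_torsion_iff]
    exact ⟨⟨k, mem_nonZeroDivisors_of_ne_zero hk⟩, hkx⟩
  have := card_nsmul_eq_zero' (G := Submodule.torsion ℤ M) (x := ⟨x, hx⟩)
  exact congrArg Subtype.val this

/-- a subgroup containing `m • M` has finite index. -/
theorem hq_index_ne_zero_of_smul_le (A : AddSubgroup M) (m : ℕ) (hm : 0 < m)
    (h : ∀ x : M, m • x ∈ A) : A.index ≠ 0 := by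
  have hfg : AddGroup.FG M := Module.Finite.iff_addGroup_fg.mp inferInstance
  have hfg' : AddGroup.FG (M ⧸ A) := QuotientAddGroup.fg A
  have htors : IsAddTorsion (M ⧸ A) := by
    intro x
    induction x using QuotientAddGroup.induction_on with
    | H x =>
      rw [isOfFinAddOrder_iff_nsmul_eq_zero]
      refine ⟨m, hm, ?_⟩
      rw [← QuotientAddGroup.mk_nsmul, QuotientAddGroup.eq_zero_iff]
      exact h x
  have : Finite (M ⧸ A) := AddCommGroup.finite_of_fg_isAddTorsion _ htors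
  exact AddSubgroup.index_ne_zero_of_finite

end general

section main

variable {M : Type*} [AddCommGroup M] (p : ℕ) (s : Module.End ℤ M) (n : ℕ)

/-- `n M` -/
def hqnM (M : Type*) [AddCommGroup M] (n : ℕ) : Submodule ℤ M :=
  LinearMap.range ((n : ℤ) • (1 : Module.End ℤ M))

/-- `n M ∩ ker (s - 1)` -/
def hqKD : Submodule ℤ M := hqnM M n ⊓ LinearMap.ker (s - 1)

/-- `n M ∩ ker N` -/
noncomputable def hqKN : Submodule ℤ M := hqnM M n ⊓ LinearMap.ker (hqN p s)

theorem mem_hqnM {x : M} : x ∈ hqnM M n ↔ ∃ y : M, n • y = x := by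
  simp [hqnM, LinearMap.mem_range]

theorem hq_map_mem_nM (g : Module.End ℤ M) {x : M} (hx : x ∈ hqnM M n) : g x ∈ hqnM M n := by
  obtain ⟨y, rfl⟩ := (mem_hqnM n).mp hx
  exact (mem_hqnM n).mpr ⟨g y, by rw [map_nsmul]⟩

theorem mem_hqKD {x : M} : x ∈ hqKD s n ↔ x ∈ hqnM M n ∧ s x = x := by
  simp [hqKD, LinearMap.mem_ker, sub_eq_zero]

theorem mem_hqKN {x : M} : x ∈ hqKN p s n ↔ x ∈ hqnM M n ∧ hqN p s x = 0 := by
  simp [hqKN, LinearMap.mem_ker]

variable {p s n}

theorem hq_nM_torsionfree (hn : 0 < n)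
    (htor : ∀ x : M, (∃ k : ℤ, k ≠ 0 ∧ k • x = 0) → n • x = 0)
    {x : M} (hx : x ∈ hqnM M n) {k : ℤ} (hk : k ≠ 0) (hkx : k • x = 0) : x = 0 := by
  obtain ⟨y, rfl⟩ := (mem_hqnM n).mp hx
  apply htor y
  refine ⟨k * n, mul_ne_zero hk (by exact_mod_cast hn.ne'), ?_⟩
  rw [mul_smul, natCast_zsmul, hkx]

theorem hq_KD_KN_disjoint (hp : p.Prime) (hn : 0 < n)
    (htor : ∀ x : M, (∃ k : ℤ, k ≠ 0 ∧ k • x = 0) → n • x = 0)
    {x : M} (hxD : x ∈ hqKD s n) (hxN : x ∈ hqKN p s n) : x = 0 := by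
  obtain ⟨h1, h2⟩ := (mem_hqKD s n).mp hxD
  obtain ⟨-, h3⟩ := (mem_hqKN p s n).mp hxN
  rw [hq_N_apply_of_fixed p s h2] at h3
  refine hq_nM_torsionfree hn htor h1 (k := (p : ℤ)) (by exact_mod_cast hp.ne_zero) ?_
  rwa [natCast_zsmul]

theorem hq_pn_mem (hs : s ^ p = 1) (x : M) : (p * n) • x ∈ hqKD s n ⊔ hqKN p s n := by
  have hnx : n • x ∈ hqnM M n := (mem_hqnM n).mpr ⟨x, rfl⟩
  have e : (p * n) • x = hqN p s (n • x) + (p • (n • x) - hqN p s (n • x)) := by
    rw [mul_smul]; abel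
  rw [e]
  refine Submodule.add_mem_sup ?_ ?_
  · rw [mem_hqKD]
    refine ⟨hq_map_mem_nM n _ hnx, ?_⟩
    have := congrArg (fun f : Module.End ℤ M => f (n • x)) (hq_D_mul_N p s hs)
    simp only [Module.End.mul_apply, LinearMap.sub_apply, Module.End.one_apply,
      LinearMap.zero_apply] at this
    exact sub_eq_zero.mp this
  · rw [mem_hqKN]
    refine ⟨Submodule.sub_mem _ (Submodule.smul_of_tower_mem _ p hnx) (hq_map_mem_nM n _ hnx), ?_⟩
    have := congrArg (fun f : Module.End ℤ M => f (n • x)) (hq_N_mul_N p s hs)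
    simp only [Module.End.mul_apply, LinearMap.smul_apply] at this
    rw [map_sub, map_nsmul, this, sub_self]

theorem hq_D_mem_KN (hs : s ^ p = 1) {x : M} (hx : x ∈ hqKN p s n) : (s - 1) x ∈ hqKN p s n := by
  obtain ⟨h1, h2⟩ := (mem_hqKN p s n).mp hx
  rw [mem_hqKN]
  refine ⟨hq_map_mem_nM n _ h1, ?_⟩
  have := congrArg (fun f : Module.End ℤ M => f x) (hq_N_mul_D p s hs)
  simpa only [Module.End.mul_apply, LinearMap.zero_apply] using this

theorem hq_D_eq_zero_of_mem_KD {x : M} (hx : x ∈ hqKD s n) : (s - 1) x = 0 := by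
  obtain ⟨-, h2⟩ := (mem_hqKD s n).mp hx
  rw [LinearMap.sub_apply, Module.End.one_apply, h2, sub_self]

theorem hq_N_eq_smul_of_mem_KD {x : M} (hx : x ∈ hqKD s n) : hqN p s x = p • x :=
  hq_N_apply_of_fixed p s ((mem_hqKD s n).mp hx).2

theorem hq_N_eq_zero_of_mem_KN {x : M} (hx : x ∈ hqKN p s n) : hqN p s x = 0 :=
  ((mem_hqKN p s n).mp hx).2

/-- `A₂ ∩ ker D = K_D` -/
theorem hq_sup_inf_kerD (hp : p.Prime) (hn : 0 < n)
    (htor : ∀ x : M, (∃ k : ℤ, k ≠ 0 ∧ k • x = 0) → n • x = 0) :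
    (hqKD s n ⊔ hqKN p s n) ⊓ LinearMap.ker (s - 1) = hqKD s n := by
  apply le_antisymm
  · rintro x ⟨hx1, hx2⟩
    obtain ⟨y, hy, z, hz, rfl⟩ := Submodule.mem_sup.mp hx1
    have hz' : (s - 1) z = 0 := by
      have := LinearMap.mem_ker.mp hx2
      rwa [map_add, hq_D_eq_zero_of_mem_KD hy, zero_add] at this
    have hzD : z ∈ hqKD s n := by
      rw [mem_hqKD]
      refine ⟨((mem_hqKN p s n).mp hz).1, ?_⟩
      rwa [LinearMap.sub_apply, Module.End.one_apply, sub_eq_zero] at hz'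
    rw [hq_KD_KN_disjoint hp hn htor hzD hz, add_zero]
    exact hy
  · exact le_inf le_sup_left (fun x hx => LinearMap.mem_ker.mpr (hq_D_eq_zero_of_mem_KD hx))

/-- `A₂ ∩ ker N = K_N` -/
theorem hq_sup_inf_kerN (hp : p.Prime) (hn : 0 < n)
    (htor : ∀ x : M, (∃ k : ℤ, k ≠ 0 ∧ k • x = 0) → n • x = 0) :
    (hqKD s n ⊔ hqKN p s n) ⊓ LinearMap.ker (hqN p s) = hqKN p s n := by
  apply le_antisymm
  · rintro x ⟨hx1, hx2⟩
    obtain ⟨y, hy, z, hz, rfl⟩ := Submodule.mem_sup.mp hx1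
    have hy' : hqN p s y = 0 := by
      have := LinearMap.mem_ker.mp hx2
      rwa [map_add, hq_N_eq_zero_of_mem_KN hz, add_zero] at this
    have hyN : y ∈ hqKN p s n := by
      rw [mem_hqKN]
      exact ⟨((mem_hqKD s n).mp hy).1, hy'⟩
    rw [hq_KD_KN_disjoint hp hn htor hy hyN, zero_add]
    exact hz
  · exact le_inf le_sup_right (fun x hx => LinearMap.mem_ker.mpr (hq_N_eq_zero_of_mem_KN hx))

/-- `N(A₂) = p K_D` -/
theorem hq_map_N_sup :
    (hqKD s n ⊔ hqKN p s n).map (hqN p s) = (hqKD s n).map ((p : ℤ) • (1 : Module.End ℤ M)) := by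
  rw [Submodule.map_sup]
  have h2 : (hqKN p s n).map (hqN p s) = ⊥ := by
    rw [eq_bot_iff]
    rintro _ ⟨x, hx, rfl⟩
    exact (Submodule.mem_bot ℤ).mpr (hq_N_eq_zero_of_mem_KN hx)
  rw [h2, sup_bot_eq]
  ext x
  simp only [Submodule.mem_map]
  constructor
  · rintro ⟨y, hy, rfl⟩
    exact ⟨y, hy, by rw [hq_N_eq_smul_of_mem_KD hy]; simp⟩
  · rintro ⟨y, hy, rfl⟩
    exact ⟨y, hy, by rw [hq_N_eq_smul_of_mem_KD hy]; simp⟩

/-- `D(A₂) = D K_N` -/
theorem hq_map_D_sup :
    (hqKD s n ⊔ hqKN p s n).map (s - 1) = (hqKN p s n).map (s - 1) := by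
  rw [Submodule.map_sup]
  have h2 : (hqKD s n).map (s - 1) = ⊥ := by
    rw [eq_bot_iff]
    rintro _ ⟨x, hx, rfl⟩
    exact (Submodule.mem_bot ℤ).mpr (hq_D_eq_zero_of_mem_KD hx)
  rw [h2, bot_sup_eq]


section ranks

variable [Module.Finite ℤ M]

/-- finite-index-type submodules have the same rank -/
theorem hq_finrank_eq_of_smul_mem (B C : Submodule ℤ M) (hBC : B ≤ C) (m : ℕ) (hm : 0 < m)
    (h : ∀ x ∈ C, m • x ∈ B) : finrank ℤ B = finrank ℤ C := by
  set B' : Submodule ℤ C := B.comap C.subtype with hB'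
  have e : B' ≃ₗ[ℤ] B := Submodule.comapSubtypeEquivOfLe hBC
  have h1 := Submodule.finrank_quotient_add_finrank B'
  have h2 : finrank ℤ (C ⧸ B') = 0 := by
    rw [Module.finrank_eq_zero_iff_isTorsion]
    intro x
    induction x using Submodule.Quotient.induction_on with
    | H x =>
      refine ⟨⟨(m : ℤ), mem_nonZeroDivisors_of_ne_zero (by exact_mod_cast hm.ne')⟩, ?_⟩
      change (m : ℤ) • (Submodule.Quotient.mk x : C ⧸ B') = 0
      rw [← Submodule.Quotient.mk_smul (R := ℤ), Submodule.Quotient.mk_eq_zero, hB', Submodule.mem_comap]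
      simpa using h x x.2
  rw [h2, zero_add, e.finrank_eq] at h1
  exact h1

theorem hq_finrank_sup (hp : p.Prime) (hn : 0 < n)
    (htor : ∀ x : M, (∃ k : ℤ, k ≠ 0 ∧ k • x = 0) → n • x = 0) :
    finrank ℤ ↥(hqKD s n ⊔ hqKN p s n) = finrank ℤ (hqKD s n) + finrank ℤ (hqKN p s n) := by
  have h := Submodule.rank_sup_add_rank_inf_eq (hqKD s n) (hqKN p s n)
  have hbot : hqKD s n ⊓ hqKN p s n = ⊥ := by
    rw [eq_bot_iff]
    rintro x ⟨h1, h2⟩
    exact (Submodule.mem_bot ℤ).mpr (hq_KD_KN_disjoint hp hn htor h1 h2)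
  rw [hbot, rank_bot, add_zero, ← Module.finrank_eq_rank, ← Module.finrank_eq_rank,
    ← Module.finrank_eq_rank] at h
  exact_mod_cast h


omit [Module.Finite ℤ M] in
theorem hq_isTorsionFree_of_le_nM (hn : 0 < n)
    (htor : ∀ x : M, (∃ k : ℤ, k ≠ 0 ∧ k • x = 0) → n • x = 0)
    (S : Submodule ℤ M) (hS : S ≤ hqnM M n) : Module.IsTorsionFree ℤ S := by
  refine Module.IsTorsionFree.of_smul_eq_zero fun r x hrx => ?_
  by_cases hr : r = 0
  · exact Or.inl hr
  · right
    have : r • (x : M) = 0 := by rw [← Submodule.coe_smul, hrx]; rfl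
    exact Subtype.ext (hq_nM_torsionfree hn htor (hS x.2) hr this)

theorem hq_relIndex_pKD (hp : p.Prime) (hn : 0 < n)
    (htor : ∀ x : M, (∃ k : ℤ, k ≠ 0 ∧ k • x = 0) → n • x = 0) :
    ((hqKD s n).map ((p : ℤ) • (1 : Module.End ℤ M))).toAddSubgroup.relIndex
      (hqKD s n).toAddSubgroup = p ^ finrank ℤ (hqKD s n) := by
  have : Module.IsTorsionFree ℤ (hqKD s n) :=
    hq_isTorsionFree_of_le_nM hn htor _ inf_le_left
  have hf : ∀ x ∈ hqKD s n, ((p : ℤ) • (1 : Module.End ℤ M)) x ∈ hqKD s n := by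
    intro x hx
    simpa using Submodule.smul_mem _ (p : ℤ) hx
  rw [hq_relIndex_map_eq_index_range _ _ hf]
  have hf' : ((p : ℤ) • (1 : Module.End ℤ M)).restrict hf = (p : ℤ) • (1 : Module.End ℤ (hqKD s n)) := by
    ext x
    simp
  rw [hf']
  have hinj : Function.Injective ((p : ℤ) • (1 : Module.End ℤ (hqKD s n))) := by
    rw [injective_iff_map_eq_zero]
    intro x hx
    have hp0 : (p : ℤ) ≠ 0 := by exact_mod_cast hp.ne_zero
    have h2 : (p : ℤ) • x = 0 := hx
    exact (smul_eq_zero.mp h2).resolve_left hp0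
  rw [hq_index_range _ hinj, LinearMap.det_smul, Module.End.one_eq_id, LinearMap.det_id, mul_one,
    Int.natAbs_pow, Int.natAbs_natCast]

theorem hq_relIndex_DKN (hp : p.Prime) (hs : s ^ p = 1) (hn : 0 < n)
    (htor : ∀ x : M, (∃ k : ℤ, k ≠ 0 ∧ k • x = 0) → n • x = 0) :
    (((hqKN p s n).map (s - 1)).toAddSubgroup.relIndex (hqKN p s n).toAddSubgroup) ^ (p - 1) =
      p ^ finrank ℤ (hqKN p s n) := by
  have : Module.IsTorsionFree ℤ (hqKN p s n) :=
    hq_isTorsionFree_of_le_nM hn htor _ inf_le_left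
  have hf : ∀ x ∈ hqKN p s n, (s - 1) x ∈ hqKN p s n := fun x hx => hq_D_mem_KN hs hx
  rw [hq_relIndex_map_eq_index_range _ _ hf]
  apply hq_index_range_pow p hp
  ext x
  rw [hq_aeval_restrict, hq_N_eq_aeval, hq_N_eq_zero_of_mem_KN x.2]
  rfl

end ranks

end main

section final

variable {M : Type*} [AddCommGroup M] [Module.Finite ℤ M]

/-- **Herbrand quotient of a f.g. abelian group with an automorphism of prime order**,
in index form: with `a₀ = [ker D : im N]`, `a₁ = [ker N : im D]`, `r₀ = rank ker D`, `r = rank M`: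
`a₀^(p-1) * p^(r - r₀) = a₁^(p-1) * p^((p-1) r₀)`, and both indices are finite. -/
theorem hq_cyclic_formula (p : ℕ) (hp : p.Prime) (s : Module.End ℤ M) (hs : s ^ p = 1) :
    hq_a (s - 1).toAddMonoidHom (hqN p s).toAddMonoidHom ⊤ ≠ 0 ∧
    hq_a (hqN p s).toAddMonoidHom (s - 1).toAddMonoidHom ⊤ ≠ 0 ∧
    (hq_a (s - 1).toAddMonoidHom (hqN p s).toAddMonoidHom ⊤) ^ (p - 1) *
        p ^ (finrank ℤ M - finrank ℤ (LinearMap.ker (s - 1))) =
      (hq_a (hqN p s).toAddMonoidHom (s - 1).toAddMonoidHom ⊤) ^ (p - 1) *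
        p ^ ((p - 1) * finrank ℤ (LinearMap.ker (s - 1))) := by
  obtain ⟨n, hn, htor⟩ := hq_exists_torsion_bound (M := M)
  set D : Module.End ℤ M := s - 1 with hD
  set N : Module.End ℤ M := hqN p s with hN
  set A₂ : Submodule ℤ M := hqKD s n ⊔ hqKN p s n with hA₂
  have hDN : ∀ x, D.toAddMonoidHom (N.toAddMonoidHom x) = 0 := fun x =>
    LinearMap.congr_fun (hq_D_mul_N p s hs) x
  have hND : ∀ x, N.toAddMonoidHom (D.toAddMonoidHom x) = 0 := fun x =>
    LinearMap.congr_fun (hq_N_mul_D p s hs) x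
  have hpn : 0 < p * n := Nat.mul_pos hp.pos hn
  have hfin : A₂.toAddSubgroup.relIndex ⊤ ≠ 0 := by
    rw [AddSubgroup.relIndex_top_right]
    exact hq_index_ne_zero_of_smul_le _ (p * n) hpn (fun x => hq_pn_mem hs x)
  -- stability
  have hDA : A₂.toAddSubgroup.map D.toAddMonoidHom ≤ A₂.toAddSubgroup := by
    rintro _ ⟨x, hx, rfl⟩
    obtain ⟨y, hy, z, hz, rfl⟩ := Submodule.mem_sup.mp hx
    change D (y + z) ∈ A₂
    rw [map_add, hq_D_eq_zero_of_mem_KD hy, zero_add]
    exact Submodule.mem_sup_right (hq_D_mem_KN hs hz)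
  have hNA : A₂.toAddSubgroup.map N.toAddMonoidHom ≤ A₂.toAddSubgroup := by
    rintro _ ⟨x, hx, rfl⟩
    obtain ⟨y, hy, z, hz, rfl⟩ := Submodule.mem_sup.mp hx
    change N (y + z) ∈ A₂
    rw [map_add, hq_N_eq_zero_of_mem_KN hz, add_zero, hq_N_eq_smul_of_mem_KD hy]
    exact Submodule.mem_sup_left (Submodule.smul_of_tower_mem _ p hy)
  have hle : A₂.toAddSubgroup ≤ ⊤ := le_top
  have htopD : (⊤ : AddSubgroup M).map D.toAddMonoidHom ≤ ⊤ := le_top
  have htopN : (⊤ : AddSubgroup M).map N.toAddMonoidHom ≤ ⊤ := le_top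
  have L1 := hq_herbrand_finite_index D.toAddMonoidHom N.toAddMonoidHom hDN hND hle hfin
    htopD htopN hDA hNA
  -- the two indices on A₂
  have e0 : hq_a D.toAddMonoidHom N.toAddMonoidHom A₂.toAddSubgroup = p ^ finrank ℤ (hqKD s n) := by
    have hA : A₂.toAddSubgroup.map N.toAddMonoidHom =
        ((hqKD s n).map ((p : ℤ) • (1 : Module.End ℤ M))).toAddSubgroup := by
      rw [← hq_map_N_sup (p := p)]; rfl
    have hB : A₂.toAddSubgroup ⊓ D.toAddMonoidHom.ker = (hqKD s n).toAddSubgroup := by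
      conv_rhs => rw [← hq_sup_inf_kerD (p := p) hp hn htor]
      rfl
    unfold hq_a
    rw [hA, hB]
    exact hq_relIndex_pKD hp hn htor
  have e1 : (hq_a N.toAddMonoidHom D.toAddMonoidHom A₂.toAddSubgroup) ^ (p - 1) =
      p ^ finrank ℤ (hqKN p s n) := by
    have hA : A₂.toAddSubgroup.map D.toAddMonoidHom =
        ((hqKN p s n).map (s - 1)).toAddSubgroup := by
      rw [← hq_map_D_sup (p := p)]; rfl
    have hB : A₂.toAddSubgroup ⊓ N.toAddMonoidHom.ker = (hqKN p s n).toAddSubgroup := by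
      conv_rhs => rw [← hq_sup_inf_kerN (p := p) hp hn htor]
      rfl
    unfold hq_a
    rw [hA, hB]
    exact hq_relIndex_DKN hp hs hn htor
  have hp1 : p - 1 ≠ 0 := by have := hp.two_le; omega
  have e0' : hq_a D.toAddMonoidHom N.toAddMonoidHom A₂.toAddSubgroup ≠ 0 := by
    rw [e0]; exact pow_ne_zero _ hp.ne_zero
  have e1' : hq_a N.toAddMonoidHom D.toAddMonoidHom A₂.toAddSubgroup ≠ 0 := by
    intro h0
    rw [h0, zero_pow hp1] at e1
    exact (pow_ne_zero _ hp.ne_zero) e1.symm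
  have n0 := hq_a_ne_zero_of_sub D.toAddMonoidHom N.toAddMonoidHom hDN hle hfin htopN hNA e0'
  have n1 := hq_a_ne_zero_of_sub N.toAddMonoidHom D.toAddMonoidHom hND hle hfin htopD hDA e1'
  refine ⟨n0, n1, ?_⟩
  -- ranks
  have r1 : finrank ℤ (hqKD s n) = finrank ℤ (LinearMap.ker D) := by
    refine hq_finrank_eq_of_smul_mem _ _ inf_le_right n hn ?_
    intro x hx
    rw [hqKD]
    exact ⟨(mem_hqnM n).mpr ⟨x, rfl⟩, Submodule.smul_of_tower_mem _ n hx⟩
  have r2 : finrank ℤ A₂ = finrank ℤ M := by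
    rw [← finrank_top ℤ M]
    exact hq_finrank_eq_of_smul_mem _ _ le_top (p * n) hpn (fun x _ => hq_pn_mem hs x)
  have r3 := hq_finrank_sup (p := p) (s := s) hp hn htor
  have r4 : finrank ℤ (hqKN p s n) = finrank ℤ M - finrank ℤ (LinearMap.ker D) := by
    rw [← r1, ← r2, r3]; omega
  rw [← r4, ← r1, ← e1, pow_mul', ← e0, ← mul_pow, ← mul_pow, L1, mul_comm]

end final

end Fermat.Agent.S14x
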