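/-
S14 project, SI leaf (C) SI-H90 (helper40): Hilbert's Theorem 90 for the cyclic extension `M/F`
of an `IsUCyc` pair, in the elementwise forms needed by SI-UNITBRIDGE.
Imports the landed AAPI file (for `aa_zpowers_eq_top`, `aa_orderOf`).  prefix `h9_`.
-/
import Fermat.Agent.S14x.Artin

set_option autoImplicit false

namespace Fermat.Agent.S14x

open NumberField IsDedekindDomain

section General

variable {p : ℕ} [Fact p.Prime]
variable {F M : Type} [Field F] [NumberField F] [Field M] [NumberField M] [Algebra F M]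
  [IsGalois F M] {g : M ≃ₐ[F] M}

/-- every element of the Galois group is a power of `g`. -/
theorem h9_mem_zpowers (h : IsUCyc p F M g) (s : M ≃ₐ[F] M) : s ∈ Subgroup.zpowers g := by
  rw [aa_zpowers_eq_top h]; trivial

theorem h9_isCyclic (h : IsUCyc p F M g) : IsCyclic (M ≃ₐ[F] M) :=
  ⟨⟨g, h9_mem_zpowers h⟩⟩

/-- Hilbert 90: an element of relative norm `1` is of the form `z / g z`. -/
theorem h9_hilbert90 (h : IsUCyc p F M g) {y : M} (hy : Algebra.norm F y = 1) :
    ∃ z : M, z ≠ 0 ∧ y = z / g z := by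
  have := h9_isCyclic h
  obtain ⟨z, hz⟩ := groupCohomology.exists_div_of_norm_eq_one (K := F) (L := M) (g := g)
    (h9_mem_zpowers h) hy
  exact ⟨(z : M), z.ne_zero, hz.symm⟩

/-- the relative norm is the product over the powers of `g`. -/
theorem h9_norm_eq_prod (h : IsUCyc p F M g) (y : M) :
    algebraMap F M (Algebra.norm F y) = ∏ i ∈ Finset.range p, (g ^ i) y := by
  classical
  rw [Algebra.norm_eq_prod_automorphisms]
  have hord : orderOf g = p := aa_orderOf h
  have hinj : Set.InjOn (fun i : ℕ => g ^ i) (Finset.range p : Set ℕ) := by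
    intro a ha b hb hab
    simp only [Finset.coe_range, Set.mem_Iio] at ha hb
    exact pow_injOn_Iio_orderOf (by simpa [hord] using ha) (by simpa [hord] using hb) hab
  have himg : (Finset.range p).image (fun i : ℕ => g ^ i) = Finset.univ := by
    apply Finset.eq_univ_of_forall
    intro s
    obtain ⟨e, he⟩ := aa_exists_pow h s
    refine Finset.mem_image.mpr ⟨e.val, ?_, he.symm⟩
    simpa using ZMod.val_lt e
  rw [← himg, Finset.prod_image hinj]

/-- Hilbert 90, product form. -/
theorem h9_hilbert90_prod (h : IsUCyc p F M g) {y : M}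
    (hy : ∏ i ∈ Finset.range p, (g ^ i) y = 1) : ∃ z : M, z ≠ 0 ∧ y = z / g z := by
  apply h9_hilbert90 h
  apply (algebraMap F M).injective
  rw [h9_norm_eq_prod h, hy, map_one]

/-- Hilbert 90 on the unit group `Mˣ`. -/
theorem h9_hilbert90_units (h : IsUCyc p F M g) {y : Mˣ}
    (hy : ∏ i ∈ Finset.range p, Units.map ((g ^ i : M ≃ₐ[F] M) : M →* M) y = 1) :
    ∃ z : Mˣ, y = z / Units.map (g : M →* M) z := by
  have hy' : ∏ i ∈ Finset.range p, (g ^ i) (y : M) = 1 := by
    have := congrArg (Units.val) hy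
    simpa [Units.coe_prod] using this
  obtain ⟨z, hz0, hz⟩ := h9_hilbert90_prod h hy'
  refine ⟨Units.mk0 z hz0, ?_⟩
  ext
  simpa using hz

/-- an element fixed by `g` comes from `F`. -/
theorem h9_fixed (h : IsUCyc p F M g) {y : M} (hy : g y = y) : ∃ x : F, algebraMap F M x = y := by
  have hall : ∀ s : M ≃ₐ[F] M, s y = y := by
    intro s
    obtain ⟨e, rfl⟩ := aa_exists_pow h s
    generalize e.val = n
    induction n with
    | zero => simp
    | succ n ih => rw [pow_succ, AlgEquiv.mul_apply, hy, ih]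
  have hmem : y ∈ (⊥ : IntermediateField F M) := (IsGalois.mem_bot_iff_fixed y).mpr hall
  rcases IntermediateField.mem_bot.mp hmem with ⟨x, hx⟩
  exact ⟨x, hx⟩

end General

end Fermat.Agent.S14x
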