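/-
S14 project, SI-UNITS SHADOW (helper11): Herbrand quotient of the unit group of an everywhere
unramified cyclic extension of prime degree.  All names prefixed `hub_`.
-/
import Fermat.Agent.S14x.Defs
import Fermat.Agent.S14x.HqCyclic
import Fermat.Agent.S14x.Artin
import Fermat.Agent.S14x.SIH90

set_option autoImplicit false
set_option linter.unusedSectionVars false

namespace Fermat.Agent.S14x

open NumberField IsDedekindDomain Module

section Rank

variable {p : ℕ} {F M : Type} [Field F] [NumberField F] [Field M] [NumberField M] [Algebra F M]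
  [IsGalois F M] {g : M ≃ₐ[F] M}

/-- `F` has no real place (it contains a primitive `p`-th root of unity, `p > 2`). -/
theorem hub_nrRealPlaces_F (hp2 : 2 < p) (h : IsUCyc p F M g) :
    InfinitePlace.nrRealPlaces F = 0 := by
  obtain ⟨ζ, hζ⟩ := h.zeta
  exact InfinitePlace.IsPrimitiveRoot.nrRealPlaces_eq_zero_of_two_lt hp2 hζ

/-- `M` has no real place. -/
theorem hub_nrRealPlaces_M (hp2 : 2 < p) (h : IsUCyc p F M g) :
    InfinitePlace.nrRealPlaces M = 0 := by
  obtain ⟨ζ, hζ⟩ := h.zeta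
  exact InfinitePlace.IsPrimitiveRoot.nrRealPlaces_eq_zero_of_two_lt hp2
    (hζ.map_of_injective (algebraMap F M).injective)

/-- the number of infinite places is multiplied by `p`. -/
theorem hub_card_infinitePlace (hp2 : 2 < p) (h : IsUCyc p F M g) :
    Fintype.card (InfinitePlace M) = p * Fintype.card (InfinitePlace F) := by
  have h1 := InfinitePlace.card_add_two_mul_card_eq_rank F
  have h2 := InfinitePlace.card_add_two_mul_card_eq_rank M
  rw [hub_nrRealPlaces_F hp2 h, zero_add] at h1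
  rw [hub_nrRealPlaces_M hp2 h, zero_add] at h2
  have h3 : finrank ℚ F * finrank F M = finrank ℚ M := Module.finrank_mul_finrank ℚ F M
  rw [h.finrank_eq] at h3
  rw [InfinitePlace.card_eq_nrRealPlaces_add_nrComplexPlaces,
    InfinitePlace.card_eq_nrRealPlaces_add_nrComplexPlaces, hub_nrRealPlaces_F hp2 h,
    hub_nrRealPlaces_M hp2 h, zero_add, zero_add]
  have : 2 * InfinitePlace.nrComplexPlaces M = 2 * (p * InfinitePlace.nrComplexPlaces F) := by
    rw [h2, ← h3, ← h1]; ring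
  omega

/-- the rank identity `rank M + 1 = p (rank F + 1)`. -/
theorem hub_rank (hp2 : 2 < p) (h : IsUCyc p F M g) :
    Units.rank M + 1 = p * (Units.rank F + 1) := by
  have hF : 0 < Fintype.card (InfinitePlace F) := Fintype.card_pos
  have hM : 0 < Fintype.card (InfinitePlace M) := Fintype.card_pos
  unfold Units.rank
  rw [Nat.sub_add_cancel hF, Nat.sub_add_cancel hM]
  exact hub_card_infinitePlace hp2 h

end Rank

section Units

variable {p : ℕ} [Fact p.Prime] {F M : Type} [Field F] [NumberField F] [Field M] [NumberField M]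
  [Algebra F M] [IsGalois F M] {g : M ≃ₐ[F] M}

/-- the action of the Galois group on the units of `𝓞 M`. -/
noncomputable def hub_gU (s : M ≃ₐ[F] M) : (𝓞 M)ˣ →* (𝓞 M)ˣ :=
  Units.map (RingOfIntegers.mapRingHom ((s : M →ₐ[F] M) : M →+* M) : 𝓞 M →* 𝓞 M)

@[simp] theorem hub_gU_coe (s : M ≃ₐ[F] M) (η : (𝓞 M)ˣ) :
    (((hub_gU s η : (𝓞 M)ˣ) : 𝓞 M) : M) = s ((η : 𝓞 M) : M) := rfl

/-- `η ↦ s η / η`. -/
noncomputable def hub_dU (s : M ≃ₐ[F] M) : (𝓞 M)ˣ →* (𝓞 M)ˣ := hub_gU s / MonoidHom.id _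

theorem hub_dU_apply (s : M ≃ₐ[F] M) (η : (𝓞 M)ˣ) : hub_dU s η = hub_gU s η / η := rfl

variable (F M) in
/-- the relative norm on units. -/
noncomputable def hub_nU : (𝓞 M)ˣ →* (𝓞 F)ˣ := Units.map (RingOfIntegers.norm F : 𝓞 M →* 𝓞 F)

variable (F M) in
/-- the inclusion of the units of `F`. -/
noncomputable def hub_iU : (𝓞 F)ˣ →* (𝓞 M)ˣ :=
  Units.map (algebraMap (𝓞 F) (𝓞 M) : 𝓞 F →* 𝓞 M)

theorem hub_iU_coe (u : (𝓞 F)ˣ) :
    (((hub_iU F M u : (𝓞 M)ˣ) : 𝓞 M) : M) = algebraMap F M ((u : 𝓞 F) : F) := rfl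

theorem hub_iU_injective : Function.Injective (hub_iU F M) := by
  intro u v huv
  have h1 : (((hub_iU F M u : (𝓞 M)ˣ) : 𝓞 M) : M) = (((hub_iU F M v : (𝓞 M)ˣ) : 𝓞 M) : M) := by
    rw [huv]
  rw [hub_iU_coe, hub_iU_coe] at h1
  exact Units.ext (RingOfIntegers.ext ((algebraMap F M).injective h1))

theorem hub_units_ext {η η' : (𝓞 M)ˣ} (h : ((η : 𝓞 M) : M) = ((η' : 𝓞 M) : M)) : η = η' :=
  Units.ext (RingOfIntegers.ext h)

theorem hub_gU_mul (s t : M ≃ₐ[F] M) (η : (𝓞 M)ˣ) :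
    hub_gU (s * t) η = hub_gU s (hub_gU t η) := hub_units_ext rfl

theorem hub_gU_one (η : (𝓞 M)ˣ) : hub_gU (1 : M ≃ₐ[F] M) η = η := hub_units_ext rfl

theorem hub_gU_pow (s : M ≃ₐ[F] M) (i : ℕ) (η : (𝓞 M)ˣ) :
    hub_gU (s ^ i) η = (hub_gU s)^[i] η := by
  induction i generalizing η with
  | zero => rw [pow_zero, hub_gU_one]; rfl
  | succ i ih => rw [pow_succ', hub_gU_mul, ih, Function.iterate_succ_apply']

/-- fixed units come from `F`. -/
theorem hub_fixed (h : IsUCyc p F M g) (η : (𝓞 M)ˣ) (hη : hub_gU g η = η) :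
    ∃ u : (𝓞 F)ˣ, hub_iU F M u = η := by
  have key : ∀ ε : (𝓞 M)ˣ, hub_gU g ε = ε → ∃ y : 𝓞 F, algebraMap F M (y : F) = ((ε : 𝓞 M) : M) := by
    intro ε hε
    have h1 : g ((ε : 𝓞 M) : M) = ((ε : 𝓞 M) : M) := by
      rw [← hub_gU_coe, hε]
    obtain ⟨x, hx⟩ := h9_fixed h h1
    have hint : IsIntegral ℤ x := by
      have h2 : IsIntegral ℤ (algebraMap F M x) := by
        rw [hx]
        exact (ε : 𝓞 M).2
      exact (isIntegral_algebraMap_iff (algebraMap F M).injective).mp h2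
    exact ⟨⟨x, hint⟩, hx⟩
  obtain ⟨y, hy⟩ := key η hη
  have hη' : hub_gU g η⁻¹ = η⁻¹ := by rw [map_inv, hη]
  obtain ⟨y', hy'⟩ := key η⁻¹ hη'
  have hmul : y * y' = 1 := by
    apply RingOfIntegers.ext
    apply (algebraMap F M).injective
    have e1 : ((y * y' : 𝓞 F) : F) = (y : F) * (y' : F) := rfl
    have e2 : ((1 : 𝓞 F) : F) = 1 := rfl
    have e3 : (((η : 𝓞 M) : M)) * (((η⁻¹ : (𝓞 M)ˣ) : 𝓞 M) : M) = 1 := by
      have : ((η : 𝓞 M)) * ((η⁻¹ : (𝓞 M)ˣ) : 𝓞 M) = 1 := by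
        rw [← Units.val_mul, mul_inv_cancel, Units.val_one]
      have h3 := congrArg (fun z : 𝓞 M => (z : M)) this
      exact h3
    rw [e1, e2, map_mul, hy, hy', e3, map_one]
  have hmul' : y' * y = 1 := by rw [mul_comm, hmul]
  exact ⟨⟨y, y', hmul, hmul'⟩, hub_units_ext hy⟩

theorem hub_gU_iU (s : M ≃ₐ[F] M) (u : (𝓞 F)ˣ) : hub_gU s (hub_iU F M u) = hub_iU F M u := by
  apply hub_units_ext
  rw [hub_gU_coe, hub_iU_coe, AlgEquiv.commutes]

/-- the kernel of `η ↦ g η / η` is the image of the units of `F`. -/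
theorem hub_ker_dU (h : IsUCyc p F M g) : (hub_dU g).ker = (hub_iU F M).range := by
  ext η
  rw [MonoidHom.mem_ker, hub_dU_apply, div_eq_one, MonoidHom.mem_range]
  constructor
  · intro hη
    exact hub_fixed h η hη
  · rintro ⟨u, rfl⟩
    exact hub_gU_iU g u

/-- the absolute norm is the product of the conjugates. -/
theorem hub_iU_nU (h : IsUCyc p F M g) (η : (𝓞 M)ˣ) :
    hub_iU F M (hub_nU F M η) = ∏ i ∈ Finset.range p, hub_gU (g ^ i) η := by
  apply hub_units_ext
  rw [hub_iU_coe]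
  have h1 : (((hub_nU F M η : (𝓞 F)ˣ) : 𝓞 F) : F) = Algebra.norm F ((η : 𝓞 M) : M) := rfl
  rw [h1, h9_norm_eq_prod h]
  have h2 : ∀ (t : Finset ℕ), (((∏ i ∈ t, hub_gU (g ^ i) η : (𝓞 M)ˣ) : 𝓞 M) : M) =
      ∏ i ∈ t, (g ^ i) ((η : 𝓞 M) : M) := by
    intro t
    induction t using Finset.induction_on with
    | empty => simp
    | insert a t ha ih =>
      rw [Finset.prod_insert ha, Finset.prod_insert ha, Units.val_mul]
      have e1 : ∀ a b : 𝓞 M, ((a * b : 𝓞 M) : M) = (a : M) * (b : M) := fun _ _ => rfl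
      rw [e1, ih, hub_gU_coe]
  rw [h2]

end Units

section Main

variable {p : ℕ} [Fact p.Prime] {F M : Type} [Field F] [NumberField F] [Field M] [NumberField M]
  [Algebra F M] [IsGalois F M] {g : M ≃ₐ[F] M}

/-- the `ℤ`-linear endomorphism of `Additive (𝓞 M)ˣ` induced by `s`. -/
noncomputable def hub_s (s : M ≃ₐ[F] M) : Module.End ℤ (Additive (𝓞 M)ˣ) :=
  (MonoidHom.toAdditive (hub_gU s)).toIntLinearMap

theorem hub_s_apply (s : M ≃ₐ[F] M) (η : (𝓞 M)ˣ) :
    hub_s s (Additive.ofMul η) = Additive.ofMul (hub_gU s η) := rfl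

theorem hub_s_pow_apply (s : M ≃ₐ[F] M) (i : ℕ) (η : (𝓞 M)ˣ) :
    (hub_s s ^ i) (Additive.ofMul η) = Additive.ofMul (hub_gU (s ^ i) η) := by
  induction i generalizing η with
  | zero => rw [pow_zero, pow_zero, hub_gU_one]; rfl
  | succ i ih =>
    rw [pow_succ, Module.End.mul_apply, hub_s_apply, ih, pow_succ, hub_gU_mul]

theorem hub_s_pow (h : IsUCyc p F M g) : hub_s g ^ p = 1 := by
  apply LinearMap.ext
  intro x
  obtain ⟨η, rfl⟩ := Additive.ofMul.surjective x
  have hg : g ^ p = 1 := by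
    rw [← aa_orderOf h]
    exact pow_orderOf_eq_one g
  rw [hub_s_pow_apply, hg, hub_gU_one]
  rfl

theorem hub_D_apply (s : M ≃ₐ[F] M) (η : (𝓞 M)ˣ) :
    (hub_s s - 1) (Additive.ofMul η) = Additive.ofMul (hub_dU s η) := by
  rw [LinearMap.sub_apply, hub_s_apply, Module.End.one_apply, hub_dU_apply, ofMul_div]

theorem hub_N_apply (h : IsUCyc p F M g) (η : (𝓞 M)ˣ) :
    hqN p (hub_s g) (Additive.ofMul η) = Additive.ofMul (hub_iU F M (hub_nU F M η)) := by
  rw [hub_iU_nU h, hqN, LinearMap.sum_apply, ofMul_prod]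
  exact Finset.sum_congr rfl fun i _ => hub_s_pow_apply g i η

/-! ### kernels and ranges as subgroups of the units -/

theorem hub_ker_D (s : M ≃ₐ[F] M) :
    ((hub_s s - 1).toAddMonoidHom).ker = Subgroup.toAddSubgroup (hub_dU s).ker := by
  ext x
  obtain ⟨η, rfl⟩ := Additive.ofMul.surjective x
  rw [AddMonoidHom.mem_ker, LinearMap.toAddMonoidHom_coe, hub_D_apply]
  simp [MonoidHom.mem_ker]

theorem hub_range_D (s : M ≃ₐ[F] M) :
    (⊤ : AddSubgroup (Additive (𝓞 M)ˣ)).map ((hub_s s - 1).toAddMonoidHom) =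
      Subgroup.toAddSubgroup (hub_dU s).range := by
  ext x
  obtain ⟨η, rfl⟩ := Additive.ofMul.surjective x
  simp only [AddSubgroup.mem_map, AddSubgroup.mem_top, true_and, LinearMap.toAddMonoidHom_coe]
  constructor
  · rintro ⟨y, hy⟩
    obtain ⟨ε, rfl⟩ := Additive.ofMul.surjective y
    rw [hub_D_apply] at hy
    have : hub_dU s ε = η := Additive.ofMul.injective hy
    simp only [Additive.mem_toAddSubgroup, toMul_ofMul]
    exact ⟨ε, this⟩
  · intro hx
    simp only [Additive.mem_toAddSubgroup, toMul_ofMul] at hx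
    obtain ⟨ε, hε⟩ := hx
    exact ⟨Additive.ofMul ε, by rw [hub_D_apply, hε]⟩

theorem hub_ker_N (h : IsUCyc p F M g) :
    ((hqN p (hub_s g)).toAddMonoidHom).ker = Subgroup.toAddSubgroup (hub_nU F M).ker := by
  ext x
  obtain ⟨η, rfl⟩ := Additive.ofMul.surjective x
  rw [AddMonoidHom.mem_ker, LinearMap.toAddMonoidHom_coe, hub_N_apply h]
  simp only [Additive.mem_toAddSubgroup, toMul_ofMul, MonoidHom.mem_ker]
  constructor
  · intro h0
    have h1 : hub_iU F M (hub_nU F M η) = 1 := Additive.ofMul.injective h0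
    rw [← map_one (hub_iU F M)] at h1
    exact hub_iU_injective h1
  · intro h0
    rw [h0, map_one]
    rfl

theorem hub_range_N (h : IsUCyc p F M g) :
    (⊤ : AddSubgroup (Additive (𝓞 M)ˣ)).map ((hqN p (hub_s g)).toAddMonoidHom) =
      Subgroup.toAddSubgroup ((hub_nU F M).range.map (hub_iU F M)) := by
  ext x
  obtain ⟨η, rfl⟩ := Additive.ofMul.surjective x
  simp only [AddSubgroup.mem_map, AddSubgroup.mem_top, true_and, LinearMap.toAddMonoidHom_coe,
    Additive.mem_toAddSubgroup, toMul_ofMul, Subgroup.mem_map, MonoidHom.mem_range]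
  constructor
  · rintro ⟨y, hy⟩
    obtain ⟨ε, rfl⟩ := Additive.ofMul.surjective y
    rw [hub_N_apply h] at hy
    exact ⟨hub_nU F M ε, ⟨ε, rfl⟩, Additive.ofMul.injective hy⟩
  · rintro ⟨u, ⟨ε, rfl⟩, hε⟩
    exact ⟨Additive.ofMul ε, by rw [hub_N_apply h, hε]⟩

/-- `[ker D : im N] = [E_F : N E_M]`. -/
theorem hub_a0 (h : IsUCyc p F M g) :
    hq_a (hub_s g - 1).toAddMonoidHom (hqN p (hub_s g)).toAddMonoidHom ⊤ =
      (hub_nU F M).range.index := by
  unfold hq_a
  rw [hub_range_N h, top_inf_eq, hub_ker_D, hub_ker_dU h, Subgroup.relIndex_toAddSubgroup,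
    MonoidHom.range_eq_map (hub_iU F M)]
  rw [Subgroup.relIndex_map_map_of_injective _ _ hub_iU_injective, Subgroup.relIndex_top_right]

/-- `[ker N : im D]`. -/
theorem hub_a1 (h : IsUCyc p F M g) :
    hq_a (hqN p (hub_s g)).toAddMonoidHom (hub_s g - 1).toAddMonoidHom ⊤ =
      (hub_dU g).range.relIndex (hub_nU F M).ker := by
  unfold hq_a
  rw [hub_range_D, top_inf_eq, hub_ker_N h, Subgroup.relIndex_toAddSubgroup]

/-- the fixed part has rank `rank F`. -/
theorem hub_finrank_ker (h : IsUCyc p F M g) :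
    finrank ℤ (LinearMap.ker (hub_s g - 1)) = Units.rank F := by
  set ι : Additive (𝓞 F)ˣ →ₗ[ℤ] Additive (𝓞 M)ˣ :=
    (MonoidHom.toAdditive (hub_iU F M)).toIntLinearMap with hι
  have hinj : Function.Injective ι := by
    intro x y hxy
    obtain ⟨u, rfl⟩ := Additive.ofMul.surjective x
    obtain ⟨v, rfl⟩ := Additive.ofMul.surjective y
    have : hub_iU F M u = hub_iU F M v := Additive.ofMul.injective hxy
    rw [hub_iU_injective this]
  have hrange : LinearMap.range ι = LinearMap.ker (hub_s g - 1) := by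
    ext x
    obtain ⟨η, rfl⟩ := Additive.ofMul.surjective x
    rw [LinearMap.mem_range, LinearMap.mem_ker, hub_D_apply]
    have hk := hub_ker_dU (F := F) (M := M) h
    constructor
    · rintro ⟨y, hy⟩
      obtain ⟨u, rfl⟩ := Additive.ofMul.surjective y
      have h1 : hub_iU F M u = η := Additive.ofMul.injective hy
      have h2 : η ∈ (hub_dU g).ker := by rw [hk]; exact ⟨u, h1⟩
      rw [MonoidHom.mem_ker] at h2
      rw [h2]; rfl
    · intro h0
      have h2 : η ∈ (hub_dU g).ker := by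
        rw [MonoidHom.mem_ker]
        exact Additive.ofMul.injective h0
      rw [hk] at h2
      obtain ⟨u, hu⟩ := h2
      exact ⟨Additive.ofMul u, by rw [← hu]; rfl⟩
  rw [← hrange, LinearMap.finrank_range_of_inj hinj, Units.finrank_eq]

/-- **Herbrand quotient of the units**: `[ker N : im (g-1)] = p [E_F : N E_M]`, both finite. -/
theorem hub_units_index (hp : p ≠ 2) (h : IsUCyc p F M g) :
    (hub_nU F M).range.index ≠ 0 ∧
      (hub_dU g).range.relIndex (hub_nU F M).ker = p * (hub_nU F M).range.index := by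
  have hpp : p.Prime := Fact.out
  have hp2 : 2 < p := lt_of_le_of_ne hpp.two_le (Ne.symm hp)
  obtain ⟨h0, h1, hform⟩ := hq_cyclic_formula p hpp (hub_s g) (hub_s_pow h)
  rw [hub_a0 h] at h0 hform
  rw [hub_a1 h] at h1 hform
  rw [hub_finrank_ker h, Units.finrank_eq] at hform
  refine ⟨h0, ?_⟩
  set a0 := (hub_nU F M).range.index with ha0
  set a1 := (hub_dU g).range.relIndex (hub_nU F M).ker with ha1
  set r0 := Units.rank F with hr0
  have hr : Units.rank M + 1 = p * (r0 + 1) := hub_rank hp2 h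
  have hsub : Units.rank M - r0 = (p - 1) * (r0 + 1) := by
    have hp1 : 1 ≤ p := hpp.one_lt.le
    obtain ⟨k, hk⟩ : ∃ k, p = k + 1 := ⟨p - 1, by omega⟩
    subst hk
    have : Units.rank M = (k + 1) * (r0 + 1) - 1 := by omega
    rw [this, Nat.add_sub_cancel]
    have e : (k + 1) * (r0 + 1) = k * (r0 + 1) + r0 + 1 := by ring
    rw [e]
    omega
  rw [hsub] at hform
  -- `(a0 p)^(p-1) p^((p-1) r0) = a1^(p-1) p^((p-1) r0)`
  have hform' : (p * a0) ^ (p - 1) * p ^ ((p - 1) * r0) = a1 ^ (p - 1) * p ^ ((p - 1) * r0) := by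
    rw [← hform, mul_pow]
    have : (p - 1) * (r0 + 1) = (p - 1) + (p - 1) * r0 := by ring
    rw [this, pow_add]
    ring
  have hpos : 0 < p ^ ((p - 1) * r0) := pow_pos hpp.pos _
  have h3 : (p * a0) ^ (p - 1) = a1 ^ (p - 1) := Nat.eq_of_mul_eq_mul_right hpos hform'
  have hne : p - 1 ≠ 0 := by omega
  exact (Nat.pow_left_injective hne h3).symm

end Main

end Fermat.Agent.S14x
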