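import Fermat.Agent.S14x.DvClassFrac

set_option autoImplicit false

namespace Fermat.Agent.S14x

open NumberField IsDedekindDomain
open scoped nonZeroDivisors

section Cl

variable {F : Type*} [Field F] [NumberField F]

/-- the invertible fractional ideal of a divisor -/
noncomputable def dvc_toUnit (D : Dv F) : (FractionalIdeal (𝓞 F)⁰ F)ˣ :=
  Units.mk0 (dvc_toFrac D) (dvc_toFrac_ne_zero D)

@[simp] theorem dvc_toUnit_val (D : Dv F) :
    ((dvc_toUnit D : (FractionalIdeal (𝓞 F)⁰ F)ˣ) : FractionalIdeal (𝓞 F)⁰ F) = dvc_toFrac D := rfl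

theorem dvc_toUnit_zero : dvc_toUnit (0 : Dv F) = 1 :=
  Units.ext (by simp [dvc_toFrac_zero])

theorem dvc_toUnit_add (D E : Dv F) : dvc_toUnit (D + E) = dvc_toUnit D * dvc_toUnit E :=
  Units.ext (by simp [dvc_toFrac_add])

theorem dvc_toUnit_bijective : Function.Bijective (dvc_toUnit (F := F)) := by
  constructor
  · intro D E h
    exact dvc_toFrac_injective (congrArg Units.val h)
  · intro I
    exact ⟨dvc_ofFrac (I : FractionalIdeal (𝓞 F)⁰ F), Units.ext (dvc_toFrac_ofFrac I.ne_zero)⟩

variable (F)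

/-- the ideal class of a divisor, additively -/
noncomputable def dvc_class : Dv F →+ Additive (ClassGroup (𝓞 F)) where
  toFun D := Additive.ofMul (ClassGroup.mk F (dvc_toUnit D))
  map_zero' := by
    rw [dvc_toUnit_zero, map_one]
    rfl
  map_add' D E := by
    rw [dvc_toUnit_add, map_mul]
    rfl

variable {F}

theorem dvc_class_eq_zero_iff (D : Dv F) : dvc_class F D = 0 ↔ D ∈ dvc_principal F := by
  have h1 : dvc_class F D = 0 ↔ ClassGroup.mk F (dvc_toUnit D) = 1 := Iff.rfl
  rw [h1, ClassGroup.mk_eq_one_iff, dvc_mem_principal_iff]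
  constructor
  · intro h
    obtain ⟨x, hx⟩ := h.principal
    have hx' : dvc_toFrac D = FractionalIdeal.spanSingleton (𝓞 F)⁰ x := by
      apply Subtype.coe_injective
      simp only [FractionalIdeal.val_eq_coe, FractionalIdeal.coe_spanSingleton]
      exact hx
    have hx0 : x ≠ 0 := by
      rintro rfl
      rw [FractionalIdeal.spanSingleton_zero] at hx'
      exact dvc_toFrac_ne_zero D hx'
    refine ⟨x, hx0, dvc_toFrac_injective ?_⟩
    rw [hx', dvc_toFrac_divOf hx0]
  · rintro ⟨x, hx, rfl⟩
    refine ⟨⟨x, ?_⟩⟩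
    rw [dvc_toUnit_val, dvc_toFrac_divOf hx, FractionalIdeal.coe_spanSingleton]

theorem dvc_ker_class : (dvc_class F).ker = dvc_principal F := by
  ext D
  rw [AddMonoidHom.mem_ker, dvc_class_eq_zero_iff]

theorem dvc_class_surjective : Function.Surjective (dvc_class F) := by
  intro c
  obtain ⟨I, hI⟩ := ClassGroup.mk0_surjective (Additive.toMul c)
  obtain ⟨D, hD⟩ := dvc_toUnit_bijective.2 (FractionalIdeal.mk0 F I)
  refine ⟨D, ?_⟩
  show Additive.ofMul (ClassGroup.mk F (dvc_toUnit D)) = c
  rw [hD, ClassGroup.mk_mk0, hI]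
  rfl

/-- **SI-FIN**: the divisor class group `Dv F / P_F` is finite. -/
instance dvc_finite_quot_principal : Finite (Dv F ⧸ dvc_principal F) := by
  rw [← dvc_ker_class]
  exact Finite.of_injective _ (QuotientAddGroup.kerLift_injective (dvc_class F))

theorem dvc_principal_finiteIndex : (dvc_principal F).FiniteIndex :=
  AddSubgroup.finiteIndex_of_finite_quotient

theorem dvc_principal_index_ne_zero : (dvc_principal F).index ≠ 0 :=
  (dvc_principal_finiteIndex (F := F)).index_ne_zero

/-- the same statement with the closure spelled out (shape requested by SI). -/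
theorem dvc_closure_index_ne_zero :
    (AddSubgroup.closure {D : Dv F | ∃ x : F, x ≠ 0 ∧ D = divOf x}).index ≠ 0 :=
  dvc_principal_index_ne_zero (F := F)

end Cl

end Fermat.Agent.S14x
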