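/-
S14 project, module SI-CORE (helper48): the abstract counting argument behind the algebraic
norm-index inequality.  Mathlib-only.  Prefix `hq_`.

`IF`, `IM` abstract "divisor groups" of `F` and `M`, `PF`, `PM` the principal divisors,
`ext : IF →+ IM`, `nm : IM →+ IF`, `act : IM →+ IM` (a generator of the Galois group).
If `p * [PM ∩ ker nm : (act - 1) PM] ≤ [ext⁻¹ PM : PF]` then `p ≤ [IF : PF + nm IM]`.
-/
import Mathlib

set_option autoImplicit false

namespace Fermat.Agent.S14x

open AddSubgroup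

section Finite

variable {G : Type*} [AddCommGroup G]

/-- If `P ≤ A` and `P` has finite index then every `relIndex` of `A` is nonzero. -/
theorem hq_relIndex_ne_zero_of_le {P A : AddSubgroup G} (hP : P.index ≠ 0) (h : P ≤ A)
    (B : AddSubgroup G) : A.relIndex B ≠ 0 := by
  have hA : A.index ≠ 0 := fun h0 => hP (by
    have := AddSubgroup.index_dvd_of_le h
    rw [h0] at this
    exact eq_zero_of_zero_dvd this)
  intro h0
  have := AddSubgroup.relIndex_dvd_index_of_normal A B
  rw [h0] at this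
  exact hA (eq_zero_of_zero_dvd this)

/-- **The Herbrand quotient of a finite module is `1`**, in `relIndex` form: for a subgroup `P`
of finite index in `G`, stable under two endomorphisms `D`, `N` with `D N = N D = 0`,
`[D⁻¹ P : N G + P] = [N⁻¹ P : D G + P]`. -/
theorem hq_finite_quot (D N : G →+ G) (hDN : ∀ x, D (N x) = 0) (hND : ∀ x, N (D x) = 0)
    (P : AddSubgroup G) (hP : P.index ≠ 0) (hD : P ≤ P.comap D) (hN : P ≤ P.comap N) :
    (N.range ⊔ P).relIndex (P.comap D) = (D.range ⊔ P).relIndex (P.comap N) ∧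
      (N.range ⊔ P).relIndex (P.comap D) ≠ 0 := by
  have key : ∀ (D N : G →+ G), (∀ x, D (N x) = 0) → P ≤ P.comap D →
      P.index = P.relIndex (N.range ⊔ P) * (N.range ⊔ P).relIndex (P.comap D) *
        P.relIndex (D.range ⊔ P) := by
    intro D N hDN hD
    have h1 : P ≤ N.range ⊔ P := le_sup_right
    have h2 : N.range ⊔ P ≤ P.comap D := by
      refine sup_le ?_ hD
      rintro _ ⟨x, rfl⟩
      simp only [AddSubgroup.mem_comap, hDN]
      exact P.zero_mem
    rw [AddSubgroup.relIndex_mul_relIndex _ _ _ h1 h2, AddSubgroup.relIndex_sup_right,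
      ← AddSubgroup.index_comap, AddSubgroup.relIndex_mul_index hD]
  have e1 := key D N hDN hD
  have e2 := key N D hND hN
  have hne : (N.range ⊔ P).relIndex (P.comap D) ≠ 0 :=
    hq_relIndex_ne_zero_of_le hP le_sup_right _
  refine ⟨?_, hne⟩
  have ha : P.relIndex (N.range ⊔ P) ≠ 0 := hq_relIndex_ne_zero_of_le hP le_rfl _
  have hb : P.relIndex (D.range ⊔ P) ≠ 0 := hq_relIndex_ne_zero_of_le hP le_rfl _
  have : P.relIndex (N.range ⊔ P) * P.relIndex (D.range ⊔ P) *
      (N.range ⊔ P).relIndex (P.comap D) =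
      P.relIndex (N.range ⊔ P) * P.relIndex (D.range ⊔ P) *
      (D.range ⊔ P).relIndex (P.comap N) := by
    calc _ = P.index := by rw [e1]; ring
      _ = _ := by rw [e2]; ring
  exact Nat.eq_of_mul_eq_mul_left (Nat.pos_of_ne_zero (mul_ne_zero ha hb)) this

end Finite

section Core

variable {IF IM : Type*} [AddCommGroup IF] [AddCommGroup IM]

/-- **SI-CORE**: the abstract counting argument. -/
theorem hq_core (p : ℕ) (PF : AddSubgroup IF) (PM : AddSubgroup IM)
    (ext : IF →+ IM) (nm : IM →+ IF) (act : IM →+ IM)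
    (h_nm_act : ∀ D, nm (act D) = nm D)
    (h_act_ext : ∀ D, act (ext D) = ext D)
    (h_inv : ∀ D, act D = D → D ∈ ext.range)
    (h_extP : PF ≤ PM.comap ext) (h_nmP : PM ≤ PF.comap nm) (h_actP : PM ≤ PM.comap act)
    (hPM : PM.index ≠ 0)
    (hc2 : (PM.map (act - AddMonoidHom.id IM)).relIndex (PM ⊓ nm.ker) ≠ 0)
    (hc : p * (PM.map (act - AddMonoidHom.id IM)).relIndex (PM ⊓ nm.ker) ≤
      PF.relIndex (PM.comap ext)) :
    p ≤ (PF ⊔ nm.range).index := by
  set D : IM →+ IM := act - AddMonoidHom.id IM with hDdef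
  set N : IM →+ IM := ext.comp nm with hNdef
  have hDapp : ∀ x, D x = act x - x := fun x => by simp [hDdef]
  have hNapp : ∀ x, N x = ext (nm x) := fun x => rfl
  have hDN : ∀ x, D (N x) = 0 := fun x => by rw [hDapp, hNapp, h_act_ext, sub_self]
  have hND : ∀ x, N (D x) = 0 := fun x => by
    rw [hDapp, hNapp, map_sub, h_nm_act, sub_self, map_zero]
  have hDP : PM ≤ PM.comap D := fun x hx => by
    simp only [AddSubgroup.mem_comap, hDapp]
    exact PM.sub_mem (h_actP hx) hx
  have hNP : PM ≤ PM.comap N := fun x hx => h_extP (h_nmP hx)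
  obtain ⟨hη, hη0⟩ := hq_finite_quot D N hDN hND PM hPM hDP hNP
  set K : AddSubgroup IF := PM.comap ext with hK
  set T : AddSubgroup IF := PF ⊔ nm.range with hT
  set X : AddSubgroup IM := PM.comap D with hX
  set Y : AddSubgroup IM := PM.comap N with hY
  set S : AddSubgroup IM := N.range ⊔ PM with hS
  set R : AddSubgroup IM := D.range ⊔ PM with hR
  set W : AddSubgroup IM := ext.range ⊔ PM with hW
  set c1 := PF.relIndex K with hc1
  set c2 := (PM.map D).relIndex (PM ⊓ nm.ker) with hc2def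
  set η0 := S.relIndex X with hη0def
  set η1 := R.relIndex Y with hη1def
  -- Step 1 : c1 ≤ η1 * [K : K ⊓ T]
  have hPFK : PF ≤ K := h_extP
  have hKT : K ⊓ T = PF ⊔ Y.map nm := by
    apply le_antisymm
    · rintro t ⟨ht1, ht2⟩
      obtain ⟨π, hπ, y, ⟨d, rfl⟩, rfl⟩ := AddSubgroup.mem_sup.mp ht2
      refine AddSubgroup.mem_sup.mpr ⟨π, hπ, nm d, ⟨d, ?_, rfl⟩, rfl⟩
      have h1 : ext (π + nm d) ∈ PM := ht1
      have h2 : ext π ∈ PM := h_extP hπ
      have h3 : ext (nm d) = ext (π + nm d) - ext π := by rw [map_add]; abel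
      show N d ∈ PM
      rw [hNapp, h3]
      exact PM.sub_mem h1 h2
    · refine sup_le (le_inf hPFK le_sup_left) ?_
      rintro _ ⟨d, hd, rfl⟩
      exact ⟨hd, AddSubgroup.mem_sup_right ⟨d, rfl⟩⟩
  have hRle : R ≤ PF.comap nm := by
    refine sup_le ?_ h_nmP
    rintro _ ⟨x, rfl⟩
    simp only [AddSubgroup.mem_comap, hDapp, map_sub, h_nm_act, sub_self]
    exact PF.zero_mem
  have hη1 : η1 ≠ 0 := hη ▸ hη0
  have step1a : PF.relIndex (K ⊓ T) ≤ η1 := by
    rw [hKT, AddSubgroup.relIndex_sup_left, ← AddSubgroup.relIndex_comap]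
    exact AddSubgroup.relIndex_le_of_le_left hRle hη1
  have step1 : c1 ≤ η1 * (K ⊓ T).relIndex K := by
    have hle1 : PF ≤ K ⊓ T := le_inf hPFK le_sup_left
    rw [hc1, ← AddSubgroup.relIndex_mul_relIndex PF (K ⊓ T) K hle1 inf_le_left]
    exact Nat.mul_le_mul_right _ step1a
  -- Step 2 : h = [K : K ⊓ T] * [IF : K ⊔ T]
  have step2 : T.index = (K ⊓ T).relIndex K * (K ⊔ T).index := by
    rw [← AddSubgroup.relIndex_mul_index (le_sup_right : T ≤ K ⊔ T),
      AddSubgroup.relIndex_sup_right, inf_comm, AddSubgroup.inf_relIndex_right]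
  -- Step 3 : [IF : K ⊔ T] = [ext IF + S : S]
  have hcomap : S.comap ext = K ⊔ T := by
    apply le_antisymm
    · intro t ht
      obtain ⟨n, ⟨d, rfl⟩, π, hπ, hsum⟩ := AddSubgroup.mem_sup.mp ht
      have h1 : t - nm d ∈ K := by
        show ext (t - nm d) ∈ PM
        have : ext (t - nm d) = π := by
          rw [map_sub, ← hsum, hNapp]; abel
        rw [this]; exact hπ
      have h2 : nm d ∈ T := AddSubgroup.mem_sup_right ⟨d, rfl⟩
      have : t = (t - nm d) + nm d := by abel
      rw [this]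
      exact (K ⊔ T).add_mem (AddSubgroup.mem_sup_left h1) (AddSubgroup.mem_sup_right h2)
    · refine sup_le ?_ (sup_le ?_ ?_)
      · intro k hk
        exact AddSubgroup.mem_sup_right hk
      · intro π hπ
        exact AddSubgroup.mem_sup_right (h_extP hπ)
      · rintro _ ⟨d, rfl⟩
        exact AddSubgroup.mem_sup_left ⟨d, rfl⟩
  have step3 : (K ⊔ T).index = S.relIndex ext.range := by
    rw [← hcomap, AddSubgroup.index_comap]
  have hSW : S ≤ W := by
    refine sup_le_sup_right ?_ _
    rintro _ ⟨d, rfl⟩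
    exact ⟨nm d, rfl⟩
  have hWX : W ≤ X := by
    refine sup_le ?_ hDP
    rintro _ ⟨t, rfl⟩
    simp only [hX, AddSubgroup.mem_comap, hDapp, h_act_ext, sub_self]
    exact PM.zero_mem
  have hWeq : W = ext.range ⊔ S := by
    apply le_antisymm
    · exact sup_le le_sup_left (le_trans le_sup_right le_sup_right)
    · exact sup_le le_sup_left hSW
  have step3b : η0 = S.relIndex ext.range * W.relIndex X := by
    rw [hη0def, ← AddSubgroup.relIndex_mul_relIndex S W X hSW hWX, hWeq,
      AddSubgroup.relIndex_sup_right]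
  -- Step 4 : [X : W] ≤ c2
  have step4 : W.relIndex X ≤ c2 := by
    have hV : (PM.map D).comap D ≤ W := by
      intro x hx
      obtain ⟨π, hπ, hπx⟩ := hx
      have h1 : act (x - π) = x - π := by
        have : D (x - π) = 0 := by rw [map_sub, hπx, sub_self]
        rw [hDapp] at this
        exact sub_eq_zero.mp this
      have h2 : x - π ∈ ext.range := h_inv _ h1
      have : x = (x - π) + π := by abel
      rw [this]
      exact W.add_mem (AddSubgroup.mem_sup_left h2) (AddSubgroup.mem_sup_right hπ)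
    have hPV : PM ≤ (PM.map D).comap D := fun x hx => ⟨x, hx, rfl⟩
    have hne : ((PM.map D).comap D).relIndex X ≠ 0 := hq_relIndex_ne_zero_of_le hPM hPV _
    refine le_trans (AddSubgroup.relIndex_le_of_le_left hV hne) ?_
    rw [AddSubgroup.relIndex_comap]
    refine AddSubgroup.relIndex_le_of_le_right ?_ hc2
    rintro _ ⟨x, hx, rfl⟩
    refine ⟨hx, ?_⟩
    show D x ∈ nm.ker
    rw [AddMonoidHom.mem_ker, hDapp, map_sub, h_nm_act, sub_self]
  -- Step 5 : combine
  have hc' : p * c2 ≤ c1 := hc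
  have hc2' : c2 ≠ 0 := hc2
  set a := (K ⊓ T).relIndex K with ha
  set b := (K ⊔ T).index with hb
  set w := W.relIndex X with hw
  have hη' : η0 = η1 := hη
  have h5 : p * (c2 * η0) ≤ T.index * (c2 * η0) := by
    calc p * (c2 * η0) = (p * c2) * η0 := by ring
      _ ≤ c1 * η0 := Nat.mul_le_mul_right _ hc'
      _ ≤ (η1 * a) * η0 := Nat.mul_le_mul_right _ step1
      _ = (η1 * a) * (b * w) := by rw [step3b, ← step3]
      _ ≤ (η1 * a) * (b * c2) := Nat.mul_le_mul_left _ (Nat.mul_le_mul_left _ step4)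
      _ = (a * b) * (c2 * η1) := by ring
      _ = T.index * (c2 * η0) := by rw [step2, hη']
  exact Nat.le_of_mul_le_mul_right h5 (Nat.pos_of_ne_zero (mul_ne_zero hc2' hη0))

/-- corollary: the "norm group" is a proper subgroup. -/
theorem hq_core_ne_top (p : ℕ) (hp : 2 ≤ p) (PF : AddSubgroup IF) (PM : AddSubgroup IM)
    (ext : IF →+ IM) (nm : IM →+ IF) (act : IM →+ IM)
    (h_nm_act : ∀ D, nm (act D) = nm D)
    (h_act_ext : ∀ D, act (ext D) = ext D)
    (h_inv : ∀ D, act D = D → D ∈ ext.range)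
    (h_extP : PF ≤ PM.comap ext) (h_nmP : PM ≤ PF.comap nm) (h_actP : PM ≤ PM.comap act)
    (hPM : PM.index ≠ 0)
    (hc2 : (PM.map (act - AddMonoidHom.id IM)).relIndex (PM ⊓ nm.ker) ≠ 0)
    (hc : p * (PM.map (act - AddMonoidHom.id IM)).relIndex (PM ⊓ nm.ker) ≤
      PF.relIndex (PM.comap ext)) :
    PF ⊔ nm.range ≠ ⊤ := by
  intro htop
  have := hq_core p PF PM ext nm act h_nm_act h_act_ext h_inv h_extP h_nmP h_actP hPM hc2 hc
  rw [htop, AddSubgroup.index_top] at this
  omega

end Core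

end Fermat.Agent.S14x
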