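/-
S14 / SI-DIV (helper38): the divisor side of the algebraic norm-index inequality.
Galois action on the finite primes `Pl M` and divisors `Dv M` of `M`, extension of divisors
`Dv F → Dv M`, equivariance of `divOf`, invariants, and the elementary facts about `dvNorm`
needed by SI-UNITBRIDGE / SI-ASM.   Prefix `sd_`.  Imports Mathlib + S14x.Defs only.
-/
import Mathlib
import Fermat.Agent.S14x.Defs

set_option autoImplicit false
set_option linter.unusedSectionVars false

namespace Fermat.Agent.S14x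

open NumberField IsDedekindDomain
open scoped Pointwise

section Action

variable {F M : Type*} [Field F] [NumberField F] [Field M] [NumberField M] [Algebra F M]

omit [NumberField F] [NumberField M] in
theorem sd_smul_ne_bot (s : M ≃ₐ[F] M) {I : Ideal (𝓞 M)} (hI : I ≠ ⊥) : s • I ≠ ⊥ := by
  intro h
  apply hI
  have h2 : s⁻¹ • (s • I) = s⁻¹ • (⊥ : Ideal (𝓞 M)) := by rw [h]
  rw [inv_smul_smul] at h2
  rw [h2]
  exact Ideal.smul_bot s⁻¹

/-- the action of `s ∈ Gal(M/F)` on the finite primes of `M`. -/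
noncomputable def sd_plSmul (s : M ≃ₐ[F] M) (w : Pl M) : Pl M :=
  ⟨s • w.asIdeal, inferInstance, sd_smul_ne_bot s w.ne_bot⟩

@[simp] theorem sd_plSmul_asIdeal (s : M ≃ₐ[F] M) (w : Pl M) :
    (sd_plSmul s w).asIdeal = s • w.asIdeal := rfl

@[simp] theorem sd_plSmul_one (w : Pl M) : sd_plSmul (1 : M ≃ₐ[F] M) w = w :=
  HeightOneSpectrum.ext (one_smul _ _)

theorem sd_plSmul_mul (s t : M ≃ₐ[F] M) (w : Pl M) :
    sd_plSmul (s * t) w = sd_plSmul s (sd_plSmul t w) :=
  HeightOneSpectrum.ext (mul_smul _ _ _)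

@[simp] theorem sd_plSmul_inv_smul (s : M ≃ₐ[F] M) (w : Pl M) :
    sd_plSmul s⁻¹ (sd_plSmul s w) = w := by
  rw [← sd_plSmul_mul, inv_mul_cancel, sd_plSmul_one]

@[simp] theorem sd_plSmul_smul_inv (s : M ≃ₐ[F] M) (w : Pl M) :
    sd_plSmul s (sd_plSmul s⁻¹ w) = w := by
  rw [← sd_plSmul_mul, mul_inv_cancel, sd_plSmul_one]

/-- `sd_plSmul s` as a permutation of `Pl M`. -/
noncomputable def sd_plEquiv (s : M ≃ₐ[F] M) : Pl M ≃ Pl M where
  toFun := sd_plSmul s
  invFun := sd_plSmul s⁻¹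
  left_inv := sd_plSmul_inv_smul s
  right_inv := sd_plSmul_smul_inv s

@[simp] theorem sd_plEquiv_apply (s : M ≃ₐ[F] M) (w : Pl M) : sd_plEquiv s w = sd_plSmul s w := rfl

@[simp] theorem sd_plEquiv_symm_apply (s : M ≃ₐ[F] M) (w : Pl M) :
    (sd_plEquiv s).symm w = sd_plSmul s⁻¹ w := rfl

/-- the action of `s ∈ Gal(M/F)` on divisors of `M`. -/
noncomputable def sd_dvSmul (s : M ≃ₐ[F] M) : Dv M ≃+ Dv M := Finsupp.domCongr (sd_plEquiv s)

theorem sd_dvSmul_apply (s : M ≃ₐ[F] M) (D : Dv M) (w : Pl M) :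
    sd_dvSmul s D w = D (sd_plSmul s⁻¹ w) := by
  simp [sd_dvSmul, Finsupp.domCongr_apply, Finsupp.equivMapDomain_apply]

@[simp] theorem sd_dvSmul_single (s : M ≃ₐ[F] M) (w : Pl M) (n : ℤ) :
    sd_dvSmul s (Finsupp.single w n) = Finsupp.single (sd_plSmul s w) n := by
  simp [sd_dvSmul, Finsupp.domCongr_apply, Finsupp.equivMapDomain_single]

@[simp] theorem sd_dvSmul_one (D : Dv M) : sd_dvSmul (1 : M ≃ₐ[F] M) D = D := by
  ext w
  simp [sd_dvSmul_apply]

theorem sd_dvSmul_mul (s t : M ≃ₐ[F] M) (D : Dv M) :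
    sd_dvSmul (s * t) D = sd_dvSmul s (sd_dvSmul t D) := by
  ext w
  simp [sd_dvSmul_apply, mul_inv_rev, sd_plSmul_mul]

theorem sd_dvSmul_pow (s : M ≃ₐ[F] M) (n : ℕ) (D : Dv M) :
    sd_dvSmul (s ^ n) D = (sd_dvSmul s)^[n] D := by
  induction n with
  | zero => simp
  | succ n ih => rw [pow_succ', sd_dvSmul_mul, ih, Function.iterate_succ_apply']

/-- the prime below is unchanged by the Galois action. -/
theorem sd_plUnder_plSmul [IsGalois F M] (s : M ≃ₐ[F] M) (w : Pl M) :
    plUnder F M (sd_plSmul s w) = plUnder F M w :=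
  HeightOneSpectrum.ext (Ideal.under_smul (𝓞 F) w.asIdeal s)

theorem sd_intValuation_smul (s : M ≃ₐ[F] M) (w : Pl M) (a : 𝓞 M) :
    (sd_plSmul s w).intValuation (s • a) = w.intValuation a := by
  by_cases ha : a = 0
  · subst ha
    simp
  have hsa : s • a ≠ 0 := by
    intro h
    apply ha
    have : s⁻¹ • (s • a) = s⁻¹ • (0 : 𝓞 M) := by rw [h]
    rwa [inv_smul_smul, smul_zero] at this
  have key : ∀ n : ℕ, (s • a ∈ (sd_plSmul s w).asIdeal ^ n ↔ a ∈ w.asIdeal ^ n) := by
    intro n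
    rw [sd_plSmul_asIdeal, ← smul_pow', Ideal.smul_mem_pointwise_smul_iff]
  apply le_antisymm
  · rw [HeightOneSpectrum.intValuation_eq_exp_neg_multiplicity w ha,
      HeightOneSpectrum.intValuation_le_pow_iff_mem, key,
      ← HeightOneSpectrum.intValuation_le_pow_iff_mem,
      HeightOneSpectrum.intValuation_eq_exp_neg_multiplicity w ha]
  · rw [HeightOneSpectrum.intValuation_eq_exp_neg_multiplicity (sd_plSmul s w) hsa,
      HeightOneSpectrum.intValuation_le_pow_iff_mem, ← key,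
      ← HeightOneSpectrum.intValuation_le_pow_iff_mem,
      HeightOneSpectrum.intValuation_eq_exp_neg_multiplicity (sd_plSmul s w) hsa]

theorem sd_valuation_smul (s : M ≃ₐ[F] M) (w : Pl M) (x : M) :
    (sd_plSmul s w).valuation M (s x) = w.valuation M x := by
  obtain ⟨a, b, hb, rfl⟩ := IsFractionRing.div_surjective (A := 𝓞 M) x
  have h1 : ∀ c : 𝓞 M, s (algebraMap (𝓞 M) M c) = algebraMap (𝓞 M) M (s • c) := fun c => rfl
  rw [map_div₀, map_div₀, map_div₀, h1, h1, HeightOneSpectrum.valuation_of_algebraMap,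
    HeightOneSpectrum.valuation_of_algebraMap, HeightOneSpectrum.valuation_of_algebraMap,
    HeightOneSpectrum.valuation_of_algebraMap, sd_intValuation_smul, sd_intValuation_smul]

theorem sd_ordAt_smul (s : M ≃ₐ[F] M) (w : Pl M) (x : M) :
    ordAt (sd_plSmul s w) (s x) = ordAt w x := by
  unfold ordAt
  rw [sd_valuation_smul]

/-- `divOf` is Galois-equivariant. -/
theorem sd_divOf_smul (s : M ≃ₐ[F] M) (x : M) : divOf (s x) = sd_dvSmul s (divOf x) := by
  ext w
  rw [sd_dvSmul_apply, divOf_apply, divOf_apply]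
  conv_lhs => rw [← sd_plSmul_smul_inv s w]
  rw [sd_ordAt_smul]

end Action

end Fermat.Agent.S14x
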