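/-
S14 / SI-DIV part 2 (helper38): extension of divisors `Dv F → Dv M`, invariants of the Galois
action for an unramified cyclic extension, units = divisor zero, `dvNorm` facts.
Prefix `sd_`.  Imports Mathlib + S14x.Defs + S14x.SIDiv only.
-/
import Mathlib
import Fermat.Agent.S14x.Defs
import Fermat.Agent.S14x.SIDiv

set_option autoImplicit false
set_option linter.unusedSectionVars false

namespace Fermat.Agent.S14x

open NumberField IsDedekindDomain
open scoped Pointwise

section Ext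

variable {F M : Type*} [Field F] [NumberField F] [Field M] [NumberField M] [Algebra F M]

theorem sd_plUnder_eq_iff (w : Pl M) (v : Pl F) : plUnder F M w = v ↔ PlOver F M w v := by
  constructor
  · intro h
    rw [← h]
    rfl
  · intro h
    exact HeightOneSpectrum.ext h

theorem sd_plUnder_plAbove (v : Pl F) : plUnder F M (plAbove F M v) = v :=
  (sd_plUnder_eq_iff _ _).mpr (plAbove_over F M v)

theorem sd_fibre_finite (v : Pl F) : {w : Pl M | plUnder F M w = v}.Finite := by
  have hfin : (v.asIdeal.primesOver (𝓞 M)).Finite :=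
    Algebra.QuasiFinite.finite_primesOver v.asIdeal
  have hinj : Set.InjOn (fun w : Pl M => w.asIdeal)
      ((fun w : Pl M => w.asIdeal) ⁻¹' (v.asIdeal.primesOver (𝓞 M))) :=
    fun a _ b _ hab => HeightOneSpectrum.ext hab
  refine (hfin.preimage hinj).subset ?_
  intro w hw
  have hw' : PlOver F M w v := (sd_plUnder_eq_iff w v).mp hw
  exact ⟨w.isPrime, ⟨hw'.symm⟩⟩

theorem sd_dvExt_support_finite (D : Dv F) :
    (Function.support fun w : Pl M =>
      (Ideal.ramificationIdx w.asIdeal (𝓞 F) : ℤ) * D (plUnder F M w)).Finite := by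
  have hfin : (⋃ v ∈ (D.support : Set (Pl F)), {w : Pl M | plUnder F M w = v}).Finite :=
    Set.Finite.biUnion D.support.finite_toSet (fun v _ => sd_fibre_finite v)
  refine hfin.subset ?_
  intro w hw
  simp only [Function.mem_support, ne_eq, mul_eq_zero, not_or] at hw
  simp only [Set.mem_iUnion, Set.mem_ofPred_eq, exists_prop]
  exact ⟨plUnder F M w, Finsupp.mem_support_iff.mpr hw.2, rfl⟩

/-- extension of divisors `v ↦ ∑_{w | v} e(w|v) w`, defined pointwise. -/
noncomputable def sd_dvExt : Dv F →+ Dv M where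
  toFun D := Finsupp.ofSupportFinite
    (fun w : Pl M => (Ideal.ramificationIdx w.asIdeal (𝓞 F) : ℤ) * D (plUnder F M w))
    (sd_dvExt_support_finite D)
  map_zero' := by
    ext w
    simp [Finsupp.ofSupportFinite_coe]
  map_add' D E := by
    ext w
    simp [Finsupp.ofSupportFinite_coe, mul_add]

theorem sd_dvExt_apply (D : Dv F) (w : Pl M) :
    sd_dvExt (F := F) (M := M) D w =
      (Ideal.ramificationIdx w.asIdeal (𝓞 F) : ℤ) * D (plUnder F M w) := rfl

theorem sd_ramificationIdx_pos (w : Pl M) : 0 < Ideal.ramificationIdx w.asIdeal (𝓞 F) :=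
  Ideal.ramificationIdx_pos w.asIdeal (𝓞 F)

theorem sd_ordAt_algebraMap (w : Pl M) (x : F) :
    ordAt w (algebraMap F M x) =
      (Ideal.ramificationIdx w.asIdeal (𝓞 F) : ℤ) * ordAt (plUnder F M w) x := by
  have hlo : w.asIdeal.LiesOver (plUnder F M w).asIdeal := ⟨rfl⟩
  have h1 := HeightOneSpectrum.valuation_liesOver (K := F) M (plUnder F M w) w x
  have h2 : (plUnder F M w).asIdeal.ramificationIdx' w.asIdeal =
      Ideal.ramificationIdx w.asIdeal (𝓞 F) :=
    Ideal.ramificationIdx'_eq_ramificationIdx (plUnder F M w).asIdeal w.asIdeal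
      (plUnder F M w).ne_bot
  unfold ordAt
  rw [← h1, WithZero.log_pow, h2]
  simp

theorem sd_dvExt_divOf (x : F) : sd_dvExt (M := M) (divOf x) = divOf (algebraMap F M x) := by
  ext w
  rw [sd_dvExt_apply, divOf_apply, divOf_apply, sd_ordAt_algebraMap]

theorem sd_dvExt_injective : Function.Injective (sd_dvExt (F := F) (M := M)) := by
  rw [injective_iff_map_eq_zero]
  intro D hD
  ext v
  have h1 : sd_dvExt (F := F) (M := M) D (plAbove F M v) = 0 := by rw [hD]; rfl
  rw [sd_dvExt_apply, sd_plUnder_plAbove] at h1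
  have hpos := sd_ramificationIdx_pos (F := F) (plAbove F M v)
  rcases mul_eq_zero.mp h1 with h | h
  · exfalso
    have : Ideal.ramificationIdx (plAbove F M v).asIdeal (𝓞 F) = 0 := by exact_mod_cast h
    omega
  · simpa using h

theorem sd_dvSmul_dvExt [IsGalois F M] (s : M ≃ₐ[F] M) (D : Dv F) :
    sd_dvSmul s (sd_dvExt D) = sd_dvExt D := by
  ext w
  rw [sd_dvSmul_apply, sd_dvExt_apply, sd_dvExt_apply, sd_plUnder_plSmul, sd_plSmul_asIdeal,
    Ideal.ramificationIdx_smul]

theorem sd_dvNorm_smul [IsGalois F M] (s : M ≃ₐ[F] M) (D : Dv M) :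
    dvNorm F M (sd_dvSmul s D) = dvNorm F M D := by
  have h : (dvNorm F M).comp (sd_dvSmul s).toAddMonoidHom = dvNorm F M := by
    apply Finsupp.addHom_ext
    intro w n
    simp only [AddMonoidHom.coe_comp, AddEquiv.coe_toAddMonoidHom, Function.comp_apply,
      sd_dvSmul_single, dvNorm_single, sd_plUnder_plSmul, sd_plSmul_asIdeal,
      Ideal.inertiaDeg_smul]
  exact DFunLike.congr_fun h D

theorem sd_valuation_unit (w : Pl M) (u : (𝓞 M)ˣ) : w.valuation M ((u : 𝓞 M) : M) = 1 := by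
  have h1 := HeightOneSpectrum.valuation_le_one (K := M) w (u : 𝓞 M)
  have h2 := HeightOneSpectrum.valuation_le_one (K := M) w ((u⁻¹ : (𝓞 M)ˣ) : 𝓞 M)
  have h3 : w.valuation M ((u : 𝓞 M) : M) * w.valuation M (((u⁻¹ : (𝓞 M)ˣ) : 𝓞 M) : M) = 1 := by
    rw [← map_mul, ← map_mul]
    simp
  apply le_antisymm h1
  by_contra hlt
  rw [not_le] at hlt
  have : w.valuation M ((u : 𝓞 M) : M) * w.valuation M (((u⁻¹ : (𝓞 M)ˣ) : 𝓞 M) : M) < 1 := by
    calc _ ≤ w.valuation M ((u : 𝓞 M) : M) * 1 := by gcongr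
      _ < 1 := by rwa [mul_one]
  rw [h3] at this
  exact lt_irrefl _ this

/-- a nonzero element has divisor zero iff it is a unit of the ring of integers. -/
theorem sd_divOf_eq_zero_iff (x : M) (hx : x ≠ 0) :
    divOf x = 0 ↔ ∃ u : (𝓞 M)ˣ, x = ((u : 𝓞 M) : M) := by
  constructor
  · intro h
    have hval : ∀ w : Pl M, w.valuation M x = 1 := by
      intro w
      have h1 : ordAt w x = 0 := by
        have := DFunLike.congr_fun h w
        simpa using this
      unfold ordAt at h1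
      have hne : w.valuation M x ≠ 0 := (Valuation.ne_zero_iff _).mpr hx
      have h2 : WithZero.log (w.valuation M x) = 0 := by simpa using h1
      have h3 := WithZero.exp_log hne
      rw [h2] at h3
      rw [← h3]
      rfl
    have hx1 : x ∈ (algebraMap (𝓞 M) M).range :=
      HeightOneSpectrum.mem_integers_of_valuation_le_one M x (fun w => (hval w).le)
    have hx2 : x⁻¹ ∈ (algebraMap (𝓞 M) M).range :=
      HeightOneSpectrum.mem_integers_of_valuation_le_one M x⁻¹ (fun w => by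
        rw [map_inv₀, hval w, inv_one])
    obtain ⟨a, ha⟩ := hx1
    obtain ⟨b, hb⟩ := hx2
    have hab : a * b = 1 := by
      apply RingOfIntegers.ext
      show algebraMap (𝓞 M) M (a * b) = algebraMap (𝓞 M) M 1
      rw [map_mul, ha, hb, map_one, mul_inv_cancel₀ hx]
    exact ⟨⟨a, b, hab, by rw [mul_comm]; exact hab⟩, ha.symm⟩
  · rintro ⟨u, rfl⟩
    ext w
    rw [divOf_apply]
    unfold ordAt
    rw [sd_valuation_unit]
    simp

end Ext

section Cyclic

variable {F M : Type*} [Field F] [NumberField F] [Field M] [NumberField M] [Algebra F M]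
variable {p : ℕ} [Fact p.Prime] [IsGalois F M] {g : M ≃ₐ[F] M}

theorem sd_card_gal (h : IsUCyc p F M g) : Nat.card (M ≃ₐ[F] M) = p := by
  rw [IsGalois.card_aut_eq_finrank, h.finrank_eq]

theorem sd_pow_eq_one (h : IsUCyc p F M g) : g ^ p = 1 := by
  have := pow_card_eq_one' (G := M ≃ₐ[F] M) (x := g)
  rwa [sd_card_gal h] at this

theorem sd_exists_pow (h : IsUCyc p F M g) (s : M ≃ₐ[F] M) : ∃ i : ℕ, i < p ∧ s = g ^ i := by
  obtain ⟨k, hk⟩ := mem_powers_of_prime_card (sd_card_gal h) h.g_ne_one (g' := s)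
  have hp : 0 < p := (Fact.out : p.Prime).pos
  refine ⟨k % p, Nat.mod_lt _ hp, ?_⟩
  have hk' : g ^ k = s := hk
  rw [← hk']
  conv_lhs => rw [← Nat.div_add_mod k p]
  rw [pow_add, pow_mul, sd_pow_eq_one h, one_pow, one_mul]

theorem sd_exists_pow_plSmul (h : IsUCyc p F M g) (w w' : Pl M)
    (hw : plUnder F M w = plUnder F M w') : ∃ i : ℕ, i < p ∧ sd_plSmul (g ^ i) w = w' := by
  have hlo : w.asIdeal.LiesOver (plUnder F M w).asIdeal := ⟨rfl⟩
  have hlo' : w'.asIdeal.LiesOver (plUnder F M w).asIdeal := ⟨by rw [hw]; rfl⟩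
  obtain ⟨s, hs⟩ := Ideal.exists_smul_eq_of_isGaloisGroup (plUnder F M w).asIdeal
    w.asIdeal w'.asIdeal (M ≃ₐ[F] M)
  obtain ⟨i, hi, rfl⟩ := sd_exists_pow h s
  exact ⟨i, hi, HeightOneSpectrum.ext hs⟩

theorem sd_dvSmul_pow_of_fixed (D : Dv M) (hD : sd_dvSmul g D = D) (i : ℕ) :
    sd_dvSmul (g ^ i) D = D := by
  rw [sd_dvSmul_pow]
  exact Function.iterate_fixed hD i

/-- for an unramified cyclic extension the invariant divisors are the extended ones. -/
theorem sd_invariant (h : IsUCyc p F M g) (D : Dv M) (hD : sd_dvSmul g D = D) :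
    ∃ D₀ : Dv F, D = sd_dvExt D₀ := by
  have hfin : (Function.support fun v : Pl F => D (plAbove F M v)).Finite := by
    refine ((D.support.finite_toSet).image (plUnder F M)).subset ?_
    intro v hv
    simp only [Function.mem_support, ne_eq] at hv
    exact ⟨plAbove F M v, Finsupp.mem_support_iff.mpr hv, sd_plUnder_plAbove v⟩
  refine ⟨Finsupp.ofSupportFinite (fun v : Pl F => D (plAbove F M v)) hfin, ?_⟩
  ext w
  rw [sd_dvExt_apply, Finsupp.ofSupportFinite_coe, h.unram w]
  obtain ⟨i, -, hi⟩ := sd_exists_pow_plSmul h w (plAbove F M (plUnder F M w))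
    (sd_plUnder_plAbove (plUnder F M w)).symm
  have h1 := sd_dvSmul_pow_of_fixed D hD i
  have h2 : sd_dvSmul (g ^ i) D (plAbove F M (plUnder F M w)) = D w := by
    rw [sd_dvSmul_apply, ← hi, sd_plSmul_inv_smul]
  rw [h1] at h2
  rw [h2]
  simp

theorem sd_invariant_iff (h : IsUCyc p F M g) (D : Dv M) :
    sd_dvSmul g D = D ↔ D ∈ (sd_dvExt (F := F) (M := M)).range := by
  constructor
  · intro hD
    obtain ⟨D₀, rfl⟩ := sd_invariant h D hD
    exact ⟨D₀, rfl⟩
  · rintro ⟨D₀, rfl⟩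
    exact sd_dvSmul_dvExt g D₀

theorem sd_inertiaDeg_dvd (h : IsUCyc p F M g) (w : Pl M) :
    Ideal.inertiaDeg w.asIdeal (𝓞 F) ∣ p := by
  have hlo : w.asIdeal.LiesOver (plUnder F M w).asIdeal := ⟨rfl⟩
  have h1 := Ideal.ncard_primesOver_mul_ramificationIdxIn_mul_inertiaDegIn
    (plUnder F M w).asIdeal (𝓞 M) (M ≃ₐ[F] M)
  rw [sd_card_gal h, Ideal.inertiaDegIn_eq_inertiaDeg (plUnder F M w).asIdeal w.asIdeal
    (M ≃ₐ[F] M)] at h1
  exact ⟨((plUnder F M w).asIdeal.primesOver (𝓞 M)).ncard *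
    (plUnder F M w).asIdeal.ramificationIdxIn (𝓞 M), by rw [← h1]; ring⟩

theorem sd_split_or_inert (h : IsUCyc p F M g) (v : Pl F) :
    SplitsCompletely F M v ∨
      ∀ w : Pl M, PlOver F M w v → Ideal.inertiaDeg w.asIdeal (𝓞 F) = p := by
  by_cases hs : SplitsCompletely F M v
  · exact Or.inl hs
  right
  intro w hw
  rcases (Nat.dvd_prime (Fact.out : p.Prime)).mp (sd_inertiaDeg_dvd h w) with h1 | h1
  · exfalso
    apply hs
    intro w' hw'
    refine ⟨h.unram w', ?_⟩
    have hlo : w.asIdeal.LiesOver v.asIdeal := ⟨hw.symm⟩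
    have hlo' : w'.asIdeal.LiesOver v.asIdeal := ⟨hw'.symm⟩
    rw [Ideal.inertiaDeg_eq_of_isGaloisGroup v.asIdeal w'.asIdeal w.asIdeal (M ≃ₐ[F] M)]
    exact h1
  · exact h1

theorem sd_single_one_mem_range_dvNorm (v : Pl F) (hv : SplitsCompletely F M v) :
    Finsupp.single v (1 : ℤ) ∈ (dvNorm F M).range := by
  refine ⟨Finsupp.single (plAbove F M v) 1, ?_⟩
  rw [dvNorm_single, sd_plUnder_plAbove, (hv _ (plAbove_over F M v)).2]
  simp

theorem sd_single_p_mem_range_dvNorm (h : IsUCyc p F M g) (v : Pl F) :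
    Finsupp.single v (p : ℤ) ∈ (dvNorm F M).range := by
  rcases sd_split_or_inert h v with hs | hi
  · refine ⟨Finsupp.single (plAbove F M v) (p : ℤ), ?_⟩
    rw [dvNorm_single, sd_plUnder_plAbove, (hs _ (plAbove_over F M v)).2]
    simp
  · refine ⟨Finsupp.single (plAbove F M v) 1, ?_⟩
    rw [dvNorm_single, sd_plUnder_plAbove, hi _ (plAbove_over F M v)]
    simp

/-- the norm group is contained in `P_F + N(I_M)`. -/
theorem sd_normGroup_le (h : IsUCyc p F M g) :
    normGroup F M p ≤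
      AddSubgroup.closure {D : Dv F | ∃ x : F, x ≠ 0 ∧ D = divOf x} ⊔ (dvNorm F M).range := by
  unfold normGroup
  rw [AddSubgroup.closure_le]
  rintro D ((hD | ⟨v, hv, rfl⟩) | ⟨v, rfl⟩)
  · exact (le_sup_left : _ ≤ _ ⊔ (dvNorm F M).range) (AddSubgroup.subset_closure hD)
  · exact (le_sup_right : (dvNorm F M).range ≤ _) (sd_single_one_mem_range_dvNorm v hv)
  · exact (le_sup_right : (dvNorm F M).range ≤ _) (sd_single_p_mem_range_dvNorm h v)

end Cyclic

end Fermat.Agent.S14x
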