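/-
S14 project, module SI, row (N) SI-NG (helper87, prefix `ng_`): the "norm group" of `Defs`
(generated by principal divisors, completely split primes and `p`-th multiples of primes) is
contained in `P_F + N(Dv M)`.
-/
import Fermat.Agent.S14x.Artin

set_option autoImplicit false
set_option linter.unusedSectionVars false

namespace Fermat.Agent.S14x

open NumberField IsDedekindDomain
open scoped Pointwise

section General

variable {p : ℕ} [Fact p.Prime]
variable {F M : Type} [Field F] [NumberField F] [Field M] [NumberField M] [Algebra F M]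
  [IsGalois F M] {g : M ≃ₐ[F] M}

/-- the prime below the chosen prime above `v` is `v` -/
theorem ng_plUnder_plAbove (v : Pl F) : plUnder F M (plAbove F M v) = v := by
  apply HeightOneSpectrum.ext
  exact plAbove_over F M v

/-- the inertia degree of a prime of an `IsUCyc` extension divides `p` -/
theorem ng_inertiaDeg_dvd (h : IsUCyc p F M g) (v : Pl F) (w : Pl M) (hw : PlOver F M w v) :
    Ideal.inertiaDeg w.asIdeal (𝓞 F) ∣ p := by
  have hLO : w.asIdeal.LiesOver v.asIdeal := ⟨hw.symm⟩
  have hcard := Ideal.card_stabilizer_eq (G := M ≃ₐ[F] M) v.asIdeal w.asIdeal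
  rw [Ideal.ramificationIdxIn_eq_ramificationIdx v.asIdeal w.asIdeal (M ≃ₐ[F] M),
    Ideal.inertiaDegIn_eq_inertiaDeg v.asIdeal w.asIdeal (M ≃ₐ[F] M), h.unram w, one_mul]
    at hcard
  rw [← hcard, ← aa_card h]
  exact Subgroup.card_subgroup_dvd_card _

/-- **SI-NG**: `normGroup F M p ≤ P_F + N(Dv M)` -/
theorem ng_normGroup_le (h : IsUCyc p F M g) (PF : AddSubgroup (Dv F))
    (hPF : ∀ x : F, x ≠ 0 → divOf x ∈ PF) :
    normGroup F M p ≤ PF ⊔ (dvNorm F M).range := by
  rw [normGroup, AddSubgroup.closure_le]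
  rintro D ((⟨x, hx, rfl⟩ | ⟨v, hv, rfl⟩) | ⟨v, rfl⟩)
  · exact (le_sup_left : PF ≤ PF ⊔ (dvNorm F M).range) (hPF x hx)
  · apply (le_sup_right : (dvNorm F M).range ≤ PF ⊔ (dvNorm F M).range)
    refine ⟨Finsupp.single (plAbove F M v) 1, ?_⟩
    rw [dvNorm_single, ng_plUnder_plAbove, (hv (plAbove F M v) (plAbove_over F M v)).2]
    simp
  · apply (le_sup_right : (dvNorm F M).range ≤ PF ⊔ (dvNorm F M).range)
    obtain ⟨k, hk⟩ := ng_inertiaDeg_dvd h v (plAbove F M v) (plAbove_over F M v)
    refine ⟨Finsupp.single (plAbove F M v) (k : ℤ), ?_⟩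
    rw [dvNorm_single, ng_plUnder_plAbove]
    congr 1
    rw [hk]
    push_cast
    ring

end General

end Fermat.Agent.S14x
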