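/-
S14 project, module SI-ASM part 1 (helper48): the algebraic norm-index inequality
`normGroup F M p ≠ ⊤` reduced to the two "unit-bridge" numbers
`hq_c1 = [ {D ∈ Dv F | ext D principal} : P_F ]` and `hq_c2 = [ P_M ∩ ker N : (g - 1) P_M ]`.
Prefix `hq_`.
-/
import Fermat.Agent.S14x.HqCore
import Fermat.Agent.S14x.SIDivExt
import Fermat.Agent.S14x.BaseChangeNorm
import Fermat.Agent.S14x.DvClassCl
import Fermat.Agent.S14x.SINormGroup

set_option autoImplicit false

namespace Fermat.Agent.S14x

open NumberField IsDedekindDomain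

section General

variable {p : ℕ} [Fact p.Prime]
variable {F M : Type} [Field F] [NumberField F] [Field M] [NumberField M] [Algebra F M]
  [IsGalois F M] {g : M ≃ₐ[F] M}

variable (F M) in
/-- `[ {D ∈ Dv F | ext D ∈ P_M} : P_F ]` (the capitulation index). -/
noncomputable def hq_c1 : ℕ :=
  (dvc_principal F).relIndex ((dvc_principal M).comap (sd_dvExt (F := F) (M := M)))

/-- `[ P_M ∩ ker N : (g - 1) P_M ]`. -/
noncomputable def hq_c2 (g : M ≃ₐ[F] M) : ℕ :=
  ((dvc_principal M).map ((sd_dvSmul g).toAddMonoidHom - AddMonoidHom.id (Dv M))).relIndex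
    (dvc_principal M ⊓ (dvNorm F M).ker)

/-- SI-ASM, part 1: the norm-index inequality from the unit-bridge inequality. -/
theorem hq_normGroup_ne_top_of (h : IsUCyc p F M g) (hc2 : hq_c2 g ≠ 0)
    (hc : p * hq_c2 g ≤ hq_c1 F M) : normGroup F M p ≠ ⊤ := by
  have hp2 : 2 ≤ p := (Fact.out : p.Prime).two_le
  have hle : normGroup F M p ≤ dvc_principal F ⊔ (dvNorm F M).range :=
    ng_normGroup_le h (dvc_principal F) (fun x hx => dvc_divOf_mem_principal hx)
  have hne : dvc_principal F ⊔ (dvNorm F M).range ≠ ⊤ := by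
    refine hq_core_ne_top p hp2 (dvc_principal F) (dvc_principal M) (sd_dvExt (F := F) (M := M))
      (dvNorm F M) (sd_dvSmul g).toAddMonoidHom ?_ ?_ ?_ ?_ ?_ ?_ ?_ hc2 hc
    · intro D
      exact sd_dvNorm_smul g D
    · intro D
      exact sd_dvSmul_dvExt g D
    · intro D hD
      exact (sd_invariant_iff h D).mp hD
    · intro D hD
      obtain ⟨x, hx, rfl⟩ := (dvc_mem_principal_iff D).mp hD
      show sd_dvExt (divOf x) ∈ dvc_principal M
      rw [sd_dvExt_divOf]
      exact dvc_divOf_mem_principal ((map_ne_zero _).mpr hx)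
    · intro D hD
      obtain ⟨x, hx, rfl⟩ := (dvc_mem_principal_iff D).mp hD
      show dvNorm F M (divOf x) ∈ dvc_principal F
      rw [dvNorm_divOf x hx]
      exact dvc_divOf_mem_principal (Algebra.norm_ne_zero_iff.mpr hx)
    · intro D hD
      obtain ⟨x, hx, rfl⟩ := (dvc_mem_principal_iff D).mp hD
      show sd_dvSmul g (divOf x) ∈ dvc_principal M
      rw [← sd_divOf_smul]
      exact dvc_divOf_mem_principal ((map_ne_zero _).mpr hx)
    · exact dvc_principal_index_ne_zero
  intro htop
  apply hne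
  rw [eq_top_iff, ← htop]
  exact hle

end General

end Fermat.Agent.S14x
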