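/-
S14 project, SI leaf (D) SI-UNITBRIDGE, abstract part (helper40).  Mathlib only.  prefix `ub_`.

Cohomology sequence of `0 → E → A → P → 0` (`A = M^×` written additively, `E = ker dv` the units,
`P = range dv` the principal divisors) for a cyclic group, given Hilbert 90 for `A`:

* `ub_c1`  : `[P^γ : dv(A^s)] = |H¹(E)|`
* `ub_c2`  : `[ker N_P : (γ-1)P]` divides `|H⁰(E)|`
* `ub_bridge` : with `|H¹(E)| = p |H⁰(E)|` one gets `p * c2 ≤ c1`, `c1 ≠ 0`, `c2 ≠ 0`,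
  where `c1 = [ext⁻¹ P : PF]`, `c2 = [P ⊓ ker nm : (γ-1) P]`.

`Dm` plays the role of `s - 1` and `Nm` that of `1 + s + ... + s^(p-1)` on `A`;
`Dg`, `Ng` the same on the divisor group `IM`.
-/
import Mathlib

set_option autoImplicit false

namespace Fermat.Agent.S14x

section Abstract

variable {A IM IF : Type*} [AddCommGroup A] [AddCommGroup IM] [AddCommGroup IF]

/-- `[dv(A) ⊓ ker Dg : dv(ker Dm)] = [ker dv ⊓ ker Nm : Dm (ker dv)]`. -/
theorem ub_c1 (Dm Nm : A →+ A) (hND : ∀ a, Nm (Dm a) = 0) (H90 : Nm.ker ≤ Dm.range)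
    (dv : A →+ IM) (Dg : IM →+ IM) (hD : ∀ a, dv (Dm a) = Dg (dv a)) :
    (Dm.ker.map dv).relIndex (dv.range ⊓ Dg.ker) =
      (dv.ker.map Dm).relIndex (dv.ker ⊓ Nm.ker) := by
  have hrange : Dm.range = Nm.ker := by
    apply le_antisymm
    · rintro _ ⟨a, rfl⟩
      exact hND a
    · exact H90
  -- the middle term: `[Dm⁻¹ E : E + ker Dm]`
  have h1 : (dv.ker ⊔ Dm.ker).relIndex (dv.ker.comap Dm) =
      (dv.ker.map Dm).relIndex (dv.ker ⊓ Nm.ker) := by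
    have := AddSubgroup.relIndex_comap (dv.ker.map Dm) Dm (dv.ker.comap Dm)
    rw [AddSubgroup.comap_map_eq, AddSubgroup.map_comap_eq, hrange, inf_comm] at this
    exact this
  have h2 : (dv.ker ⊔ Dm.ker).relIndex (dv.ker.comap Dm) =
      (Dm.ker.map dv).relIndex (dv.range ⊓ Dg.ker) := by
    have := AddSubgroup.relIndex_comap (Dm.ker.map dv) dv (dv.ker.comap Dm)
    rw [AddSubgroup.comap_map_eq, sup_comm] at this
    rw [this]
    congr 1
    ext D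
    constructor
    · rintro ⟨a, ha, rfl⟩
      refine ⟨⟨a, rfl⟩, ?_⟩
      change Dg (dv a) = 0
      rw [← hD]
      exact ha
    · rintro ⟨⟨a, rfl⟩, ha⟩
      refine ⟨a, ?_, rfl⟩
      change dv (Dm a) = 0
      rw [hD]
      exact ha
  rw [← h2, h1]

/-- `[dv(A) ⊓ ker Ng : Dg (dv A)]` equals `[E ⊓ Nm(A) : Nm E]`, `E = ker dv`. -/
theorem ub_c2_eq (Dm Nm : A →+ A) (hND : ∀ a, Nm (Dm a) = 0) (H90 : Nm.ker ≤ Dm.range)
    (dv : A →+ IM) (Dg Ng : IM →+ IM) (hD : ∀ a, dv (Dm a) = Dg (dv a))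
    (hN : ∀ a, dv (Nm a) = Ng (dv a)) :
    (dv.range.map Dg).relIndex (dv.range ⊓ Ng.ker) =
      (dv.ker.map Nm).relIndex (dv.ker ⊓ Nm.range) := by
  have hrange : Dm.range = Nm.ker := by
    apply le_antisymm
    · rintro _ ⟨a, rfl⟩
      exact hND a
    · exact H90
  have h1 : (dv.ker ⊔ Dm.range).relIndex (dv.ker.comap Nm) =
      (dv.ker.map Nm).relIndex (dv.ker ⊓ Nm.range) := by
    have := AddSubgroup.relIndex_comap (dv.ker.map Nm) Nm (dv.ker.comap Nm)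
    rw [AddSubgroup.comap_map_eq, AddSubgroup.map_comap_eq, ← hrange, inf_comm] at this
    exact this
  have h2 : (dv.ker ⊔ Dm.range).relIndex (dv.ker.comap Nm) =
      (dv.range.map Dg).relIndex (dv.range ⊓ Ng.ker) := by
    have := AddSubgroup.relIndex_comap (Dm.range.map dv) dv (dv.ker.comap Nm)
    rw [AddSubgroup.comap_map_eq, sup_comm] at this
    rw [this]
    congr 1
    · ext D
      constructor
      · rintro ⟨_, ⟨a, rfl⟩, rfl⟩
        exact ⟨dv a, ⟨a, rfl⟩, (hD a).symm⟩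
      · rintro ⟨_, ⟨a, rfl⟩, rfl⟩
        exact ⟨Dm a, ⟨a, rfl⟩, hD a⟩
    · ext D
      constructor
      · rintro ⟨a, ha, rfl⟩
        refine ⟨⟨a, rfl⟩, ?_⟩
        change Ng (dv a) = 0
        rw [← hN]
        exact ha
      · rintro ⟨⟨a, rfl⟩, ha⟩
        refine ⟨a, ?_, rfl⟩
        change dv (Nm a) = 0
        rw [hN]
        exact ha
  rw [← h2, h1]

/-- `[dv(A) ⊓ ker Ng : Dg (dv A)]` divides `|H⁰(E)| = [E ⊓ ker Dm : Nm E]`. -/
theorem ub_c2 (Dm Nm : A →+ A) (hND : ∀ a, Nm (Dm a) = 0) (hDN : ∀ a, Dm (Nm a) = 0)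
    (H90 : Nm.ker ≤ Dm.range)
    (dv : A →+ IM) (Dg Ng : IM →+ IM) (hD : ∀ a, dv (Dm a) = Dg (dv a))
    (hN : ∀ a, dv (Nm a) = Ng (dv a)) :
    (dv.range.map Dg).relIndex (dv.range ⊓ Ng.ker) ∣
      (dv.ker.map Nm).relIndex (dv.ker ⊓ Dm.ker) := by
  rw [ub_c2_eq Dm Nm hND H90 dv Dg Ng hD hN]
  have hle1 : dv.ker.map Nm ≤ dv.ker ⊓ Nm.range := by
    rintro _ ⟨a, ha, rfl⟩
    refine ⟨?_, ⟨a, rfl⟩⟩
    -- `Nm a ∈ ker dv` since `dv (Nm a) = Ng (dv a) = Ng 0 = 0`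
    have ha' : dv a = 0 := ha
    change dv (Nm a) = 0
    rw [hN, ha', map_zero]
  have hle2 : dv.ker ⊓ Nm.range ≤ dv.ker ⊓ Dm.ker := by
    rintro x ⟨hx, ⟨a, rfl⟩⟩
    exact ⟨hx, hDN a⟩
  exact Dvd.intro _ (AddSubgroup.relIndex_mul_relIndex _ _ _ hle1 hle2)

/-- transport of `c1` through the injective extension map `ext : IF → IM` whose range is the
group of `γ`-fixed divisors. -/
theorem ub_c1_ext (Dm : A →+ A) (dv : A →+ IM) (Dg : IM →+ IM)
    (ext : IF →+ IM) (hext : Function.Injective ext) (hfix : ext.range = Dg.ker)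
    (PF : AddSubgroup IF) (hPF : PF.map ext = Dm.ker.map dv) :
    PF.relIndex (dv.range.comap ext) = (Dm.ker.map dv).relIndex (dv.range ⊓ Dg.ker) := by
  have := AddSubgroup.relIndex_comap (PF.map ext) ext (dv.range.comap ext)
  rw [AddSubgroup.comap_map_eq_self_of_injective hext, AddSubgroup.map_comap_eq, hPF, hfix,
    inf_comm] at this
  exact this

/-- SI-UNITBRIDGE, abstract form.  `c1 = [ext⁻¹ P : PF]`, `c2 = [P ⊓ ker nm : Dg P]` with
`P = range dv`; the hypothesis `hq` is the Herbrand quotient of the units `E = ker dv`. -/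
theorem ub_bridge (p : ℕ) (Dm Nm : A →+ A) (hND : ∀ a, Nm (Dm a) = 0)
    (hDN : ∀ a, Dm (Nm a) = 0) (H90 : Nm.ker ≤ Dm.range)
    (dv : A →+ IM) (Dg Ng : IM →+ IM) (hD : ∀ a, dv (Dm a) = Dg (dv a))
    (hN : ∀ a, dv (Nm a) = Ng (dv a))
    (ext : IF →+ IM) (hext : Function.Injective ext) (hfix : ext.range = Dg.ker)
    (nm : IM →+ IF) (hnm : ∀ D, ext (nm D) = Ng D)
    (PF : AddSubgroup IF) (hPF : PF.map ext = Dm.ker.map dv)
    (hq : (dv.ker.map Dm).relIndex (dv.ker ⊓ Nm.ker) =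
      p * (dv.ker.map Nm).relIndex (dv.ker ⊓ Dm.ker))
    (hq0 : (dv.ker.map Nm).relIndex (dv.ker ⊓ Dm.ker) ≠ 0) :
    p * (dv.range.map Dg).relIndex (dv.range ⊓ nm.ker) ≤ PF.relIndex (dv.range.comap ext) ∧
    (dv.range.map Dg).relIndex (dv.range ⊓ nm.ker) ≠ 0 ∧
    PF.relIndex (dv.range.comap ext) = p * (dv.ker.map Nm).relIndex (dv.ker ⊓ Dm.ker) := by
  have hker : nm.ker = Ng.ker := by
    ext D
    rw [AddMonoidHom.mem_ker, AddMonoidHom.mem_ker, ← hnm]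
    constructor
    · intro h; rw [h, map_zero]
    · intro h; exact hext (by rw [h, map_zero])
  rw [hker, ub_c1_ext Dm dv Dg ext hext hfix PF hPF, ub_c1 Dm Nm hND H90 dv Dg hD, hq]
  have hdvd := ub_c2 Dm Nm hND hDN H90 dv Dg Ng hD hN
  refine ⟨Nat.mul_le_mul_left p (Nat.le_of_dvd (Nat.pos_of_ne_zero hq0) hdvd), ?_, rfl⟩
  intro h0
  rw [h0, zero_dvd_iff] at hdvd
  exact hq0 hdvd

end Abstract

end Fermat.Agent.S14x
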