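/-
S14 project, SI leaf (D) SI-UNITBRIDGE, concrete part (helper40).  prefix `ub_`.
Instantiates `ub_bridge` (S14x/SIBridge.lean) with `A = Additive Mˣ`, `dv = divOf`.
The SI-DIV facts (action `act` of `g` on `Dv M`, extension map `ext`) and the unit Herbrand
quotient are taken as HYPOTHESES in abstract shape, so that this file only depends on landed files.
-/
import Fermat.Agent.S14x.SIH90
import Fermat.Agent.S14x.SIBridge
import Fermat.Agent.S14x.DensCore

set_option autoImplicit false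

namespace Fermat.Agent.S14x

open NumberField IsDedekindDomain

section DivOf

variable {M : Type*} [Field M] [NumberField M]

theorem ub_divOf_one : divOf (1 : M) = 0 := by
  ext v
  simp [ordAt]

theorem ub_divOf_mul {x y : M} (hx : x ≠ 0) (hy : y ≠ 0) :
    divOf (x * y) = divOf x + divOf y := by
  ext v
  simp [dn_ordAt_mul v hx hy]

theorem ub_divOf_div {x y : M} (hx : x ≠ 0) (hy : y ≠ 0) :
    divOf (x / y) = divOf x - divOf y := by
  ext v
  simp [dn_ordAt_div v hx hy]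

/-- `divOf` on `Mˣ`, as an additive hom. -/
noncomputable def ub_dv (M : Type*) [Field M] [NumberField M] : Additive Mˣ →+ Dv M where
  toFun a := divOf ((Additive.toMul a : Mˣ) : M)
  map_zero' := by simp [ub_divOf_one]
  map_add' a b := by
    simp only [toMul_add, Units.val_mul]
    exact ub_divOf_mul (Units.ne_zero _) (Units.ne_zero _)

@[simp] theorem ub_dv_apply (a : Additive Mˣ) :
    ub_dv M a = divOf ((Additive.toMul a : Mˣ) : M) := rfl

/-- a nonzero element with trivial divisor is (the image of) a unit of `𝓞 M`. -/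
theorem ub_divOf_eq_zero_iff (x : M) (hx : x ≠ 0) :
    divOf x = 0 ↔ ∃ u : (𝓞 M)ˣ, x = ((u : 𝓞 M) : M) := by
  constructor
  · intro h
    have hval : ∀ v : Pl M, v.valuation M x = 1 := by
      intro v
      have hv : ordAt v x = 0 := by
        have := DFunLike.congr_fun h v
        simpa using this
      unfold ordAt at hv
      have hne : v.valuation M x ≠ 0 := (Valuation.ne_zero_iff _).mpr hx
      have hlog : WithZero.log (v.valuation M x) = 0 := by simpa using hv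
      have := WithZero.exp_log hne
      rw [hlog] at this
      simpa using this.symm
    have h1 : x ∈ (algebraMap (𝓞 M) M).range :=
      HeightOneSpectrum.mem_integers_of_valuation_le_one M x (fun v => (hval v).le)
    have h2 : x⁻¹ ∈ (algebraMap (𝓞 M) M).range :=
      HeightOneSpectrum.mem_integers_of_valuation_le_one M x⁻¹ (fun v => by
        rw [map_inv₀, hval v, inv_one])
    obtain ⟨a, ha⟩ := h1
    obtain ⟨b, hb⟩ := h2
    have hab : a * b = 1 := by
      apply FaithfulSMul.algebraMap_injective (𝓞 M) M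
      rw [map_mul, ha, hb, map_one, mul_inv_cancel₀ hx]
    exact ⟨⟨a, b, hab, by rw [mul_comm]; exact hab⟩, ha.symm⟩
  · rintro ⟨u, rfl⟩
    ext v
    have h1 : v.valuation M ((u : 𝓞 M) : M) = 1 := by
      have hle : ∀ w : (𝓞 M)ˣ, v.valuation M ((w : 𝓞 M) : M) ≤ 1 := fun w =>
        HeightOneSpectrum.valuation_le_one v (w : 𝓞 M)
      have hu := hle u
      have hu' := hle u⁻¹
      have hmul : v.valuation M ((u : 𝓞 M) : M) * v.valuation M (((u⁻¹ : (𝓞 M)ˣ) : 𝓞 M) : M) = 1 := by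
        rw [← map_mul, ← map_mul (algebraMap (𝓞 M) M), ← Units.val_mul, mul_inv_cancel,
          Units.val_one, map_one, map_one]
      rcases lt_or_eq_of_le hu with hlt | heq
      · exfalso
        have : v.valuation M ((u : 𝓞 M) : M) * v.valuation M (((u⁻¹ : (𝓞 M)ˣ) : 𝓞 M) : M) < 1 :=
          mul_lt_one_of_nonneg_of_lt_one_left zero_le hlt hu'
        rw [hmul] at this
        exact lt_irrefl _ this
      · exact heq
    simp [ordAt, h1]

end DivOf

section Maps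

variable {F M : Type*} [Field F] [Field M] [Algebra F M]

/-- `a ↦ g a / a` on `Additive Mˣ`. -/
noncomputable def ub_Dm (g : M ≃ₐ[F] M) : Additive Mˣ →+ Additive Mˣ :=
  MonoidHom.toAdditive (Units.map (g : M →* M) / MonoidHom.id Mˣ)

/-- `a ↦ ∏_{i<p} g^i a` on `Additive Mˣ`. -/
noncomputable def ub_Nm (p : ℕ) (g : M ≃ₐ[F] M) : Additive Mˣ →+ Additive Mˣ :=
  MonoidHom.toAdditive (∏ i ∈ Finset.range p, Units.map ((g ^ i : M ≃ₐ[F] M) : M →* M))

theorem ub_Dm_coe (g : M ≃ₐ[F] M) (a : Additive Mˣ) :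
    ((Additive.toMul (ub_Dm g a) : Mˣ) : M) =
      g ((Additive.toMul a : Mˣ) : M) / ((Additive.toMul a : Mˣ) : M) := by
  simp [ub_Dm]

theorem ub_Nm_coe (p : ℕ) (g : M ≃ₐ[F] M) (a : Additive Mˣ) :
    ((Additive.toMul (ub_Nm p g a) : Mˣ) : M) =
      ∏ i ∈ Finset.range p, (g ^ i) ((Additive.toMul a : Mˣ) : M) := by
  simp [ub_Nm, Units.coe_prod]

theorem ub_add_eq_zero_iff (a : Additive Mˣ) :
    a = 0 ↔ ((Additive.toMul a : Mˣ) : M) = 1 := by
  constructor
  · rintro rfl; simp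
  · intro h
    have : (Additive.toMul a : Mˣ) = 1 := Units.ext h
    exact Additive.toMul.injective (by simpa using this)

end Maps

section Concrete

variable {p : ℕ} [Fact p.Prime]
variable {F M : Type} [Field F] [NumberField F] [Field M] [NumberField M] [Algebra F M]
  [IsGalois F M] {g : M ≃ₐ[F] M}

theorem ub_Nm_eq_norm (h : IsUCyc p F M g) (a : Additive Mˣ) :
    ((Additive.toMul (ub_Nm p g a) : Mˣ) : M) =
      algebraMap F M (Algebra.norm F ((Additive.toMul a : Mˣ) : M)) := by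
  rw [ub_Nm_coe, h9_norm_eq_prod h]

theorem ub_hND (h : IsUCyc p F M g) (a : Additive Mˣ) : ub_Nm p g (ub_Dm g a) = 0 := by
  rw [ub_add_eq_zero_iff, ub_Nm_eq_norm h, ub_Dm_coe, div_eq_mul_inv, map_mul, Algebra.norm_inv,
    Algebra.norm_eq_of_algEquiv, mul_inv_cancel₀, map_one]
  exact (Algebra.norm_ne_zero_iff).mpr (Units.ne_zero _)

theorem ub_hDN (h : IsUCyc p F M g) (a : Additive Mˣ) : ub_Dm g (ub_Nm p g a) = 0 := by
  rw [ub_add_eq_zero_iff, ub_Dm_coe, ub_Nm_eq_norm h, AlgEquiv.commutes, div_self]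
  rw [← ub_Nm_eq_norm h]
  exact Units.ne_zero _

theorem ub_H90 (h : IsUCyc p F M g) : (ub_Nm p g).ker ≤ (ub_Dm g).range := by
  intro a ha
  have ha' : ub_Nm p g a = 0 := ha
  rw [ub_add_eq_zero_iff, ub_Nm_coe] at ha'
  obtain ⟨z, hz0, hz⟩ := h9_hilbert90_prod h ha'
  refine ⟨Additive.ofMul (Units.mk0 z hz0)⁻¹, ?_⟩
  apply Additive.toMul.injective
  apply Units.ext
  rw [ub_Dm_coe, hz]
  simp only [toMul_ofMul, Units.val_inv_eq_inv_val, Units.val_mk0, map_inv₀]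
  have : g z ≠ 0 := by simpa using hz0
  field_simp

/-- the inclusion `(𝓞 M)ˣ → Mˣ`. -/
noncomputable def ub_iota (M : Type*) [Field M] [NumberField M] : (𝓞 M)ˣ →* Mˣ :=
  Units.map (algebraMap (𝓞 M) M : 𝓞 M →* M)

@[simp] theorem ub_iota_coe (u : (𝓞 M)ˣ) : ((ub_iota M u : Mˣ) : M) = ((u : 𝓞 M) : M) := rfl

theorem ub_iota_injective : Function.Injective (ub_iota M) := by
  intro u v huv
  have : ((u : 𝓞 M) : M) = ((v : 𝓞 M) : M) := by
    rw [← ub_iota_coe u, ← ub_iota_coe v, huv]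
  exact Units.ext (RingOfIntegers.ext this)

theorem ub_mem_ker_dv_iff (a : Additive Mˣ) :
    a ∈ (ub_dv M).ker ↔ ∃ u : (𝓞 M)ˣ, a = Additive.ofMul (ub_iota M u) := by
  rw [AddMonoidHom.mem_ker, ub_dv_apply, ub_divOf_eq_zero_iff _ (Units.ne_zero _)]
  constructor
  · rintro ⟨u, hu⟩
    refine ⟨u, ?_⟩
    apply Additive.toMul.injective
    apply Units.ext
    simpa using hu
  · rintro ⟨u, rfl⟩
    exact ⟨u, by simp⟩

/-- transfer of a relative index from `(𝓞 M)ˣ` to `ker dv ⊆ Additive Mˣ`. -/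
theorem ub_relIndex_transfer (T U : (𝓞 M)ˣ →* (𝓞 M)ˣ) (TA UA : Additive Mˣ →+ Additive Mˣ)
    (hT : ∀ u, TA (Additive.ofMul (ub_iota M u)) = Additive.ofMul (ub_iota M (T u)))
    (hU : ∀ u, UA (Additive.ofMul (ub_iota M u)) = Additive.ofMul (ub_iota M (U u))) :
    ((ub_dv M).ker.map TA).relIndex ((ub_dv M).ker ⊓ UA.ker) = T.range.relIndex U.ker := by
  have hinj : Function.Injective (MonoidHom.toAdditive (ub_iota M)) := by
    intro a b hab
    apply Additive.toMul.injective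
    apply ub_iota_injective (M := M)
    exact Additive.ofMul.injective hab
  rw [← Subgroup.relIndex_toAddSubgroup,
    ← AddSubgroup.relIndex_map_map_of_injective _ _ hinj]
  congr 1
  · ext x
    constructor
    · rintro ⟨a, ha, rfl⟩
      obtain ⟨u, rfl⟩ := (ub_mem_ker_dv_iff a).mp ha
      refine ⟨Additive.ofMul (T u), ⟨u, rfl⟩, ?_⟩
      rw [hT]
      rfl
    · rintro ⟨a, ⟨u, hu⟩, rfl⟩
      refine ⟨Additive.ofMul (ub_iota M u), (ub_mem_ker_dv_iff _).mpr ⟨u, rfl⟩, ?_⟩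
      rw [hT, hu]
      rfl
  · ext x
    constructor
    · rintro ⟨hx1, hx2⟩
      obtain ⟨u, rfl⟩ := (ub_mem_ker_dv_iff x).mp hx1
      have hx2' : UA (Additive.ofMul (ub_iota M u)) = 0 := hx2
      rw [hU] at hx2'
      have hu1 : U u = 1 := by
        apply ub_iota_injective (M := M)
        rw [map_one]
        exact Additive.ofMul.injective hx2'
      exact ⟨Additive.ofMul u, hu1, rfl⟩
    · rintro ⟨a, ha, rfl⟩
      have ha' : U (Additive.toMul a) = 1 := ha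
      refine ⟨(ub_mem_ker_dv_iff _).mpr ⟨Additive.toMul a, rfl⟩, ?_⟩
      change UA (Additive.ofMul (ub_iota M (Additive.toMul a))) = 0
      rw [hU, ha', map_one]
      rfl

/-- **SI-UNITBRIDGE** (leaf (D) of SI).  `c1 = [ext⁻¹ P_M : P_F]`, `c2 = [P_M ⊓ ker nm : (g-1) P_M]`;
given the SI-DIV facts `B1`-`B5`, `B9` and the Herbrand quotient of the units (`hq`, `hq0`):
`c2 ≠ 0 ∧ p * c2 ≤ c1` (and `c1 = p * |H⁰(E_M)|`). -/
theorem ub_units_bridge_full (h : IsUCyc p F M g)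
    (PF : AddSubgroup (Dv F)) (PM : AddSubgroup (Dv M))
    (ext : Dv F →+ Dv M) (act : Dv M →+ Dv M)
    (hPF : ∀ D, D ∈ PF ↔ ∃ x : F, x ≠ 0 ∧ D = divOf x)
    (hPM : ∀ D, D ∈ PM ↔ ∃ x : M, x ≠ 0 ∧ D = divOf x)
    (B1 : ∀ x : F, x ≠ 0 → ext (divOf x) = divOf (algebraMap F M x))
    (B2 : Function.Injective ext)
    (B3 : ∀ a : M, a ≠ 0 → act (divOf a) = divOf (g a))
    (B4 : ∀ D, act D = D → D ∈ ext.range)
    (B5 : ∀ D, act (ext D) = ext D)
    (B9 : ∀ a : M, a ≠ 0 → dvNorm F M (divOf a) = divOf (Algebra.norm F a))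
    (dU nU : (𝓞 M)ˣ →* (𝓞 M)ˣ)
    (hdU : ∀ u : (𝓞 M)ˣ, (((dU u : (𝓞 M)ˣ) : 𝓞 M) : M) = g ((u : 𝓞 M) : M) / ((u : 𝓞 M) : M))
    (hnU : ∀ u : (𝓞 M)ˣ, (((nU u : (𝓞 M)ˣ) : 𝓞 M) : M) =
      ∏ i ∈ Finset.range p, (g ^ i) ((u : 𝓞 M) : M))
    (hq : dU.range.relIndex nU.ker = p * nU.range.relIndex dU.ker)
    (hq0 : nU.range.relIndex dU.ker ≠ 0) :
    (PM.map (act - AddMonoidHom.id (Dv M))).relIndex (PM ⊓ (dvNorm F M).ker) ≠ 0 ∧
    p * (PM.map (act - AddMonoidHom.id (Dv M))).relIndex (PM ⊓ (dvNorm F M).ker) ≤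
      PF.relIndex (PM.comap ext) ∧
    PF.relIndex (PM.comap ext) = p * nU.range.relIndex dU.ker := by
  -- the range of `dv` is `PM`
  have hrange : (ub_dv M).range = PM := by
    ext D
    rw [hPM]
    constructor
    · rintro ⟨a, rfl⟩
      exact ⟨_, Units.ne_zero _, rfl⟩
    · rintro ⟨x, hx, rfl⟩
      exact ⟨Additive.ofMul (Units.mk0 x hx), rfl⟩
  have hD : ∀ a, ub_dv M (ub_Dm g a) = (act - AddMonoidHom.id (Dv M)) (ub_dv M a) := by
    intro a
    rw [ub_dv_apply, ub_Dm_coe, AddMonoidHom.sub_apply, AddMonoidHom.id_apply, ub_dv_apply,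
      B3 _ (Units.ne_zero _), ub_divOf_div _ (Units.ne_zero _)]
    simp
  have hN : ∀ a, ub_dv M (ub_Nm p g a) = (ext.comp (dvNorm F M)) (ub_dv M a) := by
    intro a
    rw [ub_dv_apply, ub_Nm_eq_norm h, AddMonoidHom.comp_apply, ub_dv_apply,
      B9 _ (Units.ne_zero _), B1]
    exact (Algebra.norm_ne_zero_iff).mpr (Units.ne_zero _)
  have hfix : ext.range = (act - AddMonoidHom.id (Dv M)).ker := by
    ext D
    rw [AddMonoidHom.mem_ker, AddMonoidHom.sub_apply, AddMonoidHom.id_apply, sub_eq_zero]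
    constructor
    · rintro ⟨D0, rfl⟩
      exact B5 D0
    · exact B4 D
  have hPFmap : PF.map ext = (ub_Dm g).ker.map (ub_dv M) := by
    ext D
    constructor
    · rintro ⟨D0, hD0, rfl⟩
      obtain ⟨x, hx, rfl⟩ := (hPF D0).mp hD0
      have hx' : algebraMap F M x ≠ 0 := by simpa using hx
      refine ⟨Additive.ofMul (Units.mk0 (algebraMap F M x) hx'), ?_, ?_⟩
      · change ub_Dm g _ = 0
        rw [ub_add_eq_zero_iff, ub_Dm_coe]
        simp only [toMul_ofMul, Units.val_mk0, AlgEquiv.commutes]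
        exact div_self hx'
      · rw [ub_dv_apply, B1 x hx]
        rfl
    · rintro ⟨a, ha, rfl⟩
      have ha' : ub_Dm g a = 0 := ha
      rw [ub_add_eq_zero_iff, ub_Dm_coe, div_eq_one_iff_eq (Units.ne_zero _)] at ha'
      obtain ⟨x, hx⟩ := h9_fixed h ha'
      have hx0 : x ≠ 0 := by
        rintro rfl
        rw [map_zero] at hx
        exact Units.ne_zero _ hx.symm
      refine ⟨divOf x, (hPF _).mpr ⟨x, hx0, rfl⟩, ?_⟩
      rw [B1 x hx0, hx]
      rfl
  have hiD : ∀ u : (𝓞 M)ˣ, ub_Dm g (Additive.ofMul (ub_iota M u)) =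
      Additive.ofMul (ub_iota M (dU u)) := by
    intro u
    apply Additive.toMul.injective
    apply Units.ext
    rw [ub_Dm_coe]
    simp only [toMul_ofMul, ub_iota_coe]
    exact (hdU u).symm
  have hiN : ∀ u : (𝓞 M)ˣ, ub_Nm p g (Additive.ofMul (ub_iota M u)) =
      Additive.ofMul (ub_iota M (nU u)) := by
    intro u
    apply Additive.toMul.injective
    apply Units.ext
    rw [ub_Nm_coe]
    simp only [toMul_ofMul, ub_iota_coe]
    exact (hnU u).symm
  have hq1 := ub_relIndex_transfer dU nU (ub_Dm g) (ub_Nm p g) hiD hiN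
  have hq2 := ub_relIndex_transfer nU dU (ub_Nm p g) (ub_Dm g) hiN hiD
  have key := ub_bridge p (ub_Dm g) (ub_Nm p g) (ub_hND h) (ub_hDN h) (ub_H90 h) (ub_dv M)
    (act - AddMonoidHom.id (Dv M)) (ext.comp (dvNorm F M)) hD hN ext B2 hfix (dvNorm F M)
    (fun _ => rfl) PF hPFmap (by rw [hq1, hq2, hq]) (by rw [hq2]; exact hq0)
  rw [hrange, hq2] at key
  exact ⟨key.2.1, key.1, key.2.2⟩

/-- the form requested by the SI owner: `c2 ≠ 0 ∧ p * c2 ≤ c1`. -/
theorem ub_units_bridge (h : IsUCyc p F M g)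
    (PF : AddSubgroup (Dv F)) (PM : AddSubgroup (Dv M))
    (ext : Dv F →+ Dv M) (act : Dv M →+ Dv M)
    (hPF : ∀ D, D ∈ PF ↔ ∃ x : F, x ≠ 0 ∧ D = divOf x)
    (hPM : ∀ D, D ∈ PM ↔ ∃ x : M, x ≠ 0 ∧ D = divOf x)
    (B1 : ∀ x : F, x ≠ 0 → ext (divOf x) = divOf (algebraMap F M x))
    (B2 : Function.Injective ext)
    (B3 : ∀ a : M, a ≠ 0 → act (divOf a) = divOf (g a))
    (B4 : ∀ D, act D = D → D ∈ ext.range)
    (B5 : ∀ D, act (ext D) = ext D)
    (B9 : ∀ a : M, a ≠ 0 → dvNorm F M (divOf a) = divOf (Algebra.norm F a))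
    (dU nU : (𝓞 M)ˣ →* (𝓞 M)ˣ)
    (hdU : ∀ u : (𝓞 M)ˣ, (((dU u : (𝓞 M)ˣ) : 𝓞 M) : M) = g ((u : 𝓞 M) : M) / ((u : 𝓞 M) : M))
    (hnU : ∀ u : (𝓞 M)ˣ, (((nU u : (𝓞 M)ˣ) : 𝓞 M) : M) =
      ∏ i ∈ Finset.range p, (g ^ i) ((u : 𝓞 M) : M))
    (hq : dU.range.relIndex nU.ker = p * nU.range.relIndex dU.ker)
    (hq0 : nU.range.relIndex dU.ker ≠ 0) :
    (PM.map (act - AddMonoidHom.id (Dv M))).relIndex (PM ⊓ (dvNorm F M).ker) ≠ 0 ∧
    p * (PM.map (act - AddMonoidHom.id (Dv M))).relIndex (PM ⊓ (dvNorm F M).ker) ≤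
      PF.relIndex (PM.comap ext) :=
  let key := ub_units_bridge_full h PF PM ext act hPF hPM B1 B2 B3 B4 B5 B9 dU nU hdU hnU hq hq0
  ⟨key.1, key.2.1⟩

end Concrete

end Fermat.Agent.S14x
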