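/-
S14 project, SI leaf (D) SI-UNITBRIDGE, final instantiation (helper40).  prefix `ub_`.
`ub_bridge_of`    : the bridge `hq_c2 g ≠ 0 ∧ p * hq_c2 g ≤ hq_c1 F M` from ANY pair of endomorphisms
                    `dU`, `nU` of `(𝓞 M)ˣ` with the Herbrand-quotient relation;
`ub_bridge_final` : the same, unconditionally (`p ≠ 2`), using `hub_units_index`
                    (S14x/HerbrandUnitsB.lean);
`ub_normGroup_ne_top` : the resulting SI statement (same statement as `Spec.normGroup_ne_top`).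
-/
import Fermat.Agent.S14x.HqAsm
import Fermat.Agent.S14x.SIBridgeUnits
import Fermat.Agent.S14x.HerbrandUnitsB

set_option autoImplicit false

namespace Fermat.Agent.S14x

open NumberField IsDedekindDomain

section Final

variable {p : ℕ} [Fact p.Prime]
variable {F M : Type} [Field F] [NumberField F] [Field M] [NumberField M] [Algebra F M]
  [IsGalois F M] {g : M ≃ₐ[F] M}

/-- SI-BRIDGE in hypothesis form (agnostic of the definition of the unit maps). -/
theorem ub_bridge_of (h : IsUCyc p F M g)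
    (dU nU : (𝓞 M)ˣ →* (𝓞 M)ˣ)
    (hdU : ∀ u : (𝓞 M)ˣ, (((dU u : (𝓞 M)ˣ) : 𝓞 M) : M) = g ((u : 𝓞 M) : M) / ((u : 𝓞 M) : M))
    (hnU : ∀ u : (𝓞 M)ˣ, (((nU u : (𝓞 M)ˣ) : 𝓞 M) : M) =
      ∏ i ∈ Finset.range p, (g ^ i) ((u : 𝓞 M) : M))
    (hq : dU.range.relIndex nU.ker = p * nU.range.relIndex dU.ker)
    (hq0 : nU.range.relIndex dU.ker ≠ 0) :
    hq_c2 g ≠ 0 ∧ p * hq_c2 g ≤ hq_c1 F M := by
  unfold hq_c2 hq_c1
  refine ub_units_bridge h (dvc_principal F) (dvc_principal M) (sd_dvExt (F := F) (M := M))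
    (sd_dvSmul g).toAddMonoidHom (fun D => dvc_mem_principal_iff D)
    (fun D => dvc_mem_principal_iff D) ?_ sd_dvExt_injective ?_ ?_ ?_ ?_ dU nU hdU hnU hq hq0
  · intro x _
    exact sd_dvExt_divOf x
  · intro a _
    exact (sd_divOf_smul g a).symm
  · intro D hD
    exact (sd_invariant_iff h D).mp hD
  · intro D
    exact sd_dvSmul_dvExt g D
  · intro a ha
    exact dvNorm_divOf a ha

omit [NumberField M] in
theorem ub_unit_inv_coe (u : (𝓞 M)ˣ) :
    ((((u⁻¹ : (𝓞 M)ˣ) : (𝓞 M)ˣ) : 𝓞 M) : M) = (((u : 𝓞 M) : M))⁻¹ := by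
  have hne : ((u : 𝓞 M) : M) ≠ 0 := by
    intro h0
    have : (u : 𝓞 M) = 0 := RingOfIntegers.ext h0
    exact u.ne_zero this
  apply eq_inv_of_mul_eq_one_left
  have e1 : ∀ a b : 𝓞 M, ((a * b : 𝓞 M) : M) = (a : M) * (b : M) := fun _ _ => rfl
  rw [← e1, ← Units.val_mul, inv_mul_cancel]
  rfl

/-- SI-BRIDGE, final form. -/
theorem ub_bridge_final (hp : p ≠ 2) (h : IsUCyc p F M g) :
    hq_c2 g ≠ 0 ∧ p * hq_c2 g ≤ hq_c1 F M := by
  obtain ⟨h0, h1⟩ := hub_units_index hp h
  have hker : ((hub_iU F M).comp (hub_nU F M)).ker = (hub_nU F M).ker := by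
    ext u
    rw [MonoidHom.mem_ker, MonoidHom.mem_ker, MonoidHom.comp_apply]
    constructor
    · intro hu
      apply hub_iU_injective (F := F) (M := M)
      rw [hu, map_one]
    · intro hu
      rw [hu, map_one]
  have hrange : ((hub_iU F M).comp (hub_nU F M)).range = (hub_nU F M).range.map (hub_iU F M) := by
    rw [MonoidHom.range_eq_map, MonoidHom.range_eq_map, Subgroup.map_map]
  have hidx : ((hub_iU F M).comp (hub_nU F M)).range.relIndex (hub_dU g).ker =
      (hub_nU F M).range.index := by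
    rw [hrange, hub_ker_dU h, MonoidHom.range_eq_map (hub_iU F M),
      Subgroup.relIndex_map_map_of_injective _ _ hub_iU_injective, Subgroup.relIndex_top_right]
  refine ub_bridge_of h (hub_dU g) ((hub_iU F M).comp (hub_nU F M)) ?_ ?_ ?_ ?_
  · intro u
    rw [hub_dU_apply, div_eq_mul_inv]
    have e1 : ∀ a b : 𝓞 M, ((a * b : 𝓞 M) : M) = (a : M) * (b : M) := fun _ _ => rfl
    rw [Units.val_mul, e1, hub_gU_coe, ub_unit_inv_coe, div_eq_mul_inv]
  · intro u
    rw [MonoidHom.comp_apply, hub_iU_coe, ← h9_norm_eq_prod h]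
    rfl
  · rw [hker, hidx]
    exact h1
  · rw [hidx]
    exact h0

/-- **SI** : the algebraic norm-index inequality `[I_F : P_F N(I_M)] ≥ p`, in the form `≠ ⊤`.
(Same statement as `Spec.normGroup_ne_top`.) -/
theorem ub_normGroup_ne_top (hp : p ≠ 2) (h : IsUCyc p F M g) : normGroup F M p ≠ ⊤ :=
  let key := ub_bridge_final hp h
  hq_normGroup_ne_top_of h key.1 key.2

end Final

end Fermat.Agent.S14x
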