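/-
S14 project, module DENS (wiring, helper22; core by helper76 in DensCore.lean, SI by
helper48/helper40/helper38/helper11 et al.): there is a non-split prime not dividing `m`.
-/
import Fermat.Agent.S14x.DensCore
import Fermat.Agent.S14x.Artin
import Fermat.Agent.S14x.SIBridgeFinal

set_option autoImplicit false

namespace Fermat.Agent.S14x

open NumberField IsDedekindDomain

variable {p : ℕ} [Fact p.Prime]
variable {F M : Type} [Field F] [NumberField F] [Field M] [NumberField M] [Algebra F M]
  [IsGalois F M] {g : M ≃ₐ[F] M}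

/-- SI (bare Spec name): the algebraic norm-index inequality. -/
theorem normGroup_ne_top (hp : p ≠ 2) (h : IsUCyc p F M g) : normGroup F M p ≠ ⊤ :=
  ub_normGroup_ne_top hp h

/-- DENS (bare Spec name). -/
theorem exists_frobExp_ne_zero (hp : p ≠ 2) (h : IsUCyc p F M g) (m : ℕ) (hm : m ≠ 0) :
    ∃ v : Pl F, (m : 𝓞 F) ∉ v.asIdeal ∧ frobExp F M p g v ≠ 0 :=
  dn_exists_frobExp_ne_zero_of (normGroup_ne_top hp h) (fun v => frobExp_eq_zero_iff h v) m hm

end Fermat.Agent.S14x
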