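/-
S14 project, module CYC (helper26), core part: explicit reciprocity for sub-cyclotomic extensions.
`cy_main_of`: if `M ⊆ Ω = F(ζ_m)` then the Artin map of `M/F` kills the ray group mod `m`,
assuming the AAPI facts (`frob_eq_pow`, `frobExp_eq_zero_iff`, `frob_unique`) and the norm
congruence `∏_v (N v)^{ord_v x} = 1` in `(ZMod m)ˣ` for `x ≡ 1 mod m` (module CycNorm) as hypotheses.
-/
import Mathlib
import Fermat.Agent.S14x.Defs

set_option autoImplicit false

namespace Fermat.Agent.S14x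

open NumberField IsDedekindDomain

/-! ### the Galois group `Gal(M/F)` is cyclic of order `p`, generated by `g` -/

section Log

variable {p : ℕ} [Fact p.Prime]
variable {F M : Type} [Field F] [NumberField F] [Field M] [NumberField M] [Algebra F M]
  [IsGalois F M] {g : M ≃ₐ[F] M}

omit [Fact p.Prime] in
theorem cy_card_gal (h : IsUCyc p F M g) : Nat.card (M ≃ₐ[F] M) = p := by
  rw [IsGalois.card_aut_eq_finrank, h.finrank_eq]

theorem cy_orderOf (h : IsUCyc p F M g) : orderOf g = p := by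
  have hdvd : orderOf g ∣ p := by
    have := orderOf_dvd_natCard g
    rwa [cy_card_gal h] at this
  rcases (Nat.dvd_prime (Fact.out : p.Prime)).mp hdvd with h1 | h1
  · exact absurd (orderOf_eq_one_iff.mp h1) h.g_ne_one
  · exact h1

theorem cy_mem_zpowers (h : IsUCyc p F M g) (x : M ≃ₐ[F] M) : x ∈ Subgroup.zpowers g := by
  have hcard : Nat.card (Subgroup.zpowers g) = Nat.card (M ≃ₐ[F] M) := by
    rw [Nat.card_zpowers, cy_orderOf h, cy_card_gal h]
  have : Subgroup.zpowers g = ⊤ := Subgroup.eq_top_of_card_eq _ hcard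
  rw [this]; trivial

/-- the discrete logarithm `Gal(M/F) → ZMod p` with respect to the generator `g`. -/
noncomputable def cy_log (h : IsUCyc p F M g) : (M ≃ₐ[F] M) →* Multiplicative (ZMod p) :=
  (zmodMulEquivOfGenerator (cy_mem_zpowers h) (cy_card_gal h)).symm.toMonoidHom

theorem cy_log_pow (h : IsUCyc p F M g) (e : ZMod p) :
    cy_log h (g ^ e.val) = Multiplicative.ofAdd e := by
  have := zmodMulEquivOfGenerator_symm_apply_zpow (cy_mem_zpowers h) (cy_card_gal h) (e.val : ℤ)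
  simp only [zpow_natCast] at this
  simp only [cy_log, MulEquiv.toMonoidHom_eq_coe, MonoidHom.coe_coe]
  rw [this]
  simp

end Log

/-! ### Frobenius elements of a Galois extension `Ω/F` -/

section Frob

variable {F : Type} [Field F] [NumberField F]
variable (Ω : Type) [Field Ω] [NumberField Ω] [Algebra F Ω] [IsGalois F Ω]

theorem cy_frob_isArithFrobAt (v : Pl F) :
    IsArithFrobAt (𝓞 F) (frob F Ω v) (plAbove F Ω v).asIdeal := by
  have : Finite (𝓞 Ω ⧸ (plAbove F Ω v).asIdeal) :=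
      Ideal.finiteQuotientOfFreeOfNeBot _ (plAbove F Ω v).ne_bot
  exact IsArithFrobAt.arithFrobAt (𝓞 F) (Ω ≃ₐ[F] Ω) (plAbove F Ω v).asIdeal

omit [IsGalois F Ω] in
theorem cy_card_quot (v : Pl F) :
    Nat.card (𝓞 F ⧸ (plAbove F Ω v).asIdeal.under (𝓞 F)) = plNorm v := by
  rw [plAbove_over F Ω v, plNorm, Ideal.absNorm_apply, Submodule.cardQuot_apply]

/-- the Frobenius at `v ∤ m` raises `m`-th roots of unity to the power `N v`. -/
theorem cy_frob_apply_root (v : Pl F) (m : ℕ) (hm : (m : 𝓞 F) ∉ v.asIdeal) (ζ : Ω) (hζ : ζ ^ m = 1) :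
    frob F Ω v ζ = ζ ^ plNorm v := by
  have hm0 : m ≠ 0 := by rintro rfl; exact hm (by simp)
  have hint : IsIntegral ℤ ζ := ⟨Polynomial.X ^ m - 1, Polynomial.monic_X_pow_sub_C 1 hm0, by simp [hζ]⟩
  set ζ' : 𝓞 Ω := ⟨ζ, hint⟩ with hζ'
  have h1 := cy_frob_isArithFrobAt Ω v
  have hcoe : (algebraMap (𝓞 Ω) Ω) ζ' = ζ := rfl
  have hζ'm : ζ' ^ m = 1 := by
    apply RingOfIntegers.ext
    show (algebraMap (𝓞 Ω) Ω) (ζ' ^ m) = (algebraMap (𝓞 Ω) Ω) 1
    rw [map_pow, map_one, hcoe, hζ]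
  have hmW : ((m : ℕ) : 𝓞 Ω) ∉ (plAbove F Ω v).asIdeal := by
    intro hmem
    apply hm
    rw [← plAbove_over F Ω v]
    rw [Ideal.under, Ideal.mem_comap, map_natCast]
    exact hmem
  have h2 := AlgHom.IsArithFrobAt.apply_of_pow_eq_one h1 hζ'm hmW
  rw [cy_card_quot] at h2
  have h3 := congrArg (fun y : 𝓞 Ω => (algebraMap (𝓞 Ω) Ω) y) h2
  simp only [map_pow] at h3
  rw [hcoe] at h3
  rw [← h3]
  rfl

variable (M : Type) [Field M] [NumberField M] [Algebra F M] [IsGalois F M] [Algebra M Ω]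
  [IsScalarTower F M Ω]

/-- the Frobenius of `Ω/F` restricts to the Frobenius of `M/F` (given uniqueness for `M/F`). -/
theorem cy_restrict_frob
    (huniq : ∀ (v : Pl F) (w : Pl M), PlOver F M w v → ∀ s : M ≃ₐ[F] M,
       (∀ x : 𝓞 M, (s • x) - x ^ plNorm v ∈ w.asIdeal) → s = frob F M v)
    (v : Pl F) :
    AlgEquiv.restrictNormalHom M (frob F Ω v) = frob F M v := by
  set W := plAbove F Ω v with hW
  refine huniq v (plUnder M Ω W) ?_ _ ?_
  · show ((W.asIdeal.under (𝓞 M)).under (𝓞 F)) = v.asIdeal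
    rw [Ideal.under_under]
    exact plAbove_over F Ω v
  · intro x
    show _ ∈ W.asIdeal.under (𝓞 M)
    rw [Ideal.under, Ideal.mem_comap, map_sub, map_pow]
    have h1 := cy_frob_isArithFrobAt Ω v (algebraMap (𝓞 M) (𝓞 Ω) x)
    rw [cy_card_quot] at h1
    convert h1 using 2
    apply RingOfIntegers.ext
    show algebraMap M Ω ((AlgEquiv.restrictNormalHom M (frob F Ω v)) (x : M)) = (frob F Ω v) (algebraMap M Ω (x : M))
    exact AlgEquiv.restrictNormal_commutes _ M _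

end Frob

/-! ### the main computation -/

section Main

variable {p : ℕ} [Fact p.Prime]
variable {F M : Type} [Field F] [NumberField F] [Field M] [NumberField M] [Algebra F M]
  [IsGalois F M] {g : M ≃ₐ[F] M}

theorem cy_artZ_apply (D : Dv F) :
    artZ F M p g D = D.sum (fun v n => (n : ZMod p) * frobExp F M p g v) := by
  rw [artZ, Finsupp.liftAddHom_apply]
  rfl

open scoped IsMulCommutative in
theorem cy_artZ_eq_zero_of (h : IsUCyc p F M g)
    (hpow : ∀ v : Pl F, frob F M v = g ^ (frobExp F M p g v).val)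
    (huniq : ∀ (v : Pl F) (w : Pl M), PlOver F M w v → ∀ s : M ≃ₐ[F] M,
       (∀ x : 𝓞 M, (s • x) - x ^ plNorm v ∈ w.asIdeal) → s = frob F M v)
    (Ω : Type) [Field Ω] [Algebra F Ω] [Algebra M Ω] [IsScalarTower F M Ω] (m : ℕ) [NeZero m]
    [IsCyclotomicExtension {m} F Ω] (D : Dv F)
    (hnorm : ∀ u : Pl F → (ZMod m)ˣ,
      (∀ v, (m : 𝓞 F) ∉ v.asIdeal → ((u v : (ZMod m)ˣ) : ZMod m) = (plNorm v : ZMod m)) →
      D.prod (fun v n => u v ^ n) = 1) :
    artZ F M p g D = 0 := by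
  have : NumberField Ω := IsCyclotomicExtension.numberField {m} F Ω
  have : IsGalois F Ω := IsCyclotomicExtension.isGalois {m} F Ω
  have : IsMulCommutative (Ω ≃ₐ[F] Ω) := IsCyclotomicExtension.isMulCommutative {m} F Ω
  obtain ⟨ζ, hζ⟩ := IsCyclotomicExtension.exists_isPrimitiveRoot F Ω (Set.mem_singleton m)
    (NeZero.ne m)
  set χ : (Ω ≃ₐ[F] Ω) →* (ZMod m)ˣ := hζ.autToPow F with hχ
  set σD : Ω ≃ₐ[F] Ω := D.prod (fun v n => frob F Ω v ^ n) with hσD
  -- the cyclotomic character of the Frobenius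
  have hF1 : ∀ v : Pl F, (m : 𝓞 F) ∉ v.asIdeal →
      ((χ (frob F Ω v) : (ZMod m)ˣ) : ZMod m) = (plNorm v : ZMod m) := by
    intro v hv
    have h1 := IsPrimitiveRoot.autToPow_spec F hζ (frob F Ω v)
    rw [cy_frob_apply_root Ω v m hv ζ hζ.pow_eq_one] at h1
    have hζ0 : ζ ≠ 0 := hζ.ne_zero (NeZero.ne m)
    have hz : ζ ^ ((plNorm v : ℤ) - (((χ (frob F Ω v) : (ZMod m)ˣ) : ZMod m).val : ℤ)) = 1 := by
      rw [zpow_sub₀ hζ0, zpow_natCast, zpow_natCast, h1, div_self (pow_ne_zero _ hζ0)]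
    have hd := (hζ.zpow_eq_one_iff_dvd _).mp hz
    have h2 := (ZMod.intCast_eq_intCast_iff_dvd_sub
      ((((χ (frob F Ω v) : (ZMod m)ˣ) : ZMod m).val : ℕ) : ℤ) ((plNorm v : ℕ) : ℤ) m).mpr hd
    simpa using h2
  have h1 : χ σD = D.prod (fun v n => χ (frob F Ω v) ^ n) := by
    rw [hσD, map_finsuppProd]
    simp only [map_zpow]
  have h2 : χ σD = 1 := by
    rw [h1]
    exact hnorm (fun v => χ (frob F Ω v)) hF1
  have h3 : σD = 1 := IsPrimitiveRoot.autToPow_injective F hζ (by rw [h2, map_one])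
  -- restrict to `M` and take logarithms
  set κ : (Ω ≃ₐ[F] Ω) →* Multiplicative (ZMod p) :=
    (cy_log h).comp (AlgEquiv.restrictNormalHom M) with hκ
  have h5 : ∀ v, κ (frob F Ω v) = Multiplicative.ofAdd (frobExp F M p g v) := by
    intro v
    rw [hκ, MonoidHom.comp_apply, cy_restrict_frob Ω M huniq v, hpow v, cy_log_pow]
  have h4 : κ σD = D.prod (fun v n => Multiplicative.ofAdd (frobExp F M p g v) ^ n) := by
    rw [hσD, map_finsuppProd]
    simp only [map_zpow, h5]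
  rw [h3, map_one] at h4
  rw [cy_artZ_apply]
  have h6 := congrArg Multiplicative.toAdd h4
  rw [Finsupp.prod, toAdd_prod] at h6
  simp only [toAdd_one, toAdd_zpow, toAdd_ofAdd] at h6
  simp only [zsmul_eq_mul] at h6
  rw [Finsupp.sum]
  exact h6.symm

/-- CYC, with the AAPI facts and the norm congruence as hypotheses. -/
theorem cy_main_of (h : IsUCyc p F M g)
    (hpow : ∀ v : Pl F, frob F M v = g ^ (frobExp F M p g v).val)
    (hzero : ∀ v : Pl F, SplitsCompletely F M v → frobExp F M p g v = 0)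
    (huniq : ∀ (v : Pl F) (w : Pl M), PlOver F M w v → ∀ s : M ≃ₐ[F] M,
       (∀ x : 𝓞 M, (s • x) - x ^ plNorm v ∈ w.asIdeal) → s = frob F M v)
    (Ω : Type) [Field Ω] [Algebra F Ω] [Algebra M Ω] [IsScalarTower F M Ω] (m : ℕ) [NeZero m]
    [IsCyclotomicExtension {m} F Ω]
    (hnorm : ∀ x : 𝓞 F, x ≠ 0 → x - 1 ∈ Ideal.span {(m : 𝓞 F)} → ∀ u : Pl F → (ZMod m)ˣ,
      (∀ v, (m : 𝓞 F) ∉ v.asIdeal → ((u v : (ZMod m)ˣ) : ZMod m) = (plNorm v : ZMod m)) →
      (divOf (x : F)).prod (fun v n => u v ^ n) = 1) :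
    rayGroup F M m ≤ (artZ F M p g).ker := by
  rw [rayGroup, AddSubgroup.closure_le]
  rintro D (⟨x, hx0, hx1, rfl⟩ | ⟨v, hsplit, _, rfl⟩)
  · exact cy_artZ_eq_zero_of h hpow huniq Ω m _ (hnorm x hx0 hx1)
  · rw [SetLike.mem_coe, AddMonoidHom.mem_ker, cy_artZ_apply, Finsupp.sum_single_index]
    · rw [hzero v hsplit, mul_zero]
    · simp

end Main

end Fermat.Agent.S14x
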