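/-
S14 project, module CYC (helper26), norm side: for `x ∈ 𝓞 F`, `x ≡ 1 mod m`, `x ≠ 0`, and `F ∋ ζ_p`
with `p` odd (so `F` is totally complex and norms are positive):
`∏_v (N v)^{ord_v x} = absNorm (x) = N_{F/ℚ}(x) ≡ 1 mod m`.
-/
import Mathlib
import Fermat.Agent.S14x.Defs

set_option autoImplicit false

namespace Fermat.Agent.S14x

open NumberField IsDedekindDomain

section

variable {F : Type*} [Field F] [NumberField F]

/-! ### positivity of the norm -/

/-- complex conjugate of a complex embedding -/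
noncomputable def cyn_conj (φ : F →ₐ[ℚ] ℂ) : F →ₐ[ℚ] ℂ :=
  (Complex.conjAe.toAlgHom.restrictScalars ℚ).comp φ

@[simp] theorem cyn_conj_apply (φ : F →ₐ[ℚ] ℂ) (y : F) :
    cyn_conj φ y = (starRingEnd ℂ) (φ y) := rfl

theorem cyn_conj_conj (φ : F →ₐ[ℚ] ℂ) : cyn_conj (cyn_conj φ) = φ := by
  ext y; simp

/-- a primitive `p`-th root of unity (`p` odd prime) has non-real image under every embedding -/
theorem cyn_im_ne_zero {p : ℕ} (hp : p.Prime) (hp2 : p ≠ 2) {ζ : F} (hζ : IsPrimitiveRoot ζ p)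
    (φ : F →ₐ[ℚ] ℂ) : (φ ζ).im ≠ 0 := by
  intro him
  have hφ : IsPrimitiveRoot (φ ζ) p := hζ.map_of_injective φ.injective
  have hre : φ ζ = ((φ ζ).re : ℂ) := by
    apply Complex.ext <;> simp [him]
  have hodd : Odd p := hp.odd_of_ne_two hp2
  have h1 : ((φ ζ).re) ^ p = 1 := by
    have := hφ.pow_eq_one
    rw [hre] at this
    exact_mod_cast this
  have h2 : (φ ζ).re = 1 := by
    have := hodd.strictMono_pow (R := ℝ)
    apply this.injective
    simp [h1]
  have h3 : φ ζ = 1 := by rw [hre, h2]; simp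
  exact hφ.ne_one hp.one_lt h3

/-- the norm of a non-zero element of a number field containing `ζ_p`, `p` odd, is positive -/
theorem cyn_norm_pos {p : ℕ} (hp : p.Prime) (hp2 : p ≠ 2) {ζ : F} (hζ : IsPrimitiveRoot ζ p)
    (y : F) (hy : y ≠ 0) : 0 < Algebra.norm ℚ y := by
  classical
  have hprod := Algebra.norm_eq_prod_embeddings ℚ ℂ y
  rw [← Finset.prod_filter_mul_prod_filter_not Finset.univ (fun φ : F →ₐ[ℚ] ℂ => 0 < (φ ζ).im)]
    at hprod
  have hre : ∏ φ ∈ Finset.univ.filter (fun φ : F →ₐ[ℚ] ℂ => ¬ 0 < (φ ζ).im), φ y =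
      ∏ φ ∈ Finset.univ.filter (fun φ : F →ₐ[ℚ] ℂ => 0 < (φ ζ).im), (starRingEnd ℂ) (φ y) := by
    symm
    refine Finset.prod_nbij' cyn_conj cyn_conj ?_ ?_ ?_ ?_ ?_
    · intro φ hφ
      simp only [Finset.mem_filter, Finset.mem_univ, true_and] at hφ ⊢
      simp only [cyn_conj_apply, Complex.conj_im]
      linarith
    · intro φ hφ
      simp only [Finset.mem_filter, Finset.mem_univ, true_and] at hφ ⊢
      simp only [cyn_conj_apply, Complex.conj_im]
      have := cyn_im_ne_zero hp hp2 hζ φ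
      rcases lt_or_gt_of_ne this with h | h
      · linarith
      · exact absurd h hφ
    · intro φ _; exact cyn_conj_conj φ
    · intro φ _; exact cyn_conj_conj φ
    · intro φ _; simp
  rw [hre, ← Finset.prod_mul_distrib] at hprod
  have hns : ∀ φ : F →ₐ[ℚ] ℂ, φ y * (starRingEnd ℂ) (φ y) = ((Complex.normSq (φ y) : ℝ) : ℂ) :=
    fun φ => Complex.mul_conj (φ y)
  simp only [hns] at hprod
  rw [← Complex.ofReal_prod] at hprod
  have hpos : 0 < ∏ φ ∈ Finset.univ.filter (fun φ : F →ₐ[ℚ] ℂ => 0 < (φ ζ).im),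
      Complex.normSq (φ y) := by
    apply Finset.prod_pos
    intro φ _
    exact Complex.normSq_pos.mpr ((map_ne_zero φ).mpr hy)
  have h4 : ((Algebra.norm ℚ y : ℚ) : ℝ) = ∏ φ ∈ Finset.univ.filter
      (fun φ : F →ₐ[ℚ] ℂ => 0 < (φ ζ).im), Complex.normSq (φ y) := by
    have : ((Algebra.norm ℚ y : ℚ) : ℂ) = (((Algebra.norm ℚ y : ℚ) : ℝ) : ℂ) := by simp
    rw [eq_ratCast, this] at hprod
    exact_mod_cast hprod
  have h5 : (0 : ℝ) < ((Algebra.norm ℚ y : ℚ) : ℝ) := by rw [h4]; exact hpos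
  exact_mod_cast h5

/-! ### the norm congruence -/

/-- `x ≡ 1 mod m` implies `N(x) ≡ 1 mod m`. -/
theorem cyn_norm_int_zmod (m : ℕ) (x : 𝓞 F) (hx : x - 1 ∈ Ideal.span {(m : 𝓞 F)}) :
    ((Algebra.norm ℤ x : ℤ) : ZMod m) = 1 := by
  classical
  obtain ⟨y, hy⟩ := Ideal.mem_span_singleton'.mp hx
  have hx' : x = 1 + (m : ℤ) • y := by
    have : x = 1 + y * (m : 𝓞 F) := by rw [hy]; ring
    rw [this, zsmul_eq_mul]; push_cast; ring
  let b := NumberField.RingOfIntegers.basis F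
  rw [Algebra.norm_eq_matrix_det b, hx', map_add, map_one, map_zsmul]
  show (Int.castRingHom (ZMod m)) (1 + (m : ℤ) • Algebra.leftMulMatrix b y).det = 1
  rw [RingHom.map_det]
  have : (Int.castRingHom (ZMod m)).mapMatrix (1 + (m : ℤ) • Algebra.leftMulMatrix b y) = 1 := by
    rw [map_add, map_one, map_zsmul]
    ext i j
    simp
  rw [this, Matrix.det_one]

/-! ### factorisation of `(x)` -/

/-- the multiplicity of `v` in the factorisation of `(x)`. -/
noncomputable def cyn_count (x : 𝓞 F) (v : Pl F) : ℕ :=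
  (Associates.mk v.asIdeal).count (Associates.mk (Ideal.span {x} : Ideal (𝓞 F))).factors

theorem cyn_ordAt_eq (x : 𝓞 F) (hx : x ≠ 0) (v : Pl F) :
    ordAt v (x : F) = (cyn_count x v : ℤ) := by
  rw [ordAt, show ((x : 𝓞 F) : F) = algebraMap (𝓞 F) F x from rfl,
    HeightOneSpectrum.valuation_of_algebraMap, HeightOneSpectrum.intValuation_if_neg v hx,
    WithZero.log_exp, neg_neg]
  rfl

theorem cyn_mem_of_count_ne_zero (x : 𝓞 F) (hx : x ≠ 0) (v : Pl F) (hc : cyn_count x v ≠ 0) :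
    x ∈ v.asIdeal := by
  have hI : (Ideal.span {x} : Ideal (𝓞 F)) ≠ 0 := by
    simpa [Ideal.zero_eq_bot, Ideal.span_singleton_eq_bot] using hx
  have hdvd : v.asIdeal ∣ Ideal.span {x} :=
    (Associates.count_ne_zero_iff_dvd hI v.irreducible).mp hc
  exact (Ideal.le_of_dvd hdvd) (Ideal.mem_span_singleton_self x)

theorem cyn_prod_plNorm (x : 𝓞 F) (hx : x ≠ 0) (s : Finset (Pl F))
    (hs : ∀ v, cyn_count x v ≠ 0 → v ∈ s) :
    ∏ v ∈ s, plNorm v ^ cyn_count x v = Ideal.absNorm (Ideal.span {x} : Ideal (𝓞 F)) := by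
  have hI : (Ideal.span {x} : Ideal (𝓞 F)) ≠ 0 := by
    simpa [Ideal.zero_eq_bot, Ideal.span_singleton_eq_bot] using hx
  have h1 := Ideal.finprod_heightOneSpectrum_factorization hI
  have hsub : Function.mulSupport (fun v : Pl F => v.maxPowDividing (Ideal.span {x})) ⊆ ↑s := by
    intro v hv
    apply hs
    intro h0
    apply hv
    show v.maxPowDividing (Ideal.span {x}) = 1
    rw [HeightOneSpectrum.maxPowDividing]
    have : (Associates.mk v.asIdeal).count (Associates.mk (Ideal.span {x} : Ideal (𝓞 F))).factors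
      = 0 := h0
    rw [this, pow_zero]
  rw [finprod_eq_prod_of_mulSupport_subset _ hsub] at h1
  conv_rhs => rw [← h1]
  rw [map_prod]
  apply Finset.prod_congr rfl
  intro v _
  rw [HeightOneSpectrum.maxPowDividing, map_pow]
  rfl

/-! ### conclusion -/

/-- `absNorm (x) ≡ 1 mod m` for `x ≡ 1 mod m`, `x ≠ 0`, when `F ∋ ζ_p`, `p` odd. -/
theorem cyn_absNorm_zmod {p : ℕ} (hp : p.Prime) (hp2 : p ≠ 2) {ζ : F} (hζ : IsPrimitiveRoot ζ p)
    (m : ℕ) (x : 𝓞 F) (hx0 : x ≠ 0) (hx : x - 1 ∈ Ideal.span {(m : 𝓞 F)}) :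
    ((Ideal.absNorm (Ideal.span {x} : Ideal (𝓞 F)) : ℕ) : ZMod m) = 1 := by
  rw [Ideal.absNorm_span_singleton]
  have hpos : 0 < Algebra.norm ℤ x := by
    have h1 := cyn_norm_pos hp hp2 hζ (x : F) (by
      intro h; apply hx0; exact RingOfIntegers.ext (by simpa using h))
    rw [← Algebra.coe_norm_int] at h1
    exact_mod_cast h1
  have h2 : ((Algebra.norm ℤ x).natAbs : ℤ) = Algebra.norm ℤ x := Int.natAbs_of_nonneg hpos.le
  have h3 : (((Algebra.norm ℤ x).natAbs : ℕ) : ZMod m) = ((Algebra.norm ℤ x : ℤ) : ZMod m) := by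
    rw [← h2]; simp
  rw [h3]
  exact cyn_norm_int_zmod m x hx

/-- the norm congruence in the shape used by `cy_main_of`. -/
theorem cyn_prod_units {p : ℕ} (hp : p.Prime) (hp2 : p ≠ 2) (ζ : F) (hζ : IsPrimitiveRoot ζ p)
    (m : ℕ) [NeZero m] (x : 𝓞 F) (hx0 : x ≠ 0) (hx : x - 1 ∈ Ideal.span {(m : 𝓞 F)})
    (u : Pl F → (ZMod m)ˣ)
    (hu : ∀ v : Pl F, (m : 𝓞 F) ∉ v.asIdeal →
      ((u v : (ZMod m)ˣ) : ZMod m) = (plNorm v : ZMod m)) :
    (divOf (x : F)).prod (fun v n => u v ^ n) = 1 := by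
  apply Units.ext
  rw [Finsupp.prod, Units.coe_prod, Units.val_one]
  have hterm : ∀ v ∈ (divOf (x : F)).support,
      (((u v ^ (divOf (x : F) v) : (ZMod m)ˣ)) : ZMod m) =
        ((plNorm v ^ cyn_count x v : ℕ) : ZMod m) := by
    intro v hv
    rw [Finsupp.mem_support_iff, divOf_apply, cyn_ordAt_eq x hx0] at hv
    have hc : cyn_count x v ≠ 0 := by exact_mod_cast hv
    have hxv : x ∈ v.asIdeal := cyn_mem_of_count_ne_zero x hx0 v hc
    have hmv : (m : 𝓞 F) ∉ v.asIdeal := by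
      intro hm
      have h1 : x - 1 ∈ v.asIdeal :=
        (Ideal.span_le.mpr (Set.singleton_subset_iff.mpr hm)) hx
      have h2 : (1 : 𝓞 F) ∈ v.asIdeal := by
        have := v.asIdeal.sub_mem hxv h1
        simpa using this
      exact v.isPrime.ne_top ((Ideal.eq_top_iff_one _).mpr h2)
    rw [divOf_apply, cyn_ordAt_eq x hx0, zpow_natCast, Units.val_pow_eq_pow_val, hu v hmv]
    push_cast
    rfl
  rw [Finset.prod_congr rfl hterm, ← Nat.cast_prod,
    cyn_prod_plNorm x hx0 (divOf (x : F)).support (by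
      intro v hc
      rw [Finsupp.mem_support_iff, divOf_apply, cyn_ordAt_eq x hx0]
      exact_mod_cast hc)]
  exact cyn_absNorm_zmod hp hp2 hζ m x hx0 hx

end

end Fermat.Agent.S14x
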