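/-
S14 project, module CYC (helper26): explicit reciprocity for sub-cyclotomic extensions.
`cyc_main` = the CORRECTED Spec statement (`Spec2.cyc_main`, with `hp : p ≠ 2`):
if `M ⊆ Ω = F(ζ_m)` then the Artin map of `M/F` kills the ray group mod `m`.
Assembled from `CycCore.cy_main_of`, the AAPI module `Artin.lean` and `CycNorm.cyn_prod_units`.
-/
import Fermat.Agent.S14x.Artin
import Fermat.Agent.S14x.CycCore
import Fermat.Agent.S14x.CycNorm

set_option autoImplicit false

namespace Fermat.Agent.S14x

open NumberField IsDedekindDomain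

variable {p : ℕ} [Fact p.Prime]
variable {F M : Type} [Field F] [NumberField F] [Field M] [NumberField M] [Algebra F M]
  [IsGalois F M] {g : M ≃ₐ[F] M}

/-- CYC (corrected): explicit reciprocity for sub-cyclotomic extensions: if `M ⊆ Ω = F(ζ_m)` then
the Artin map of `M/F` kills the ray group mod `m`. -/
theorem cyc_main (h : IsUCyc p F M g) (hp : p ≠ 2) (Ω : Type) [Field Ω] [Algebra F Ω]
    [Algebra M Ω] [IsScalarTower F M Ω] (m : ℕ) [NeZero m] [IsCyclotomicExtension {m} F Ω] :
    rayGroup F M m ≤ (artZ F M p g).ker := by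
  obtain ⟨ζ, hζ⟩ := h.zeta
  exact cy_main_of h (frob_eq_pow h) (fun v hv => (frobExp_eq_zero_iff h v).mpr hv)
    (fun v w hw s hs => frob_unique h v w hw s hs) Ω m
    (fun x hx0 hx u hu => cyn_prod_units Fact.out hp ζ hζ m x hx0 hx u hu)

end Fermat.Agent.S14x
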