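/-
S14 project, module FI-D (`FIChar`): finiteness of the ray class group modulo `m`
(`fd_finite_rayCl`, `fd_finite_quotient`) and the dictionary divisors <-> fractional ideals.
Characters / orthogonality for the finite quotient `Q = Dv F ⧸ H` are in Mathlib
(`AddChar Q ℂ`, `AddChar.card_eq`, `AddChar.sum_apply_eq_ite`, `AddChar.sum_eq_ite`,
`AddChar.sum_eq_zero_iff_ne_zero`, `AddChar.norm_apply`).
Author: helper78.  Prefix `fd_`.
-/
import Fermat.Agent.S14x.Defs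

set_option autoImplicit false

namespace Fermat.Agent.S14x

open NumberField IsDedekindDomain FractionalIdeal
open scoped nonZeroDivisors

variable {F : Type*} [Field F] [NumberField F]

/-! ### orders and counts -/


theorem fd_ordAt_algebraMap (v : Pl F) (a : 𝓞 F) (ha : a ≠ 0) :
    ordAt v (algebraMap (𝓞 F) F a) =
      ((Associates.mk v.asIdeal).count (Associates.mk (Ideal.span {a})).factors : ℤ) := by
  unfold ordAt
  rw [HeightOneSpectrum.valuation_of_algebraMap, HeightOneSpectrum.intValuation_if_neg v ha]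
  simp

theorem fd_ordAt_mul (v : Pl F) {x y : F} (hx : x ≠ 0) (hy : y ≠ 0) :
    ordAt v (x * y) = ordAt v x + ordAt v y := by
  unfold ordAt
  rw [map_mul, WithZero.log_mul ((Valuation.ne_zero_iff _).mpr hx) ((Valuation.ne_zero_iff _).mpr hy)]
  ring

theorem fd_ordAt_inv (v : Pl F) (x : F) : ordAt v x⁻¹ = - ordAt v x := by
  unfold ordAt
  rw [map_inv₀, WithZero.log_inv]

theorem fd_ordAt_one (v : Pl F) : ordAt v (1 : F) = 0 := by
  unfold ordAt; simp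

/-- `count` of a principal fractional ideal is the order of its generator -/
theorem fd_count_spanSingleton (v : Pl F) (x : F) (hx : x ≠ 0) :
    FractionalIdeal.count F v (spanSingleton (𝓞 F)⁰ x) = ordAt v x := by
  obtain ⟨a, b, hb, rfl⟩ := IsFractionRing.div_surjective (𝓞 F) x
  have hb0 : b ≠ 0 := nonZeroDivisors.ne_zero hb
  have hbF : algebraMap (𝓞 F) F b ≠ 0 := by
    simpa using hb0
  have ha0 : a ≠ 0 := by
    rintro rfl
    simp at hx
  have haF : algebraMap (𝓞 F) F a ≠ 0 := by simpa using ha0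
  have hI : spanSingleton (𝓞 F)⁰ (algebraMap (𝓞 F) F a / algebraMap (𝓞 F) F b) ≠ 0 := by
    rw [Ne, spanSingleton_eq_zero_iff]; exact hx
  have hrep : spanSingleton (𝓞 F)⁰ (algebraMap (𝓞 F) F a / algebraMap (𝓞 F) F b) =
      spanSingleton (𝓞 F)⁰ ((algebraMap (𝓞 F) F) b)⁻¹ * ((Ideal.span {a} : Ideal (𝓞 F)) :
        FractionalIdeal (𝓞 F)⁰ F) := by
    rw [coeIdeal_span_singleton, spanSingleton_mul_spanSingleton, div_eq_inv_mul]
  rw [count_well_defined F v hI hrep, div_eq_mul_inv, fd_ordAt_mul v haF (inv_ne_zero hbF),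
    fd_ordAt_inv, fd_ordAt_algebraMap v a ha0, fd_ordAt_algebraMap v b hb0]
  ring


/-! ### the fractional ideal and the ideal class of a divisor -/






/-- the fractional ideal of a divisor -/
noncomputable def fd_frac (D : Dv F) : FractionalIdeal (𝓞 F)⁰ F :=
  D.prod (fun v n => (v.asIdeal : FractionalIdeal (𝓞 F)⁰ F) ^ n)

theorem fd_coe_ne_zero (v : Pl F) : (v.asIdeal : FractionalIdeal (𝓞 F)⁰ F) ≠ 0 :=
  coeIdeal_ne_zero.mpr v.ne_bot

theorem fd_frac_ne_zero (D : Dv F) : fd_frac D ≠ 0 := by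
  unfold fd_frac Finsupp.prod
  exact Finset.prod_ne_zero_iff.mpr fun v _ => zpow_ne_zero _ (fd_coe_ne_zero v)

theorem fd_count_frac (v : Pl F) (D : Dv F) : FractionalIdeal.count F v (fd_frac D) = D v :=
  count_finsuppProd F v D

theorem fd_frac_add (D D' : Dv F) : fd_frac (D + D') = fd_frac D * fd_frac D' := by
  unfold fd_frac
  exact Finsupp.prod_add_index' (fun v => zpow_zero _) (fun v n n' => zpow_add₀ (fd_coe_ne_zero v) n n')

theorem fd_frac_zero : fd_frac (0 : Dv F) = 1 := by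
  unfold fd_frac; simp

theorem fd_frac_neg (D : Dv F) : fd_frac (-D) = (fd_frac D)⁻¹ := by
  have h := fd_frac_add D (-D)
  rw [add_neg_cancel, fd_frac_zero] at h
  exact (eq_inv_of_mul_eq_one_right h.symm)

/-- a divisor whose fractional ideal is principal is a principal divisor -/
theorem fd_eq_divOf_of_frac (D : Dv F) (x : F) (hx : x ≠ 0)
    (h : fd_frac D = spanSingleton (𝓞 F)⁰ x) : D = divOf x := by
  ext v
  rw [divOf_apply, ← fd_count_spanSingleton v x hx, ← h, fd_count_frac]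

/-- the ideal class of a divisor -/
noncomputable def fd_cl (D : Dv F) : ClassGroup (𝓞 F) :=
  ClassGroup.mk F (Units.mk0 (fd_frac D) (fd_frac_ne_zero D))

theorem fd_cl_eq (D D' : Dv F) (h : fd_cl D = fd_cl D') :
    ∃ x : F, x ≠ 0 ∧ D = divOf x + D' := by
  have hu : Units.mk0 (fd_frac (D - D')) (fd_frac_ne_zero _) =
      Units.mk0 (fd_frac D) (fd_frac_ne_zero D) / Units.mk0 (fd_frac D') (fd_frac_ne_zero D') := by
    apply Units.ext
    rw [Units.val_div_eq_div_val, Units.val_mk0, Units.val_mk0, Units.val_mk0, sub_eq_add_neg,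
      fd_frac_add, fd_frac_neg, div_eq_mul_inv]
  have h1 : ClassGroup.mk F (Units.mk0 (fd_frac (D - D')) (fd_frac_ne_zero _)) = 1 := by
    rw [hu, map_div]
    exact div_eq_one.mpr h
  rw [ClassGroup.mk_eq_one_iff] at h1
  obtain ⟨x, hx⟩ := h1
  have hfr : fd_frac (D - D') = spanSingleton (𝓞 F)⁰ x := by
    apply FractionalIdeal.coeToSubmodule_injective
    show (fd_frac (D - D') : Submodule (𝓞 F) F) = (spanSingleton (𝓞 F)⁰ x : Submodule (𝓞 F) F)
    rw [coe_spanSingleton]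
    exact hx
  have hx0 : x ≠ 0 := by
    rintro rfl
    rw [spanSingleton_zero] at hfr
    exact fd_frac_ne_zero _ hfr
  refine ⟨x, hx0, ?_⟩
  have := fd_eq_divOf_of_frac (D - D') x hx0 hfr
  rw [← this]; abel


/-! ### integers prime to `m` -/




theorem fd_divOf_mul {x y : F} (hx : x ≠ 0) (hy : y ≠ 0) : divOf (x * y) = divOf x + divOf y := by
  ext v
  simp only [divOf_apply, Finsupp.add_apply]
  exact fd_ordAt_mul v hx hy

/-- `ordAt v x = 0` iff the valuation is `1` (for `x ≠ 0`) -/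
theorem fd_ordAt_eq_zero_iff (v : Pl F) {x : F} (hx : x ≠ 0) :
    ordAt v x = 0 ↔ v.valuation F x = 1 := by
  unfold ordAt
  have hne : v.valuation F x ≠ 0 := (Valuation.ne_zero_iff _).mpr hx
  rw [neg_eq_zero]
  constructor
  · intro h
    have := WithZero.exp_log hne
    rw [h] at this
    simpa using this.symm
  · intro h
    rw [h]; simp

/-- for an integer: `ordAt v a = 0` iff `a ∉ v` -/
theorem fd_ordAt_algebraMap_eq_zero_iff (v : Pl F) {a : 𝓞 F} (ha : a ≠ 0) :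
    ordAt v (algebraMap (𝓞 F) F a) = 0 ↔ a ∉ v.asIdeal := by
  have haF : algebraMap (𝓞 F) F a ≠ 0 := by simpa using ha
  rw [fd_ordAt_eq_zero_iff v haF, HeightOneSpectrum.valuation_eq_one_iff_notMem]

variable (m : ℕ)

theorem fd_natCast_ne_zero [NeZero m] : ((m : ℕ) : 𝓞 F) ≠ 0 := by
  exact_mod_cast (NeZero.ne m)

/-- a proper ideal containing `m` lies in a height-one prime containing `m` -/
theorem fd_exists_pl_of_ne_top [NeZero m] (J : Ideal (𝓞 F)) (hJ : J ≠ ⊤)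
    (hm : ((m : ℕ) : 𝓞 F) ∈ J) : ∃ v : Pl F, ((m : ℕ) : 𝓞 F) ∈ v.asIdeal ∧ J ≤ v.asIdeal := by
  obtain ⟨P, hP, hJP⟩ := Ideal.exists_le_maximal J hJ
  have hPne : P ≠ ⊥ := by
    rintro rfl
    exact fd_natCast_ne_zero (F := F) m (by simpa using hJP hm)
  exact ⟨⟨P, hP.isPrime, hPne⟩, hJP hm, hJP⟩

/-- B2: an integer prime to `m` is a unit modulo `m` -/
theorem fd_exists_mul_sub_one_mem [NeZero m] (a : 𝓞 F)
    (ha : ∀ v : Pl F, ((m : ℕ) : 𝓞 F) ∈ v.asIdeal → a ∉ v.asIdeal) :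
    ∃ c : 𝓞 F, c ≠ 0 ∧ a * c - 1 ∈ Ideal.span {((m : ℕ) : 𝓞 F)} := by
  have htop : Ideal.span {a} ⊔ Ideal.span {((m : ℕ) : 𝓞 F)} = ⊤ := by
    by_contra hne
    obtain ⟨v, hmv, hle⟩ := fd_exists_pl_of_ne_top m _ hne
      (Ideal.mem_sup_right (Ideal.subset_span rfl))
    exact ha v hmv (hle (Ideal.mem_sup_left (Ideal.subset_span rfl)))
  have h1 : (1 : 𝓞 F) ∈ Ideal.span {a} ⊔ Ideal.span {((m : ℕ) : 𝓞 F)} := by
    rw [htop]; trivial
  obtain ⟨y, hy, z, hz, hyz⟩ := Submodule.mem_sup.mp h1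
  obtain ⟨c, rfl⟩ := Ideal.mem_span_singleton'.mp hy
  by_cases hc : c = 0
  · subst hc
    refine ⟨((m : ℕ) : 𝓞 F), fd_natCast_ne_zero m, ?_⟩
    have h1z : (1 : 𝓞 F) = z := by simpa using hyz.symm
    have : a * ((m : ℕ) : 𝓞 F) - 1 = a * ((m : ℕ) : 𝓞 F) - z := by rw [← h1z]
    rw [this]
    exact Ideal.sub_mem _ (Ideal.mul_mem_left _ _ (Ideal.subset_span rfl)) hz
  · refine ⟨c, hc, ?_⟩
    have : a * c - 1 = -z := by rw [← hyz]; ring
    rw [this]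
    exact Ideal.neg_mem_iff _ |>.mpr hz

/-- the denominator ideal of `x` -/
def fd_den (x : F) : Ideal (𝓞 F) where
  carrier := {b | ∃ a : 𝓞 F, algebraMap (𝓞 F) F a = algebraMap (𝓞 F) F b * x}
  add_mem' := by
    rintro b b' ⟨a, ha⟩ ⟨a', ha'⟩
    exact ⟨a + a', by rw [map_add, map_add, ha, ha']; ring⟩
  zero_mem' := ⟨0, by simp⟩
  smul_mem' := by
    rintro c b ⟨a, ha⟩
    exact ⟨c * a, by rw [smul_eq_mul, map_mul, map_mul, ha]; ring⟩

/-- B1: an element of `F` which is a unit at all primes dividing `m` is `a / b` with `b ≡ 1 mod m`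
and `a` prime to `m`. -/
theorem fd_exists_frac_of_coprime [NeZero m] (x : F) (hx : x ≠ 0)
    (hxm : ∀ v : Pl F, ((m : ℕ) : 𝓞 F) ∈ v.asIdeal → ordAt v x = 0) :
    ∃ a b : 𝓞 F, a ≠ 0 ∧ b ≠ 0 ∧ b - 1 ∈ Ideal.span {((m : ℕ) : 𝓞 F)} ∧
      algebraMap (𝓞 F) F a = algebraMap (𝓞 F) F b * x ∧
      ∀ v : Pl F, ((m : ℕ) : 𝓞 F) ∈ v.asIdeal → a ∉ v.asIdeal := by
  have htop : fd_den x ⊔ Ideal.span {((m : ℕ) : 𝓞 F)} = ⊤ := by
    by_contra hne
    obtain ⟨v, hmv, hle⟩ := fd_exists_pl_of_ne_top m _ hne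
      (Ideal.mem_sup_right (Ideal.subset_span rfl))
    have hval : v.valuation F x ≤ 1 := ((fd_ordAt_eq_zero_iff v hx).mp (hxm v hmv)).le
    obtain ⟨n, d, hnd⟩ := HeightOneSpectrum.exists_primeCompl_mul_eq_of_integer v x hval
    have hd : (d : 𝓞 F) ∈ fd_den x := ⟨n, by rw [← hnd]; ring⟩
    exact d.2 (hle (Ideal.mem_sup_left hd))
  have h1 : (1 : 𝓞 F) ∈ fd_den x ⊔ Ideal.span {((m : ℕ) : 𝓞 F)} := by
    rw [htop]; trivial
  obtain ⟨b₀, hb₀, z, hz, hbz⟩ := Submodule.mem_sup.mp h1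
  -- a nonzero element of the denominator ideal
  obtain ⟨n₀, d₀, hd₀, hnd₀⟩ := IsFractionRing.div_surjective (𝓞 F) x
  have hd₀0 : d₀ ≠ 0 := nonZeroDivisors.ne_zero hd₀
  have hd₀F : algebraMap (𝓞 F) F d₀ ≠ 0 := by simpa using hd₀0
  have hd₀mem : d₀ ∈ fd_den x := ⟨n₀, by rw [← hnd₀]; field_simp⟩
  -- choose `b`
  obtain ⟨b, hb, hb0, hb1⟩ : ∃ b : 𝓞 F, b ∈ fd_den x ∧ b ≠ 0 ∧
      b - 1 ∈ Ideal.span {((m : ℕ) : 𝓞 F)} := by
    by_cases hb₀0 : b₀ = 0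
    · refine ⟨((m : ℕ) : 𝓞 F) * d₀, Ideal.mul_mem_left _ _ hd₀mem,
        mul_ne_zero (fd_natCast_ne_zero m) hd₀0, ?_⟩
      have h1z : (1 : 𝓞 F) = z := by rw [← hbz, hb₀0, zero_add]
      rw [h1z]
      exact Ideal.sub_mem _ (Ideal.mul_mem_right _ _ (Ideal.subset_span rfl)) hz
    · refine ⟨b₀, hb₀, hb₀0, ?_⟩
      have : b₀ - 1 = -z := by rw [← hbz]; ring
      rw [this]
      exact (Ideal.neg_mem_iff _).mpr hz
  obtain ⟨a, ha⟩ := hb
  have hbF : algebraMap (𝓞 F) F b ≠ 0 := by simpa using hb0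
  have ha0 : a ≠ 0 := by
    rintro rfl
    rw [map_zero] at ha
    exact (mul_ne_zero hbF hx) ha.symm
  refine ⟨a, b, ha0, hb0, hb1, ha, fun v hmv => ?_⟩
  have hbv : b ∉ v.asIdeal := by
    intro hbv
    have h1v : (1 : 𝓞 F) ∈ v.asIdeal := by
      have := Ideal.sub_mem _ hbv ((Ideal.span_singleton_le_iff_mem _).mpr hmv hb1)
      simpa using this
    exact v.isPrime.ne_top ((Ideal.eq_top_iff_one _).mpr h1v)
  rw [← fd_ordAt_algebraMap_eq_zero_iff v ha0, ha, fd_ordAt_mul v hbF hx, hxm v hmv,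
    (fd_ordAt_algebraMap_eq_zero_iff v hb0).mpr hbv, add_zero]


/-! ### the ray class group -/















variable (F)

/-- the principal ray mod `m`: generated by `div x`, `x ∈ 𝓞 F`, `x ≡ 1 mod m` -/
noncomputable def fd_Pm : AddSubgroup (Dv F) :=
  AddSubgroup.closure
    {D | ∃ x : 𝓞 F, x ≠ 0 ∧ x - 1 ∈ Ideal.span {((m : ℕ) : 𝓞 F)} ∧ D = divOf (x : F)}

/-- the subgroup generated by the primes dividing `m` -/
noncomputable def fd_Sm : AddSubgroup (Dv F) :=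
  AddSubgroup.closure
    {D | ∃ v : Pl F, ((m : ℕ) : 𝓞 F) ∈ v.asIdeal ∧ D = Finsupp.single v 1}

/-- the ray class group mod `m`, as a quotient of the group of all divisors -/
abbrev fd_RayCl : Type _ := Dv F ⧸ (fd_Pm F m ⊔ fd_Sm F m)

variable {F}

theorem fd_divOf_mem_Pm (x : 𝓞 F) (hx : x ≠ 0) (h1 : x - 1 ∈ Ideal.span {((m : ℕ) : 𝓞 F)}) :
    divOf (x : F) ∈ fd_Pm F m :=
  AddSubgroup.subset_closure ⟨x, hx, h1, rfl⟩

/-- B3: congruent integers prime to `m` have the same divisor modulo the principal ray -/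
theorem fd_divOf_sub_mem_Pm [NeZero m] (a a' : 𝓞 F) (ha0 : a ≠ 0) (ha'0 : a' ≠ 0)
    (ha : ∀ v : Pl F, ((m : ℕ) : 𝓞 F) ∈ v.asIdeal → a ∉ v.asIdeal)
    (haa' : a - a' ∈ Ideal.span {((m : ℕ) : 𝓞 F)}) :
    divOf (a : F) - divOf (a' : F) ∈ fd_Pm F m := by
  obtain ⟨c, hc0, hc⟩ := fd_exists_mul_sub_one_mem m a ha
  have hc' : a' * c - 1 ∈ Ideal.span {((m : ℕ) : 𝓞 F)} := by
    have : a' * c - 1 = (a * c - 1) - (a - a') * c := by ring
    rw [this]
    exact Ideal.sub_mem _ hc (Ideal.mul_mem_right _ _ haa')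
  have h1 := fd_divOf_mem_Pm m (a * c) (mul_ne_zero ha0 hc0) hc
  have h2 := fd_divOf_mem_Pm m (a' * c) (mul_ne_zero ha'0 hc0) hc'
  have haF : (a : F) ≠ 0 := by simpa using ha0
  have ha'F : (a' : F) ≠ 0 := by simpa using ha'0
  have hcF : (c : F) ≠ 0 := by simpa using hc0
  have e1 : (((a * c : 𝓞 F)) : F) = (a : F) * (c : F) := by push_cast; ring
  have e2 : (((a' * c : 𝓞 F)) : F) = (a' : F) * (c : F) := by push_cast; ring
  rw [e1, fd_divOf_mul haF hcF] at h1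
  rw [e2, fd_divOf_mul ha'F hcF] at h2
  have := (fd_Pm F m).sub_mem h1 h2
  have e : divOf (a : F) - divOf (a' : F) =
      (divOf (a : F) + divOf (c : F)) - (divOf (a' : F) + divOf (c : F)) := by abel
  rw [e]; exact this

theorem fd_single_mem_Sm (v : Pl F) (hv : ((m : ℕ) : 𝓞 F) ∈ v.asIdeal) :
    Finsupp.single v (1 : ℤ) ∈ fd_Sm F m :=
  AddSubgroup.subset_closure ⟨v, hv, rfl⟩

/-- every divisor is congruent modulo `fd_Sm` to a divisor prime to `m` -/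
theorem fd_exists_coprime_rep (D : Dv F) :
    ∃ D' : Dv F, D - D' ∈ fd_Sm F m ∧ ∀ v : Pl F, ((m : ℕ) : 𝓞 F) ∈ v.asIdeal → D' v = 0 := by
  classical
  refine ⟨D.filter (fun v => ¬ ((m : ℕ) : 𝓞 F) ∈ v.asIdeal), ?_, fun v hv => ?_⟩
  · have h : D - D.filter (fun v => ¬ ((m : ℕ) : 𝓞 F) ∈ v.asIdeal) =
        D.filter (fun v => ((m : ℕ) : 𝓞 F) ∈ v.asIdeal) := by
      rw [sub_eq_iff_eq_add]
      exact (Finsupp.filter_add_filter_not D _).symm
    rw [h]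
    have hsum : D.filter (fun v => ((m : ℕ) : 𝓞 F) ∈ v.asIdeal) =
        ∑ v ∈ (D.filter (fun v => ((m : ℕ) : 𝓞 F) ∈ v.asIdeal)).support,
          Finsupp.single v ((D.filter (fun v => ((m : ℕ) : 𝓞 F) ∈ v.asIdeal)) v) :=
      (Finsupp.sum_single _).symm
    rw [hsum]
    refine AddSubgroup.sum_mem _ fun v hv => ?_
    have hmv : ((m : ℕ) : 𝓞 F) ∈ v.asIdeal := by
      by_contra hcon
      rw [Finsupp.mem_support_iff, Finsupp.filter_apply_neg (fun v : Pl F => ((m : ℕ) : 𝓞 F) ∈ v.asIdeal) D hcon] at hv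
      exact hv rfl
    have hs : Finsupp.single v ((D.filter (fun v => ((m : ℕ) : 𝓞 F) ∈ v.asIdeal)) v) =
        ((D.filter (fun v => ((m : ℕ) : 𝓞 F) ∈ v.asIdeal)) v) • (Finsupp.single v (1 : ℤ)) := by
      rw [Finsupp.smul_single, smul_eq_mul, mul_one]
    rw [hs]
    exact (fd_Sm F m).zsmul_mem (fd_single_mem_Sm m v hmv) _
  · exact Finsupp.filter_apply_neg (fun v : Pl F => ¬ ((m : ℕ) : 𝓞 F) ∈ v.asIdeal) D (not_not.mpr hv)


variable (F)

/-- D1: the ray class group modulo `m` is finite -/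
theorem fd_finite_rayCl [NeZero m] : Finite (fd_RayCl F m) := by
  classical
  have hspan : Ideal.span {((m : ℕ) : 𝓞 F)} ≠ ⊥ := by
    rw [Ne, Ideal.span_singleton_eq_bot]; exact fd_natCast_ne_zero m
  haveI : Finite (𝓞 F ⧸ Ideal.span {((m : ℕ) : 𝓞 F)}) :=
    Ideal.finiteQuotientOfFreeOfNeBot _ hspan
  let E : ClassGroup (𝓞 F) → Dv F := fun c =>
    if h : ∃ E : Dv F, (∀ v : Pl F, ((m : ℕ) : 𝓞 F) ∈ v.asIdeal → E v = 0) ∧ fd_cl E = c
    then h.choose else 0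
  let A : (𝓞 F ⧸ Ideal.span {((m : ℕ) : 𝓞 F)}) → 𝓞 F := fun r =>
    if h : ∃ a : 𝓞 F, a ≠ 0 ∧ (∀ v : Pl F, ((m : ℕ) : 𝓞 F) ∈ v.asIdeal → a ∉ v.asIdeal) ∧
        Ideal.Quotient.mk (Ideal.span {((m : ℕ) : 𝓞 F)}) a = r
    then h.choose else 1
  let f : ClassGroup (𝓞 F) × (𝓞 F ⧸ Ideal.span {((m : ℕ) : 𝓞 F)}) → fd_RayCl F m :=
    fun cr => QuotientAddGroup.mk (E cr.1 + divOf ((A cr.2 : 𝓞 F) : F))
  refine Finite.of_surjective f ?_
  intro q
  obtain ⟨D, rfl⟩ := QuotientAddGroup.mk_surjective q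
  obtain ⟨D', hDD', hD'⟩ := fd_exists_coprime_rep m D
  have hE : ∃ E : Dv F, (∀ v : Pl F, ((m : ℕ) : 𝓞 F) ∈ v.asIdeal → E v = 0) ∧
      fd_cl E = fd_cl D' := ⟨D', hD', rfl⟩
  obtain ⟨Ec, hEc, hE0, hEcl⟩ : ∃ Ec : Dv F, E (fd_cl D') = Ec ∧
      (∀ v : Pl F, ((m : ℕ) : 𝓞 F) ∈ v.asIdeal → Ec v = 0) ∧ fd_cl Ec = fd_cl D' :=
    ⟨hE.choose, dif_pos hE, hE.choose_spec.1, hE.choose_spec.2⟩
  obtain ⟨x, hx0, hx⟩ := fd_cl_eq D' Ec hEcl.symm
  have hxm : ∀ v : Pl F, ((m : ℕ) : 𝓞 F) ∈ v.asIdeal → ordAt v x = 0 := by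
    intro v hv
    have := congrArg (fun G : Dv F => G v) hx
    simp only [Finsupp.add_apply, divOf_apply, hD' v hv, hE0 v hv, add_zero] at this
    exact this.symm
  obtain ⟨a, b, ha0, hb0, hb1, hab, ham⟩ := fd_exists_frac_of_coprime m x hx0 hxm
  have hA : ∃ a' : 𝓞 F, a' ≠ 0 ∧
      (∀ v : Pl F, ((m : ℕ) : 𝓞 F) ∈ v.asIdeal → a' ∉ v.asIdeal) ∧
      Ideal.Quotient.mk (Ideal.span {((m : ℕ) : 𝓞 F)}) a' =
        Ideal.Quotient.mk (Ideal.span {((m : ℕ) : 𝓞 F)}) a := ⟨a, ha0, ham, rfl⟩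
  obtain ⟨a', hAr, ha'0, ha'm, ha'a⟩ : ∃ a' : 𝓞 F,
      A (Ideal.Quotient.mk (Ideal.span {((m : ℕ) : 𝓞 F)}) a) = a' ∧ a' ≠ 0 ∧
      (∀ v : Pl F, ((m : ℕ) : 𝓞 F) ∈ v.asIdeal → a' ∉ v.asIdeal) ∧
      Ideal.Quotient.mk (Ideal.span {((m : ℕ) : 𝓞 F)}) a' =
        Ideal.Quotient.mk (Ideal.span {((m : ℕ) : 𝓞 F)}) a :=
    ⟨hA.choose, dif_pos hA, hA.choose_spec.1, hA.choose_spec.2.1, hA.choose_spec.2.2⟩
  refine ⟨(fd_cl D', Ideal.Quotient.mk (Ideal.span {((m : ℕ) : 𝓞 F)}) a), ?_⟩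
  show (QuotientAddGroup.mk (E (fd_cl D') +
    divOf ((A (Ideal.Quotient.mk (Ideal.span {((m : ℕ) : 𝓞 F)}) a) : 𝓞 F) : F)) : fd_RayCl F m) =
      QuotientAddGroup.mk D
  rw [hEc, hAr, QuotientAddGroup.eq]
  -- key congruences
  have hbF : (b : F) ≠ 0 := by simpa using hb0
  have hdivx : divOf x = divOf (a : F) - divOf (b : F) := by
    have h1 : divOf (algebraMap (𝓞 F) F a) = divOf (algebraMap (𝓞 F) F b) + divOf x := by
      rw [hab]; exact fd_divOf_mul hbF hx0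
    rw [eq_sub_iff_add_eq, add_comm]
    exact h1.symm
  have hsub : a' - a ∈ Ideal.span {((m : ℕ) : 𝓞 F)} := by
    rw [← Ideal.Quotient.eq]; exact ha'a
  have h3 : divOf ((a' : 𝓞 F) : F) - divOf (a : F) ∈ fd_Pm F m :=
    fd_divOf_sub_mem_Pm m a' a ha'0 ha0 ha'm hsub
  have h4 : divOf (b : F) ∈ fd_Pm F m := fd_divOf_mem_Pm m b hb0 hb1
  have hgoal : -(Ec + divOf ((a' : 𝓞 F) : F)) + D =
      (-(divOf ((a' : 𝓞 F) : F) - divOf (a : F)) - divOf (b : F)) + (D - D') := by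
    rw [hx, hdivx]; abel
  rw [hgoal]
  exact AddSubgroup.add_mem _
    (AddSubgroup.mem_sup_left ((fd_Pm F m).sub_mem ((fd_Pm F m).neg_mem h3) h4))
    (AddSubgroup.mem_sup_right hDD')

/-- every quotient of the ray class group is finite -/
theorem fd_finite_quotient [NeZero m] (H : AddSubgroup (Dv F)) (hH : fd_Pm F m ⊔ fd_Sm F m ≤ H) :
    Finite (Dv F ⧸ H) := by
  haveI := fd_finite_rayCl F m
  exact Finite.of_surjective (QuotientAddGroup.map (fd_Pm F m ⊔ fd_Sm F m) H (AddMonoidHom.id _) hH)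
    (by
      intro q
      obtain ⟨D, rfl⟩ := QuotientAddGroup.mk_surjective q
      exact ⟨QuotientAddGroup.mk D, rfl⟩)


/-! ### comparison with `rayGroup` of `S14x/Defs` -/

section Ray

variable (M : Type*) [Field M] [NumberField M] [Algebra F M]

theorem fd_Pm_le_rayGroup : fd_Pm F m ≤ rayGroup F M m := by
  unfold fd_Pm rayGroup
  exact AddSubgroup.closure_mono (fun D hD => Or.inl hD)

/-- `Dv F ⧸ (rayGroup ⊔ <primes dividing m>)` is finite -/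
theorem fd_finite_rayGroup_sup [NeZero m] : Finite (Dv F ⧸ (rayGroup F M m ⊔ fd_Sm F m)) :=
  fd_finite_quotient F m _ (sup_le_sup_right (fd_Pm_le_rayGroup F m M) _)

end Ray

end Fermat.Agent.S14x
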