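/-
S14 / FI-D (helper78): the divisor `fd_dv I` of an integral ideal and its dictionary with
`Dv F`, `divOf`, `CoprimeTo`, `fd_Pm`, `fd_Sm`, `rayGroup`.
(`fd_Pm`, `fd_Sm`, `fd_RayCl` and the finiteness theorems live in `S14x/FIChar.lean`.)
-/
import Fermat.Agent.S14x.FIChar
set_option autoImplicit false
namespace Fermat.Agent.S14x
open NumberField IsDedekindDomain FractionalIdeal
open scoped nonZeroDivisors

variable {F : Type*} [Field F] [NumberField F]

/-- divisor of a nonzero integral ideal (`0` for `⊥`) -/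
noncomputable def fd_dv (I : Ideal (𝓞 F)) : Dv F :=
  Finsupp.ofSupportFinite
    (fun v => FractionalIdeal.count F v (I : FractionalIdeal (𝓞 F)⁰ F))
    (by
      have h := FractionalIdeal.finite_factors (K := F) (I : FractionalIdeal (𝓞 F)⁰ F)
      exact Filter.eventually_cofinite.mp h)

@[simp] theorem fd_dv_apply (I : Ideal (𝓞 F)) (v : Pl F) :
    fd_dv I v = FractionalIdeal.count F v (I : FractionalIdeal (𝓞 F)⁰ F) := rfl

theorem fd_dv_bot : fd_dv (⊥ : Ideal (𝓞 F)) = 0 := by
  ext v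
  simp [fd_dv_apply, FractionalIdeal.count_zero]

theorem fd_dv_top : fd_dv (⊤ : Ideal (𝓞 F)) = 0 := by
  ext v
  rw [fd_dv_apply, FractionalIdeal.coeIdeal_top, FractionalIdeal.count_one]
  rfl

theorem fd_coeIdeal_ne_zero {I : Ideal (𝓞 F)} (hI : I ≠ ⊥) :
    (I : FractionalIdeal (𝓞 F)⁰ F) ≠ 0 := coeIdeal_ne_zero.mpr hI

theorem fd_dv_mul {I J : Ideal (𝓞 F)} (hI : I ≠ ⊥) (hJ : J ≠ ⊥) :
    fd_dv (I * J) = fd_dv I + fd_dv J := by
  ext v
  rw [Finsupp.add_apply, fd_dv_apply, fd_dv_apply, fd_dv_apply, FractionalIdeal.coeIdeal_mul,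
    FractionalIdeal.count_mul F v (fd_coeIdeal_ne_zero hI) (fd_coeIdeal_ne_zero hJ)]

theorem fd_dv_span_singleton {x : 𝓞 F} (hx : x ≠ 0) :
    fd_dv (Ideal.span {x}) = divOf (x : F) := by
  ext v
  have hxF : (x : F) ≠ 0 := by simpa using hx
  rw [fd_dv_apply, divOf_apply, FractionalIdeal.coeIdeal_span_singleton]
  exact fd_count_spanSingleton v (x : F) hxF

theorem fd_dv_asIdeal (v : Pl F) : fd_dv v.asIdeal = Finsupp.single v 1 := by
  classical
  ext w
  rw [fd_dv_apply, Finsupp.single_apply]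
  by_cases h : v = w
  · subst h
    rw [if_pos rfl, FractionalIdeal.count_self]
  · rw [if_neg h]
    exact FractionalIdeal.count_maximal_coprime F w h

theorem fd_dv_nonneg (I : Ideal (𝓞 F)) (v : Pl F) : 0 ≤ fd_dv I v :=
  FractionalIdeal.count_coe_nonneg F v I


theorem fd_dv_apply_pos_iff {I : Ideal (𝓞 F)} (hI : I ≠ ⊥) (v : Pl F) :
    0 < fd_dv I v ↔ I ≤ v.asIdeal := by
  classical
  rw [fd_dv_apply, FractionalIdeal.count_coe F v (by simpa using hI), Int.natCast_pos,
    Nat.pos_iff_ne_zero, Associates.count_ne_zero_iff_dvd (by simpa using hI) v.irreducible,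
    Ideal.dvd_iff_le]

/-- a nonzero ideal is determined by its divisor -/
theorem fd_dv_injective {I J : Ideal (𝓞 F)} (hI : I ≠ ⊥) (hJ : J ≠ ⊥) (h : fd_dv I = fd_dv J) :
    I = J := by
  have h1 := FractionalIdeal.finprod_heightOneSpectrum_factorization' (K := F)
    (fd_coeIdeal_ne_zero hI)
  have h2 := FractionalIdeal.finprod_heightOneSpectrum_factorization' (K := F)
    (fd_coeIdeal_ne_zero hJ)
  have hc : ∀ v : Pl F, FractionalIdeal.count F v (I : FractionalIdeal (𝓞 F)⁰ F) =
      FractionalIdeal.count F v (J : FractionalIdeal (𝓞 F)⁰ F) := fun v => by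
    have := congrArg (fun D : Dv F => D v) h
    simpa using this
  have : (I : FractionalIdeal (𝓞 F)⁰ F) = (J : FractionalIdeal (𝓞 F)⁰ F) := by
    rw [← h1, ← h2]
    exact finprod_congr fun v => by rw [hc v]
  exact FractionalIdeal.coeIdeal_injective this

section WithM
variable (m : ℕ)

theorem fd_coprimeTo_zero : CoprimeTo m (0 : Dv F) := fun _ _ => rfl

theorem fd_coprimeTo_add {D D' : Dv F} (h : CoprimeTo m D) (h' : CoprimeTo m D') :
    CoprimeTo m (D + D') := fun v hv => by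
  rw [Finsupp.add_apply, h v hv, h' v hv, add_zero]

theorem fd_coprimeTo_neg {D : Dv F} (h : CoprimeTo m D) : CoprimeTo m (-D) := fun v hv => by
  rw [Finsupp.neg_apply, h v hv, neg_zero]

theorem fd_coprimeTo_sub {D D' : Dv F} (h : CoprimeTo m D) (h' : CoprimeTo m D') :
    CoprimeTo m (D - D') := by
  rw [sub_eq_add_neg]
  exact fd_coprimeTo_add m h (fd_coprimeTo_neg m h')

/-- the divisor of an integer `≡ 1 mod m` is prime to `m` -/
theorem fd_coprimeTo_divOf (x : 𝓞 F) (hx : x ≠ 0) (h1 : x - 1 ∈ Ideal.span {((m : ℕ) : 𝓞 F)}) :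
    CoprimeTo m (divOf (x : F)) := by
  intro v hv
  rw [divOf_apply]
  refine (fd_ordAt_algebraMap_eq_zero_iff v hx).mpr fun hxv => ?_
  have h1v : x - 1 ∈ v.asIdeal := (Ideal.span_singleton_le_iff_mem _).mpr hv h1
  have : (1 : 𝓞 F) ∈ v.asIdeal := by
    have e : (1 : 𝓞 F) = x - (x - 1) := by ring
    rw [e]; exact Ideal.sub_mem _ hxv h1v
  exact v.isPrime.ne_top ((Ideal.eq_top_iff_one _).mpr this)

theorem fd_coprimeTo_single (v : Pl F) (hv : ((m : ℕ) : 𝓞 F) ∉ v.asIdeal) (n : ℤ) :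
    CoprimeTo m (Finsupp.single v n : Dv F) := by
  classical
  intro w hw
  rw [Finsupp.single_apply, if_neg]
  rintro rfl
  exact hv hw

/-- every element of the principal ray is prime to `m` -/
theorem fd_coprimeTo_of_mem_Pm {D : Dv F} (h : D ∈ fd_Pm F m) : CoprimeTo m D := by
  unfold fd_Pm at h
  induction h using AddSubgroup.closure_induction with
  | mem D hD =>
    obtain ⟨x, hx, h1, rfl⟩ := hD
    exact fd_coprimeTo_divOf m x hx h1
  | zero => exact fd_coprimeTo_zero m
  | add D D' _ _ h h' => exact fd_coprimeTo_add m h h'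
  | neg D _ h => exact fd_coprimeTo_neg m h

/-- every element of `fd_Sm` is supported on the primes dividing `m` -/
theorem fd_apply_eq_zero_of_mem_Sm {D : Dv F} (h : D ∈ fd_Sm F m) (v : Pl F)
    (hv : ((m : ℕ) : 𝓞 F) ∉ v.asIdeal) : D v = 0 := by
  classical
  unfold fd_Sm at h
  induction h using AddSubgroup.closure_induction with
  | mem D hD =>
    obtain ⟨w, hw, rfl⟩ := hD
    rw [Finsupp.single_apply, if_neg]
    rintro rfl
    exact hv hw
  | zero => rfl
  | add D D' _ _ h h' => rw [Finsupp.add_apply, h, h', add_zero]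
  | neg D _ h => rw [Finsupp.neg_apply, h, neg_zero]

/-- an element of `fd_Sm` prime to `m` is zero -/
theorem fd_eq_zero_of_mem_Sm_of_coprime {D : Dv F} (h : D ∈ fd_Sm F m) (hD : CoprimeTo m D) :
    D = 0 := by
  ext v
  by_cases hv : ((m : ℕ) : 𝓞 F) ∈ v.asIdeal
  · exact hD v hv
  · exact fd_apply_eq_zero_of_mem_Sm m h v hv

/-- general form: if every element of `H` is prime to `m`, then the elements of `H ⊔ fd_Sm`
prime to `m` are in `H` -/
theorem fd_mem_of_mem_sup_Sm_of_coprime (H : AddSubgroup (Dv F))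
    (hH : ∀ D ∈ H, CoprimeTo m D) {D : Dv F} (h : D ∈ H ⊔ fd_Sm F m) (hD : CoprimeTo m D) :
    D ∈ H := by
  obtain ⟨P, hP, S, hS, rfl⟩ := AddSubgroup.mem_sup.mp h
  have hS0 : S = 0 := by
    refine fd_eq_zero_of_mem_Sm_of_coprime m hS ?_
    have e : S = (P + S) - P := by abel
    rw [e]
    exact fd_coprimeTo_sub m hD (hH P hP)
  rw [hS0, add_zero]
  exact hP

/-- a divisor prime to `m` in `P_m + S_m` is in `P_m`. -/
theorem fd_mem_Pm_of_coprime {D : Dv F} (h : D ∈ fd_Pm F m ⊔ fd_Sm F m) (hD : CoprimeTo m D) :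
    D ∈ fd_Pm F m :=
  fd_mem_of_mem_sup_Sm_of_coprime m _ (fun _ hD => fd_coprimeTo_of_mem_Pm m hD) h hD


/-- `FISpec`-shaped form of `fd_exists_coprime_rep` -/
theorem fd_exists_coprimeTo_rep (D : Dv F) :
    ∃ D' : Dv F, CoprimeTo m D' ∧ D - D' ∈ fd_Sm F m := by
  obtain ⟨D', h1, h2⟩ := fd_exists_coprime_rep m D
  exact ⟨D', h2, h1⟩


/-- coprimality of an ideal to `m` in divisor language (no hypothesis on `m`) -/
theorem fd_coprime_iff {I : Ideal (𝓞 F)} (hI : I ≠ ⊥) :
    CoprimeTo m (fd_dv I) ↔ IsCoprime I (Ideal.span {((m : ℕ) : 𝓞 F)}) := by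
  rw [Ideal.isCoprime_iff_sup_eq]
  rcases Nat.eq_zero_or_pos m with rfl | hm
  · have e : Ideal.span {(((0 : ℕ) : ℕ) : 𝓞 F)} = ⊥ := by
      rw [Nat.cast_zero]; exact Ideal.span_singleton_eq_bot.mpr rfl
    rw [e, sup_bot_eq]
    constructor
    · intro h
      have : fd_dv I = fd_dv (⊤ : Ideal (𝓞 F)) := by
        rw [fd_dv_top]
        ext v
        exact h v (by rw [Nat.cast_zero]; exact Ideal.zero_mem _)
      exact fd_dv_injective hI top_ne_bot this
    · rintro rfl
      rw [fd_dv_top]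
      exact fd_coprimeTo_zero 0
  · haveI : NeZero m := ⟨hm.ne'⟩
    constructor
    · intro h
      by_contra hne
      obtain ⟨v, hmv, hle⟩ := fd_exists_pl_of_ne_top m _ hne
        (Ideal.mem_sup_right (Ideal.subset_span rfl))
      have hIv : I ≤ v.asIdeal := le_sup_left.trans hle
      have := (fd_dv_apply_pos_iff hI v).mpr hIv
      rw [h v hmv] at this
      exact lt_irrefl _ this
    · intro h v hmv
      by_contra hne
      have hpos : 0 < fd_dv I v := lt_of_le_of_ne (fd_dv_nonneg I v) (Ne.symm hne)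
      have hIv := (fd_dv_apply_pos_iff hI v).mp hpos
      have : (⊤ : Ideal (𝓞 F)) ≤ v.asIdeal := by
        rw [← h]
        exact sup_le hIv ((Ideal.span_singleton_le_iff_mem _).mpr hmv)
      exact v.isPrime.ne_top (top_le_iff.mp this)

/-- the divisor of an ideal is congruent modulo `fd_Sm` to a divisor prime to `m` -/
theorem fd_dv_sub_mem_Sm_of_coprime_rep (I : Ideal (𝓞 F)) :
    ∃ D' : Dv F, CoprimeTo m D' ∧ fd_dv I - D' ∈ fd_Sm F m :=
  fd_exists_coprimeTo_rep m (fd_dv I)

end WithM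

section Ray
variable (M : Type*) [Field M] [NumberField M] [Algebra F M] (m : ℕ)

/-- every element of `rayGroup` is prime to `m` -/
theorem fd_coprimeTo_of_mem_rayGroup {D : Dv F} (h : D ∈ rayGroup F M m) : CoprimeTo m D := by
  unfold rayGroup at h
  induction h using AddSubgroup.closure_induction with
  | mem D hD =>
    rcases hD with ⟨x, hx, h1, rfl⟩ | ⟨v, -, hv, rfl⟩
    · exact fd_coprimeTo_divOf m x hx h1
    · exact fd_coprimeTo_single m v hv 1
  | zero => exact fd_coprimeTo_zero m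
  | add D D' _ _ h h' => exact fd_coprimeTo_add m h h'
  | neg D _ h => exact fd_coprimeTo_neg m h

/-- a divisor prime to `m` in `rayGroup + S_m` is in `rayGroup`
(argument order `M m` as in `FISpec`) -/
theorem fd_mem_rayGroup_of_coprime {D : Dv F} (h : D ∈ rayGroup F M m ⊔ fd_Sm F m)
    (hD : CoprimeTo m D) : D ∈ rayGroup F M m :=
  fd_mem_of_mem_sup_Sm_of_coprime m _ (fun _ hD => fd_coprimeTo_of_mem_rayGroup M m hD) h hD

variable (F) in
/-- `fd_finite_rayGroup_sup` under the name and argument order (`F M m`) used in `FISpec` -/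
theorem fd_rayGroup_sup_finite [NeZero m] : Finite (Dv F ⧸ (rayGroup F M m ⊔ fd_Sm F m)) :=
  fd_finite_rayGroup_sup F m M

variable (F) in
/-- `fd_Pm_le_rayGroup` with the argument order (`F M m`) used in `FISpec` -/
theorem fd_Pm_le_rayGroup' : fd_Pm F m ≤ rayGroup F M m :=
  fd_Pm_le_rayGroup F m M

end Ray

end Fermat.Agent.S14x
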