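/-
S14 / FI-D (helper78): umbrella file.  The real definitions `fd_Pm`, `fd_Sm`, `fd_RayCl` are in
`S14x/FIChar.lean`; `fd_dv` and its lemmas are in `S14x/FICharDv.lean`.  Importing this file gives
the whole FI-D interface.
-/
import Fermat.Agent.S14x.FICharDv
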