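/-
S14 project, module FI-F (prefix `fe_`): Euler products over the ideals of a Dedekind domain in
exp-log form (Euler's sieve), and the bridge to `dedekindZeta` / `LSeries`.  (helper31)
-/
import Mathlib

set_option autoImplicit false

namespace Fermat.Agent.S14x

open IsDedekindDomain Filter Topology

section Abstract

variable {R : Type*} [CommRing R] [IsDedekindDomain R]

/-- nonzero ideals none of whose prime factors lies in `T` -/
def fe_A (T : Set (HeightOneSpectrum R)) : Set (Ideal R) :=
  {I | I ≠ ⊥ ∧ ∀ v ∈ T, ¬ I ≤ v.asIdeal}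

theorem fe_mem_A {T : Set (HeightOneSpectrum R)} {I : Ideal R} :
    I ∈ fe_A T ↔ I ≠ ⊥ ∧ ∀ v ∈ T, ¬ I ≤ v.asIdeal := Iff.rfl

theorem fe_A_empty : fe_A (∅ : Set (HeightOneSpectrum R)) = {I | I ≠ ⊥} := by
  ext I; simp [fe_A]

theorem fe_top_mem_A (T : Set (HeightOneSpectrum R)) : (⊤ : Ideal R) ∈ fe_A T := by
  refine ⟨top_ne_bot, fun v _ h => v.isPrime.ne_top (top_le_iff.mp h)⟩

theorem fe_A_subset (T : Set (HeightOneSpectrum R)) : fe_A T ⊆ {I | I ≠ ⊥} := fun _ h => h.1

/-- `w * J ∈ A_T ↔ J ∈ A_T` for `w ∉ T`. -/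
theorem fe_mul_mem_A_iff {T : Set (HeightOneSpectrum R)} {w : HeightOneSpectrum R} (hw : w ∉ T)
    (J : Ideal R) : w.asIdeal * J ∈ fe_A T ↔ J ∈ fe_A T := by
  constructor
  · rintro ⟨h0, h⟩
    refine ⟨fun hJ => h0 (by rw [hJ, Ideal.mul_bot]), fun v hv hle => h v hv (le_trans Ideal.mul_le_right hle)⟩
  · rintro ⟨h0, h⟩
    refine ⟨mul_ne_zero w.ne_bot h0, fun v hv hle => ?_⟩
    rcases (v.isPrime.mul_le).mp hle with h1 | h1
    · have : w.asIdeal = v.asIdeal := w.isMaximal.eq_of_le v.isPrime.ne_top h1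
      have hwv : w = v := HeightOneSpectrum.ext this
      exact hw (hwv ▸ hv)
    · exact h v hv h1

theorem fe_A_insert (T : Set (HeightOneSpectrum R)) (w : HeightOneSpectrum R) :
    fe_A (insert w T) = {I | I ∈ fe_A T ∧ ¬ I ≤ w.asIdeal} := by
  ext I
  simp only [fe_A, Set.mem_ofPred_eq, Set.mem_insert_iff, forall_eq_or_imp]
  tauto

variable (f : Ideal R → ℂ)

/-- the sieved sum -/
noncomputable def fe_S (T : Set (HeightOneSpectrum R)) : ℂ := ∑' I : Ideal R, (fe_A T).indicator f I

variable {f}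

theorem fe_summable_indicator (hsum : Summable (fun I : {I : Ideal R // I ≠ ⊥} => ‖f I.1‖))
    (T : Set (HeightOneSpectrum R)) : Summable ((fe_A T).indicator f) := by
  have h1 : Summable (({I : Ideal R | I ≠ ⊥}).indicator (fun I => ‖f I‖)) :=
    (summable_subtype_iff_indicator (s := {I : Ideal R | I ≠ ⊥}) (f := fun I => ‖f I‖)).mp hsum
  refine Summable.of_norm_bounded h1 (fun I => ?_)
  by_cases hI : I ∈ fe_A T
  · rw [Set.indicator_of_mem hI, Set.indicator_of_mem (fe_A_subset T hI)]
  · rw [Set.indicator_of_notMem hI, norm_zero]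
    exact Set.indicator_nonneg (fun _ _ => norm_nonneg _) _

/-- **One step of Euler's sieve.** -/
theorem fe_S_insert (hmul : ∀ I J : Ideal R, f (I * J) = f I * f J)
    (hsum : Summable (fun I : {I : Ideal R // I ≠ ⊥} => ‖f I.1‖))
    {T : Set (HeightOneSpectrum R)} {w : HeightOneSpectrum R} (hw : w ∉ T) :
    fe_S f (insert w T) = (1 - f w.asIdeal) * fe_S f T := by
  classical
  have hT := fe_summable_indicator hsum T
  have hTw := fe_summable_indicator hsum (insert w T)
  -- the part of `A_T` divisible by `w`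
  set B : Set (Ideal R) := {I | I ∈ fe_A T ∧ I ≤ w.asIdeal} with hB
  have hsplit : (fe_A T).indicator f = B.indicator f + (fe_A (insert w T)).indicator f := by
    funext I
    rw [Pi.add_apply, fe_A_insert]
    by_cases h1 : I ∈ fe_A T
    · by_cases h2 : I ≤ w.asIdeal
      · rw [Set.indicator_of_mem h1, Set.indicator_of_mem (show I ∈ B from ⟨h1, h2⟩),
          Set.indicator_of_notMem (fun h => h.2 h2), add_zero]
      · rw [Set.indicator_of_mem h1, Set.indicator_of_notMem (fun h : I ∈ B => h2 h.2),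
          Set.indicator_of_mem (show I ∈ {I | I ∈ fe_A T ∧ ¬ I ≤ w.asIdeal} from ⟨h1, h2⟩), zero_add]
    · rw [Set.indicator_of_notMem h1, Set.indicator_of_notMem (fun h : I ∈ B => h1 h.1),
        Set.indicator_of_notMem (fun h => h1 h.1), add_zero]
  have hBsum : Summable (B.indicator f) := by
    have : B.indicator f = (fe_A T).indicator f - (fe_A (insert w T)).indicator f := by
      rw [hsplit]; simp
    rw [this]; exact hT.sub hTw
  -- reindex the `B`-sum by `J ↦ w * J`
  have hinj : Function.Injective (fun J : Ideal R => w.asIdeal * J) :=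
    mul_right_injective₀ w.ne_bot
  have hsupp : Function.support (B.indicator f) ⊆ Set.range (fun J : Ideal R => w.asIdeal * J) := by
    intro I hI
    have hIB : I ∈ B := by
      by_contra h
      exact hI (Set.indicator_of_notMem h f)
    obtain ⟨J, rfl⟩ := Ideal.dvd_iff_le.mpr hIB.2
    exact ⟨J, rfl⟩
  have hB' : ∑' I, B.indicator f I = f w.asIdeal * fe_S f T := by
    rw [← hinj.tsum_eq hsupp, fe_S, ← tsum_mul_left]
    congr 1
    funext J
    by_cases hJ : J ∈ fe_A T
    · have h1 : w.asIdeal * J ∈ B := ⟨(fe_mul_mem_A_iff hw J).mpr hJ, Ideal.mul_le_left⟩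
      rw [Set.indicator_of_mem h1, Set.indicator_of_mem hJ, hmul]
    · have h1 : w.asIdeal * J ∉ B := fun h => hJ ((fe_mul_mem_A_iff hw J).mp h.1)
      rw [Set.indicator_of_notMem h1, Set.indicator_of_notMem hJ, mul_zero]
  have := congrArg (fun g : Ideal R → ℂ => ∑' I, g I) hsplit
  simp only [Pi.add_apply] at this
  rw [hBsum.tsum_add hTw, hB'] at this
  have h2 : fe_S f T = f w.asIdeal * fe_S f T + fe_S f (insert w T) := this
  linear_combination -h2

/-- The sieve over a finite set of primes. -/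
theorem fe_S_finset (hmul : ∀ I J : Ideal R, f (I * J) = f I * f J)
    (hsum : Summable (fun I : {I : Ideal R // I ≠ ⊥} => ‖f I.1‖))
    (T : Finset (HeightOneSpectrum R)) :
    fe_S f (T : Set (HeightOneSpectrum R)) = (∏ v ∈ T, (1 - f v.asIdeal)) * fe_S f ∅ := by
  classical
  induction T using Finset.induction_on with
  | empty => simp
  | insert w T hw ih =>
    rw [Finset.coe_insert, fe_S_insert hmul hsum (by simpa using hw), ih, Finset.prod_insert hw]
    ring

/-- The fully sieved sums tend to `f ⊤`. -/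
theorem fe_tendsto_S (hsum : Summable (fun I : {I : Ideal R // I ≠ ⊥} => ‖f I.1‖)) :
    Tendsto (fun T : Finset (HeightOneSpectrum R) => fe_S f (T : Set (HeightOneSpectrum R))) atTop
      (𝓝 (f ⊤)) := by
  classical
  have h1 : Summable (({I : Ideal R | I ≠ ⊥}).indicator (fun I => ‖f I‖)) :=
    (summable_subtype_iff_indicator (s := {I : Ideal R | I ≠ ⊥}) (f := fun I => ‖f I‖)).mp hsum
  have hlim : f ⊤ = ∑' I : Ideal R, ({⊤} : Set (Ideal R)).indicator f I := by
    rw [tsum_eq_single ⊤ (fun I hI => Set.indicator_of_notMem (by simpa using hI) f)]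
    simp
  rw [hlim]
  refine tendsto_tsum_of_dominated_convergence (bound := ({I : Ideal R | I ≠ ⊥}).indicator
    (fun I => ‖f I‖)) h1 (fun I => ?_) (Eventually.of_forall fun T I => ?_)
  · -- pointwise convergence
    by_cases hI0 : I = ⊥
    · subst hI0
      have : ∀ T : Finset (HeightOneSpectrum R),
          (fe_A (T : Set (HeightOneSpectrum R))).indicator f ⊥ = ({⊤} : Set (Ideal R)).indicator f ⊥ := by
        intro T
        rw [Set.indicator_of_notMem (fun h => h.1 rfl), Set.indicator_of_notMem (by simp)]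
      simp only [this]
      exact tendsto_const_nhds
    by_cases hI1 : I = ⊤
    · subst hI1
      have : ∀ T : Finset (HeightOneSpectrum R),
          (fe_A (T : Set (HeightOneSpectrum R))).indicator f ⊤ = ({⊤} : Set (Ideal R)).indicator f ⊤ := by
        intro T
        rw [Set.indicator_of_mem (fe_top_mem_A _), Set.indicator_of_mem (by simp)]
      simp only [this]
      exact tendsto_const_nhds
    · obtain ⟨M, hM, hIM⟩ := Ideal.exists_le_maximal I hI1
      have hM0 : M ≠ ⊥ := fun h => hI0 (le_bot_iff.mp (h ▸ hIM))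
      let v : HeightOneSpectrum R := ⟨M, hM.isPrime, hM0⟩
      rw [Set.indicator_of_notMem (by simpa using hI1)]
      refine tendsto_const_nhds.congr' ?_
      filter_upwards [eventually_ge_atTop ({v} : Finset (HeightOneSpectrum R))] with T hT
      have hvT : v ∈ (T : Set (HeightOneSpectrum R)) := by
        have : v ∈ T := hT (Finset.mem_singleton_self v)
        exact_mod_cast this
      rw [Set.indicator_of_notMem (fun h => h.2 v hvT hIM)]
  · by_cases hI : I ∈ fe_A (T : Set (HeightOneSpectrum R))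
    · rw [Set.indicator_of_mem hI, Set.indicator_of_mem (fe_A_subset _ hI)]
    · rw [Set.indicator_of_notMem hI, norm_zero]
      exact Set.indicator_nonneg (fun _ _ => norm_nonneg _) _

/-- **Euler product over the ideals of a Dedekind domain, exp-log form.** -/
theorem fe_tsum_eq_cexp (f : Ideal R → ℂ) (h1 : f ⊤ = 1)
    (hmul : ∀ I J : Ideal R, f (I * J) = f I * f J)
    (hsum : Summable (fun I : {I : Ideal R // I ≠ ⊥} => ‖f I.1‖))
    (hlt : ∀ v : HeightOneSpectrum R, ‖f v.asIdeal‖ < 1) :
    Summable (fun v : HeightOneSpectrum R => -Complex.log (1 - f v.asIdeal)) ∧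
    ∑' I : {I : Ideal R // I ≠ ⊥}, f I.1 =
      Complex.exp (∑' v : HeightOneSpectrum R, -Complex.log (1 - f v.asIdeal)) := by
  classical
  -- summability over the primes
  have hι : Function.Injective
      (fun v : HeightOneSpectrum R => (⟨v.asIdeal, v.ne_bot⟩ : {I : Ideal R // I ≠ ⊥})) := by
    intro v w h
    exact HeightOneSpectrum.ext (congrArg Subtype.val h)
  have hsv : Summable (fun v : HeightOneSpectrum R => f v.asIdeal) :=
    (hsum.comp_injective hι).of_norm
  have hlog : Summable (fun v : HeightOneSpectrum R => Complex.log (1 - f v.asIdeal)) := by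
    have := Complex.summable_log_one_add_of_summable hsv.neg
    simpa [sub_eq_add_neg] using this
  have hg0 : ∀ v : HeightOneSpectrum R, (1 - f v.asIdeal) ≠ 0 := by
    intro v h
    have h' : f v.asIdeal = 1 := (sub_eq_zero.mp h).symm
    have := hlt v
    rw [h', norm_one] at this
    exact lt_irrefl _ this
  have hprod : HasProd (fun v : HeightOneSpectrum R => 1 - f v.asIdeal)
      (Complex.exp (∑' v : HeightOneSpectrum R, Complex.log (1 - f v.asIdeal))) :=
    Complex.hasProd_of_hasSum_log hg0 hlog.hasSum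
  have hP : Tendsto (fun T : Finset (HeightOneSpectrum R) => ∏ v ∈ T, (1 - f v.asIdeal)) atTop
      (𝓝 (Complex.exp (∑' v : HeightOneSpectrum R, Complex.log (1 - f v.asIdeal)))) := hprod
  -- the full sum
  have hS : fe_S f ∅ = ∑' I : {I : Ideal R // I ≠ ⊥}, f I.1 := by
    rw [fe_S, fe_A_empty]
    exact (tsum_subtype {I : Ideal R | I ≠ ⊥} f).symm
  have hT1 := fe_tendsto_S (f := f) hsum
  rw [h1] at hT1
  have hT2 : Tendsto (fun T : Finset (HeightOneSpectrum R) =>
      (∏ v ∈ T, (1 - f v.asIdeal)) * fe_S f ∅) atTop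
      (𝓝 (Complex.exp (∑' v : HeightOneSpectrum R, Complex.log (1 - f v.asIdeal)) * fe_S f ∅)) :=
    hP.mul_const _
  have hT1' : Tendsto (fun T : Finset (HeightOneSpectrum R) =>
      (∏ v ∈ T, (1 - f v.asIdeal)) * fe_S f ∅) atTop (𝓝 1) := by
    refine hT1.congr (fun T => ?_)
    exact fe_S_finset hmul hsum T
  have hPS := tendsto_nhds_unique hT2 hT1'
  refine ⟨hlog.neg, ?_⟩
  rw [← hS, tsum_neg, Complex.exp_neg]
  exact eq_inv_of_mul_eq_one_right hPS

theorem fe_tsum_ne_zero (f : Ideal R → ℂ) (h1 : f ⊤ = 1)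
    (hmul : ∀ I J : Ideal R, f (I * J) = f I * f J)
    (hsum : Summable (fun I : {I : Ideal R // I ≠ ⊥} => ‖f I.1‖))
    (hlt : ∀ v : HeightOneSpectrum R, ‖f v.asIdeal‖ < 1) :
    ∑' I : {I : Ideal R // I ≠ ⊥}, f I.1 ≠ 0 := by
  rw [(fe_tsum_eq_cexp f h1 hmul hsum hlt).2]
  exact Complex.exp_ne_zero _

end Abstract

end Fermat.Agent.S14x
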