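/-
S14 project, module FI-F part 2 (prefix `fe_`): variants of the Euler product over ideals:
sum over all ideals (with `f ⊥ = 0`), `‖f v‖ < 1` derived from summability, and the expanded
form `∑ f I = exp (∑_v ∑_k f(v)^(k+1)/(k+1))`.  (helper31)
-/
import Fermat.Agent.S14x.FIEuler

set_option autoImplicit false

namespace Fermat.Agent.S14x

open IsDedekindDomain Filter Topology

/-- `-log (1 - z) = ∑_{k ≥ 0} z^(k+1)/(k+1)` for `‖z‖ < 1`. -/
theorem fe_hasSum_neg_log {z : ℂ} (hz : ‖z‖ < 1) :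
    HasSum (fun k : ℕ => z ^ (k + 1) / ((k : ℂ) + 1)) (-Complex.log (1 - z)) := by
  have h := Complex.hasSum_taylorSeries_neg_log hz
  have h2 := (hasSum_nat_add_iff' 1).mpr h
  simp only [Finset.range_one, Finset.sum_singleton, pow_zero, Nat.cast_zero, div_zero,
    sub_zero] at h2
  refine h2.congr_fun (fun k => ?_)
  push_cast
  rfl

theorem fe_neg_log_eq_tsum {z : ℂ} (hz : ‖z‖ < 1) :
    -Complex.log (1 - z) = ∑' k : ℕ, z ^ (k + 1) / ((k : ℂ) + 1) :=
  (fe_hasSum_neg_log hz).tsum_eq.symm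

section Abstract

variable {R : Type*} [CommRing R] [IsDedekindDomain R]

/-- `‖f v‖ < 1` follows from multiplicativity and absolute summability. -/
theorem fe_norm_lt_one (f : Ideal R → ℂ) (h1 : f ⊤ = 1)
    (hmul : ∀ I J : Ideal R, f (I * J) = f I * f J)
    (hsum : Summable (fun I : {I : Ideal R // I ≠ ⊥} => ‖f I.1‖)) (v : HeightOneSpectrum R) :
    ‖f v.asIdeal‖ < 1 := by
  have hpow : ∀ k : ℕ, f (v.asIdeal ^ k) = f v.asIdeal ^ k := by
    intro k
    induction k with
    | zero => simpa using h1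
    | succ k ih => rw [pow_succ, hmul, ih, pow_succ]
  have hnu : ¬ IsUnit v.asIdeal := by
    rw [Ideal.isUnit_iff]; exact v.isPrime.ne_top
  have hinj : Function.Injective (fun k : ℕ => (⟨v.asIdeal ^ k, pow_ne_zero k v.ne_bot⟩ :
      {I : Ideal R // I ≠ ⊥})) := by
    intro a b hab
    exact pow_injective_of_not_isUnit hnu v.ne_bot (congrArg Subtype.val hab)
  have hs := hsum.comp_injective hinj
  simp only [Function.comp_def, hpow, norm_pow] at hs
  exact summable_geometric_iff_norm_lt_one.mp (by simpa using hs) |> fun h => by simpa using h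

/-- **Euler product, expanded exp-log form**, summing over nonzero ideals. -/
theorem fe_tsum_eq_cexp_tsum (f : Ideal R → ℂ) (h1 : f ⊤ = 1)
    (hmul : ∀ I J : Ideal R, f (I * J) = f I * f J)
    (hsum : Summable (fun I : {I : Ideal R // I ≠ ⊥} => ‖f I.1‖)) :
    Summable (fun v : HeightOneSpectrum R => ∑' k : ℕ, f v.asIdeal ^ (k + 1) / ((k : ℂ) + 1)) ∧
    ∑' I : {I : Ideal R // I ≠ ⊥}, f I.1 =
      Complex.exp (∑' v : HeightOneSpectrum R, ∑' k : ℕ, f v.asIdeal ^ (k + 1) / ((k : ℂ) + 1)) := by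
  have hlt := fe_norm_lt_one f h1 hmul hsum
  obtain ⟨hs, he⟩ := fe_tsum_eq_cexp f h1 hmul hsum hlt
  have hfun : (fun v : HeightOneSpectrum R => -Complex.log (1 - f v.asIdeal)) =
      fun v => ∑' k : ℕ, f v.asIdeal ^ (k + 1) / ((k : ℂ) + 1) :=
    funext fun v => fe_neg_log_eq_tsum (hlt v)
  rw [hfun] at hs he
  exact ⟨hs, he⟩

/-- The same, summing over all ideals, for `f ⊥ = 0`. -/
theorem fe_tsum_all_eq_cexp_tsum (f : Ideal R → ℂ) (h0 : f ⊥ = 0) (h1 : f ⊤ = 1)
    (hmul : ∀ I J : Ideal R, f (I * J) = f I * f J)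
    (hsum : Summable (fun I : Ideal R => ‖f I‖)) :
    Summable (fun v : HeightOneSpectrum R => ∑' k : ℕ, f v.asIdeal ^ (k + 1) / ((k : ℂ) + 1)) ∧
    ∑' I : Ideal R, f I =
      Complex.exp (∑' v : HeightOneSpectrum R, ∑' k : ℕ, f v.asIdeal ^ (k + 1) / ((k : ℂ) + 1)) := by
  have hsum' : Summable (fun I : {I : Ideal R // I ≠ ⊥} => ‖f I.1‖) :=
    hsum.subtype _
  obtain ⟨hs, he⟩ := fe_tsum_eq_cexp_tsum f h1 hmul hsum'
  refine ⟨hs, ?_⟩
  rw [← he]
  have : ∑' I : {I : Ideal R // I ≠ ⊥}, f I.1 = ∑' I : Ideal R, ({I : Ideal R | I ≠ ⊥}).indicator f I :=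
    tsum_subtype {I : Ideal R | I ≠ ⊥} f
  rw [this]
  congr 1
  funext I
  by_cases hI : I = ⊥
  · subst hI
    rw [Set.indicator_of_notMem (by simp), h0]
  · rw [Set.indicator_of_mem (by simpa using hI)]

/-- absolute summability of the double family `(v, k) ↦ f(v)^(k+1)/(k+1)`. -/
theorem fe_summable_prime_powers (f : Ideal R → ℂ) (h1 : f ⊤ = 1)
    (hmul : ∀ I J : Ideal R, f (I * J) = f I * f J)
    (hsum : Summable (fun I : {I : Ideal R // I ≠ ⊥} => ‖f I.1‖)) :
    Summable (fun x : HeightOneSpectrum R × ℕ => ‖f x.1.asIdeal ^ (x.2 + 1) / ((x.2 : ℂ) + 1)‖) := by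
  have hpow : ∀ (v : HeightOneSpectrum R) (k : ℕ), f (v.asIdeal ^ k) = f v.asIdeal ^ k := by
    intro v k
    induction k with
    | zero => simpa using h1
    | succ k ih => rw [pow_succ, hmul, ih, pow_succ]
  -- the map `(v, k) ↦ v^(k+1)` is injective into nonzero ideals
  have hinj : Function.Injective (fun x : HeightOneSpectrum R × ℕ =>
      (⟨x.1.asIdeal ^ (x.2 + 1), pow_ne_zero _ x.1.ne_bot⟩ : {I : Ideal R // I ≠ ⊥})) := by
    rintro ⟨v, k⟩ ⟨w, l⟩ h
    have h' : v.asIdeal ^ (k + 1) = w.asIdeal ^ (l + 1) := congrArg Subtype.val h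
    have hvw : v = w := by
      apply HeightOneSpectrum.ext
      have hle : w.asIdeal ^ (l + 1) ≤ v.asIdeal := by
        rw [← h']; exact Ideal.pow_le_self (Nat.succ_ne_zero k)
      have h2 : w.asIdeal ≤ v.asIdeal := v.isPrime.le_of_pow_le hle
      exact (w.isMaximal.eq_of_le v.isPrime.ne_top h2).symm
    subst hvw
    have hnu : ¬ IsUnit v.asIdeal := by
      rw [Ideal.isUnit_iff]; exact v.isPrime.ne_top
    have := pow_injective_of_not_isUnit hnu v.ne_bot h'
    simp only [Prod.mk.injEq, true_and]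
    omega
  have hs := hsum.comp_injective hinj
  simp only [Function.comp_def, hpow] at hs
  refine Summable.of_nonneg_of_le (fun _ => norm_nonneg _) (fun x => ?_) hs
  rw [norm_div]
  apply div_le_self (norm_nonneg _)
  have : ((x.2 : ℂ) + 1) = ((x.2 + 1 : ℕ) : ℂ) := by push_cast; rfl
  rw [this, Complex.norm_natCast]
  exact_mod_cast Nat.succ_le_succ (Nat.zero_le _)

end Abstract

end Fermat.Agent.S14x
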