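import Fermat.Agent.S14x.FIEulerBridge2
import Fermat.Agent.S14x.FIEuler2

/-!
# S14 project, leaf FI-F: Euler product of the Dedekind zeta function in exp-log form

Combination of the abstract Euler product (`fe_tsum_eq_cexp`, helper31) with the bridge
(`FIEulerBridge`): for a number field `K` and `1 < re s`,
`dedekindZeta K s = exp (∑_w -log (1 - N w ^ (-s)))`, and the twisted version for a completely
multiplicative bounded coefficient function.  Prefix `feb3_`.  (helper43)
-/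

set_option autoImplicit false

namespace Fermat.Agent.S14x

open NumberField Ideal Filter Finset Topology IsDedekindDomain

variable (K : Type*) [Field K] [NumberField K]

omit [NumberField K] in
theorem feb3_inj : Function.Injective
    (fun v : HeightOneSpectrum (𝓞 K) => (⟨v.asIdeal, v.ne_bot⟩ : {I : Ideal (𝓞 K) // I ≠ ⊥})) := by
  intro v w h
  have h2 : v.asIdeal = w.asIdeal := congrArg Subtype.val h
  exact HeightOneSpectrum.ext h2

/-- absolute summability of `N v ^ (-s)` over the finite primes -/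
theorem feb3_summable_prime (s : ℝ) (hs : 1 < s) :
    Summable (fun v : HeightOneSpectrum (𝓞 K) => ((Ideal.absNorm v.asIdeal : ℕ) : ℝ) ^ (-s)) := by
  have h := (feb2_summable_absNorm_rpow K s hs).comp_injective (feb3_inj K)
  exact h

/-- Euler product of `dedekindZeta` in exp-log form, complex `s`. -/
theorem feb3_dedekindZeta_eq_cexp {s : ℂ} (hs : 1 < s.re) :
    Summable (fun w : HeightOneSpectrum (𝓞 K) =>
      -Complex.log (1 - ((Ideal.absNorm w.asIdeal : ℕ) : ℂ) ^ (-s))) ∧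
    dedekindZeta K s = Complex.exp (∑' w : HeightOneSpectrum (𝓞 K),
      -Complex.log (1 - ((Ideal.absNorm w.asIdeal : ℕ) : ℂ) ^ (-s))) := by
  have hsum : Summable (fun I : {I : Ideal (𝓞 K) // I ≠ ⊥} => ‖febTerm K s I.1‖) :=
    (feb_summable K hs).subtype _
  have hlt := fe_norm_lt_one (febTerm K s) (febTerm_top s) (febTerm_mul s) hsum
  obtain ⟨h1, h2⟩ := fe_tsum_eq_cexp (febTerm K s) (febTerm_top s) (febTerm_mul s) hsum hlt
  rw [feb2_tsum_subtype K (fun I ↦ febTerm K s I) (febTerm_bot s),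
    feb_tsum_eq_dedekindZeta K hs] at h2
  simp only [febTerm_asIdeal] at h1 h2
  exact ⟨h1, h2⟩

/-- Euler product of `dedekindZeta` in exp-log form, real `s > 1`
(= `g3_EulerHyp` of `FIGZetaM.lean` up to `plNorm w = absNorm w.asIdeal`, which is `rfl`). -/
theorem feb3_eulerHyp (s : ℝ) (hs : 1 < s) :
    Summable (fun w : HeightOneSpectrum (𝓞 K) =>
      -Complex.log (1 - ((Ideal.absNorm w.asIdeal : ℕ) : ℂ) ^ (-(s : ℂ)))) ∧
    dedekindZeta K (s : ℂ) = Complex.exp (∑' w : HeightOneSpectrum (𝓞 K),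
      -Complex.log (1 - ((Ideal.absNorm w.asIdeal : ℕ) : ℂ) ^ (-(s : ℂ)))) :=
  feb3_dedekindZeta_eq_cexp K (s := (s : ℂ)) (by simpa using hs)

/-- twisted Euler product: for `c` completely multiplicative with `‖c I‖ ≤ 1`,
`LSeries (n ↦ ∑_{N I = n} c I) s = exp (∑_v -log (1 - c v * N v ^ (-s)))`. -/
theorem feb3_LSeries_eq_cexp (c : Ideal (𝓞 K) → ℂ) (hc : ∀ I, ‖c I‖ ≤ 1) (hc1 : c ⊤ = 1)
    (hcmul : ∀ I J, c (I * J) = c I * c J) {s : ℂ} (hs : 1 < s.re) :
    Summable (fun v : HeightOneSpectrum (𝓞 K) =>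
      -Complex.log (1 - c v.asIdeal * ((Ideal.absNorm v.asIdeal : ℕ) : ℂ) ^ (-s))) ∧
    LSeries (fun n => ∑' I : {I : Ideal (𝓞 K) // Ideal.absNorm I = n}, c I.1) s =
      Complex.exp (∑' v : HeightOneSpectrum (𝓞 K),
        -Complex.log (1 - c v.asIdeal * ((Ideal.absNorm v.asIdeal : ℕ) : ℂ) ^ (-s))) := by
  set f : Ideal (𝓞 K) → ℂ := fun I ↦ c I * febTerm K s I with hf
  have hf1 : f ⊤ = 1 := by simp [hf, hc1, febTerm_top]
  have hfmul : ∀ I J, f (I * J) = f I * f J := fun I J ↦ by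
    simp only [hf, hcmul, febTerm_mul]; ring
  have hsum : Summable (fun I : {I : Ideal (𝓞 K) // I ≠ ⊥} => ‖f I.1‖) :=
    (feb_summable_mul K hs c hc).subtype _
  have hlt := fe_norm_lt_one f hf1 hfmul hsum
  obtain ⟨h1, h2⟩ := fe_tsum_eq_cexp f hf1 hfmul hsum hlt
  rw [feb2_tsum_subtype K f (by simp [hf, febTerm_bot]),
    feb_tsum_mul_eq_LSeries K hs c hc] at h2
  simp only [hf, febTerm_asIdeal] at h1 h2
  exact ⟨h1, h2⟩

end Fermat.Agent.S14x
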