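/-
S14 project, module FI-E (helper16): Abel summation bounds for Dirichlet series.

If the partial sums of `f : ℕ → ℂ` satisfy `‖∑_{k ≤ n} f k‖ ≤ C n^r` with `0 ≤ r < 1`, then the
`L`-series of `f` is bounded on the real interval `(1, 2]`:  `‖L(f, s)‖ ≤ 2 C / (1 - r)`.
Mathlib only.
-/
import Mathlib

set_option autoImplicit false

namespace Fermat.Agent.S14x

open MeasureTheory Set Finset Asymptotics Filter

/-- the partial sums are `O(n^r)` in the form Mathlib wants -/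
theorem ab_isBigO {f : ℕ → ℂ} {r C : ℝ}
    (hC : ∀ n : ℕ, ‖∑ k ∈ Icc 1 n, f k‖ ≤ C * (n : ℝ) ^ r) :
    (fun n : ℕ ↦ ∑ k ∈ Icc 1 n, f k) =O[atTop] fun n ↦ (n : ℝ) ^ r := by
  refine IsBigO.of_bound C (Eventually.of_forall fun n => ?_)
  refine (hC n).trans ?_
  rw [Real.norm_of_nonneg (Real.rpow_natCast_nonneg_aux n r)]
  where
    Real.rpow_natCast_nonneg_aux (n : ℕ) (r : ℝ) : 0 ≤ (n : ℝ) ^ r :=
      Real.rpow_nonneg (Nat.cast_nonneg n) r

/-- **Abel summation bound**, general form: if `‖∑_{k ≤ n} f k‖ ≤ C n^r` with `0 ≤ r < s` and the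
`L`-series converges absolutely at the real point `s`, then `‖L(f, s)‖ ≤ s C / (s - r)`. -/
theorem ab_LSeries_norm_le_general (f : ℕ → ℂ) {r C : ℝ} (hr0 : 0 ≤ r)
    (hC : ∀ n : ℕ, ‖∑ k ∈ Icc 1 n, f k‖ ≤ C * (n : ℝ) ^ r)
    (s : ℝ) (hrs : r < s) (hS : LSeriesSummable f s) :
    ‖LSeries f s‖ ≤ s * C / (s - r) := by
  have hs0 : 0 ≤ s := hr0.trans hrs.le
  have hC0 : 0 ≤ C := by
    have := hC 1
    simp only [Nat.cast_one, Real.one_rpow, mul_one] at this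
    exact (norm_nonneg _).trans this
  have hsre : r < (s : ℂ).re := by simpa using hrs
  rw [LSeries_eq_mul_integral f hr0 hsre hS (ab_isBigO hC)]
  rw [norm_mul]
  have hsn : ‖(s : ℂ)‖ = s := by
    rw [Complex.norm_real, Real.norm_of_nonneg hs0]
  rw [hsn]
  -- bound the integral
  have ha : r - s - 1 < -1 := by linarith
  have hint : IntegrableOn (fun t : ℝ ↦ C * t ^ (r - s - 1)) (Ioi 1) :=
    (integrableOn_Ioi_rpow_of_lt ha one_pos).const_mul C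
  have hle : ‖∫ t in Ioi (1 : ℝ), (∑ k ∈ Icc 1 ⌊t⌋₊, f k) * (t : ℂ) ^ (-((s : ℂ) + 1))‖ ≤
      ∫ t in Ioi (1 : ℝ), C * t ^ (r - s - 1) := by
    refine norm_integral_le_of_norm_le hint ?_
    refine (ae_restrict_iff' measurableSet_Ioi).mpr (Eventually.of_forall fun t ht => ?_)
    have ht0 : (0 : ℝ) < t := lt_trans one_pos ht
    rw [norm_mul]
    have h1 : ‖∑ k ∈ Icc 1 ⌊t⌋₊, f k‖ ≤ C * t ^ r := by
      refine (hC _).trans ?_
      refine mul_le_mul_of_nonneg_left ?_ hC0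
      exact Real.rpow_le_rpow (Nat.cast_nonneg _) (Nat.floor_le ht0.le) hr0
    have h2 : ‖(t : ℂ) ^ (-((s : ℂ) + 1))‖ = t ^ (-(s + 1)) := by
      rw [Complex.norm_cpow_eq_rpow_re_of_pos ht0]
      simp
    rw [h2]
    calc ‖∑ k ∈ Icc 1 ⌊t⌋₊, f k‖ * t ^ (-(s + 1))
        ≤ (C * t ^ r) * t ^ (-(s + 1)) :=
          mul_le_mul_of_nonneg_right h1 (Real.rpow_nonneg ht0.le _)
      _ = C * t ^ (r - s - 1) := by
          rw [mul_assoc, ← Real.rpow_add ht0]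
          congr 2
          ring
  have hval : ∫ t in Ioi (1 : ℝ), C * t ^ (r - s - 1) = C / (s - r) := by
    rw [integral_const_mul, integral_Ioi_rpow_of_lt ha one_pos, Real.one_rpow]
    have h2 : r - s - 1 + 1 = -(s - r) := by ring
    rw [h2, neg_div_neg_eq, mul_one_div]
  rw [hval] at hle
  calc s * ‖∫ t in Ioi (1 : ℝ), (∑ k ∈ Icc 1 ⌊t⌋₊, f k) * (t : ℂ) ^ (-((s : ℂ) + 1))‖
      ≤ s * (C / (s - r)) := mul_le_mul_of_nonneg_left hle hs0
    _ = s * C / (s - r) := by ring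

/-- **Abel summation bound** (non-trivial characters): power-saving partial sums
`‖∑_{k ≤ n} f k‖ ≤ C n^r`, `0 ≤ r < 1`, give a bounded `L`-series on the real interval `(1,2]`. -/
theorem ab_LSeries_norm_le (f : ℕ → ℂ) {r C : ℝ} (hr0 : 0 ≤ r) (hr1 : r < 1)
    (hC : ∀ n : ℕ, ‖∑ k ∈ Icc 1 n, f k‖ ≤ C * (n : ℝ) ^ r)
    (hS : ∀ s : ℝ, 1 < s → LSeriesSummable f s) (s : ℝ) (hs1 : 1 < s) (hs2 : s ≤ 2) :
    ‖LSeries f s‖ ≤ 2 * C / (1 - r) := by
  have hC0 : 0 ≤ C := by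
    have := hC 1
    simp only [Nat.cast_one, Real.one_rpow, mul_one] at this
    exact (norm_nonneg _).trans this
  have h := ab_LSeries_norm_le_general f hr0 hC s (hr1.trans hs1) (hS s hs1)
  have hsr : 0 < s - r := by linarith
  have h1r : 0 < 1 - r := by linarith
  refine h.trans ?_
  rw [mul_div_assoc, mul_div_assoc]
  have h3 : C / (s - r) ≤ C / (1 - r) := div_le_div_of_nonneg_left hC0 h1r (by linarith)
  have h4 : 0 ≤ C / (s - r) := div_nonneg hC0 hsr.le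
  nlinarith

/-- **Abel summation bound** (trivial character): linear partial sums `‖∑_{k ≤ n} f k‖ ≤ C n` give
`‖L(f, s)‖ ≤ 2 C / (s - 1)` on the real interval `(1,2]`. -/
theorem ab_LSeries_norm_le_pole (f : ℕ → ℂ) {C : ℝ}
    (hC : ∀ n : ℕ, ‖∑ k ∈ Icc 1 n, f k‖ ≤ C * (n : ℝ))
    (hS : ∀ s : ℝ, 1 < s → LSeriesSummable f s) (s : ℝ) (hs1 : 1 < s) (hs2 : s ≤ 2) :
    ‖LSeries f s‖ ≤ 2 * C / (s - 1) := by
  have hC' : ∀ n : ℕ, ‖∑ k ∈ Icc 1 n, f k‖ ≤ C * (n : ℝ) ^ (1 : ℝ) := by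
    intro n
    rw [Real.rpow_one]
    exact hC n
  have hC0 : 0 ≤ C := by
    have := hC 1
    simp only [Nat.cast_one, mul_one] at this
    exact (norm_nonneg _).trans this
  have h := ab_LSeries_norm_le_general f zero_le_one hC' s hs1 (hS s hs1)
  refine h.trans ?_
  have hs : 0 < s - 1 := by linarith
  rw [div_le_div_iff_of_pos_right hs]
  nlinarith

/-- **Abel summation with main term**: if `‖∑_{k ≤ n} f k - κ n‖ ≤ C n^r`, `0 ≤ r < 1`, then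
`‖L(f, s) - κ ζ(s)‖ ≤ 2 C / (1 - r)` on the real interval `(1,2]`. -/
theorem ab_LSeries_sub_zeta_norm_le (f : ℕ → ℂ) (κ : ℂ) {r C : ℝ} (hr0 : 0 ≤ r) (hr1 : r < 1)
    (hC : ∀ n : ℕ, ‖(∑ k ∈ Icc 1 n, f k) - κ * n‖ ≤ C * (n : ℝ) ^ r)
    (hS : ∀ s : ℝ, 1 < s → LSeriesSummable f s) (s : ℝ) (hs1 : 1 < s) (hs2 : s ≤ 2) :
    ‖LSeries f s - κ * riemannZeta s‖ ≤ 2 * C / (1 - r) := by
  have hsre : 1 < (s : ℂ).re := by simpa using hs1
  have hone : ∀ t : ℝ, 1 < t → LSeriesSummable (1 : ℕ → ℂ) t := fun t ht =>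
    (LSeriesSummable_one_iff).mpr (by simpa using ht)
  have hg : ∀ n : ℕ, ‖∑ k ∈ Icc 1 n, (f - κ • (1 : ℕ → ℂ)) k‖ ≤ C * (n : ℝ) ^ r := by
    intro n
    have : ∑ k ∈ Icc 1 n, (f - κ • (1 : ℕ → ℂ)) k = (∑ k ∈ Icc 1 n, f k) - κ * n := by
      simp only [Pi.sub_apply, Pi.smul_apply, Pi.one_apply, smul_eq_mul, mul_one,
        Finset.sum_sub_distrib, Finset.sum_const, Nat.card_Icc, add_tsub_cancel_right,
        nsmul_eq_mul]
      ring
    rw [this]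
    exact hC n
  have hSg : ∀ t : ℝ, 1 < t → LSeriesSummable (f - κ • (1 : ℕ → ℂ)) t := fun t ht =>
    (hS t ht).sub ((hone t ht).smul κ)
  have h := ab_LSeries_norm_le (f - κ • (1 : ℕ → ℂ)) hr0 hr1 hg hSg s hs1 hs2
  rwa [LSeries_sub (hS s hs1) ((hone s hs1).smul κ), LSeries_smul,
    LSeries_one_eq_riemannZeta hsre] at h

end Fermat.Agent.S14x
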