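/-
S14 / FI-G1 abstract core (helper16).  Mathlib + S14x/AbelBound only.  Prefix `g1_`.

Abstract setting: a family `ι` (think: non-zero ideals prime to `m`) with a "norm" `N : ι → ℕ`
(non-zero, finitely many elements of bounded norm), a class map `cl : ι → G` into a finite abelian
group (think: ray classes mod `m`), and the *uniform class counting hypothesis*
`|#{i | N i ≤ n, cl i = c} - κ n| ≤ C n ^ r` with `κ` independent of the class `c` and `r < 1`.
Then for every non-trivial character `χ` of `G` the Dirichlet series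
`L(s, χ) = ∑_n (∑_{N i = n} χ (cl i)) n ^ (-s)` is bounded on `(1, 2]`:
`‖L(s, χ)‖ ≤ 2 |G| C / (1 - r)`.
-/
import Mathlib
import Fermat.Agent.S14x.AbelBound

set_option autoImplicit false

namespace Fermat.Agent.S14x

open Finset

section Abstract

variable {ι G : Type*} [AddCommGroup G] [Finite G]

/-- the `n`-th Dirichlet coefficient attached to a weight `w` on `ι` : the sum of `w` over the
fibre `N = n` (a `tsum` over the subtype, which is a finite sum under our hypotheses). -/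
noncomputable def g1_coeff (N : ι → ℕ) (w : ι → ℂ) (n : ℕ) : ℂ :=
  ∑' i : {i : ι // N i = n}, w i.1

/-- partial sums of the coefficients = sum over the elements of norm `≤ n`. -/
theorem g1_sum_coeff (N : ι → ℕ) (hN0 : ∀ i, N i ≠ 0) (hfin : ∀ n : ℕ, {i | N i ≤ n}.Finite)
    (w : ι → ℂ) (n : ℕ) :
    ∑ k ∈ Icc 1 n, g1_coeff N w k = ∑ i ∈ (hfin n).toFinset, w i := by
  classical
  have hmaps : ∀ i ∈ (hfin n).toFinset, N i ∈ Icc 1 n := by
    intro i hi
    rw [Set.Finite.mem_toFinset] at hi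
    exact mem_Icc.mpr ⟨Nat.one_le_iff_ne_zero.mpr (hN0 i), hi⟩
  rw [← Finset.sum_fiberwise_of_maps_to hmaps w]
  refine Finset.sum_congr rfl fun k hk => ?_
  have hset : {i : ι | N i = k} = ((hfin n).toFinset.filter (fun i => N i = k) : Set ι) := by
    ext i
    simp only [Set.mem_ofPred_eq, coe_filter, Set.Finite.mem_toFinset, iff_and_self]
    intro h
    rw [h]
    exact (mem_Icc.mp hk).2
  unfold g1_coeff
  rw [show (∑' i : {i : ι // N i = k}, w i.1) = ∑' i : ({i : ι | N i = k} : Set ι), w i.1 from rfl,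
    tsum_congr_set_coe w hset, Finset.tsum_subtype']

/-- orthogonality + uniform class count: the character sum over the elements of norm `≤ n` is
`O(n ^ r)`. -/
theorem g1_norm_sum_le (N : ι → ℕ) (hfin : ∀ n : ℕ, {i | N i ≤ n}.Finite)
    (cl : ι → G) {κ C r : ℝ}
    (hcount : ∀ (c : G) (n : ℕ), 1 ≤ n →
      |(Nat.card {i : ι // N i ≤ n ∧ cl i = c} : ℝ) - κ * n| ≤ C * (n : ℝ) ^ r)
    (χ : AddChar G ℂ) (hχ : χ ≠ 0) (n : ℕ) (hn : 1 ≤ n) :
    ‖∑ i ∈ (hfin n).toFinset, χ (cl i)‖ ≤ (Nat.card G : ℝ) * C * (n : ℝ) ^ r := by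
  classical
  have : Fintype G := Fintype.ofFinite G
  have hsum0 : ∑ c : G, χ c = 0 := AddChar.sum_eq_zero_iff_ne_zero.mpr hχ
  have hcard : ∀ c : G, (Nat.card {i : ι // N i ≤ n ∧ cl i = c}) =
      ((hfin n).toFinset.filter (fun i => cl i = c)).card := by
    intro c
    apply Nat.subtype_card
    intro i
    simp [Set.Finite.mem_toFinset]
  have h1 : ∑ i ∈ (hfin n).toFinset, χ (cl i) =
      ∑ c : G, χ c * ((Nat.card {i : ι // N i ≤ n ∧ cl i = c} : ℝ) : ℂ) := by
    rw [← Finset.sum_fiberwise_of_maps_to (t := Finset.univ) (g := cl)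
      (fun i _ => Finset.mem_univ _) (fun i => χ (cl i))]
    refine Finset.sum_congr rfl fun c _ => ?_
    rw [Finset.sum_congr rfl (g := fun _ => χ c)
      (fun i hi => by rw [(Finset.mem_filter.mp hi).2]), Finset.sum_const, hcard c]
    simp [mul_comm]
  have h2 : ∑ i ∈ (hfin n).toFinset, χ (cl i) =
      ∑ c : G, χ c * (((Nat.card {i : ι // N i ≤ n ∧ cl i = c} : ℝ) - κ * n : ℝ) : ℂ) := by
    rw [h1]
    have : ∑ c : G, χ c * (((Nat.card {i : ι // N i ≤ n ∧ cl i = c} : ℝ) - κ * n : ℝ) : ℂ) =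
        ∑ c : G, χ c * ((Nat.card {i : ι // N i ≤ n ∧ cl i = c} : ℝ) : ℂ) -
          (∑ c : G, χ c) * ((κ * n : ℝ) : ℂ) := by
      rw [Finset.sum_mul, ← Finset.sum_sub_distrib]
      refine Finset.sum_congr rfl fun c _ => ?_
      push_cast
      ring
    rw [this, hsum0, zero_mul, sub_zero]
  rw [h2]
  calc ‖∑ c : G, χ c * (((Nat.card {i : ι // N i ≤ n ∧ cl i = c} : ℝ) - κ * n : ℝ) : ℂ)‖
      ≤ ∑ c : G, ‖χ c * (((Nat.card {i : ι // N i ≤ n ∧ cl i = c} : ℝ) - κ * n : ℝ) : ℂ)‖ :=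
        norm_sum_le _ _
    _ ≤ ∑ _c : G, C * (n : ℝ) ^ r := by
        refine Finset.sum_le_sum fun c _ => ?_
        rw [norm_mul, AddChar.norm_apply, one_mul, Complex.norm_real, Real.norm_eq_abs]
        exact hcount c n hn
    _ = (Nat.card G : ℝ) * C * (n : ℝ) ^ r := by
        rw [Finset.sum_const, Finset.card_univ, nsmul_eq_mul, Nat.card_eq_fintype_card, mul_assoc]

omit [Finite G] in
/-- the constant in the counting hypothesis is non-negative. -/
theorem g1_C_nonneg (N : ι → ℕ) (cl : ι → G) {κ C r : ℝ}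
    (hcount : ∀ (c : G) (n : ℕ), 1 ≤ n →
      |(Nat.card {i : ι // N i ≤ n ∧ cl i = c} : ℝ) - κ * n| ≤ C * (n : ℝ) ^ r) : 0 ≤ C := by
  have h := hcount 0 1 le_rfl
  simp only [Nat.cast_one, Real.one_rpow, mul_one] at h
  exact (abs_nonneg _).trans h

/-- the total count is `O(n)`. -/
theorem g1_card_le (N : ι → ℕ) (hfin : ∀ n : ℕ, {i | N i ≤ n}.Finite)
    (cl : ι → G) {κ C r : ℝ} (hr1 : r ≤ 1)
    (hcount : ∀ (c : G) (n : ℕ), 1 ≤ n →
      |(Nat.card {i : ι // N i ≤ n ∧ cl i = c} : ℝ) - κ * n| ≤ C * (n : ℝ) ^ r)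
    (n : ℕ) (hn : 1 ≤ n) :
    ((hfin n).toFinset.card : ℝ) ≤ (Nat.card G : ℝ) * (|κ| + C) * n := by
  classical
  have : Fintype G := Fintype.ofFinite G
  have hC := g1_C_nonneg N cl hcount
  have hn1 : (1 : ℝ) ≤ n := by exact_mod_cast hn
  have hpow : (n : ℝ) ^ r ≤ n := by
    calc (n : ℝ) ^ r ≤ (n : ℝ) ^ (1 : ℝ) := Real.rpow_le_rpow_of_exponent_le hn1 hr1
      _ = n := Real.rpow_one _
  have hcard : ∀ c : G, (Nat.card {i : ι // N i ≤ n ∧ cl i = c}) =
      ((hfin n).toFinset.filter (fun i => cl i = c)).card := by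
    intro c
    apply Nat.subtype_card
    intro i
    simp [Set.Finite.mem_toFinset]
  rw [Finset.card_eq_sum_card_fiberwise (f := cl) (t := Finset.univ) (fun i _ => Finset.mem_univ _)]
  push_cast
  calc ∑ c : G, (((hfin n).toFinset.filter (fun i => cl i = c)).card : ℝ)
      ≤ ∑ _c : G, (|κ| + C) * n := by
        refine Finset.sum_le_sum fun c _ => ?_
        have h := hcount c n hn
        rw [hcard c] at h
        have h1 := (abs_le.mp h).2
        have h2 : κ * n ≤ |κ| * n := mul_le_mul_of_nonneg_right (le_abs_self κ) (by positivity)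
        have h3 : C * (n : ℝ) ^ r ≤ C * n := mul_le_mul_of_nonneg_left hpow hC
        linarith
    _ = (Nat.card G : ℝ) * (|κ| + C) * n := by
        rw [Finset.sum_const, Finset.card_univ, nsmul_eq_mul, Nat.card_eq_fintype_card, mul_assoc]

/-- the coefficient is bounded by the size of the fibre. -/
theorem g1_norm_coeff_le (N : ι → ℕ) (hfin : ∀ n : ℕ, {i | N i ≤ n}.Finite)
    (w : ι → ℂ) (hw : ∀ i, ‖w i‖ ≤ 1) (n k : ℕ) (hk : k ≤ n) :
    ‖g1_coeff N w k‖ ≤ (((hfin n).toFinset.filter (fun i => N i = k)).card : ℝ) := by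
  classical
  have hset : {i : ι | N i = k} = ((hfin n).toFinset.filter (fun i => N i = k) : Set ι) := by
    ext i
    simp only [Set.mem_ofPred_eq, coe_filter, Set.Finite.mem_toFinset, iff_and_self]
    intro h
    rw [h]
    exact hk
  unfold g1_coeff
  rw [show (∑' i : {i : ι // N i = k}, w i.1) = ∑' i : ({i : ι | N i = k} : Set ι), w i.1 from rfl,
    tsum_congr_set_coe w hset, Finset.tsum_subtype']
  calc ‖∑ i ∈ (hfin n).toFinset.filter (fun i => N i = k), w i‖
      ≤ ∑ i ∈ (hfin n).toFinset.filter (fun i => N i = k), ‖w i‖ := norm_sum_le _ _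
    _ ≤ ∑ _i ∈ (hfin n).toFinset.filter (fun i => N i = k), (1 : ℝ) :=
        Finset.sum_le_sum fun i _ => hw i
    _ = _ := by simp

/-- summability of the Dirichlet series for `s > 1`. -/
theorem g1_LSeriesSummable (N : ι → ℕ) (hN0 : ∀ i, N i ≠ 0)
    (hfin : ∀ n : ℕ, {i | N i ≤ n}.Finite)
    (cl : ι → G) {κ C r : ℝ} (hr1 : r ≤ 1)
    (hcount : ∀ (c : G) (n : ℕ), 1 ≤ n →
      |(Nat.card {i : ι // N i ≤ n ∧ cl i = c} : ℝ) - κ * n| ≤ C * (n : ℝ) ^ r)
    (w : ι → ℂ) (hw : ∀ i, ‖w i‖ ≤ 1) (s : ℂ) (hs : 1 < s.re) :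
    LSeriesSummable (g1_coeff N w) s := by
  classical
  apply LSeriesSummable_of_sum_norm_bigO (r := 1) _ zero_le_one hs
  apply Asymptotics.IsBigO.of_bound ((Nat.card G : ℝ) * (|κ| + C))
  filter_upwards [Filter.eventually_ge_atTop 1] with n hn
  have hC := g1_C_nonneg N cl hcount
  rw [Real.rpow_one, Real.norm_of_nonneg (Finset.sum_nonneg fun _ _ => norm_nonneg _),
    Real.norm_of_nonneg (Nat.cast_nonneg n)]
  refine le_trans ?_ (g1_card_le N hfin cl hr1 hcount n hn)
  have hmaps : ∀ i ∈ (hfin n).toFinset, N i ∈ Icc 1 n := by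
    intro i hi
    rw [Set.Finite.mem_toFinset] at hi
    exact mem_Icc.mpr ⟨Nat.one_le_iff_ne_zero.mpr (hN0 i), hi⟩
  rw [Finset.card_eq_sum_card_fiberwise hmaps]
  push_cast
  exact Finset.sum_le_sum fun k hk => g1_norm_coeff_le N hfin w hw n k (mem_Icc.mp hk).2

/-- **FI-G1, abstract form.**  Under the uniform class counting hypothesis, the `L`-series of a
non-trivial character is bounded on `(1, 2]`. -/
theorem g1_LSeries_norm_le (N : ι → ℕ) (hN0 : ∀ i, N i ≠ 0)
    (hfin : ∀ n : ℕ, {i | N i ≤ n}.Finite)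
    (cl : ι → G) {κ C r : ℝ} (hr0 : 0 ≤ r) (hr1 : r < 1)
    (hcount : ∀ (c : G) (n : ℕ), 1 ≤ n →
      |(Nat.card {i : ι // N i ≤ n ∧ cl i = c} : ℝ) - κ * n| ≤ C * (n : ℝ) ^ r)
    (χ : AddChar G ℂ) (hχ : χ ≠ 0) (s : ℝ) (hs1 : 1 < s) (hs2 : s ≤ 2) :
    ‖LSeries (g1_coeff N (fun i => χ (cl i))) s‖ ≤ 2 * ((Nat.card G : ℝ) * C) / (1 - r) := by
  have hC := g1_C_nonneg N cl hcount
  refine ab_LSeries_norm_le _ hr0 hr1 ?_ ?_ s hs1 hs2
  · intro n
    rw [g1_sum_coeff N hN0 hfin]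
    rcases Nat.eq_zero_or_pos n with rfl | hn
    · have : (hfin 0).toFinset = ∅ := by
        ext i
        simp [Set.Finite.mem_toFinset, hN0 i]
      rw [this, Finset.sum_empty, norm_zero]
      positivity
    · exact g1_norm_sum_le N hfin cl hcount χ hχ n hn
  · intro s' hs'
    exact g1_LSeriesSummable N hN0 hfin cl hr1.le hcount _
      (fun i => by rw [AddChar.norm_apply]) s' (by simpa using hs')

end Abstract

end Fermat.Agent.S14x
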