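/-
S14 / FI-G1 number-field wrapper, GENERIC form (helper16).  Prefix `g1_`.
Imports: Mathlib, S14x/Defs, S14x/FIGCoeff (abstract core).

`P` plays the role of `fd_Pm F m ⊔ fd_Sm F m`, `dv` of `fd_dv`, `cop I` of
`I ≠ ⊥ ∧ CoprimeTo m (fd_dv I)`.  From the FI-C counting statement (hypothesis `hcount`, in the
shape of `FISpec.fc_count`) we get FG-L1 (character sum bound) and FG-L2 (`L(s,χ)` bounded on
`(1,2]` for `χ ≠ 0`) for every `H ≥ P` and every character `χ` of `Dv F ⧸ H`.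
-/
import Mathlib
import Fermat.Agent.S14x.Defs
import Fermat.Agent.S14x.FIGCoeff

set_option autoImplicit false

namespace Fermat.Agent.S14x

open NumberField Finset

section NF

variable {F : Type*} [Field F] [NumberField F]

/-- generic coefficient function on ideals attached to a character of `Dv F ⧸ H`:
`χ [dv I]` if `cop I`, else `0`. -/
noncomputable def g1_G (cop : Ideal (𝓞 F) → Prop) (dv : Ideal (𝓞 F) → Dv F)
    (H : AddSubgroup (Dv F)) (χ : AddChar (Dv F ⧸ H) ℂ) (I : Ideal (𝓞 F)) : ℂ :=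
  open Classical in
  if cop I then χ (QuotientAddGroup.mk (dv I)) else 0

/-- generic Dirichlet coefficients `a_χ(n) = ∑_{N I = n} g_χ(I)`. -/
noncomputable def g1_A (cop : Ideal (𝓞 F) → Prop) (dv : Ideal (𝓞 F) → Dv F)
    (H : AddSubgroup (Dv F)) (χ : AddChar (Dv F ⧸ H) ℂ) (n : ℕ) : ℂ :=
  ∑' I : {I : Ideal (𝓞 F) // Ideal.absNorm I = n}, g1_G cop dv H χ I.1

/-- the pulled back character on `Dv F ⧸ P` for `P ≤ H`. -/
noncomputable def g1_pull {P H : AddSubgroup (Dv F)} (hPH : P ≤ H) (χ : AddChar (Dv F ⧸ H) ℂ) :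
    AddChar (Dv F ⧸ P) ℂ :=
  χ.compAddMonoidHom (QuotientAddGroup.map P H (AddMonoidHom.id _) hPH)

theorem g1_pull_mk {P H : AddSubgroup (Dv F)} (hPH : P ≤ H) (χ : AddChar (Dv F ⧸ H) ℂ)
    (D : Dv F) : g1_pull hPH χ (QuotientAddGroup.mk D) = χ (QuotientAddGroup.mk D) := rfl

theorem g1_pull_ne_zero {P H : AddSubgroup (Dv F)} (hPH : P ≤ H) (χ : AddChar (Dv F ⧸ H) ℂ)
    (hχ : χ ≠ 0) : g1_pull hPH χ ≠ 0 := by
  intro h
  apply hχ
  ext q
  obtain ⟨D, rfl⟩ := QuotientAddGroup.mk_surjective q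
  rw [← g1_pull_mk hPH χ D, h]
  rfl

/-- the generic coefficients are the abstract coefficients for the family of `cop` ideals. -/
theorem g1_A_eq_coeff (cop : Ideal (𝓞 F) → Prop) (dv : Ideal (𝓞 F) → Dv F)
    {P H : AddSubgroup (Dv F)} (hPH : P ≤ H) (χ : AddChar (Dv F ⧸ H) ℂ) (n : ℕ) :
    g1_A cop dv H χ n =
      g1_coeff (fun i : {I : Ideal (𝓞 F) // cop I} => Ideal.absNorm i.1)
        (fun i => g1_pull hPH χ (QuotientAddGroup.mk (dv i.1) : Dv F ⧸ P)) n := by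
  classical
  unfold g1_A g1_coeff
  let e : {i : {I : Ideal (𝓞 F) // cop I} // Ideal.absNorm i.1 = n} →
      {I : Ideal (𝓞 F) // Ideal.absNorm I = n} := fun i => ⟨i.1.1, i.2⟩
  have he : Function.Injective e := by
    intro a b hab
    have : (e a).1 = (e b).1 := congrArg Subtype.val hab
    exact Subtype.ext (Subtype.ext this)
  have hsupp : Function.support
      (fun I : {I : Ideal (𝓞 F) // Ideal.absNorm I = n} => g1_G cop dv H χ I.1) ⊆ Set.range e := by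
    intro I hI
    rw [Function.mem_support] at hI
    have hc : cop I.1 := by
      by_contra hc
      apply hI
      unfold g1_G
      rw [if_neg hc]
    exact ⟨⟨⟨I.1, hc⟩, I.2⟩, rfl⟩
  rw [← he.tsum_eq hsupp]
  refine tsum_congr fun i => ?_
  show g1_G cop dv H χ i.1.1 = _
  unfold g1_G
  rw [if_pos i.1.2]
  rfl

/-- the `cop` ideals of norm `≤ n` form a finite set. -/
theorem g1_finite_le (cop : Ideal (𝓞 F) → Prop) (n : ℕ) :
    {i : {I : Ideal (𝓞 F) // cop I} | Ideal.absNorm i.1 ≤ n}.Finite := by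
  have h := Ideal.finite_setOfPred_absNorm_le (S := 𝓞 F) n
  exact Set.Finite.of_injOn (f := Subtype.val) (fun i hi => hi) Subtype.val_injective.injOn h

/-- the FI-C counting statement, generic shape (cf. `FISpec.fc_count`): the number of `cop`
ideals of norm `≤ N` in the class of `D0` modulo `P` is `κ N + O(N ^ r)`, with `κ` independent of
the class. -/
def g1_CountHyp (cop : Ideal (𝓞 F) → Prop) (dv : Ideal (𝓞 F) → Dv F) (P : AddSubgroup (Dv F))
    (r : ℝ) : Prop :=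
  ∃ κ : ℝ, ∀ D0 : Dv F, ∃ C : ℝ, ∀ N : ℕ, 1 ≤ N →
    |(Nat.card {I : Ideal (𝓞 F) // cop I ∧ Ideal.absNorm I ≤ N ∧ dv I - D0 ∈ P} : ℝ) - κ * N| ≤
      C * (N : ℝ) ^ r

/-- from the per-class counting statement to the uniform statement used by the abstract core. -/
theorem g1_count_uniform (cop : Ideal (𝓞 F) → Prop) (dv : Ideal (𝓞 F) → Dv F)
    (P : AddSubgroup (Dv F)) [Finite (Dv F ⧸ P)] {r : ℝ} (hcount : g1_CountHyp cop dv P r) :
    ∃ κ C : ℝ, ∀ (c : Dv F ⧸ P) (n : ℕ), 1 ≤ n →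
      |(Nat.card {i : {I : Ideal (𝓞 F) // cop I} //
          Ideal.absNorm i.1 ≤ n ∧ (QuotientAddGroup.mk (dv i.1) : Dv F ⧸ P) = c} : ℝ) - κ * n| ≤
        C * (n : ℝ) ^ r := by
  classical
  have : Fintype (Dv F ⧸ P) := Fintype.ofFinite _
  obtain ⟨κ, hκ⟩ := hcount
  choose Cf hCf using hκ
  refine ⟨κ, ∑ c : Dv F ⧸ P, |Cf c.out|, fun c n hn => ?_⟩
  have hiff : ∀ I : Ideal (𝓞 F),
      (QuotientAddGroup.mk (dv I) : Dv F ⧸ P) = c ↔ dv I - c.out ∈ P := by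
    intro I
    conv_lhs => rw [← QuotientAddGroup.out_eq' c]
    rw [QuotientAddGroup.eq, ← neg_mem_iff (H := P), neg_add, neg_neg, sub_eq_add_neg]
  have hcard : Nat.card {i : {I : Ideal (𝓞 F) // cop I} //
        Ideal.absNorm i.1 ≤ n ∧ (QuotientAddGroup.mk (dv i.1) : Dv F ⧸ P) = c} =
      Nat.card {I : Ideal (𝓞 F) // cop I ∧ Ideal.absNorm I ≤ n ∧ dv I - c.out ∈ P} := by
    apply Nat.card_congr
    exact (Equiv.subtypeSubtypeEquivSubtypeInter cop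
      (fun I => Ideal.absNorm I ≤ n ∧ (QuotientAddGroup.mk (dv I) : Dv F ⧸ P) = c)).trans
      (Equiv.subtypeEquivRight fun I =>
        and_congr_right fun _ => and_congr_right fun _ => hiff I)
  rw [hcard]
  refine (hCf c.out n hn).trans ?_
  apply mul_le_mul_of_nonneg_right _ (by positivity)
  exact (le_abs_self _).trans
    (Finset.single_le_sum (f := fun c : Dv F ⧸ P => |Cf c.out|) (fun _ _ => abs_nonneg _)
      (Finset.mem_univ c))

/-- **FG-L1, generic form**: the character sum bound. -/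
theorem g1_charsum_le_of (cop : Ideal (𝓞 F) → Prop) (hcop : ∀ I, cop I → I ≠ ⊥)
    (dv : Ideal (𝓞 F) → Dv F) {P H : AddSubgroup (Dv F)} [Finite (Dv F ⧸ P)] (hPH : P ≤ H)
    {r : ℝ} (hcount : g1_CountHyp cop dv P r)
    (χ : AddChar (Dv F ⧸ H) ℂ) (hχ : χ ≠ 0) :
    ∃ C : ℝ, ∀ N : ℕ, ‖∑ n ∈ Icc 1 N, g1_A cop dv H χ n‖ ≤ C * (N : ℝ) ^ r := by
  obtain ⟨κ, C, hC⟩ := g1_count_uniform cop dv P hcount
  have hC0 := g1_C_nonneg _ _ hC
  have hN0 : ∀ i : {I : Ideal (𝓞 F) // cop I}, Ideal.absNorm i.1 ≠ 0 := fun i =>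
    fun h => hcop i.1 i.2 (Ideal.absNorm_eq_zero_iff.mp h)
  refine ⟨(Nat.card (Dv F ⧸ P) : ℝ) * C, fun N => ?_⟩
  simp_rw [g1_A_eq_coeff cop dv hPH χ]
  rw [g1_sum_coeff _ hN0 (g1_finite_le cop)]
  rcases Nat.eq_zero_or_pos N with rfl | hN
  · have : (g1_finite_le cop 0).toFinset = ∅ := by
      ext i
      simp [Set.Finite.mem_toFinset, hN0 i]
    rw [this, Finset.sum_empty, norm_zero]
    positivity
  · exact g1_norm_sum_le _ (g1_finite_le cop) _ hC (g1_pull hPH χ) (g1_pull_ne_zero hPH χ hχ) N hN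

/-- summability of the `L`-series (any character), generic form. -/
theorem g1_LSeriesSummable_of (cop : Ideal (𝓞 F) → Prop) (hcop : ∀ I, cop I → I ≠ ⊥)
    (dv : Ideal (𝓞 F) → Dv F) {P H : AddSubgroup (Dv F)} [Finite (Dv F ⧸ P)] (hPH : P ≤ H)
    {r : ℝ} (hr1 : r ≤ 1) (hcount : g1_CountHyp cop dv P r)
    (χ : AddChar (Dv F ⧸ H) ℂ) (s : ℂ) (hs : 1 < s.re) :
    LSeriesSummable (g1_A cop dv H χ) s := by
  obtain ⟨κ, C, hC⟩ := g1_count_uniform cop dv P hcount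
  have hN0 : ∀ i : {I : Ideal (𝓞 F) // cop I}, Ideal.absNorm i.1 ≠ 0 := fun i =>
    fun h => hcop i.1 i.2 (Ideal.absNorm_eq_zero_iff.mp h)
  have heq : g1_A cop dv H χ = g1_coeff (fun i : {I : Ideal (𝓞 F) // cop I} => Ideal.absNorm i.1)
        (fun i => g1_pull hPH χ (QuotientAddGroup.mk (dv i.1) : Dv F ⧸ P)) :=
    funext fun n => g1_A_eq_coeff cop dv hPH χ n
  rw [heq]
  exact g1_LSeriesSummable _ hN0 (g1_finite_le cop) _ hr1 hC _
    (fun i => by rw [AddChar.norm_apply]) s hs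

/-- **FG-L2, generic form**: `L(s,χ)` is bounded on `(1,2]` for `χ ≠ 0`. -/
theorem g1_L_bounded_of (cop : Ideal (𝓞 F) → Prop) (hcop : ∀ I, cop I → I ≠ ⊥)
    (dv : Ideal (𝓞 F) → Dv F) {P H : AddSubgroup (Dv F)} [Finite (Dv F ⧸ P)] (hPH : P ≤ H)
    {r : ℝ} (hr0 : 0 ≤ r) (hr1 : r < 1) (hcount : g1_CountHyp cop dv P r)
    (χ : AddChar (Dv F ⧸ H) ℂ) (hχ : χ ≠ 0) :
    ∃ B : ℝ, ∀ s : ℝ, 1 < s → s ≤ 2 → ‖LSeries (g1_A cop dv H χ) (s : ℂ)‖ ≤ B := by
  obtain ⟨κ, C, hC⟩ := g1_count_uniform cop dv P hcount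
  have hN0 : ∀ i : {I : Ideal (𝓞 F) // cop I}, Ideal.absNorm i.1 ≠ 0 := fun i =>
    fun h => hcop i.1 i.2 (Ideal.absNorm_eq_zero_iff.mp h)
  have heq : g1_A cop dv H χ = g1_coeff (fun i : {I : Ideal (𝓞 F) // cop I} => Ideal.absNorm i.1)
        (fun i => g1_pull hPH χ (QuotientAddGroup.mk (dv i.1) : Dv F ⧸ P)) :=
    funext fun n => g1_A_eq_coeff cop dv hPH χ n
  refine ⟨2 * ((Nat.card (Dv F ⧸ P) : ℝ) * C) / (1 - r), fun s hs1 hs2 => ?_⟩
  rw [heq]
  exact g1_LSeries_norm_le _ hN0 (g1_finite_le cop)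
    (fun i : {I : Ideal (𝓞 F) // cop I} => (QuotientAddGroup.mk (dv i.1) : Dv F ⧸ P))
    hr0 hr1 hC (g1_pull hPH χ) (g1_pull_ne_zero hPH χ hχ) s hs1 hs2

end NF

end Fermat.Agent.S14x
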