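/-
S14 / FI-G4 algebraic end (helper30).  Imports only S14x/Defs.

From the index bound `[Dv F : rayGroup ⊔ S] ≤ p` (`S` any subgroup of divisors supported on the
primes dividing `m`, e.g. `fd_Sm F m`) to the exact shape of `Spec.fi_main`.
-/
import Fermat.Agent.S14x.Defs

set_option autoImplicit false

namespace Fermat.Agent.S14x

open NumberField IsDedekindDomain

/-- abstract pigeonhole: `H ≤ Aco`, `Aco ∩ S = 0`, `[A : H ⊔ S] ≤ p`, `ψ : A →+ ZMod p` kills `H`
and is non-zero somewhere on `Aco`; then `ker ψ ∩ Aco = H`. -/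
theorem fge_abstract {A : Type*} [AddCommGroup A] {p : ℕ} [Fact p.Prime]
    (H Aco S : AddSubgroup A) (hHA : H ≤ Aco) (hdisj : ∀ x, x ∈ Aco → x ∈ S → x = 0)
    [Finite (A ⧸ (H ⊔ S))] (hcard : Nat.card (A ⧸ (H ⊔ S)) ≤ p)
    (ψ : A →+ ZMod p) (hker : H ≤ ψ.ker) {D₀ : A} (hD₀ : D₀ ∈ Aco) (hψ0 : ψ D₀ ≠ 0)
    {D : A} (hD : D ∈ Aco) (h0 : ψ D = 0) : D ∈ H := by
  have : NeZero p := ⟨(Fact.out : p.Prime).ne_zero⟩
  -- key: an element of `Aco` lying in `H ⊔ S` lies in `H`
  have key : ∀ x, x ∈ Aco → x ∈ H ⊔ S → x ∈ H := by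
    intro x hx hxs
    obtain ⟨a, ha, s, hs, rfl⟩ := AddSubgroup.mem_sup.mp hxs
    have hs' : s ∈ Aco := by
      have : s = (a + s) - a := by abel
      rw [this]
      exact Aco.sub_mem hx (hHA ha)
    have : s = 0 := hdisj s hs' hs
    rw [this, add_zero]
    exact ha
  let f : ZMod p → A ⧸ (H ⊔ S) := fun k => QuotientAddGroup.mk (k.val • D₀)
  have hψval : ∀ k : ZMod p, ψ (k.val • D₀) = k * ψ D₀ := by
    intro k
    rw [map_nsmul, nsmul_eq_mul, ZMod.natCast_zmod_val]
  have hinj : Function.Injective f := by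
    intro k k' hkk
    have h1 : -(k.val • D₀) + k'.val • D₀ ∈ H ⊔ S := (QuotientAddGroup.eq).mp hkk
    have h2 : -(k.val • D₀) + k'.val • D₀ ∈ Aco :=
      Aco.add_mem (Aco.neg_mem (Aco.nsmul_mem hD₀ _)) (Aco.nsmul_mem hD₀ _)
    have h3 : ψ (-(k.val • D₀) + k'.val • D₀) = 0 := hker (key _ h2 h1)
    rw [map_add, map_neg, hψval, hψval] at h3
    have h4 : (k' - k) * ψ D₀ = 0 := by rw [sub_mul]; rw [← h3]; ring
    rcases mul_eq_zero.mp h4 with h5 | h5
    · exact (sub_eq_zero.mp h5).symm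
    · exact absurd h5 hψ0
  have hbij : Function.Bijective f := by
    apply hinj.bijective_of_nat_card_le
    rw [Nat.card_zmod]
    exact hcard
  obtain ⟨k, hk⟩ := hbij.2 (QuotientAddGroup.mk D)
  have h1 : -(k.val • D₀) + D ∈ H ⊔ S := (QuotientAddGroup.eq).mp hk
  have h2 : -(k.val • D₀) + D ∈ Aco := Aco.add_mem (Aco.neg_mem (Aco.nsmul_mem hD₀ _)) hD
  have h3 := key _ h2 h1
  have h4 : ψ (-(k.val • D₀) + D) = 0 := hker h3
  rw [map_add, map_neg, hψval, h0, add_zero, neg_eq_zero] at h4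
  have hk0 : k = 0 := by
    rcases mul_eq_zero.mp h4 with h5 | h5
    · exact h5
    · exact absurd h5 hψ0
  rw [hk0, ZMod.val_zero, zero_smul, neg_zero, zero_add] at h3
  exact h3

section Concrete

variable {F : Type*} [Field F] [NumberField F]

/-- the divisors prime to `m`, as a subgroup. -/
def fgeCoprime (F : Type*) [Field F] [NumberField F] (m : ℕ) : AddSubgroup (Dv F) where
  carrier := {D | CoprimeTo m D}
  zero_mem' := fun _ _ => rfl
  add_mem' := by
    intro a b ha hb v hv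
    rw [Finsupp.add_apply, ha v hv, hb v hv, add_zero]
  neg_mem' := by
    intro a ha v hv
    rw [Finsupp.neg_apply, ha v hv, neg_zero]

theorem fge_mem_coprime (m : ℕ) (D : Dv F) : D ∈ fgeCoprime F m ↔ CoprimeTo m D := Iff.rfl

/-- `ordAt v x = 0` for an integer `x` outside `v`. -/
theorem fge_ordAt_eq_zero (v : Pl F) (x : 𝓞 F) (hx : x ∉ v.asIdeal) :
    ordAt v (x : F) = 0 := by
  have h1 : v.valuation F (algebraMap (𝓞 F) F x) = 1 := by
    rcases lt_or_eq_of_le (v.valuation_le_one (K := F) x) with h | h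
    · exact absurd ((v.valuation_lt_one_iff_mem (K := F) x).mp h) hx
    · exact h
  unfold ordAt
  rw [show ((x : 𝓞 F) : F) = algebraMap (𝓞 F) F x from rfl, h1]
  simp

variable (M : Type*) [Field M] [NumberField M] [Algebra F M]

/-- every element of the ray group mod `m` is prime to `m`. -/
theorem fge_rayGroup_le_coprime (m : ℕ) : rayGroup F M m ≤ fgeCoprime F m := by
  unfold rayGroup
  rw [AddSubgroup.closure_le]
  rintro D (⟨x, hx0, hx1, rfl⟩ | ⟨v, -, hv, rfl⟩)
  · intro v hv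
    rw [divOf_apply]
    apply fge_ordAt_eq_zero
    intro hxv
    have h1 : x - 1 ∈ v.asIdeal := by
      have : Ideal.span {(m : 𝓞 F)} ≤ v.asIdeal := by
        rw [Ideal.span_le]
        intro y hy
        rw [Set.mem_singleton_iff] at hy
        rw [hy]
        exact hv
      exact this hx1
    have h2 : (1 : 𝓞 F) ∈ v.asIdeal := by
      have : (1 : 𝓞 F) = x - (x - 1) := by ring
      rw [this]
      exact v.asIdeal.sub_mem hxv h1
    exact v.isPrime.ne_top ((Ideal.eq_top_iff_one _).mpr h2)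
  · intro v' hv'
    classical
    rw [Finsupp.single_apply]
    split_ifs with h
    · exact absurd (h ▸ hv') hv
    · rfl

/-- **algebraic end of FI**: the index bound `[Dv F : rayGroup ⊔ S] ≤ p`, for `S` a group of
divisors supported on the primes dividing `m`, gives the conclusion of `Spec.fi_main`. -/
theorem fge_fi_main_of {p : ℕ} [Fact p.Prime] (m : ℕ) (S : AddSubgroup (Dv F))
    (hS : ∀ D ∈ S, ∀ v : Pl F, (m : 𝓞 F) ∉ v.asIdeal → D v = 0)
    [Finite (Dv F ⧸ (rayGroup F M m ⊔ S))]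
    (hcard : Nat.card (Dv F ⧸ (rayGroup F M m ⊔ S)) ≤ p)
    (ψ : Dv F →+ ZMod p) (hker : rayGroup F M m ≤ ψ.ker)
    (hsurj : ∃ D₀ : Dv F, CoprimeTo m D₀ ∧ ψ D₀ ≠ 0)
    (D : Dv F) (hD : CoprimeTo m D) (h0 : ψ D = 0) : D ∈ rayGroup F M m := by
  obtain ⟨D₀, hD₀, hψ0⟩ := hsurj
  refine fge_abstract (rayGroup F M m) (fgeCoprime F m) S (fge_rayGroup_le_coprime M m) ?_
    hcard ψ hker (D₀ := D₀) hD₀ hψ0 (D := D) hD h0
  intro x hx hxS
  ext v
  rw [Finsupp.zero_apply]
  by_cases hv : (m : 𝓞 F) ∈ v.asIdeal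
  · exact hx v hv
  · exact hS x hxS v hv

/-- the group generated by the primes dividing `m` (this is helper78's `fd_Sm F m`, unfolded)
is supported on the primes dividing `m`. -/
theorem fge_closure_supported (m : ℕ) :
    ∀ D ∈ AddSubgroup.closure
        {D : Dv F | ∃ v : Pl F, (m : 𝓞 F) ∈ v.asIdeal ∧ D = Finsupp.single v 1},
      ∀ v : Pl F, (m : 𝓞 F) ∉ v.asIdeal → D v = 0 := by
  intro D hD v hv
  induction hD using AddSubgroup.closure_induction with
  | mem x hx =>
    obtain ⟨v', hv', rfl⟩ := hx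
    classical
    rw [Finsupp.single_apply]
    split_ifs with h
    · exact absurd (h ▸ hv') hv
    · rfl
  | zero => rfl
  | add x y _ _ hx hy => rw [Finsupp.add_apply, hx, hy, add_zero]
  | neg x _ hx => rw [Finsupp.neg_apply, hx, neg_zero]

end Concrete

end Fermat.Agent.S14x
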