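/-
S14 / FI-G1, ray-class form (helper16).  Prefix `g1_`.
Imports: S14x/FIChar (fd_Pm, fd_Sm, finiteness), S14x/FIGEnd (divisors prime to `m`),
S14x/FIGCoeffNF (generic wrapper).

Converts the FI-C output in helper2's shape (`fc_main`: for every `D0` prime to `m`,
`|#{I ≠ ⊥ | N I ≤ x, dv I - D0 ∈ fd_Pm F m} - κ x| ≤ C x ^ r` for real `x ≥ 1`) into the counting
hypothesis `g1_CountHyp` modulo `fd_Pm F m ⊔ fd_Sm F m`, and deduces FG-L1 / FG-L2 for the generic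
coefficient function `g1_G (fun I => I ≠ ⊥ ∧ CoprimeTo m (dv I)) dv H χ`
(`dv : Ideal (𝓞 F) → Dv F` arbitrary; in the application `dv = fd_dv`).
-/
import Fermat.Agent.S14x.FIChar
import Fermat.Agent.S14x.FIGEnd
import Fermat.Agent.S14x.FIGCoeffNF

set_option autoImplicit false

namespace Fermat.Agent.S14x

open NumberField IsDedekindDomain

section Ray

variable {F : Type*} [Field F] [NumberField F] (m : ℕ)

/-- the principal ray consists of divisors prime to `m`. -/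
theorem g1_Pm_le_coprime : fd_Pm F m ≤ fgeCoprime F m :=
  (fd_Pm_le_rayGroup F m F).trans (fge_rayGroup_le_coprime F m)

/-- an element of `fd_Sm` prime to `m` is zero. -/
theorem g1_Sm_coprime_eq_zero {D : Dv F} (hS : D ∈ fd_Sm F m) (hD : CoprimeTo m D) : D = 0 := by
  ext v
  rw [Finsupp.zero_apply]
  by_cases hv : (m : 𝓞 F) ∈ v.asIdeal
  · exact hD v hv
  · exact fge_closure_supported (F := F) m D hS v hv

/-- a divisor prime to `m` in `P_m + S_m` is in `P_m`. -/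
theorem g1_mem_Pm_of_coprime {D : Dv F} (h : D ∈ fd_Pm F m ⊔ fd_Sm F m) (hD : CoprimeTo m D) :
    D ∈ fd_Pm F m := by
  obtain ⟨a, ha, b, hb, rfl⟩ := AddSubgroup.mem_sup.mp h
  have ha' : CoprimeTo m a := g1_Pm_le_coprime m ha
  have hb' : CoprimeTo m b := by
    have : b = (a + b) - a := by abel
    rw [this]
    exact (fgeCoprime F m).sub_mem hD ha'
  rw [g1_Sm_coprime_eq_zero m hb hb', add_zero]
  exact ha

/-- the "coprime" predicate on ideals used by FI-G : `I ≠ ⊥` and `dv I` prime to `m`. -/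
def g1_cop (dv : Ideal (𝓞 F) → Dv F) (I : Ideal (𝓞 F)) : Prop := I ≠ ⊥ ∧ CoprimeTo m (dv I)

/-- `g1_G` as an `ite` with an arbitrary decidability instance (to identify it with other copies
of the same formula, e.g. `FISpec.fgG`). -/
theorem g1_G_eq_ite (cop : Ideal (𝓞 F) → Prop) (dv : Ideal (𝓞 F) → Dv F)
    (H : AddSubgroup (Dv F)) (χ : AddChar (Dv F ⧸ H) ℂ) (I : Ideal (𝓞 F)) [inst : Decidable (cop I)] :
    g1_G cop dv H χ I = if cop I then χ (QuotientAddGroup.mk (dv I)) else 0 := by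
  unfold g1_G
  by_cases h : cop I
  · rw [if_pos h, if_pos h]
  · rw [if_neg h, if_neg h]

/-- the same for the ray predicate, spelled out. -/
theorem g1_G_cop_eq_ite (dv : Ideal (𝓞 F) → Dv F)
    (H : AddSubgroup (Dv F)) (χ : AddChar (Dv F ⧸ H) ℂ) (I : Ideal (𝓞 F))
    [inst : Decidable (I ≠ ⊥ ∧ CoprimeTo m (dv I))] :
    g1_G (g1_cop m dv) dv H χ I =
      if I ≠ ⊥ ∧ CoprimeTo m (dv I) then χ (QuotientAddGroup.mk (dv I)) else 0 :=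
  g1_G_eq_ite (inst := inst) (g1_cop m dv) dv H χ I

/-- the pointwise dictionary between the two counting sets. -/
theorem g1_count_iff (dv : Ideal (𝓞 F) → Dv F) {D0 D0' : Dv F} (hD0' : CoprimeTo m D0')
    (hsub : D0 - D0' ∈ fd_Sm F m) (N : ℕ) (I : Ideal (𝓞 F)) :
    (g1_cop m dv I ∧ Ideal.absNorm I ≤ N ∧ dv I - D0 ∈ fd_Pm F m ⊔ fd_Sm F m) ↔
      (I ≠ ⊥ ∧ (Ideal.absNorm I : ℝ) ≤ (N : ℝ) ∧ dv I - D0' ∈ fd_Pm F m) := by
  have hsub' : D0 - D0' ∈ fd_Pm F m ⊔ fd_Sm F m :=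
    (le_sup_right : fd_Sm F m ≤ fd_Pm F m ⊔ fd_Sm F m) hsub
  constructor
  · rintro ⟨⟨hI, hc⟩, hN, hmem⟩
    refine ⟨hI, by exact_mod_cast hN, ?_⟩
    apply g1_mem_Pm_of_coprime m
    · have : dv I - D0' = (dv I - D0) + (D0 - D0') := by abel
      rw [this]
      exact (fd_Pm F m ⊔ fd_Sm F m).add_mem hmem hsub'
    · exact (fgeCoprime F m).sub_mem hc hD0'
  · rintro ⟨hI, hN, hmem⟩
    refine ⟨⟨hI, ?_⟩, by exact_mod_cast hN, ?_⟩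
    · have : dv I = (dv I - D0') + D0' := by abel
      rw [this]
      exact (fgeCoprime F m).add_mem (g1_Pm_le_coprime m hmem) hD0'
    · have : dv I - D0 = (dv I - D0') - (D0 - D0') := by abel
      rw [this]
      exact (fd_Pm F m ⊔ fd_Sm F m).sub_mem
        ((le_sup_left : fd_Pm F m ≤ fd_Pm F m ⊔ fd_Sm F m) hmem) hsub'

/-- from the FI-C output (helper2's shape `fc_main`, real `x ≥ 1`, classes modulo `fd_Pm` of
divisors prime to `m`) to the counting hypothesis modulo `fd_Pm ⊔ fd_Sm`. -/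
theorem g1_countHyp_of_ray (dv : Ideal (𝓞 F) → Dv F) (κ r : ℝ)
    (hfc : ∀ D0 : Dv F, (∀ v : Pl F, (m : 𝓞 F) ∈ v.asIdeal → D0 v = 0) → ∃ C : ℝ, ∀ x : ℝ, 1 ≤ x →
      |(Nat.card {I : Ideal (𝓞 F) // I ≠ ⊥ ∧ (Ideal.absNorm I : ℝ) ≤ x ∧
          dv I - D0 ∈ fd_Pm F m} : ℝ) - κ * x| ≤ C * x ^ r) :
    g1_CountHyp (g1_cop m dv) dv (fd_Pm F m ⊔ fd_Sm F m) r := by
  refine ⟨κ, fun D0 => ?_⟩
  obtain ⟨D0', hsub, hD0'⟩ := fd_exists_coprime_rep m D0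
  obtain ⟨C, hC⟩ := hfc D0' hD0'
  refine ⟨C, fun N hN => ?_⟩
  have hcard : Nat.card {I : Ideal (𝓞 F) // g1_cop m dv I ∧ Ideal.absNorm I ≤ N ∧
        dv I - D0 ∈ fd_Pm F m ⊔ fd_Sm F m} =
      Nat.card {I : Ideal (𝓞 F) // I ≠ ⊥ ∧ (Ideal.absNorm I : ℝ) ≤ (N : ℝ) ∧
        dv I - D0' ∈ fd_Pm F m} :=
    Nat.card_congr (Equiv.subtypeEquivRight fun I => g1_count_iff m dv hD0' hsub N I)
  rw [hcard]
  exact hC (N : ℝ) (by exact_mod_cast hN)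

/-- the exponent `1 - 1/[F:ℚ]` lies in `[0,1)`. -/
theorem g1_exponent_bounds (F : Type*) [Field F] [NumberField F] :
    0 ≤ 1 - 1 / (Module.finrank ℚ F : ℝ) ∧ 1 - 1 / (Module.finrank ℚ F : ℝ) < 1 := by
  have h : (1 : ℝ) ≤ (Module.finrank ℚ F : ℝ) := by
    exact_mod_cast Module.finrank_pos (R := ℚ) (M := F)
  constructor
  · rw [sub_nonneg, div_le_one (by linarith)]
    exact h
  · have : 0 < 1 / (Module.finrank ℚ F : ℝ) := by positivity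
    linarith

variable [NeZero m]

/-- **FG-L1 (ray form)**: character sum bound for `χ ≠ 0` on `Dv F ⧸ H`, `H ≥ P_m ⊔ S_m`. -/
theorem g1_charsum_le_ray (dv : Ideal (𝓞 F) → Dv F) (κ : ℝ)
    (hfc : ∀ D0 : Dv F, (∀ v : Pl F, (m : 𝓞 F) ∈ v.asIdeal → D0 v = 0) → ∃ C : ℝ, ∀ x : ℝ, 1 ≤ x →
      |(Nat.card {I : Ideal (𝓞 F) // I ≠ ⊥ ∧ (Ideal.absNorm I : ℝ) ≤ x ∧
          dv I - D0 ∈ fd_Pm F m} : ℝ) - κ * x| ≤ C * x ^ (1 - 1 / (Module.finrank ℚ F : ℝ)))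
    {H : AddSubgroup (Dv F)} (hH : fd_Pm F m ⊔ fd_Sm F m ≤ H)
    (χ : AddChar (Dv F ⧸ H) ℂ) (hχ : χ ≠ 0) :
    ∃ C : ℝ, ∀ N : ℕ, ‖∑ n ∈ Finset.Icc 1 N, g1_A (g1_cop m dv) dv H χ n‖ ≤
      C * (N : ℝ) ^ (1 - 1 / (Module.finrank ℚ F : ℝ)) := by
  have := fd_finite_quotient F m _ (le_refl (fd_Pm F m ⊔ fd_Sm F m))
  exact g1_charsum_le_of _ (fun I h => h.1) dv hH (g1_countHyp_of_ray m dv κ _ hfc) χ hχ

/-- **FG-L2 (ray form)**: `L(s,χ)` is bounded on `(1,2]` for `χ ≠ 0`. -/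
theorem g1_L_bounded_ray (dv : Ideal (𝓞 F) → Dv F) (κ : ℝ)
    (hfc : ∀ D0 : Dv F, (∀ v : Pl F, (m : 𝓞 F) ∈ v.asIdeal → D0 v = 0) → ∃ C : ℝ, ∀ x : ℝ, 1 ≤ x →
      |(Nat.card {I : Ideal (𝓞 F) // I ≠ ⊥ ∧ (Ideal.absNorm I : ℝ) ≤ x ∧
          dv I - D0 ∈ fd_Pm F m} : ℝ) - κ * x| ≤ C * x ^ (1 - 1 / (Module.finrank ℚ F : ℝ)))
    {H : AddSubgroup (Dv F)} (hH : fd_Pm F m ⊔ fd_Sm F m ≤ H)
    (χ : AddChar (Dv F ⧸ H) ℂ) (hχ : χ ≠ 0) :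
    ∃ B : ℝ, ∀ s : ℝ, 1 < s → s ≤ 2 →
      ‖LSeries (g1_A (g1_cop m dv) dv H χ) (s : ℂ)‖ ≤ B := by
  have := fd_finite_quotient F m _ (le_refl (fd_Pm F m ⊔ fd_Sm F m))
  exact g1_L_bounded_of _ (fun I h => h.1) dv hH (g1_exponent_bounds F).1 (g1_exponent_bounds F).2
    (g1_countHyp_of_ray m dv κ _ hfc) χ hχ

/-- summability of `L(s,χ)` for `Re s > 1` (any `χ`), ray form. -/
theorem g1_LSeriesSummable_ray (dv : Ideal (𝓞 F) → Dv F) (κ : ℝ)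
    (hfc : ∀ D0 : Dv F, (∀ v : Pl F, (m : 𝓞 F) ∈ v.asIdeal → D0 v = 0) → ∃ C : ℝ, ∀ x : ℝ, 1 ≤ x →
      |(Nat.card {I : Ideal (𝓞 F) // I ≠ ⊥ ∧ (Ideal.absNorm I : ℝ) ≤ x ∧
          dv I - D0 ∈ fd_Pm F m} : ℝ) - κ * x| ≤ C * x ^ (1 - 1 / (Module.finrank ℚ F : ℝ)))
    {H : AddSubgroup (Dv F)} (hH : fd_Pm F m ⊔ fd_Sm F m ≤ H)
    (χ : AddChar (Dv F ⧸ H) ℂ) (s : ℂ) (hs : 1 < s.re) :
    LSeriesSummable (g1_A (g1_cop m dv) dv H χ) s := by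
  have := fd_finite_quotient F m _ (le_refl (fd_Pm F m ⊔ fd_Sm F m))
  exact g1_LSeriesSummable_of _ (fun I h => h.1) dv hH (g1_exponent_bounds F).2.le
    (g1_countHyp_of_ray m dv κ _ hfc) χ s hs

end Ray

end Fermat.Agent.S14x
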