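/-
S14 / FI-G1, uniform version (helper16).  Prefix `g1_`.
The bound `B` for `‖L(s,χ)‖` on `(1,2]` can be chosen independently of the character `χ ≠ 0`
(and even of the group `H ≥ P_m ⊔ S_m`): this is the shape consumed by `g4_card_le_of` (hyp. `hG1`).
-/
import Fermat.Agent.S14x.FIGCoeffRay

set_option autoImplicit false

namespace Fermat.Agent.S14x

open NumberField IsDedekindDomain

section Unif

variable {F : Type*} [Field F] [NumberField F]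

/-- **FG-L2, generic form, uniform in `χ` and `H`.** -/
theorem g1_L_bounded_unif_of (cop : Ideal (𝓞 F) → Prop) (hcop : ∀ I, cop I → I ≠ ⊥)
    (dv : Ideal (𝓞 F) → Dv F) {P : AddSubgroup (Dv F)} [Finite (Dv F ⧸ P)]
    {r : ℝ} (hr0 : 0 ≤ r) (hr1 : r < 1) (hcount : g1_CountHyp cop dv P r) :
    ∃ B : ℝ, ∀ (H : AddSubgroup (Dv F)) (_ : P ≤ H) (χ : AddChar (Dv F ⧸ H) ℂ), χ ≠ 0 →
      ∀ s : ℝ, 1 < s → s ≤ 2 → ‖LSeries (g1_A cop dv H χ) (s : ℂ)‖ ≤ B := by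
  obtain ⟨κ, C, hC⟩ := g1_count_uniform cop dv P hcount
  have hN0 : ∀ i : {I : Ideal (𝓞 F) // cop I}, Ideal.absNorm i.1 ≠ 0 := fun i =>
    fun h => hcop i.1 i.2 (Ideal.absNorm_eq_zero_iff.mp h)
  refine ⟨2 * ((Nat.card (Dv F ⧸ P) : ℝ) * C) / (1 - r), fun H hPH χ hχ s hs1 hs2 => ?_⟩
  have heq : g1_A cop dv H χ = g1_coeff (fun i : {I : Ideal (𝓞 F) // cop I} => Ideal.absNorm i.1)
        (fun i => g1_pull hPH χ (QuotientAddGroup.mk (dv i.1) : Dv F ⧸ P)) :=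
    funext fun n => g1_A_eq_coeff cop dv hPH χ n
  rw [heq]
  exact g1_LSeries_norm_le _ hN0 (g1_finite_le cop)
    (fun i : {I : Ideal (𝓞 F) // cop I} => (QuotientAddGroup.mk (dv i.1) : Dv F ⧸ P))
    hr0 hr1 hC (g1_pull hPH χ) (g1_pull_ne_zero hPH χ hχ) s hs1 hs2

/-- **FG-L2 (ray form), uniform in `χ` and `H`**: the shape of `hG1` in `g4_card_le_of`. -/
theorem g1_L_bounded_unif_ray (m : ℕ) [NeZero m] (dv : Ideal (𝓞 F) → Dv F) (κ : ℝ)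
    (hfc : ∀ D0 : Dv F, (∀ v : Pl F, (m : 𝓞 F) ∈ v.asIdeal → D0 v = 0) → ∃ C : ℝ, ∀ x : ℝ, 1 ≤ x →
      |(Nat.card {I : Ideal (𝓞 F) // I ≠ ⊥ ∧ (Ideal.absNorm I : ℝ) ≤ x ∧
          dv I - D0 ∈ fd_Pm F m} : ℝ) - κ * x| ≤ C * x ^ (1 - 1 / (Module.finrank ℚ F : ℝ))) :
    ∃ B : ℝ, ∀ (H : AddSubgroup (Dv F)) (_ : fd_Pm F m ⊔ fd_Sm F m ≤ H)
      (χ : AddChar (Dv F ⧸ H) ℂ), χ ≠ 0 → ∀ s : ℝ, 1 < s → s ≤ 2 →
      ‖LSeries (g1_A (g1_cop m dv) dv H χ) (s : ℂ)‖ ≤ B := by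
  have := fd_finite_quotient F m _ (le_refl (fd_Pm F m ⊔ fd_Sm F m))
  exact g1_L_bounded_unif_of _ (fun I h => h.1) dv (g1_exponent_bounds F).1
    (g1_exponent_bounds F).2 (g1_countHyp_of_ray m dv κ _ hfc)

/-- the generic coefficient function has norm `≤ 1` (hypothesis `hg` of the FI-F bridge). -/
theorem g1_G_norm_le (cop : Ideal (𝓞 F) → Prop) (dv : Ideal (𝓞 F) → Dv F)
    (H : AddSubgroup (Dv F)) [Finite (Dv F ⧸ H)] (χ : AddChar (Dv F ⧸ H) ℂ) (I : Ideal (𝓞 F)) :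
    ‖g1_G cop dv H χ I‖ ≤ 1 := by
  classical
  rw [g1_G_eq_ite]
  split_ifs
  · rw [AddChar.norm_apply]
  · rw [norm_zero]; exact zero_le_one

end Unif

end Fermat.Agent.S14x
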