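/-
S14 / FI-C (helper2): from the count in a class modulo `fd_Pm` (divisor `D0` prime to `m`, real
bound `x`) to the FISpec shape `fc_count` (any `D0`, class modulo `fd_Pm ⊔ fd_Sm`, ideals prime to
`m`, integer bound `N`).  Generic in the "divisor of an ideal" map `dv`.
Also: `CoprimeTo` API and `fd_Pm ⊔ fd_Sm` versus `fd_Pm` on divisors prime to `m`.
-/
import Fermat.Agent.S14x.FIChar

set_option autoImplicit false

open NumberField IsDedekindDomain

namespace Fermat.Agent.S14x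

variable {F : Type*} [Field F] [NumberField F] (m : ℕ)

theorem fcw_coprimeTo_zero : CoprimeTo m (0 : Dv F) := fun _ _ => rfl

theorem fcw_coprimeTo_add {D D' : Dv F} (h : CoprimeTo m D) (h' : CoprimeTo m D') :
    CoprimeTo m (D + D') := fun v hv => by
  rw [Finsupp.add_apply, h v hv, h' v hv, add_zero]

theorem fcw_coprimeTo_neg {D : Dv F} (h : CoprimeTo m D) : CoprimeTo m (-D) := fun v hv => by
  rw [Finsupp.neg_apply, h v hv, neg_zero]

theorem fcw_coprimeTo_sub {D D' : Dv F} (h : CoprimeTo m D) (h' : CoprimeTo m D') :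
    CoprimeTo m (D - D') := fun v hv => by
  rw [Finsupp.sub_apply, h v hv, h' v hv, sub_zero]

/-- elements of the principal ray are prime to `m` -/
theorem fcw_coprimeTo_of_mem_Pm {D : Dv F} (h : D ∈ fd_Pm F m) : CoprimeTo m D := by
  unfold fd_Pm at h
  induction h using AddSubgroup.closure_induction with
  | mem D hD =>
    obtain ⟨x, hx0, hx1, rfl⟩ := hD
    intro v hv
    rw [divOf_apply]
    refine (fd_ordAt_algebraMap_eq_zero_iff v hx0).mpr fun hxv => ?_
    have h1 : (1 : 𝓞 F) ∈ v.asIdeal := by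
      have h2 : x - 1 ∈ v.asIdeal :=
        (Ideal.span_singleton_le_iff_mem (I := v.asIdeal)).mpr hv hx1
      have : (1 : 𝓞 F) = x - (x - 1) := by ring
      rw [this]
      exact Ideal.sub_mem _ hxv h2
    exact v.isPrime.ne_top ((Ideal.eq_top_iff_one _).mpr h1)
  | zero => exact fcw_coprimeTo_zero m
  | add D D' _ _ h h' => exact fcw_coprimeTo_add m h h'
  | neg D _ h => exact fcw_coprimeTo_neg m h

/-- elements of `fd_Sm` are supported on the primes dividing `m` -/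
theorem fcw_apply_eq_zero_of_mem_Sm {D : Dv F} (h : D ∈ fd_Sm F m) (v : Pl F)
    (hv : ((m : ℕ) : 𝓞 F) ∉ v.asIdeal) : D v = 0 := by
  unfold fd_Sm at h
  induction h using AddSubgroup.closure_induction with
  | mem D hD =>
    obtain ⟨w, hw, rfl⟩ := hD
    refine Finsupp.single_eq_of_ne ?_
    rintro rfl
    exact hv hw
  | zero => rfl
  | add D D' _ _ h h' => rw [Finsupp.add_apply, h, h', add_zero]
  | neg D _ h => rw [Finsupp.neg_apply, h, neg_zero]

/-- a divisor prime to `m` in `P_m + S_m` is in `P_m`. -/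
theorem fcw_mem_Pm_of_coprime {D : Dv F} (h : D ∈ fd_Pm F m ⊔ fd_Sm F m) (hD : CoprimeTo m D) :
    D ∈ fd_Pm F m := by
  obtain ⟨P, hP, S, hS, rfl⟩ := AddSubgroup.mem_sup.mp h
  have hS0 : S = 0 := by
    ext v
    by_cases hv : ((m : ℕ) : 𝓞 F) ∈ v.asIdeal
    · have h1 := hD v hv
      rw [Finsupp.add_apply, fcw_coprimeTo_of_mem_Pm m hP v hv, zero_add] at h1
      rw [h1, Finsupp.zero_apply]
    · rw [fcw_apply_eq_zero_of_mem_Sm m hS v hv, Finsupp.zero_apply]
  rw [hS0, add_zero]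
  exact hP

/-- **FI-C wrapper**: the count modulo `fd_Pm` for divisors prime to `m` gives the FISpec shape. -/
theorem fc_count_of (dv : Ideal (𝓞 F) → Dv F) (κ : ℝ)
    (hmain : ∀ D0 : Dv F, CoprimeTo m D0 → ∃ C : ℝ, ∀ x : ℝ, 1 ≤ x →
      |(Nat.card {I : Ideal (𝓞 F) // I ≠ ⊥ ∧ (Ideal.absNorm I : ℝ) ≤ x ∧
          dv I - D0 ∈ fd_Pm F m} : ℝ) - κ * x| ≤
        C * x ^ (1 - 1 / (Module.finrank ℚ F : ℝ)))
    (D0 : Dv F) : ∃ C : ℝ, ∀ N : ℕ, 1 ≤ N →
      |(Nat.card {I : Ideal (𝓞 F) // I ≠ ⊥ ∧ CoprimeTo m (dv I) ∧ Ideal.absNorm I ≤ N ∧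
          dv I - D0 ∈ fd_Pm F m ⊔ fd_Sm F m} : ℝ) - κ * N| ≤
        C * (N : ℝ) ^ (1 - 1 / (Module.finrank ℚ F : ℝ)) := by
  obtain ⟨D0', hS, hcop⟩ := fd_exists_coprime_rep m D0
  have hcop' : CoprimeTo m D0' := hcop
  obtain ⟨C, hC⟩ := hmain D0' hcop'
  refine ⟨C, fun N hN => ?_⟩
  have key := hC (N : ℝ) (by exact_mod_cast hN)
  have hcongr : Nat.card {I : Ideal (𝓞 F) // I ≠ ⊥ ∧ CoprimeTo m (dv I) ∧ Ideal.absNorm I ≤ N ∧
      dv I - D0 ∈ fd_Pm F m ⊔ fd_Sm F m} =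
      Nat.card {I : Ideal (𝓞 F) // I ≠ ⊥ ∧ (Ideal.absNorm I : ℝ) ≤ (N : ℝ) ∧
        dv I - D0' ∈ fd_Pm F m} := by
    refine Nat.card_congr (Equiv.subtypeEquivRight fun I => ?_)
    have hSsup : D0 - D0' ∈ fd_Pm F m ⊔ fd_Sm F m := (le_sup_right : fd_Sm F m ≤ _) hS
    constructor
    · rintro ⟨h0, hc, hn, hmem⟩
      refine ⟨h0, by exact_mod_cast hn, ?_⟩
      refine fcw_mem_Pm_of_coprime m ?_ (fcw_coprimeTo_sub m hc hcop')
      have : dv I - D0' = (dv I - D0) + (D0 - D0') := by abel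
      rw [this]
      exact add_mem hmem hSsup
    · rintro ⟨h0, hn, hmem⟩
      refine ⟨h0, ?_, by exact_mod_cast hn, ?_⟩
      · have : dv I = (dv I - D0') + D0' := by abel
        rw [this]
        exact fcw_coprimeTo_add m (fcw_coprimeTo_of_mem_Pm m hmem) hcop'
      · have : dv I - D0 = (dv I - D0') - (D0 - D0') := by abel
        rw [this]
        exact sub_mem ((le_sup_left : fd_Pm F m ≤ _) hmem) hSsup
  rw [hcongr]
  exact key

end Fermat.Agent.S14x
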