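/-
S14 / FI-C (helper2): the BRIDGE C1a + C1b between the divisor language (`dv I - D0 ∈ fd_Pm F m`)
and the ideal language (`J * I = span {a}` with `a ≡ 1 mod m`), generic in the
"divisor of an ideal" map `dv` (hypotheses = FISpec shapes of `fd_dv_mul`, `fd_dv_span_singleton`,
`fd_dv_injective`, `fd_dv_asIdeal`, and one direction of `fd_coprime_iff`).  Prefix `fcb_`.
-/
import Fermat.Agent.S14x.FIRayWrap

set_option autoImplicit false

open NumberField IsDedekindDomain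
open scoped nonZeroDivisors

namespace Fermat.Agent.S14x

variable {F : Type*} [Field F] [NumberField F] (m : ℕ)

theorem fcb_divOf_one : divOf (1 : F) = 0 := by
  ext v
  rw [divOf_apply, fd_ordAt_one, Finsupp.zero_apply]

omit [NumberField F] in
theorem fcb_coe_ne_zero {x : 𝓞 F} (hx : x ≠ 0) : (x : F) ≠ 0 := by
  simpa using hx

omit [NumberField F] in
theorem fcb_mul_sub_one_mem {x y : 𝓞 F} (hx : x - 1 ∈ Ideal.span {((m : ℕ) : 𝓞 F)})
    (hy : y - 1 ∈ Ideal.span {((m : ℕ) : 𝓞 F)}) : x * y - 1 ∈ Ideal.span {((m : ℕ) : 𝓞 F)} := by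
  have : x * y - 1 = (x - 1) * y + (y - 1) := by ring
  rw [this]
  exact Ideal.add_mem _ (Ideal.mul_mem_right _ _ hx) hy

/-- (i) elements of the principal ray are `div x - div y` with `x ≡ y ≡ 1 mod m` integral. -/
theorem fcb_exists_of_mem_Pm {D : Dv F} (h : D ∈ fd_Pm F m) :
    ∃ x y : 𝓞 F, x ≠ 0 ∧ y ≠ 0 ∧ x - 1 ∈ Ideal.span {((m : ℕ) : 𝓞 F)} ∧
      y - 1 ∈ Ideal.span {((m : ℕ) : 𝓞 F)} ∧ D = divOf (x : F) - divOf (y : F) := by
  unfold fd_Pm at h
  induction h using AddSubgroup.closure_induction with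
  | mem D hD =>
    obtain ⟨x, hx0, hx1, rfl⟩ := hD
    refine ⟨x, 1, hx0, one_ne_zero, hx1, by simp, ?_⟩
    rw [show ((1 : 𝓞 F) : F) = 1 from rfl, fcb_divOf_one, sub_zero]
  | zero =>
    exact ⟨1, 1, one_ne_zero, one_ne_zero, by simp, by simp, by rw [sub_self]⟩
  | add D D' _ _ h h' =>
    obtain ⟨x, y, hx0, hy0, hx1, hy1, rfl⟩ := h
    obtain ⟨x', y', hx'0, hy'0, hx'1, hy'1, rfl⟩ := h'
    refine ⟨x * x', y * y', mul_ne_zero hx0 hx'0, mul_ne_zero hy0 hy'0,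
      fcb_mul_sub_one_mem m hx1 hx'1, fcb_mul_sub_one_mem m hy1 hy'1, ?_⟩
    rw [show ((x * x' : 𝓞 F) : F) = (x : F) * (x' : F) from rfl,
      show ((y * y' : 𝓞 F) : F) = (y : F) * (y' : F) from rfl,
      fd_divOf_mul (fcb_coe_ne_zero hx0) (fcb_coe_ne_zero hx'0),
      fd_divOf_mul (fcb_coe_ne_zero hy0) (fcb_coe_ne_zero hy'0)]
    abel
  | neg D _ h =>
    obtain ⟨x, y, hx0, hy0, hx1, hy1, rfl⟩ := h
    exact ⟨y, x, hy0, hx0, hy1, hx1, by abel⟩

section Bridge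

variable (dv : Ideal (𝓞 F) → Dv F)
  (hmul : ∀ {I J : Ideal (𝓞 F)}, I ≠ ⊥ → J ≠ ⊥ → dv (I * J) = dv I + dv J)
  (hspan : ∀ {x : 𝓞 F}, x ≠ 0 → dv (Ideal.span {x}) = divOf (x : F))
  (hinj : ∀ {I J : Ideal (𝓞 F)}, I ≠ ⊥ → J ≠ ⊥ → dv I = dv J → I = J)

include hmul hspan hinj in
/-- (ii) a nonzero integral ideal whose divisor lies in the principal ray is generated by an
element `≡ 1 mod m`. -/
theorem fcb_principal_of_mem_Pm {I : Ideal (𝓞 F)} (hI : I ≠ ⊥) (h : dv I ∈ fd_Pm F m) :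
    ∃ a : 𝓞 F, a - 1 ∈ Ideal.span {((m : ℕ) : 𝓞 F)} ∧ I = Ideal.span {a} := by
  obtain ⟨x, y, hx0, hy0, hx1, hy1, hD⟩ := fcb_exists_of_mem_Pm m h
  have hsx : Ideal.span {x} ≠ (⊥ : Ideal (𝓞 F)) := by
    rwa [Ne, Ideal.span_singleton_eq_bot]
  have hsy : Ideal.span {y} ≠ (⊥ : Ideal (𝓞 F)) := by
    rwa [Ne, Ideal.span_singleton_eq_bot]
  have hyI : Ideal.span {y} * I ≠ ⊥ := mul_ne_zero hsy hI
  have heq : Ideal.span {y} * I = Ideal.span {x} := by
    refine hinj hyI hsx ?_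
    rw [hmul hsy hI, hspan hy0, hspan hx0, hD]
    abel
  have hxmem : x ∈ Ideal.span {y} * I := by
    rw [heq]; exact Ideal.mem_span_singleton_self x
  obtain ⟨a, haI, hya⟩ := Ideal.mem_span_singleton_mul.mp hxmem
  refine ⟨a, ?_, ?_⟩
  · have : a - 1 = (x - 1) - (y - 1) * a := by rw [← hya]; ring
    rw [this]
    exact Ideal.sub_mem _ hx1 (Ideal.mul_mem_right _ _ hy1)
  · have h2 : Ideal.span {y} * I = Ideal.span {y} * Ideal.span {a} := by
      rw [heq, Ideal.span_singleton_mul_span_singleton, hya]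
    exact (Ideal.span_singleton_mul_right_inj hy0).mp h2

include hmul hspan hinj in
/-- (iii) = C1b. -/
theorem fcb_iff (D0 : Dv F) {J : Ideal (𝓞 F)} (hJ : J ≠ ⊥) (hJD : dv J + D0 ∈ fd_Pm F m)
    (I : Ideal (𝓞 F)) (hI : I ≠ ⊥) :
    dv I - D0 ∈ fd_Pm F m ↔
      ∃ a : 𝓞 F, a - 1 ∈ Ideal.span {((m : ℕ) : 𝓞 F)} ∧ J * I = Ideal.span {a} := by
  have hJI : J * I ≠ ⊥ := mul_ne_zero hJ hI
  constructor
  · intro h
    refine fcb_principal_of_mem_Pm m dv hmul hspan hinj hJI ?_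
    rw [hmul hJ hI]
    have : dv J + dv I = (dv J + D0) + (dv I - D0) := by abel
    rw [this]
    exact add_mem hJD h
  · rintro ⟨a, ha1, hJIa⟩
    have ha0 : a ≠ 0 := by
      rintro rfl
      apply hJI
      rw [hJIa]
      simp
    have h1 : dv (J * I) ∈ fd_Pm F m := by
      rw [hJIa, hspan ha0]
      exact fd_divOf_mem_Pm m a ha0 ha1
    rw [hmul hJ hI] at h1
    have : dv I - D0 = (dv J + dv I) - (dv J + D0) := by abel
    rw [this]
    exact sub_mem h1 hJD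

variable (hasIdeal : ∀ v : Pl F, dv v.asIdeal = Finsupp.single v 1)

include hmul hspan hasIdeal in
/-- every effective divisor is the divisor of a nonzero integral ideal -/
theorem fcb_exists_ideal (D : Dv F) (hD : ∀ v, 0 ≤ D v) :
    ∃ I : Ideal (𝓞 F), I ≠ ⊥ ∧ dv I = D := by
  classical
  have htop : dv (⊤ : Ideal (𝓞 F)) = 0 := by
    have := hspan (x := (1 : 𝓞 F)) one_ne_zero
    rw [Ideal.span_singleton_one] at this
    rw [this]
    exact fcb_divOf_one
  have hpow : ∀ (v : Pl F) (n : ℕ), v.asIdeal ^ n ≠ ⊥ ∧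
      dv (v.asIdeal ^ n) = Finsupp.single v (n : ℤ) := by
    intro v n
    induction n with
    | zero =>
      refine ⟨by simp, ?_⟩
      rw [pow_zero, Ideal.one_eq_top, htop]
      simp
    | succ n ih =>
      refine ⟨pow_ne_zero _ v.ne_bot, ?_⟩
      rw [pow_succ, hmul ih.1 v.ne_bot, ih.2, hasIdeal, ← Finsupp.single_add]
      simp
  induction D using Finsupp.induction with
  | zero => exact ⟨⊤, by simp, htop⟩
  | single_add v n D hvD hn ih =>
    have hDv : D v = 0 := by rwa [Finsupp.notMem_support_iff] at hvD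
    have hD' : ∀ w, 0 ≤ D w := by
      intro w
      by_cases hw : w = v
      · rw [hw, hDv]
      · have := hD w
        rwa [Finsupp.add_apply, Finsupp.single_eq_of_ne hw, zero_add] at this
    have hn0 : 0 ≤ n := by
      have := hD v
      rwa [Finsupp.add_apply, Finsupp.single_eq_same, hDv, add_zero] at this
    obtain ⟨I, hI, hdvI⟩ := ih hD'
    obtain ⟨k, rfl⟩ := Int.eq_ofNat_of_zero_le hn0
    refine ⟨v.asIdeal ^ k * I, mul_ne_zero (hpow v k).1 hI, ?_⟩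
    rw [hmul (hpow v k).1 hI, (hpow v k).2, hdvI]

variable (hcop : ∀ I : Ideal (𝓞 F), I ≠ ⊥ → CoprimeTo m (dv I) →
  IsCoprime I (Ideal.span {((m : ℕ) : 𝓞 F)}))

include hmul hspan hinj hasIdeal hcop in
/-- **the bridge C1a + C1b** in the exact shape consumed by `fc_count_of_bridge`. -/
theorem fcb_bridge [NeZero m] (D0 : Dv F) (hD0 : CoprimeTo m D0) :
    ∃ J : (Ideal (𝓞 F))⁰, IsCoprime (J : Ideal (𝓞 F)) (Ideal.span {((m : ℕ) : 𝓞 F)}) ∧
      ∀ I : Ideal (𝓞 F), I ≠ ⊥ → (dv I - D0 ∈ fd_Pm F m ↔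
        ∃ a : 𝓞 F, a - 1 ∈ Ideal.span {((m : ℕ) : 𝓞 F)} ∧
          (J : Ideal (𝓞 F)) * I = Ideal.span {a}) := by
  classical
  -- the positive part of `D0`
  set Dp : Dv F := D0.mapRange (fun n => max n 0) (by simp) with hDp
  have hDp_apply : ∀ v, Dp v = max (D0 v) 0 := fun v => by rw [hDp, Finsupp.mapRange_apply]
  have hDp_cop : CoprimeTo m Dp := fun v hv => by rw [hDp_apply, hD0 v hv, max_self]
  -- the exponent of the (finite) ray class group
  have : Finite (fd_RayCl F m) := fd_finite_rayCl F m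
  set h : ℕ := Nat.card (fd_RayCl F m) with hh
  have hpos : 0 < h := Nat.card_pos
  have hmemsup : h • Dp ∈ fd_Pm F m ⊔ fd_Sm F m := by
    rw [← QuotientAddGroup.eq_zero_iff, QuotientAddGroup.mk_nsmul]
    exact card_nsmul_eq_zero'
  have hcoph : CoprimeTo m (h • Dp) := fun v hv => by
    rw [Finsupp.smul_apply, hDp_cop v hv, smul_zero]
  have hmemP : h • Dp ∈ fd_Pm F m := fcw_mem_Pm_of_coprime m hmemsup hcoph
  -- the effective divisor `E = h • Dp - D0`
  set E : Dv F := h • Dp - D0 with hE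
  have hE_nonneg : ∀ v, 0 ≤ E v := by
    intro v
    rw [hE, Finsupp.sub_apply, Finsupp.smul_apply, hDp_apply, nsmul_eq_mul]
    have h1 : (1 : ℤ) ≤ (h : ℤ) := by exact_mod_cast hpos
    rcases le_total (D0 v) 0 with h0 | h0
    · rw [max_eq_right h0]; linarith
    · rw [max_eq_left h0]; nlinarith
  have hE_cop : CoprimeTo m E := fcw_coprimeTo_sub m hcoph hD0
  obtain ⟨J, hJ0, hdvJ⟩ := fcb_exists_ideal dv hmul hspan hasIdeal E hE_nonneg
  have hJD : dv J + D0 ∈ fd_Pm F m := by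
    rw [hdvJ, hE]
    have : h • Dp - D0 + D0 = h • Dp := by abel
    rw [this]
    exact hmemP
  refine ⟨⟨J, mem_nonZeroDivisors_iff_ne_zero.mpr hJ0⟩, hcop J hJ0 (by rw [hdvJ]; exact hE_cop),
    fun I hI => ?_⟩
  exact fcb_iff m dv hmul hspan hinj D0 hJ0 hJD I hI

end Bridge

end Fermat.Agent.S14x
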