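/-
S14 / FI-C shared definitions (helper2): the unit index `fc_unitIndex F m` (= number of residue
classes of global units modulo `m`) and the ideal `(m) * J` as an element of `(Ideal (𝓞 F))⁰`.
-/
import Mathlib

set_option autoImplicit false

open NumberField
open scoped nonZeroDivisors

namespace Fermat.Agent.S14x

noncomputable section

variable (F : Type*) [Field F] [NumberField F]

/-- the group of residue classes modulo `m` of the global units of `F` -/
def fc_unitRange (m : ℕ) :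
    Subgroup (𝓞 F ⧸ Ideal.span {(m : 𝓞 F)})ˣ :=
  MonoidHom.range (Units.map (Ideal.Quotient.mk (Ideal.span {(m : 𝓞 F)})).toMonoidHom)

/-- the number of residue classes modulo `m` of the global units of `F` -/
def fc_unitIndex (m : ℕ) : ℕ := Nat.card (fc_unitRange F m)

/-- the principal ideal `(m)` as a nonzero ideal -/
def fc_natIdeal (m : ℕ) [NeZero m] : (Ideal (𝓞 F))⁰ :=
  ⟨Ideal.span {(m : 𝓞 F)}, by
    rw [mem_nonZeroDivisors_iff_ne_zero, Ne, Ideal.zero_eq_bot, Ideal.span_singleton_eq_bot]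
    exact_mod_cast NeZero.ne m⟩

/-- the ideal `(m) * J` as a nonzero ideal -/
def fc_mulNat (m : ℕ) [NeZero m] (J : (Ideal (𝓞 F))⁰) : (Ideal (𝓞 F))⁰ :=
  fc_natIdeal F m * J

@[simp]
theorem fc_natIdeal_coe (m : ℕ) [NeZero m] :
    (fc_natIdeal F m : Ideal (𝓞 F)) = Ideal.span {(m : 𝓞 F)} := rfl

@[simp]
theorem fc_mulNat_coe (m : ℕ) [NeZero m] (J : (Ideal (𝓞 F))⁰) :
    (fc_mulNat F m J : Ideal (𝓞 F)) = Ideal.span {(m : 𝓞 F)} * (J : Ideal (𝓞 F)) := rfl

theorem fc_unitIndex_pos (m : ℕ) [NeZero m] : 0 < fc_unitIndex F m := by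
  have : Finite (𝓞 F ⧸ Ideal.span {(m : 𝓞 F)}) :=
    Ideal.finiteQuotientOfFreeOfNeBot _ (by
      rw [Ne, Ideal.span_singleton_eq_bot]; exact_mod_cast NeZero.ne m)
  exact Nat.card_pos

theorem fc_absNorm_natIdeal (m : ℕ) [NeZero m] :
    Ideal.absNorm (fc_natIdeal F m : Ideal (𝓞 F)) = m ^ Module.finrank ℚ F := by
  rw [fc_natIdeal_coe, Ideal.absNorm_span_singleton]
  have : (Algebra.norm ℤ ((m : ℕ) : 𝓞 F)) = (m : ℤ) ^ Module.finrank ℚ F := by
    have h := Algebra.norm_algebraMap (R := ℤ) (S := 𝓞 F) (m : ℤ)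
    rw [RingOfIntegers.rank] at h
    simpa using h
  rw [this]
  simp [Int.natAbs_pow]

theorem fc_absNorm_mulNat (m : ℕ) [NeZero m] (J : (Ideal (𝓞 F))⁰) :
    Ideal.absNorm (fc_mulNat F m J : Ideal (𝓞 F)) =
      m ^ Module.finrank ℚ F * Ideal.absNorm (J : Ideal (𝓞 F)) := by
  rw [fc_mulNat_coe, map_mul, ← fc_natIdeal_coe, fc_absNorm_natIdeal]

end

end Fermat.Agent.S14x
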