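/-
S14 / FI-C (squad 2, helper4): the algebraic dictionary "ideals in a ray class <-> points of
shifted lattices in the fundamental cone" (the unit trick).  Mathlib only.  Prefix `fcd_`.
-/
import Mathlib

set_option autoImplicit false

open NumberField NumberField.mixedEmbedding NumberField.mixedEmbedding.fundamentalCone
  NumberField.Units Ideal
open scoped nonZeroDivisors

namespace Fermat.Agent.S14x

variable (K : Type*) [Field K] [NumberField K]

/-- Generic form of Mathlib's `card_isPrincipal_dvd_norm_le`: for a set `S` of nonzero integers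
stable under multiplication by units, the number of principal ideals generated by an element of
`S`, of norm `≤ s`, times the number of roots of unity, is the number of points of the
`integerSet` (integral points of the fundamental cone) lying in `S` of norm `≤ s`. -/
theorem fcd_card_principal_mem (S : Set (𝓞 K))
    (hSu : ∀ (u : (𝓞 K)ˣ) (a : 𝓞 K), a ∈ S → (u : 𝓞 K) * a ∈ S) (s : ℝ) :
    Nat.card {I : (Ideal (𝓞 K))⁰ // (∃ a ∈ S, (I : Ideal (𝓞 K)) = span {a}) ∧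
        (absNorm (I : Ideal (𝓞 K)) : ℝ) ≤ s} * torsionOrder K =
      Nat.card {a : integerSet K // (preimageOfMemIntegerSet a : 𝓞 K) ∈ S ∧
        mixedEmbedding.norm (a : mixedSpace K) ≤ s} := by
  classical
  rw [torsionOrder, ← Nat.card_prod]
  symm
  refine Nat.card_congr ?_
  refine ((integerSetEquiv K).subtypeEquiv (q := fun x => (∃ a ∈ S, (x.1.1 : Ideal (𝓞 K)) = span {a}) ∧
        (absNorm (x.1.1 : Ideal (𝓞 K)) : ℝ) ≤ s) ?_).trans ?_
  · intro a
    have h1 : ((integerSetEquiv K a).1.1 : Ideal (𝓞 K)) = span {(preimageOfMemIntegerSet a : 𝓞 K)} :=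
      integerSetEquiv_apply_fst a
    have h2 : (absNorm (span {(preimageOfMemIntegerSet a : 𝓞 K)}) : ℝ) =
        mixedEmbedding.norm (a : mixedSpace K) := by
      rw [← intNorm_coe, intNorm, absNorm_span_singleton]
    rw [h1, h2]
    refine and_congr_left fun _ => ⟨fun h => ⟨_, h, rfl⟩, ?_⟩
    rintro ⟨b, hb, hab⟩
    obtain ⟨u, hu⟩ := (span_singleton_eq_span_singleton.mp hab).symm
    rw [← hu, mul_comm]
    exact hSu u b hb
  · refine (Equiv.prodSubtypeFstEquivSubtypeProd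
      (p := fun I : {I : (Ideal (𝓞 K))⁰ // Submodule.IsPrincipal I.1} =>
        (∃ a ∈ S, (I.1 : Ideal (𝓞 K)) = span {a}) ∧ (absNorm (I.1 : Ideal (𝓞 K)) : ℝ) ≤ s)).trans
      (Equiv.prodCongrLeft fun _ => ?_)
    refine (Equiv.subtypeSubtypeEquivSubtypeInter (fun I : (Ideal (𝓞 K))⁰ => Submodule.IsPrincipal I.1)
      (fun I => (∃ a ∈ S, (I : Ideal (𝓞 K)) = span {a}) ∧
        (absNorm (I : Ideal (𝓞 K)) : ℝ) ≤ s)).trans (Equiv.subtypeEquivRight fun I => ?_)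
    refine ⟨fun h => h.2, fun h => ⟨?_, h⟩⟩
    obtain ⟨⟨a, -, ha⟩, -⟩ := h
    exact ⟨⟨a, ha⟩⟩

/-- the unit-stable set attached to the ray class of `J⁻¹` modulo `m`: nonzero elements of `J`
which are congruent to a unit modulo `m`. -/
def fcdS (m : ℕ) (J : (Ideal (𝓞 K))⁰) : Set (𝓞 K) :=
  {b | b ∈ (J : Ideal (𝓞 K)) ∧ b ≠ 0 ∧ ∃ u : (𝓞 K)ˣ, (u : 𝓞 K) * b - 1 ∈ span {(m : 𝓞 K)}}

omit [NumberField K] in
theorem fcdS_units_mul (m : ℕ) (J : (Ideal (𝓞 K))⁰) (v : (𝓞 K)ˣ) (b : 𝓞 K)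
    (hb : b ∈ fcdS K m J) : (v : 𝓞 K) * b ∈ fcdS K m J := by
  obtain ⟨hbJ, hb0, u, hu⟩ := hb
  refine ⟨Ideal.mul_mem_left _ _ hbJ, mul_ne_zero v.ne_zero hb0, u * v⁻¹, ?_⟩
  have : ((u * v⁻¹ : (𝓞 K)ˣ) : 𝓞 K) * ((v : 𝓞 K) * b) = (u : 𝓞 K) * b := by
    rw [Units.val_mul, mul_assoc, ← mul_assoc ((v⁻¹ : (𝓞 K)ˣ) : 𝓞 K), Units.inv_mul, one_mul]
  rwa [this]

omit [NumberField K] in
theorem fcd_ray_iff (m : ℕ) (J : (Ideal (𝓞 K))⁰) (I' : Ideal (𝓞 K)) (hI' : I' ≠ ⊥)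
    (hJI : I' ≤ (J : Ideal (𝓞 K))) :
    (∃ a : 𝓞 K, a - 1 ∈ span {(m : 𝓞 K)} ∧ I' = span {a}) ↔
      ∃ b ∈ fcdS K m J, I' = span {b} := by
  constructor
  · rintro ⟨a, ha1, haI⟩
    refine ⟨a, ⟨?_, ?_, 1, ?_⟩, haI⟩
    · apply hJI
      rw [haI]
      exact mem_span_singleton_self a
    · rintro rfl
      apply hI'
      rw [haI]
      simp
    · rw [Units.val_one, one_mul]
      exact ha1
  · rintro ⟨b, ⟨-, -, u, hu⟩, hbI⟩
    refine ⟨u * b, hu, ?_⟩
    rw [hbI]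
    exact span_singleton_eq_span_singleton.mpr ⟨u, by rw [mul_comm]⟩

/-- **The unit trick, ideal side.** Integral ideals `I` of norm `≤ s` such that `J * I` is generated
by an element `≡ 1 mod m` correspond (up to the factor `w = torsionOrder`) to the
points of `integerSet K` of norm `≤ s * N J` lying in `J` and congruent to a unit modulo `m`. -/
theorem fcd_ray_card (m : ℕ) (J : (Ideal (𝓞 K))⁰) (s : ℝ) :
    Nat.card {I : (Ideal (𝓞 K))⁰ // (∃ a : 𝓞 K, a - 1 ∈ span {(m : 𝓞 K)} ∧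
        (J : Ideal (𝓞 K)) * I = span {a}) ∧ (absNorm (I : Ideal (𝓞 K)) : ℝ) ≤ s} * torsionOrder K =
      Nat.card {a : integerSet K // (preimageOfMemIntegerSet a : 𝓞 K) ∈ fcdS K m J ∧
        mixedEmbedding.norm (a : mixedSpace K) ≤ s * absNorm (J : Ideal (𝓞 K))} := by
  rw [← fcd_card_principal_mem K (fcdS K m J) (fcdS_units_mul K m J)]
  congr 1
  refine Nat.card_congr ?_
  refine ((Equiv.dvd J).subtypeEquiv (q := fun I' : {a : (Ideal (𝓞 K))⁰ // J ∣ a} =>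
      (∃ a ∈ fcdS K m J, ((I'.1 : (Ideal (𝓞 K))⁰) : Ideal (𝓞 K)) = span {a}) ∧
      (absNorm ((I'.1 : (Ideal (𝓞 K))⁰) : Ideal (𝓞 K)) : ℝ) ≤ s * absNorm (J : Ideal (𝓞 K))) ?_).trans
    ((Equiv.subtypeSubtypeEquivSubtypeInter (fun I' : (Ideal (𝓞 K))⁰ => J ∣ I')
      (fun I' => (∃ a ∈ fcdS K m J, (I' : Ideal (𝓞 K)) = span {a}) ∧
        (absNorm (I' : Ideal (𝓞 K)) : ℝ) ≤ s * absNorm (J : Ideal (𝓞 K)))).trans
      (Equiv.subtypeEquivRight fun I' => ?_))
  · intro I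
    have hJpos : (0 : ℝ) < absNorm (J : Ideal (𝓞 K)) :=
      Nat.cast_pos.mpr (absNorm_pos_of_nonZeroDivisors J)
    have hcoe : (((Equiv.dvd J I : {a : (Ideal (𝓞 K))⁰ // J ∣ a}) : (Ideal (𝓞 K))⁰) :
        Ideal (𝓞 K)) = (J : Ideal (𝓞 K)) * (I : Ideal (𝓞 K)) := rfl
    have hnorm : (absNorm ((J : Ideal (𝓞 K)) * (I : Ideal (𝓞 K))) : ℝ) =
        absNorm (I : Ideal (𝓞 K)) * absNorm (J : Ideal (𝓞 K)) := by
      rw [_root_.map_mul, Nat.cast_mul, mul_comm]
    have hne : (J : Ideal (𝓞 K)) * (I : Ideal (𝓞 K)) ≠ ⊥ :=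
      mul_ne_zero (nonZeroDivisors.coe_ne_zero J) (nonZeroDivisors.coe_ne_zero I)
    rw [hcoe, hnorm, mul_le_mul_iff_left₀ hJpos]
    exact and_congr_left fun _ => fcd_ray_iff K m J _ hne Ideal.mul_le_left
  · refine ⟨fun h => h.2, fun h => ⟨?_, h⟩⟩
    obtain ⟨⟨b, ⟨hbJ, -, -⟩, hbI⟩, -⟩ := h
    rw [nonZeroDivisors_dvd_iff_dvd_coe, hbI, dvd_span_singleton]
    exact hbJ

/-- points of `integerSet K` congruent to `b` modulo the ideal `I'` = points of the fundamental cone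
in the shifted lattice `b + I'`. -/
theorem fcd_shift_card (I' : (Ideal (𝓞 K))⁰) (b : 𝓞 K) (X : ℝ) :
    Nat.card {a : integerSet K // (preimageOfMemIntegerSet a : 𝓞 K) - b ∈ (I' : Ideal (𝓞 K)) ∧
        mixedEmbedding.norm (a : mixedSpace K) ≤ X} =
      Nat.card {a : mixedSpace K // a ∈ fundamentalCone K ∧ mixedEmbedding.norm a ≤ X ∧
        a - mixedEmbedding K (b : K) ∈ idealLattice K (FractionalIdeal.mk0 K I')} := by
  refine Nat.card_congr (Equiv.ofBijective (fun a => ⟨(a.1 : mixedSpace K), ?_⟩) ⟨?_, ?_⟩)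
  · obtain ⟨a, ha1, ha2⟩ := a
    refine ⟨(mem_integerSet.mp a.2).1, ha2, ?_⟩
    rw [mem_idealLattice]
    refine ⟨(((preimageOfMemIntegerSet a : 𝓞 K) - b : 𝓞 K) : K), ?_, ?_⟩
    · rw [SetLike.mem_coe, FractionalIdeal.coe_mk0, FractionalIdeal.mem_coeIdeal]
      exact ⟨_, ha1, rfl⟩
    · rw [RingOfIntegers.coe_eq_algebraMap, map_sub, map_sub]
      exact congrArg (· - _) (mixedEmbedding_preimageOfMemIntegerSet a)
  · intro a a' h
    have := congrArg Subtype.val h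
    exact Subtype.ext (Subtype.ext this)
  · rintro ⟨x, hx1, hx2, hx3⟩
    rw [mem_idealLattice] at hx3
    obtain ⟨y, hy, hyx⟩ := hx3
    rw [SetLike.mem_coe, FractionalIdeal.coe_mk0, FractionalIdeal.mem_coeIdeal] at hy
    obtain ⟨y', hy', rfl⟩ := hy
    have hx : mixedEmbedding K ((y' + b : 𝓞 K) : K) = x := by
      rw [RingOfIntegers.coe_eq_algebraMap, map_add, map_add, hyx]
      exact sub_add_cancel _ _
    have hmem : x ∈ integerSet K := mem_integerSet.mpr ⟨hx1, y' + b, hx⟩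
    refine ⟨⟨⟨x, hmem⟩, ?_, hx2⟩, rfl⟩
    have : (preimageOfMemIntegerSet ⟨x, hmem⟩ : 𝓞 K) = y' + b := by
      have h2 := mixedEmbedding_preimageOfMemIntegerSet (⟨x, hmem⟩ : integerSet K)
      have h3 : mixedEmbedding K ((preimageOfMemIntegerSet (⟨x, hmem⟩ : integerSet K) : 𝓞 K) : K) =
          mixedEmbedding K ((y' + b : 𝓞 K) : K) := h2.trans hx.symm
      exact RingOfIntegers.coe_injective ((mixedEmbedding_injective K) h3)
    rw [this, add_sub_cancel_right]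
    exact hy'

/-- there are finitely many integral points of bounded norm in the fundamental cone -/
theorem fcd_finite_norm_le (X : ℝ) :
    Finite {a : integerSet K // mixedEmbedding.norm (a : mixedSpace K) ≤ X} := by
  have hfin : Finite {I : (Ideal (𝓞 K))⁰ // absNorm (I : Ideal (𝓞 K)) ≤ ⌊X⌋₊} :=
    (Ideal.finite_setOfPred_absNorm_le₀ ⌊X⌋₊).to_subtype
  have hle : ∀ a : {a : integerSet K // mixedEmbedding.norm (a : mixedSpace K) ≤ X},
      absNorm ((integerSetEquiv K a.1).1.1 : Ideal (𝓞 K)) ≤ ⌊X⌋₊ := by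
    intro a
    rw [integerSetEquiv_apply_fst, absNorm_span_singleton]
    apply Nat.le_floor
    have := intNorm_coe a.1
    rw [intNorm] at this
    rw [this]
    exact a.2
  refine Finite.of_injective (fun a : {a : integerSet K // mixedEmbedding.norm (a : mixedSpace K) ≤ X} =>
    ((⟨(integerSetEquiv K a.1).1.1, hle a⟩ : {I : (Ideal (𝓞 K))⁰ // absNorm (I : Ideal (𝓞 K)) ≤ ⌊X⌋₊}),
      (integerSetEquiv K a.1).2)) ?_
  intro a a' h
  simp only [Prod.mk.injEq, Subtype.mk.injEq] at h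
  apply Subtype.ext
  apply (integerSetEquiv K).injective
  exact Prod.ext (Subtype.ext h.1) h.2

/-- decomposition of a union of residue classes modulo `I'` into its classes -/
theorem fcd_card_decomp (T : Set (𝓞 K)) (S : Finset (𝓞 K)) (I' : Ideal (𝓞 K))
    (hS : ∀ c ∈ S, ∀ c' ∈ S, c - c' ∈ I' → c = c')
    (hT : ∀ b : 𝓞 K, b ≠ 0 → (b ∈ T ↔ ∃ c ∈ S, b - c ∈ I')) (X : ℝ) :
    Nat.card {a : integerSet K // (preimageOfMemIntegerSet a : 𝓞 K) ∈ T ∧
        mixedEmbedding.norm (a : mixedSpace K) ≤ X} =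
      ∑ c ∈ S, Nat.card {a : integerSet K // (preimageOfMemIntegerSet a : 𝓞 K) - c ∈ I' ∧
        mixedEmbedding.norm (a : mixedSpace K) ≤ X} := by
  classical
  have hfin := fcd_finite_norm_le K X
  have hfin' : ∀ c : S, Finite {a : integerSet K // (preimageOfMemIntegerSet a : 𝓞 K) - c ∈ I' ∧
      mixedEmbedding.norm (a : mixedSpace K) ≤ X} := fun c =>
    Finite.of_injective (fun a => (⟨a.1, a.2.2⟩ :
      {a : integerSet K // mixedEmbedding.norm (a : mixedSpace K) ≤ X}))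
      (fun a a' h => Subtype.ext (by simpa using congrArg Subtype.val h))
  have hne : ∀ a : integerSet K, (preimageOfMemIntegerSet a : 𝓞 K) ≠ 0 := fun a =>
    nonZeroDivisors.coe_ne_zero _
  rw [← Finset.sum_coe_sort S (fun c => Nat.card {a : integerSet K //
    (preimageOfMemIntegerSet a : 𝓞 K) - c ∈ I' ∧ mixedEmbedding.norm (a : mixedSpace K) ≤ X}),
    ← Nat.card_sigma]
  refine (Nat.card_congr (Equiv.ofBijective
    (fun a : (Σ c : S, {a : integerSet K // (preimageOfMemIntegerSet a : 𝓞 K) - c ∈ I' ∧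
      mixedEmbedding.norm (a : mixedSpace K) ≤ X}) =>
      (⟨a.2.1, (hT _ (hne a.2.1)).mpr ⟨a.1.1, a.1.2, a.2.2.1⟩, a.2.2.2⟩ :
        {a : integerSet K // (preimageOfMemIntegerSet a : 𝓞 K) ∈ T ∧
          mixedEmbedding.norm (a : mixedSpace K) ≤ X})) ⟨?_, ?_⟩)).symm
  · rintro ⟨c, a, h1, h2⟩ ⟨c', a', h1', h2'⟩ h
    have haa : a = a' := congrArg Subtype.val h
    subst haa
    have hcc : c = c' := by
      apply Subtype.ext
      apply hS _ c.2 _ c'.2
      have : (c : 𝓞 K) - c' = ((preimageOfMemIntegerSet a : 𝓞 K) - c') -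
          ((preimageOfMemIntegerSet a : 𝓞 K) - c) := by ring
      rw [this]
      exact I'.sub_mem h1' h1
    subst hcc
    rfl
  · rintro ⟨a, hT', h2⟩
    obtain ⟨c, hc, hc'⟩ := (hT _ (hne a)).mp hT'
    exact ⟨⟨⟨c, hc⟩, a, hc', h2⟩, rfl⟩

end Fermat.Agent.S14x
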