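/-
S14 / FI-C C1c (helper4): the representatives `u_r * a₀` of the unit classes and the final
ideal-level counting identity.  Prefix `fcd_`.
-/
import Fermat.Agent.S14x.FIRayDict
import Fermat.Agent.S14x.FIRayDefs

set_option autoImplicit false

open NumberField NumberField.mixedEmbedding NumberField.mixedEmbedding.fundamentalCone
  NumberField.Units Ideal
open scoped nonZeroDivisors

namespace Fermat.Agent.S14x

variable (K : Type*) [Field K] [NumberField K]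

/-- the residue class modulo `m` of a global unit, as an element of `fc_unitRange` -/
noncomputable def fcd_unitClass (m : ℕ) (u : (𝓞 K)ˣ) : fc_unitRange K m :=
  ⟨Units.map (Ideal.Quotient.mk (span {(m : 𝓞 K)})).toMonoidHom u, ⟨u, rfl⟩⟩

omit [NumberField K] in
theorem fcd_unitClass_val (m : ℕ) (u : (𝓞 K)ˣ) :
    ((fcd_unitClass K m u : (𝓞 K ⧸ span {(m : 𝓞 K)})ˣ) : 𝓞 K ⧸ span {(m : 𝓞 K)}) =
      Ideal.Quotient.mk (span {(m : 𝓞 K)}) (u : 𝓞 K) := rfl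

omit [NumberField K] in
theorem fcd_unitClass_surjective (m : ℕ) : Function.Surjective (fcd_unitClass K m) := by
  rintro ⟨r, u, rfl⟩
  exact ⟨u, rfl⟩

/-- a chosen unit in a class -/
noncomputable def fcd_rep (m : ℕ) (r : fc_unitRange K m) : (𝓞 K)ˣ :=
  (fcd_unitClass_surjective K m r).choose

omit [NumberField K] in
theorem fcd_rep_spec (m : ℕ) (r : fc_unitRange K m) : fcd_unitClass K m (fcd_rep K m r) = r :=
  (fcd_unitClass_surjective K m r).choose_spec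

omit [NumberField K] in
theorem fcd_mk_rep (m : ℕ) (r : fc_unitRange K m) :
    Ideal.Quotient.mk (span {(m : 𝓞 K)}) (fcd_rep K m r : 𝓞 K) =
      ((r : (𝓞 K ⧸ span {(m : 𝓞 K)})ˣ) : 𝓞 K ⧸ span {(m : 𝓞 K)}) := by
  rw [← fcd_unitClass_val, fcd_rep_spec]

section Main

variable (m : ℕ) (J : (Ideal (𝓞 K))⁰)

omit [NumberField K] in
theorem fcd_exists_a0 (hJ : IsCoprime (J : Ideal (𝓞 K)) (span {(m : 𝓞 K)})) :
    ∃ a0 : 𝓞 K, a0 ∈ (J : Ideal (𝓞 K)) ∧ a0 - 1 ∈ span {(m : 𝓞 K)} := by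
  obtain ⟨x, hx, y, hy, hxy⟩ := Ideal.isCoprime_iff_exists.mp hJ
  refine ⟨x, hx, ?_⟩
  have : x - 1 = -y := by rw [← hxy]; ring
  rw [this]
  exact neg_mem hy

omit [NumberField K] in
/-- membership in a class modulo `(m) * J`, for `J` coprime to `m` -/
theorem fcd_sub_mem_mul_iff (hJ : IsCoprime (J : Ideal (𝓞 K)) (span {(m : 𝓞 K)})) (b c : 𝓞 K)
    (hc : c ∈ (J : Ideal (𝓞 K))) :
    b - c ∈ span {(m : 𝓞 K)} * (J : Ideal (𝓞 K)) ↔
      b ∈ (J : Ideal (𝓞 K)) ∧ Ideal.Quotient.mk (span {(m : 𝓞 K)}) b =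
        Ideal.Quotient.mk (span {(m : 𝓞 K)}) c := by
  rw [Ideal.mul_eq_inf_of_isCoprime hJ.symm, Ideal.mem_inf, Ideal.Quotient.eq]
  constructor
  · rintro ⟨h1, h2⟩
    refine ⟨?_, h1⟩
    have : b = (b - c) + c := by ring
    rw [this]
    exact add_mem h2 hc
  · rintro ⟨h1, h2⟩
    exact ⟨h2, sub_mem h1 hc⟩

/-- the set `fcdS` is the union of the classes of `u_r * a₀` modulo `(m) * J` -/
theorem fcd_fcdS_iff (hJ : IsCoprime (J : Ideal (𝓞 K)) (span {(m : 𝓞 K)})) (a0 : 𝓞 K)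
    (ha0J : a0 ∈ (J : Ideal (𝓞 K))) (ha01 : a0 - 1 ∈ span {(m : 𝓞 K)}) (b : 𝓞 K) (hb : b ≠ 0) :
    b ∈ fcdS K m J ↔ ∃ r : fc_unitRange K m,
      b - (fcd_rep K m r : 𝓞 K) * a0 ∈ span {(m : 𝓞 K)} * (J : Ideal (𝓞 K)) := by
  have hq0 : Ideal.Quotient.mk (span {(m : 𝓞 K)}) a0 = 1 := by
    rw [← map_one (Ideal.Quotient.mk (span {(m : 𝓞 K)})), Ideal.Quotient.eq]
    exact ha01
  have hcJ : ∀ r : fc_unitRange K m, (fcd_rep K m r : 𝓞 K) * a0 ∈ (J : Ideal (𝓞 K)) :=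
    fun r => Ideal.mul_mem_left _ _ ha0J
  have hqc : ∀ r : fc_unitRange K m,
      Ideal.Quotient.mk (span {(m : 𝓞 K)}) ((fcd_rep K m r : 𝓞 K) * a0) =
        ((r : (𝓞 K ⧸ span {(m : 𝓞 K)})ˣ) : 𝓞 K ⧸ span {(m : 𝓞 K)}) := by
    intro r
    rw [map_mul, hq0, mul_one, fcd_mk_rep]
  constructor
  · rintro ⟨hbJ, -, u, hu⟩
    refine ⟨fcd_unitClass K m u⁻¹, ?_⟩
    rw [fcd_sub_mem_mul_iff K m J hJ _ _ (hcJ _), hqc, fcd_unitClass_val]
    refine ⟨hbJ, ?_⟩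
    have h1 : Ideal.Quotient.mk (span {(m : 𝓞 K)}) ((u : 𝓞 K) * b) = 1 := by
      rw [← map_one (Ideal.Quotient.mk (span {(m : 𝓞 K)})), Ideal.Quotient.eq]
      exact hu
    have h2 : Ideal.Quotient.mk (span {(m : 𝓞 K)}) (((u⁻¹ : (𝓞 K)ˣ) : 𝓞 K) * ((u : 𝓞 K) * b)) =
        Ideal.Quotient.mk (span {(m : 𝓞 K)}) ((u⁻¹ : (𝓞 K)ˣ) : 𝓞 K) := by
      rw [map_mul, h1, mul_one]
    rw [← h2, ← mul_assoc, Units.inv_mul, one_mul]
  · rintro ⟨r, hr⟩
    rw [fcd_sub_mem_mul_iff K m J hJ _ _ (hcJ _), hqc, ← fcd_mk_rep] at hr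
    refine ⟨hr.1, hb, (fcd_rep K m r)⁻¹, ?_⟩
    rw [← Ideal.Quotient.eq, map_one, map_mul, hr.2, ← map_mul, Units.inv_mul, map_one]

/-- **FI-C, C1c (ideal form).** For `J` coprime to `m`: `w` times the number of integral ideals `I`
of norm `≤ x` such that `J * I` has a generator `≡ 1 mod m` is the sum, over `|R|` explicit shifts
`b`, of the number of points of the shifted lattice `b + (m) J` in the fundamental cone of norm
`≤ x * N J`. -/
theorem fcd_card_ideal [NeZero m] (hJ : IsCoprime (J : Ideal (𝓞 K)) (span {(m : 𝓞 K)})) :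
    ∃ S : Finset (𝓞 K), S.card = fc_unitIndex K m ∧ ∀ x : ℝ,
      (torsionOrder K : ℝ) * (Nat.card {I : (Ideal (𝓞 K))⁰ // (∃ a : 𝓞 K,
        a - 1 ∈ span {(m : 𝓞 K)} ∧ (J : Ideal (𝓞 K)) * I = span {a}) ∧
        (absNorm (I : Ideal (𝓞 K)) : ℝ) ≤ x} : ℝ) =
      ∑ b ∈ S, (Nat.card {a : mixedSpace K // a ∈ fundamentalCone K ∧
        mixedEmbedding.norm a ≤ x * (absNorm (J : Ideal (𝓞 K)) : ℝ) ∧
        a - mixedEmbedding K (b : K) ∈
          idealLattice K (FractionalIdeal.mk0 K (fc_mulNat K m J))} : ℝ) := by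
  classical
  obtain ⟨a0, ha0J, ha01⟩ := fcd_exists_a0 K m J hJ
  have hfinq : Finite (𝓞 K ⧸ span {(m : 𝓞 K)}) :=
    Ideal.finiteQuotientOfFreeOfNeBot _ (by
      rw [Ne, Ideal.span_singleton_eq_bot]; exact_mod_cast NeZero.ne m)
  letI : Fintype (fc_unitRange K m) := Fintype.ofFinite _
  have hq0 : Ideal.Quotient.mk (span {(m : 𝓞 K)}) a0 = 1 := by
    rw [← map_one (Ideal.Quotient.mk (span {(m : 𝓞 K)})), Ideal.Quotient.eq]
    exact ha01
  have hqc : ∀ r : fc_unitRange K m,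
      Ideal.Quotient.mk (span {(m : 𝓞 K)}) ((fcd_rep K m r : 𝓞 K) * a0) =
        ((r : (𝓞 K ⧸ span {(m : 𝓞 K)})ˣ) : 𝓞 K ⧸ span {(m : 𝓞 K)}) := by
    intro r
    rw [map_mul, hq0, mul_one, fcd_mk_rep]
  have hcJ : ∀ r : fc_unitRange K m, (fcd_rep K m r : 𝓞 K) * a0 ∈ (J : Ideal (𝓞 K)) :=
    fun r => Ideal.mul_mem_left _ _ ha0J
  set f : fc_unitRange K m → 𝓞 K := fun r => (fcd_rep K m r : 𝓞 K) * a0 with hf
  have hfinj : Function.Injective f := by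
    intro r r' h
    have := congrArg (Ideal.Quotient.mk (span {(m : 𝓞 K)})) h
    simp only [hf, hqc] at this
    exact Subtype.ext (Units.ext this)
  refine ⟨Finset.univ.image f, ?_, fun x => ?_⟩
  · rw [Finset.card_image_of_injective _ hfinj, Finset.card_univ, fc_unitIndex,
      Nat.card_eq_fintype_card]
  · have h1 := fcd_ray_card K m J x
    have h2 := fcd_card_decomp K (fcdS K m J) (Finset.univ.image f)
      (span {(m : 𝓞 K)} * (J : Ideal (𝓞 K))) ?_ ?_ (x * absNorm (J : Ideal (𝓞 K)))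
    · rw [mul_comm, ← Nat.cast_mul, h1, h2, Nat.cast_sum]
      refine Finset.sum_congr rfl fun b _ => ?_
      rw [← fcd_shift_card K (fc_mulNat K m J) b, fc_mulNat_coe]
    · intro c hc c' hc' hcc
      obtain ⟨r, -, rfl⟩ := Finset.mem_image.mp hc
      obtain ⟨r', -, rfl⟩ := Finset.mem_image.mp hc'
      have := ((fcd_sub_mem_mul_iff K m J hJ _ _ (hcJ r')).mp hcc).2
      simp only [hf, hqc] at this
      rw [Subtype.ext (Units.ext this)]
    · intro b hb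
      rw [fcd_fcdS_iff K m J hJ a0 ha0J ha01 b hb]
      constructor
      · rintro ⟨r, hr⟩
        exact ⟨f r, Finset.mem_image_of_mem f (Finset.mem_univ r), hr⟩
      · rintro ⟨c, hc, hbc⟩
        obtain ⟨r, -, rfl⟩ := Finset.mem_image.mp hc
        exact ⟨r, hbc⟩

end Main

end Fermat.Agent.S14x
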