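/-
S14 / FI-C (helper2): FINAL ASSEMBLY of the ray-class counting theorem, generic in the
"divisor of an ideal" map `dv` and with the bridge C1a+C1b (divisor language <-> ideal language)
as a hypothesis.  Combines helper4's `fcd_card_ideal` (FIRayDict2), `fc_main_of` (FIRayMain) and
`fc_count_of` (FIRayWrap).  Output = the exact shape of `FISpec.fc_count` with `κ := fc_kappa F m`.
-/
import Fermat.Agent.S14x.FIRayDict2
import Fermat.Agent.S14x.FIRayMain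
import Fermat.Agent.S14x.FIRayWrap

set_option autoImplicit false

open NumberField NumberField.mixedEmbedding NumberField.mixedEmbedding.fundamentalCone
  NumberField.Units IsDedekindDomain
open scoped nonZeroDivisors

namespace Fermat.Agent.S14x

variable (F : Type*) [Field F] [NumberField F] (m : ℕ)

/-- the count in a class modulo `fd_Pm`, from the bridge for one `D0`. -/
theorem fc_main_of_bridge [NeZero m] (dv : Ideal (𝓞 F) → Dv F) (D0 : Dv F)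
    (J : (Ideal (𝓞 F))⁰) (hJ : IsCoprime (J : Ideal (𝓞 F)) (Ideal.span {(m : 𝓞 F)}))
    (hiff : ∀ I : Ideal (𝓞 F), I ≠ ⊥ → (dv I - D0 ∈ fd_Pm F m ↔
      ∃ a : 𝓞 F, a - 1 ∈ Ideal.span {(m : 𝓞 F)} ∧ (J : Ideal (𝓞 F)) * I = Ideal.span {a})) :
    ∃ C : ℝ, ∀ x : ℝ, 1 ≤ x →
      |(Nat.card {I : Ideal (𝓞 F) // I ≠ ⊥ ∧ (Ideal.absNorm I : ℝ) ≤ x ∧
          dv I - D0 ∈ fd_Pm F m} : ℝ) - fc_kappa F m * x| ≤
        C * x ^ (1 - 1 / (Module.finrank ℚ F : ℝ)) := by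
  obtain ⟨S, hS, hcard⟩ := fcd_card_ideal F m J hJ
  refine fc_main_of F m (fun x => Nat.card {I : Ideal (𝓞 F) // I ≠ ⊥ ∧
    (Ideal.absNorm I : ℝ) ≤ x ∧ dv I - D0 ∈ fd_Pm F m}) J S hS fun x => ?_
  have hcongr : Nat.card {I : Ideal (𝓞 F) // I ≠ ⊥ ∧ (Ideal.absNorm I : ℝ) ≤ x ∧
      dv I - D0 ∈ fd_Pm F m} =
      Nat.card {I : (Ideal (𝓞 F))⁰ // (∃ a : 𝓞 F, a - 1 ∈ Ideal.span {(m : 𝓞 F)} ∧
        (J : Ideal (𝓞 F)) * I = Ideal.span {a}) ∧ (Ideal.absNorm (I : Ideal (𝓞 F)) : ℝ) ≤ x} := by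
    refine Nat.card_congr ⟨fun I => ⟨⟨I.1, mem_nonZeroDivisors_iff_ne_zero.mpr I.2.1⟩,
        (hiff I.1 I.2.1).mp I.2.2.2, I.2.2.1⟩,
      fun I => ⟨I.1.1, mem_nonZeroDivisors_iff_ne_zero.mp I.1.2, I.2.2,
        (hiff I.1.1 (mem_nonZeroDivisors_iff_ne_zero.mp I.1.2)).mpr I.2.1⟩,
      fun I => rfl, fun I => rfl⟩
  have h := hcard x
  rw [← hcongr] at h
  exact_mod_cast h

/-- **FI-C, final form (generic in `dv`, bridge as hypothesis)** = shape of `FISpec.fc_count`. -/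
theorem fc_count_of_bridge [NeZero m] (dv : Ideal (𝓞 F) → Dv F)
    (hbridge : ∀ D0 : Dv F, CoprimeTo m D0 → ∃ J : (Ideal (𝓞 F))⁰,
      IsCoprime (J : Ideal (𝓞 F)) (Ideal.span {(m : 𝓞 F)}) ∧
      ∀ I : Ideal (𝓞 F), I ≠ ⊥ → (dv I - D0 ∈ fd_Pm F m ↔
        ∃ a : 𝓞 F, a - 1 ∈ Ideal.span {(m : 𝓞 F)} ∧ (J : Ideal (𝓞 F)) * I = Ideal.span {a}))
    (D0 : Dv F) : ∃ C : ℝ, ∀ N : ℕ, 1 ≤ N →
      |(Nat.card {I : Ideal (𝓞 F) // I ≠ ⊥ ∧ CoprimeTo m (dv I) ∧ Ideal.absNorm I ≤ N ∧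
          dv I - D0 ∈ fd_Pm F m ⊔ fd_Sm F m} : ℝ) - fc_kappa F m * N| ≤
        C * (N : ℝ) ^ (1 - 1 / (Module.finrank ℚ F : ℝ)) := by
  refine fc_count_of m dv (fc_kappa F m) (fun D0 hD0 => ?_) D0
  obtain ⟨J, hJ, hiff⟩ := hbridge D0 hD0
  exact fc_main_of_bridge F m dv D0 J hJ hiff

end Fermat.Agent.S14x
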