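/-
S14 / FI-C (helper2): THE FI-C OUTPUT, unconditional, in the exact shape of `FISpec.fc_count`
(with the explicit constant `κ = fc_kappa F m > 0`, and for any number field `F`).
-/
import Fermat.Agent.S14x.FICharDv
import Fermat.Agent.S14x.FIRayBridge
import Fermat.Agent.S14x.FIRayFinal

set_option autoImplicit false

open NumberField IsDedekindDomain
open scoped nonZeroDivisors

namespace Fermat.Agent.S14x

variable (F : Type*) [Field F] [NumberField F] (m : ℕ)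

/-- the bridge C1a + C1b for the real `fd_dv`. -/
theorem fc_bridge [NeZero m] (D0 : Dv F) (hD0 : CoprimeTo m D0) :
    ∃ J : (Ideal (𝓞 F))⁰, IsCoprime (J : Ideal (𝓞 F)) (Ideal.span {((m : ℕ) : 𝓞 F)}) ∧
      ∀ I : Ideal (𝓞 F), I ≠ ⊥ → (fd_dv I - D0 ∈ fd_Pm F m ↔
        ∃ a : 𝓞 F, a - 1 ∈ Ideal.span {((m : ℕ) : 𝓞 F)} ∧
          (J : Ideal (𝓞 F)) * I = Ideal.span {a}) :=
  fcb_bridge m fd_dv (fun hI hJ => fd_dv_mul hI hJ) (fun hx => fd_dv_span_singleton hx)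
    (fun hI hJ h => fd_dv_injective hI hJ h) fd_dv_asIdeal
    (fun _ hI h => (fd_coprime_iff m hI).mp h) D0 hD0

/-- count in a class modulo `fd_Pm` (divisor prime to `m`, real bound). -/
theorem fc_main [NeZero m] (D0 : Dv F) (hD0 : CoprimeTo m D0) :
    ∃ C : ℝ, ∀ x : ℝ, 1 ≤ x →
      |(Nat.card {I : Ideal (𝓞 F) // I ≠ ⊥ ∧ (Ideal.absNorm I : ℝ) ≤ x ∧
          fd_dv I - D0 ∈ fd_Pm F m} : ℝ) - fc_kappa F m * x| ≤
        C * x ^ (1 - 1 / (Module.finrank ℚ F : ℝ)) := by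
  obtain ⟨J, hJ, hiff⟩ := fc_bridge F m D0 hD0
  exact fc_main_of_bridge F m fd_dv D0 J hJ hiff

/-- **FI-C**: uniform counting of integral ideals prime to `m` in a class modulo
`fd_Pm F m ⊔ fd_Sm F m`, with power-saving error term; the density `fc_kappa F m` is positive
(`fc_kappa_pos`) and the same for all classes. -/
theorem fc_count_kappa [NeZero m] (D0 : Dv F) : ∃ C : ℝ, ∀ N : ℕ, 1 ≤ N →
    |(Nat.card {I : Ideal (𝓞 F) // I ≠ ⊥ ∧ CoprimeTo m (fd_dv I) ∧ Ideal.absNorm I ≤ N ∧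
        fd_dv I - D0 ∈ fd_Pm F m ⊔ fd_Sm F m} : ℝ) - fc_kappa F m * N| ≤
      C * (N : ℝ) ^ (1 - 1 / (Module.finrank ℚ F : ℝ)) :=
  fc_count_of_bridge F m fd_dv (fc_bridge F m) D0

/-- `FISpec.fc_count`, verbatim (without the superfluous `IsTotallyComplex` hypothesis). -/
theorem fc_count [NeZero m] :
    ∃ κ : ℝ, ∀ D0 : Dv F, ∃ C : ℝ, ∀ N : ℕ, 1 ≤ N →
      |(Nat.card {I : Ideal (𝓞 F) // I ≠ ⊥ ∧ CoprimeTo m (fd_dv I) ∧ Ideal.absNorm I ≤ N ∧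
          fd_dv I - D0 ∈ fd_Pm F m ⊔ fd_Sm F m} : ℝ) - κ * N| ≤
        C * (N : ℝ) ^ (1 - 1 / (Module.finrank ℚ F : ℝ)) :=
  ⟨fc_kappa F m, fc_count_kappa F m⟩

end Fermat.Agent.S14x
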