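/-
S14 / FI-G1 FINAL (helper16).  Prefix `g1_`.  No hypotheses left:
for every number field `F`, every `m ≠ 0`, every subgroup `H ≥ fd_Pm F m ⊔ fd_Sm F m` of `Dv F`
and every character `χ ≠ 0` of `Dv F ⧸ H`, the `L`-series
`L(s,χ) = LSeries (g1_A (g1_cop m fd_dv) fd_dv H χ) s` (coefficients `a_χ(n) = ∑_{N I = n} g_χ(I)`,
`g_χ(I) = χ [fd_dv I]` if `I ≠ ⊥` is prime to `m`, else `0`) is bounded on `(1,2]`, with a bound
independent of `χ` and `H`.  (FG-L1, FG-L2 of the FI sub-spec.)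
Inputs: FI-C `fc_main` (helper2 & co, S14x/FIRayCountFinal.lean) + S14x/FIGCoeffUnif.lean.
-/
import Fermat.Agent.S14x.FIRayCountFinal
import Fermat.Agent.S14x.FIGCoeffUnif

set_option autoImplicit false

namespace Fermat.Agent.S14x

open NumberField IsDedekindDomain

section Final

variable (F : Type*) [Field F] [NumberField F] (m : ℕ) [NeZero m]

/-- the FI-G coefficient function `g_χ` on ideals (real `fd_dv`). -/
noncomputable abbrev g1_Gr (H : AddSubgroup (Dv F)) (χ : AddChar (Dv F ⧸ H) ℂ) :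
    Ideal (𝓞 F) → ℂ := g1_G (g1_cop m fd_dv) fd_dv H χ

/-- the Dirichlet coefficients `a_χ(n) = ∑_{N I = n} g_χ(I)` (real `fd_dv`). -/
noncomputable abbrev g1_Ar (H : AddSubgroup (Dv F)) (χ : AddChar (Dv F ⧸ H) ℂ) : ℕ → ℂ :=
  g1_A (g1_cop m fd_dv) fd_dv H χ

theorem g1_Gr_apply (H : AddSubgroup (Dv F)) (χ : AddChar (Dv F ⧸ H) ℂ) (I : Ideal (𝓞 F))
    [Decidable (I ≠ ⊥ ∧ CoprimeTo m (fd_dv I))] :
    g1_Gr F m H χ I =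
      if I ≠ ⊥ ∧ CoprimeTo m (fd_dv I) then χ (QuotientAddGroup.mk (fd_dv I)) else 0 :=
  g1_G_cop_eq_ite m fd_dv H χ I

theorem g1_Ar_apply (H : AddSubgroup (Dv F)) (χ : AddChar (Dv F ⧸ H) ℂ) (n : ℕ) :
    g1_Ar F m H χ n = ∑' I : {I : Ideal (𝓞 F) // Ideal.absNorm I = n}, g1_Gr F m H χ I.1 := rfl

/-- **FG-L2, final, uniform**: one bound for all `χ ≠ 0` and all `H ≥ P_m ⊔ S_m`. -/
theorem g1_L_bounded_unif :
    ∃ B : ℝ, ∀ (H : AddSubgroup (Dv F)) (_ : fd_Pm F m ⊔ fd_Sm F m ≤ H)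
      (χ : AddChar (Dv F ⧸ H) ℂ), χ ≠ 0 → ∀ s : ℝ, 1 < s → s ≤ 2 →
      ‖LSeries (g1_Ar F m H χ) (s : ℂ)‖ ≤ B :=
  g1_L_bounded_unif_ray m fd_dv (fc_kappa F m) (fun D0 hD0 => fc_main F m D0 hD0)

/-- **FG-L2, final** (shape of `FISpec.fg_L_bounded`). -/
theorem g1_L_bounded {H : AddSubgroup (Dv F)} (hH : fd_Pm F m ⊔ fd_Sm F m ≤ H)
    (χ : AddChar (Dv F ⧸ H) ℂ) (hχ : χ ≠ 0) :
    ∃ B : ℝ, ∀ s : ℝ, 1 < s → s ≤ 2 → ‖LSeries (g1_Ar F m H χ) (s : ℂ)‖ ≤ B :=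
  g1_L_bounded_ray m fd_dv (fc_kappa F m) (fun D0 hD0 => fc_main F m D0 hD0) hH χ hχ

/-- **FG-L1, final** (shape of `FISpec.fg_charsum_le`). -/
theorem g1_charsum_le {H : AddSubgroup (Dv F)} (hH : fd_Pm F m ⊔ fd_Sm F m ≤ H)
    (χ : AddChar (Dv F ⧸ H) ℂ) (hχ : χ ≠ 0) :
    ∃ C : ℝ, ∀ N : ℕ, ‖∑ n ∈ Finset.Icc 1 N, g1_Ar F m H χ n‖ ≤
      C * (N : ℝ) ^ (1 - 1 / (Module.finrank ℚ F : ℝ)) :=
  g1_charsum_le_ray m fd_dv (fc_kappa F m) (fun D0 hD0 => fc_main F m D0 hD0) hH χ hχ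

/-- summability of `L(s,χ)` for `Re s > 1` (any `χ`). -/
theorem g1_LSeriesSummable_final {H : AddSubgroup (Dv F)} (hH : fd_Pm F m ⊔ fd_Sm F m ≤ H)
    (χ : AddChar (Dv F ⧸ H) ℂ) (s : ℂ) (hs : 1 < s.re) :
    LSeriesSummable (g1_Ar F m H χ) s :=
  g1_LSeriesSummable_ray m fd_dv (fc_kappa F m) (fun D0 hD0 => fc_main F m D0 hD0) hH χ s hs

/-- the case of the ray group of an extension `M/F`: `H = rayGroup F M m ⊔ fd_Sm F m`. -/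
theorem g1_L_bounded_rayGroup (M : Type*) [Field M] [NumberField M] [Algebra F M] :
    ∃ B : ℝ, ∀ (χ : AddChar (Dv F ⧸ (rayGroup F M m ⊔ fd_Sm F m)) ℂ), χ ≠ 0 →
      ∀ s : ℝ, 1 < s → s ≤ 2 →
      ‖LSeries (g1_Ar F m (rayGroup F M m ⊔ fd_Sm F m) χ) (s : ℂ)‖ ≤ B := by
  obtain ⟨B, hB⟩ := g1_L_bounded_unif F m
  exact ⟨B, fun χ hχ s hs1 hs2 =>
    hB _ (sup_le_sup_right (fd_Pm_le_rayGroup F m M) _) χ hχ s hs1 hs2⟩

end Final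

end Fermat.Agent.S14x
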