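import Mathlib

/-!
# S14x / FIGEuler : module FI-G2 of the S14 plan (owner helper96)

Abstract Euler–log inequality.  `Q` a finite abelian group, `c v ∈ Q` the class of the prime `v`,
`x v ∈ [0,1)` summable weights (`x v = N v ^ (-s)`), `L χ = exp (∑' v, -log (1 - χ (c v) x v))`
(the output shape of the Euler product in exp-log form).  Then
`exp (|Q| * ∑_{v ∈ S} x v) ≤ ‖∏_χ L χ‖` for every set `S` of primes of trivial class.

Mathlib only.
-/

set_option autoImplicit false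

namespace Fermat.Agent.S14x

open Complex

variable {Q : Type*} [AddCommGroup Q] [Fintype Q]

open Classical in
/-- The series for `∑_χ -log (1 - χ(c) x)`. -/
theorem g2_hasSum_sum_neg_log (c : Q) (x : ℝ) (hx0 : 0 ≤ x) (hx1 : x < 1) :
    HasSum (fun n : ℕ => (((if n • c = 0 then (Fintype.card Q : ℝ) else 0) * x ^ n / n : ℝ) : ℂ))
      (∑ χ : AddChar Q ℂ, -Complex.log (1 - χ c * (x : ℂ))) := by
  classical
  have h1 : ∀ χ : AddChar Q ℂ, HasSum (fun n : ℕ => (χ c * (x : ℂ)) ^ n / n)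
      (-Complex.log (1 - χ c * (x : ℂ))) := by
    intro χ
    apply Complex.hasSum_taylorSeries_neg_log
    rw [norm_mul, AddChar.norm_apply, one_mul, Complex.norm_real, Real.norm_eq_abs, abs_of_nonneg hx0]
    exact hx1
  have h2 := hasSum_sum (s := Finset.univ) (fun χ _ => h1 χ)
  convert h2 using 1
  funext n
  have h3 : ∀ χ : AddChar Q ℂ, (χ c * (x : ℂ)) ^ n / n = χ (n • c) * ((x : ℂ) ^ n / n) := by
    intro χ
    rw [AddChar.map_nsmul_eq_pow, mul_pow]
    ring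
  rw [Finset.sum_congr rfl (fun χ _ => h3 χ), ← Finset.sum_mul, AddChar.sum_apply_eq_ite]
  split_ifs <;> push_cast <;> ring

/-- Per-prime estimate: the real part of `∑_χ -log (1 - χ(c) x)` is `≥ 0`, and `≥ |Q| x` if `c = 0`. -/
theorem g2_re_sum_neg_log (c : Q) (x : ℝ) (hx0 : 0 ≤ x) (hx1 : x < 1) :
    0 ≤ (∑ χ : AddChar Q ℂ, -Complex.log (1 - χ c * (x : ℂ))).re ∧
    (c = 0 → (Fintype.card Q : ℝ) * x ≤
      (∑ χ : AddChar Q ℂ, -Complex.log (1 - χ c * (x : ℂ))).re) := by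
  classical
  have h := Complex.hasSum_re (g2_hasSum_sum_neg_log c x hx0 hx1)
  simp only [Complex.ofReal_re] at h
  have hnn : ∀ n : ℕ, 0 ≤ (if n • c = 0 then (Fintype.card Q : ℝ) else 0) * x ^ n / n := by
    intro n
    apply div_nonneg _ (Nat.cast_nonneg n)
    apply mul_nonneg _ (pow_nonneg hx0 n)
    split_ifs
    · exact Nat.cast_nonneg _
    · exact le_refl _
  refine ⟨h.nonneg hnn, fun hc => ?_⟩
  have h1 := h.summable.le_tsum 1 (fun j _ => hnn j)
  rw [h.tsum_eq] at h1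
  refine le_trans (le_of_eq ?_) h1
  rw [hc]
  simp

/-- **FI-G2, abstract form.** -/
theorem g2_norm_prod_ge {ι : Type*} (c : ι → Q) (x : ι → ℝ) (hx0 : ∀ v, 0 ≤ x v)
    (hx1 : ∀ v, x v < 1) (hxs : Summable x) (S : Set ι) (hS : ∀ v ∈ S, c v = 0)
    (L : AddChar Q ℂ → ℂ)
    (hL : ∀ χ : AddChar Q ℂ,
      Summable (fun v => -Complex.log (1 - χ (c v) * (x v : ℂ))) ∧
      L χ = cexp (∑' v, -Complex.log (1 - χ (c v) * (x v : ℂ)))) :
    Real.exp ((Fintype.card Q : ℝ) * ∑' v : S, x v) ≤ ‖∏ χ : AddChar Q ℂ, L χ‖ := by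
  classical
  have hprod : ∏ χ : AddChar Q ℂ, L χ =
      cexp (∑' v, ∑ χ : AddChar Q ℂ, -Complex.log (1 - χ (c v) * (x v : ℂ))) := by
    rw [Summable.tsum_finsetSum (fun χ _ => (hL χ).1), Complex.exp_sum]
    exact Finset.prod_congr rfl fun χ _ => (hL χ).2
  have hsum : Summable (fun v => ∑ χ : AddChar Q ℂ, -Complex.log (1 - χ (c v) * (x v : ℂ))) :=
    summable_sum fun χ _ => (hL χ).1
  rw [hprod, Complex.norm_exp, Real.exp_le_exp, Complex.re_tsum hsum, tsum_subtype S x,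
    ← tsum_mul_left]
  have hsre : Summable (fun v => (∑ χ : AddChar Q ℂ,
      -Complex.log (1 - χ (c v) * (x v : ℂ))).re) := (Complex.hasSum_re hsum.hasSum).summable
  refine Summable.tsum_le_tsum ?_ ((hxs.indicator S).mul_left _) hsre
  intro v
  by_cases hv : v ∈ S
  · rw [Set.indicator_of_mem hv]
    exact (g2_re_sum_neg_log (c v) (x v) (hx0 v) (hx1 v)).2 (hS v hv)
  · rw [Set.indicator_of_notMem hv, mul_zero]
    exact (g2_re_sum_neg_log (c v) (x v) (hx0 v) (hx1 v)).1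

end Fermat.Agent.S14x
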