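import Mathlib
import Fermat.Agent.S14x.Defs
import Fermat.Agent.S14x.FIGEuler

/-!
# S14x / FIGEulerNF : FI-G2 / FG-P in number-field form (owner helper96)

* `g2_summable_of_neg_log` : summability of the weights from the Euler-log summability at `χ = 0`.
* `g2_norm_prod_ge'` : `g2_norm_prod_ge` without the summability hypothesis.
* `g2_prod_ge_of` : the statement FG-P of `FISpec` (`fg_prod_ge`) with the two upstream facts
  (value of the coefficient function at primes, Euler product in exp-log form) as hypotheses,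
  for arbitrary `Gp : AddChar (Dv F ⧸ H) ℂ → Pl F → ℂ` and `Lfun : AddChar (Dv F ⧸ H) ℂ → ℂ`.
-/

set_option autoImplicit false

namespace Fermat.Agent.S14x

open Complex NumberField IsDedekindDomain

section Abstract

variable {Q : Type*} [AddCommGroup Q] [Fintype Q]

/-- If `∑_v -log (1 - x v)` converges (in `ℂ`) with `0 ≤ x v < 1`, then `∑_v x v` converges. -/
theorem g2_summable_of_neg_log {ι : Type*} (x : ι → ℝ) (hx0 : ∀ v, 0 ≤ x v) (hx1 : ∀ v, x v < 1)
    (h : Summable (fun v => -Complex.log (1 - (x v : ℂ)))) : Summable x := by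
  have h1 : Summable (fun v => (-Complex.log (1 - (x v : ℂ))).re) :=
    (Complex.hasSum_re h.hasSum).summable
  refine Summable.of_nonneg_of_le hx0 (fun v => ?_) h1
  have hpos : 0 < 1 - x v := by linarith [hx1 v]
  have h2 : (1 - (x v : ℂ)) = ((1 - x v : ℝ) : ℂ) := by push_cast; ring
  rw [h2, Complex.neg_re, ← Complex.ofReal_log hpos.le, Complex.ofReal_re]
  have := Real.log_le_sub_one_of_pos hpos
  linarith

/-- `g2_norm_prod_ge` without the summability hypothesis on the weights. -/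
theorem g2_norm_prod_ge' {ι : Type*} (c : ι → Q) (x : ι → ℝ) (hx0 : ∀ v, 0 ≤ x v)
    (hx1 : ∀ v, x v < 1) (S : Set ι) (hS : ∀ v ∈ S, c v = 0)
    (L : AddChar Q ℂ → ℂ)
    (hL : ∀ χ : AddChar Q ℂ,
      Summable (fun v => -Complex.log (1 - χ (c v) * (x v : ℂ))) ∧
      L χ = cexp (∑' v, -Complex.log (1 - χ (c v) * (x v : ℂ)))) :
    Real.exp ((Fintype.card Q : ℝ) * ∑' v : S, x v) ≤ ‖∏ χ : AddChar Q ℂ, L χ‖ := by
  refine g2_norm_prod_ge c x hx0 hx1 ?_ S hS L hL
  refine g2_summable_of_neg_log x hx0 hx1 ?_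
  have := (hL 0).1
  simpa using this

end Abstract

section NF

variable {F : Type*} [Field F] [NumberField F]

theorem g2_one_lt_plNorm (v : Pl F) : 1 < plNorm v := by
  have h0 : plNorm v ≠ 0 := by
    rw [plNorm, Ne, Ideal.absNorm_eq_zero_iff]
    exact v.ne_bot
  have h1 : plNorm v ≠ 1 := by
    rw [plNorm, Ne, Ideal.absNorm_eq_one_iff]
    exact v.isPrime.ne_top
  omega

/-- **FG-P** with the upstream facts as hypotheses. -/
theorem g2_prod_ge_of (m : ℕ) (H : AddSubgroup (Dv F)) [Finite (Dv F ⧸ H)]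
    (Gp : AddChar (Dv F ⧸ H) ℂ → Pl F → ℂ) (Lfun : AddChar (Dv F ⧸ H) ℂ → ℂ)
    (s : ℝ) (hs : 1 < s)
    (hprime : ∀ (χ : AddChar (Dv F ⧸ H) ℂ) (v : Pl F), Gp χ v =
      open Classical in if (m : 𝓞 F) ∈ v.asIdeal then 0
        else χ (QuotientAddGroup.mk (Finsupp.single v 1)))
    (hL3 : ∀ χ : AddChar (Dv F ⧸ H) ℂ,
      Summable (fun v : Pl F => -Complex.log (1 - Gp χ v * ((plNorm v : ℂ)) ^ (-(s : ℂ)))) ∧
      Lfun χ = cexp (∑' v : Pl F, -Complex.log (1 - Gp χ v * ((plNorm v : ℂ)) ^ (-(s : ℂ)))))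
    (S : Set (Pl F))
    (hS : ∀ v ∈ S, (m : 𝓞 F) ∉ v.asIdeal ∧ Finsupp.single v 1 ∈ H) :
    Real.exp ((Nat.card (Dv F ⧸ H) : ℝ) * ∑' v : S, ((plNorm v.1 : ℝ)) ^ (-s)) ≤
      ‖∏ χ : AddChar (Dv F ⧸ H) ℂ, Lfun χ‖ := by
  classical
  letI : Fintype (Dv F ⧸ H) := Fintype.ofFinite _
  set c : Pl F → Dv F ⧸ H := fun v => QuotientAddGroup.mk (Finsupp.single v 1) with hc
  set x : Pl F → ℝ := fun v => if (m : 𝓞 F) ∈ v.asIdeal then 0 else ((plNorm v : ℝ)) ^ (-s) with hx
  have hx0 : ∀ v, 0 ≤ x v := by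
    intro v
    simp only [hx]
    split_ifs
    · exact le_refl _
    · exact Real.rpow_nonneg (Nat.cast_nonneg _) _
  have hx1 : ∀ v, x v < 1 := by
    intro v
    simp only [hx]
    split_ifs
    · exact one_pos
    · apply Real.rpow_lt_one_of_one_lt_of_neg
      · exact_mod_cast g2_one_lt_plNorm v
      · linarith
  have hterm : ∀ (χ : AddChar (Dv F ⧸ H) ℂ) (v : Pl F),
      χ (c v) * (x v : ℂ) = Gp χ v * ((plNorm v : ℂ)) ^ (-(s : ℂ)) := by
    intro χ v
    rw [hprime χ v]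
    simp only [hx, hc]
    split_ifs with h
    · simp
    · rw [Complex.ofReal_cpow (Nat.cast_nonneg _)]
      push_cast
      rfl
  have hL : ∀ χ : AddChar (Dv F ⧸ H) ℂ,
      Summable (fun v => -Complex.log (1 - χ (c v) * (x v : ℂ))) ∧
      Lfun χ = cexp (∑' v, -Complex.log (1 - χ (c v) * (x v : ℂ))) := by
    intro χ
    simp_rw [hterm χ]
    exact hL3 χ
  have hSc : ∀ v ∈ S, c v = 0 := by
    intro v hv
    exact (QuotientAddGroup.eq_zero_iff _).mpr (hS v hv).2
  have hmain := g2_norm_prod_ge' c x hx0 hx1 S hSc Lfun hL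
  have hcard : (Nat.card (Dv F ⧸ H) : ℝ) = (Fintype.card (Dv F ⧸ H) : ℝ) := by
    rw [Nat.card_eq_fintype_card]
  have hsum : ∑' v : S, ((plNorm v.1 : ℝ)) ^ (-s) = ∑' v : S, x v := by
    refine tsum_congr fun v => ?_
    simp only [hx]
    rw [if_neg (hS v.1 v.2).1]
  rw [hcard, hsum]
  exact hmain

end NF

end Fermat.Agent.S14x
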