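/-
S14 / FI-G, row FG-L4 (helper91): any `L(s,χ)` is dominated by `ζ_F(s)` for real `s > 1`.
Abstract form: `g : Ideal (𝓞 F) → ℂ` with `‖g I‖ ≤ 1`; the three FI-F bridge statements
(`fe_summable_absNorm_rpow`, `fe_tsum_eq_LSeries`, `fe_tsum_absNorm_eq_dedekindZeta`, exact FISpec
shapes, specialised to the real point `s`) are explicit hypotheses.  Prefix `gl91_`.
-/
import Mathlib

set_option autoImplicit false

namespace Fermat.Agent.S14x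

open NumberField

theorem gl91_norm_natCast_cpow_neg {n : ℕ} (hn : n ≠ 0) (s : ℝ) :
    ‖((n : ℂ)) ^ (-(s : ℂ))‖ = (n : ℝ) ^ (-s) := by
  rw [Complex.norm_natCast_cpow_of_pos (Nat.pos_of_ne_zero hn)]
  simp

theorem gl91_natCast_cpow_neg_eq_ofReal (n : ℕ) (s : ℝ) :
    ((n : ℂ)) ^ (-(s : ℂ)) = (((n : ℝ) ^ (-s) : ℝ) : ℂ) := by
  rw [Complex.ofReal_cpow (Nat.cast_nonneg n)]
  simp

/-- FG-L4, abstract form. -/
theorem gl91_L_le_zeta (F : Type*) [Field F] [NumberField F] (g : Ideal (𝓞 F) → ℂ)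
    (hg : ∀ I, ‖g I‖ ≤ 1) (s : ℝ)
    (hsum : Summable (fun I : {I : Ideal (𝓞 F) // I ≠ ⊥} => ((Ideal.absNorm I.1 : ℝ)) ^ (-s)))
    (hL : ∑' I : {I : Ideal (𝓞 F) // I ≠ ⊥}, g I.1 * ((Ideal.absNorm I.1 : ℂ)) ^ (-(s : ℂ)) =
      LSeries (fun n => ∑' I : {I : Ideal (𝓞 F) // Ideal.absNorm I = n}, g I.1) (s : ℂ))
    (hZ : ∑' I : {I : Ideal (𝓞 F) // I ≠ ⊥}, ((Ideal.absNorm I.1 : ℂ)) ^ (-(s : ℂ)) =
      NumberField.dedekindZeta F (s : ℂ)) :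
    ‖LSeries (fun n => ∑' I : {I : Ideal (𝓞 F) // Ideal.absNorm I = n}, g I.1) (s : ℂ)‖ ≤
      ‖NumberField.dedekindZeta F (s : ℂ)‖ := by
  rw [← hL, ← hZ]
  have hne : ∀ I : {I : Ideal (𝓞 F) // I ≠ ⊥}, Ideal.absNorm I.1 ≠ 0 := by
    intro I h
    exact I.2 (Ideal.absNorm_eq_zero_iff.mp h)
  have hterm : ∀ I : {I : Ideal (𝓞 F) // I ≠ ⊥},
      ‖g I.1 * ((Ideal.absNorm I.1 : ℂ)) ^ (-(s : ℂ))‖ ≤ ((Ideal.absNorm I.1 : ℝ)) ^ (-s) := by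
    intro I
    rw [norm_mul, gl91_norm_natCast_cpow_neg (hne I)]
    calc ‖g I.1‖ * ((Ideal.absNorm I.1 : ℝ)) ^ (-s) ≤ 1 * ((Ideal.absNorm I.1 : ℝ)) ^ (-s) :=
          mul_le_mul_of_nonneg_right (hg I.1) (Real.rpow_nonneg (Nat.cast_nonneg _) _)
      _ = _ := one_mul _
  have hsn : Summable (fun I : {I : Ideal (𝓞 F) // I ≠ ⊥} =>
      ‖g I.1 * ((Ideal.absNorm I.1 : ℂ)) ^ (-(s : ℂ))‖) :=
    Summable.of_nonneg_of_le (fun _ => norm_nonneg _) hterm hsum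
  have h1 : ‖∑' I : {I : Ideal (𝓞 F) // I ≠ ⊥}, g I.1 * ((Ideal.absNorm I.1 : ℂ)) ^ (-(s : ℂ))‖ ≤
      ∑' I : {I : Ideal (𝓞 F) // I ≠ ⊥}, ((Ideal.absNorm I.1 : ℝ)) ^ (-s) :=
    (norm_tsum_le_tsum_norm hsn).trans (hsn.tsum_le_tsum hterm hsum)
  have h2 : ∑' I : {I : Ideal (𝓞 F) // I ≠ ⊥}, ((Ideal.absNorm I.1 : ℂ)) ^ (-(s : ℂ)) =
      ((∑' I : {I : Ideal (𝓞 F) // I ≠ ⊥}, ((Ideal.absNorm I.1 : ℝ)) ^ (-s) : ℝ) : ℂ) := by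
    rw [Complex.ofReal_tsum]
    exact tsum_congr fun I => gl91_natCast_cpow_neg_eq_ofReal _ s
  rw [h2, Complex.norm_real, Real.norm_eq_abs,
    abs_of_nonneg (tsum_nonneg fun I => Real.rpow_nonneg (Nat.cast_nonneg _) _)]
  exact h1

end Fermat.Agent.S14x
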