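/-
S14 / FI-G row FG-MUL (helper30).  Imports only S14x/Defs.

Complete multiplicativity of the FI-G coefficient function
  `g_χ(I) = χ([dv I])` for `I ≠ ⊥` prime to `m`, `0` otherwise,
for a GENERIC "divisor of an ideal" map `dv : Ideal (𝓞 F) → Dv F` (the real one is helper78's
`fd_dv`; its properties `fd_dv_top`, `fd_dv_mul`, `fd_dv_nonneg`, `fd_dv_asIdeal` are taken here as
hypotheses, so that this file does not depend on it).
The real `fgG F m H χ` (FISpec formula) is `fgmG m fd_dv H χ` by `rfl`.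
-/
import Fermat.Agent.S14x.Defs

set_option autoImplicit false

namespace Fermat.Agent.S14x

open NumberField IsDedekindDomain

variable {F : Type*} [Field F] [NumberField F]

/-- the generic FI-G coefficient function on ideals attached to a character of `Dv F ⧸ H`. -/
noncomputable def fgmG (m : ℕ) (dv : Ideal (𝓞 F) → Dv F) (H : AddSubgroup (Dv F))
    (χ : AddChar (Dv F ⧸ H) ℂ) (I : Ideal (𝓞 F)) : ℂ :=
  open Classical in
  if I ≠ ⊥ ∧ CoprimeTo m (dv I) then χ (QuotientAddGroup.mk (dv I)) else 0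

variable (m : ℕ) (dv : Ideal (𝓞 F) → Dv F) (H : AddSubgroup (Dv F))

theorem fgm_coprime_zero : CoprimeTo m (0 : Dv F) := fun _ _ => rfl

/-- for effective divisors, `a + b` is prime to `m` iff both are. -/
theorem fgm_coprime_add_iff {a b : Dv F} (ha : ∀ v, 0 ≤ a v) (hb : ∀ v, 0 ≤ b v) :
    CoprimeTo m (a + b) ↔ CoprimeTo m a ∧ CoprimeTo m b := by
  constructor
  · intro h
    refine ⟨fun v hv => ?_, fun v hv => ?_⟩
    · have h1 := h v hv
      rw [Finsupp.add_apply] at h1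
      have := ha v
      have := hb v
      omega
    · have h1 := h v hv
      rw [Finsupp.add_apply] at h1
      have := ha v
      have := hb v
      omega
  · rintro ⟨h1, h2⟩ v hv
    rw [Finsupp.add_apply, h1 v hv, h2 v hv, add_zero]

theorem fgm_coprime_single_iff (v : Pl F) :
    CoprimeTo m (Finsupp.single v (1 : ℤ)) ↔ (m : 𝓞 F) ∉ v.asIdeal := by
  classical
  constructor
  · intro h hv
    have := h v hv
    rw [Finsupp.single_eq_same] at this
    exact one_ne_zero this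
  · intro h v' hv'
    rw [Finsupp.single_apply]
    split_ifs with h'
    · exact absurd (h' ▸ hv') h
    · rfl

theorem fgm_G_bot (χ : AddChar (Dv F ⧸ H) ℂ) : fgmG m dv H χ ⊥ = 0 := by
  unfold fgmG
  rw [if_neg]
  rintro ⟨h, -⟩
  exact h rfl

theorem fgm_G_top (htop : dv ⊤ = 0) (χ : AddChar (Dv F ⧸ H) ℂ) : fgmG m dv H χ ⊤ = 1 := by
  unfold fgmG
  rw [if_pos, htop, QuotientAddGroup.mk_zero, AddChar.map_zero_eq_one]
  refine ⟨top_ne_bot, ?_⟩
  rw [htop]
  exact fgm_coprime_zero m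

theorem fgm_G_mul (hmul : ∀ I J : Ideal (𝓞 F), I ≠ ⊥ → J ≠ ⊥ → dv (I * J) = dv I + dv J)
    (hnn : ∀ (I : Ideal (𝓞 F)) (v : Pl F), 0 ≤ dv I v)
    (χ : AddChar (Dv F ⧸ H) ℂ) (I J : Ideal (𝓞 F)) :
    fgmG m dv H χ (I * J) = fgmG m dv H χ I * fgmG m dv H χ J := by
  by_cases hI : I = ⊥
  · subst hI
    rw [Ideal.bot_mul, fgm_G_bot, zero_mul]
  by_cases hJ : J = ⊥
  · subst hJ
    rw [Ideal.mul_bot, fgm_G_bot, mul_zero]
  have hIJ : I * J ≠ ⊥ := mul_ne_zero hI hJ
  have hco := fgm_coprime_add_iff m (hnn I) (hnn J)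
  unfold fgmG
  rw [hmul I J hI hJ]
  by_cases h1 : CoprimeTo m (dv I)
  · by_cases h2 : CoprimeTo m (dv J)
    · rw [if_pos ⟨hIJ, hco.mpr ⟨h1, h2⟩⟩, if_pos ⟨hI, h1⟩, if_pos ⟨hJ, h2⟩,
        QuotientAddGroup.mk_add, AddChar.map_add_eq_mul]
    · rw [if_neg (fun h => h2 (hco.mp h.2).2), if_neg (fun h : J ≠ ⊥ ∧ _ => h2 h.2), mul_zero]
  · rw [if_neg (fun h => h1 (hco.mp h.2).1), if_neg (fun h : I ≠ ⊥ ∧ _ => h1 h.2), zero_mul]

theorem fgm_G_norm_le [Finite (Dv F ⧸ H)] (χ : AddChar (Dv F ⧸ H) ℂ) (I : Ideal (𝓞 F)) :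
    ‖fgmG m dv H χ I‖ ≤ 1 := by
  unfold fgmG
  split_ifs
  · exact (AddChar.norm_apply χ _).le
  · simp

theorem fgm_G_prime (hprime : ∀ v : Pl F, dv v.asIdeal = Finsupp.single v 1)
    (χ : AddChar (Dv F ⧸ H) ℂ) (v : Pl F) :
    fgmG m dv H χ v.asIdeal =
      open Classical in
      if (m : 𝓞 F) ∈ v.asIdeal then 0 else χ (QuotientAddGroup.mk (Finsupp.single v 1)) := by
  unfold fgmG
  rw [hprime v]
  by_cases hv : (m : 𝓞 F) ∈ v.asIdeal
  · rw [if_pos hv, if_neg]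
    rintro ⟨-, h⟩
    exact (fgm_coprime_single_iff m v).mp h hv
  · rw [if_neg hv, if_pos ⟨v.ne_bot, (fgm_coprime_single_iff m v).mpr hv⟩]

/-- the value at a prime, multiplied by `N v ^ (-s)`, in the shape used by FI-G2
(`χ (c v) * x v` with `x v = 0` at the primes dividing `m`). -/
theorem fgm_G_prime_mul (hprime : ∀ v : Pl F, dv v.asIdeal = Finsupp.single v 1)
    (χ : AddChar (Dv F ⧸ H) ℂ) (v : Pl F) (z : ℂ) :
    fgmG m dv H χ v.asIdeal * z =
      χ (QuotientAddGroup.mk (Finsupp.single v 1)) *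
        (open Classical in if (m : 𝓞 F) ∈ v.asIdeal then 0 else z) := by
  rw [fgm_G_prime m dv H hprime χ v]
  split_ifs <;> simp

end Fermat.Agent.S14x
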