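/-
S14 / FI-G abstract real-analysis core, part 2 (helper30).  Mathlib only.

* `fgc_le_of_eventually` : the comparison lemma with hypotheses only eventually in `𝓝[>] 1`;
* `fgc_le_of_tendsto`    : the same, with the pole behaviour given as `Tendsto ((s-1) * Z s)`;
* `fgc_le_of_dedekindZeta` : the number field version, plugging Mathlib's class number formula
  `NumberField.tendsto_sub_one_mul_dedekindZeta_nhdsGT`:
  if `‖ζ_M(s)‖ ≤ A * (‖ζ_F(s)‖ * B) ^ (p/h)` for real `s ∈ (1,2]` then `h ≤ p`.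
-/
import Mathlib

set_option autoImplicit false

namespace Fermat.Agent.S14x

open Filter Topology

/-- the comparison lemma, `eventually` form. -/
theorem fgc_le_of_eventually {h p : ℕ} (hh : 0 < h) (ZM ZF : ℝ → ℝ) {c C A B : ℝ}
    (hc : 0 < c) (hC : 0 < C) (hA : 0 < A) (hB : 0 < B)
    (hM : ∀ᶠ s in 𝓝[>] (1:ℝ), c / (s - 1) ≤ ZM s)
    (hF0 : ∀ᶠ s in 𝓝[>] (1:ℝ), 0 < ZF s)
    (hF : ∀ᶠ s in 𝓝[>] (1:ℝ), ZF s ≤ C / (s - 1))
    (hcmp : ∀ᶠ s in 𝓝[>] (1:ℝ), ZM s ≤ A * (ZF s * B) ^ ((p : ℝ) / (h : ℝ))) :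
    h ≤ p := by
  by_contra hlt'
  have hlt : p < h := Nat.lt_of_not_le hlt'
  have hhR : (0 : ℝ) < h := by exact_mod_cast hh
  set θ : ℝ := (p : ℝ) / (h : ℝ) with hθ
  have hθ0 : 0 ≤ θ := div_nonneg (Nat.cast_nonneg _) hhR.le
  have hθ1 : θ < 1 := by
    rw [hθ, div_lt_one hhR]
    exact_mod_cast hlt
  set ε : ℝ := 1 - θ with hε
  have hε0 : 0 < ε := by linarith
  set K : ℝ := A * (C * B) ^ θ with hK
  -- eventually `K * (s-1)^ε < c`
  have h1 : Tendsto (fun s : ℝ => K * (s - 1) ^ ε) (𝓝[>] 1) (𝓝 (K * 0)) := by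
    have h0 : Tendsto (fun t : ℝ => t ^ ε) (𝓝 0) (𝓝 ((0:ℝ) ^ ε)) :=
      (Real.continuousAt_rpow_const 0 ε (Or.inr hε0.le)).tendsto
    rw [Real.zero_rpow hε0.ne'] at h0
    have h00 : Tendsto (fun s : ℝ => s - 1) (𝓝 1) (𝓝 0) := by
      have : Tendsto (fun s : ℝ => s - 1) (𝓝 1) (𝓝 (1 - 1)) :=
        (continuous_id.sub continuous_const).tendsto 1
      simpa using this
    exact ((h0.comp h00).mono_left nhdsWithin_le_nhds).const_mul K
  rw [mul_zero] at h1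
  have h2 : ∀ᶠ s in 𝓝[>] (1:ℝ), K * (s - 1) ^ ε < c := h1.eventually (gt_mem_nhds hc)
  have h4 : ∀ᶠ s in 𝓝[>] (1:ℝ), 1 < s := eventually_mem_nhdsWithin
  obtain ⟨s, hs2, hs1, e1, e4, e3, e2⟩ :=
    (h2.and (h4.and (hM.and (hF0.and (hF.and hcmp))))).exists
  set t : ℝ := s - 1 with ht
  have ht0 : 0 < t := by rw [ht]; linarith
  have e5 : (ZF s * B) ^ θ ≤ (C / t * B) ^ θ := by
    apply Real.rpow_le_rpow (by positivity) _ hθ0
    exact mul_le_mul_of_nonneg_right e3 hB.le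
  have e6 : (C / t * B) ^ θ = (C * B) ^ θ * t ^ (-θ) := by
    have : C / t * B = (C * B) * t⁻¹ := by field_simp
    rw [this, Real.mul_rpow (by positivity) (by positivity), Real.inv_rpow ht0.le,
      Real.rpow_neg ht0.le]
  have e7 : c / t ≤ K * t ^ (-θ) := by
    calc c / t ≤ ZM s := e1
      _ ≤ A * (ZF s * B) ^ θ := e2
      _ ≤ A * ((C * B) ^ θ * t ^ (-θ)) := by
          rw [← e6]; exact mul_le_mul_of_nonneg_left e5 hA.le
      _ = K * t ^ (-θ) := by rw [hK]; ring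
  have e8 : c ≤ K * t ^ ε := by
    have h1 : c = c / t * t := by field_simp
    have h2 : t ^ ε = t ^ (-θ) * t := by
      rw [hε, show (1 : ℝ) - θ = -θ + 1 by ring, Real.rpow_add ht0, Real.rpow_one]
    rw [h1, h2, ← mul_assoc]
    exact mul_le_mul_of_nonneg_right e7 ht0.le
  linarith

/-- the comparison lemma, `Tendsto` form: `(s-1) ZM s → rM > 0`, `(s-1) ZF s → rF > 0`. -/
theorem fgc_le_of_tendsto {h p : ℕ} (hh : 0 < h) (ZM ZF : ℝ → ℝ) {rM rF A B : ℝ}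
    (hrM : 0 < rM) (hrF : 0 < rF) (hA : 0 < A) (hB : 0 < B)
    (hM : Tendsto (fun s : ℝ => (s - 1) * ZM s) (𝓝[>] 1) (𝓝 rM))
    (hF : Tendsto (fun s : ℝ => (s - 1) * ZF s) (𝓝[>] 1) (𝓝 rF))
    (hcmp : ∀ᶠ s in 𝓝[>] (1:ℝ), ZM s ≤ A * (ZF s * B) ^ ((p : ℝ) / (h : ℝ))) :
    h ≤ p := by
  have h4 : ∀ᶠ s in 𝓝[>] (1:ℝ), 1 < s := eventually_mem_nhdsWithin
  have hM1 : ∀ᶠ s in 𝓝[>] (1:ℝ), rM / 2 < (s - 1) * ZM s :=
    hM.eventually (lt_mem_nhds (by linarith))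
  have hF1 : ∀ᶠ s in 𝓝[>] (1:ℝ), rF / 2 < (s - 1) * ZF s :=
    hF.eventually (lt_mem_nhds (by linarith))
  have hF2 : ∀ᶠ s in 𝓝[>] (1:ℝ), (s - 1) * ZF s < 2 * rF :=
    hF.eventually (gt_mem_nhds (by linarith))
  refine fgc_le_of_eventually hh ZM ZF (c := rM / 2) (C := 2 * rF) (by linarith) (by linarith)
    hA hB ?_ ?_ ?_ hcmp
  · filter_upwards [h4, hM1] with s hs hs1
    have : 0 < s - 1 := by linarith
    rw [div_le_iff₀ this]
    linarith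
  · filter_upwards [h4, hF1] with s hs hs1
    have : 0 < s - 1 := by linarith
    by_contra hneg
    have : (s - 1) * ZF s ≤ 0 := mul_nonpos_of_nonneg_of_nonpos this.le (not_lt.mp hneg)
    linarith
  · filter_upwards [h4, hF2] with s hs hs1
    have : 0 < s - 1 := by linarith
    rw [le_div_iff₀ this]
    linarith

open NumberField in
/-- `(s-1) ‖ζ_K(s)‖ → residue` for real `s ↓ 1`. -/
theorem fgc_tendsto_norm_dedekindZeta (K : Type*) [Field K] [NumberField K] :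
    Tendsto (fun s : ℝ => (s - 1) * ‖dedekindZeta K (s : ℂ)‖) (𝓝[>] 1)
      (𝓝 (dedekindZeta_residue K)) := by
  have h0 := (tendsto_sub_one_mul_dedekindZeta_nhdsGT K).norm
  have h1 : ‖(dedekindZeta_residue K : ℂ)‖ = dedekindZeta_residue K := by
    rw [Complex.norm_real, Real.norm_eq_abs, abs_of_pos (dedekindZeta_residue_pos K)]
  rw [h1] at h0
  refine h0.congr' ?_
  have h4 : ∀ᶠ s in 𝓝[>] (1:ℝ), 1 < s := eventually_mem_nhdsWithin
  filter_upwards [h4] with s hs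
  rw [norm_mul]
  congr 1
  have : ((s : ℂ) - 1) = ((s - 1 : ℝ) : ℂ) := by push_cast; ring
  rw [this, Complex.norm_real, Real.norm_eq_abs, abs_of_pos (by linarith)]

open NumberField in
/-- number field version of the comparison lemma: if for all real `s ∈ (1,2]`
`‖ζ_M(s)‖ ≤ A * (‖ζ_F(s)‖ * B) ^ (p/h)` then `h ≤ p`. -/
theorem fgc_le_of_dedekindZeta (F M : Type*) [Field F] [NumberField F] [Field M] [NumberField M]
    {h p : ℕ} (hh : 0 < h) {A B : ℝ} (hA : 0 < A) (hB : 0 < B)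
    (hcmp : ∀ s : ℝ, 1 < s → s ≤ 2 →
      ‖dedekindZeta M (s : ℂ)‖ ≤ A * (‖dedekindZeta F (s : ℂ)‖ * B) ^ ((p : ℝ) / (h : ℝ))) :
    h ≤ p := by
  refine fgc_le_of_tendsto hh (fun s : ℝ => ‖dedekindZeta M (s : ℂ)‖)
    (fun s : ℝ => ‖dedekindZeta F (s : ℂ)‖) (dedekindZeta_residue_pos M)
    (dedekindZeta_residue_pos F) hA hB (fgc_tendsto_norm_dedekindZeta M)
    (fgc_tendsto_norm_dedekindZeta F) ?_
  have h4 : ∀ᶠ s in 𝓝[>] (1:ℝ), 1 < s := eventually_mem_nhdsWithin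
  have h5 : ∀ᶠ s in 𝓝[>] (1:ℝ), s ≤ 2 := by
    have : ∀ᶠ s in 𝓝 (1:ℝ), s ≤ 2 := eventually_le_nhds (by norm_num)
    exact this.filter_mono nhdsWithin_le_nhds
  filter_upwards [h4, h5] with s hs1 hs2
  exact hcmp s hs1 hs2

end Fermat.Agent.S14x
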