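/-
S14 project, FI-G4 (helper70): ABSTRACT ASSEMBLY of the analytic norm-index inequality.

Inputs (all as hypotheses, for real `s ∈ (1,2]`), for a finite abelian group `Q` of order `h`,
"`L`-functions" `L χ s` indexed by the characters of `Q`, and a real function `Σ s`
(= `∑_{v split, v ∤ m} N v ^ (-s)`):
  * (G1) `‖L χ s‖ ≤ B` for `χ ≠ 0`;
  * (L4) `‖L 0 s‖ ≤ ‖ζ_F(s)‖`;
  * (G2) `exp (h Σ s) ≤ ‖∏ χ, L χ s‖`;
  * (G3) `‖ζ_M(s)‖ ≤ exp (p Σ s + B1)`.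
Output: `h ≤ p`  (via helper30's `fgc_le_of_dedekindZeta`, i.e. the class number formula for
both `F` and `M`).
-/
import Fermat.Agent.S14x.FIGCoreZeta

set_option autoImplicit false

namespace Fermat.Agent.S14x

open NumberField

/-- product over all characters: split off the trivial one and bound the others by `B ≥ 1`. -/
theorem g4_norm_prod_le {Q : Type*} [AddCommGroup Q] [Fintype Q] (L : AddChar Q ℂ → ℂ)
    {B Z : ℝ} (hB1 : 1 ≤ B) (hL : ∀ χ : AddChar Q ℂ, χ ≠ 0 → ‖L χ‖ ≤ B)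
    (hL0 : ‖L 0‖ ≤ Z) :
    ‖∏ χ : AddChar Q ℂ, L χ‖ ≤ Z * B ^ (Fintype.card Q - 1) := by
  classical
  have hB0 : (0 : ℝ) ≤ B := zero_le_one.trans hB1
  rw [norm_prod, ← Finset.mul_prod_erase Finset.univ (fun χ => ‖L χ‖) (Finset.mem_univ 0)]
  have h1 : ∏ χ ∈ Finset.univ.erase (0 : AddChar Q ℂ), ‖L χ‖ ≤
      ∏ _χ ∈ Finset.univ.erase (0 : AddChar Q ℂ), B :=
    Finset.prod_le_prod (fun χ _ => norm_nonneg _)
      (fun χ hχ => hL χ (Finset.ne_of_mem_erase hχ))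
  have h2 : ∏ _χ ∈ Finset.univ.erase (0 : AddChar Q ℂ), B = B ^ (Fintype.card Q - 1) := by
    rw [Finset.prod_const, Finset.card_erase_of_mem (Finset.mem_univ _), Finset.card_univ,
      AddChar.card_eq]
  have hZ : 0 ≤ Z := (norm_nonneg _).trans hL0
  calc ‖L 0‖ * ∏ χ ∈ Finset.univ.erase (0 : AddChar Q ℂ), ‖L χ‖
      ≤ Z * ∏ χ ∈ Finset.univ.erase (0 : AddChar Q ℂ), ‖L χ‖ :=
        mul_le_mul_of_nonneg_right hL0 (Finset.prod_nonneg fun χ _ => norm_nonneg _)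
    _ ≤ Z * B ^ (Fintype.card Q - 1) := by
        rw [← h2]
        exact mul_le_mul_of_nonneg_left h1 hZ

/-- **FI-G4, abstract assembly.** -/
theorem g4_card_le_of (F M : Type*) [Field F] [NumberField F] [Field M] [NumberField M]
    {Q : Type*} [AddCommGroup Q] [Finite Q] (p : ℕ)
    (L : AddChar Q ℂ → ℝ → ℂ) (Sg : ℝ → ℝ) (B B1 : ℝ)
    (hG1 : ∀ χ : AddChar Q ℂ, χ ≠ 0 → ∀ s : ℝ, 1 < s → s ≤ 2 → ‖L χ s‖ ≤ B)
    (hL4 : ∀ s : ℝ, 1 < s → s ≤ 2 → ‖L 0 s‖ ≤ ‖dedekindZeta F (s : ℂ)‖)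
    (hG2 : ∀ s : ℝ, 1 < s → s ≤ 2 →
      Real.exp ((Nat.card Q : ℝ) * Sg s) ≤ ‖∏ χ : AddChar Q ℂ, L χ s‖)
    (hG3 : ∀ s : ℝ, 1 < s → s ≤ 2 →
      ‖dedekindZeta M (s : ℂ)‖ ≤ Real.exp ((p : ℝ) * Sg s + B1)) :
    Nat.card Q ≤ p := by
  classical
  have : Fintype Q := Fintype.ofFinite Q
  set h := Nat.card Q with hh_def
  have hh : 0 < h := Nat.card_pos
  have hhR : (0 : ℝ) < (h : ℝ) := by exact_mod_cast hh
  have hcard : Fintype.card Q = h := by rw [hh_def, Nat.card_eq_fintype_card]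
  set B' : ℝ := max B 1 with hB'
  have hB'1 : 1 ≤ B' := le_max_right _ _
  have hB'0 : 0 < B' := lt_of_lt_of_le zero_lt_one hB'1
  set Bh : ℝ := B' ^ (h - 1) with hBh
  have hBh0 : 0 < Bh := pow_pos hB'0 _
  refine fgc_le_of_dedekindZeta F M hh (A := Real.exp B1) (B := Bh) (Real.exp_pos _) hBh0 ?_
  intro s hs1 hs2
  have hprod : ‖∏ χ : AddChar Q ℂ, L χ s‖ ≤ ‖dedekindZeta F (s : ℂ)‖ * Bh := by
    have := g4_norm_prod_le (fun χ => L χ s) hB'1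
      (fun χ hχ => (hG1 χ hχ s hs1 hs2).trans (le_max_left _ _)) (hL4 s hs1 hs2)
    rwa [hcard] at this
  have h1 : Real.exp ((h : ℝ) * Sg s) ≤ ‖dedekindZeta F (s : ℂ)‖ * Bh :=
    (hG2 s hs1 hs2).trans hprod
  have h2 : Real.exp ((p : ℝ) * Sg s) ≤
      (‖dedekindZeta F (s : ℂ)‖ * Bh) ^ ((p : ℝ) / (h : ℝ)) := by
    have h3 : Real.exp ((p : ℝ) * Sg s) =
        (Real.exp ((h : ℝ) * Sg s)) ^ ((p : ℝ) / (h : ℝ)) := by
      rw [← Real.exp_mul]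
      congr 1
      field_simp
    rw [h3]
    exact Real.rpow_le_rpow (Real.exp_pos _).le h1 (div_nonneg (Nat.cast_nonneg _) hhR.le)
  calc ‖dedekindZeta M (s : ℂ)‖ ≤ Real.exp ((p : ℝ) * Sg s + B1) := hG3 s hs1 hs2
    _ = Real.exp B1 * Real.exp ((p : ℝ) * Sg s) := by rw [Real.exp_add, mul_comm]
    _ ≤ Real.exp B1 * (‖dedekindZeta F (s : ℂ)‖ * Bh) ^ ((p : ℝ) / (h : ℝ)) :=
        mul_le_mul_of_nonneg_left h2 (Real.exp_pos _).le

end Fermat.Agent.S14x
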