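/-
S14 project, FI-G4 (helper70): FINAL ASSEMBLY of `fi_main`, hypothesis form.

`Sm` = any subgroup of divisors supported on the primes dividing `m` (e.g. `fd_Sm F m`),
`Q = Dv F ⧸ (rayGroup F M m ⊔ Sm)` finite, `Lf χ s` = the `L`-function of the character `χ` of `Q`
at the real point `s`, `Sg s = ∑_{v split, v ∤ m} N v ^ (-s)`.
Hypotheses = the outputs of FG-L2 (G1), FG-L4, FG-P (G2), FG-ZM (G3), on the interval `(1,2]`.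
Conclusion = the exact conclusion of `Spec.fi_main`.
Uses `g4_card_le_of` (FIMainAbs) and helper30's `fge_fi_main_of` (FIGEnd).
-/
import Fermat.Agent.S14x.FIMainAbs
import Fermat.Agent.S14x.FIGEnd

set_option autoImplicit false

namespace Fermat.Agent.S14x

open NumberField IsDedekindDomain

/-- a uniform bound from the individual bounds for the finitely many non-trivial characters. -/
theorem g4_uniform_bound {Q : Type*} [AddCommGroup Q] [Finite Q] (L : AddChar Q ℂ → ℝ → ℂ)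
    (hL2 : ∀ χ : AddChar Q ℂ, χ ≠ 0 → ∃ B : ℝ, ∀ s : ℝ, 1 < s → s ≤ 2 → ‖L χ s‖ ≤ B) :
    ∃ B : ℝ, ∀ χ : AddChar Q ℂ, χ ≠ 0 → ∀ s : ℝ, 1 < s → s ≤ 2 → ‖L χ s‖ ≤ B := by
  classical
  have hL2' : ∀ χ : AddChar Q ℂ, ∃ B : ℝ, χ ≠ 0 → ∀ s : ℝ, 1 < s → s ≤ 2 → ‖L χ s‖ ≤ B := by
    intro χ
    by_cases hχ : χ = 0
    · exact ⟨0, fun h => absurd hχ h⟩
    · obtain ⟨B, hB⟩ := hL2 χ hχ
      exact ⟨B, fun _ => hB⟩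
  choose Bf hBf using hL2'
  refine ⟨∑ χ : AddChar Q ℂ, |Bf χ|, fun χ hχ s hs1 hs2 => ?_⟩
  calc ‖L χ s‖ ≤ Bf χ := hBf χ hχ s hs1 hs2
    _ ≤ |Bf χ| := le_abs_self _
    _ ≤ ∑ χ : AddChar Q ℂ, |Bf χ| :=
        Finset.single_le_sum (f := fun χ : AddChar Q ℂ => |Bf χ|) (fun _ _ => abs_nonneg _)
          (Finset.mem_univ χ)

variable {F M : Type*} [Field F] [NumberField F] [Field M] [NumberField M] [Algebra F M]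

/-- **FG-CARD, hypothesis form**: the analytic norm-index inequality. -/
theorem g4_card_le_of' (m : ℕ) (Sm : AddSubgroup (Dv F)) (p : ℕ)
    [Finite (Dv F ⧸ (rayGroup F M m ⊔ Sm))]
    (Lf : AddChar (Dv F ⧸ (rayGroup F M m ⊔ Sm)) ℂ → ℝ → ℂ) (Sg : ℝ → ℝ)
    (hL2 : ∀ χ : AddChar (Dv F ⧸ (rayGroup F M m ⊔ Sm)) ℂ, χ ≠ 0 →
      ∃ B : ℝ, ∀ s : ℝ, 1 < s → s ≤ 2 → ‖Lf χ s‖ ≤ B)
    (hL4 : ∀ s : ℝ, 1 < s → s ≤ 2 → ‖Lf 0 s‖ ≤ ‖dedekindZeta F (s : ℂ)‖)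
    (hP : ∀ s : ℝ, 1 < s → s ≤ 2 →
      Real.exp ((Nat.card (Dv F ⧸ (rayGroup F M m ⊔ Sm)) : ℝ) * Sg s) ≤
        ‖∏ χ : AddChar (Dv F ⧸ (rayGroup F M m ⊔ Sm)) ℂ, Lf χ s‖)
    (hZM : ∃ B1 : ℝ, ∀ s : ℝ, 1 < s → s ≤ 2 →
      ‖dedekindZeta M (s : ℂ)‖ ≤ Real.exp ((p : ℝ) * Sg s + B1)) :
    Nat.card (Dv F ⧸ (rayGroup F M m ⊔ Sm)) ≤ p := by
  obtain ⟨B, hB⟩ := g4_uniform_bound Lf hL2
  obtain ⟨B1, hB1⟩ := hZM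
  exact g4_card_le_of F M p Lf Sg B B1 hB hL4 hP hB1

/-- **FG-MAIN, hypothesis form**: the conclusion of `Spec.fi_main` from the four analytic inputs. -/
theorem g4_fi_main_of {p : ℕ} [Fact p.Prime] (m : ℕ) (Sm : AddSubgroup (Dv F))
    (hSm : ∀ D ∈ Sm, ∀ v : Pl F, (m : 𝓞 F) ∉ v.asIdeal → D v = 0)
    [Finite (Dv F ⧸ (rayGroup F M m ⊔ Sm))]
    (Lf : AddChar (Dv F ⧸ (rayGroup F M m ⊔ Sm)) ℂ → ℝ → ℂ) (Sg : ℝ → ℝ)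
    (hL2 : ∀ χ : AddChar (Dv F ⧸ (rayGroup F M m ⊔ Sm)) ℂ, χ ≠ 0 →
      ∃ B : ℝ, ∀ s : ℝ, 1 < s → s ≤ 2 → ‖Lf χ s‖ ≤ B)
    (hL4 : ∀ s : ℝ, 1 < s → s ≤ 2 → ‖Lf 0 s‖ ≤ ‖dedekindZeta F (s : ℂ)‖)
    (hP : ∀ s : ℝ, 1 < s → s ≤ 2 →
      Real.exp ((Nat.card (Dv F ⧸ (rayGroup F M m ⊔ Sm)) : ℝ) * Sg s) ≤
        ‖∏ χ : AddChar (Dv F ⧸ (rayGroup F M m ⊔ Sm)) ℂ, Lf χ s‖)
    (hZM : ∃ B1 : ℝ, ∀ s : ℝ, 1 < s → s ≤ 2 →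
      ‖dedekindZeta M (s : ℂ)‖ ≤ Real.exp ((p : ℝ) * Sg s + B1))
    (ψ : Dv F →+ ZMod p) (hker : rayGroup F M m ≤ ψ.ker)
    (hsurj : ∃ D₀ : Dv F, CoprimeTo m D₀ ∧ ψ D₀ ≠ 0)
    (D : Dv F) (hD : CoprimeTo m D) (h0 : ψ D = 0) : D ∈ rayGroup F M m :=
  fge_fi_main_of M m Sm hSm (g4_card_le_of' m Sm p Lf Sg hL2 hL4 hP hZM) ψ hker hsurj D hD h0

end Fermat.Agent.S14x
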