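/-
S14 project, FI-G shared definitions (helper54): the set of completely split primes not dividing
`m` and the "split prime zeta sum" `∑_{v ∈ S} N v ^ (-s)` used by FI-G2 / FI-G3 / FI-G4.
-/
import Fermat.Agent.S14x.Defs

set_option autoImplicit false

namespace Fermat.Agent.S14x

open NumberField IsDedekindDomain

variable (F M : Type*) [Field F] [NumberField F] [Field M] [NumberField M] [Algebra F M]

/-- the set `S` of finite primes of `F` not dividing `m` which split completely in `M` -/
def fgS (m : ℕ) : Set (Pl F) := {v | (m : 𝓞 F) ∉ v.asIdeal ∧ SplitsCompletely F M v}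

/-- the primes of `F` dividing `m` -/
def fgBad (m : ℕ) : Set (Pl F) := {v | (m : 𝓞 F) ∈ v.asIdeal}

/-- `∑_{v ∈ S} N v ^ (-s)`, as a sum over all primes of the indicator function -/
noncomputable def fgSplitSum (m : ℕ) (s : ℝ) : ℝ :=
  ∑' v : Pl F, (fgS F M m).indicator (fun v => ((plNorm v : ℕ) : ℝ) ^ (-s)) v

end Fermat.Agent.S14x
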