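/-
S14 project, FI-G2 (helper17): the Dedekind zeta function of `M` is dominated by the split primes
of `F`, for `M/F` unramified cyclic of prime degree.  Prefix `fzs_`.
-/
import Mathlib
import Fermat.Agent.S14x.Defs

set_option autoImplicit false

namespace Fermat.Agent.S14x

open NumberField IsDedekindDomain

section Decomp

variable {p : ℕ} [Fact p.Prime]
variable {F M : Type} [Field F] [NumberField F] [Field M] [NumberField M] [Algebra F M]

/-- the primes of `M` over `v`, as a type. -/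
abbrev fzsOver (F M : Type) [Field F] [NumberField F] [Field M] [NumberField M] [Algebra F M]
    (v : Pl F) := {w : Pl M // PlOver F M w v}

theorem fzs_liesOver {v : Pl F} {w : Pl M} (hw : PlOver F M w v) :
    w.asIdeal.LiesOver v.asIdeal := ⟨hw.symm⟩

/-- `fzsOver F M v ≃ primesOver v (𝓞 M)`. -/
noncomputable def fzsOverEquiv (v : Pl F) :
    fzsOver F M v ≃ Ideal.primesOver v.asIdeal (𝓞 M) where
  toFun w := ⟨w.1.asIdeal, w.1.isPrime, fzs_liesOver w.2⟩
  invFun P := ⟨⟨P.1, P.2.1, by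
      have := P.2.2
      exact Ideal.ne_bot_of_liesOver_of_ne_bot v.ne_bot P.1⟩, P.2.2.over.symm⟩
  left_inv w := rfl
  right_inv P := rfl

instance fzs_finite_over (v : Pl F) : Finite (fzsOver F M v) :=
  Finite.of_equiv _ (fzsOverEquiv (M := M) v).symm

theorem fzs_card_over (v : Pl F) :
    Nat.card (fzsOver F M v) = (Ideal.primesOver v.asIdeal (𝓞 M)).ncard := by
  rw [Nat.card_congr (fzsOverEquiv (M := M) v)]
  rfl

theorem fzs_plNorm_over {v : Pl F} {w : Pl M} (hw : PlOver F M w v) :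
    plNorm w = plNorm v ^ Ideal.inertiaDeg w.asIdeal (𝓞 F) := by
  have := fzs_liesOver hw
  exact (Ideal.absNorm_pow_inertiaDeg v.asIdeal w.asIdeal).symm

variable [IsGalois F M] {g : M ≃ₐ[F] M}

omit [Fact p.Prime] in
/-- `g · f = p` for an unramified extension of prime degree. -/
theorem fzs_card_over_mul (h : IsUCyc p F M g) {v : Pl F} {w : Pl M} (hw : PlOver F M w v) :
    Nat.card (fzsOver F M v) * Ideal.inertiaDeg w.asIdeal (𝓞 F) = p := by
  have := fzs_liesOver hw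
  have h1 := Ideal.ncard_primesOver_mul_ramificationIdxIn_mul_inertiaDegIn v.asIdeal (𝓞 M)
    (M ≃ₐ[F] M)
  rw [Ideal.ramificationIdxIn_eq_ramificationIdx v.asIdeal w.asIdeal (M ≃ₐ[F] M),
    Ideal.inertiaDegIn_eq_inertiaDeg v.asIdeal w.asIdeal (M ≃ₐ[F] M), h.unram w, one_mul,
    IsGalois.card_aut_eq_finrank, h.finrank_eq] at h1
  rw [fzs_card_over]
  exact h1

/-- dichotomy: a prime of `F` either splits completely into `p` primes, or has a unique prime
above it, of inertia degree `p`. -/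
theorem fzs_split_or_inert (h : IsUCyc p F M g) (v : Pl F) :
    (SplitsCompletely F M v ∧ Nat.card (fzsOver F M v) = p) ∨
    (¬ SplitsCompletely F M v ∧ Nat.card (fzsOver F M v) = 1 ∧
      ∀ w : Pl M, PlOver F M w v → Ideal.inertiaDeg w.asIdeal (𝓞 F) = p) := by
  have hp : p.Prime := Fact.out
  obtain ⟨w0, hw0⟩ := exists_plOver (M := M) v
  have h0 := fzs_card_over_mul h hw0
  have hdvd : Nat.card (fzsOver F M v) ∣ p := Dvd.intro _ h0
  rcases (Nat.dvd_prime hp).mp hdvd with h1 | h1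
  · right
    have hf : ∀ w : Pl M, PlOver F M w v → Ideal.inertiaDeg w.asIdeal (𝓞 F) = p := by
      intro w hw
      have := fzs_card_over_mul h hw
      rw [h1, one_mul] at this
      exact this
    refine ⟨?_, h1, hf⟩
    intro hs
    have := (hs w0 hw0).2
    rw [hf w0 hw0] at this
    exact hp.one_lt.ne' this
  · left
    refine ⟨?_, h1⟩
    intro w hw
    refine ⟨h.unram w, ?_⟩
    have := fzs_card_over_mul h hw
    rw [h1] at this
    exact Nat.eq_of_mul_eq_mul_left hp.pos (by rw [this, mul_one])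

end Decomp

section Local

variable {p : ℕ} [Fact p.Prime]
variable {F M : Type} [Field F] [NumberField F] [Field M] [NumberField M] [Algebra F M]
  [IsGalois F M] {g : M ≃ₐ[F] M}

theorem fzs_one_le_plNorm (v : Pl F) : (1 : ℝ) ≤ plNorm v := by
  have h : plNorm v ≠ 0 := by
    unfold plNorm
    rw [Ne, Ideal.absNorm_eq_zero_iff]
    exact v.ne_bot
  exact_mod_cast Nat.one_le_iff_ne_zero.mpr h

theorem fzs_rpow_neg_le_one (v : Pl F) {s : ℝ} (hs : 0 ≤ s) : (plNorm v : ℝ) ^ (-s) ≤ 1 :=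
  Real.rpow_le_one_of_one_le_of_nonpos (fzs_one_le_plNorm v) (by linarith)

open Classical in
/-- the termwise majorant on `Pl F`. -/
noncomputable def fzsBnd (F M : Type) [Field F] [NumberField F] [Field M] [NumberField M]
    [Algebra F M] (p m : ℕ) (s : ℝ) (v : Pl F) : ℝ :=
  (p : ℝ) * (if SplitsCompletely F M v ∧ (m : 𝓞 F) ∉ v.asIdeal then (plNorm v : ℝ) ^ (-s) else 0)
    + (if (m : 𝓞 F) ∈ v.asIdeal then (p : ℝ) else 0) + (plNorm v : ℝ) ^ (-(2 : ℝ))

/-- local comparison: the sum of `N w ^ (-s)` over the primes `w` above `v`. -/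
theorem fzs_local_le (h : IsUCyc p F M g) (m : ℕ) (v : Pl F) {s : ℝ} (hs : 1 ≤ s) :
    ∑' w : fzsOver F M v, (plNorm w.1 : ℝ) ^ (-s) ≤ fzsBnd F M p m s v := by
  have hp : p.Prime := Fact.out
  have hN1 := fzs_one_le_plNorm v
  have hN0 : (0 : ℝ) < plNorm v := by linarith
  have hnn : (0 : ℝ) ≤ (plNorm v : ℝ) ^ (-s) := Real.rpow_nonneg hN0.le _
  have hnn2 : (0 : ℝ) ≤ (plNorm v : ℝ) ^ (-(2 : ℝ)) := Real.rpow_nonneg hN0.le _
  have hle1 : (plNorm v : ℝ) ^ (-s) ≤ 1 := fzs_rpow_neg_le_one v (by linarith)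
  have hp0 : (0 : ℝ) ≤ p := Nat.cast_nonneg p
  unfold fzsBnd
  rcases fzs_split_or_inert h v with ⟨hsp, hcard⟩ | ⟨hnsp, hcard, hf⟩
  · -- split case
    have h1 : ∀ w : fzsOver F M v, (plNorm w.1 : ℝ) ^ (-s) = (plNorm v : ℝ) ^ (-s) := by
      intro w
      rw [fzs_plNorm_over w.2, (hsp w.1 w.2).2, pow_one]
    rw [tsum_congr h1, tsum_const, hcard, nsmul_eq_mul]
    by_cases hm : (m : 𝓞 F) ∈ v.asIdeal
    · rw [if_neg (fun hh => hh.2 hm), if_pos hm]
      nlinarith
    · rw [if_pos ⟨hsp, hm⟩, if_neg hm]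
      linarith
  · -- inert case
    have h1 : ∀ w : fzsOver F M v, (plNorm w.1 : ℝ) ^ (-s) = (plNorm v : ℝ) ^ (-(p * s)) := by
      intro w
      rw [fzs_plNorm_over w.2, hf w.1 w.2, Nat.cast_pow, ← Real.rpow_natCast,
        ← Real.rpow_mul hN0.le]
      congr 1
      ring
    rw [tsum_congr h1, tsum_const, hcard, one_smul, if_neg (fun hh => hnsp hh.1)]
    have h2 : (plNorm v : ℝ) ^ (-(p * s)) ≤ (plNorm v : ℝ) ^ (-(2 : ℝ)) := by
      apply Real.rpow_le_rpow_of_exponent_le hN1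
      have : (2 : ℝ) ≤ p := by exact_mod_cast hp.two_le
      nlinarith
    by_cases hm : (m : 𝓞 F) ∈ v.asIdeal
    · rw [if_pos hm]
      linarith
    · rw [if_neg hm]
      linarith

end Local

section Global

variable {p : ℕ} [Fact p.Prime]
variable {F M : Type} [Field F] [NumberField F] [Field M] [NumberField M] [Algebra F M]

/-- the split primes of `F` not dividing `m`. -/
abbrev fzsSplit (F M : Type) [Field F] [NumberField F] [Field M] [NumberField M] [Algebra F M]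
    (m : ℕ) := {v : Pl F // SplitsCompletely F M v ∧ (m : 𝓞 F) ∉ v.asIdeal}

/-- `Pl M ≃ Σ v : Pl F, {w over v}`. -/
noncomputable def fzsSigmaEquiv : Pl M ≃ Σ v : Pl F, fzsOver F M v where
  toFun w := ⟨plUnder F M w, w, plUnder_over F M w⟩
  invFun x := x.2.1
  left_inv w := rfl
  right_inv := by
    rintro ⟨v, w, hw⟩
    have hv : plUnder F M w = v := HeightOneSpectrum.ext hw
    subst hv
    rfl

theorem fzs_finite_dvd (m : ℕ) [NeZero m] : {v : Pl F | (m : 𝓞 F) ∈ v.asIdeal}.Finite := by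
  have hm : (Ideal.span {(m : 𝓞 F)}) ≠ 0 := by
    rw [Ne, Ideal.zero_eq_bot, Ideal.span_singleton_eq_bot]
    exact_mod_cast NeZero.ne m
  refine (Ideal.finite_factors hm).subset ?_
  intro v hv
  simp only [Set.mem_ofPred_eq] at hv ⊢
  rw [Ideal.dvd_span_singleton]
  exact hv

variable [IsGalois F M] {g : M ≃ₐ[F] M}

theorem fzs_summable_bnd (m : ℕ) [NeZero m]
    (hF2 : Summable (fun v : Pl F => (plNorm v : ℝ) ^ (-(2 : ℝ))))
    {s : ℝ} (hFs : Summable (fun v : Pl F => (plNorm v : ℝ) ^ (-s))) :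
    Summable (fzsBnd F M p m s) := by
  classical
  unfold fzsBnd
  refine Summable.add (Summable.add (Summable.mul_left _ ?_) ?_) hF2
  · have := hFs.indicator {v : Pl F | SplitsCompletely F M v ∧ (m : 𝓞 F) ∉ v.asIdeal}
    refine this.congr fun v => ?_
    rw [Set.indicator_apply]
    rfl
  · refine summable_of_hasFiniteSupport ((fzs_finite_dvd (F := F) m).subset ?_)
    intro v hv
    by_contra hh
    apply hv
    exact if_neg hh

/-- the constant coming from the primes dividing `m`. -/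
noncomputable def fzsCm (F : Type) [Field F] [NumberField F] (p m : ℕ) : ℝ :=
  open Classical in ∑' v : Pl F, (if (m : 𝓞 F) ∈ v.asIdeal then (p : ℝ) else 0)

/-- global comparison of the prime sums. -/
theorem fzs_tsum_le (h : IsUCyc p F M g) (m : ℕ) [NeZero m]
    (hF2 : Summable (fun v : Pl F => (plNorm v : ℝ) ^ (-(2 : ℝ))))
    {s : ℝ} (hs : 1 ≤ s)
    (hFs : Summable (fun v : Pl F => (plNorm v : ℝ) ^ (-s)))
    (hMs : Summable (fun w : Pl M => (plNorm w : ℝ) ^ (-s))) :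
    ∑' w : Pl M, (plNorm w : ℝ) ^ (-s) ≤
      p * ∑' v : fzsSplit F M m, (plNorm v.1 : ℝ) ^ (-s) + fzsCm F p m
        + ∑' v : Pl F, (plNorm v : ℝ) ^ (-(2 : ℝ)) := by
  classical
  set a : Pl M → ℝ := fun w => (plNorm w : ℝ) ^ (-s) with ha
  have e := fzsSigmaEquiv (F := F) (M := M)
  have h1 : ∑' w : Pl M, a w = ∑' x : (Σ v : Pl F, fzsOver F M v), a x.2.1 :=
    ((fzsSigmaEquiv (F := F) (M := M)).symm.tsum_eq a).symm
  have hsum' : Summable (fun x : (Σ v : Pl F, fzsOver F M v) => a x.2.1) :=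
    ((fzsSigmaEquiv (F := F) (M := M)).symm.summable_iff).mpr hMs
  have hbnd := fzs_summable_bnd (M := M) (p := p) m hF2 hFs
  rw [h1, hsum'.tsum_sigma' (fun v => Summable.of_finite)]
  refine (Summable.tsum_le_tsum (fun v => fzs_local_le h m v hs) hsum'.sigma hbnd).trans ?_
  apply le_of_eq
  have hind : Summable (fun v : Pl F =>
      (if SplitsCompletely F M v ∧ (m : 𝓞 F) ∉ v.asIdeal then (plNorm v : ℝ) ^ (-s) else 0)) := by
    have := hFs.indicator {v : Pl F | SplitsCompletely F M v ∧ (m : 𝓞 F) ∉ v.asIdeal}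
    refine this.congr fun v => ?_
    rw [Set.indicator_apply]
    rfl
  have hfin : Summable (fun v : Pl F => (if (m : 𝓞 F) ∈ v.asIdeal then (p : ℝ) else 0)) := by
    refine summable_of_hasFiniteSupport ((fzs_finite_dvd (F := F) m).subset ?_)
    intro v hv
    by_contra hh
    apply hv
    exact if_neg hh
  unfold fzsBnd fzsCm
  rw [Summable.tsum_add ((hind.mul_left _).add hfin) hF2, Summable.tsum_add (hind.mul_left _) hfin,
    tsum_mul_left]
  congr 3
  have hsub := tsum_subtype {v : Pl F | SplitsCompletely F M v ∧ (m : 𝓞 F) ∉ v.asIdeal}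
    (fun v => (plNorm v : ℝ) ^ (-s))
  refine Eq.trans ?_ hsub.symm
  refine tsum_congr fun v => ?_
  rw [Set.indicator_apply]
  rfl

end Global

section Main

variable {p : ℕ} [Fact p.Prime]
variable {F M : Type} [Field F] [NumberField F] [Field M] [NumberField M] [Algebra F M]
  [IsGalois F M] {g : M ≃ₐ[F] M}

theorem fzs_two_le_plNorm {K : Type} [Field K] [NumberField K] (v : Pl K) : (2 : ℝ) ≤ plNorm v := by
  have h0 : plNorm v ≠ 0 := by
    unfold plNorm
    rw [Ne, Ideal.absNorm_eq_zero_iff]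
    exact v.ne_bot
  have h1 : plNorm v ≠ 1 := by
    unfold plNorm
    rw [Ne, Ideal.absNorm_eq_one_iff]
    exact v.isPrime.ne_top
  have : 2 ≤ plNorm v := by omega
  exact_mod_cast this

theorem fzs_neg_log_le {x : ℝ} (h0 : 0 ≤ x) (h1 : x ≤ 1 / 2) :
    -Real.log (1 - x) ≤ x + 2 * x ^ 2 := by
  have h2 : 0 < 1 - x := by linarith
  have h3 : -Real.log (1 - x) = Real.log ((1 - x)⁻¹) := (Real.log_inv _).symm
  rw [h3]
  refine (Real.log_le_sub_one_of_pos (inv_pos.mpr h2)).trans ?_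
  rw [sub_le_iff_le_add, inv_le_iff_one_le_mul₀ h2]
  nlinarith [mul_nonneg h0 h0, mul_nonneg (mul_nonneg h0 h0) (by linarith : (0 : ℝ) ≤ 1 - 2 * x)]

theorem fzs_neg_log_nonneg {x : ℝ} (h0 : 0 ≤ x) (h1 : x < 1) : 0 ≤ -Real.log (1 - x) := by
  have : Real.log (1 - x) ≤ 0 := Real.log_nonpos (by linarith) (by linarith)
  linarith

theorem fzs_rpow_le_half {K : Type} [Field K] [NumberField K] (v : Pl K) {s : ℝ} (hs : 1 ≤ s) :
    (plNorm v : ℝ) ^ (-s) ≤ 1 / 2 := by
  have h2 := fzs_two_le_plNorm v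
  have h1 : (1 : ℝ) ≤ plNorm v := by linarith
  calc (plNorm v : ℝ) ^ (-s) ≤ (plNorm v : ℝ) ^ (-(1 : ℝ)) :=
        Real.rpow_le_rpow_of_exponent_le h1 (by linarith)
    _ = (plNorm v : ℝ)⁻¹ := Real.rpow_neg_one _
    _ ≤ 1 / 2 := by
        rw [one_div]
        exact inv_anti₀ (by norm_num) h2

theorem fzs_sq_rpow_le {K : Type} [Field K] [NumberField K] (v : Pl K) {s : ℝ} (hs : 1 ≤ s) :
    ((plNorm v : ℝ) ^ (-s)) ^ 2 ≤ (plNorm v : ℝ) ^ (-(2 : ℝ)) := by
  have h2 := fzs_two_le_plNorm v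
  have h0 : (0 : ℝ) ≤ plNorm v := by linarith
  have h1 : (1 : ℝ) ≤ plNorm v := by linarith
  rw [← Real.rpow_natCast, ← Real.rpow_mul h0]
  apply Real.rpow_le_rpow_of_exponent_le h1
  push_cast
  linarith

/-- **FI-G2, hypothesis form.**  `hF`, `hM`, `hE` are provided by the Euler-product module. -/
theorem fzs_zetaM_le_of (h : IsUCyc p F M g) (m : ℕ) [NeZero m]
    (hF : ∀ s : ℝ, 1 < s → Summable (fun v : Pl F => (plNorm v : ℝ) ^ (-s)))
    (hM : ∀ s : ℝ, 1 < s → Summable (fun w : Pl M => (plNorm w : ℝ) ^ (-s)))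
    (hE : ∀ s : ℝ, 1 < s → ‖NumberField.dedekindZeta M s‖ ≤
      Real.exp (∑' w : Pl M, -Real.log (1 - (plNorm w : ℝ) ^ (-s)))) :
    ∃ B : ℝ, ∀ s : ℝ, 1 < s →
      Summable (fun v : fzsSplit F M m => (plNorm v.1 : ℝ) ^ (-s)) ∧
      ‖NumberField.dedekindZeta M s‖ ≤
        Real.exp (B + p * ∑' v : fzsSplit F M m, (plNorm v.1 : ℝ) ^ (-s)) := by
  refine ⟨fzsCm F p m + ∑' v : Pl F, (plNorm v : ℝ) ^ (-(2 : ℝ)) +
    2 * ∑' w : Pl M, (plNorm w : ℝ) ^ (-(2 : ℝ)), fun s hs => ⟨?_, ?_⟩⟩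
  · exact (hF s hs).subtype _
  · refine (hE s hs).trans (Real.exp_le_exp.mpr ?_)
    have hM2 := hM 2 (by norm_num)
    have hF2 := hF 2 (by norm_num)
    have hMs := hM s hs
    have hx0 : ∀ w : Pl M, (0 : ℝ) ≤ (plNorm w : ℝ) ^ (-s) := fun w =>
      Real.rpow_nonneg (by linarith [fzs_two_le_plNorm w]) _
    have hterm : ∀ w : Pl M, -Real.log (1 - (plNorm w : ℝ) ^ (-s)) ≤
        (plNorm w : ℝ) ^ (-s) + 2 * (plNorm w : ℝ) ^ (-(2 : ℝ)) := by
      intro w
      refine (fzs_neg_log_le (hx0 w) (fzs_rpow_le_half w hs.le)).trans ?_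
      have := fzs_sq_rpow_le w hs.le
      linarith
    have hsumR : Summable (fun w : Pl M =>
        (plNorm w : ℝ) ^ (-s) + 2 * (plNorm w : ℝ) ^ (-(2 : ℝ))) := hMs.add (hM2.mul_left 2)
    have hsumL : Summable (fun w : Pl M => -Real.log (1 - (plNorm w : ℝ) ^ (-s))) :=
      Summable.of_nonneg_of_le (fun w => fzs_neg_log_nonneg (hx0 w)
        (by linarith [fzs_rpow_le_half w hs.le])) hterm hsumR
    have h1 := Summable.tsum_le_tsum hterm hsumL hsumR
    rw [Summable.tsum_add hMs (hM2.mul_left 2), tsum_mul_left] at h1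
    have h2 := fzs_tsum_le h m hF2 hs.le (hF s hs) hMs
    linarith

end Main

end Fermat.Agent.S14x
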