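/-
S14 project, FG-ZM (helper17): final wiring of `fzs_zetaM_le_of` with the Euler product
(`fe_tsum_eq_cexp`, helper31) and a local bridge to `dedekindZeta`.  Prefix `fzs_`.
-/
import Mathlib
import Fermat.Agent.S14x.FIZetaSplit
import Fermat.Agent.S14x.FIEuler
import Fermat.Agent.S14x.FIGDefs

set_option autoImplicit false

namespace Fermat.Agent.S14x

open NumberField IsDedekindDomain Filter Topology Asymptotics

section Bridge

variable (K : Type) [Field K] [NumberField K]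

/-- the Dirichlet coefficients of `ζ_K` are `LSeriesSummable` on `re s > 1`
(extracted from Mathlib's proof of the class number formula). -/
theorem fzs_LSeriesSummable_coef {s : ℂ} (hs : 1 < s.re) :
    LSeriesSummable (fun n => (Nat.card {I : Ideal (𝓞 K) // Ideal.absNorm I = n} : ℂ)) s := by
  have hlim : Tendsto (fun n : ℕ ↦ (∑ k ∈ Finset.Icc 1 n,
      (Nat.card {I : Ideal (𝓞 K) // Ideal.absNorm I = k} : ℝ)) / n) atTop
      (𝓝 (dedekindZeta_residue K)) := by
    refine ((Ideal.tendsto_norm_le_div_atTop₀ K).comp tendsto_natCast_atTop_atTop).congr fun n ↦ ?_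
    simp only [Function.comp_apply, Nat.cast_le, ← Nat.cast_sum]
    congr
    rw [← add_left_inj 1, ← Ideal.card_norm_le_eq_card_norm_le_add_one,
      show Finset.Icc 1 n = Finset.Ioc 0 n from Finset.Icc_succ_left_eq_Ioc _ _,
      show 1 = Nat.card {I : Ideal (𝓞 K) // Ideal.absNorm I = 0} by
        simp [Ideal.absNorm_eq_zero_iff],
      Finset.sum_Ioc_add_eq_sum_Icc (n.zero_le),
      ← Finset.card_preimage_eq_sum_card_image_eq
        (fun k _ ↦ Ideal.finite_setOfPred_absNorm_eq k)]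
    simp [Set.coe_eq_subtype]
  have h := LSeriesSummable_of_sum_norm_bigO_and_nonneg
    (f := fun n => (Nat.card {I : Ideal (𝓞 K) // Ideal.absNorm I = n} : ℝ)) (r := 1) (s := s)
    (isBigO_atTop_natCast_rpow_of_tendsto_div_rpow (by simpa using hlim))
    (fun _ => Nat.cast_nonneg _) zero_le_one hs
  simpa using h

theorem fzs_finite_fiber (n : ℕ) : Finite {I : Ideal (𝓞 K) // Ideal.absNorm I = n} :=
  Ideal.finite_setOfPred_absNorm_eq n

/-- summability of `N I ^ (-s)` over all ideals (the zero ideal contributes `0 ^ (-s) = 0`). -/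
theorem fzs_summable_ideal {s : ℝ} (hs : 1 < s) :
    Summable (fun I : Ideal (𝓞 K) => (Ideal.absNorm I : ℝ) ^ (-s)) := by
  rw [← (Equiv.sigmaFiberEquiv (fun I : Ideal (𝓞 K) => Ideal.absNorm I)).summable_iff]
  rw [summable_sigma_of_nonneg (fun x => by
    simp only [Function.comp_apply]
    positivity)]
  refine ⟨fun n => ?_, ?_⟩
  · haveI := fzs_finite_fiber K n
    exact Summable.of_finite
  · have h1 := (fzs_LSeriesSummable_coef K (s := (s : ℂ)) (by simpa using hs)).norm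
    refine h1.congr fun n => ?_
    have h2 : ∀ y : {I : Ideal (𝓞 K) // Ideal.absNorm I = n},
        ((⇑(Equiv.sigmaFiberEquiv fun I : Ideal (𝓞 K) => Ideal.absNorm I)) ⟨n, y⟩ |>
          fun I => (Ideal.absNorm I : ℝ) ^ (-s)) = (n : ℝ) ^ (-s) := by
      intro y
      simp only [Equiv.sigmaFiberEquiv_apply]
      rw [y.2]
    simp only [Function.comp_apply]
    rw [tsum_congr h2, tsum_const, nsmul_eq_mul, LSeries.norm_term_eq]
    by_cases hn : n = 0
    · subst hn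
      simp only [if_true, CharP.cast_eq_zero]
      rw [Real.zero_rpow (by linarith), mul_zero]
    · rw [if_neg hn]
      simp only [Complex.norm_natCast, Complex.ofReal_re]
      rw [Real.rpow_neg (Nat.cast_nonneg n), div_eq_mul_inv]

theorem fzs_norm_cpow (n : ℕ) {s : ℝ} (hs : 0 < s) :
    ‖((n : ℂ)) ^ (-(s : ℂ))‖ = (n : ℝ) ^ (-s) := by
  rw [← Complex.ofReal_natCast, Complex.norm_cpow_eq_rpow_re_of_nonneg (Nat.cast_nonneg _)
    (by simp only [Complex.neg_re, Complex.ofReal_re]; linarith)]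
  simp

theorem fzs_summable_ideal_cpow {s : ℝ} (hs : 1 < s) :
    Summable (fun I : Ideal (𝓞 K) => ((Ideal.absNorm I : ℂ)) ^ (-(s : ℂ))) :=
  Summable.of_norm ((fzs_summable_ideal K hs).congr fun I =>
    (fzs_norm_cpow (Ideal.absNorm I) (by linarith)).symm)

/-- `∑_I N I ^ (-s) = ζ_K(s)` (sum over all ideals; the zero ideal contributes `0`). -/
theorem fzs_tsum_ideal_eq_zeta {s : ℝ} (hs : 1 < s) :
    ∑' I : Ideal (𝓞 K), ((Ideal.absNorm I : ℂ)) ^ (-(s : ℂ)) = dedekindZeta K s := by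
  have hsum := fzs_summable_ideal_cpow K hs
  rw [← (Equiv.sigmaFiberEquiv (fun I : Ideal (𝓞 K) => Ideal.absNorm I)).tsum_eq]
  have hsum' := (Equiv.sigmaFiberEquiv (fun I : Ideal (𝓞 K) => Ideal.absNorm I)).summable_iff.mpr
    hsum
  refine (hsum'.tsum_sigma' (fun n => by
    have := fzs_finite_fiber K n
    exact Summable.of_finite)).trans ?_
  unfold dedekindZeta LSeries
  refine tsum_congr fun n => ?_
  have h2 : ∀ y : {I : Ideal (𝓞 K) // Ideal.absNorm I = n},
      ((⇑(Equiv.sigmaFiberEquiv fun I : Ideal (𝓞 K) => Ideal.absNorm I)) ⟨n, y⟩ |>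
        fun I => ((Ideal.absNorm I : ℂ)) ^ (-(s : ℂ))) = (n : ℂ) ^ (-(s : ℂ)) := by
    intro y
    simp only [Equiv.sigmaFiberEquiv_apply]
    rw [y.2]
  rw [(tsum_congr h2 : ∑' c : {x : Ideal (𝓞 K) // Ideal.absNorm x = n},
      ((fun I : Ideal (𝓞 K) => ((Ideal.absNorm I : ℂ)) ^ (-(s : ℂ))) ∘
        ⇑(Equiv.sigmaFiberEquiv fun I : Ideal (𝓞 K) => Ideal.absNorm I)) ⟨n, c⟩ = _),
    tsum_const, nsmul_eq_mul, LSeries.term_def]
  by_cases hn : n = 0
  · subst hn
    simp only [if_true, CharP.cast_eq_zero]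
    rw [Complex.zero_cpow (by
      simp only [ne_eq, neg_eq_zero, Complex.ofReal_eq_zero]
      linarith), mul_zero]
  · rw [if_neg hn, Complex.cpow_neg, div_eq_mul_inv]

end Bridge

section Euler

variable (K : Type) [Field K] [NumberField K]

/-- the completely multiplicative function `I ↦ N I ^ (-s)`. -/
noncomputable def fzsF (s : ℝ) (I : Ideal (𝓞 K)) : ℂ := ((Ideal.absNorm I : ℂ)) ^ (-(s : ℂ))

theorem fzs_F_top (s : ℝ) : fzsF K s ⊤ = 1 := by simp [fzsF]

theorem fzs_F_mul (s : ℝ) (I J : Ideal (𝓞 K)) : fzsF K s (I * J) = fzsF K s I * fzsF K s J := by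
  unfold fzsF
  rw [map_mul, Nat.cast_mul, Complex.natCast_mul_natCast_cpow]

theorem fzs_F_prime (s : ℝ) (v : Pl K) :
    fzsF K s v.asIdeal = (((plNorm v : ℝ) ^ (-s) : ℝ) : ℂ) := by
  unfold fzsF plNorm
  rw [Complex.ofReal_cpow (Nat.cast_nonneg _)]
  simp

theorem fzs_prime_summable {s : ℝ} (hs : 1 < s) :
    Summable (fun v : Pl K => (plNorm v : ℝ) ^ (-s)) :=
  (fzs_summable_ideal K hs).comp_injective (i := fun v : Pl K => v.asIdeal)
    (fun _ _ h => HeightOneSpectrum.ext h)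

/-- **Euler product of `ζ_K` in exp-log form, real version.** -/
theorem fzs_norm_zeta_eq {s : ℝ} (hs : 1 < s) :
    ‖dedekindZeta K s‖ = Real.exp (∑' v : Pl K, -Real.log (1 - (plNorm v : ℝ) ^ (-s))) := by
  have hs0 : 0 < s := by linarith
  have hsumsub : Summable (fun I : {I : Ideal (𝓞 K) // I ≠ ⊥} => ‖fzsF K s I.1‖) := by
    have h := (fzs_summable_ideal K hs).subtype {I : Ideal (𝓞 K) | I ≠ ⊥}
    refine h.congr fun I => ?_
    exact (fzs_norm_cpow (Ideal.absNorm I.1) hs0).symm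
  have hlt : ∀ v : HeightOneSpectrum (𝓞 K), ‖fzsF K s v.asIdeal‖ < 1 := by
    intro v
    have h := fzs_F_prime K s (v : Pl K)
    rw [h, Complex.norm_real, Real.norm_of_nonneg (Real.rpow_nonneg (Nat.cast_nonneg _) _)]
    have := fzs_rpow_le_half (v : Pl K) hs.le
    linarith
  have hE := fe_tsum_eq_cexp (R := 𝓞 K) (fzsF K s) (fzs_F_top K s) (fzs_F_mul K s) hsumsub hlt
  have h1 : ∑' I : {I : Ideal (𝓞 K) // I ≠ ⊥}, fzsF K s I.1 = dedekindZeta K s := by
    rw [← fzs_tsum_ideal_eq_zeta K hs]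
    refine tsum_subtype_eq_of_support_subset (f := fun I : Ideal (𝓞 K) =>
      ((Ideal.absNorm I : ℂ)) ^ (-(s : ℂ))) (s := {I : Ideal (𝓞 K) | I ≠ ⊥}) ?_
    intro I hI
    rw [Function.mem_support] at hI
    intro hbot
    apply hI
    rw [hbot, Ideal.absNorm_bot, Nat.cast_zero, Complex.zero_cpow]
    simp only [ne_eq, neg_eq_zero, Complex.ofReal_eq_zero]
    exact hs0.ne'
  rw [← h1, hE.2, Complex.norm_exp, Complex.re_tsum hE.1]
  congr 1
  refine tsum_congr fun v => ?_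
  rw [fzs_F_prime K s (v : Pl K), ← Complex.ofReal_one, ← Complex.ofReal_sub, Complex.neg_re,
    Complex.log_ofReal_re]

end Euler

section Final

variable {p : ℕ} [Fact p.Prime] {F M : Type} [Field F] [NumberField F] [Field M] [NumberField M]
  [Algebra F M] [IsGalois F M] {g : M ≃ₐ[F] M}

/-- **FG-ZM**, my shape (for all `s > 1`, with the summability of the split-prime sum). -/
theorem fzs_zetaM_le (h : IsUCyc p F M g) (m : ℕ) [NeZero m] :
    ∃ B : ℝ, ∀ s : ℝ, 1 < s →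
      Summable (fun v : fzsSplit F M m => (plNorm v.1 : ℝ) ^ (-s)) ∧
      ‖dedekindZeta M s‖ ≤
        Real.exp (B + p * ∑' v : fzsSplit F M m, (plNorm v.1 : ℝ) ^ (-s)) :=
  fzs_zetaM_le_of h m (fun _ hs => fzs_prime_summable F hs) (fun _ hs => fzs_prime_summable M hs)
    (fun _ hs => (fzs_norm_zeta_eq M hs).le)

/-- **FG-ZM**, exact `FISpec.fg_zetaM_le` shape. -/
theorem fzs_fg_zetaM_le (m : ℕ) (h : IsUCyc p F M g) [NeZero m] :
    ∃ B : ℝ, ∀ s : ℝ, 1 < s → s ≤ 2 →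
      ‖dedekindZeta M (s : ℂ)‖ ≤
        Real.exp ((p : ℝ) * ∑' v : {v : Pl F | (m : 𝓞 F) ∉ v.asIdeal ∧ SplitsCompletely F M v},
          ((plNorm v.1 : ℝ)) ^ (-s) + B) := by
  obtain ⟨B, hB⟩ := fzs_zetaM_le h m
  refine ⟨B, fun s hs _ => ?_⟩
  have h1 := (hB s hs).2
  have h2 : ∑' v : {v : Pl F | (m : 𝓞 F) ∉ v.asIdeal ∧ SplitsCompletely F M v},
      ((plNorm v.1 : ℝ)) ^ (-s) = ∑' v : fzsSplit F M m, (plNorm v.1 : ℝ) ^ (-s) := by
    let e : {v : Pl F | (m : 𝓞 F) ∉ v.asIdeal ∧ SplitsCompletely F M v} ≃ fzsSplit F M m :=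
      Equiv.subtypeEquivRight (fun v => and_comm)
    exact (e.tsum_eq (fun v : fzsSplit F M m => (plNorm v.1 : ℝ) ^ (-s)))
  rw [h2, add_comm]
  exact h1

/-- **FG-ZM**, helper54's `fgSplitSum` shape. -/
theorem fzs_zetaM_le_fgSplitSum (h : IsUCyc p F M g) (m : ℕ) [NeZero m] :
    ∃ B1 : ℝ, ∀ s : ℝ, 1 < s → s ≤ 2 →
      ‖dedekindZeta M (s : ℂ)‖ ≤ Real.exp (p * fgSplitSum F M m s + B1) := by
  obtain ⟨B, hB⟩ := fzs_fg_zetaM_le (p := p) (g := g) m h
  refine ⟨B, fun s hs hs2 => ?_⟩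
  have h1 := hB s hs hs2
  have h2 : fgSplitSum F M m s =
      ∑' v : {v : Pl F | (m : 𝓞 F) ∉ v.asIdeal ∧ SplitsCompletely F M v},
        ((plNorm v.1 : ℝ)) ^ (-s) := by
    unfold fgSplitSum
    exact (tsum_subtype (fgS F M m) (fun v => ((plNorm v : ℕ) : ℝ) ^ (-s))).symm
  rw [h2]
  exact h1

end Final

end Fermat.Agent.S14x
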