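/-
S14 project, FI-G4 FINAL (wiring by helper22 on top of helper70's `g4_fi_main_of`):
`fi_main` = the analytic norm-index inequality in the exact `Spec.fi_main` shape.
Inputs: FG-L2 (helper16 `g1_L_bounded_rayGroup`), FG-L4 (helper91 `gl91_L_le_zeta` + helper43 bridge),
FG-L3/FG-P (helper43 `feb3_LSeries_eq_cexp`, helper96 `g2_prod_ge_of`, helper30 `fgm_G_*`),
FG-ZM (helper17 `fzs_fg_zetaM_le`), FI-D (helper78 `fd_*`), endgame (helper70/helper30).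
-/
import Fermat.Agent.S14x.FIMainOf
import Fermat.Agent.S14x.FIGCoeffFinal
import Fermat.Agent.S14x.FIGLZeta91
import Fermat.Agent.S14x.FIGEulerNF
import Fermat.Agent.S14x.FIGMul
import Fermat.Agent.S14x.FIZetaSplitFinal
import Fermat.Agent.S14x.FIEulerBridge3
import Fermat.Agent.S14x.FICharDefs

set_option autoImplicit false

namespace Fermat.Agent.S14x

open NumberField IsDedekindDomain

section

variable (F : Type*) [Field F] [NumberField F] (m : ℕ) [NeZero m]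

/-- the two descriptions of the coefficient function agree. -/
theorem g4w_Gr_eq_fgmG (H : AddSubgroup (Dv F)) (χ : AddChar (Dv F ⧸ H) ℂ) :
    g1_Gr F m H χ = fgmG m fd_dv H χ := by
  funext I
  unfold fgmG
  classical
  rw [g1_Gr_apply F m H χ I]

theorem g4w_Gr_top (H : AddSubgroup (Dv F)) (χ : AddChar (Dv F ⧸ H) ℂ) :
    g1_Gr F m H χ ⊤ = 1 := by
  rw [g4w_Gr_eq_fgmG]
  exact fgm_G_top m fd_dv H fd_dv_top χ

theorem g4w_Gr_mul (H : AddSubgroup (Dv F)) (χ : AddChar (Dv F ⧸ H) ℂ) (I J : Ideal (𝓞 F)) :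
    g1_Gr F m H χ (I * J) = g1_Gr F m H χ I * g1_Gr F m H χ J := by
  rw [g4w_Gr_eq_fgmG]
  exact fgm_G_mul m fd_dv H (fun I J hI hJ => fd_dv_mul hI hJ) (fun I v => fd_dv_nonneg I v) χ I J

theorem g4w_Gr_norm_le (H : AddSubgroup (Dv F)) [Finite (Dv F ⧸ H)] (χ : AddChar (Dv F ⧸ H) ℂ)
    (I : Ideal (𝓞 F)) : ‖g1_Gr F m H χ I‖ ≤ 1 := by
  rw [g4w_Gr_eq_fgmG]
  exact fgm_G_norm_le m fd_dv H χ I

theorem g4w_Gr_prime (H : AddSubgroup (Dv F)) (χ : AddChar (Dv F ⧸ H) ℂ) (v : Pl F) :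
    g1_Gr F m H χ v.asIdeal =
      open Classical in
      if (m : 𝓞 F) ∈ v.asIdeal then 0 else χ (QuotientAddGroup.mk (Finsupp.single v 1)) := by
  rw [g4w_Gr_eq_fgmG]
  exact fgm_G_prime m fd_dv H fd_dv_asIdeal χ v

end

variable {p : ℕ} [Fact p.Prime]
variable {F M : Type} [Field F] [NumberField F] [Field M] [NumberField M] [Algebra F M]
  [IsGalois F M] {g : M ≃ₐ[F] M}

/-- FI = `Spec.fi_main`: the analytic (universal) norm-index inequality. -/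
theorem fi_main (_hp : p ≠ 2) (h : IsUCyc p F M g) (m : ℕ) [NeZero m]
    (ψ : Dv F →+ ZMod p) (hker : rayGroup F M m ≤ ψ.ker)
    (hsurj : ∃ D₀ : Dv F, CoprimeTo m D₀ ∧ ψ D₀ ≠ 0)
    (D : Dv F) (hD : CoprimeTo m D) (h0 : ψ D = 0) : D ∈ rayGroup F M m := by
  classical
  have : Finite (Dv F ⧸ (rayGroup F M m ⊔ fd_Sm F m)) :=
    fd_rayGroup_sup_finite (F := F) (M := M) (m := m)
  -- FG-L2
  obtain ⟨B, hB⟩ := g1_L_bounded_rayGroup F m M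
  have hL2 : ∀ χ : AddChar (Dv F ⧸ (rayGroup F M m ⊔ fd_Sm F m)) ℂ, χ ≠ 0 →
      ∃ B : ℝ, ∀ s : ℝ, 1 < s → s ≤ 2 →
        ‖LSeries (g1_Ar F m (rayGroup F M m ⊔ fd_Sm F m) χ) (s : ℂ)‖ ≤ B :=
    fun χ hχ => ⟨B, fun s hs1 hs2 => hB χ hχ s hs1 hs2⟩
  -- FG-L4
  have hL4 : ∀ s : ℝ, 1 < s → s ≤ 2 →
      ‖LSeries (g1_Ar F m (rayGroup F M m ⊔ fd_Sm F m) 0) (s : ℂ)‖ ≤
        ‖dedekindZeta F (s : ℂ)‖ := by
    intro s hs _
    have hs' : 1 < ((s : ℂ)).re := by simpa using hs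
    exact gl91_L_le_zeta F (g1_Gr F m (rayGroup F M m ⊔ fd_Sm F m) 0)
      (g4w_Gr_norm_le F m _ 0) s (feb2_summable_absNorm_rpow F s hs)
      (feb2_tsum_eq_LSeries F _ (g4w_Gr_norm_le F m _ 0) (s : ℂ) hs')
      (feb2_tsum_absNorm_eq_dedekindZeta F (s : ℂ) hs')
  -- FG-P
  have hP : ∀ s : ℝ, 1 < s → s ≤ 2 →
      Real.exp ((Nat.card (Dv F ⧸ (rayGroup F M m ⊔ fd_Sm F m)) : ℝ) *
          ∑' v : {v : Pl F | (m : 𝓞 F) ∉ v.asIdeal ∧ SplitsCompletely F M v},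
            ((plNorm v.1 : ℝ)) ^ (-s)) ≤
        ‖∏ χ : AddChar (Dv F ⧸ (rayGroup F M m ⊔ fd_Sm F m)) ℂ,
          LSeries (g1_Ar F m (rayGroup F M m ⊔ fd_Sm F m) χ) (s : ℂ)‖ := by
    intro s hs _
    have hs' : 1 < ((s : ℂ)).re := by simpa using hs
    refine g2_prod_ge_of m (rayGroup F M m ⊔ fd_Sm F m)
      (fun χ v => g1_Gr F m (rayGroup F M m ⊔ fd_Sm F m) χ v.asIdeal)
      (fun χ => LSeries (g1_Ar F m (rayGroup F M m ⊔ fd_Sm F m) χ) (s : ℂ)) s hs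
      (fun χ v => g4w_Gr_prime F m _ χ v) (fun χ => ?_)
      {v : Pl F | (m : 𝓞 F) ∉ v.asIdeal ∧ SplitsCompletely F M v} (fun v hv => ⟨hv.1, ?_⟩)
    · exact feb3_LSeries_eq_cexp F (g1_Gr F m (rayGroup F M m ⊔ fd_Sm F m) χ)
        (g4w_Gr_norm_le F m _ χ) (g4w_Gr_top F m _ χ) (g4w_Gr_mul F m _ χ) hs'
    · refine AddSubgroup.mem_sup_left (AddSubgroup.subset_closure (Or.inr ⟨v, hv.2, hv.1, rfl⟩))
  -- FG-ZM
  have hZM : ∃ B1 : ℝ, ∀ s : ℝ, 1 < s → s ≤ 2 →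
      ‖dedekindZeta M (s : ℂ)‖ ≤ Real.exp ((p : ℝ) *
        ∑' v : {v : Pl F | (m : 𝓞 F) ∉ v.asIdeal ∧ SplitsCompletely F M v},
          ((plNorm v.1 : ℝ)) ^ (-s) + B1) := fzs_fg_zetaM_le m h
  exact g4_fi_main_of m (fd_Sm F m) (fge_closure_supported m)
    (fun χ s => LSeries (g1_Ar F m (rayGroup F M m ⊔ fd_Sm F m) χ) (s : ℂ))
    (fun s => ∑' v : {v : Pl F | (m : 𝓞 F) ∉ v.asIdeal ∧ SplitsCompletely F M v},
      ((plNorm v.1 : ℝ)) ^ (-s)) hL2 hL4 hP hZM ψ hker hsurj D hD h0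

end Fermat.Agent.S14x
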