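/-
S14 project, module RECIP/CORE (helper22): hypothesis-parametrised assembly steps (sorry-free).
* `ra_reciprocity_of` : crossing (`ker ≤ P·N`) + algebraic inequality (`P·N ≠ ⊤`)  ⇒  reciprocity.
* `ra_no_tower_of`    : reciprocity + equivariance + Jacobi-kill + DENS ⇒ no tower.
-/
import Fermat.Agent.S14x.Defs

set_option autoImplicit false

namespace Fermat.Agent.S14x

open NumberField IsDedekindDomain
open scoped Pointwise

set_option linter.unusedSectionVars false

section Recip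

variable {p : ℕ} [Fact p.Prime]
variable {F M : Type*} [Field F] [NumberField F] [Field M] [NumberField M] [Algebra F M]
  [IsGalois F M]

theorem ra_artZ_single (g : M ≃ₐ[F] M) (v : Pl F) (n : ℤ) :
    artZ F M p g (Finsupp.single v n) = (n : ZMod p) * frobExp F M p g v := by
  simp [artZ]

theorem ra_artZ_eq_sum (g : M ≃ₐ[F] M) (D : Dv F) :
    artZ F M p g D = D.sum (fun v n => (n : ZMod p) * frobExp F M p g v) := by
  simp only [artZ, Finsupp.liftAddHom_apply]
  rfl

theorem ra_single_p_mem (v : Pl F) : Finsupp.single v (p : ℤ) ∈ normGroup F M p :=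
  AddSubgroup.subset_closure (Or.inr ⟨v, rfl⟩)

theorem ra_divOf_mem (x : F) (hx : x ≠ 0) : divOf x ∈ normGroup F M p :=
  AddSubgroup.subset_closure (Or.inl (Or.inl ⟨x, hx, rfl⟩))

theorem ra_split_mem (v : Pl F) (hv : SplitsCompletely F M v) :
    Finsupp.single v (1 : ℤ) ∈ normGroup F M p :=
  AddSubgroup.subset_closure (Or.inl (Or.inr ⟨v, hv, rfl⟩))

/-- every divisor is congruent mod the norm group to a multiple of `[v₀]`, with the multiple
determined by the Artin symbol. -/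
theorem ra_exists_mul (g : M ≃ₐ[F] M)
    (hcross : ∀ (v₁ v₂ : Pl F) (k : ℤ), frobExp F M p g v₂ ≠ 0 →
      (k : ZMod p) * frobExp F M p g v₂ = frobExp F M p g v₁ →
      Finsupp.single v₁ (1 : ℤ) - k • Finsupp.single v₂ (1 : ℤ) ∈ normGroup F M p)
    (v₀ : Pl F) (h₀ : frobExp F M p g v₀ ≠ 0) (D : Dv F) :
    ∃ k : ℤ, (k : ZMod p) * frobExp F M p g v₀ = artZ F M p g D ∧
      D - k • Finsupp.single v₀ (1 : ℤ) ∈ normGroup F M p := by
  induction D using Finsupp.induction_linear with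
  | zero => exact ⟨0, by simp, by simp⟩
  | add D₁ D₂ h₁ h₂ =>
    obtain ⟨k₁, hk₁, hm₁⟩ := h₁
    obtain ⟨k₂, hk₂, hm₂⟩ := h₂
    refine ⟨k₁ + k₂, by rw [map_add, ← hk₁, ← hk₂]; push_cast; ring, ?_⟩
    have := (normGroup F M p).add_mem hm₁ hm₂
    convert this using 1
    rw [add_smul]; abel
  | single v n =>
    set d₀ := frobExp F M p g v₀ with hd₀
    set k₁ : ℤ := ((frobExp F M p g v * d₀⁻¹).val : ℤ) with hk₁
    have hk₁' : (k₁ : ZMod p) * d₀ = frobExp F M p g v := by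
      have hcast : (k₁ : ZMod p) = frobExp F M p g v * d₀⁻¹ := by
        rw [hk₁, Int.cast_natCast, ZMod.natCast_val, ZMod.cast_id', id_eq]
      rw [hcast, mul_assoc, inv_mul_cancel₀ h₀, mul_one]
    have hmem := hcross v v₀ k₁ h₀ hk₁'
    refine ⟨n * k₁, ?_, ?_⟩
    · rw [ra_artZ_single]; push_cast; rw [mul_assoc, hk₁']
    · have := (normGroup F M p).zsmul_mem hmem n
      convert this using 1
      rw [smul_sub, smul_smul]
      simp only [Finsupp.smul_single, smul_eq_mul, mul_one]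

/-- RECIP: crossing + algebraic inequality ⇒ Artin reciprocity (principal divisors are in the
kernel of the Artin map). -/
theorem ra_reciprocity_of (g : M ≃ₐ[F] M)
    (hne : normGroup F M p ≠ ⊤)
    (hcross : ∀ (v₁ v₂ : Pl F) (k : ℤ), frobExp F M p g v₂ ≠ 0 →
      (k : ZMod p) * frobExp F M p g v₂ = frobExp F M p g v₁ →
      Finsupp.single v₁ (1 : ℤ) - k • Finsupp.single v₂ (1 : ℤ) ∈ normGroup F M p)
    (hex : ∃ v : Pl F, frobExp F M p g v ≠ 0)
    (x : F) (hx : x ≠ 0) : artZ F M p g (divOf x) = 0 := by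
  obtain ⟨v₀, h₀⟩ := hex
  by_contra ha
  apply hne
  obtain ⟨k, hk, hmem⟩ := ra_exists_mul g hcross v₀ h₀ (divOf x)
  -- `k • [v₀] ∈ N`
  have hkmem : k • Finsupp.single v₀ (1 : ℤ) ∈ normGroup F M p := by
    have h1 := (normGroup F M p).sub_mem (ra_divOf_mem (M := M) (p := p) x hx) hmem
    simpa using h1
  have hkne : (k : ZMod p) ≠ 0 := by
    intro h0
    apply ha
    rw [← hk, h0, zero_mul]
  -- `k` is prime to `p`
  have hcop : IsCoprime k (p : ℤ) := by
    have hpp : Prime (p : ℤ) := Nat.prime_iff_prime_int.mp (Fact.out : p.Prime)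
    rw [isCoprime_comm]
    refine (Prime.coprime_iff_not_dvd hpp).mpr ?_
    intro hdvd
    exact hkne ((ZMod.intCast_zmod_eq_zero_iff_dvd k p).mpr hdvd)
  obtain ⟨u, w, huw⟩ := hcop
  have hv₀ : Finsupp.single v₀ (1 : ℤ) ∈ normGroup F M p := by
    have h1 := (normGroup F M p).zsmul_mem hkmem u
    have h2 := (normGroup F M p).zsmul_mem (ra_single_p_mem (M := M) (p := p) v₀) w
    have h3 := (normGroup F M p).add_mem h1 h2
    convert h3 using 1
    rw [smul_smul, Finsupp.smul_single, Finsupp.smul_single, ← Finsupp.single_add, smul_eq_mul,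
      smul_eq_mul, mul_one, huw]
  -- every prime is in `N`
  have hall : ∀ v : Pl F, Finsupp.single v (1 : ℤ) ∈ normGroup F M p := by
    intro v
    obtain ⟨k', _, hmem'⟩ := ra_exists_mul g hcross v₀ h₀ (Finsupp.single v (1 : ℤ))
    have h1 := (normGroup F M p).zsmul_mem hv₀ k'
    have h2 := (normGroup F M p).add_mem hmem' h1
    simpa using h2
  rw [eq_top_iff]
  intro D _
  induction D using Finsupp.induction_linear with
  | zero => exact (normGroup F M p).zero_mem
  | add D₁ D₂ h₁ h₂ => exact (normGroup F M p).add_mem (h₁ trivial) (h₂ trivial)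
  | single v n =>
    have := (normGroup F M p).zsmul_mem (hall v) n
    simpa [Finsupp.smul_single] using this

end Recip

section Core

variable {p : ℕ} [Fact p.Prime]

/-- CORE: reciprocity + equivariance + Jacobi-kill + "primes over `p` split" + DENS ⇒ there is no
tower. -/
theorem ra_no_tower_of (T : Tower p)
    (hrec : ∀ x : T.K, x ≠ 0 → artZ T.K T.L p T.g (divOf x) = 0)
    (hequiv : ∀ (σ : T.K ≃ₐ[ℚ] T.K) (ζ : T.K) (k : ℕ), IsPrimitiveRoot ζ p → σ ζ = ζ ^ k →
      ∀ v w : Pl T.K, w.asIdeal = σ • v.asIdeal →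
        (k : ZMod p) * frobExp T.K T.L p T.g w = frobExp T.K T.L p T.g v)
    (hjac : ∀ φ : Pl T.K → ZMod p,
      (∀ x : T.K, x ≠ 0 → (divOf x).sum (fun v n => (n : ZMod p) * φ v) = 0) →
      (∀ (σ : T.K ≃ₐ[ℚ] T.K) (ζ : T.K) (k : ℕ), IsPrimitiveRoot ζ p → σ ζ = ζ ^ k →
        ∀ v w : Pl T.K, w.asIdeal = σ • v.asIdeal → (k : ZMod p) * φ w = φ v) →
      ∀ v : Pl T.K, (p : 𝓞 T.K) ∉ v.asIdeal → φ v = 0)
    (hsplit : ∀ v : Pl T.K, SplitsCompletely T.K T.L v → frobExp T.K T.L p T.g v = 0)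
    (hex : ∃ v : Pl T.K, frobExp T.K T.L p T.g v ≠ 0) : False := by
  obtain ⟨v, hv⟩ := hex
  apply hv
  by_cases hpv : (p : 𝓞 T.K) ∈ v.asIdeal
  · exact hsplit v (T.split_p v hpv)
  · refine hjac (fun v => frobExp T.K T.L p T.g v) ?_ hequiv v hpv
    intro x hx
    rw [← ra_artZ_eq_sum]
    exact hrec x hx

end Core

section Ker

variable {p : ℕ} [Fact p.Prime]
variable {F M : Type*} [Field F] [NumberField F] [Field M] [NumberField M] [Algebra F M]
  [IsGalois F M]

theorem ra_coprimeTo_single (m : ℕ) (v : Pl F) (hv : (m : 𝓞 F) ∉ v.asIdeal) (n : ℤ) :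
    CoprimeTo m (Finsupp.single v n) := by
  intro w hw
  have hne : w ≠ v := by
    rintro rfl
    exact hv hw
  simp [hne.symm]

/-- KER: FI + CYC + DENS ⇒ the kernel of the Artin map on divisors prime to `m` is the ray
group mod `m` (for `M ⊆ F(ζ_m)`). -/
theorem ra_ker_of (g : M ≃ₐ[F] M) (m : ℕ)
    (hfi : ∀ ψ : Dv F →+ ZMod p, rayGroup F M m ≤ ψ.ker →
      (∃ D₀ : Dv F, CoprimeTo m D₀ ∧ ψ D₀ ≠ 0) →
      ∀ D : Dv F, CoprimeTo m D → ψ D = 0 → D ∈ rayGroup F M m)
    (hcyc : rayGroup F M m ≤ (artZ F M p g).ker)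
    (hex : ∃ v : Pl F, (m : 𝓞 F) ∉ v.asIdeal ∧ frobExp F M p g v ≠ 0)
    (D : Dv F) (hD : CoprimeTo m D) (h0 : artZ F M p g D = 0) : D ∈ rayGroup F M m := by
  obtain ⟨v, hv, hne⟩ := hex
  refine hfi (artZ F M p g) hcyc ⟨Finsupp.single v 1, ra_coprimeTo_single m v hv 1, ?_⟩ D hD h0
  rw [ra_artZ_single]
  simpa using hne

end Ker

end Fermat.Agent.S14x
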