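/-
S14 project, module KER (helper22): for `M ⊆ F(ζ_m)`, every divisor prime to `m` with trivial
Artin symbol lies in the ray group mod `m`.  = FI (`fi_main`) + CYC (`cyc_main`) + DENS.
-/
import Fermat.Agent.S14x.RecipAssembly
import Fermat.Agent.S14x.FIMainWire
import Fermat.Agent.S14x.Cyc
import Fermat.Agent.S14x.Dens

set_option autoImplicit false

namespace Fermat.Agent.S14x

open NumberField IsDedekindDomain

variable {p : ℕ} [Fact p.Prime]
variable {F M : Type} [Field F] [NumberField F] [Field M] [NumberField M] [Algebra F M]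
  [IsGalois F M] {g : M ≃ₐ[F] M}

theorem ker_artZ_le_rayGroup (hp : p ≠ 2) (h : IsUCyc p F M g) (Ω : Type) [Field Ω]
    [Algebra F Ω] [Algebra M Ω] [IsScalarTower F M Ω] (m : ℕ) [NeZero m]
    [IsCyclotomicExtension {m} F Ω]
    (D : Dv F) (hD : CoprimeTo m D) (h0 : artZ F M p g D = 0) :
    D ∈ rayGroup F M m :=
  ra_ker_of g m (fun ψ hker hsurj D hD h0 => fi_main hp h m ψ hker hsurj D hD h0)
    (cyc_main h hp Ω m) (exists_frobExp_ne_zero hp h m (NeZero.ne m)) D hD h0

end Fermat.Agent.S14x
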