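/-
S14 project, module CROSS, TOP (wiring by helper22): Artin's cyclotomic crossing, exact
`Spec.cross`.  All the work is in `CrossData33.cb3_cross_of` (helper33) on top of CrossField /
CrossBuild33 / CrossFrob (helper33), CrossGalois (helper69), CrossBArtin (helper45),
CrossLegLemma + CrossEnd (helper52), CrossDefs/CrossAmbient (helper88), BaseChange (helper28 &
helper52), KER (FI squad) and DENS/SI.
-/
import Fermat.Agent.S14x.CrossData33
import Fermat.Agent.S14x.Ker
import Fermat.Agent.S14x.Dens

set_option autoImplicit false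

namespace Fermat.Agent.S14x

open NumberField IsDedekindDomain

variable {p : ℕ} [Fact p.Prime]

/-- CROSS: the class of a prime modulo the norm group depends only (and multiplicatively) on its
Frobenius. -/
theorem cross (hp : p ≠ 2) (T : Tower p) (v₁ v₂ : Pl T.K) (k : ℤ)
    (_h₂ : frobExp T.K T.L p T.g v₂ ≠ 0)
    (hk : (k : ZMod p) * frobExp T.K T.L p T.g v₂ = frobExp T.K T.L p T.g v₁) :
    Finsupp.single v₁ (1 : ℤ) - k • Finsupp.single v₂ (1 : ℤ) ∈ normGroup T.K T.L p :=
  cb3_cross_of (T := T)
    (fun F M _ _ _ _ _ _ g h Ω _ _ _ _ m _ _ D hD h0 =>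
      ker_artZ_le_rayGroup hp h Ω m D hD h0)
    (fun F M _ _ _ _ _ _ g h m hm => exists_frobExp_ne_zero hp h m hm) hp v₁ v₂ k hk

end Fermat.Agent.S14x
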