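/-
S14 project, module RECIP (helper22): Artin reciprocity for the tower
(crossing + algebraic inequality ⇒ principal divisors have trivial Artin symbol).
-/
import Fermat.Agent.S14x.RecipAssembly
import Fermat.Agent.S14x.Artin
import Fermat.Agent.S14x.Cross

import Fermat.Agent.S14x.Dens

set_option autoImplicit false

namespace Fermat.Agent.S14x

open NumberField IsDedekindDomain

variable {p : ℕ} [Fact p.Prime]

theorem reciprocity (hp : p ≠ 2) (T : Tower p) (x : T.K) (hx : x ≠ 0) :
    artZ T.K T.L p T.g (divOf x) = 0 := by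
  have h := tower_isUCyc T
  obtain ⟨v, -, hv⟩ := exists_frobExp_ne_zero hp h 1 one_ne_zero
  exact ra_reciprocity_of T.g (normGroup_ne_top hp h)
    (fun v₁ v₂ k h₂ hk => cross hp T v₁ v₂ k h₂ hk) ⟨v, hv⟩ x hx

end Fermat.Agent.S14x
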