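/-
S14 project, module CORE (helper22): a tower does not exist.
-/
import Fermat.Agent.S14x.Recip
import Fermat.Agent.S14x.Equiv
import Fermat.Agent.S14x.JacobiKill

set_option autoImplicit false

namespace Fermat.Agent.S14x

open NumberField IsDedekindDomain
open scoped Pointwise

variable {p : ℕ} [Fact p.Prime]

theorem no_tower (hp : p ≠ 2) (T : Tower p) : False := by
  have h := tower_isUCyc T
  obtain ⟨v, -, hv⟩ := exists_frobExp_ne_zero hp h 1 one_ne_zero
  exact ra_no_tower_of T (fun x hx => reciprocity hp T x hx)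
    (fun σ ζ k hζ hσ v w hw => frobExp_equivariant T σ ζ k hζ hσ v w hw)
    (fun φ hrec hequiv v hv => jacobi_kill hp T.K φ hrec hequiv v hv)
    (fun v hv => (frobExp_eq_zero_iff h v).mpr hv) ⟨v, hv⟩

end Fermat.Agent.S14x
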