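/-
S14 project, module AAPI: the Artin-map API for an everywhere unramified cyclic extension `M/F`
of prime degree `p` (`IsUCyc`).  Exact Spec statements: `frob_eq_pow`, `frobExp_eq_zero_iff`,
`frob_spec`, `frob_unique`, `tower_isUCyc`.  Internal lemmas carry the prefix `aa_`.
-/
import Mathlib
import Fermat.Agent.S14x.Defs

set_option autoImplicit false

namespace Fermat.Agent.S14x

open NumberField IsDedekindDomain
open scoped Pointwise

section General

variable {p : ℕ} [Fact p.Prime]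
variable {F M : Type} [Field F] [NumberField F] [Field M] [NumberField M] [Algebra F M]
  [IsGalois F M] {g : M ≃ₐ[F] M}

/-! ### group theory of `Gal(M/F)` -/

theorem aa_card (h : IsUCyc p F M g) : Nat.card (M ≃ₐ[F] M) = p := by
  rw [IsGalois.card_aut_eq_finrank, h.finrank_eq]

theorem aa_zpowers (h : IsUCyc p F M g) : Subgroup.zpowers g = ⊤ :=
  zpowers_eq_top_of_prime_card (aa_card h) h.g_ne_one

theorem aa_orderOf (h : IsUCyc p F M g) : orderOf g = p := by
  have h1 : orderOf g ∣ p := by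
    rw [← aa_card h]
    exact orderOf_dvd_natCard g
  rcases (Nat.dvd_prime (Fact.out : p.Prime)).mp h1 with h2 | h2
  · exact absurd (orderOf_eq_one_iff.mp h2) h.g_ne_one
  · exact h2

theorem aa_exists_pow (h : IsUCyc p F M g) (s : M ≃ₐ[F] M) :
    ∃ e : ZMod p, s = g ^ e.val := by
  have hs : s ∈ Subgroup.zpowers g := by rw [aa_zpowers h]; trivial
  obtain ⟨k, hk⟩ := Subgroup.mem_zpowers_iff.mp hs
  refine ⟨(k : ZMod p), ?_⟩
  rw [← hk, ← zpow_natCast, ZMod.val_intCast, ← aa_orderOf h, zpow_mod_orderOf]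

theorem aa_comm (h : IsUCyc p F M g) (a b : M ≃ₐ[F] M) : a * b = b * a := by
  obtain ⟨e, rfl⟩ := aa_exists_pow h a
  obtain ⟨e', rfl⟩ := aa_exists_pow h b
  rw [← pow_add, ← pow_add, add_comm]

theorem aa_pow_val_eq_one_iff (h : IsUCyc p F M g) (e : ZMod p) : g ^ e.val = 1 ↔ e = 0 := by
  constructor
  · intro he
    have h1 : orderOf g ∣ e.val := orderOf_dvd_of_pow_eq_one he
    rw [aa_orderOf h] at h1
    have h2 : e.val < p := ZMod.val_lt e
    have h3 : e.val = 0 := Nat.eq_zero_of_dvd_of_lt h1 h2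
    exact (ZMod.val_eq_zero e).mp h3
  · rintro rfl
    simp

/-- every element of `Gal(M/F)` is a power of `g`, hence `frobExp` is the true exponent. -/
theorem frob_eq_pow (h : IsUCyc p F M g) (v : Pl F) :
    frob F M v = g ^ (frobExp F M p g v).val := by
  have hex : ∃ e : ZMod p, frob F M v = g ^ e.val := aa_exists_pow h _
  unfold frobExp
  rw [dif_pos hex]
  exact hex.choose_spec

/-! ### Frobenius elements -/

instance aa_finite_quot (w : Pl M) : Finite (𝓞 M ⧸ w.asIdeal) :=
  Ideal.finiteQuotientOfFreeOfNeBot _ w.ne_bot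

theorem aa_isArithFrobAt_plAbove (v : Pl F) :
    IsArithFrobAt (𝓞 F) (frob F M v) (plAbove F M v).asIdeal := by
  unfold frob
  exact IsArithFrobAt.arithFrobAt (𝓞 F) (M ≃ₐ[F] M) (plAbove F M v).asIdeal

/-- the Galois group permutes the primes above `v` transitively -/
theorem aa_exists_smul_eq (v : Pl F) (w w' : Pl M) (hw : PlOver F M w v) (hw' : PlOver F M w' v) :
    ∃ τ : M ≃ₐ[F] M, w'.asIdeal = τ • w.asIdeal :=
  Algebra.IsInvariant.exists_smul_of_under_eq (𝓞 F) (𝓞 M) (M ≃ₐ[F] M) w.asIdeal w'.asIdeal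
    (hw.trans hw'.symm)

theorem aa_isArithFrobAt (h : IsUCyc p F M g) (v : Pl F) (w : Pl M) (hw : PlOver F M w v) :
    IsArithFrobAt (𝓞 F) (frob F M v) w.asIdeal := by
  obtain ⟨τ, hτ⟩ := aa_exists_smul_eq v (plAbove F M v) w (plAbove_over F M v) hw
  have h1 := (aa_isArithFrobAt_plAbove (M := M) v).conj τ
  have h2 : τ * frob F M v * τ⁻¹ = frob F M v := by
    rw [aa_comm h τ, mul_assoc, mul_inv_cancel, mul_one]
  rw [h2, ← hτ] at h1
  exact h1

theorem aa_card_quot (v : Pl F) (w : Pl M) (hw : PlOver F M w v) :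
    Nat.card (𝓞 F ⧸ w.asIdeal.under (𝓞 F)) = plNorm v := by
  rw [hw, plNorm, Ideal.absNorm_apply, Submodule.cardQuot_apply]

/-- the Frobenius `frob F M v` does not depend on the chosen prime above (abelian case):
it is an arithmetic Frobenius at EVERY prime `w` above `v`. -/
theorem frob_spec (h : IsUCyc p F M g) (v : Pl F) (w : Pl M) (hw : PlOver F M w v)
    (x : 𝓞 M) : (frob F M v • x) - x ^ plNorm v ∈ w.asIdeal := by
  have h1 := aa_isArithFrobAt h v w hw x
  rw [aa_card_quot v w hw] at h1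
  exact h1

/-- the inertia group of an unramified prime is trivial -/
theorem aa_inertia_eq_bot (hun : UnramifiedEverywhere F M) (w : Pl M) :
    w.asIdeal.inertia (M ≃ₐ[F] M) = ⊥ := by
  have hcard : Nat.card (w.asIdeal.inertia (M ≃ₐ[F] M)) = 1 := by
    rw [Ideal.card_inertia_eq_ramificationIdxIn (G := (M ≃ₐ[F] M)) (w.asIdeal.under (𝓞 F))
      w.asIdeal,
      Ideal.ramificationIdxIn_eq_ramificationIdx (w.asIdeal.under (𝓞 F)) w.asIdeal (M ≃ₐ[F] M)]
    exact hun w
  exact (Subgroup.card_eq_one).mp hcard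

/-- ...and is characterised by this property at ONE prime above. -/
theorem frob_unique (h : IsUCyc p F M g) (v : Pl F) (w : Pl M) (hw : PlOver F M w v)
    (s : M ≃ₐ[F] M) (hs : ∀ x : 𝓞 M, (s • x) - x ^ plNorm v ∈ w.asIdeal) :
    s = frob F M v := by
  have h1 : IsArithFrobAt (𝓞 F) s w.asIdeal := by
    intro x
    rw [aa_card_quot v w hw]
    exact hs x
  have h2 := h1.mul_inv_mem_inertia (aa_isArithFrobAt h v w hw)
  rw [aa_inertia_eq_bot h.unram w, Subgroup.mem_bot] at h2
  exact mul_inv_eq_one.mp h2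

/-! ### split primes -/

theorem aa_two_le_plNorm (v : Pl F) : 2 ≤ plNorm v := by
  have h0 : plNorm v ≠ 0 := by
    rw [plNorm, Ne, Ideal.absNorm_eq_zero_iff]
    exact v.ne_bot
  have h1 : plNorm v ≠ 1 := by
    rw [plNorm, Ne, Ideal.absNorm_eq_one_iff]
    exact v.isPrime.ne_top
  omega

theorem aa_card_quot_eq_pow (v : Pl F) (w : Pl M) (hw : PlOver F M w v) :
    Nat.card (𝓞 M ⧸ w.asIdeal) = plNorm v ^ Ideal.inertiaDeg w.asIdeal (𝓞 F) := by
  have : w.asIdeal.LiesOver v.asIdeal := ⟨hw.symm⟩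
  have h := Ideal.absNorm_pow_inertiaDeg (R := 𝓞 F) v.asIdeal w.asIdeal
  rw [plNorm, h, Ideal.absNorm_apply, Submodule.cardQuot_apply]

/-- if the identity is a Frobenius at `w` then the residue degree is one -/
theorem aa_inertiaDeg_eq_one (v : Pl F) (w : Pl M) (hw : PlOver F M w v)
    (hx : ∀ x : 𝓞 M, x - x ^ plNorm v ∈ w.asIdeal) :
    Ideal.inertiaDeg w.asIdeal (𝓞 F) = 1 := by
  classical
  have hmax : w.asIdeal.IsMaximal := w.isMaximal
  letI : Field (𝓞 M ⧸ w.asIdeal) := Ideal.Quotient.field _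
  haveI : Fintype (𝓞 M ⧸ w.asIdeal) := Fintype.ofFinite _
  set q := plNorm v with hq
  have hq2 : 2 ≤ q := aa_two_le_plNorm v
  have hroots : ∀ y : 𝓞 M ⧸ w.asIdeal, y ^ q = y := by
    intro y
    obtain ⟨x, rfl⟩ := Ideal.Quotient.mk_surjective y
    rw [← map_pow, eq_comm, Ideal.Quotient.eq]
    exact hx x
  have hsub : (Finset.univ : Finset (𝓞 M ⧸ w.asIdeal)).val ⊆
      (Polynomial.X ^ q - Polynomial.X : Polynomial (𝓞 M ⧸ w.asIdeal)).roots := by
    intro y _
    rw [Polynomial.mem_roots (FiniteField.X_pow_card_sub_X_ne_zero _ (by omega))]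
    simp [hroots y]
  have hcard := Polynomial.card_le_degree_of_subset_roots hsub
  rw [FiniteField.X_pow_card_sub_X_natDegree_eq _ (by omega), Finset.card_univ,
    Fintype.card_eq_nat_card, aa_card_quot_eq_pow v w hw] at hcard
  have hpos : 0 < Ideal.inertiaDeg w.asIdeal (𝓞 F) := Ideal.inertiaDeg_pos _ _
  by_contra hne
  have h2 : 2 ≤ Ideal.inertiaDeg w.asIdeal (𝓞 F) := by omega
  have h3 : q ^ 2 ≤ q ^ Ideal.inertiaDeg w.asIdeal (𝓞 F) := Nat.pow_le_pow_right (by omega) h2
  nlinarith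

/-- a completely split prime has trivial Frobenius, and conversely. -/
theorem frobExp_eq_zero_iff (h : IsUCyc p F M g) (v : Pl F) :
    frobExp F M p g v = 0 ↔ SplitsCompletely F M v := by
  constructor
  · intro h0 w hw
    refine ⟨h.unram w, aa_inertiaDeg_eq_one v w hw fun x => ?_⟩
    have h1 := frob_spec h v w hw x
    rw [frob_eq_pow h v, h0] at h1
    simpa using h1
  · intro hsplit
    have hw := plAbove_over F M v
    obtain ⟨he, hf⟩ := hsplit (plAbove F M v) hw
    have : (plAbove F M v).asIdeal.LiesOver v.asIdeal := ⟨hw.symm⟩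
    have hstab : Nat.card (MulAction.stabilizer (M ≃ₐ[F] M) (plAbove F M v).asIdeal) = 1 := by
      rw [Ideal.card_stabilizer_eq_card_inertia_mul_finrank v.asIdeal (plAbove F M v).asIdeal,
        aa_inertia_eq_bot h.unram, hf]
      simp
    have hmem : frob F M v ∈ MulAction.stabilizer (M ≃ₐ[F] M) (plAbove F M v).asIdeal :=
      (aa_isArithFrobAt_plAbove (M := M) v).mem_stabilizer
    rw [(Subgroup.card_eq_one).mp hstab, Subgroup.mem_bot, frob_eq_pow h v] at hmem
    exact (aa_pow_val_eq_one_iff h _).mp hmem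

end General

/-! ### the tower -/

theorem tower_isUCyc {p : ℕ} [Fact p.Prime] (T : Tower p) : IsUCyc p T.K T.L T.g where
  g_ne_one := T.g_ne_one
  finrank_eq := T.finrank_eq
  unram := T.unram
  zeta := by
    haveI : NeZero p := ⟨(Fact.out : p.Prime).ne_zero⟩
    exact IsCyclotomicExtension.exists_isPrimitiveRoot ℚ T.K (Set.mem_singleton p)
      (NeZero.ne p)

end Fermat.Agent.S14x
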