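/-
S14 project: extra Artin-map API on top of `S14x/Artin.lean` (canonical AAPI), prefix `ax_`.
Restriction of Frobenius elements in a tower `K ⊆ L ⊆ Ω` and the action on roots of unity.
-/
import Mathlib
import Fermat.Agent.S14x.Defs
import Fermat.Agent.S14x.Artin

set_option autoImplicit false

namespace Fermat.Agent.S14x

open NumberField IsDedekindDomain
open scoped Pointwise

section Tower3

variable {K L Ω : Type} [Field K] [NumberField K] [Field L] [NumberField L] [Field Ω]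
  [NumberField Ω] [Algebra K L] [Algebra K Ω] [Algebra L Ω] [IsScalarTower K L Ω]

/-- transitivity of "lies over" -/
theorem ax_plOver_trans (P : Pl Ω) (w : Pl L) (v : Pl K) (h1 : PlOver L Ω P w)
    (h2 : PlOver K L w v) : PlOver K Ω P v := by
  unfold PlOver at *
  rw [← h2, ← h1, Ideal.under_under]

theorem ax_plOver_plUnder (P : Pl Ω) (v : Pl K) (h : PlOver K Ω P v) :
    PlOver K L (plUnder L Ω P) v := by
  unfold PlOver at *
  rw [← h]
  show (P.asIdeal.under (𝓞 L)).under (𝓞 K) = _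
  rw [Ideal.under_under]

variable [IsGalois K L] [IsGalois K Ω]

/-- the action of the restriction on integers of `L` is the restriction of the action -/
theorem ax_algebraMap_restrict_smul (f : Ω ≃ₐ[K] Ω) (x : 𝓞 L) :
    algebraMap (𝓞 L) (𝓞 Ω) (AlgEquiv.restrictNormalHom L f • x) =
      f • algebraMap (𝓞 L) (𝓞 Ω) x := by
  apply Subtype.ext
  show algebraMap L Ω ((AlgEquiv.restrictNormalHom L f) (x : L)) = f (algebraMap L Ω (x : L))
  exact AlgEquiv.restrictNormal_commutes f L (x : L)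

/-- **Restriction of Frobenius.** An arithmetic Frobenius of `Ω/K` at a prime `P` over `v`
restricts to the Frobenius `frob K L v` of the unramified cyclic extension `L/K`. -/
theorem ax_restrict_eq_frob {p : ℕ} [Fact p.Prime] {g : L ≃ₐ[K] L} (h : IsUCyc p K L g)
    (v : Pl K) (P : Pl Ω) (hP : PlOver K Ω P v) (f : Ω ≃ₐ[K] Ω)
    (hf : IsArithFrobAt (𝓞 K) f P.asIdeal) :
    AlgEquiv.restrictNormalHom L f = frob K L v := by
  refine frob_unique h v (plUnder L Ω P) (ax_plOver_plUnder P v hP) _ fun x => ?_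
  show _ ∈ P.asIdeal.under (𝓞 L)
  rw [Ideal.under_def, Ideal.mem_comap, map_sub, map_pow, ax_algebraMap_restrict_smul]
  have h1 := hf (algebraMap (𝓞 L) (𝓞 Ω) x)
  have h2 : Nat.card (𝓞 K ⧸ P.asIdeal.under (𝓞 K)) = plNorm v := by
    rw [hP, plNorm, Ideal.absNorm_apply, Submodule.cardQuot_apply]
  rw [h2] at h1
  exact h1

/-- **Action on roots of unity.** An arithmetic Frobenius at `P` over `v` raises every `m`-th
root of unity to the power `N v`, provided `P ∤ m`. -/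
theorem ax_frob_apply_of_pow_eq_one (v : Pl K) (P : Pl Ω) (hP : PlOver K Ω P v)
    (f : Ω ≃ₐ[K] Ω) (hf : IsArithFrobAt (𝓞 K) f P.asIdeal) {ζ : 𝓞 Ω} {m : ℕ}
    (hζ : ζ ^ m = 1) (hm : (m : 𝓞 Ω) ∉ P.asIdeal) : f • ζ = ζ ^ plNorm v := by
  have h1 := AlgHom.IsArithFrobAt.apply_of_pow_eq_one hf hζ hm
  have h2 : Nat.card (𝓞 K ⧸ P.asIdeal.under (𝓞 K)) = plNorm v := by
    rw [hP, plNorm, Ideal.absNorm_apply, Submodule.cardQuot_apply]
  rw [h2] at h1
  exact h1

/-- existence of a Frobenius element at a prime of `Ω` over `v` -/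
theorem ax_exists_isArithFrobAt (v : Pl K) :
    ∃ (P : Pl Ω) (_ : PlOver K Ω P v) (f : Ω ≃ₐ[K] Ω), IsArithFrobAt (𝓞 K) f P.asIdeal := by
  obtain ⟨P, hP⟩ := exists_plOver (M := Ω) v
  haveI : Finite (𝓞 Ω ⧸ P.asIdeal) := Ideal.finiteQuotientOfFreeOfNeBot _ P.ne_bot
  exact ⟨P, hP, arithFrobAt (𝓞 K) (Ω ≃ₐ[K] Ω) P.asIdeal,
    IsArithFrobAt.arithFrobAt (𝓞 K) (Ω ≃ₐ[K] Ω) P.asIdeal⟩

end Tower3

/-! ### decomposition groups and splitting in a fixed field -/

section LiftSec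

variable {K F Ω : Type} [Field K] [Field F] [Field Ω] [Algebra K Ω] [Algebra F Ω]

/-- an element of `Gal(Ω/K)` fixing `F` pointwise, as an element of `Gal(Ω/F)` -/
def axLift (σ : Ω ≃ₐ[K] Ω) (hσ : ∀ x : F, σ (algebraMap F Ω x) = algebraMap F Ω x) :
    Ω ≃ₐ[F] Ω :=
  { σ.toRingEquiv with commutes' := hσ }

theorem axLift_apply (σ : Ω ≃ₐ[K] Ω) (hσ : ∀ x : F, σ (algebraMap F Ω x) = algebraMap F Ω x)
    (y : Ω) : axLift σ hσ y = σ y := rfl

theorem axLift_symm_apply (σ : Ω ≃ₐ[K] Ω)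
    (hσ : ∀ x : F, σ (algebraMap F Ω x) = algebraMap F Ω x) (y : Ω) :
    (axLift σ hσ).symm y = σ.symm y := rfl

theorem axLift_smul_ideal (σ : Ω ≃ₐ[K] Ω)
    (hσ : ∀ x : F, σ (algebraMap F Ω x) = algebraMap F Ω x) (I : Ideal (𝓞 Ω)) :
    axLift σ hσ • I = σ • I := by
  ext x
  rw [Ideal.mem_pointwise_smul_iff_inv_smul_mem, Ideal.mem_pointwise_smul_iff_inv_smul_mem]
  have : (axLift σ hσ)⁻¹ • x = σ⁻¹ • x := Subtype.ext rfl
  rw [this]

end LiftSec

section Decomp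

variable {K F Ω : Type} [Field K] [NumberField K] [Field F] [NumberField F] [Field Ω]
  [NumberField Ω] [Algebra K F] [Algebra K Ω] [Algebra F Ω] [IsScalarTower K F Ω]

/-- `#D(P|K) = e(P|K) f(P|K)` -/
theorem ax_card_stabilizer [IsGalois K Ω] (P : Pl Ω) :
    Nat.card (MulAction.stabilizer (Ω ≃ₐ[K] Ω) P.asIdeal) =
      Ideal.ramificationIdx P.asIdeal (𝓞 K) * Ideal.inertiaDeg P.asIdeal (𝓞 K) := by
  rw [Ideal.card_stabilizer_eq_card_inertia_mul_finrank (P.asIdeal.under (𝓞 K)) P.asIdeal,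
    Ideal.card_inertia_eq_ramificationIdxIn (G := (Ω ≃ₐ[K] Ω)) (P.asIdeal.under (𝓞 K)) P.asIdeal,
    Ideal.ramificationIdxIn_eq_ramificationIdx (P.asIdeal.under (𝓞 K)) P.asIdeal (Ω ≃ₐ[K] Ω)]

/-- **Splitting in a fixed field.** If the decomposition group `D(P|K)` fixes the intermediate
field `F` pointwise, then the prime `W = P ∩ F` has `e(W|K) = f(W|K) = 1`. -/
theorem ax_split_of_stabilizer_fixes [IsGalois K Ω] [IsGalois F Ω] (P : Pl Ω)
    (hD : ∀ σ : Ω ≃ₐ[K] Ω, σ • P.asIdeal = P.asIdeal →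
      ∀ x : F, σ (algebraMap F Ω x) = algebraMap F Ω x) :
    Ideal.ramificationIdx (plUnder F Ω P).asIdeal (𝓞 K) = 1 ∧
      Ideal.inertiaDeg (plUnder F Ω P).asIdeal (𝓞 K) = 1 := by
  set W := plUnder F Ω P with hW
  have : P.asIdeal.LiesOver W.asIdeal := ⟨rfl⟩
  have hK := ax_card_stabilizer (K := K) P
  have hF := ax_card_stabilizer (K := F) P
  -- the injection `D(P|K) → D(P|F)`
  let φ : MulAction.stabilizer (Ω ≃ₐ[K] Ω) P.asIdeal → MulAction.stabilizer (Ω ≃ₐ[F] Ω) P.asIdeal :=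
    fun σ => ⟨axLift σ.1 (hD σ.1 (MulAction.mem_stabilizer_iff.mp σ.2)), by
      rw [MulAction.mem_stabilizer_iff, axLift_smul_ideal]
      exact MulAction.mem_stabilizer_iff.mp σ.2⟩
  have hφ : Function.Injective φ := by
    intro σ τ h
    apply Subtype.ext
    apply AlgEquiv.ext
    intro y
    have := congrArg (fun ρ : MulAction.stabilizer (Ω ≃ₐ[F] Ω) P.asIdeal => (ρ.1 : Ω ≃ₐ[F] Ω) y) h
    exact this
  have hle := Nat.card_le_card_of_injective φ hφ
  rw [hK, hF, Ideal.ramificationIdx_tower W.asIdeal P.asIdeal (R := 𝓞 K),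
    Ideal.inertiaDeg_tower W.asIdeal P.asIdeal (R := 𝓞 K)] at hle
  have hpos : 0 < Nat.card (MulAction.stabilizer (Ω ≃ₐ[F] Ω) P.asIdeal) := Nat.card_pos
  rw [hF] at hpos
  have hposK : 0 < Nat.card (MulAction.stabilizer (Ω ≃ₐ[K] Ω) P.asIdeal) := Nat.card_pos
  rw [hK, Ideal.ramificationIdx_tower W.asIdeal P.asIdeal (R := 𝓞 K),
    Ideal.inertiaDeg_tower W.asIdeal P.asIdeal (R := 𝓞 K)] at hposK
  set e1 := Ideal.ramificationIdx W.asIdeal (𝓞 K)
  set f1 := Ideal.inertiaDeg W.asIdeal (𝓞 K)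
  set e2 := Ideal.ramificationIdx P.asIdeal (𝓞 F)
  set f2 := Ideal.inertiaDeg P.asIdeal (𝓞 F)
  have h1 : e1 * f1 * (e2 * f2) ≤ 1 * (e2 * f2) := by nlinarith
  have h2 : e1 * f1 ≤ 1 := Nat.le_of_mul_le_mul_right h1 hpos
  have h3 : 0 < e1 * f1 := by
    rcases Nat.eq_zero_or_pos (e1 * f1) with h0 | h0
    · exfalso
      have : e1 * e2 * (f1 * f2) = (e1 * f1) * (e2 * f2) := by ring
      rw [this, h0, zero_mul] at hposK
      exact lt_irrefl _ hposK
    · exact h0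
  have h4 : e1 * f1 = 1 := le_antisymm h2 h3
  exact ⟨Nat.eq_one_of_mul_eq_one_right h4, Nat.eq_one_of_mul_eq_one_left h4⟩

end Decomp

end Fermat.Agent.S14x
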