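/-
S14 project, module ARTINNT (prefix `al_`): Artin's lemma (Lang, ANT X.2 Lemma 1 / Janusz V.5),
pure elementary number theory.  (helper31)

For a prime `p ≠ 2`, `a ≥ 2`, `N ≠ 0` there is a modulus `m` (a product of two distinct primes),
coprime to `N * p * a`, and a unit `τ` of `ZMod m` such that for the unit `ua` of `a`:
`τ ^ i * ua ^ j = 1 → p ∣ i ∧ p ∣ j`  (i.e. `p ∣ ord τ`, `p ∣ ord a`, `⟨τ⟩ ∩ ⟨a⟩ = 1`).
-/
import Mathlib

set_option autoImplicit false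

namespace Fermat.Agent.S14x

open Finset

/-- the `p`-th cyclotomic-like quotient `1 + b + ⋯ + b^(p-1) = (b^p - 1)/(b - 1)`. -/
def al_Phi (p b : ℕ) : ℕ := ∑ i ∈ range p, b ^ i

theorem al_Phi_mul (p b : ℕ) (hb : 1 ≤ b) : al_Phi p b * (b - 1) = b ^ p - 1 := by
  have hz : ((al_Phi p b * (b - 1) : ℕ) : ℤ) = ((b ^ p - 1 : ℕ) : ℤ) := by
    have h1 : 1 ≤ b ^ p := Nat.one_le_pow _ _ hb
    rw [Nat.cast_mul, Nat.cast_sub hb, Nat.cast_sub h1, al_Phi]
    push_cast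
    exact geom_sum_mul (b : ℤ) p
  exact_mod_cast hz

theorem al_Phi_gt {p b : ℕ} (hp : 2 ≤ p) (hb : 2 ≤ b) : b < al_Phi p b := by
  unfold al_Phi
  obtain ⟨k, rfl⟩ : ∃ k, p = k + 2 := ⟨p - 2, by omega⟩
  rw [Finset.sum_range_succ, Finset.sum_range_succ]
  have h1 : 0 ≤ ∑ i ∈ range k, b ^ i := Nat.zero_le _
  have h2 : 1 ≤ b ^ k := Nat.one_le_pow _ _ (by omega)
  have h3 : b ≤ b ^ (k + 1) := by
    calc b = b ^ 1 := (pow_one b).symm
      _ ≤ b ^ (k + 1) := Nat.pow_le_pow_right (by omega) (by omega)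
  omega

/-- In `ZMod q`: if `q ∣ Φ(b)` then `b ^ p = 1`. -/
theorem al_pow_eq_one_of_dvd_Phi {p b q : ℕ} (h : q ∣ al_Phi p b) : ((b : ZMod q)) ^ p = 1 := by
  have h0 : ((al_Phi p b : ℕ) : ZMod q) = 0 := (ZMod.natCast_eq_zero_iff _ _).mpr h
  have h1 : (∑ i ∈ range p, (b : ZMod q) ^ i) = 0 := by
    rw [← h0, al_Phi]; push_cast; rfl
  have h2 := geom_sum_mul (b : ZMod q) p
  rw [h1, zero_mul] at h2
  exact (sub_eq_zero.mp h2.symm)

/-- In `ZMod q`: if `q ∣ Φ(b)` and `b = 1` in `ZMod q` then `q ∣ p`. -/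
theorem al_dvd_of_dvd_Phi_of_eq_one {p b q : ℕ} (h : q ∣ al_Phi p b) (hb : (b : ZMod q) = 1) :
    q ∣ p := by
  have h0 : ((al_Phi p b : ℕ) : ZMod q) = 0 := (ZMod.natCast_eq_zero_iff _ _).mpr h
  rw [al_Phi] at h0
  push_cast at h0
  rw [hb] at h0
  simp only [one_pow, sum_const, card_range, nsmul_eq_mul, mul_one] at h0
  exact (ZMod.natCast_eq_zero_iff _ _).mp h0

/-- `p ∣ Φ(b)` forces `p ∣ b - 1` (for `p` prime). -/
theorem al_dvd_sub_one_of_dvd_Phi {p b : ℕ} (hp : p.Prime) (hb : 1 ≤ b) (h : p ∣ al_Phi p b) :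
    p ∣ b - 1 := by
  have : Fact p.Prime := Fact.mk hp
  have h1 : (b : ZMod p) ^ p = 1 := al_pow_eq_one_of_dvd_Phi h
  rw [ZMod.pow_card] at h1
  have h2 : ((b - 1 : ℕ) : ZMod p) = 0 := by
    rw [Nat.cast_sub hb, h1]; simp
  exact (ZMod.natCast_eq_zero_iff _ _).mp h2

/-- For odd `p` and `b ≥ 2`: `p² ∤ Φ(b)`. -/
theorem al_padicValNat_Phi_le {p b : ℕ} (hp : p.Prime) (hp2 : p ≠ 2) (hb : 2 ≤ b) :
    padicValNat p (al_Phi p b) ≤ 1 := by
  have : Fact p.Prime := Fact.mk hp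
  by_cases hdiv : p ∣ al_Phi p b
  · have hb1 : p ∣ b - 1 := al_dvd_sub_one_of_dvd_Phi hp (by omega) hdiv
    have hpb : ¬ p ∣ b := by
      intro hpb
      have : p ∣ b - (b - 1) := Nat.dvd_sub hpb hb1
      have h1 : b - (b - 1) = 1 := by omega
      rw [h1] at this
      exact hp.one_lt.ne' (Nat.dvd_one.mp this)
    have hodd : Odd p := hp.odd_of_ne_two hp2
    have hlte := padicValNat.pow_sub_pow hodd (x := b) (y := 1) (by omega) hb1 hpb (n := p) hp.ne_zero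
    rw [one_pow, padicValNat_self, ← al_Phi_mul p b (by omega)] at hlte
    have hΦ0 : al_Phi p b ≠ 0 := by
      have := al_Phi_gt hp.two_le hb; omega
    have hb0 : b - 1 ≠ 0 := by omega
    rw [padicValNat.mul hΦ0 hb0] at hlte
    omega
  · rw [padicValNat.eq_zero_of_not_dvd hdiv]; omega

/-- Existence of a prime `q ≠ p` dividing `Φ(b)`. -/
theorem al_exists_prime_dvd_Phi {p b : ℕ} (hp : p.Prime) (hp2 : p ≠ 2) (hb : 2 ≤ b) (hpb : p ≤ b) :
    ∃ q : ℕ, q.Prime ∧ q ≠ p ∧ q ∣ al_Phi p b := by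
  have : Fact p.Prime := Fact.mk hp
  have hΦ : b < al_Phi p b := al_Phi_gt hp.two_le hb
  have hΦ0 : al_Phi p b ≠ 0 := by omega
  have hv := al_padicValNat_Phi_le hp hp2 hb
  -- Φ = p^v * Φ'
  have hdecomp := Nat.ordProj_mul_ordCompl_eq_self (al_Phi p b) p
  rw [Nat.factorization_def _ hp] at hdecomp
  set Φ' := al_Phi p b / p ^ padicValNat p (al_Phi p b) with hΦ'
  have hpow : p ^ padicValNat p (al_Phi p b) ≤ p := by
    calc p ^ padicValNat p (al_Phi p b) ≤ p ^ 1 := Nat.pow_le_pow_right hp.pos hv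
      _ = p := pow_one p
  have hΦ'1 : Φ' ≠ 1 := by
    intro h1
    rw [h1, mul_one] at hdecomp
    omega
  refine ⟨Φ'.minFac, Nat.minFac_prime hΦ'1, ?_, ?_⟩
  · intro hq
    have hdvd : p ∣ Φ' := hq ▸ Nat.minFac_dvd Φ'
    have hnd := Nat.not_dvd_ordCompl hp hΦ0
    rw [Nat.factorization_def _ hp] at hnd
    exact hnd hdvd
  · exact (Nat.minFac_dvd Φ').trans (Dvd.intro_left _ hdecomp)

/-- For every `r ≥ 1` there is a prime `q ≠ p` such that `a` has order exactly `p ^ (r + 1)` in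
`ZMod q`. -/
theorem al_exists_prime_order {p a : ℕ} (hp : p.Prime) (hp2 : p ≠ 2) (ha : 2 ≤ a) {r : ℕ}
    (hr : 1 ≤ r) : ∃ q : ℕ, q.Prime ∧ q ≠ p ∧ orderOf (a : ZMod q) = p ^ (r + 1) := by
  have : Fact p.Prime := Fact.mk hp
  set b := a ^ p ^ r with hb
  have hpr : p ≤ p ^ r := by
    calc p = p ^ 1 := (pow_one p).symm
      _ ≤ p ^ r := Nat.pow_le_pow_right hp.pos hr
  have hb2 : 2 ≤ b := by
    calc 2 = 2 ^ 1 := rfl
      _ ≤ a ^ 1 := by simpa using ha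
      _ ≤ a ^ p ^ r := Nat.pow_le_pow_right (by omega) (Nat.one_le_pow _ _ hp.pos)
  have hpb : p ≤ b := by
    calc p ≤ 2 ^ p := Nat.lt_two_pow_self.le
      _ ≤ 2 ^ p ^ r := Nat.pow_le_pow_right (by omega) hpr
      _ ≤ a ^ p ^ r := Nat.pow_le_pow_left ha _
  obtain ⟨q, hq, hqp, hqdvd⟩ := al_exists_prime_dvd_Phi hp hp2 hb2 hpb
  refine ⟨q, hq, hqp, ?_⟩
  have h1 : ((b : ℕ) : ZMod q) ^ p = 1 := al_pow_eq_one_of_dvd_Phi hqdvd
  have hcast : ((b : ℕ) : ZMod q) = (a : ZMod q) ^ p ^ r := by rw [hb]; push_cast; rfl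
  refine orderOf_eq_prime_pow ?_ ?_
  · intro h
    rw [← hcast] at h
    have := al_dvd_of_dvd_Phi_of_eq_one hqdvd h
    exact hqp ((Nat.prime_dvd_prime_iff_eq hq hp).mp this)
  · rw [pow_succ, pow_mul, ← hcast]; exact h1

/-- A natural number of finite positive order in `ZMod q` (`q` prime) is prime to `q`. -/
theorem al_not_dvd_of_orderOf {q a k : ℕ} (hq : q.Prime) (hk : 0 < k)
    (h : orderOf (a : ZMod q) = k) : ¬ q ∣ a := by
  have : Fact q.Prime := Fact.mk hq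
  intro hdvd
  have h0 : (a : ZMod q) = 0 := (ZMod.natCast_eq_zero_iff _ _).mpr hdvd
  have h1 : (a : ZMod q) ^ k = 1 := by rw [← h]; exact pow_orderOf_eq_one _
  rw [h0, zero_pow hk.ne'] at h1
  exact zero_ne_one h1

/-- **Artin's lemma**, strong form: the modulus is a product of two distinct primes, both `τ` and
the unit `ua` of `a` have order divisible by `p`, and they are independent. -/
theorem al_artin_lemma {p : ℕ} (hp : p.Prime) (hp2 : p ≠ 2) {a : ℕ} (ha : 2 ≤ a) {N : ℕ}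
    (hN : N ≠ 0) :
    ∃ (q₁ q₂ : ℕ) (τ ua : (ZMod (q₁ * q₂))ˣ), q₁.Prime ∧ q₂.Prime ∧ q₁ ≠ q₂ ∧
      Nat.Coprime (q₁ * q₂) (N * p * a) ∧
      ((ua : (ZMod (q₁ * q₂))ˣ) : ZMod (q₁ * q₂)) = (a : ZMod (q₁ * q₂)) ∧
      p ∣ orderOf τ ∧ p ∣ orderOf ua ∧
      ∀ i j : ℤ, τ ^ i * ua ^ j = 1 → τ ^ i = 1 ∧ ua ^ j = 1 := by
  have : Fact p.Prime := Fact.mk hp
  choose q hq using fun r : ℕ => al_exists_prime_order hp hp2 ha (r := r + 1) (by omega)
  -- `q r` has order `p ^ (r + 2)`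
  have hinj : Function.Injective q := by
    intro r s h
    have h1 := (hq r).2.2
    have h2 := (hq s).2.2
    rw [h] at h1
    rw [h1] at h2
    have := Nat.pow_right_injective hp.two_le h2
    omega
  have hfin : {r | q r ∣ N}.Finite := by
    refine Set.Finite.of_injOn (f := q) (t := (↑(N.divisors) : Set ℕ)) ?_ hinj.injOn
      (Finset.finite_toSet _)
    intro r hr
    simp only [Finset.mem_coe, Nat.mem_divisors]
    exact ⟨hr, hN⟩
  obtain ⟨R, hR⟩ := hfin.bddAbove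
  have hnd : ∀ r, R < r → ¬ q r ∣ N := fun r hr hdvd => by
    have := hR hdvd; omega
  set q₁ := q (R + 1) with hq₁
  set q₂ := q (R + 2) with hq₂
  obtain ⟨hq₁p, hq₁ne, hq₁o⟩ := hq (R + 1)
  obtain ⟨hq₂p, hq₂ne, hq₂o⟩ := hq (R + 2)
  rw [← hq₁] at hq₁p hq₁ne hq₁o
  rw [← hq₂] at hq₂p hq₂ne hq₂o
  have hne : q₁ ≠ q₂ := fun h => by
    have := hinj h; omega
  have hcop : Nat.Coprime q₁ q₂ := (Nat.coprime_primes hq₁p hq₂p).mpr hne
  have : Fact q₁.Prime := Fact.mk hq₁p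
  have : Fact q₂.Prime := Fact.mk hq₂p
  -- units of `a`
  have hu₁ : IsUnit (a : ZMod q₁) := by
    apply IsOfFinOrder.isUnit
    rw [← orderOf_pos_iff, hq₁o]; exact pow_pos hp.pos _
  have hu₂ : IsUnit (a : ZMod q₂) := by
    apply IsOfFinOrder.isUnit
    rw [← orderOf_pos_iff, hq₂o]; exact pow_pos hp.pos _
  set u₁ : (ZMod q₁)ˣ := hu₁.unit with hu₁def
  set u₂ : (ZMod q₂)ˣ := hu₂.unit with hu₂def
  have ho₁ : orderOf u₁ = p ^ (R + 1 + 1 + 1) := by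
    rw [← orderOf_units, hu₁def, IsUnit.unit_spec, hq₁o]
  have ho₂ : orderOf u₂ = p ^ (R + 2 + 1 + 1) := by
    rw [← orderOf_units, hu₂def, IsUnit.unit_spec, hq₂o]
  -- Chinese remainder theorem on units
  let e : ZMod (q₁ * q₂) ≃+* ZMod q₁ × ZMod q₂ := ZMod.chineseRemainder hcop
  let E : (ZMod (q₁ * q₂))ˣ ≃* (ZMod q₁)ˣ × (ZMod q₂)ˣ :=
    (Units.mapEquiv e.toMulEquiv).trans MulEquiv.prodUnits
  have hE₁ : ∀ x : (ZMod (q₁ * q₂))ˣ,
      (((E x).1 : (ZMod q₁)ˣ) : ZMod q₁) = (e (x : ZMod (q₁ * q₂))).1 := fun x => rfl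
  have hE₂ : ∀ x : (ZMod (q₁ * q₂))ˣ,
      (((E x).2 : (ZMod q₂)ˣ) : ZMod q₂) = (e (x : ZMod (q₁ * q₂))).2 := fun x => rfl
  have hpp : ∀ k : ℕ, p ∣ p ^ (k + 1) := fun k => dvd_pow_self _ (Nat.succ_ne_zero k)
  -- orders of the two units
  have hoτ : orderOf (E.symm (u₁, (1 : (ZMod q₂)ˣ))) = p ^ (R + 1 + 1 + 1) := by
    rw [← ho₁, MulEquiv.orderOf_eq E.symm, Prod.orderOf_mk, orderOf_one, Nat.lcm_one_right]
  have hoa : p ∣ orderOf (E.symm (u₁, u₂)) := by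
    rw [MulEquiv.orderOf_eq E.symm, Prod.orderOf_mk, ho₁]
    exact (hpp _).trans (Nat.dvd_lcm_left _ _)
  refine ⟨q₁, q₂, E.symm (u₁, 1), E.symm (u₁, u₂), hq₁p, hq₂p, hne, ?_, ?_, ?_, hoa, ?_⟩
  · -- coprimality
    have h1 : ∀ {q k : ℕ}, q.Prime → q ≠ p → ¬ q ∣ N → orderOf (a : ZMod q) = p ^ k →
        Nat.Coprime q (N * p * a) := by
      intro q k hqp hqne hqN hqo
      have hqa : ¬ q ∣ a := al_not_dvd_of_orderOf hqp (pow_pos hp.pos k) hqo
      have hqpp : ¬ q ∣ p := fun h => hqne ((Nat.prime_dvd_prime_iff_eq hqp hp).mp h)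
      refine (Nat.Prime.coprime_iff_not_dvd hqp).mpr ?_
      intro h
      rcases (Nat.Prime.dvd_mul hqp).mp h with h | h
      · rcases (Nat.Prime.dvd_mul hqp).mp h with h | h
        · exact hqN h
        · exact hqpp h
      · exact hqa h
    exact Nat.Coprime.mul_left (h1 hq₁p hq₁ne (hnd _ (by omega)) hq₁o)
      (h1 hq₂p hq₂ne (hnd _ (by omega)) hq₂o)
  · -- the unit `ua` is `a`
    apply e.injective
    have hx : E (E.symm (u₁, u₂)) = (u₁, u₂) := E.apply_symm_apply _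
    refine Prod.ext ?_ ?_
    · rw [← hE₁, hx, map_natCast]
      simp [hu₁def]
    · rw [← hE₂, hx, map_natCast]
      simp [hu₂def]
  · rw [hoτ]; exact hpp _
  · intro i j hij
    have h := congrArg E hij
    rw [map_mul, map_zpow, map_zpow, E.apply_symm_apply, E.apply_symm_apply, map_one] at h
    have h1 : u₁ ^ i * u₁ ^ j = 1 := by
      have := congrArg Prod.fst h
      simpa using this
    have h2 : u₂ ^ j = 1 := by
      have := congrArg Prod.snd h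
      simpa using this
    have hj : ((p ^ (R + 2 + 1 + 1) : ℕ) : ℤ) ∣ j := by
      rw [← ho₂]; exact orderOf_dvd_iff_zpow_eq_one.mpr h2
    have hj' : ((p ^ (R + 1 + 1 + 1) : ℕ) : ℤ) ∣ j := by
      refine dvd_trans ?_ hj
      exact_mod_cast pow_dvd_pow p (by omega)
    have h3 : u₁ ^ j = 1 := by
      rw [← ho₁] at hj'; exact orderOf_dvd_iff_zpow_eq_one.mp hj'
    rw [h3, mul_one] at h1
    constructor
    · apply E.injective
      rw [map_zpow, E.apply_symm_apply, map_one]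
      exact Prod.ext (by simpa using h1) (by simp)
    · apply E.injective
      rw [map_zpow, E.apply_symm_apply, map_one]
      exact Prod.ext (by simpa using h3) (by simpa using h2)

/-- **Artin's lemma**, modulus form: there is a squarefree `m > 1` coprime to `N * p * a` and units
`τ, ua` of `ZMod m`, `ua = a`, both of order divisible by `p`, with `⟨τ⟩ ∩ ⟨ua⟩ = 1`; in particular
`τ ^ i * ua ^ j = 1` forces `p ∣ i` and `p ∣ j`. -/
theorem al_artin_lemma' {p : ℕ} (hp : p.Prime) (hp2 : p ≠ 2) {a : ℕ} (ha : 2 ≤ a) {N : ℕ}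
    (hN : N ≠ 0) :
    ∃ (m : ℕ) (τ ua : (ZMod m)ˣ), 1 < m ∧ Squarefree m ∧ Nat.Coprime m (N * p * a) ∧
      ((ua : (ZMod m)ˣ) : ZMod m) = (a : ZMod m) ∧
      p ∣ orderOf τ ∧ p ∣ orderOf ua ∧
      Subgroup.zpowers τ ⊓ Subgroup.zpowers ua = ⊥ ∧
      ∀ i j : ℤ, τ ^ i * ua ^ j = 1 → (p : ℤ) ∣ i ∧ (p : ℤ) ∣ j := by
  obtain ⟨q₁, q₂, τ, ua, h1, h2, hne, hcop, hua, hτo, hao, h⟩ := al_artin_lemma hp hp2 ha hN
  refine ⟨q₁ * q₂, τ, ua, ?_, ?_, hcop, hua, hτo, hao, ?_, ?_⟩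
  · have := h1.two_le; have := h2.two_le; nlinarith
  · rw [Nat.squarefree_mul_iff]
    exact ⟨(Nat.coprime_primes h1 h2).mpr hne, h1.squarefree, h2.squarefree⟩
  · rw [eq_bot_iff]
    rintro x ⟨⟨i, hi⟩, ⟨j, hj⟩⟩
    rw [Subgroup.mem_bot]
    have hi' : τ ^ i = x := hi
    have hj' : ua ^ j = x := hj
    have hij : τ ^ i * ua ^ (-j) = 1 := by
      rw [zpow_neg, hi', hj', mul_inv_cancel]
    rw [← hi']; exact (h i (-j) hij).1
  · intro i j hij
    obtain ⟨hi, hj⟩ := h i j hij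
    constructor
    · exact dvd_trans (by exact_mod_cast hτo) (orderOf_dvd_iff_zpow_eq_one.mpr hi)
    · exact dvd_trans (by exact_mod_cast hao) (orderOf_dvd_iff_zpow_eq_one.mpr hj)

end Fermat.Agent.S14x
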