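/-
S14 project, module BC (helper28), part 2: `artZ_baseChange` (functoriality of the Artin map
under base change) and the underlying relation of Frobenius exponents
`bca_frobExp_baseChange : frobExp' v' = f(v'|v) * frobExp v`.
Self-contained (Mathlib + Defs + BaseChangeUnram); prefix `bca_`.
-/
import Fermat.Agent.S14x.BaseChangeUnram

set_option autoImplicit false

namespace Fermat.Agent.S14x

open NumberField IsDedekindDomain
open scoped Pointwise

section Cyc

variable {p : ℕ} [Fact p.Prime]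
variable {F M : Type} [Field F] [NumberField F] [Field M] [NumberField M] [Algebra F M]
  [IsGalois F M] {g : M ≃ₐ[F] M}

/-- the Frobenius is the `frobExp`-th power of the generator. -/
theorem bca_frob_eq_pow (h : IsUCyc p F M g) (v : Pl F) :
    frob F M v = g ^ (frobExp F M p g v).val := by
  have hex : ∃ e : ZMod p, frob F M v = g ^ e.val := by
    obtain ⟨k, hk⟩ := bcu_exists_pow h (frob F M v)
    refine ⟨(k : ZMod p), ?_⟩
    rw [hk, ZMod.val_natCast]
    conv_rhs => rw [← bcu_orderOf h]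
    rw [pow_mod_orderOf]
  unfold frobExp
  rw [dif_pos hex]
  exact hex.choose_spec

theorem bca_comm (h : IsUCyc p F M g) (a b : M ≃ₐ[F] M) : a * b = b * a := by
  obtain ⟨i, rfl⟩ := bcu_exists_pow h a
  obtain ⟨j, rfl⟩ := bcu_exists_pow h b
  rw [← pow_add, ← pow_add, add_comm]

/-- residue-level Frobenius property of `frob F M v` at EVERY prime `w` over `v`. -/
theorem bca_frob_mk (h : IsUCyc p F M g) (v : Pl F) (w : Pl M) (hw : PlOver F M w v) (x : 𝓞 M) :
    Ideal.Quotient.mk w.asIdeal (frob F M v • x) =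
      (Ideal.Quotient.mk w.asIdeal x) ^ (Nat.card (𝓞 F ⧸ v.asIdeal)) := by
  haveI : Finite (𝓞 M ⧸ (plAbove F M v).asIdeal) :=
    Ideal.finiteQuotientOfFreeOfNeBot _ (plAbove F M v).ne_bot
  have H0 : IsArithFrobAt (𝓞 F) (frob F M v) (plAbove F M v).asIdeal :=
    IsArithFrobAt.arithFrobAt (𝓞 F) (M ≃ₐ[F] M) (plAbove F M v).asIdeal
  have hunder : (plAbove F M v).asIdeal.under (𝓞 F) = w.asIdeal.under (𝓞 F) := by
    rw [plAbove_over F M v, hw]
  obtain ⟨τ, hτ⟩ := Algebra.IsInvariant.exists_smul_of_under_eq (𝓞 F) (𝓞 M) (M ≃ₐ[F] M)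
    (plAbove F M v).asIdeal w.asIdeal hunder
  have H1 := H0.conj τ
  have hc : τ * frob F M v * τ⁻¹ = frob F M v := by
    rw [bca_comm h τ, mul_inv_cancel_right]
  rw [hc, ← hτ] at H1
  have := H1.mk_apply x
  rw [hw] at this
  exact this

theorem bca_frob_pow_mk (h : IsUCyc p F M g) (v : Pl F) (w : Pl M) (hw : PlOver F M w v)
    (n : ℕ) (x : 𝓞 M) :
    Ideal.Quotient.mk w.asIdeal ((frob F M v) ^ n • x) =
      (Ideal.Quotient.mk w.asIdeal x) ^ ((Nat.card (𝓞 F ⧸ v.asIdeal)) ^ n) := by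
  induction n generalizing x with
  | zero => simp
  | succ n ih =>
    rw [pow_succ', mul_smul, bca_frob_mk h v w hw, ih, ← pow_mul, pow_succ]

/-- `y ↦ y ^ (N v)^n` is injective on the residue ring at `w | v`. -/
theorem bca_pow_injective (h : IsUCyc p F M g) (v : Pl F) (w : Pl M) (hw : PlOver F M w v)
    (n : ℕ) :
    Function.Injective (fun y : 𝓞 M ⧸ w.asIdeal => y ^ ((Nat.card (𝓞 F ⧸ v.asIdeal)) ^ n)) := by
  have h1 : Function.Injective (fun y : 𝓞 M ⧸ w.asIdeal => y ^ (Nat.card (𝓞 F ⧸ v.asIdeal))) := by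
    intro a b hab
    obtain ⟨a, rfl⟩ := Ideal.Quotient.mk_surjective a
    obtain ⟨b, rfl⟩ := Ideal.Quotient.mk_surjective b
    simp only at hab
    rw [← bca_frob_mk h v w hw, ← bca_frob_mk h v w hw, ← sub_eq_zero, ← map_sub, ← smul_sub,
      Ideal.Quotient.eq_zero_iff_mem] at hab
    rw [← sub_eq_zero, ← map_sub, Ideal.Quotient.eq_zero_iff_mem]
    -- `frob` stabilises `w`
    have hstab : ∀ z : 𝓞 M, frob F M v • z ∈ w.asIdeal → z ∈ w.asIdeal := by
      intro z hz
      rw [← Ideal.Quotient.eq_zero_iff_mem, bca_frob_mk h v w hw] at hz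
      have hq : Nat.card (𝓞 F ⧸ v.asIdeal) ≠ 0 := by
        haveI : Finite (𝓞 F ⧸ v.asIdeal) := Ideal.finiteQuotientOfFreeOfNeBot _ v.ne_bot
        exact Nat.card_pos.ne'
      haveI := w.isPrime
      have := pow_eq_zero_iff hq |>.mp hz
      rwa [Ideal.Quotient.eq_zero_iff_mem] at this
    exact hstab _ hab
  have := h1.iterate n
  rwa [pow_iterate] at this

/-- two automorphisms inducing the same `Q`-power map on the residue ring at `w` are equal. -/
theorem bca_eq_of_mk (h : IsUCyc p F M g) (w : Pl M) (Q : ℕ)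
    (hinj : Function.Injective (fun y : 𝓞 M ⧸ w.asIdeal => y ^ Q)) (a b : M ≃ₐ[F] M)
    (ha : ∀ x : 𝓞 M, Ideal.Quotient.mk w.asIdeal (a • x) = (Ideal.Quotient.mk w.asIdeal x) ^ Q)
    (hb : ∀ x : 𝓞 M, Ideal.Quotient.mk w.asIdeal (b • x) = (Ideal.Quotient.mk w.asIdeal x) ^ Q) :
    a = b := by
  have ht : a⁻¹ * b = 1 := by
    apply bcu_inertia_trivial h w
    intro x
    rw [← Ideal.Quotient.eq]
    apply hinj
    show (Ideal.Quotient.mk w.asIdeal ((a⁻¹ * b) • x)) ^ Q = (Ideal.Quotient.mk w.asIdeal x) ^ Q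
    rw [← ha, ← hb, ← mul_smul, mul_inv_cancel_left]
  rw [inv_mul_eq_one] at ht
  exact ht

end Cyc

section BaseChange

variable {p : ℕ} [Fact p.Prime]
variable {F M : Type} [Field F] [NumberField F] [Field M] [NumberField M] [Algebra F M]
  [IsGalois F M] {g : M ≃ₐ[F] M}
variable {F' M' : Type} [Field F'] [NumberField F'] [Field M'] [NumberField M']
  [Algebra F F'] [Algebra F' M'] [Algebra M M'] [Algebra F M']
  [IsScalarTower F F' M'] [IsScalarTower F M M'] [IsGalois F' M'] {g' : M' ≃ₐ[F'] M'}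

/-- the prime of `M` below a prime `w'` of `M'` lies over the prime of `F` below the prime of `F'`
below `w'`. -/
theorem bca_under_over (v' : Pl F') (w' : Pl M') (hw' : PlOver F' M' w' v') :
    PlOver F M (plUnder M M' w') (plUnder F F' v') := by
  show (w'.asIdeal.under (𝓞 M)).under (𝓞 F) = v'.asIdeal.under (𝓞 F)
  rw [Ideal.under_under, ← hw', Ideal.under_under]

/-- norm of the prime below: `N v' = (N v) ^ f(v'|v)`. -/
theorem bca_card_quot (v' : Pl F') :
    Nat.card (𝓞 F' ⧸ v'.asIdeal) =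
      (Nat.card (𝓞 F ⧸ (plUnder F F' v').asIdeal)) ^ (Ideal.inertiaDeg v'.asIdeal (𝓞 F)) := by
  have : v'.asIdeal.LiesOver (plUnder F F' v').asIdeal := ⟨rfl⟩
  have := (plUnder F F' v').isMaximal
  have := v'.isMaximal
  have h := Ideal.cardQuot_pow_inertiaDeg (plUnder F F' v').asIdeal v'.asIdeal
  rw [Submodule.cardQuot_apply, Submodule.cardQuot_apply] at h
  exact h.symm

/-- KEY: the Frobenius exponent after base change is `f(v'|v)` times the Frobenius exponent
below: `Frob_{v'}(M'/F')|_M = Frob_v(M/F) ^ f(v'|v)`. -/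
theorem bca_frobExp_baseChange (h : IsUCyc p F M g) (h' : IsUCyc p F' M' g')
    (hg : ∀ x : M, g' (algebraMap M M' x) = algebraMap M M' (g x)) (v' : Pl F') :
    frobExp F' M' p g' v' =
      ((Ideal.inertiaDeg v'.asIdeal (𝓞 F) : ℕ) : ZMod p) * frobExp F M p g (plUnder F F' v') := by
  set w' := plAbove F' M' v' with hw'def
  have hw' : PlOver F' M' w' v' := plAbove_over F' M' v'
  set w := plUnder M M' w' with hwdef
  set v := plUnder F F' v' with hvdef
  have hw : PlOver F M w v := bca_under_over v' w' hw'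
  set f := Ideal.inertiaDeg v'.asIdeal (𝓞 F) with hfdef
  set q := Nat.card (𝓞 F ⧸ v.asIdeal) with hqdef
  have hq' : Nat.card (𝓞 F' ⧸ v'.asIdeal) = q ^ f := bca_card_quot v'
  set e' := (frobExp F' M' p g' v').val with he'def
  set e := (frobExp F M p g v).val with hedef
  have hfrob' : frob F' M' v' = g' ^ e' := bca_frob_eq_pow h' v'
  have hfrob : frob F M v = g ^ e := bca_frob_eq_pow h v
  -- the two automorphisms of `M`
  have hab : g ^ e' = (frob F M v) ^ f := by
    apply bca_eq_of_mk h w (q ^ f) (bca_pow_injective h v w hw f)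
    · intro x
      rw [← map_pow, Ideal.Quotient.eq]
      show g ^ e' • x - x ^ (q ^ f) ∈ w'.asIdeal.under (𝓞 M)
      rw [Ideal.under_def, Ideal.mem_comap, map_sub, map_pow]
      have h1 : algebraMap (𝓞 M) (𝓞 M') (g ^ e' • x) =
          frob F' M' v' • algebraMap (𝓞 M) (𝓞 M') x := by
        apply RingOfIntegers.ext
        show algebraMap M M' ((g ^ e') (x : M)) = (frob F' M' v') (algebraMap M M' (x : M))
        rw [hfrob', bcu_pow_compat hg]
      rw [h1, ← hq', ← Ideal.Quotient.eq, map_pow]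
      exact bca_frob_mk h' v' w' hw' _
    · intro x
      exact bca_frob_pow_mk h v w hw f x
  rw [hfrob, ← pow_mul, pow_eq_pow_iff_modEq, bcu_orderOf h] at hab
  have h2 : ((e' : ℕ) : ZMod p) = ((e * f : ℕ) : ZMod p) :=
    (ZMod.natCast_eq_natCast_iff _ _ _).mpr hab
  rw [Nat.cast_mul, he'def, hedef, ZMod.natCast_zmod_val, ZMod.natCast_zmod_val] at h2
  rw [h2, mul_comm]

/-- functoriality of the Artin map: `Art_{M'/F'}(D') |_M = Art_{M/F}(N_{F'/F} D')`. -/
theorem artZ_baseChange (h : IsUCyc p F M g) (h' : IsUCyc p F' M' g')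
    (hg : ∀ x : M, g' (algebraMap M M' x) = algebraMap M M' (g x)) (D' : Dv F') :
    artZ F' M' p g' D' = artZ F M p g (dvNorm F F' D') := by
  have key : artZ F' M' p g' = (artZ F M p g).comp (dvNorm F F') := by
    apply Finsupp.addHom_ext
    intro v' n
    rw [AddMonoidHom.comp_apply, dvNorm_single]
    simp only [artZ, Finsupp.liftAddHom_apply_single, AddMonoidHom.comp_apply,
      Int.coe_castAddHom, AddMonoidHom.coe_mulRight]
    rw [bca_frobExp_baseChange h h' hg v']
    push_cast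
    ring
  rw [key, AddMonoidHom.comp_apply]

end BaseChange

end Fermat.Agent.S14x
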