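import Fermat.Agent.S14x.SplitOfTrivial
import Fermat.Agent.S13x.FixedRat

/-!
# S14 project, step (R0'): the mod-`p` cyclotomic character of `G_ℚ` is nontrivial for `p ≥ 3`
-/

set_option autoImplicit false

namespace Fermat.Agent.S14x

open ExtCitation

variable (p : ℕ) [Fact p.Prime]

/-- `σ ζ = ζ ^ χ(σ)` for `p`-th roots of unity -/
theorem s14a_chi_spec (σ : s14G) {t : (AlgebraicClosure ℚ)ˣ}
    (ht : t ∈ rootsOfUnity p (AlgebraicClosure ℚ)) :
    σ (t : AlgebraicClosure ℚ) =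
      (t : AlgebraicClosure ℚ) ^ ((s14Chi p σ : (ZMod p)ˣ) : ZMod p).val := by
  haveI : NeZero p := ⟨(Fact.out : p.Prime).ne_zero⟩
  exact modularCyclotomicCharacter.spec (AlgebraicClosure ℚ) (card_rootsOfUnity_eq_self p)
    (MulSemiringAction.toRingAut s14G (AlgebraicClosure ℚ) σ) ht

theorem s14a_exists_chi_ne_one (h3 : 3 ≤ p) : ∃ δ₀ : s14G, s14Chi p δ₀ ≠ 1 := by
  haveI : NeZero p := ⟨(Fact.out : p.Prime).ne_zero⟩
  haveI : Fact (1 < p) := ⟨(Fact.out : p.Prime).one_lt⟩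
  by_contra hall
  push_neg at hall
  obtain ⟨ζ, hζ⟩ := HasEnoughRootsOfUnity.exists_primitiveRoot (AlgebraicClosure ℚ) p
  have hζ0 : ζ ≠ 0 := hζ.ne_zero (NeZero.ne p)
  set t : (AlgebraicClosure ℚ)ˣ := Units.mk0 ζ hζ0 with ht
  have htmem : t ∈ rootsOfUnity p (AlgebraicClosure ℚ) := by
    rw [mem_rootsOfUnity]
    ext
    rw [Units.val_pow_eq_pow_val, Units.val_mk0, hζ.pow_eq_one, Units.val_one]
  have hfix : ∀ σ : s14G, σ ζ = ζ := by
    intro σ
    have h := s14a_chi_spec p σ htmem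
    rw [hall σ, Units.val_one, ZMod.val_one, pow_one, Units.val_mk0] at h
    exact h
  obtain ⟨r, hr⟩ := Fermat.Agent.S13x.fixed_mem_range ζ hfix
  have hrp : r ^ p = 1 := by
    have h1 : algebraMap ℚ (AlgebraicClosure ℚ) (r ^ p) = algebraMap ℚ (AlgebraicClosure ℚ) 1 := by
      rw [map_pow, hr, hζ.pow_eq_one, map_one]
    exact (algebraMap ℚ (AlgebraicClosure ℚ)).injective h1
  have hodd : Odd p := (Fact.out : p.Prime).odd_of_ne_two (by omega)
  have hr1 : r = 1 := by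
    have := hodd.strictMono_pow (R := ℚ)
    apply this.injective
    simp only
    rw [hrp, one_pow]
  have hζ1 : ζ = 1 := by rw [← hr, hr1, map_one]
  have := hζ.unique (hζ1 ▸ IsPrimitiveRoot.one)
  omega

/-- (R0) + (R0'): for `p ≥ 3`, an admissible extension on which `ker ω` acts trivially splits -/
theorem s14a_splits_of_trivial_on_ker' (h3 : 3 ≤ p)
    {V : Type} [AddCommGroup V] [Module (ZMod p) V] [DistribMulAction s14G V]
    [SMulCommClass s14G (ZMod p) V] {C : Submodule (ZMod p) V}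
    (hC : IsAdmissibleExtension p V C)
    (hker : ∀ σ : s14G, s14Chi p σ = 1 → ∀ x : V, σ • x = x) : SplitsGlobally C := by
  obtain ⟨δ₀, hδ₀⟩ := s14a_exists_chi_ne_one p h3
  exact s14a_splits_of_trivial_on_ker hC hker δ₀ hδ₀

end Fermat.Agent.S14x
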