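import Fermat.Agent.S14x.Defs

/-!
# S14 project: CORE assembly in hypothesis form (helper70, deputy)

`ca_no_tower_of` : a tower does not exist, from RECIP (`reciprocity`), EQUIV
(`frobExp_equivariant`), JAC (`jacobi_kill`) and DENS (`exists_frobExp_ne_zero` with `m = p`),
all taken as hypotheses in their exact Spec shapes.  (`Tower.split_p` is not needed here: DENS
already produces a non-split prime away from `p`, which JAC + RECIP + EQUIV forbid.)
-/

set_option autoImplicit false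

namespace Fermat.Agent.S14x

open NumberField IsDedekindDomain
open scoped Pointwise

theorem ca_artZ_eq_sum {p : ℕ} [NeZero p] {F M : Type} [Field F] [NumberField F] [Field M]
    [NumberField M] [Algebra F M] [IsGalois F M] (g : M ≃ₐ[F] M) (D : Dv F) :
    artZ F M p g D = D.sum (fun v n => (n : ZMod p) * frobExp F M p g v) := by
  simp only [artZ, Finsupp.liftAddHom_apply]
  rfl

/-- CORE from RECIP + EQUIV + JAC + DENS. -/
theorem ca_no_tower_of {p : ℕ} [Fact p.Prime] (T : Tower p)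
    (hRecip : ∀ x : T.K, x ≠ 0 → artZ T.K T.L p T.g (divOf x) = 0)
    (hEquiv : ∀ (σ : T.K ≃ₐ[ℚ] T.K) (ζ : T.K) (k : ℕ), IsPrimitiveRoot ζ p → σ ζ = ζ ^ k →
      ∀ v w : Pl T.K, w.asIdeal = σ • v.asIdeal →
        (k : ZMod p) * frobExp T.K T.L p T.g w = frobExp T.K T.L p T.g v)
    (hJac : ∀ φ : Pl T.K → ZMod p,
      (∀ x : T.K, x ≠ 0 → (divOf x).sum (fun v n => (n : ZMod p) * φ v) = 0) →
      (∀ (σ : T.K ≃ₐ[ℚ] T.K) (ζ : T.K) (k : ℕ), IsPrimitiveRoot ζ p → σ ζ = ζ ^ k →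
        ∀ v w : Pl T.K, w.asIdeal = σ • v.asIdeal → (k : ZMod p) * φ w = φ v) →
      ∀ v : Pl T.K, (p : 𝓞 T.K) ∉ v.asIdeal → φ v = 0)
    (hDens : ∃ v : Pl T.K, (p : 𝓞 T.K) ∉ v.asIdeal ∧ frobExp T.K T.L p T.g v ≠ 0) : False := by
  obtain ⟨v, hvp, hv⟩ := hDens
  apply hv
  refine hJac (frobExp T.K T.L p T.g) (fun x hx => ?_) hEquiv v hvp
  rw [← ca_artZ_eq_sum]
  exact hRecip x hx

end Fermat.Agent.S14x
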