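/-
S14 project, module CROSS squad B, row CX1 (prefix `cxa_`, helper45): two-prime form of Artin's
lemma, `cx_artin_two` = EXACT statement of `Spec.cx_artin_two` (S14x/CrossSpecB.lean).

For EVERY prime `p` (including `p = 2`, which the landed `al_artin_lemma` excludes), `a₁, a₂ ≥ 2`
and `N ≠ 0` there is a modulus `m > 1` prime to `N·a₁·a₂` and a unit `τ` of `ZMod m` such that for
`a ∈ {a₁, a₂}`: `τ ^ x * a ^ y = 1 → p ∣ x ∧ p ∣ y`.

Proof: one-prime Artin lemma for all `p` (`cxa_artin_one`; the generic argument of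
`al_artin_lemma` from "for every `r` there is a prime `q ≠ p` with `ord_q a = p^(r+2)`", supplied by
the landed `al_exists_prime_order` for `p ≠ 2` and by `cxa_exists_prime_order_two` for `p = 2`),
applied to `a₁` and then to `a₂` with `N := N·a₁·m₁`; `m := m₁·m₂`, `τ := CRT(τ₁, τ₂)`.
-/
import Mathlib
import Fermat.Agent.S14x.ArtinLemma

set_option autoImplicit false

namespace Fermat.Agent.S14x

/-- an odd prime divisor of `c² + 1`, `c ≥ 2`. -/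
theorem cxa_exists_odd_prime_dvd (c : ℕ) (hc : 2 ≤ c) :
    ∃ q : ℕ, q.Prime ∧ q ≠ 2 ∧ q ∣ c ^ 2 + 1 := by
  have h4 : ¬ 4 ∣ c ^ 2 + 1 := by
    intro h
    have h0 := Nat.mod_eq_zero_of_dvd h
    have hc4 : c % 4 < 4 := Nat.mod_lt _ (by norm_num)
    rw [Nat.add_mod, Nat.pow_mod] at h0
    interval_cases (c % 4) <;> simp at h0
  have hc2 : 4 ≤ c ^ 2 := by nlinarith
  by_cases hev : 2 ∣ c ^ 2 + 1
  · obtain ⟨k, hk⟩ := hev
    have hk2 : ¬ 2 ∣ k := by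
      rintro ⟨j, rfl⟩
      exact h4 ⟨j, by omega⟩
    have hk1 : k ≠ 1 := by
      intro h
      subst h
      omega
    refine ⟨k.minFac, Nat.minFac_prime hk1, ?_, ?_⟩
    · intro h
      have hd := Nat.minFac_dvd k
      rw [h] at hd
      exact hk2 hd
    · exact (Nat.minFac_dvd k).trans ⟨2, by omega⟩
  · have h1 : c ^ 2 + 1 ≠ 1 := by omega
    refine ⟨(c ^ 2 + 1).minFac, Nat.minFac_prime h1, ?_, Nat.minFac_dvd _⟩
    intro h
    have hd := Nat.minFac_dvd (c ^ 2 + 1)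
    rw [h] at hd
    exact hev hd

/-- `p = 2`: for every `r ≥ 1` there is an odd prime `q` such that `a` has order exactly
`2 ^ (r + 1)` in `ZMod q` (`q ∣ a^(2^r) + 1`). -/
theorem cxa_exists_prime_order_two {a : ℕ} (ha : 2 ≤ a) {r : ℕ} (hr : 1 ≤ r) :
    ∃ q : ℕ, q.Prime ∧ q ≠ 2 ∧ orderOf (a : ZMod q) = 2 ^ (r + 1) := by
  obtain ⟨k, rfl⟩ : ∃ k, r = k + 1 := ⟨r - 1, by omega⟩
  have hc : 2 ≤ a ^ 2 ^ k := by
    calc 2 = 2 ^ 1 := rfl
      _ ≤ a ^ 1 := by simpa using ha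
      _ ≤ a ^ 2 ^ k := Nat.pow_le_pow_right (by omega) (Nat.one_le_pow _ _ (by norm_num))
  obtain ⟨q, hq, hq2, hdvd⟩ := cxa_exists_odd_prime_dvd (a ^ 2 ^ k) hc
  have : Fact q.Prime := ⟨hq⟩
  refine ⟨q, hq, hq2, ?_⟩
  have h0 : ((a : ZMod q) ^ 2 ^ k) ^ 2 + 1 = 0 := by
    have := (ZMod.natCast_eq_zero_iff ((a ^ 2 ^ k) ^ 2 + 1) q).mpr hdvd
    push_cast at this
    exact this
  have hb : (a : ZMod q) ^ 2 ^ (k + 1) = -1 := by
    rw [pow_succ 2 k, pow_mul]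
    linear_combination h0
  refine orderOf_eq_prime_pow ?_ ?_
  · rw [hb]
    intro h
    have h2 : ((2 : ℕ) : ZMod q) = 0 := by
      push_cast
      linear_combination -h
    have h3 := (ZMod.natCast_eq_zero_iff 2 q).mp h2
    exact hq2 ((Nat.prime_dvd_prime_iff_eq hq Nat.prime_two).mp h3)
  · rw [pow_succ 2 (k + 1), pow_mul, hb]
    ring

/-- for every prime `p` (also `p = 2`), `a ≥ 2`, `r ≥ 1` there is a prime `q ≠ p` such that `a` has
order exactly `p ^ (r + 1)` in `ZMod q`. -/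
theorem cxa_exists_prime_order {p a : ℕ} (hp : p.Prime) (ha : 2 ≤ a) {r : ℕ} (hr : 1 ≤ r) :
    ∃ q : ℕ, q.Prime ∧ q ≠ p ∧ orderOf (a : ZMod q) = p ^ (r + 1) := by
  by_cases hp2 : p = 2
  · subst hp2
    exact cxa_exists_prime_order_two ha hr
  · exact al_exists_prime_order hp hp2 ha hr

/-- **Artin's lemma** for every prime `p` (strong form; the proof of the landed `al_artin_lemma`
with `cxa_exists_prime_order`). -/
theorem cxa_artin_lemma {p : ℕ} (hp : p.Prime) {a : ℕ} (ha : 2 ≤ a) {N : ℕ} (hN : N ≠ 0) :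
    ∃ (q₁ q₂ : ℕ) (τ ua : (ZMod (q₁ * q₂))ˣ), q₁.Prime ∧ q₂.Prime ∧ q₁ ≠ q₂ ∧
      Nat.Coprime (q₁ * q₂) (N * p * a) ∧
      ((ua : (ZMod (q₁ * q₂))ˣ) : ZMod (q₁ * q₂)) = (a : ZMod (q₁ * q₂)) ∧
      p ∣ orderOf τ ∧ p ∣ orderOf ua ∧
      ∀ i j : ℤ, τ ^ i * ua ^ j = 1 → τ ^ i = 1 ∧ ua ^ j = 1 := by
  have : Fact p.Prime := Fact.mk hp
  choose q hq using fun r : ℕ => cxa_exists_prime_order hp ha (r := r + 1) (by omega)
  -- `q r` has order `p ^ (r + 2)`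
  have hinj : Function.Injective q := by
    intro r s h
    have h1 := (hq r).2.2
    have h2 := (hq s).2.2
    rw [h] at h1
    rw [h1] at h2
    have := Nat.pow_right_injective hp.two_le h2
    omega
  have hfin : {r | q r ∣ N}.Finite := by
    refine Set.Finite.of_injOn (f := q) (t := (↑(N.divisors) : Set ℕ)) ?_ hinj.injOn
      (Finset.finite_toSet _)
    intro r hr
    simp only [Finset.mem_coe, Nat.mem_divisors]
    exact ⟨hr, hN⟩
  obtain ⟨R, hR⟩ := hfin.bddAbove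
  have hnd : ∀ r, R < r → ¬ q r ∣ N := fun r hr hdvd => by
    have := hR hdvd; omega
  set q₁ := q (R + 1) with hq₁
  set q₂ := q (R + 2) with hq₂
  obtain ⟨hq₁p, hq₁ne, hq₁o⟩ := hq (R + 1)
  obtain ⟨hq₂p, hq₂ne, hq₂o⟩ := hq (R + 2)
  rw [← hq₁] at hq₁p hq₁ne hq₁o
  rw [← hq₂] at hq₂p hq₂ne hq₂o
  have hne : q₁ ≠ q₂ := fun h => by
    have := hinj h; omega
  have hcop : Nat.Coprime q₁ q₂ := (Nat.coprime_primes hq₁p hq₂p).mpr hne
  have : Fact q₁.Prime := Fact.mk hq₁p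
  have : Fact q₂.Prime := Fact.mk hq₂p
  -- units of `a`
  have hu₁ : IsUnit (a : ZMod q₁) := by
    apply IsOfFinOrder.isUnit
    rw [← orderOf_pos_iff, hq₁o]; exact pow_pos hp.pos _
  have hu₂ : IsUnit (a : ZMod q₂) := by
    apply IsOfFinOrder.isUnit
    rw [← orderOf_pos_iff, hq₂o]; exact pow_pos hp.pos _
  set u₁ : (ZMod q₁)ˣ := hu₁.unit with hu₁def
  set u₂ : (ZMod q₂)ˣ := hu₂.unit with hu₂def
  have ho₁ : orderOf u₁ = p ^ (R + 1 + 1 + 1) := by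
    rw [← orderOf_units, hu₁def, IsUnit.unit_spec, hq₁o]
  have ho₂ : orderOf u₂ = p ^ (R + 2 + 1 + 1) := by
    rw [← orderOf_units, hu₂def, IsUnit.unit_spec, hq₂o]
  -- Chinese remainder theorem on units
  let e : ZMod (q₁ * q₂) ≃+* ZMod q₁ × ZMod q₂ := ZMod.chineseRemainder hcop
  let E : (ZMod (q₁ * q₂))ˣ ≃* (ZMod q₁)ˣ × (ZMod q₂)ˣ :=
    (Units.mapEquiv e.toMulEquiv).trans MulEquiv.prodUnits
  have hE₁ : ∀ x : (ZMod (q₁ * q₂))ˣ,
      (((E x).1 : (ZMod q₁)ˣ) : ZMod q₁) = (e (x : ZMod (q₁ * q₂))).1 := fun x => rfl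
  have hE₂ : ∀ x : (ZMod (q₁ * q₂))ˣ,
      (((E x).2 : (ZMod q₂)ˣ) : ZMod q₂) = (e (x : ZMod (q₁ * q₂))).2 := fun x => rfl
  have hpp : ∀ k : ℕ, p ∣ p ^ (k + 1) := fun k => dvd_pow_self _ (Nat.succ_ne_zero k)
  -- orders of the two units
  have hoτ : orderOf (E.symm (u₁, (1 : (ZMod q₂)ˣ))) = p ^ (R + 1 + 1 + 1) := by
    rw [← ho₁, MulEquiv.orderOf_eq E.symm, Prod.orderOf_mk, orderOf_one, Nat.lcm_one_right]
  have hoa : p ∣ orderOf (E.symm (u₁, u₂)) := by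
    rw [MulEquiv.orderOf_eq E.symm, Prod.orderOf_mk, ho₁]
    exact (hpp _).trans (Nat.dvd_lcm_left _ _)
  refine ⟨q₁, q₂, E.symm (u₁, 1), E.symm (u₁, u₂), hq₁p, hq₂p, hne, ?_, ?_, ?_, hoa, ?_⟩
  · -- coprimality
    have h1 : ∀ {q k : ℕ}, q.Prime → q ≠ p → ¬ q ∣ N → orderOf (a : ZMod q) = p ^ k →
        Nat.Coprime q (N * p * a) := by
      intro q k hqp hqne hqN hqo
      have hqa : ¬ q ∣ a := al_not_dvd_of_orderOf hqp (pow_pos hp.pos k) hqo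
      have hqpp : ¬ q ∣ p := fun h => hqne ((Nat.prime_dvd_prime_iff_eq hqp hp).mp h)
      refine (Nat.Prime.coprime_iff_not_dvd hqp).mpr ?_
      intro h
      rcases (Nat.Prime.dvd_mul hqp).mp h with h | h
      · rcases (Nat.Prime.dvd_mul hqp).mp h with h | h
        · exact hqN h
        · exact hqpp h
      · exact hqa h
    exact Nat.Coprime.mul_left (h1 hq₁p hq₁ne (hnd _ (by omega)) hq₁o)
      (h1 hq₂p hq₂ne (hnd _ (by omega)) hq₂o)
  · -- the unit `ua` is `a`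
    apply e.injective
    have hx : E (E.symm (u₁, u₂)) = (u₁, u₂) := E.apply_symm_apply _
    refine Prod.ext ?_ ?_
    · rw [← hE₁, hx, map_natCast]
      simp [hu₁def]
    · rw [← hE₂, hx, map_natCast]
      simp [hu₂def]
  · rw [hoτ]; exact hpp _
  · intro i j hij
    have h := congrArg E hij
    rw [map_mul, map_zpow, map_zpow, E.apply_symm_apply, E.apply_symm_apply, map_one] at h
    have h1 : u₁ ^ i * u₁ ^ j = 1 := by
      have := congrArg Prod.fst h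
      simpa using this
    have h2 : u₂ ^ j = 1 := by
      have := congrArg Prod.snd h
      simpa using this
    have hj : ((p ^ (R + 2 + 1 + 1) : ℕ) : ℤ) ∣ j := by
      rw [← ho₂]; exact orderOf_dvd_iff_zpow_eq_one.mpr h2
    have hj' : ((p ^ (R + 1 + 1 + 1) : ℕ) : ℤ) ∣ j := by
      refine dvd_trans ?_ hj
      exact_mod_cast pow_dvd_pow p (by omega)
    have h3 : u₁ ^ j = 1 := by
      rw [← ho₁] at hj'; exact orderOf_dvd_iff_zpow_eq_one.mp hj'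
    rw [h3, mul_one] at h1
    constructor
    · apply E.injective
      rw [map_zpow, E.apply_symm_apply, map_one]
      exact Prod.ext (by simpa using h1) (by simp)
    · apply E.injective
      rw [map_zpow, E.apply_symm_apply, map_one]
      exact Prod.ext (by simpa using h3) (by simpa using h2)

/-- one-prime Artin lemma, the form used below: `m > 1` prime to `N`, `p` and `a`, and `τ` such that
for EVERY unit `u` of `ZMod m` with value `a`: `τ ^ x * u ^ y = 1 → p ∣ x ∧ p ∣ y`. -/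
theorem cxa_artin_one {p : ℕ} (hp : p.Prime) {a : ℕ} (ha : 2 ≤ a) {N : ℕ} (hN : N ≠ 0) :
    ∃ m : ℕ, 1 < m ∧ m.Coprime N ∧ m.Coprime p ∧ m.Coprime a ∧
      ∃ τ : (ZMod m)ˣ, ∀ u : (ZMod m)ˣ, (u : ZMod m) = (a : ZMod m) →
        ∀ x y : ℤ, τ ^ x * u ^ y = 1 → (p : ℤ) ∣ x ∧ (p : ℤ) ∣ y := by
  obtain ⟨q₁, q₂, τ, ua, h1, h2, -, hcop, hua, hτo, hao, h⟩ := cxa_artin_lemma hp ha hN
  refine ⟨q₁ * q₂, ?_, ?_, ?_, ?_, τ, ?_⟩
  · have := h1.two_le
    have := h2.two_le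
    nlinarith
  · exact Nat.Coprime.coprime_dvd_right ⟨p * a, by ring⟩ hcop
  · exact Nat.Coprime.coprime_dvd_right ⟨N * a, by ring⟩ hcop
  · exact Nat.Coprime.coprime_dvd_right ⟨N * p, by ring⟩ hcop
  · intro u hu x y hxy
    have huu : u = ua := Units.ext (hu.trans hua.symm)
    subst huu
    obtain ⟨hi, hj⟩ := h x y hxy
    constructor
    · exact dvd_trans (by exact_mod_cast hτo) (orderOf_dvd_iff_zpow_eq_one.mpr hi)
    · exact dvd_trans (by exact_mod_cast hao) (orderOf_dvd_iff_zpow_eq_one.mpr hj)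

/-- **CX1**: two-prime form of Artin's lemma (every prime `p`). -/
theorem cx_artin_two (p : ℕ) [Fact p.Prime] (a₁ a₂ N : ℕ) (h₁ : 2 ≤ a₁) (h₂ : 2 ≤ a₂)
    (hN : N ≠ 0) :
    ∃ m : ℕ, 1 < m ∧ m.Coprime N ∧ m.Coprime a₁ ∧ m.Coprime a₂ ∧
      ∃ τ : (ZMod m)ˣ, ∀ a : ℕ, a = a₁ ∨ a = a₂ → ∀ u : (ZMod m)ˣ, (u : ZMod m) = (a : ZMod m) →
        ∀ x y : ℤ, τ ^ x * u ^ y = 1 → (p : ℤ) ∣ x ∧ (p : ℤ) ∣ y := by
  have hp : p.Prime := Fact.out
  have hN1 : N * a₂ ≠ 0 := Nat.mul_ne_zero hN (by omega)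
  obtain ⟨m₁, hm₁, hm₁N, -, hm₁a, τ₁, hτ₁⟩ := cxa_artin_one hp h₁ hN1
  have hN2 : N * a₁ * m₁ ≠ 0 := Nat.mul_ne_zero (Nat.mul_ne_zero hN (by omega)) (by omega)
  obtain ⟨m₂, hm₂, hm₂N, -, hm₂a, τ₂, hτ₂⟩ := cxa_artin_one hp h₂ hN2
  have hcop : Nat.Coprime m₁ m₂ :=
    (Nat.Coprime.coprime_dvd_right ⟨N * a₁, by ring⟩ hm₂N).symm
  -- Chinese remainder theorem on units
  let e : ZMod (m₁ * m₂) ≃+* ZMod m₁ × ZMod m₂ := ZMod.chineseRemainder hcop
  let E : (ZMod (m₁ * m₂))ˣ ≃* (ZMod m₁)ˣ × (ZMod m₂)ˣ :=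
    (Units.mapEquiv e.toMulEquiv).trans MulEquiv.prodUnits
  have hE₁ : ∀ x : (ZMod (m₁ * m₂))ˣ,
      (((E x).1 : (ZMod m₁)ˣ) : ZMod m₁) = (e (x : ZMod (m₁ * m₂))).1 := fun x => rfl
  have hE₂ : ∀ x : (ZMod (m₁ * m₂))ˣ,
      (((E x).2 : (ZMod m₂)ˣ) : ZMod m₂) = (e (x : ZMod (m₁ * m₂))).2 := fun x => rfl
  refine ⟨m₁ * m₂, by nlinarith, ?_, ?_, ?_, E.symm (τ₁, τ₂), ?_⟩
  · exact Nat.Coprime.mul_left (Nat.Coprime.coprime_dvd_right ⟨a₂, rfl⟩ hm₁N)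
      (Nat.Coprime.coprime_dvd_right ⟨a₁ * m₁, by ring⟩ hm₂N)
  · exact Nat.Coprime.mul_left hm₁a
      (Nat.Coprime.coprime_dvd_right ⟨N * m₁, by ring⟩ hm₂N)
  · exact Nat.Coprime.mul_left (Nat.Coprime.coprime_dvd_right ⟨N, by ring⟩ hm₁N) hm₂a
  · intro a ha u hu x y hxy
    have h := congrArg E hxy
    rw [map_mul, map_zpow, map_zpow, E.apply_symm_apply, map_one] at h
    rcases ha with rfl | rfl
    · have h1 : τ₁ ^ x * (E u).1 ^ y = 1 := by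
        have := congrArg Prod.fst h
        simpa using this
      refine hτ₁ (E u).1 ?_ x y h1
      rw [hE₁, hu, map_natCast]
      rfl
    · have h2 : τ₂ ^ x * (E u).2 ^ y = 1 := by
        have := congrArg Prod.snd h
        simpa using this
      refine hτ₂ (E u).2 ?_ x y h2
      rw [hE₂, hu, map_natCast]
      rfl

end Fermat.Agent.S14x
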