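/-
S14 project, module CROSS, row X2 (helper33): Frobenius elements in `Ω = L(ζ_m)` over `K`,
for `L/K` an everywhere unramified cyclic extension of degree `p`.  Prefix `cf_`.

* `cf_frob_apply_root`   : `frob K Ω v ζ = ζ ^ N v` for `ζ ^ m = 1`, `m ∉ v`.
* `cf_frob_restrict`     : `frob K Ω v` restricts to `frob K L v` on `L`.
* `cf_inertia_eq_bot`    : primes of `Ω` not dividing `m` have trivial inertia group over `K`.
* `cf_ramificationIdx_eq_one` : ... hence `e = 1`.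
* `cf_degree_one`        : a subfield `F` of `Ω` fixed by `frob K Ω v` has a prime `W` over `v`
                           with `e = f = 1`, and `dvNorm K F [W] = [v]`.
-/
import Fermat.Agent.S14x.Artin

set_option autoImplicit false
set_option linter.unusedSectionVars false

namespace Fermat.Agent.S14x

open NumberField IsDedekindDomain
open scoped Pointwise

/-! ### generalities -/

/-- two `m`-th roots of unity which are congruent modulo an ideal not containing `m` are equal. -/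
theorem cf_root_eq_of_sub_mem {S : Type*} [CommRing S] [IsDomain S] (Q : Ideal S) {m : ℕ}
    (hm : (m : S) ∉ Q) {a b : S} (ha : a ^ m = 1) (hb : b ^ m = 1) (hab : a - b ∈ Q) : a = b := by
  have hm0 : m ≠ 0 := by
    rintro rfl
    exact hm (by simp)
  obtain ⟨k, rfl⟩ : ∃ k, m = k + 1 := ⟨m - 1, by omega⟩
  have hbb : b * b ^ k = 1 := by rw [← pow_succ', hb]
  by_contra hne
  have hη : (a * b ^ k) ^ (k + 1) = 1 := by
    rw [mul_pow, ha, one_mul, ← pow_mul, mul_comm, pow_mul, hb, one_pow]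
  have hη1 : a * b ^ k ≠ 1 := by
    intro h
    apply hne
    calc a = a * (b * b ^ k) := by rw [hbb, mul_one]
      _ = (a * b ^ k) * b := by ring
      _ = b := by rw [h, one_mul]
  have hdvd := sub_one_dvd_natCast_of_pow_eq_one hη hη1
  have hmem : a * b ^ k - 1 ∈ Q := by
    have : a * b ^ k - 1 = (a - b) * b ^ k := by
      rw [sub_mul, hbb]
    rw [this]
    exact Ideal.mul_mem_right _ _ hab
  exact hm (Q.mem_of_dvd hdvd hmem)

section NoGalois

variable {F M : Type} [Field F] [NumberField F] [Field M] [NumberField M] [Algebra F M]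

/-- `aa_inertiaDeg_eq_one_of_one` without any Galois hypothesis. -/
theorem cf_inertiaDeg_eq_one_of_one (v : Pl F) (w : Pl M) (hw : PlOver F M w v)
    (h1 : ∀ x : 𝓞 M, x - x ^ plNorm v ∈ w.asIdeal) :
    Ideal.inertiaDeg w.asIdeal (𝓞 F) = 1 := by
  classical
  have hLO : w.asIdeal.LiesOver v.asIdeal := ⟨hw.symm⟩
  have hfin : Finite (𝓞 M ⧸ w.asIdeal) := Ideal.finiteQuotientOfFreeOfNeBot _ w.ne_bot
  let _ : Field (𝓞 M ⧸ w.asIdeal) := Ideal.Quotient.field w.asIdeal
  let _ : Fintype (𝓞 M ⧸ w.asIdeal) := Fintype.ofFinite _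
  have hq2 : 2 ≤ plNorm v := by
    have h1 : plNorm v ≠ 0 := by
      rw [plNorm, ne_eq, Ideal.absNorm_eq_zero_iff]
      exact v.ne_bot
    have h2 : plNorm v ≠ 1 := by
      rw [plNorm, ne_eq, Ideal.absNorm_eq_one_iff]
      exact v.isPrime.ne_top
    omega
  have hroot : ∀ y : 𝓞 M ⧸ w.asIdeal, y ^ plNorm v = y := by
    intro y
    obtain ⟨x, rfl⟩ := Ideal.Quotient.mk_surjective y
    rw [← map_pow, eq_comm, Ideal.Quotient.eq]
    exact h1 x
  have hcard : Fintype.card (𝓞 M ⧸ w.asIdeal) ≤ plNorm v := aa_card_le_of_pow_eq hq2 hroot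
  have habs : Ideal.absNorm w.asIdeal ≤ plNorm v := by
    rw [Ideal.absNorm_apply, Submodule.cardQuot_apply, Nat.card_eq_fintype_card]
    exact hcard
  have hpow := Ideal.absNorm_pow_inertiaDeg v.asIdeal w.asIdeal
  rw [← hpow] at habs
  have hpos : 0 < Ideal.inertiaDeg w.asIdeal (𝓞 F) := Ideal.inertiaDeg_pos _ _
  by_contra hne
  have h2 : 2 ≤ Ideal.inertiaDeg w.asIdeal (𝓞 F) := by omega
  have h3 : plNorm v ^ 2 ≤ plNorm v ^ Ideal.inertiaDeg w.asIdeal (𝓞 F) :=
    Nat.pow_le_pow_right (by omega) h2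
  have h4 : plNorm v ^ 2 ≤ plNorm v := h3.trans habs
  nlinarith

end NoGalois

/-! ### the Frobenius of `Ω/K` on roots of unity -/

section Root

variable {K Ω : Type} [Field K] [NumberField K] [Field Ω] [NumberField Ω] [Algebra K Ω]
  [IsGalois K Ω]

theorem cf_natCast_not_mem_of_over (m : ℕ) (v : Pl K) (hv : (m : 𝓞 K) ∉ v.asIdeal) (P : Pl Ω)
    (hP : PlOver K Ω P v) : (m : 𝓞 Ω) ∉ P.asIdeal := by
  intro h
  apply hv
  rw [← hP, Ideal.under_def, Ideal.mem_comap, map_natCast]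
  exact h

/-- the Frobenius at `v` raises the `m`-th roots of unity to the power `N v` (`v ∤ m`). -/
theorem cf_frob_apply_root (m : ℕ) (v : Pl K) (hv : (m : 𝓞 K) ∉ v.asIdeal) (ζ : Ω)
    (hζ : ζ ^ m = 1) : frob K Ω v ζ = ζ ^ plNorm v := by
  have hm0 : m ≠ 0 := by
    rintro rfl
    exact hv (by simp)
  have hint : IsIntegral ℤ ζ :=
    ⟨Polynomial.X ^ m - 1, Polynomial.monic_X_pow_sub_C 1 hm0, by simp [hζ]⟩
  set z : 𝓞 Ω := ⟨ζ, hint⟩ with hz
  have hzζ : algebraMap (𝓞 Ω) Ω z = ζ := rfl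
  have hzm : z ^ m = 1 := by
    apply FaithfulSMul.algebraMap_injective (𝓞 Ω) Ω
    rw [map_pow, map_one, hzζ, hζ]
  have h0 := aa_isArithFrobAt_plAbove (F := K) (M := Ω) v
  have h1 := h0.apply_of_pow_eq_one hzm
    (cf_natCast_not_mem_of_over m v hv _ (plAbove_over K Ω v))
  rw [plAbove_over K Ω v, aa_card_quot] at h1
  have h2 := congrArg (algebraMap (𝓞 Ω) Ω) h1
  rw [map_pow, hzζ] at h2
  exact h2

end Root

/-! ### restriction to `L` -/

section Restrict

variable {p : ℕ} [Fact p.Prime]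
variable {K L Ω : Type} [Field K] [NumberField K] [Field L] [NumberField L] [Field Ω]
  [NumberField Ω] [Algebra K L] [Algebra L Ω] [Algebra K Ω] [IsScalarTower K L Ω]
  [IsGalois K L] [IsGalois K Ω] {g : L ≃ₐ[K] L}

theorem cf_plOver_under (v : Pl K) (P : Pl Ω) (hP : PlOver K Ω P v) :
    PlOver K L (plUnder L Ω P) v := by
  change ((P.asIdeal.under (𝓞 L)).under (𝓞 K)) = v.asIdeal
  rw [Ideal.under_under]
  exact hP

/-- the action of the restriction on integers -/
theorem cf_restrict_smul (σ : Ω ≃ₐ[K] Ω) (y : 𝓞 L) :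
    algebraMap (𝓞 L) (𝓞 Ω) (σ.restrictNormal L • y) = σ • algebraMap (𝓞 L) (𝓞 Ω) y := by
  apply RingOfIntegers.ext
  change algebraMap L Ω ((σ.restrictNormal L) (y : L)) = σ (algebraMap L Ω (y : L))
  exact AlgEquiv.restrictNormal_commutes σ L (y : L)

/-- `frob K Ω v` restricts to `frob K L v`. -/
theorem cf_restrictNormal_frob (h : IsUCyc p K L g) (v : Pl K) :
    (frob K Ω v).restrictNormal L = frob K L v := by
  set P := plAbove K Ω v with hPdef
  have hP : PlOver K Ω P v := plAbove_over K Ω v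
  have h0 := aa_isArithFrobAt_plAbove (F := K) (M := Ω) v
  apply frob_unique h v (plUnder L Ω P) (cf_plOver_under v P hP)
  intro y
  change _ ∈ P.asIdeal.under (𝓞 L)
  rw [Ideal.under_def, Ideal.mem_comap, map_sub, map_pow, cf_restrict_smul]
  have h1 := h0 (algebraMap (𝓞 L) (𝓞 Ω) y)
  rw [hP, aa_card_quot] at h1
  exact h1

theorem cf_frob_restrict (h : IsUCyc p K L g) (v : Pl K) (x : L) :
    frob K Ω v (algebraMap L Ω x) = algebraMap L Ω (frob K L v x) := by
  rw [← cf_restrictNormal_frob (Ω := Ω) h v]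
  exact (AlgEquiv.restrictNormal_commutes (frob K Ω v) L x).symm

/-! ### primes of `Ω = L(ζ_m)` not dividing `m` are unramified over `K` -/

variable (m : ℕ) [NeZero m] [IsCyclotomicExtension {m} L Ω]

/-- an automorphism of `Ω/K` which is trivial on `L` and on one primitive `m`-th root of unity
is trivial. -/
theorem cf_eq_one_of_fix (σ : Ω ≃ₐ[K] Ω) (hL : ∀ x : L, σ (algebraMap L Ω x) = algebraMap L Ω x)
    {ζ : Ω} (hζ : IsPrimitiveRoot ζ m) (hσζ : σ ζ = ζ) : σ = 1 := by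
  let σ' : Ω →ₐ[L] Ω := { (σ : Ω →+* Ω) with commutes' := hL }
  have htop : Algebra.adjoin L {ζ} = ⊤ :=
    IsCyclotomicExtension.adjoin_primitive_root_eq_top (n := m) hζ
  have h1 : σ' = AlgHom.id L Ω := by
    apply AlgHom.ext_of_adjoin_eq_top htop
    intro x hx
    rw [Set.mem_singleton_iff] at hx
    subst hx
    exact hσζ
  ext x
  exact congrArg (fun f : Ω →ₐ[L] Ω => f x) h1

theorem cf_inertia_eq_bot (h : IsUCyc p K L g) (P : Pl Ω) (hP : (m : 𝓞 Ω) ∉ P.asIdeal) :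
    P.asIdeal.inertia (Ω ≃ₐ[K] Ω) = ⊥ := by
  rw [eq_bot_iff]
  intro σ hσ
  rw [Subgroup.mem_bot]
  -- `σ` is trivial on `L`
  have hs : σ.restrictNormal L ∈ (plUnder L Ω P).asIdeal.inertia (L ≃ₐ[K] L) := by
    intro y
    change _ ∈ P.asIdeal.under (𝓞 L)
    rw [Ideal.under_def, Ideal.mem_comap, map_sub, cf_restrict_smul]
    exact hσ _
  rw [aa_inertia_eq_bot h, Subgroup.mem_bot] at hs
  have hL : ∀ x : L, σ (algebraMap L Ω x) = algebraMap L Ω x := by
    intro x
    rw [← AlgEquiv.restrictNormal_commutes σ L x, hs]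
    rfl
  -- `σ` is trivial on a primitive root
  obtain ⟨ζ, hζ⟩ := IsCyclotomicExtension.exists_isPrimitiveRoot L Ω (Set.mem_singleton m)
    (NeZero.ne m)
  have hint : IsIntegral ℤ ζ :=
    ⟨Polynomial.X ^ m - 1, Polynomial.monic_X_pow_sub_C 1 (NeZero.ne m), by simp [hζ.pow_eq_one]⟩
  set z : 𝓞 Ω := ⟨ζ, hint⟩ with hz
  have hzζ : algebraMap (𝓞 Ω) Ω z = ζ := rfl
  have hzm : z ^ m = 1 := by
    apply FaithfulSMul.algebraMap_injective (𝓞 Ω) Ω
    rw [map_pow, map_one, hzζ, hζ.pow_eq_one]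
  have hσz : (σ • z) ^ m = 1 := by
    rw [← smul_pow', hzm, smul_one]
  have h1 : σ • z = z := cf_root_eq_of_sub_mem P.asIdeal hP hσz hzm (hσ z)
  have hσζ : σ ζ = ζ := congrArg (algebraMap (𝓞 Ω) Ω) h1
  exact cf_eq_one_of_fix m σ hL hζ hσζ

theorem cf_ramificationIdx_eq_one (h : IsUCyc p K L g) (P : Pl Ω)
    (hP : (m : 𝓞 Ω) ∉ P.asIdeal) : Ideal.ramificationIdx P.asIdeal (𝓞 K) = 1 := by
  have : P.asIdeal.LiesOver (plUnder K Ω P).asIdeal := ⟨rfl⟩
  have h1 := Ideal.card_inertia_eq_ramificationIdxIn (G := Ω ≃ₐ[K] Ω) (plUnder K Ω P).asIdeal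
    P.asIdeal
  rw [Ideal.ramificationIdxIn_eq_ramificationIdx (plUnder K Ω P).asIdeal P.asIdeal
    (Ω ≃ₐ[K] Ω), cf_inertia_eq_bot m h P hP] at h1
  rw [← h1]
  simp

end Restrict

/-! ### the degree one prime of a field fixed by the Frobenius -/

section DegreeOne

variable {p : ℕ} [Fact p.Prime]
variable {K L Ω : Type} [Field K] [NumberField K] [Field L] [NumberField L] [Field Ω]
  [NumberField Ω] [Algebra K L] [Algebra L Ω] [Algebra K Ω] [IsScalarTower K L Ω]
  [IsGalois K L] [IsGalois K Ω] {g : L ≃ₐ[K] L}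
variable {F : Type} [Field F] [NumberField F] [Algebra K F] [Algebra F Ω] [IsScalarTower K F Ω]

/-- the prime of `F` below the chosen prime of `Ω` above `v`. -/
noncomputable def cf_W (K Ω F : Type) [Field K] [NumberField K] [Field Ω] [NumberField Ω]
    [Algebra K Ω] [Field F] [NumberField F] [Algebra F Ω] (v : Pl K) : Pl F :=
  plUnder F Ω (plAbove K Ω v)

theorem cf_W_over (v : Pl K) : PlOver K F (cf_W K Ω F v) v := by
  change (((plAbove K Ω v).asIdeal.under (𝓞 F)).under (𝓞 K)) = v.asIdeal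
  rw [Ideal.under_under]
  exact plAbove_over K Ω v

theorem cf_plUnder_W (v : Pl K) : plUnder K F (cf_W K Ω F v) = v :=
  HeightOneSpectrum.ext (cf_W_over (Ω := Ω) (F := F) v)

theorem cf_W_inertiaDeg (v : Pl K)
    (hF : ∀ x : F, frob K Ω v (algebraMap F Ω x) = algebraMap F Ω x) :
    Ideal.inertiaDeg (cf_W K Ω F v).asIdeal (𝓞 K) = 1 := by
  apply cf_inertiaDeg_eq_one_of_one v (cf_W K Ω F v) (cf_W_over (Ω := Ω) (F := F) v)
  intro x
  change _ ∈ (plAbove K Ω v).asIdeal.under (𝓞 F)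
  rw [Ideal.under_def, Ideal.mem_comap, map_sub, map_pow]
  have h0 := aa_isArithFrobAt_plAbove (F := K) (M := Ω) v (algebraMap (𝓞 F) (𝓞 Ω) x)
  rw [plAbove_over K Ω v, aa_card_quot] at h0
  have h1 : (MulSemiringAction.toAlgHom (𝓞 K) (𝓞 Ω) (frob K Ω v)) (algebraMap (𝓞 F) (𝓞 Ω) x)
      = algebraMap (𝓞 F) (𝓞 Ω) x := by
    apply RingOfIntegers.ext
    exact hF (x : F)
  rw [h1] at h0
  exact h0

variable (m : ℕ) [NeZero m] [IsCyclotomicExtension {m} L Ω]

theorem cf_W_ramificationIdx (h : IsUCyc p K L g) (v : Pl K) (hv : (m : 𝓞 K) ∉ v.asIdeal) :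
    Ideal.ramificationIdx (cf_W K Ω F v).asIdeal (𝓞 K) = 1 := by
  have hP := cf_ramificationIdx_eq_one m h (plAbove K Ω v)
    (cf_natCast_not_mem_of_over m v hv _ (plAbove_over K Ω v))
  have : (plAbove K Ω v).asIdeal.LiesOver (cf_W K Ω F v).asIdeal := ⟨rfl⟩
  have h1 := Ideal.ramificationIdx_tower (R := 𝓞 K) (cf_W K Ω F v).asIdeal
    (plAbove K Ω v).asIdeal
  rw [hP] at h1
  exact Nat.eq_one_of_mul_eq_one_right h1.symm

/-- **the degree one prime**: if `F ⊆ Ω` is fixed by the Frobenius of `v` then the prime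
`W = cf_W K Ω F v` of `F` has `e = f = 1` over `v`, and its norm is `[v]`. -/
theorem cf_degree_one (h : IsUCyc p K L g) (v : Pl K) (hv : (m : 𝓞 K) ∉ v.asIdeal)
    (hF : ∀ x : F, frob K Ω v (algebraMap F Ω x) = algebraMap F Ω x) :
    PlOver K F (cf_W K Ω F v) v ∧
      Ideal.ramificationIdx (cf_W K Ω F v).asIdeal (𝓞 K) = 1 ∧
      Ideal.inertiaDeg (cf_W K Ω F v).asIdeal (𝓞 K) = 1 ∧
      dvNorm K F (Finsupp.single (cf_W K Ω F v) 1) = Finsupp.single v 1 := by
  refine ⟨cf_W_over (Ω := Ω) (F := F) v, cf_W_ramificationIdx m h v hv,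
    cf_W_inertiaDeg v hF, ?_⟩
  rw [dvNorm_single, cf_plUnder_W, cf_W_inertiaDeg v hF]
  simp

end DegreeOne

end Fermat.Agent.S14x
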