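/-
S14 project, module CROSS, row AMBEX of `CrossPlan.lean` (prefix `cax_`, helper20):
Artin's lemma ⇒ the ambient crossing datum `CrossAmb T v₁ v₂`.

`cr_exists_amb` = EXACT statement of `CrossPlan.cr_exists_amb`.
-/
import Fermat.Agent.S14x.CrossAmb0
import Fermat.Agent.S14x.CrossBArtin
import Fermat.Agent.S14x.CrossFrob
import Fermat.Agent.S14x.Artin

set_option autoImplicit false
set_option linter.unusedSectionVars false

namespace Fermat.Agent.S14x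

open NumberField IsDedekindDomain

/-! ### Artin's lemma with `τ` of exact order `p` -/

/-- one-prime Artin lemma, `t` of order `p`: `m > 1` prime to `N`, `p`, `a`, and a unit `t` with
`t ^ p = 1` such that for EVERY unit `u` of `ZMod m` with value `a`:
`t ^ x * u ^ y = 1 → p ∣ x ∧ p ∣ y`. -/
theorem cax_artin_one {p : ℕ} (hp : p.Prime) {a : ℕ} (ha : 2 ≤ a) {N : ℕ} (hN : N ≠ 0) :
    ∃ m : ℕ, 1 < m ∧ m.Coprime N ∧ m.Coprime p ∧ m.Coprime a ∧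
      ∃ t : (ZMod m)ˣ, t ^ p = 1 ∧ ∀ u : (ZMod m)ˣ, (u : ZMod m) = (a : ZMod m) →
        ∀ x y : ℤ, t ^ x * u ^ y = 1 → (p : ℤ) ∣ x ∧ (p : ℤ) ∣ y := by
  obtain ⟨q₁, q₂, τ, ua, h1, h2, -, hcop, hua, hτo, hao, h⟩ := cxa_artin_lemma hp ha hN
  have hm1 : 1 < q₁ * q₂ := by
    have := h1.two_le
    have := h2.two_le
    nlinarith
  have : NeZero (q₁ * q₂) := ⟨by omega⟩
  obtain ⟨k, hk⟩ := hτo
  have hk0 : k ≠ 0 := by
    rintro rfl
    rw [mul_zero] at hk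
    exact (orderOf_pos τ).ne' hk
  refine ⟨q₁ * q₂, hm1, ?_, ?_, ?_, τ ^ k, ?_, ?_⟩
  · exact Nat.Coprime.coprime_dvd_right ⟨p * a, by ring⟩ hcop
  · exact Nat.Coprime.coprime_dvd_right ⟨N * a, by ring⟩ hcop
  · exact Nat.Coprime.coprime_dvd_right ⟨N * p, by ring⟩ hcop
  · rw [← pow_mul, mul_comm k p, ← hk, pow_orderOf_eq_one]
  · intro u hu x y hxy
    have huu : u = ua := Units.ext (hu.trans hua.symm)
    subst huu
    have hxy' : τ ^ ((k : ℤ) * x) * u ^ y = 1 := by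
      rw [zpow_mul, zpow_natCast]
      exact hxy
    obtain ⟨hi, hj⟩ := h _ _ hxy'
    constructor
    · have h3 : ((orderOf τ : ℕ) : ℤ) ∣ (k : ℤ) * x := orderOf_dvd_iff_zpow_eq_one.mpr hi
      rw [hk] at h3
      push_cast at h3
      rw [mul_comm (p : ℤ) (k : ℤ)] at h3
      exact (mul_dvd_mul_iff_left (by exact_mod_cast hk0)).mp h3
    · exact dvd_trans (by exact_mod_cast hao) (orderOf_dvd_iff_zpow_eq_one.mpr hj)

/-- two-prime Artin lemma, `t` of order `p`. -/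
theorem cax_artin_two {p : ℕ} (hp : p.Prime) (a₁ a₂ : ℕ) (h₁ : 2 ≤ a₁) (h₂ : 2 ≤ a₂) :
    ∃ n : ℕ, 1 < n ∧ n.Coprime p ∧ n.Coprime a₁ ∧ n.Coprime a₂ ∧
      ∃ t : (ZMod n)ˣ, t ^ p = 1 ∧ ∀ a : ℕ, a = a₁ ∨ a = a₂ → ∀ u : (ZMod n)ˣ,
        (u : ZMod n) = (a : ZMod n) →
        ∀ x y : ℤ, t ^ x * u ^ y = 1 → (p : ℤ) ∣ x ∧ (p : ℤ) ∣ y := by
  have hN1 : a₂ ≠ 0 := by omega
  obtain ⟨m₁, hm₁, hm₁N, hm₁p, hm₁a, t₁, ht₁p, ht₁⟩ := cax_artin_one hp h₁ hN1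
  have hN2 : a₁ * m₁ ≠ 0 := Nat.mul_ne_zero (by omega) (by omega)
  obtain ⟨m₂, hm₂, hm₂N, hm₂p, hm₂a, t₂, ht₂p, ht₂⟩ := cax_artin_one hp h₂ hN2
  have hcop : Nat.Coprime m₁ m₂ :=
    (Nat.Coprime.coprime_dvd_right ⟨a₁, by ring⟩ hm₂N).symm
  -- Chinese remainder theorem on units
  let e : ZMod (m₁ * m₂) ≃+* ZMod m₁ × ZMod m₂ := ZMod.chineseRemainder hcop
  let E : (ZMod (m₁ * m₂))ˣ ≃* (ZMod m₁)ˣ × (ZMod m₂)ˣ :=
    (Units.mapEquiv e.toMulEquiv).trans MulEquiv.prodUnits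
  have hE₁ : ∀ x : (ZMod (m₁ * m₂))ˣ,
      (((E x).1 : (ZMod m₁)ˣ) : ZMod m₁) = (e (x : ZMod (m₁ * m₂))).1 := fun x => rfl
  have hE₂ : ∀ x : (ZMod (m₁ * m₂))ˣ,
      (((E x).2 : (ZMod m₂)ˣ) : ZMod m₂) = (e (x : ZMod (m₁ * m₂))).2 := fun x => rfl
  refine ⟨m₁ * m₂, by nlinarith, ?_, ?_, ?_, E.symm (t₁, t₂), ?_, ?_⟩
  · exact Nat.Coprime.mul_left hm₁p hm₂p
  · exact Nat.Coprime.mul_left hm₁a (Nat.Coprime.coprime_dvd_right ⟨m₁, rfl⟩ hm₂N)
  · exact Nat.Coprime.mul_left hm₁N hm₂a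
  · apply E.injective
    rw [map_pow, E.apply_symm_apply, map_one]
    exact Prod.ext ht₁p ht₂p
  · intro a ha u hu x y hxy
    have h := congrArg E hxy
    rw [map_mul, map_zpow, map_zpow, E.apply_symm_apply, map_one] at h
    rcases ha with rfl | rfl
    · have h1 : t₁ ^ x * (E u).1 ^ y = 1 := by
        have := congrArg Prod.fst h
        simpa using this
      refine ht₁ (E u).1 ?_ x y h1
      rw [hE₁, hu, map_natCast]
      rfl
    · have h2 : t₂ ^ x * (E u).2 ^ y = 1 := by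
        have := congrArg Prod.snd h
        simpa using this
      refine ht₂ (E u).2 ?_ x y h2
      rw [hE₂, hu, map_natCast]
      rfl

/-! ### auxiliary facts -/

/-- a natural number prime to `N v` is not in `v`. -/
theorem cax_not_mem_of_coprime {F : Type} [Field F] [NumberField F] (v : Pl F) (n : ℕ)
    (h : n.Coprime (plNorm v)) : (n : 𝓞 F) ∉ v.asIdeal := by
  intro hn
  have h1 : ((plNorm v : ℕ) : 𝓞 F) ∈ v.asIdeal := Ideal.absNorm_mem v.asIdeal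
  have h2 : ((Nat.gcd n (plNorm v) : ℕ) : 𝓞 F) ∈ v.asIdeal := by
    have hb := Nat.gcd_eq_gcd_ab n (plNorm v)
    have h3 : ((Nat.gcd n (plNorm v) : ℕ) : 𝓞 F) =
        (n : 𝓞 F) * ((Nat.gcdA n (plNorm v) : ℤ) : 𝓞 F) +
          ((plNorm v : ℕ) : 𝓞 F) * ((Nat.gcdB n (plNorm v) : ℤ) : 𝓞 F) := by
      have := congrArg (fun z : ℤ => (z : 𝓞 F)) hb
      simpa using this
    rw [h3]
    exact v.asIdeal.add_mem (v.asIdeal.mul_mem_right _ hn) (v.asIdeal.mul_mem_right _ h1)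
  rw [h, Nat.cast_one] at h2
  exact v.isPrime.ne_top ((Ideal.eq_top_iff_one _).mpr h2)

section Amb

variable {p : ℕ} [Fact p.Prime] (T : Tower p) (n : ℕ) [NeZero n]

/-- every element of `Gal(L/K)` has order dividing `p`. -/
theorem cax_pow_p_eq_one (x : T.L ≃ₐ[T.K] T.L) : x ^ p = 1 := by
  have hcard : Nat.card (T.L ≃ₐ[T.K] T.L) = p := aa_card (tower_isUCyc T)
  have h : x ^ Nat.card (T.L ≃ₐ[T.K] T.L) = 1 := pow_card_eq_one'
  rwa [hcard] at h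

theorem cax_zpow_eq_one (x : T.L ≃ₐ[T.K] T.L) (a : ℤ) (ha : (p : ℤ) ∣ a) : x ^ a = 1 := by
  obtain ⟨b, rfl⟩ := ha
  rw [zpow_mul, zpow_natCast, cax_pow_p_eq_one, one_zpow]

/-- the Frobenius of `v ∤ n` in `Ω/K`: restriction and cyclotomic character. -/
theorem cax_frob_res (v : Pl T.K) :
    crRes T n (frob T.K (crΩ T n) v) = frob T.K T.L v :=
  cf_restrictNormal_frob (Ω := crΩ T n) (tower_isUCyc T) v

theorem cax_frob_chi (v : Pl T.K) (hv : (n : 𝓞 T.K) ∉ v.asIdeal) :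
    ((crChi T n (frob T.K (crΩ T n) v) : (ZMod n)ˣ) : ZMod n) = (plNorm v : ZMod n) := by
  have hz := crZeta_spec T n
  have h1 := cf_frob_apply_root n v hv (crZeta T n) hz.pow_eq_one
  have h2 := crChi_spec T n (frob T.K (crΩ T n) v)
  rw [h1] at h2
  have h3 : crZeta T n ^ plNorm v = crZeta T n ^ ((plNorm v : ℕ) : ZMod n).val :=
    cg_pow_eq_of_zmod hz.pow_eq_one _ _ (by rw [ZMod.natCast_zmod_val])
  rw [h3] at h2
  have h4 := hz.pow_inj (ZMod.val_lt _) (ZMod.val_lt _) h2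
  exact (ZMod.val_injective n h4).symm

end Amb

/-! ### the ambient datum -/

/-- **AMBEX**: Artin's lemma ⇒ ambient crossing datum. -/
theorem cr_exists_amb {p : ℕ} [Fact p.Prime] (hp : p ≠ 2) (T : Tower p) (v₁ v₂ : Pl T.K) :
    Nonempty (CrossAmb T v₁ v₂) := by
  have hpp : p.Prime := Fact.out
  obtain ⟨n, hn1, hnp, hna₁, hna₂, t, htp, hind⟩ :=
    cax_artin_two hpp (plNorm v₁) (plNorm v₂) (aa_two_le_plNorm v₁) (aa_two_le_plNorm v₂)
  have : NeZero n := ⟨by omega⟩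
  have hv₁ : (n : 𝓞 T.K) ∉ v₁.asIdeal := cax_not_mem_of_coprime v₁ n hna₁
  have hv₂ : (n : 𝓞 T.K) ∉ v₂.asIdeal := cax_not_mem_of_coprime v₂ n hna₂
  obtain ⟨s, hsres, hschi⟩ := cr_exists_res_chi T n hp hnp T.g t
  have hsp : s ^ p = 1 := by
    apply cr_res_chi_injective T n
    · rw [map_pow, map_one, hsres, cax_pow_p_eq_one]
    · rw [map_pow, map_one, hschi, htp]
  -- independence
  have key : ∀ (v : Pl T.K), (n : 𝓞 T.K) ∉ v.asIdeal → (plNorm v = plNorm v₁ ∨ plNorm v = plNorm v₂) →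
      ∀ a b : ℤ, crChi T n (s ^ a * frob T.K (crΩ T n) v ^ b) = 1 →
        crRes T n (s ^ a * frob T.K (crΩ T n) v ^ b) = 1 := by
    intro v hv hor a b hab
    rw [map_mul, map_zpow, map_zpow, hschi] at hab
    obtain ⟨ha, hb⟩ := hind (plNorm v) hor _ (cax_frob_chi T n v hv) a b hab
    rw [map_mul, map_zpow, map_zpow, cax_zpow_eq_one T _ a ha, cax_zpow_eq_one T _ b hb, one_mul]
  exact ⟨{
    n := n
    coprime₁ := hv₁
    coprime₂ := hv₂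
    s := s
    σ₁ := frob T.K (crΩ T n) v₁
    σ₂ := frob T.K (crΩ T n) v₂
    P₁ := plAbove T.K (crΩ T n) v₁
    P₂ := plAbove T.K (crΩ T n) v₂
    res_s := hsres
    s_pow := hsp
    P₁_over := plAbove_over T.K (crΩ T n) v₁
    P₂_over := plAbove_over T.K (crΩ T n) v₂
    frob₁ := aa_isArithFrobAt_plAbove v₁
    frob₂ := aa_isArithFrobAt_plAbove v₂
    ind₁ := key v₁ hv₁ (Or.inl rfl)
    ind₂ := key v₂ hv₂ (Or.inr rfl) }⟩

end Fermat.Agent.S14x
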