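/-
S14 project, module CROSS, row FROB (helper32; prefix `cfx_`): the Frobenius element of
`Γ = Gal(L(ζ_n)/K)` at a prime `v ∤ n`, in the exact shape of `CrossPlan.cr_exists_frob`:
a prime `P` of `Ω = crΩ T n` over `v`, an arithmetic Frobenius `σ` at `P` with
`crRes σ = frob K L v` and `crChi σ = N v mod n`.
Built on helper33's `CrossFrob.lean` (`cf_restrictNormal_frob`, `cf_frob_apply_root`).  sorry-free.
-/
import Fermat.Agent.S14x.CrossFrob
import Fermat.Agent.S14x.CrossAmbient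

set_option autoImplicit false

namespace Fermat.Agent.S14x

open NumberField IsDedekindDomain

section

variable {p : ℕ} [Fact p.Prime] (T : Tower p) (n : ℕ) [NeZero n]

/-- `crRes` of the Frobenius of `Ω/K` is the Frobenius of `L/K`. -/
theorem cfx_crRes_frob (v : Pl T.K) :
    crRes T n (frob T.K (crΩ T n) v) = frob T.K T.L v :=
  cf_restrictNormal_frob (Ω := crΩ T n) (tower_isUCyc T) v

/-- a unit mod `n` is determined by its action on a primitive `n`-th root of unity. -/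
theorem cfx_natCast_eq_of_pow_eq {R : Type*} [CommRing R] {ζ : R} {n : ℕ} [NeZero n]
    (hζ : IsPrimitiveRoot ζ n) {a b : ℕ} (h : ζ ^ a = ζ ^ b) : (a : ZMod n) = (b : ZMod n) := by
  rw [ZMod.natCast_eq_natCast_iff]
  have hfin : IsOfFinOrder ζ := isOfFinOrder_iff_pow_eq_one.2 ⟨n, NeZero.pos n, hζ.pow_eq_one⟩
  have h1 := hfin.pow_eq_pow_iff_modEq.1 h
  rwa [← hζ.eq_orderOf] at h1

omit [Fact p.Prime] in
/-- `crChi` of the Frobenius at `v ∤ n` is `N v mod n`. -/
theorem cfx_crChi_frob (v : Pl T.K) (hv : (n : 𝓞 T.K) ∉ v.asIdeal) :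
    ((crChi T n (frob T.K (crΩ T n) v) : (ZMod n)ˣ) : ZMod n) = (plNorm v : ZMod n) := by
  have h1 := crChi_spec T n (frob T.K (crΩ T n) v)
  have h2 := cf_frob_apply_root n v hv (crZeta T n) (crZeta_spec T n).pow_eq_one
  rw [h1] at h2
  have h3 := cfx_natCast_eq_of_pow_eq (crZeta_spec T n) h2
  rwa [ZMod.natCast_zmod_val] at h3

/-- FROB: exact statement of `CrossPlan.cr_exists_frob`. -/
theorem cr_exists_frob {p : ℕ} [Fact p.Prime] (T : Tower p) (n : ℕ) [NeZero n] (v : Pl T.K)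
    (hv : (n : 𝓞 T.K) ∉ v.asIdeal) :
    ∃ (P : Pl (crΩ T n)) (σ : crΩ T n ≃ₐ[T.K] crΩ T n), PlOver T.K (crΩ T n) P v ∧
      IsArithFrobAt (𝓞 T.K) σ P.asIdeal ∧ crRes T n σ = frob T.K T.L v ∧
      ((crChi T n σ : (ZMod n)ˣ) : ZMod n) = (plNorm v : ZMod n) :=
  ⟨plAbove T.K (crΩ T n) v, frob T.K (crΩ T n) v, plAbove_over T.K (crΩ T n) v,
    aa_isArithFrobAt_plAbove (F := T.K) (M := crΩ T n) v, cfx_crRes_frob T n v,
    cfx_crChi_frob T n v hv⟩

end

end Fermat.Agent.S14x
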