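/-
S14 project, module CROSS, row AMBEX (helper64, shadow squad; prefix `cax64_`): Artin's lemma
(strong form `cxa_artin_lemma`, twice) + CRT + `cr_exists_res_chi` + `cr_exists_frob` give the
ambient crossing datum `CrossAmb T v₁ v₂` -- statement of `CrossPlan.cr_exists_amb`.
sorry-free.  NEVER edit once landed (add new files).
-/
import Fermat.Agent.S14x.CrossAmb0
import Fermat.Agent.S14x.CrossFrobEx
import Fermat.Agent.S14x.CrossBArtin
import Fermat.Agent.S14x.CrossBNorm2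

set_option autoImplicit false

namespace Fermat.Agent.S14x

open NumberField IsDedekindDomain

/-- from a strongly independent pair `(τ, u)` with `p ∣ ord τ`, `p ∣ ord u` to an element `τ'` of
order dividing `p` which is still independent of `u` in the divisibility form. -/
theorem cax64_indep_pow {G : Type*} [Group G] [Finite G] {p : ℕ} (τ u : G)
    (hτ : p ∣ orderOf τ) (hu : p ∣ orderOf u)
    (h : ∀ i j : ℤ, τ ^ i * u ^ j = 1 → τ ^ i = 1 ∧ u ^ j = 1) :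
    ∃ τ' : G, τ' ^ p = 1 ∧ ∀ x y : ℤ, τ' ^ x * u ^ y = 1 → (p : ℤ) ∣ x ∧ (p : ℤ) ∣ y := by
  obtain ⟨k, hk⟩ := hτ
  have ho : 0 < orderOf τ := orderOf_pos τ
  have hk0 : k ≠ 0 := by
    rintro rfl
    rw [mul_zero] at hk
    omega
  refine ⟨τ ^ k, ?_, ?_⟩
  · rw [← pow_mul, mul_comm, ← hk, pow_orderOf_eq_one]
  · intro x y hxy
    have h1 : τ ^ ((k : ℤ) * x) * u ^ y = 1 := by
      rw [zpow_mul, zpow_natCast]
      exact hxy
    obtain ⟨h2, h3⟩ := h _ _ h1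
    constructor
    · have h4 : ((orderOf τ : ℕ) : ℤ) ∣ (k : ℤ) * x := orderOf_dvd_iff_zpow_eq_one.mpr h2
      rw [hk] at h4
      push_cast at h4
      have hk' : (k : ℤ) ≠ 0 := by exact_mod_cast hk0
      rw [mul_comm (p : ℤ) (k : ℤ)] at h4
      exact (mul_dvd_mul_iff_left hk').mp h4
    · have h4 : ((orderOf u : ℕ) : ℤ) ∣ y := orderOf_dvd_iff_zpow_eq_one.mpr h3
      exact dvd_trans (by exact_mod_cast hu) h4

section Main

variable {p : ℕ} [Fact p.Prime]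

/-- every element of `Gal(L/K)` is killed by `p`-multiples. -/
theorem cax64_zpow_eq_one (T : Tower p) (x : T.L ≃ₐ[T.K] T.L) {b : ℤ} (hb : (p : ℤ) ∣ b) :
    x ^ b = 1 := by
  obtain ⟨c, rfl⟩ := hb
  have h1 : x ^ p = 1 := by
    have := pow_card_eq_one' (G := T.L ≃ₐ[T.K] T.L) (x := x)
    rwa [aa_card (tower_isUCyc T)] at this
  rw [zpow_mul, zpow_natCast, h1, one_zpow]

/-- **AMBEX**: the ambient crossing datum exists (statement of `CrossPlan.cr_exists_amb`). -/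
theorem cax64_exists_amb (hp : p ≠ 2) (T : Tower p) (v₁ v₂ : Pl T.K) :
    Nonempty (CrossAmb T v₁ v₂) := by
  have hpP : p.Prime := Fact.out
  have h₁ : 2 ≤ plNorm v₁ := aa_two_le_plNorm v₁
  have h₂ : 2 ≤ plNorm v₂ := aa_two_le_plNorm v₂
  -- first modulus
  obtain ⟨q₁, q₂, τ₁, u₁, hq₁, hq₂, -, hcop₁, hu₁, hτ₁o, hu₁o, hind₁⟩ :=
    cxa_artin_lemma hpP h₁ (N := plNorm v₂) (by omega)
  have hm₁ : 1 < q₁ * q₂ := by
    have := hq₁.two_le
    have := hq₂.two_le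
    nlinarith
  have hN2 : plNorm v₁ * (q₁ * q₂) ≠ 0 := Nat.mul_ne_zero (by omega) (by omega)
  -- second modulus
  obtain ⟨r₁, r₂, τ₂, u₂, hr₁, hr₂, -, hcop₂, hu₂, hτ₂o, hu₂o, hind₂⟩ :=
    cxa_artin_lemma hpP h₂ (N := plNorm v₁ * (q₁ * q₂)) hN2
  have hm₂ : 1 < r₁ * r₂ := by
    have := hr₁.two_le
    have := hr₂.two_le
    nlinarith
  generalize hm₁def : q₁ * q₂ = m₁ at *
  generalize hm₂def : r₁ * r₂ = m₂ at *
  have : NeZero m₁ := ⟨by omega⟩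
  have : NeZero m₂ := ⟨by omega⟩
  -- elements of order dividing `p`
  obtain ⟨t₁, ht₁p, ht₁⟩ := cax64_indep_pow τ₁ u₁ hτ₁o hu₁o hind₁
  obtain ⟨t₂, ht₂p, ht₂⟩ := cax64_indep_pow τ₂ u₂ hτ₂o hu₂o hind₂
  -- coprimality bookkeeping
  have hcop : Nat.Coprime m₁ m₂ :=
    (Nat.Coprime.coprime_dvd_right ⟨plNorm v₁ * p * plNorm v₂, by ring⟩ hcop₂).symm
  have hnp : (m₁ * m₂).Coprime p :=
    Nat.Coprime.mul_left (Nat.Coprime.coprime_dvd_right ⟨plNorm v₂ * plNorm v₁, by ring⟩ hcop₁)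
      (Nat.Coprime.coprime_dvd_right ⟨plNorm v₁ * m₁ * plNorm v₂, by ring⟩ hcop₂)
  have hna₁ : (m₁ * m₂).Coprime (plNorm v₁) :=
    Nat.Coprime.mul_left (Nat.Coprime.coprime_dvd_right ⟨plNorm v₂ * p, by ring⟩ hcop₁)
      (Nat.Coprime.coprime_dvd_right ⟨m₁ * p * plNorm v₂, by ring⟩ hcop₂)
  have hna₂ : (m₁ * m₂).Coprime (plNorm v₂) :=
    Nat.Coprime.mul_left (Nat.Coprime.coprime_dvd_right ⟨p * plNorm v₁, by ring⟩ hcop₁)
      (Nat.Coprime.coprime_dvd_right ⟨plNorm v₁ * m₁ * p, by ring⟩ hcop₂)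
  have hn1 : 1 < m₁ * m₂ := by nlinarith
  have : NeZero (m₁ * m₂) := ⟨by omega⟩
  -- Chinese remainder theorem on units
  let e : ZMod (m₁ * m₂) ≃+* ZMod m₁ × ZMod m₂ := ZMod.chineseRemainder hcop
  let E : (ZMod (m₁ * m₂))ˣ ≃* (ZMod m₁)ˣ × (ZMod m₂)ˣ :=
    (Units.mapEquiv e.toMulEquiv).trans MulEquiv.prodUnits
  have hE₁ : ∀ x : (ZMod (m₁ * m₂))ˣ,
      (((E x).1 : (ZMod m₁)ˣ) : ZMod m₁) = (e (x : ZMod (m₁ * m₂))).1 := fun x => rfl
  have hE₂ : ∀ x : (ZMod (m₁ * m₂))ˣ,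
      (((E x).2 : (ZMod m₂)ˣ) : ZMod m₂) = (e (x : ZMod (m₁ * m₂))).2 := fun x => rfl
  set t : (ZMod (m₁ * m₂))ˣ := E.symm (t₁, t₂) with htdef
  have htp : t ^ p = 1 := by
    apply E.injective
    rw [map_pow, htdef, E.apply_symm_apply, map_one, Prod.pow_mk, ht₁p, ht₂p]
    rfl
  -- the element `s`
  obtain ⟨s, hsres, hschi⟩ := cr_exists_res_chi T (m₁ * m₂) hp hnp T.g t
  have hgp : T.g ^ p = 1 := by
    have := pow_orderOf_eq_one T.g
    rwa [aa_orderOf (tower_isUCyc T)] at this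
  have hsp : s ^ p = 1 := by
    apply cr_res_chi_injective T (m₁ * m₂)
    · rw [map_pow, hsres, hgp, map_one]
    · rw [map_pow, hschi, htp, map_one]
  -- Frobenius elements
  have hv₁ : ((m₁ * m₂ : ℕ) : 𝓞 T.K) ∉ v₁.asIdeal := cxn_not_mem_of_coprime v₁ _ hna₁
  have hv₂ : ((m₁ * m₂ : ℕ) : 𝓞 T.K) ∉ v₂.asIdeal := cxn_not_mem_of_coprime v₂ _ hna₂
  obtain ⟨P₁, σ₁, hP₁, hF₁, -, hσ₁chi⟩ := cr_exists_frob T (m₁ * m₂) v₁ hv₁
  obtain ⟨P₂, σ₂, hP₂, hF₂, -, hσ₂chi⟩ := cr_exists_frob T (m₁ * m₂) v₂ hv₂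
  -- the components of the cyclotomic characters
  have hc₁ : (E (crChi T (m₁ * m₂) σ₁)).1 = u₁ := by
    apply Units.ext
    rw [hE₁, hσ₁chi, map_natCast, hu₁]
    rfl
  have hc₂ : (E (crChi T (m₁ * m₂) σ₂)).2 = u₂ := by
    apply Units.ext
    rw [hE₂, hσ₂chi, map_natCast, hu₂]
    rfl
  have hEt : E t = (t₁, t₂) := by rw [htdef, E.apply_symm_apply]
  refine ⟨{ n := m₁ * m₂, coprime₁ := hv₁, coprime₂ := hv₂, s := s, σ₁ := σ₁, σ₂ := σ₂,
            P₁ := P₁, P₂ := P₂, res_s := hsres, s_pow := hsp, P₁_over := hP₁, P₂_over := hP₂,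
            frob₁ := hF₁, frob₂ := hF₂, ind₁ := ?_, ind₂ := ?_ }⟩
  · intro a b hab
    rw [map_mul, map_zpow, map_zpow, hschi] at hab
    have h := congrArg E hab
    rw [map_mul, map_zpow, map_zpow, hEt, map_one] at h
    have h1 : t₁ ^ a * u₁ ^ b = 1 := by
      have := congrArg Prod.fst h
      rw [← hc₁]
      simpa using this
    obtain ⟨ha, hb⟩ := ht₁ a b h1
    rw [map_mul, map_zpow, map_zpow, cax64_zpow_eq_one T _ ha, cax64_zpow_eq_one T _ hb, one_mul]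
  · intro a b hab
    rw [map_mul, map_zpow, map_zpow, hschi] at hab
    have h := congrArg E hab
    rw [map_mul, map_zpow, map_zpow, hEt, map_one] at h
    have h1 : t₂ ^ a * u₂ ^ b = 1 := by
      have := congrArg Prod.snd h
      rw [← hc₂]
      simpa using this
    obtain ⟨ha, hb⟩ := ht₂ a b h1
    rw [map_mul, map_zpow, map_zpow, cax64_zpow_eq_one T _ ha, cax64_zpow_eq_one T _ hb, one_mul]

end Main

end Fermat.Agent.S14x
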