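/-
S14 project, module CROSS, support for AMBEX (`cr_exists_amb`, structure `CrossAmb` needs
`s ^ p = 1`), prefix `cxa_` (helper45): the two-prime Artin lemma with `τ` of EXACT order `p`.

`cxa_artin_two_pow`: same statement as `cx_artin_two` (S14x/CrossBArtin.lean) with the extra
conjunct `τ ^ p = 1`  (replace Artin's `τ` by `τ ^ (ord τ / p)`; `⟨τ'⟩ ⊆ ⟨τ⟩` keeps independence).
Valid for every prime `p` (also `p = 2`).
-/
import Mathlib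
import Fermat.Agent.S14x.CrossBArtin

set_option autoImplicit false

namespace Fermat.Agent.S14x

/-- one-prime Artin lemma with `τ ^ p = 1`. -/
theorem cxa_artin_one_pow {p : ℕ} (hp : p.Prime) {a : ℕ} (ha : 2 ≤ a) {N : ℕ} (hN : N ≠ 0) :
    ∃ m : ℕ, 1 < m ∧ m.Coprime N ∧ m.Coprime p ∧ m.Coprime a ∧
      ∃ τ : (ZMod m)ˣ, τ ^ p = 1 ∧ ∀ u : (ZMod m)ˣ, (u : ZMod m) = (a : ZMod m) →
        ∀ x y : ℤ, τ ^ x * u ^ y = 1 → (p : ℤ) ∣ x ∧ (p : ℤ) ∣ y := by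
  obtain ⟨q₁, q₂, τ, ua, h1, h2, -, hcop, hua, hτo, hao, h⟩ := cxa_artin_lemma hp ha hN
  have : NeZero (q₁ * q₂) := ⟨Nat.mul_ne_zero h1.ne_zero h2.ne_zero⟩
  obtain ⟨k, hk⟩ := hτo
  have hk0 : k ≠ 0 := by
    rintro rfl
    rw [mul_zero] at hk
    exact (orderOf_pos τ).ne' hk
  refine ⟨q₁ * q₂, ?_, ?_, ?_, ?_, τ ^ k, ?_, ?_⟩
  · have := h1.two_le
    have := h2.two_le
    nlinarith
  · exact Nat.Coprime.coprime_dvd_right ⟨p * a, by ring⟩ hcop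
  · exact Nat.Coprime.coprime_dvd_right ⟨N * a, by ring⟩ hcop
  · exact Nat.Coprime.coprime_dvd_right ⟨N * p, by ring⟩ hcop
  · rw [← pow_mul, mul_comm k p, ← hk, pow_orderOf_eq_one]
  · intro u hu x y hxy
    have huu : u = ua := Units.ext (hu.trans hua.symm)
    subst huu
    have hxy' : τ ^ ((k : ℤ) * x) * u ^ y = 1 := by
      rw [zpow_mul, zpow_natCast]
      exact hxy
    obtain ⟨hi, hj⟩ := h _ y hxy'
    constructor
    · have h3 : ((orderOf τ : ℕ) : ℤ) ∣ (k : ℤ) * x := orderOf_dvd_iff_zpow_eq_one.mpr hi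
      rw [hk] at h3
      push_cast at h3
      rw [mul_comm (p : ℤ) (k : ℤ)] at h3
      exact (mul_dvd_mul_iff_left (by exact_mod_cast hk0)).mp h3
    · exact dvd_trans (by exact_mod_cast hao) (orderOf_dvd_iff_zpow_eq_one.mpr hj)

/-- two-prime form of Artin's lemma with `τ` of exact order `p` (every prime `p`). -/
theorem cxa_artin_two_pow (p : ℕ) [Fact p.Prime] (a₁ a₂ N : ℕ) (h₁ : 2 ≤ a₁) (h₂ : 2 ≤ a₂)
    (hN : N ≠ 0) :
    ∃ m : ℕ, 1 < m ∧ m.Coprime N ∧ m.Coprime a₁ ∧ m.Coprime a₂ ∧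
      ∃ τ : (ZMod m)ˣ, τ ^ p = 1 ∧
        ∀ a : ℕ, a = a₁ ∨ a = a₂ → ∀ u : (ZMod m)ˣ, (u : ZMod m) = (a : ZMod m) →
          ∀ x y : ℤ, τ ^ x * u ^ y = 1 → (p : ℤ) ∣ x ∧ (p : ℤ) ∣ y := by
  have hp : p.Prime := Fact.out
  have hN1 : N * a₂ ≠ 0 := Nat.mul_ne_zero hN (by omega)
  obtain ⟨m₁, hm₁, hm₁N, -, hm₁a, τ₁, hτ₁p, hτ₁⟩ := cxa_artin_one_pow hp h₁ hN1
  have hN2 : N * a₁ * m₁ ≠ 0 := Nat.mul_ne_zero (Nat.mul_ne_zero hN (by omega)) (by omega)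
  obtain ⟨m₂, hm₂, hm₂N, -, hm₂a, τ₂, hτ₂p, hτ₂⟩ := cxa_artin_one_pow hp h₂ hN2
  have hcop : Nat.Coprime m₁ m₂ :=
    (Nat.Coprime.coprime_dvd_right ⟨N * a₁, by ring⟩ hm₂N).symm
  -- Chinese remainder theorem on units
  let e : ZMod (m₁ * m₂) ≃+* ZMod m₁ × ZMod m₂ := ZMod.chineseRemainder hcop
  let E : (ZMod (m₁ * m₂))ˣ ≃* (ZMod m₁)ˣ × (ZMod m₂)ˣ :=
    (Units.mapEquiv e.toMulEquiv).trans MulEquiv.prodUnits
  have hE₁ : ∀ x : (ZMod (m₁ * m₂))ˣ,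
      (((E x).1 : (ZMod m₁)ˣ) : ZMod m₁) = (e (x : ZMod (m₁ * m₂))).1 := fun x => rfl
  have hE₂ : ∀ x : (ZMod (m₁ * m₂))ˣ,
      (((E x).2 : (ZMod m₂)ˣ) : ZMod m₂) = (e (x : ZMod (m₁ * m₂))).2 := fun x => rfl
  refine ⟨m₁ * m₂, by nlinarith, ?_, ?_, ?_, E.symm (τ₁, τ₂), ?_, ?_⟩
  · exact Nat.Coprime.mul_left (Nat.Coprime.coprime_dvd_right ⟨a₂, rfl⟩ hm₁N)
      (Nat.Coprime.coprime_dvd_right ⟨a₁ * m₁, by ring⟩ hm₂N)
  · exact Nat.Coprime.mul_left hm₁a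
      (Nat.Coprime.coprime_dvd_right ⟨N * m₁, by ring⟩ hm₂N)
  · exact Nat.Coprime.mul_left (Nat.Coprime.coprime_dvd_right ⟨N, by ring⟩ hm₁N) hm₂a
  · rw [← map_pow, Prod.pow_mk, hτ₁p, hτ₂p]
    exact map_one E.symm
  · intro a ha u hu x y hxy
    have h := congrArg E hxy
    rw [map_mul, map_zpow, map_zpow, E.apply_symm_apply, map_one] at h
    rcases ha with rfl | rfl
    · have h1 : τ₁ ^ x * (E u).1 ^ y = 1 := by
        have := congrArg Prod.fst h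
        simpa using this
      refine hτ₁ (E u).1 ?_ x y h1
      rw [hE₁, hu, map_natCast]
      rfl
    · have h2 : τ₂ ^ x * (E u).2 ^ y = 1 := by
        have := congrArg Prod.snd h
        simpa using this
      refine hτ₂ (E u).2 ?_ x y h2
      rw [hE₂, hu, map_natCast]
      rfl

end Fermat.Agent.S14x
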