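/-
S14 project, module CROSS (Artin's cyclotomic crossing): shared REAL definitions (helper65).
No sorry here.  Sub-spec: `Fermat/Agent/S14x/CrossSpecB.lean` (sorry-only, never import).
Setting: `T : Tower p` (`K = T.K ⊂ L = T.L`), `Ω` an abelian Galois extension of `K` containing `L`
(in the application `Ω = CyclotomicField m L = L(ζ_m)`), `E` an intermediate field of `Ω/K`.
-/
import Fermat.Agent.S14x.Defs

set_option autoImplicit false

namespace Fermat.Agent.S14x

open NumberField IsDedekindDomain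

section CrossDefs

variable {p : ℕ} (T : Tower p)
variable (Ω : Type) [Field Ω] [Algebra T.K Ω] [Algebra T.L Ω] [IsScalarTower T.K T.L Ω]

/-- the compositum `L·E` inside `Ω`, as an intermediate field of `Ω/E`. -/
def cxLE (E : IntermediateField T.K Ω) : IntermediateField E Ω :=
  IntermediateField.adjoin E (Set.range (algebraMap T.L Ω))

omit [IsScalarTower T.K T.L Ω] in
theorem cx_algebraMap_mem_LE (E : IntermediateField T.K Ω) (x : T.L) :
    algebraMap T.L Ω x ∈ cxLE T Ω E :=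
  IntermediateField.subset_adjoin _ _ ⟨x, rfl⟩

/-- `L → L·E`. -/
noncomputable instance cxAlgLE (E : IntermediateField T.K Ω) : Algebra T.L (cxLE T Ω E) :=
  ((algebraMap T.L Ω).codRestrict (cxLE T Ω E) (cx_algebraMap_mem_LE T Ω E)).toAlgebra

omit [IsScalarTower T.K T.L Ω] in
theorem cx_coe_algebraMap_LE (E : IntermediateField T.K Ω) (x : T.L) :
    ((algebraMap T.L (cxLE T Ω E) x : cxLE T Ω E) : Ω) = algebraMap T.L Ω x := rfl

instance cxTowerLEΩ (E : IntermediateField T.K Ω) : IsScalarTower T.L (cxLE T Ω E) Ω :=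
  IsScalarTower.of_algebraMap_eq fun _ => rfl

instance cxTowerKLE (E : IntermediateField T.K Ω) : IsScalarTower T.K T.L (cxLE T Ω E) :=
  IsScalarTower.of_algebraMap_eq fun x => Subtype.ext (by
    show ((algebraMap T.K (cxLE T Ω E) x : cxLE T Ω E) : Ω) = algebraMap T.L Ω (algebraMap T.K T.L x)
    rw [← IsScalarTower.algebraMap_apply T.K T.L Ω]
    rfl)

/-- an automorphism of `Ω/K` fixing `E` pointwise, viewed as an automorphism of `Ω/E`. -/
def cxLiftE (E : IntermediateField T.K Ω) (s : Ω ≃ₐ[T.K] Ω) (hsE : ∀ x ∈ E, s x = x) :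
    Ω ≃ₐ[E] Ω :=
  AlgEquiv.ofRingEquiv (f := s.toRingEquiv) fun x => hsE x x.2

omit [Algebra T.L Ω] [IsScalarTower T.K T.L Ω] in
@[simp] theorem cxLiftE_apply (E : IntermediateField T.K Ω) (s : Ω ≃ₐ[T.K] Ω)
    (hsE : ∀ x ∈ E, s x = x) (x : Ω) : cxLiftE T Ω E s hsE x = s x := rfl

/-- the restriction to `L·E` of an automorphism of `Ω/K` fixing `E` pointwise
(`Ω/K` abelian, so `L·E/E` is normal). -/
noncomputable def cxGE [IsAbelianGalois T.K Ω] (E : IntermediateField T.K Ω) (s : Ω ≃ₐ[T.K] Ω)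
    (hsE : ∀ x ∈ E, s x = x) : cxLE T Ω E ≃ₐ[E] cxLE T Ω E :=
  (cxLiftE T Ω E s hsE).restrictNormal (cxLE T Ω E)

omit [IsScalarTower T.K T.L Ω] in
theorem cx_coe_cxGE [IsAbelianGalois T.K Ω] (E : IntermediateField T.K Ω) (s : Ω ≃ₐ[T.K] Ω)
    (hsE : ∀ x ∈ E, s x = x) (y : cxLE T Ω E) :
    ((cxGE T Ω E s hsE y : cxLE T Ω E) : Ω) = s (y : Ω) :=
  AlgEquiv.restrictNormal_commutes (cxLiftE T Ω E s hsE) (cxLE T Ω E) y

/-- the inclusion algebra `E₁ → E₂` for intermediate fields `E₁ ≤ E₂` (NOT an instance). -/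
@[reducible] noncomputable def cxIncAlg {E₁ E₂ : IntermediateField T.K Ω} (h : E₁ ≤ E₂) :
    Algebra E₁ E₂ :=
  (IntermediateField.inclusion h).toRingHom.toAlgebra

end CrossDefs

end Fermat.Agent.S14x
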