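/-
S14 project, module CROSS, leaf CX6 (helper64): base change of the tower to an intermediate field
`E` of `Ω/K` fixed pointwise by an automorphism `s` with `s|L = g`:
`[L·E : E] = p`, the restriction of `s` is compatible with `g`, and `L·E/E` is `IsUCyc`.
Exact statements of `S14x/CrossSpecB.lean` (CX6).
-/
import Fermat.Agent.S14x.CrossDefsB
import Fermat.Agent.S14x.Artin
import Fermat.Agent.S14x.BaseChange

set_option autoImplicit false

namespace Fermat.Agent.S14x

open NumberField IsDedekindDomain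

section BC

variable {p : ℕ} [Fact p.Prime] (T : Tower p)
variable (Ω : Type) [Field Ω] [NumberField Ω] [Algebra T.K Ω] [Algebra T.L Ω]
  [IsScalarTower T.K T.L Ω]
variable [IsAbelianGalois T.K Ω] (E : IntermediateField T.K Ω) (s : Ω ≃ₐ[T.K] Ω)
  (hsE : ∀ x ∈ E, s x = x)
  (hsL : ∀ x : T.L, s (algebraMap T.L Ω x) = algebraMap T.L Ω (T.g x))

/-- restriction `Gal(L·E/E) → Gal(L/K)` -/
noncomputable def cxbRes : (cxLE T Ω E ≃ₐ[E] cxLE T Ω E) →* (T.L ≃ₐ[T.K] T.L) :=
  (AlgEquiv.restrictNormalHom (F := T.K) (K₁ := cxLE T Ω E) T.L).comp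
    (AlgEquiv.restrictScalarsHom T.K)

theorem cxbRes_spec (σ : cxLE T Ω E ≃ₐ[E] cxLE T Ω E) (x : T.L) :
    algebraMap T.L (cxLE T Ω E) (cxbRes T Ω E σ x) = σ (algebraMap T.L (cxLE T Ω E) x) :=
  AlgEquiv.restrictNormal_commutes (σ.restrictScalars T.K) T.L x

theorem cxbRes_injective : Function.Injective (cxbRes T Ω E) := by
  rw [injective_iff_map_eq_one]
  intro σ hσ
  have h1 : ∀ x : T.L, σ (algebraMap T.L (cxLE T Ω E) x) = algebraMap T.L (cxLE T Ω E) x := by
    intro x
    rw [← cxbRes_spec, hσ]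
    rfl
  have h2 : (σ : cxLE T Ω E →ₐ[E] cxLE T Ω E) = AlgHom.id E (cxLE T Ω E) := by
    have h3 : ((cxLE T Ω E).val.comp (σ : cxLE T Ω E →ₐ[E] cxLE T Ω E))
        = (cxLE T Ω E).val.comp (AlgHom.id E (cxLE T Ω E)) := by
      refine IntermediateField.adjoin_algHom_ext E ?_
      rintro _ ⟨x, rfl⟩
      have := congrArg (Subtype.val) (h1 x)
      exact this
    ext y
    have := DFunLike.congr_fun h3 y
    exact this
  ext y
  have := DFunLike.congr_fun h2 y
  simpa using congrArg Subtype.val this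

include hsL in
theorem cx_cxGE_algebraMap (x : T.L) :
    cxGE T Ω E s hsE (algebraMap T.L (cxLE T Ω E) x) = algebraMap T.L (cxLE T Ω E) (T.g x) := by
  apply Subtype.ext
  rw [cx_coe_cxGE, cx_coe_algebraMap_LE, cx_coe_algebraMap_LE, hsL]

include hsL in
theorem cxb_res_cxGE : cxbRes T Ω E (cxGE T Ω E s hsE) = T.g := by
  ext x
  apply (algebraMap T.L (cxLE T Ω E)).injective
  rw [cxbRes_spec, cx_cxGE_algebraMap T Ω E s hsE hsL]

include hsE hsL in
/-- NOTE: `Spec.cx_finrank_LE` of `CrossSpecB.lean` forgot the hypothesis `hsE` (it is false without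
it, e.g. `E = ⊤`); this is the corrected statement. -/
theorem cx_finrank_LE : Module.finrank E (cxLE T Ω E) = p := by
  have hp : p.Prime := Fact.out
  have hcardL : Nat.card (T.L ≃ₐ[T.K] T.L) = p := aa_card (tower_isUCyc T)
  have hdvd : Nat.card (cxLE T Ω E ≃ₐ[E] cxLE T Ω E) ∣ p := by
    have h := Subgroup.card_dvd_of_injective _ (cxbRes_injective T Ω E)
    rwa [hcardL] at h
  have hne : Nat.card (cxLE T Ω E ≃ₐ[E] cxLE T Ω E) ≠ 1 := by
    intro h1
    have : Subsingleton (cxLE T Ω E ≃ₐ[E] cxLE T Ω E) :=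
      (Nat.card_eq_one_iff_unique.mp h1).1
    have h2 : cxGE T Ω E s hsE = 1 := Subsingleton.elim _ _
    have h3 := cxb_res_cxGE T Ω E s hsE hsL
    rw [h2, map_one] at h3
    exact T.g_ne_one h3.symm
  rw [← IsGalois.card_aut_eq_finrank]
  rcases (Nat.dvd_prime hp).mp hdvd with h | h
  · exact absurd h hne
  · exact h

include hsL in
/-- assembled from `cx_finrank_LE`, `cx_cxGE_algebraMap`, `tower_isUCyc`, `isUCyc_baseChange` -/
theorem cx_isUCyc_LE : IsUCyc p E (cxLE T Ω E) (cxGE T Ω E s hsE) :=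
  isUCyc_baseChange (tower_isUCyc T) (cx_cxGE_algebraMap T Ω E s hsE hsL)
    (cx_finrank_LE T Ω E s hsE hsL)

end BC

end Fermat.Agent.S14x
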