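/-
S14 project, module CROSS, leaf CX8 (helper32; prefix `cxc_`).
`E(ζ_m) = Ω` from the Galois correspondence: if no non-trivial element of `Gal(Ω/E)` fixes the
primitive `m`-th root of unity `ζ`, then `Ω` is the `m`-th cyclotomic extension of `E`.

* `cr_isCyclotomicExtension` : generic form (statement of `CrossPlan.cr_isCyclotomicExtension`).
* `cx_isCyclotomicExtension_of_fixed` : tower form (statement of
  `Spec.cx_isCyclotomicExtension_of_fixed`, S14x/CrossSpecB.lean).
sorry-free.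
-/
import Fermat.Agent.S14x.CrossDefsB

set_option autoImplicit false

namespace Fermat.Agent.S14x

open NumberField IsDedekindDomain

section GAL

variable {F Ω : Type} [Field F] [Field Ω] [Algebra F Ω] [FiniteDimensional F Ω] [IsGalois F Ω]

/-- `F(ζ) = Ω` (as intermediate fields) as soon as no non-trivial element of `Gal(Ω/F)` fixes
`ζ`. -/
theorem cxc_adjoin_simple_eq_top (ζ : Ω) (h : ∀ σ : Ω ≃ₐ[F] Ω, σ ζ = ζ → σ = 1) :
    IntermediateField.adjoin F ({ζ} : Set Ω) = ⊤ := by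
  have h1 : (IntermediateField.adjoin F ({ζ} : Set Ω)).fixingSubgroup = ⊥ := by
    rw [eq_bot_iff]
    intro σ hσ
    rw [Subgroup.mem_bot]
    apply h
    exact (IntermediateField.mem_fixingSubgroup_iff _ σ).1 hσ ζ
      (IntermediateField.mem_adjoin_simple_self F ζ)
  have h2 := IsGalois.fixedField_fixingSubgroup (IntermediateField.adjoin F ({ζ} : Set Ω))
  rw [h1] at h2
  rw [← h2]
  exact IntermediateField.fixedField_bot

/-- the same statement for the `F`-subalgebra generated by `ζ`. -/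
theorem cxc_algebra_adjoin_eq_top (ζ : Ω) (h : ∀ σ : Ω ≃ₐ[F] Ω, σ ζ = ζ → σ = 1) :
    Algebra.adjoin F ({ζ} : Set Ω) = ⊤ := by
  have h1 := cxc_adjoin_simple_eq_top ζ h
  have h2 : (IntermediateField.adjoin F ({ζ} : Set Ω)).toSubalgebra = Algebra.adjoin F {ζ} :=
    IntermediateField.adjoin_simple_toSubalgebra_of_isAlgebraic
      (Algebra.IsAlgebraic.isAlgebraic ζ)
  rw [← h2, h1]
  rfl

/-- `F(ζ) = Ω` as soon as no non-trivial element of `Gal(Ω/F)` fixes the primitive root `ζ`. -/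
theorem cr_isCyclotomicExtension {n : ℕ} [NeZero n] (ζ : Ω) (hζ : IsPrimitiveRoot ζ n)
    (h : ∀ σ : Ω ≃ₐ[F] Ω, σ ζ = ζ → σ = 1) : IsCyclotomicExtension {n} F Ω := by
  rw [IsCyclotomicExtension.iff_singleton]
  refine ⟨⟨ζ, hζ⟩, fun x => ?_⟩
  have h1 : Algebra.adjoin F ({ζ} : Set Ω) ≤ Algebra.adjoin F {b : Ω | b ^ n = 1} :=
    Algebra.adjoin_mono (by
      intro b hb
      rw [Set.mem_singleton_iff] at hb
      rw [hb]
      exact hζ.pow_eq_one)
  apply h1
  rw [cxc_algebra_adjoin_eq_top ζ h]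
  exact Algebra.mem_top

end GAL

/-- an automorphism of `Ω/E` viewed over `F` fixes `E` pointwise. -/
theorem cxc_restrictScalars_fixes {F Ω : Type} [Field F] [Field Ω] [Algebra F Ω]
    (E : IntermediateField F Ω) (σ : Ω ≃ₐ[E] Ω) :
    ∀ x ∈ E, (σ.restrictScalars F) x = x := by
  intro x hx
  exact σ.commutes ⟨x, hx⟩

/-- relative form: `E(ζ) = Ω` for an intermediate field `E` of a finite Galois extension `Ω/F`
as soon as no non-trivial element of `Gal(Ω/F)` fixing `E` pointwise fixes `ζ`. -/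
theorem cxc_isCyclotomicExtension_intermediate {F Ω : Type} [Field F] [Field Ω] [Algebra F Ω]
    [FiniteDimensional F Ω] [IsGalois F Ω] {n : ℕ} [NeZero n] (ζ : Ω)
    (hζ : IsPrimitiveRoot ζ n) (E : IntermediateField F Ω)
    (hE : ∀ σ : Ω ≃ₐ[F] Ω, (∀ x ∈ E, σ x = x) → σ ζ = ζ → σ = 1) :
    IsCyclotomicExtension {n} E Ω := by
  have : IsGalois E Ω := IsGalois.tower_top_of_isGalois F E Ω
  apply cr_isCyclotomicExtension ζ hζ
  intro σ hσ
  have h1 := hE (σ.restrictScalars F) (cxc_restrictScalars_fixes E σ) hσ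
  ext x
  exact DFunLike.congr_fun h1 x

section Tower

variable {p : ℕ} [Fact p.Prime] (T : Tower p)
variable (Ω : Type) [Field Ω] [NumberField Ω] [Algebra T.K Ω] [Algebra T.L Ω]
  [IsScalarTower T.K T.L Ω]

set_option linter.unusedSectionVars false in
theorem cx_isCyclotomicExtension_of_fixed [IsGalois T.K Ω] (m : ℕ) [NeZero m] (ζ : Ω)
    (hζ : IsPrimitiveRoot ζ m) (E : IntermediateField T.K Ω)
    (hE : ∀ σ : Ω ≃ₐ[T.K] Ω, (∀ x ∈ E, σ x = x) → σ ζ = ζ → σ = 1) :
    IsCyclotomicExtension {m} E Ω :=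
  cxc_isCyclotomicExtension_intermediate ζ hζ E hE

end Tower

end Fermat.Agent.S14x
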