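/-
S14 project, CROSS: the pure group-theory leaf of Artin's cyclotomic crossing (helper77).

`Γ` (think `Gal(L(ζ_m)/K)`) embeds in `G × Z` via `π` (restriction to `L`, `G = Gal(L/K)` cyclic of
order `p` generated by `g`) and `χ` (action on `ζ_m`, `Z = (ℤ/m)ˣ`).  For `s, f ∈ Γ` with
`π s = g`, `π f = g ^ d`, `p ∣ ord (χ s)`, `p ∣ ord (χ f)` and `⟨χ s⟩ ∩ ⟨χ f⟩ = 1`, the subgroup
`H = ⟨s, f⟩` meets `ker χ` trivially (so `L(ζ_m) = Fix(H)(ζ_m)`) and maps onto `⟨g⟩`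
(so `L ∩ Fix(H) = K`).  Mathlib only.
-/
import Mathlib

set_option autoImplicit false

namespace Fermat.Agent.S14x

section

variable {Γ G Z : Type*} [Group Γ] [Group G] [CommGroup Z]

/-- two elements whose images under a jointly injective pair `(π, χ)` commute, commute -/
theorem cgp_commute (π : Γ →* G) (χ : Γ →* Z)
    (hinj : ∀ x : Γ, π x = 1 → χ x = 1 → x = 1) (s f : Γ) (h : Commute (π s) (π f)) :
    Commute s f := by
  have h1 : π (s * f * s⁻¹ * f⁻¹) = 1 := by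
    rw [map_mul, map_mul, map_mul, map_inv, map_inv, h.eq]
    group
  have h2 : χ (s * f * s⁻¹ * f⁻¹) = 1 := by
    rw [map_mul, map_mul, map_mul, map_inv, map_inv]
    rw [mul_comm (χ s) (χ f), mul_assoc (χ f), mul_inv_cancel, mul_one, mul_inv_cancel]
  have h3 := hinj _ h1 h2
  have : s * f = f * s := by
    have h4 : s * f * s⁻¹ * f⁻¹ * (f * s) = f * s := by rw [h3, one_mul]
    rw [← h4]
    group
  exact this

/-- elements of `⟨s, f⟩` for commuting `s, f` -/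
theorem cgp_mem_closure_pair {s f : Γ} (hc : Commute s f) {x : Γ}
    (hx : x ∈ Subgroup.closure {s, f}) : ∃ i j : ℤ, x = s ^ i * f ^ j := by
  induction hx using Subgroup.closure_induction with
  | mem y hy =>
    rcases hy with rfl | hy
    · exact ⟨1, 0, by simp⟩
    · rw [Set.mem_singleton_iff] at hy
      subst hy
      exact ⟨0, 1, by simp⟩
  | one => exact ⟨0, 0, by simp⟩
  | mul y z _ _ hy hz =>
    obtain ⟨i, j, rfl⟩ := hy
    obtain ⟨k, l, rfl⟩ := hz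
    refine ⟨i + k, j + l, ?_⟩
    have h1 : Commute (f ^ j) (s ^ k) := (hc.zpow_zpow k j).symm
    calc s ^ i * f ^ j * (s ^ k * f ^ l) = s ^ i * (f ^ j * s ^ k) * f ^ l := by
          simp only [mul_assoc]
      _ = s ^ i * (s ^ k * f ^ j) * f ^ l := by rw [h1.eq]
      _ = s ^ (i + k) * f ^ (j + l) := by
          rw [zpow_add, zpow_add]
          simp only [mul_assoc]
  | inv y _ hy =>
    obtain ⟨i, j, rfl⟩ := hy
    refine ⟨-i, -j, ?_⟩
    have h1 : Commute (s ^ i) (f ^ j) := hc.zpow_zpow i j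
    rw [mul_inv_rev, zpow_neg, zpow_neg]
    exact ((h1.inv_inv).eq).symm

variable (π : Γ →* G) (χ : Γ →* Z) (p : ℕ)

/-- **crossing lemma, group part**: `⟨s, f⟩ ∩ ker χ = 1`. -/
theorem cgp_closure_inf_ker (hinj : ∀ x : Γ, π x = 1 → χ x = 1 → x = 1)
    (g : G) (hg : g ^ p = 1) (s f : Γ) (d : ℤ) (hs : π s = g) (hf : π f = g ^ d)
    (hp1 : p ∣ orderOf (χ s)) (hp2 : p ∣ orderOf (χ f))
    (hdisj : Subgroup.zpowers (χ s) ⊓ Subgroup.zpowers (χ f) = ⊥) :
    Subgroup.closure {s, f} ⊓ χ.ker = ⊥ := by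
  rw [eq_bot_iff]
  rintro x ⟨hxH, hxk⟩
  rw [Subgroup.mem_bot]
  have hc : Commute s f := by
    apply cgp_commute π χ hinj
    rw [hs, hf]
    exact (Commute.refl g).zpow_right d
  obtain ⟨i, j, rfl⟩ := cgp_mem_closure_pair hc hxH
  have hχ : χ s ^ i * χ f ^ j = 1 := by
    have := MonoidHom.mem_ker.mp hxk
    rwa [map_mul, map_zpow, map_zpow] at this
  -- `(χ s)^i` lies in both cyclic groups
  have hmem : χ s ^ i ∈ Subgroup.zpowers (χ s) ⊓ Subgroup.zpowers (χ f) := by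
    refine ⟨⟨i, rfl⟩, ?_⟩
    have : χ s ^ i = (χ f ^ j)⁻¹ := eq_inv_of_mul_eq_one_left hχ
    rw [this]
    exact Subgroup.inv_mem _ ⟨j, rfl⟩
  rw [hdisj, Subgroup.mem_bot] at hmem
  have hj : χ f ^ j = 1 := by rwa [hmem, one_mul] at hχ
  have hpi : (p : ℤ) ∣ i :=
    (Int.natCast_dvd_natCast.mpr hp1).trans (orderOf_dvd_iff_zpow_eq_one.mpr hmem)
  have hpj : (p : ℤ) ∣ j :=
    (Int.natCast_dvd_natCast.mpr hp2).trans (orderOf_dvd_iff_zpow_eq_one.mpr hj)
  have hgz : ∀ k : ℤ, (p : ℤ) ∣ k → g ^ k = 1 := by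
    rintro k ⟨c, rfl⟩
    rw [zpow_mul, zpow_natCast, hg, one_zpow]
  apply hinj
  · rw [map_mul, map_zpow, map_zpow, hs, hf, ← zpow_mul, hgz i hpi,
      hgz (d * j) (Dvd.dvd.mul_left hpj d), one_mul]
  · rw [map_mul, map_zpow, map_zpow]
    exact hχ

/-- `⟨s, f⟩` maps onto `⟨g⟩` -/
theorem cgp_zpowers_le_map (g : G) (s f : Γ) (hs : π s = g) :
    Subgroup.zpowers g ≤ (Subgroup.closure {s, f}).map π := by
  rw [Subgroup.zpowers_le]
  exact ⟨s, Subgroup.subset_closure (Set.mem_insert s {f}), hs⟩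

/-- consequently: `⟨s, f⟩ ⊔ ker π = ⊤` when `g` generates `G` -/
theorem cgp_closure_sup_ker (g : G) (hgen : Subgroup.zpowers g = ⊤) (s f : Γ) (hs : π s = g) :
    Subgroup.closure {s, f} ⊔ π.ker = ⊤ := by
  rw [eq_top_iff]
  intro x _
  have hx : π x ∈ (Subgroup.closure {s, f}).map π := by
    apply cgp_zpowers_le_map π g s f hs
    rw [hgen]
    exact Subgroup.mem_top _
  obtain ⟨y, hy, hxy⟩ := hx
  have : x = y * (y⁻¹ * x) := by group
  rw [this]
  refine Subgroup.mul_mem_sup hy ?_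
  rw [MonoidHom.mem_ker, map_mul, map_inv, hxy, inv_mul_cancel]

end

end Fermat.Agent.S14x
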