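/-
S14 project, module CROSS, row CX7 (helper77): the independence computation in `closure {s, f}`.

`cx_closure_indep` = EXACT statement of `Spec.cx_closure_indep` (S14x/CrossSpecB.lean):
in `Gal(L(ζ_m)/K)`, if `s|L = g`, `s ζ = ζ^τ`, `f|L = g^d`, `f ζ = ζ^u` and
`τ^x u^y = 1 → p ∣ x ∧ p ∣ y`, then an element of `⟨s, f⟩` fixing `ζ` is trivial.

Proof: `Gal(L(ζ_m)/K)` is abelian and embeds in `Gal(L/K) × (ℤ/m)ˣ` (`CrossGalois.lean`, helper69);
an element of `⟨s, f⟩` is `s^i f^j` (`CrossGroup.lean`); if it fixes `ζ` then `τ^i u^j = 1`, so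
`p ∣ i, j`, so its restriction to `L` is `g^(i + d j) = 1` because `g^p = 1`.
-/
import Fermat.Agent.S14x.CrossDefsB
import Fermat.Agent.S14x.CrossGalois
import Fermat.Agent.S14x.CrossGroup

set_option autoImplicit false
set_option linter.unusedSectionVars false

namespace Fermat.Agent.S14x

open NumberField IsDedekindDomain

section Tower

variable {p : ℕ} [Fact p.Prime] (T : Tower p)
variable (Ω : Type) [Field Ω] [NumberField Ω] [Algebra T.K Ω] [Algebra T.L Ω]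
  [IsScalarTower T.K T.L Ω]

/-- the generator of `Gal(L/K)` has order dividing `p = [L:K]` -/
theorem cxi_g_pow_p : T.g ^ p = 1 := by
  have hcard : Nat.card (T.L ≃ₐ[T.K] T.L) = p := by
    rw [IsGalois.card_aut_eq_finrank, T.finrank_eq]
  have h := pow_card_eq_one' (x := T.g)
  rwa [hcard] at h

/-- integer powers of `g` with exponent divisible by `p` are trivial -/
theorem cxi_g_zpow_of_dvd (k : ℤ) (hk : (p : ℤ) ∣ k) : T.g ^ k = 1 := by
  obtain ⟨c, rfl⟩ := hk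
  rw [zpow_mul, zpow_natCast, cxi_g_pow_p, one_zpow]

/-- `ζ ^ (1 : (ℤ/m)ˣ).val = ζ` for an `m`-th root of unity -/
theorem cxi_pow_one_units {R : Type*} [Monoid R] (m : ℕ) [NeZero m] (ζ : R) (hζ : ζ ^ m = 1) :
    ζ ^ (((1 : (ZMod m)ˣ) : ZMod m)).val = ζ := by
  have h := cg_pow_eq_of_zmod hζ (((1 : (ZMod m)ˣ) : ZMod m)).val 1 (by simp)
  rw [h, pow_one]

/-- **CX7** (`Spec.cx_closure_indep`). -/
theorem cx_closure_indep [IsAbelianGalois T.K Ω] (m : ℕ) [NeZero m]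
    [IsCyclotomicExtension {m} T.L Ω] (ζ : Ω) (hζ : IsPrimitiveRoot ζ m)
    (s f : Ω ≃ₐ[T.K] Ω) (τ u : (ZMod m)ˣ)
    (hsL : ∀ x : T.L, s (algebraMap T.L Ω x) = algebraMap T.L Ω (T.g x))
    (hsζ : s ζ = ζ ^ (τ : ZMod m).val)
    (d : ℕ) (hfL : ∀ x : T.L, f (algebraMap T.L Ω x) = algebraMap T.L Ω ((T.g ^ d) x))
    (hfζ : f ζ = ζ ^ (u : ZMod m).val)
    (hind : ∀ x y : ℤ, τ ^ x * u ^ y = 1 → (p : ℤ) ∣ x ∧ (p : ℤ) ∣ y) :
    ∀ σ ∈ Subgroup.closure ({s, f} : Set (Ω ≃ₐ[T.K] Ω)), σ ζ = ζ → σ = 1 := by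
  intro σ hσ hσζ
  have hc : Commute s f := cg_comm T m Ω s f
  obtain ⟨i, j, rfl⟩ := cgp_mem_closure_pair hc hσ
  have hχs : cg_chi T m Ω s = τ := cg_chi_eq_of_apply T m Ω s hζ τ hsζ
  have hχf : cg_chi T m Ω f = u := cg_chi_eq_of_apply T m Ω f hζ u hfζ
  have hrs : cg_res T Ω s = T.g := cg_res_eq_of_apply T Ω s T.g hsL
  have hrf : cg_res T Ω f = T.g ^ d := cg_res_eq_of_apply T Ω f (T.g ^ d) hfL
  have hχσ : cg_chi T m Ω (s ^ i * f ^ j) = 1 := by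
    apply cg_chi_eq_of_apply T m Ω _ hζ 1
    rw [hσζ, cxi_pow_one_units m ζ hζ.pow_eq_one]
  have hτu : τ ^ i * u ^ j = 1 := by
    rw [← hχs, ← hχf, ← map_zpow, ← map_zpow, ← map_mul]
    exact hχσ
  obtain ⟨hpi, hpj⟩ := hind i j hτu
  have hrσ : cg_res T Ω (s ^ i * f ^ j) = 1 := by
    rw [map_mul, map_zpow, map_zpow, hrs, hrf, cxi_g_zpow_of_dvd T i hpi, one_mul,
      ← zpow_natCast, ← zpow_mul, cxi_g_zpow_of_dvd T _ (Dvd.dvd.mul_left hpj _)]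
  apply cg_resChi_injective T m Ω
  rw [map_one]
  exact Prod.ext hrσ hχσ

end Tower

end Fermat.Agent.S14x
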