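/-
S14 project, module CROSS squad B, row CXN (helper28): general facts on `dvNorm`
(exact statements of `Spec.cx_*` in S14x/CrossSpecB.lean, section Norm).  Prefix `cxn_`.
-/
import Fermat.Agent.S14x.DvNormTrans

set_option autoImplicit false

namespace Fermat.Agent.S14x

open NumberField IsDedekindDomain

section Norm

variable (F F' F'' : Type) [Field F] [NumberField F] [Field F'] [NumberField F']
  [Field F''] [NumberField F''] [Algebra F F'] [Algebra F' F''] [Algebra F F'']
  [IsScalarTower F F' F'']

/-- transitivity of the divisor norm (wrapper of `bc_dvNorm_trans`, S14x/DvNormTrans.lean) -/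
theorem cx_dvNorm_trans (D : Dv F'') : dvNorm F F' (dvNorm F' F'' D) = dvNorm F F'' D :=
  bc_dvNorm_trans F F' F'' D

/-- the norm of a prime over a completely split prime -/
theorem cx_dvNorm_single_of_splits (v : Pl F) (hv : SplitsCompletely F F' v) (w : Pl F')
    (hw : PlOver F F' w v) : dvNorm F F' (Finsupp.single w 1) = Finsupp.single v 1 := by
  have hu : plUnder F F' w = v := HeightOneSpectrum.ext hw
  rw [dvNorm_single, hu, (hv w hw).2]
  simp

open Classical in
/-- pointwise formula for the divisor norm -/
theorem cxn_dvNorm_apply (D : Dv F') (v : Pl F) :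
    dvNorm F F' D v =
      D.sum (fun w n => if plUnder F F' w = v then
        ((Ideal.inertiaDeg w.asIdeal (𝓞 F) : ℕ) : ℤ) * n else 0) := by
  induction D using Finsupp.induction_linear with
  | zero => simp
  | add D₁ D₂ h₁ h₂ =>
    rw [map_add, Finsupp.add_apply, h₁, h₂, Finsupp.sum_add_index']
    · intro w; simp
    · intro w n₁ n₂
      split_ifs
      · ring
      · simp
  | single w n =>
    rw [dvNorm_single, Finsupp.single_apply, Finsupp.sum_single_index]
    simp

/-- norms of divisors prime to `m` are prime to `m` -/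
theorem cx_coprimeTo_dvNorm (m : ℕ) (D : Dv F') (hD : CoprimeTo m D) :
    CoprimeTo m (dvNorm F F' D) := by
  classical
  intro v hv
  rw [cxn_dvNorm_apply]
  apply Finset.sum_eq_zero
  intro w _
  show (if plUnder F F' w = v then ((Ideal.inertiaDeg w.asIdeal (𝓞 F) : ℕ) : ℤ) * D w else 0) = 0
  split_ifs with h
  · have hmem : (m : 𝓞 F') ∈ w.asIdeal := by
      have h1 : (m : 𝓞 F) ∈ w.asIdeal.under (𝓞 F) := by
        have : (plUnder F F' w).asIdeal = w.asIdeal.under (𝓞 F) := rfl
        rw [← this, h]
        exact hv
      rw [Ideal.under_def, Ideal.mem_comap] at h1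
      simpa using h1
    rw [hD w hmem, mul_zero]
  · rfl

/-- `p·Dv ⊆ normGroup` -/
theorem cx_nsmul_mem_normGroup (M : Type) [Field M] [NumberField M] [Algebra F M] (p : ℕ)
    [NeZero p] (D : Dv F) : (p : ℤ) • D ∈ normGroup F M p := by
  induction D using Finsupp.induction_linear with
  | zero =>
    rw [smul_zero]
    exact AddSubgroup.zero_mem _
  | add D₁ D₂ h₁ h₂ =>
    rw [smul_add]
    exact AddSubgroup.add_mem _ h₁ h₂
  | single v n =>
    have h1 : (Finsupp.single v (p : ℤ) : Dv F) ∈ normGroup F M p :=
      AddSubgroup.subset_closure (Or.inr ⟨v, rfl⟩)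
    have h2 : ((p : ℤ) • Finsupp.single v n : Dv F) = n • Finsupp.single v (p : ℤ) := by
      rw [Finsupp.smul_single, Finsupp.smul_single, smul_eq_mul, smul_eq_mul, mul_comm]
    rw [h2]
    exact AddSubgroup.zsmul_mem _ h1 n

end Norm

end Fermat.Agent.S14x
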