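/-
S14 project, module CROSS squad B, row CXN extras (helper28): primes and integers coprime to
their norm.  Prefix `cxn_`.  Imports Defs only.
-/
import Fermat.Agent.S14x.Defs

set_option autoImplicit false

namespace Fermat.Agent.S14x

open NumberField IsDedekindDomain

section Extras

variable {F : Type*} [Field F] [NumberField F]

/-- the absolute norm of a prime lies in the prime. -/
theorem cxn_plNorm_mem (v : Pl F) : ((plNorm v : ℕ) : 𝓞 F) ∈ v.asIdeal := by
  have := Ideal.absNorm_mem v.asIdeal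
  simpa [plNorm] using this

/-- an integer coprime to the norm of `v` is not in `v`. -/
theorem cxn_not_mem_of_coprime (v : Pl F) (m : ℕ) (h : m.Coprime (plNorm v)) :
    (m : 𝓞 F) ∉ v.asIdeal := by
  intro hm
  have h1 : ((m.gcd (plNorm v) : ℕ) : 𝓞 F) ∈ v.asIdeal := by
    have hb := Nat.gcd_eq_gcd_ab m (plNorm v)
    have hcast : ((m.gcd (plNorm v) : ℕ) : 𝓞 F) =
        (m : 𝓞 F) * ((m.gcdA (plNorm v) : ℤ) : 𝓞 F) +
          ((plNorm v : ℕ) : 𝓞 F) * ((m.gcdB (plNorm v) : ℤ) : 𝓞 F) := by
      have := congrArg (fun z : ℤ => (z : 𝓞 F)) hb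
      simpa using this
    rw [hcast]
    exact v.asIdeal.add_mem (v.asIdeal.mul_mem_right _ hm)
      (v.asIdeal.mul_mem_right _ (cxn_plNorm_mem v))
  rw [h, Nat.cast_one] at h1
  exact v.isPrime.ne_top ((Ideal.eq_top_iff_one _).mpr h1)

/-- an integer outside `v` is outside every prime over `v`. -/
theorem cxn_not_mem_of_over {F' : Type*} [Field F'] [NumberField F'] [Algebra F F'] (m : ℕ)
    (v : Pl F) (hv : (m : 𝓞 F) ∉ v.asIdeal) (w : Pl F') (hw : PlOver F F' w v) :
    (m : 𝓞 F') ∉ w.asIdeal := by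
  intro hmem
  apply hv
  rw [← hw, Ideal.under_def, Ideal.mem_comap]
  simpa using hmem

/-- an integer inside `v` is inside every prime over `v`. -/
theorem cxn_mem_of_over {F' : Type*} [Field F'] [NumberField F'] [Algebra F F'] (m : ℕ)
    (v : Pl F) (hv : (m : 𝓞 F) ∈ v.asIdeal) (w : Pl F') (hw : PlOver F F' w v) :
    (m : 𝓞 F') ∈ w.asIdeal := by
  rw [← hw, Ideal.under_def, Ideal.mem_comap] at hv
  simpa using hv

end Extras

end Fermat.Agent.S14x
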