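/-
S14 / CROSS rows CX2 + CX3 (helper69): exact-name wrappers (sub-spec `S14x/CrossSpecB.lean`) around
`S14x/CrossGalois.lean`.
-/
import Mathlib
import Fermat.Agent.S14x.CrossGalois

set_option autoImplicit false
set_option linter.unusedSectionVars false

namespace Fermat.Agent.S14x

section Tower

variable {p : ℕ} [Fact p.Prime] (T : Tower p)
variable (Ω : Type) [Field Ω] [NumberField Ω] [Algebra T.K Ω] [Algebra T.L Ω]
  [IsScalarTower T.K T.L Ω]

/-- CX2: `Ω = L(ζ_m)` is abelian over `K`. -/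
theorem cx_isAbelianGalois_Omega (m : ℕ) [NeZero m] [IsCyclotomicExtension {m} T.L Ω] :
    IsAbelianGalois T.K Ω :=
  { toIsGalois := cg_isGalois T m Ω
    toIsMulCommutative := ⟨⟨fun a b => cg_comm T m Ω a b⟩⟩ }

/-- CX3: prescribed automorphisms of `L(ζ_m)/K`, `p ∤ m`. -/
theorem cx_exists_s (hp : p ≠ 2) (m : ℕ) [NeZero m] (hm : m.Coprime p)
    [IsCyclotomicExtension {m} T.L Ω] (ζ : Ω) (hζ : IsPrimitiveRoot ζ m) (τ : (ZMod m)ˣ) :
    ∃ s : Ω ≃ₐ[T.K] Ω, (∀ x : T.L, s (algebraMap T.L Ω x) = algebraMap T.L Ω (T.g x)) ∧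
      s ζ = ζ ^ (τ : ZMod m).val := by
  obtain ⟨s, h1, h2⟩ := cg_exists_aut T m Ω hp hm.symm T.g τ
  exact ⟨s, h1, h2 ζ hζ.pow_eq_one⟩

end Tower

end Fermat.Agent.S14x
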