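/-
S14 project, module CROSS squad B, row CX4 (helper28): `L(ζ_m)/K` is unramified at the primes
not dividing `m` (`L/K` unramified; the inertia group of `L(ζ_m)/L` acts trivially on `ζ_m`).
Exact statement `Spec.cx_unramified_Omega` of S14x/CrossSpecB.lean.  Prefix `cxu_`.
-/
import Fermat.Agent.S14x.CrossDefsB

set_option autoImplicit false

namespace Fermat.Agent.S14x

open NumberField IsDedekindDomain
open scoped Pointwise

section RootsMod

variable {S : Type*} [CommRing S] [IsDomain S]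

/-- two distinct `m`-th roots of unity are not congruent modulo an ideal not containing `m`. -/
theorem cxu_root_congr {m : ℕ} (Q : Ideal S) (hm : (m : S) ∉ Q) {a b : S} (ha : a ^ m = 1)
    (hb : b ^ m = 1) (hab : a - b ∈ Q) : a = b := by
  by_contra hne
  have hm0 : m ≠ 0 := by
    rintro rfl
    exact hm (by simp)
  obtain ⟨n, rfl⟩ : ∃ n, m = n + 1 := Nat.exists_eq_succ_of_ne_zero hm0
  set ξ := b * a ^ n with hξ
  have hξm : ξ ^ (n + 1) = 1 := by
    rw [hξ, mul_pow, hb, one_mul, ← pow_mul, mul_comm, pow_mul, ha, one_pow]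
  have hξ1 : ξ ≠ 1 := by
    intro h1
    apply hne
    have : a * ξ = a := by rw [h1, mul_one]
    rw [hξ] at this
    have h2 : a * (b * a ^ n) = b * a ^ (n + 1) := by ring
    rw [h2, ha, mul_one] at this
    exact this.symm
  have h1ξ : 1 - ξ ∈ Q := by
    have : 1 - ξ = a ^ n * (a - b) := by
      rw [hξ, mul_sub, ← pow_succ, ha]
      ring
    rw [this]
    exact Q.mul_mem_left _ hab
  have hj : ∀ j : ℕ, 1 - ξ ^ j ∈ Q := by
    intro j
    rw [← mul_neg_geom_sum]
    exact Q.mul_mem_right _ h1ξ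
  have hsum0 : ∑ j ∈ Finset.range (n + 1), ξ ^ j = 0 := by
    have h := geom_sum_mul ξ (n + 1)
    rw [hξm, sub_self] at h
    rcases mul_eq_zero.mp h with h | h
    · exact h
    · exact absurd (sub_eq_zero.mp h) hξ1
  have hsum : ∑ j ∈ Finset.range (n + 1), (1 - ξ ^ j) ∈ Q := Q.sum_mem fun j _ => hj j
  rw [Finset.sum_sub_distrib, hsum0, sub_zero] at hsum
  simp only [Finset.sum_const, Finset.card_range, nsmul_eq_mul, mul_one] at hsum
  exact hm hsum

end RootsMod

section General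

variable {K L Ω : Type} [Field K] [NumberField K] [Field L] [NumberField L] [Field Ω]
  [NumberField Ω] [Algebra K L] [Algebra K Ω] [Algebra L Ω] [IsScalarTower K L Ω]

/-- `L(ζ_m)/L` is unramified at the primes not containing `m`. -/
theorem cxu_unramified_cyclotomic (m : ℕ) [NeZero m] [IsCyclotomicExtension {m} L Ω] (Q : Pl Ω)
    (hQ : (m : 𝓞 Ω) ∉ Q.asIdeal) : Ideal.ramificationIdx Q.asIdeal (𝓞 L) = 1 := by
  have : IsGalois L Ω := IsCyclotomicExtension.isGalois {m} L Ω
  have : FiniteDimensional L Ω := IsCyclotomicExtension.finiteDimensional {m} L Ω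
  have hv : (Q.asIdeal.under (𝓞 L)).IsMaximal := (plUnder L Ω Q).isMaximal
  have : Finite ((Q.asIdeal.under (𝓞 L)).ResidueField) := by
    have : Finite (𝓞 L ⧸ Q.asIdeal.under (𝓞 L)) :=
      Ideal.finiteQuotientOfFreeOfNeBot _ (plUnder L Ω Q).ne_bot
    exact Finite.of_surjective _ (Ideal.bijective_algebraMap_quotient_residueField
      (Q.asIdeal.under (𝓞 L))).2
  rw [← Ideal.ramificationIdxIn_eq_ramificationIdx (Q.asIdeal.under (𝓞 L)) Q.asIdeal
    (Ω ≃ₐ[L] Ω),
    ← Ideal.card_inertia_eq_ramificationIdxIn (G := Ω ≃ₐ[L] Ω) (Q.asIdeal.under (𝓞 L))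
      Q.asIdeal]
  rw [Subgroup.card_eq_one, Subgroup.eq_bot_iff_forall]
  intro σ hσ
  obtain ⟨ζ, hζ⟩ := IsCyclotomicExtension.exists_isPrimitiveRoot L Ω (Set.mem_singleton m)
    (NeZero.ne m)
  -- `σ ζ = ζ`
  have hfix : σ ζ = ζ := by
    have h1 := hσ hζ.toInteger
    have ha : (σ • hζ.toInteger : 𝓞 Ω) ^ m = 1 := by
      rw [← smul_pow']
      have : hζ.toInteger ^ m = 1 := hζ.toInteger_isPrimitiveRoot.pow_eq_one
      rw [this, smul_one]
    have hb : hζ.toInteger ^ m = 1 := hζ.toInteger_isPrimitiveRoot.pow_eq_one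
    have := cxu_root_congr Q.asIdeal hQ ha hb h1
    have h2 := congrArg (fun x : 𝓞 Ω => (x : Ω)) this
    exact h2
  have hadj := IsCyclotomicExtension.adjoin_primitive_root_eq_top (A := L) (B := Ω) hζ
  have : σ.toAlgHom = (AlgEquiv.refl : Ω ≃ₐ[L] Ω).toAlgHom := by
    apply AlgHom.ext_of_adjoin_eq_top hadj
    intro x hx
    rw [Set.mem_singleton_iff] at hx
    subst hx
    exact hfix
  ext x
  exact DFunLike.congr_fun this x

/-- `L(ζ_m)/K` is unramified at the primes `Q` not containing `m` above which `L/K` is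
unramified. -/
theorem cxu_unramified_tower (m : ℕ) [NeZero m] [IsCyclotomicExtension {m} L Ω] (Q : Pl Ω)
    (hQ : (m : 𝓞 Ω) ∉ Q.asIdeal)
    (hL : Ideal.ramificationIdx (plUnder L Ω Q).asIdeal (𝓞 K) = 1) :
    Ideal.ramificationIdx Q.asIdeal (𝓞 K) = 1 := by
  have : Q.asIdeal.LiesOver (plUnder L Ω Q).asIdeal := ⟨rfl⟩
  rw [Ideal.ramificationIdx_tower (R := 𝓞 K) (plUnder L Ω Q).asIdeal Q.asIdeal, hL,
    cxu_unramified_cyclotomic m Q hQ]

end General

section Tower

variable {p : ℕ} [Fact p.Prime] (T : Tower p)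
variable (Ω : Type) [Field Ω] [NumberField Ω] [Algebra T.K Ω] [Algebra T.L Ω]
  [IsScalarTower T.K T.L Ω]

theorem cx_unramified_Omega (m : ℕ) [NeZero m] [IsCyclotomicExtension {m} T.L Ω] (v : Pl T.K)
    (hv : (m : 𝓞 T.K) ∉ v.asIdeal) (Q : Pl Ω) (hQ : PlOver T.K Ω Q v) :
    Ideal.ramificationIdx Q.asIdeal (𝓞 T.K) = 1 := by
  apply cxu_unramified_tower (K := T.K) (L := T.L) m Q
  · intro hmem
    apply hv
    rw [← hQ, Ideal.under_def, Ideal.mem_comap]
    simpa using hmem
  · exact T.unram _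

end Tower

end Fermat.Agent.S14x
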