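/-
S14 project, CROSS support (prefix `ci_`): the extension `Ω = L(ζ_m)` of `K` is unramified at
every prime not dividing `m` as soon as `L/K` is unramified: inertia elements restrict to inertia
elements of `L/K` and fix the `m`-th roots of unity.
-/
import Mathlib
import Fermat.Agent.S14x.Defs
import Fermat.Agent.S14x.Artin
import Fermat.Agent.S14x.ArtinExtra

set_option autoImplicit false

namespace Fermat.Agent.S14x

open NumberField IsDedekindDomain
open scoped Pointwise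

/-- a non-trivial `m`-th root of unity congruent to `1` modulo an ideal `Q` of a domain forces
`m ∈ Q`. -/
theorem ci_natCast_mem_of_pow_eq_one {S : Type*} [CommRing S] [IsDomain S] (Q : Ideal S) {η : S}
    {m : ℕ} (hη : η ^ m = 1) (hne : η ≠ 1) (h : 1 - η ∈ Q) : (m : S) ∈ Q := by
  have hsum : ∑ j ∈ Finset.range m, η ^ j = 0 := by
    have h1 := geom_sum_mul η m
    rw [hη, sub_self, mul_eq_zero] at h1
    rcases h1 with h1 | h1
    · exact h1
    · exact absurd (sub_eq_zero.mp h1) hne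
  have hj : ∀ j : ℕ, 1 - η ^ j ∈ Q := by
    intro j
    have h2 := mul_geom_sum η j
    have h3 : 1 - η ^ j = (1 - η) * ∑ i ∈ Finset.range j, η ^ i := by
      have : (η - 1) * ∑ i ∈ Finset.range j, η ^ i = η ^ j - 1 := h2
      linear_combination this
    rw [h3]
    exact Q.mul_mem_right _ h
  have h4 := Q.sum_mem (t := Finset.range m) fun j _ => hj j
  rw [Finset.sum_sub_distrib, hsum, sub_zero] at h4
  simpa using h4

section

variable {K Ω : Type} [Field K] [NumberField K] [Field Ω] [NumberField Ω] [Algebra K Ω]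

/-- inertia elements fix roots of unity of order prime to the residue characteristic -/
theorem ci_inertia_smul_eq (P : Pl Ω) (σ : Ω ≃ₐ[K] Ω) (hσ : σ ∈ P.asIdeal.inertia (Ω ≃ₐ[K] Ω))
    {ζ : 𝓞 Ω} {m : ℕ} (hζ : ζ ^ m = 1) (hm : (m : 𝓞 Ω) ∉ P.asIdeal) : σ • ζ = ζ := by
  have hm0 : m ≠ 0 := by rintro rfl; exact hm (by simp)
  obtain ⟨k, rfl⟩ : ∃ k, m = k + 1 := Nat.exists_eq_succ_of_ne_zero hm0
  set η : 𝓞 Ω := σ • ζ * ζ ^ k with hηdef
  have hζk : ζ * ζ ^ k = 1 := by rw [← pow_succ', hζ]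
  have hη : η ^ (k + 1) = 1 := by
    rw [hηdef, mul_pow, ← smul_pow', hζ, smul_one, one_mul, ← pow_mul, mul_comm, pow_mul, hζ,
      one_pow]
  have h1 : 1 - η ∈ P.asIdeal := by
    have h2 : 1 - η = -((σ • ζ - ζ) * ζ ^ k) := by
      rw [hηdef, sub_mul, hζk]; ring
    rw [h2]
    exact P.asIdeal.neg_mem (P.asIdeal.mul_mem_right _ (hσ ζ))
  by_contra hne
  apply hm
  refine ci_natCast_mem_of_pow_eq_one P.asIdeal hη ?_ h1
  intro h1η
  apply hne
  calc σ • ζ = σ • ζ * (ζ ^ k * ζ) := by rw [mul_comm (ζ ^ k), hζk, mul_one]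
    _ = η * ζ := by rw [hηdef, mul_assoc]
    _ = ζ := by rw [h1η, one_mul]

end

section Tower3

variable {K L Ω : Type} [Field K] [NumberField K] [Field L] [NumberField L] [Field Ω]
  [NumberField Ω] [Algebra K L] [Algebra K Ω] [Algebra L Ω] [IsScalarTower K L Ω]
  [IsGalois K L] [IsGalois K Ω]

/-- the inertia group of an unramified prime is trivial -/
theorem ci_inertia_eq_bot_of_unram (hun : UnramifiedEverywhere K L) (w : Pl L) :
    w.asIdeal.inertia (L ≃ₐ[K] L) = ⊥ := by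
  have hcard : Nat.card (w.asIdeal.inertia (L ≃ₐ[K] L)) = 1 := by
    rw [Ideal.card_inertia_eq_ramificationIdxIn (G := (L ≃ₐ[K] L)) (w.asIdeal.under (𝓞 K))
      w.asIdeal,
      Ideal.ramificationIdxIn_eq_ramificationIdx (w.asIdeal.under (𝓞 K)) w.asIdeal (L ≃ₐ[K] L)]
    exact hun w
  exact (Subgroup.card_eq_one).mp hcard

/-- inertia elements restrict to inertia elements -/
theorem ci_restrict_mem_inertia (P : Pl Ω) (σ : Ω ≃ₐ[K] Ω)
    (hσ : σ ∈ P.asIdeal.inertia (Ω ≃ₐ[K] Ω)) :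
    AlgEquiv.restrictNormalHom L σ ∈ (plUnder L Ω P).asIdeal.inertia (L ≃ₐ[K] L) := by
  intro x
  show _ ∈ P.asIdeal.under (𝓞 L)
  rw [Ideal.under_def, Ideal.mem_comap, map_sub, ax_algebraMap_restrict_smul]
  exact hσ _

/-- **`L(ζ_m)/K` is unramified outside `m`** when `L/K` is unramified. -/
theorem ci_inertia_eq_bot (hun : UnramifiedEverywhere K L) (m : ℕ) [NeZero m]
    [IsCyclotomicExtension {m} L Ω] (P : Pl Ω) (hm : (m : 𝓞 Ω) ∉ P.asIdeal) :
    P.asIdeal.inertia (Ω ≃ₐ[K] Ω) = ⊥ := by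
  rw [Subgroup.eq_bot_iff_forall]
  intro σ hσ
  -- `σ` fixes `L`
  have h1 : AlgEquiv.restrictNormalHom L σ = 1 := by
    have := ci_restrict_mem_inertia (L := L) P σ hσ
    rw [ci_inertia_eq_bot_of_unram hun, Subgroup.mem_bot] at this
    exact this
  have hL : ∀ x : L, σ (algebraMap L Ω x) = algebraMap L Ω x := by
    intro x
    have h2 := AlgEquiv.restrictNormal_commutes σ L x
    have h3 : σ.restrictNormal L = 1 := h1
    rw [h3] at h2
    exact h2.symm
  -- `σ` fixes a primitive `m`-th root of unity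
  obtain ⟨ζ, hζ⟩ := IsCyclotomicExtension.exists_isPrimitiveRoot L Ω (Set.mem_singleton m)
    (NeZero.ne m)
  have hζint : IsIntegral ℤ ζ := hζ.isIntegral (NeZero.pos m)
  let ζ' : 𝓞 Ω := ⟨ζ, hζint⟩
  have hζ' : ζ' ^ m = 1 := by
    have h0 : ((ζ' ^ m : 𝓞 Ω) : Ω) = ((1 : 𝓞 Ω) : Ω) := by
      push_cast
      exact hζ.pow_eq_one
    exact_mod_cast h0
  have h4 : σ • ζ' = ζ' := ci_inertia_smul_eq P σ hσ hζ' hm
  have h5 : σ ζ = ζ := congrArg Subtype.val h4
  -- hence `σ = 1`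
  have h6 : (axLift σ hL).toAlgHom = AlgHom.id L Ω := by
    apply (hζ.powerBasis L).algHom_ext
    rw [IsPrimitiveRoot.powerBasis_gen]
    exact h5
  apply AlgEquiv.ext
  intro y
  have := congrArg (fun φ : Ω →ₐ[L] Ω => φ y) h6
  exact this

/-- ramification-index form of `ci_inertia_eq_bot` -/
theorem ci_ramificationIdx_eq_one (hun : UnramifiedEverywhere K L) (m : ℕ) [NeZero m]
    [IsCyclotomicExtension {m} L Ω] (P : Pl Ω) (hm : (m : 𝓞 Ω) ∉ P.asIdeal) :
    Ideal.ramificationIdx P.asIdeal (𝓞 K) = 1 := by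
  have h1 := Ideal.card_inertia_eq_ramificationIdxIn (G := (Ω ≃ₐ[K] Ω)) (P.asIdeal.under (𝓞 K))
    P.asIdeal
  rw [Ideal.ramificationIdxIn_eq_ramificationIdx (P.asIdeal.under (𝓞 K)) P.asIdeal (Ω ≃ₐ[K] Ω),
    ci_inertia_eq_bot (L := L) hun m P hm] at h1
  rw [← h1]
  simp

end Tower3

end Fermat.Agent.S14x
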