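/-
S14 project, CROSS support (prefix `cs_`): in a finite Galois extension `Ω/K` of number fields,
at a prime `P` with trivial inertia the decomposition group is generated by any arithmetic
Frobenius at `P`; consequently the prime `P ∩ F` of the fixed field `F` of a subgroup `H`
containing the Frobenius has `e = f = 1` over `K`.
-/
import Mathlib
import Fermat.Agent.S14x.Defs
import Fermat.Agent.S14x.Artin
import Fermat.Agent.S14x.ArtinExtra

set_option autoImplicit false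

namespace Fermat.Agent.S14x

open NumberField IsDedekindDomain
open scoped Pointwise

section

variable {K Ω : Type} [Field K] [NumberField K] [Field Ω] [NumberField Ω] [Algebra K Ω]
  [IsGalois K Ω]

attribute [local instance] Ideal.Quotient.field in
/-- **The decomposition group of an unramified prime is generated by the Frobenius.** -/
theorem cs_mem_zpowers_of_mem_stabilizer (P : Pl Ω) (f : Ω ≃ₐ[K] Ω)
    (hf : IsArithFrobAt (𝓞 K) f P.asIdeal)
    (hI : P.asIdeal.inertia (Ω ≃ₐ[K] Ω) = ⊥) (σ : Ω ≃ₐ[K] Ω)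
    (hσ : σ • P.asIdeal = P.asIdeal) : σ ∈ Subgroup.zpowers f := by
  set v : Ideal (𝓞 K) := P.asIdeal.under (𝓞 K) with hv
  have hvmax : v.IsMaximal := (plUnder K Ω P).isMaximal
  have hPmax : P.asIdeal.IsMaximal := P.isMaximal
  have : P.asIdeal.LiesOver v := ⟨rfl⟩
  have : Finite (𝓞 Ω ⧸ P.asIdeal) := Ideal.finiteQuotientOfFreeOfNeBot _ P.ne_bot
  have : Finite (𝓞 K ⧸ v) := Ideal.finiteQuotientOfFreeOfNeBot _ (plUnder K Ω P).ne_bot
  obtain ⟨p', hp'⟩ := CharP.exists (𝓞 K ⧸ v)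
  have hp'prime : Fact p'.Prime := ⟨CharP.char_is_prime (𝓞 K ⧸ v) p'⟩
  let φ := Ideal.Quotient.stabilizerHom P.asIdeal v (Ω ≃ₐ[K] Ω)
  let F₀ : MulAction.stabilizer (Ω ≃ₐ[K] Ω) P.asIdeal := ⟨f, hf.mem_stabilizer⟩
  let s : MulAction.stabilizer (Ω ≃ₐ[K] Ω) P.asIdeal := ⟨σ, hσ⟩
  set q := Nat.card (𝓞 K ⧸ v) with hq
  have h1 : ∀ x : 𝓞 Ω ⧸ P.asIdeal, φ F₀ x = x ^ q := by
    intro x
    obtain ⟨b, rfl⟩ := Ideal.Quotient.mk_surjective x
    rw [Ideal.Quotient.stabilizerHom_apply]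
    exact hf.mk_apply b
  have h2 : ∀ (i : ℕ) (x : 𝓞 Ω ⧸ P.asIdeal), (φ F₀ ^ i) x = x ^ (q ^ i) := by
    intro i
    induction i with
    | zero => intro x; simp
    | succ n ih =>
      intro x
      rw [pow_succ, AlgEquiv.mul_apply, h1, ih, ← pow_mul, pow_succ, mul_comm]
  obtain ⟨i, hi⟩ := FiniteField.exists_forall_apply_eq_pow (𝓞 K ⧸ v) p' (𝓞 Ω ⧸ P.asIdeal) (φ s)
  have h3 : φ s = φ (F₀ ^ i) := by
    rw [map_pow]
    ext x
    rw [hi x, h2 i x]
  have h4 : s * (F₀ ^ i)⁻¹ ∈ φ.ker := by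
    rw [MonoidHom.mem_ker, map_mul, map_inv, h3, mul_inv_cancel]
  have h5 : (s * (F₀ ^ i)⁻¹ : MulAction.stabilizer (Ω ≃ₐ[K] Ω) P.asIdeal).1 ∈ P.asIdeal.inertia (Ω ≃ₐ[K] Ω) := by
    rw [← Ideal.Quotient.map_ker_stabilizer_subtype P.asIdeal v (Ω ≃ₐ[K] Ω)]
    exact Subgroup.mem_map_of_mem _ h4
  rw [hI, Subgroup.mem_bot] at h5
  have h6 : σ * (f ^ i)⁻¹ = 1 := h5
  have h7 : σ = f ^ i := mul_inv_eq_one.mp h6
  rw [h7]
  exact Subgroup.pow_mem _ (Subgroup.mem_zpowers f) i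

/-- **Splitting in the fixed field.** If the inertia group at `P` is trivial and the subgroup `H`
contains an arithmetic Frobenius at `P`, then the prime `P ∩ F` of `F = fixedField H` has
`e = f = 1` over `K`. -/
theorem cs_split_fixedField (P : Pl Ω) (f : Ω ≃ₐ[K] Ω)
    (hf : IsArithFrobAt (𝓞 K) f P.asIdeal)
    (hI : P.asIdeal.inertia (Ω ≃ₐ[K] Ω) = ⊥) (H : Subgroup (Ω ≃ₐ[K] Ω)) (hfH : f ∈ H) :
    Ideal.ramificationIdx
        (plUnder (↥(IntermediateField.fixedField H)) Ω P).asIdeal (𝓞 K) = 1 ∧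
      Ideal.inertiaDeg
        (plUnder (↥(IntermediateField.fixedField H)) Ω P).asIdeal (𝓞 K) = 1 := by
  refine ax_split_of_stabilizer_fixes (K := K) (F := ↥(IntermediateField.fixedField H)) P ?_
  intro σ hσ x
  have h1 : σ ∈ Subgroup.zpowers f := cs_mem_zpowers_of_mem_stabilizer P f hf hI σ hσ
  have h2 : σ ∈ H := (Subgroup.zpowers_le.mpr hfH) h1
  exact x.2 ⟨σ, h2⟩

end

end Fermat.Agent.S14x
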