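/-
S14 project, module CROSS, row BUILD (helper65, prefix `cbd_`): from the ambient datum `CrossAmb`
(S14x/CrossAmbient.lean) construct the crossing datum `CrossData` (S14x/CrossDefs.lean).

`Ω = L(ζ_n)`, `Fc = Ω^{⟨s⟩}`, `Mc = Ω`, `gc = s`; for each leg `Hᵢ = ⟨s, σᵢ⟩`, `Fᵢ = Ω^{Hᵢ}`,
`Mᵢ = L·Fᵢ ⊆ Ω` (`cxLE` of S14x/CrossDefsB.lean), `gFᵢ = s|Mᵢ` (`cxGE`), `Wᵢ = Pᵢ ∩ Fᵢ`.
-/
import Fermat.Agent.S14x.CrossAmbient
import Fermat.Agent.S14x.CrossDefsB
import Fermat.Agent.S14x.CrossGalois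
import Fermat.Agent.S14x.CrossFrob
import Fermat.Agent.S14x.CrossSplit
import Fermat.Agent.S14x.CrossInertia
import Fermat.Agent.S14x.DvNormTrans
import Fermat.Agent.S14x.CrossAmb0
import Fermat.Agent.S14x.CrossBBC
import Fermat.Agent.S14x.CrossBCyc

set_option autoImplicit false
set_option linter.unusedSectionVars false
set_option linter.unusedVariables false

namespace Fermat.Agent.S14x

open NumberField IsDedekindDomain

section Build

variable {p : ℕ} [Fact p.Prime] (T : Tower p) (n : ℕ) [NeZero n]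

/-- `Gal(L(ζ_n)/K)` is abelian -/
instance cbdAbelian : IsAbelianGalois T.K (crΩ T n) where
  is_comm := ⟨fun a b => cg_comm T n (crΩ T n) a b⟩

variable (s : crΩ T n ≃ₐ[T.K] crΩ T n)

/-- the top base field `Fc = Ω^{⟨s⟩}` -/
noncomputable def cbdFc : IntermediateField T.K (crΩ T n) :=
  IntermediateField.fixedField (Subgroup.zpowers s)

theorem cbd_s_fix_Fc : ∀ x ∈ cbdFc T n s, s x = x := fun x hx =>
  hx ⟨s, Subgroup.mem_zpowers s⟩

/-- `gc = s` as an automorphism of `Ω/Fc` -/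
noncomputable def cbdGc : crΩ T n ≃ₐ[cbdFc T n s] crΩ T n :=
  cxLiftE T (crΩ T n) (cbdFc T n s) s (cbd_s_fix_Fc T n s)

theorem cbd_finrank_Fc (hs1 : s ≠ 1) (hsp : s ^ p = 1) :
    Module.finrank (cbdFc T n s) (crΩ T n) = p := by
  classical
  unfold cbdFc
  rw [IntermediateField.finrank_fixedField_eq_card, Nat.card_zpowers]
  exact orderOf_eq_prime hsp hs1

/-! ### one leg -/

variable (σ : crΩ T n ≃ₐ[T.K] crΩ T n)

/-- `H = ⟨s, σ⟩` -/
noncomputable def cbdH : Subgroup (crΩ T n ≃ₐ[T.K] crΩ T n) := Subgroup.closure {s, σ}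

theorem cbd_s_mem_H : s ∈ cbdH T n s σ := Subgroup.subset_closure (by simp)

theorem cbd_σ_mem_H : σ ∈ cbdH T n s σ := Subgroup.subset_closure (by simp)

/-- the leg base field `F = Ω^{⟨s, σ⟩}` -/
noncomputable def cbdF : IntermediateField T.K (crΩ T n) :=
  IntermediateField.fixedField (cbdH T n s σ)

theorem cbd_s_fix_F : ∀ x ∈ cbdF T n s σ, s x = x := fun x hx =>
  hx ⟨s, cbd_s_mem_H T n s σ⟩

theorem cbd_σ_fix_F : ∀ x ∈ cbdF T n s σ, σ x = x := fun x hx =>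
  hx ⟨σ, cbd_σ_mem_H T n s σ⟩

theorem cbd_F_le_Fc : cbdF T n s σ ≤ cbdFc T n s := by
  intro x hx
  rintro ⟨g, hg⟩
  exact hx ⟨g, (Subgroup.zpowers_le.mpr (cbd_s_mem_H T n s σ)) hg⟩

/-- Galois correspondence: an automorphism fixing `F = Ω^H` lies in `H`. -/
theorem cbd_mem_H_of_fix (τ : crΩ T n ≃ₐ[T.K] crΩ T n) (hτ : ∀ x ∈ cbdF T n s σ, τ x = x) :
    τ ∈ cbdH T n s σ := by
  have h1 : τ ∈ (cbdF T n s σ).fixingSubgroup := by
    rw [IntermediateField.mem_fixingSubgroup_iff]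
    exact hτ
  unfold cbdF at h1
  rwa [IntermediateField.fixingSubgroup_fixedField] at h1

/-- elements of `⟨s, σ⟩` are of the form `s^a σ^b` (`Γ` is abelian). -/
theorem cbd_exists_zpow_of_mem_H (τ : crΩ T n ≃ₐ[T.K] crΩ T n) (hτ : τ ∈ cbdH T n s σ) :
    ∃ a b : ℤ, τ = s ^ a * σ ^ b := by
  let _ := ca0_commGroup T n
  unfold cbdH at hτ
  obtain ⟨a, b, hab⟩ := Subgroup.mem_closure_pair.mp hτ
  exact ⟨a, b, hab.symm⟩

/-- an automorphism fixing `ζ_n` has trivial cyclotomic character -/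
theorem cbd_crChi_eq_one_of_fix (τ : crΩ T n ≃ₐ[T.K] crΩ T n)
    (hτ : τ (crZeta T n) = crZeta T n) : crChi T n τ = 1 := by
  have h1 := crChi_spec T n τ
  rw [hτ] at h1
  have hz := crZeta_spec T n
  have hne : crZeta T n ≠ 0 := hz.ne_zero (NeZero.ne n)
  have h3 : crZeta T n ^ (((((crChi T n τ : (ZMod n)ˣ) : ZMod n).val : ℕ) : ℤ) - 1) = 1 := by
    rw [zpow_sub₀ hne, zpow_natCast, zpow_one, ← h1, div_self hne]
  rw [hz.zpow_eq_one_iff_dvd] at h3
  have h4 := (ZMod.intCast_eq_intCast_iff_dvd_sub 1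
    ((((crChi T n τ : (ZMod n)ˣ) : ZMod n).val : ℕ) : ℤ) n).mpr h3
  rw [Int.cast_one, Int.cast_natCast, ZMod.natCast_zmod_val] at h4
  exact Units.ext h4.symm

/-- Artin's independence ⇒ `F(ζ_n) = Ω`. -/
theorem cbd_isCyclotomicExtension
    (hind : ∀ a b : ℤ, crChi T n (s ^ a * σ ^ b) = 1 → crRes T n (s ^ a * σ ^ b) = 1) :
    IsCyclotomicExtension {n} (cbdF T n s σ) (crΩ T n) := by
  refine cx_isCyclotomicExtension_of_fixed T (crΩ T n) n (crZeta T n) (crZeta_spec T n)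
    (cbdF T n s σ) ?_
  intro τ hτF hτζ
  obtain ⟨a, b, rfl⟩ := cbd_exists_zpow_of_mem_H T n s σ τ (cbd_mem_H_of_fix T n s σ τ hτF)
  have hchi := cbd_crChi_eq_one_of_fix T n _ hτζ
  have hres := hind a b hchi
  exact cr_res_chi_injective T n _ 1 (by rw [hres, map_one]) (by rw [hchi, map_one])

theorem cbd_leg (v : Pl T.K) (hv : (n : 𝓞 T.K) ∉ v.asIdeal) (P : Pl (crΩ T n))
    (hP : PlOver T.K (crΩ T n) P v) (hfrob : IsArithFrobAt (𝓞 T.K) σ P.asIdeal)
    (hres : crRes T n s = T.g)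
    (hind : ∀ a b : ℤ, crChi T n (s ^ a * σ ^ b) = 1 → crRes T n (s ^ a * σ ^ b) = 1) :
    Nonempty (CrossLeg T (cbdFc T n s) (crΩ T n) (cbdGc T n s) v) := by
  let _ : Algebra (cbdF T n s σ) (cbdFc T n s) := cxIncAlg T (crΩ T n) (cbd_F_le_Fc T n s σ)
  refine ⟨{
    m := n
    F := cbdF T n s σ
    M := cxLE T (crΩ T n) (cbdF T n s σ)
    Ω := crΩ T n
    towerFFcMc := IsScalarTower.of_algebraMap_eq (fun x => rfl)
    towerKFFc := IsScalarTower.of_algebraMap_eq (fun x => rfl)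
    cycΩ := cbd_isCyclotomicExtension T n s σ hind
    gF := cxGE T (crΩ T n) (cbdF T n s σ) s (cbd_s_fix_F T n s σ)
    gF_compat := by
      intro x
      apply Subtype.ext
      rw [cx_coe_cxGE, cx_coe_algebraMap_LE, cx_coe_algebraMap_LE, ← hres, crRes_spec]
    gc_compat := by
      intro y
      exact (cx_coe_cxGE T (crΩ T n) (cbdF T n s σ) s (cbd_s_fix_F T n s σ) y).symm
    finrank_FM := cx_finrank_LE T (crΩ T n) (cbdF T n s σ) s (cbd_s_fix_F T n s σ) (by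
      intro x
      rw [← hres, crRes_spec])
    coprime_v := hv
    W := plUnder (cbdF T n s σ) (crΩ T n) P
    W_under := by
      rw [dnt_plUnder_plUnder]
      exact HeightOneSpectrum.ext hP
    W_deg := by
      have hI : P.asIdeal.inertia (crΩ T n ≃ₐ[T.K] crΩ T n) = ⊥ :=
        ci_inertia_eq_bot T.unram n P (cf_natCast_not_mem_of_over n v hv P hP)
      exact (cs_split_fixedField P σ hfrob hI (cbdH T n s σ) (cbd_σ_mem_H T n s σ)).2 }⟩

end Build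

/-- BUILD: the ambient datum yields the crossing datum (exact statement of
`CrossPlan.cr_data_of_amb`). -/
theorem cr_data_of_amb {p : ℕ} [Fact p.Prime] (hp : p ≠ 2) (T : Tower p) (v₁ v₂ : Pl T.K)
    (X : CrossAmb T v₁ v₂) : Nonempty (CrossData T v₁ v₂) := by
  have hs1 : X.s ≠ 1 := by
    intro h
    apply T.g_ne_one
    rw [← X.res_s, h, map_one]
  obtain ⟨leg₁⟩ := cbd_leg T X.n X.s X.σ₁ v₁ X.coprime₁ X.P₁ X.P₁_over X.frob₁ X.res_s X.ind₁
  obtain ⟨leg₂⟩ := cbd_leg T X.n X.s X.σ₂ v₂ X.coprime₂ X.P₂ X.P₂_over X.frob₂ X.res_s X.ind₂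
  exact ⟨{
    Fc := cbdFc T X.n X.s
    Mc := crΩ T X.n
    gc := cbdGc T X.n X.s
    finrank_FcMc := cbd_finrank_Fc T X.n X.s hs1 X.s_pow
    leg₁ := leg₁
    leg₂ := leg₂ }⟩

end Fermat.Agent.S14x
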