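/-
S14 project, module CROSS, row DEG1 (helper28): a field fixed by a Frobenius has a degree-one
prime.  EXACT statements `CrossPlan.cr_deg_one`, `CrossPlan.cr_plUnder_plUnder`
(S14x/CrossPlan.lean).  (Same maths as helper33's `cb3_deg_one`, in the IntermediateField shape.)
Prefix `cd1_`.
-/
import Fermat.Agent.S14x.CrossFrob

set_option autoImplicit false

namespace Fermat.Agent.S14x

open NumberField IsDedekindDomain
open scoped Pointwise

section DEG1

variable {K Ω : Type} [Field K] [NumberField K] [Field Ω] [NumberField Ω] [Algebra K Ω]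
  [IsGalois K Ω]

theorem cr_plUnder_plUnder (S : IntermediateField K Ω) (P : Pl Ω) :
    plUnder K S (plUnder S Ω P) = plUnder K Ω P := by
  apply HeightOneSpectrum.ext
  change ((P.asIdeal.under (𝓞 S)).under (𝓞 K)) = P.asIdeal.under (𝓞 K)
  rw [Ideal.under_under]

/-- `S ⊆ Ω^σ`, `σ` a Frobenius at `P` ⇒ `W = P ∩ S` has residue degree one over `K`. -/
theorem cr_deg_one (S : IntermediateField K Ω) (P : Pl Ω) (σ : Ω ≃ₐ[K] Ω)
    (hσ : IsArithFrobAt (𝓞 K) σ P.asIdeal) (hfix : ∀ x ∈ S, σ x = x) :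
    Ideal.inertiaDeg (plUnder S Ω P).asIdeal (𝓞 K) = 1 := by
  have hover : PlOver K S (plUnder S Ω P) (plUnder K Ω P) :=
    congrArg HeightOneSpectrum.asIdeal (cr_plUnder_plUnder S P)
  apply cf_inertiaDeg_eq_one_of_one (plUnder K Ω P) (plUnder S Ω P) hover
  intro x
  change _ ∈ P.asIdeal.under (𝓞 S)
  rw [Ideal.under_def, Ideal.mem_comap, map_sub, map_pow]
  have h0 := hσ (algebraMap (𝓞 S) (𝓞 Ω) x)
  have hq : Nat.card (𝓞 K ⧸ P.asIdeal.under (𝓞 K)) = plNorm (plUnder K Ω P) :=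
    aa_card_quot (plUnder K Ω P)
  rw [hq] at h0
  have h1 : (MulSemiringAction.toAlgHom (𝓞 K) (𝓞 Ω) σ) (algebraMap (𝓞 S) (𝓞 Ω) x)
      = algebraMap (𝓞 S) (𝓞 Ω) x := by
    apply RingOfIntegers.ext
    exact hfix ((x : S) : Ω) (x : S).2
  rw [h1] at h0
  exact h0

end DEG1

end Fermat.Agent.S14x
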