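/-
S14 project, CROSS, step X6 = the formal endgame (helper52; pure abelian-group algebra).
From `e • [v_i] - d_i • c ∈ N` (`i = 1, 2`), `e` a unit mod `p`, `d₁ = k d₂` mod `p` and
`p • Dv ≤ N` deduce `[v₁] - k • [v₂] ∈ N`.  Prefix `ce_`.
-/
import Fermat.Agent.S14x.Defs

set_option autoImplicit false

namespace Fermat.Agent.S14x

open NumberField IsDedekindDomain

section Abstract

variable {A : Type*} [AddCommGroup A]

/-- if `N ⊇ pA` and `e` is prime to `p` then `e • X ∈ N → X ∈ N`. -/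
theorem ce_mem_of_zsmul_mem (N : AddSubgroup A) (p : ℕ) [Fact p.Prime]
    (hp : ∀ a : A, (p : ℤ) • a ∈ N) (e : ℤ) (he : (e : ZMod p) ≠ 0) (X : A)
    (hX : e • X ∈ N) : X ∈ N := by
  have hcop : IsCoprime e (p : ℤ) := by
    have hpp : Prime (p : ℤ) := Nat.prime_iff_prime_int.mp Fact.out
    rw [isCoprime_comm]
    refine (Prime.coprime_iff_not_dvd hpp).mpr ?_
    intro hdvd
    exact he ((ZMod.intCast_zmod_eq_zero_iff_dvd e p).mpr hdvd)
  obtain ⟨a, b, hab⟩ := hcop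
  have h1 : X = a • (e • X) + (p : ℤ) • (b • X) := by
    rw [smul_smul, smul_smul, ← add_smul, mul_comm (p : ℤ) b, hab, one_smul]
  rw [h1]
  exact N.add_mem (N.zsmul_mem hX a) (hp _)

/-- a multiple of `p` times anything is in `N` -/
theorem ce_zsmul_mem_of_dvd (N : AddSubgroup A) (p : ℕ)
    (hp : ∀ a : A, (p : ℤ) • a ∈ N) (d : ℤ) (hd : (d : ZMod p) = 0) (c : A) : d • c ∈ N := by
  obtain ⟨m, rfl⟩ := (ZMod.intCast_zmod_eq_zero_iff_dvd d p).mp hd
  rw [mul_smul]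
  exact hp _

/-- X6, abstract form. -/
theorem ce_endgame (N : AddSubgroup A) (p : ℕ) [Fact p.Prime]
    (hp : ∀ a : A, (p : ℤ) • a ∈ N) (x₁ x₂ c : A) (e d₁ d₂ k : ℤ)
    (he : (e : ZMod p) ≠ 0)
    (hd : (d₁ : ZMod p) = (k : ZMod p) * (d₂ : ZMod p))
    (h1 : e • x₁ - d₁ • c ∈ N) (h2 : e • x₂ - d₂ • c ∈ N) :
    x₁ - k • x₂ ∈ N := by
  apply ce_mem_of_zsmul_mem N p hp e he
  have h3 : e • (x₁ - k • x₂) =
      (e • x₁ - d₁ • c) - k • (e • x₂ - d₂ • c) + (d₁ - k * d₂) • c := by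
    simp only [smul_sub, sub_smul, mul_smul]
    rw [smul_comm e k x₂]
    abel
  rw [h3]
  refine N.add_mem (N.sub_mem h1 (N.zsmul_mem h2 k)) ?_
  apply ce_zsmul_mem_of_dvd N p hp
  push_cast
  rw [hd]
  ring

end Abstract

section Dv

variable {p : ℕ} [Fact p.Prime]
variable {F M : Type*} [Field F] [NumberField F] [Field M] [NumberField M] [Algebra F M]

/-- `p • Dv ≤ normGroup` -/
theorem ce_pmul_mem_normGroup (D : Dv F) : (p : ℤ) • D ∈ normGroup F M p := by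
  induction D using Finsupp.induction_linear with
  | zero => simp
  | add D E hD hE =>
    rw [smul_add]
    exact (normGroup F M p).add_mem hD hE
  | single v n =>
    have h1 : (Finsupp.single v (p : ℤ) : Dv F) ∈ normGroup F M p :=
      AddSubgroup.subset_closure (Or.inr ⟨v, rfl⟩)
    have h2 : (p : ℤ) • (Finsupp.single v n : Dv F) = n • Finsupp.single v (p : ℤ) := by
      rw [Finsupp.smul_single, Finsupp.smul_single, smul_eq_mul, smul_eq_mul, mul_comm]
    rw [h2]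
    exact AddSubgroup.zsmul_mem _ h1 n

/-- X6 for the norm group: from `e • [v_i] - d_i • c ∈ N` (`i = 1, 2`), `e` a unit mod `p`,
`d₁ = k d₂` mod `p`, deduce `[v₁] - k • [v₂] ∈ N = normGroup F M p`. -/
theorem ce_cross_endgame (v₁ v₂ : Pl F) (c : Dv F) (e d₁ d₂ k : ℤ)
    (he : (e : ZMod p) ≠ 0)
    (hd : (d₁ : ZMod p) = (k : ZMod p) * (d₂ : ZMod p))
    (h1 : e • Finsupp.single v₁ (1 : ℤ) - d₁ • c ∈ normGroup F M p)
    (h2 : e • Finsupp.single v₂ (1 : ℤ) - d₂ • c ∈ normGroup F M p) :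
    Finsupp.single v₁ (1 : ℤ) - k • Finsupp.single v₂ (1 : ℤ) ∈ normGroup F M p :=
  ce_endgame (normGroup F M p) p (fun D => ce_pmul_mem_normGroup D) _ _ c e d₁ d₂ k he hd h1 h2

end Dv

end Fermat.Agent.S14x
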