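/-
S14 / CROSS, row CR-GAL (helper4): generic facts on finite abelian Galois extensions.
Exact `CrossPlan` statements `cr_isGalois_of_comm`, `cr_finrank_eq_prime`,
`cr_finrank_fixedField_zpowers`.  Mathlib only.  Helper prefix `cga_`.
-/
import Mathlib

set_option autoImplicit false
set_option linter.unusedSectionVars false

namespace Fermat.Agent.S14x

section GAL
variable {F Ω : Type} [Field F] [Field Ω] [Algebra F Ω] [FiniteDimensional F Ω] [IsGalois F Ω]

/-- in an abelian extension every intermediate field is Galois over the base -/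
theorem cr_isGalois_of_comm (hcomm : ∀ a b : Ω ≃ₐ[F] Ω, a * b = b * a)
    (E : IntermediateField F Ω) : IsGalois F E := by
  have hn : (E.fixingSubgroup).Normal := ⟨fun n hn g => by
    rw [hcomm g n, mul_inv_cancel_right]; exact hn⟩
  have h : IsGalois F (IntermediateField.fixedField E.fixingSubgroup) :=
    IsGalois.of_fixedField_normal_subgroup E.fixingSubgroup
  rwa [IsGalois.fixedField_fixingSubgroup E] at h

/-- a group of prime order `p` has no proper non-trivial subgroup: a non-trivial group which
embeds into `ZMod p` has `p` elements. -/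
theorem cga_card_eq_prime {G : Type*} [Group G] {p : ℕ} [Fact p.Prime]
    (φ : G →* Multiplicative (ZMod p)) (hφ : Function.Injective φ) (hne : ∃ τ : G, τ ≠ 1) :
    Nat.card G = p := by
  have hcard : Nat.card (Multiplicative (ZMod p)) = p := by
    rw [Nat.card_congr (Multiplicative.toAdd (α := ZMod p)), Nat.card_eq_fintype_card]
    exact ZMod.card p
  have hfin : Finite G := Finite.of_injective φ hφ
  have hdvd : Nat.card G ∣ p := by
    have := Subgroup.card_subgroup_dvd_card φ.range
    rw [hcard] at this
    rwa [Nat.card_congr (MonoidHom.ofInjective hφ).toEquiv]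
  rcases (Nat.dvd_prime (Fact.out : p.Prime)).mp hdvd with h | h
  · exfalso
    obtain ⟨τ, hτ⟩ := hne
    have : Subsingleton G := (Nat.card_eq_one_iff_unique.mp h).1
    exact hτ (Subsingleton.elim _ _)
  · exact h

/-- degree of `E/F` when `Gal(E/F)` embeds into `ZMod p` and is non-trivial. -/
theorem cr_finrank_eq_prime {p : ℕ} [Fact p.Prime] (E : IntermediateField F Ω) [IsGalois F E]
    (φ : (E ≃ₐ[F] E) →* Multiplicative (ZMod p)) (hφ : Function.Injective φ)
    (hne : ∃ τ : E ≃ₐ[F] E, τ ≠ 1) : Module.finrank F E = p := by
  rw [← IsGalois.card_aut_eq_finrank F E]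
  exact cga_card_eq_prime φ hφ hne

/-- fixed field of a cyclic group of prime order -/
theorem cr_finrank_fixedField_zpowers {p : ℕ} [Fact p.Prime] (s : Ω ≃ₐ[F] Ω) (hs : s ≠ 1)
    (hsp : s ^ p = 1) :
    Module.finrank (IntermediateField.fixedField (Subgroup.zpowers s)) Ω = p := by
  rw [IntermediateField.finrank_fixedField_eq_card, Nat.card_zpowers]
  exact orderOf_eq_prime hsp hs

end GAL

end Fermat.Agent.S14x
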