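/-
S14 project, module CROSS, row CR-TOP (helper92): `Spec.cross` from KER alone.
AMBEX + BUILD are helper33's `cb3_exists_data` (S14x/CrossData33.lean), LEG + END helper52's
`clg_cross_of_data_of`, DENS is `exists_frobExp_ne_zero` (S14x/Dens.lean).  The only remaining
input is KER (`Spec.ker_artZ_le_rayGroup`), packaged as the Prop `clg_KER p`.
-/
import Fermat.Agent.S14x.CrossData33
import Fermat.Agent.S14x.Dens

set_option autoImplicit false

namespace Fermat.Agent.S14x

open NumberField IsDedekindDomain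

variable {p : ℕ} [Fact p.Prime]

/-- DENS (landed) in the packaged form `clg_DENS`. -/
theorem cok_DENS (hp : p ≠ 2) : clg_DENS p :=
  fun _ _ _ _ _ _ _ _ _ h m hm => exists_frobExp_ne_zero hp h m hm

/-- CROSS from KER: the exact conclusion (and hypotheses) of `Spec.cross`, plus `hKER`. -/
theorem cok_cross_of_ker (hKER : clg_KER p) (hp : p ≠ 2) (T : Tower p) (v₁ v₂ : Pl T.K) (k : ℤ)
    (hk : (k : ZMod p) * frobExp T.K T.L p T.g v₂ = frobExp T.K T.L p T.g v₁) :
    Finsupp.single v₁ (1 : ℤ) - k • Finsupp.single v₂ (1 : ℤ) ∈ normGroup T.K T.L p :=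
  cb3_cross_of T hKER (cok_DENS hp) hp v₁ v₂ k hk

end Fermat.Agent.S14x
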