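/-
S14 project, module CROSS: INTERFACE STUBS (helper88, acting CROSS captain).
sorry-only; NEVER import this file from a real module.  Real modules re-prove the SAME statement
under namespace `Fermat.Agent.S14x` (same name, without `CrossPlan.`), file/prefix as listed.
Real shared definitions: `S14x/CrossDefs.lean` (CrossLeg, CrossData), `S14x/CrossAmbient.lean`
(crΩ, crChi, crRes, CrossAmb).  Maths: blueprint `S14_blueprint_helper22` sec. 4, with the
simplifications of docs `S14_cross_design_helper88`.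

DAG:   cross  ⇐  cr_exists_amb (AMBEX ⇐ ArtinLemma, DISJ, FROB, AMB0)
              +  cr_data_of_amb (BUILD ⇐ AMB0, DEG1, GAL)
              +  cr_cross_of_data (END ⇐ cr_leg (LEG ⇐ Spec.KER/BC + bc_dvNorm_trans) + Spec.DENS
                                   + ce_cross_endgame (landed, S14x/CrossEnd.lean))
-/
import Fermat.Agent.S14x.CrossAmbient

set_option autoImplicit false

namespace Fermat.Agent.S14x.CrossPlan

open NumberField IsDedekindDomain

/-! ## AMB0 `CrossAmb0.lean` (prefix `ca0_`): basic facts on `Γ = Gal(L(ζ_n)/K)` -/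

section AMB0
variable {p : ℕ} (T : Tower p) (n : ℕ) [NeZero n]

/-- `(crRes, crChi)` is injective: `Ω = L(ζ_n)`. -/
theorem cr_res_chi_injective (σ σ' : crΩ T n ≃ₐ[T.K] crΩ T n)
    (hr : crRes T n σ = crRes T n σ') (hc : crChi T n σ = crChi T n σ') : σ = σ' := sorry

/-- hence `Γ` is commutative (`Gal(L/K)` is cyclic of prime order). -/
theorem cr_comm [Fact p.Prime] (σ σ' : crΩ T n ≃ₐ[T.K] crΩ T n) : σ * σ' = σ' * σ := sorry

/-- `crRes` is onto. -/
theorem cr_res_surjective : Function.Surjective (crRes T n) := sorry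

end AMB0

/-! ## DISJ `CrossDisjoint.lean` (prefix `cdj_`): `L ∩ K(ζ_n) = K` because `L/ℚ` is not abelian -/

/-- for `n` prime to `p`: every pair (automorphism of `L/K`, unit mod `n`) is realised in `Γ`.
(count: `[K(ζ_n):K] = φ(n)` since `K(ζ_n) = ℚ(ζ_{pn})`; `L ⊄ K(ζ_n)` since `Gal(L/ℚ)` is not
commutative by `Tower.conj` with `k = 2`; so `|Γ| = p φ(n)`; conclude with
`cr_res_chi_injective`.) -/
theorem cr_exists_res_chi {p : ℕ} [Fact p.Prime] (hp : p ≠ 2) (T : Tower p) (n : ℕ) [NeZero n]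
    (hn : n.Coprime p) (x : T.L ≃ₐ[T.K] T.L) (t : (ZMod n)ˣ) :
    ∃ σ : crΩ T n ≃ₐ[T.K] crΩ T n, crRes T n σ = x ∧ crChi T n σ = t := sorry

/-! ## FROB `CrossFrob.lean` (prefix `cfr_`): Frobenius elements in `Γ` -/

/-- for `v ∤ n`: a prime `P` of `Ω` over `v` and a Frobenius `σ ∈ Γ` at `P`; it restricts to the
Frobenius of `L/K` (AAPI `frob_unique`) and acts on `ζ_n` by `ζ ↦ ζ^{N v}`
(Mathlib `AlgHom.IsArithFrobAt.apply_of_pow_eq_one`). -/
theorem cr_exists_frob {p : ℕ} [Fact p.Prime] (T : Tower p) (n : ℕ) [NeZero n] (v : Pl T.K)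
    (hv : (n : 𝓞 T.K) ∉ v.asIdeal) :
    ∃ (P : Pl (crΩ T n)) (σ : crΩ T n ≃ₐ[T.K] crΩ T n), PlOver T.K (crΩ T n) P v ∧
      IsArithFrobAt (𝓞 T.K) σ P.asIdeal ∧ crRes T n σ = frob T.K T.L v ∧
      ((crChi T n σ : (ZMod n)ˣ) : ZMod n) = (plNorm v : ZMod n) := sorry

/-! ## AMBEX `CrossAmbEx.lean` (prefix `cax_`): Artin's lemma ⇒ ambient datum -/

/-- a₁ = N v₁, a₂ = N v₂ ≥ 2.  `al_artin_lemma'` for `a₁` (excluded `p a₂`) gives `m₁, τ₁`; for `a₂`
(excluded `p a₁ m₁`) gives `m₂, τ₂`; replace `τᵢ` by a power of exact order `p`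
(`⟨τᵢ'⟩ ⊆ ⟨τᵢ⟩` keeps independence); `n = m₁ m₂`, `t ∈ (ℤ/n)ˣ` with `t ≡ τᵢ mod mᵢ` (CRT);
`s` from `cr_exists_res_chi T.g t` (`s^p = 1` by injectivity); `σᵢ, Pᵢ` from `cr_exists_frob`;
`indᵢ`: `χ(s^a σᵢ^b) = 1` ⇒ mod `mᵢ`: `τᵢ^a aᵢ^b = 1` ⇒ `p ∣ a, p ∣ b` ⇒ `res = g^(a + b dᵢ) = 1`. -/
theorem cr_exists_amb {p : ℕ} [Fact p.Prime] (hp : p ≠ 2) (T : Tower p) (v₁ v₂ : Pl T.K) :
    Nonempty (CrossAmb T v₁ v₂) := sorry

/-! ## DEG1 `CrossDegOne.lean` (prefix `cd1_`): a field fixed by a Frobenius has a degree-one prime -/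

section DEG1
variable {K Ω : Type} [Field K] [NumberField K] [Field Ω] [NumberField Ω] [Algebra K Ω]
  [IsGalois K Ω]

/-- `S ⊆ Ω^σ`, `σ` a Frobenius at `P` ⇒ `W = P ∩ S` has residue degree one over `K`
(every `x ∈ 𝓞 S` satisfies `x = σ x ≡ x^q mod P`, so the residue field of `W` has `≤ q` elements). -/
theorem cr_deg_one (S : IntermediateField K Ω) (P : Pl Ω) (σ : Ω ≃ₐ[K] Ω)
    (hσ : IsArithFrobAt (𝓞 K) σ P.asIdeal) (hfix : ∀ x ∈ S, σ x = x) :
    Ideal.inertiaDeg (plUnder S Ω P).asIdeal (𝓞 K) = 1 := sorry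

theorem cr_plUnder_plUnder (S : IntermediateField K Ω) (P : Pl Ω) :
    plUnder K S (plUnder S Ω P) = plUnder K Ω P := sorry

end DEG1

/-! ## GAL `CrossGal.lean` (prefix `cga_`): abelian Galois extensions, generic bridge -/

section GAL
variable {F Ω : Type} [Field F] [Field Ω] [Algebra F Ω] [FiniteDimensional F Ω] [IsGalois F Ω]

/-- in an abelian extension every intermediate field is Galois over the base -/
theorem cr_isGalois_of_comm (hcomm : ∀ a b : Ω ≃ₐ[F] Ω, a * b = b * a)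
    (E : IntermediateField F Ω) : IsGalois F E := sorry

/-- degree of `F(L')/F` when `Gal(Ω/F)` restricted to the generating set `L'` is faithful of prime
order `p`: if `E = F(X)`, every `F`-automorphism of `E` is determined by a `ZMod p`-valued
exponent and some automorphism is non-trivial, then `[E:F] = p`.  (Concrete use: `X = L`, the
exponent comes from `Gal(L/K) = ⟨g⟩`.) -/
theorem cr_finrank_eq_prime {p : ℕ} [Fact p.Prime] (E : IntermediateField F Ω) [IsGalois F E]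
    (φ : (E ≃ₐ[F] E) →* Multiplicative (ZMod p)) (hφ : Function.Injective φ)
    (hne : ∃ τ : E ≃ₐ[F] E, τ ≠ 1) : Module.finrank F E = p := sorry

/-- fixed field of a cyclic group of prime order -/
theorem cr_finrank_fixedField_zpowers {p : ℕ} [Fact p.Prime] (s : Ω ≃ₐ[F] Ω) (hs : s ≠ 1)
    (hsp : s ^ p = 1) :
    Module.finrank (IntermediateField.fixedField (Subgroup.zpowers s)) Ω = p := sorry

/-- `F(ζ) = Ω` as soon as no non-trivial element of `Gal(Ω/F)` fixes the primitive root `ζ`. -/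
theorem cr_isCyclotomicExtension {n : ℕ} [NeZero n] (ζ : Ω) (hζ : IsPrimitiveRoot ζ n)
    (h : ∀ σ : Ω ≃ₐ[F] Ω, σ ζ = ζ → σ = 1) : IsCyclotomicExtension {n} F Ω := sorry

end GAL

/-! ## BUILD `CrossBuild*.lean` (prefix `cbd_`): ambient datum ⇒ fields.
`Fc = Ω^{⟨s⟩}`, `Mc = Ω`, `gc = s`;  `Fᵢ = Ω^{⟨s,σᵢ⟩}`, `Mᵢ = Fᵢ(L) ⊆ Ω`, `gFᵢ = s|Mᵢ`,
`Ωᵢ = Ω` with modulus `n` (`Fᵢ(ζ_n) = Ω` by `indᵢ` + `cr_res_chi_injective`), `Wᵢ = Pᵢ ∩ Fᵢ`. -/

theorem cr_data_of_amb {p : ℕ} [Fact p.Prime] (hp : p ≠ 2) (T : Tower p) (v₁ v₂ : Pl T.K)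
    (X : CrossAmb T v₁ v₂) : Nonempty (CrossData T v₁ v₂) := sorry

/-! ## LEG + END `CrossEnd.lean` (prefix `cen_`): the formal part (uses Spec KER / BC / DENS) -/

section END
variable {p : ℕ} [Fact p.Prime]

/-- one leg: for every prime `b` of `Fc` prime to `m`, with `e = frobExp(b)` in `Mc/Fc` and
`d = frobExp(v)` in `L/K`:  `e [v] - d N_{Fc/K}(b) ∈ normGroup K L p`.
(`D := e [W] - d N_{Fc/F} b`; `artZ_{M/F} D = e d - d e = 0` by `artZ_baseChange` twice; KER puts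
`D` in `rayGroup F M m`; `dvNorm_rayGroup_le` + `bc_dvNorm_trans` (landed, S14x/DvNormTrans.lean) push it down to `K`.) -/
theorem cr_leg (hp : p ≠ 2) (T : Tower p) {Fc Mc : Type} [Field Fc] [NumberField Fc] [Field Mc]
    [NumberField Mc] [Algebra T.K Fc] [Algebra Fc Mc] [IsGalois Fc Mc] (gc : Mc ≃ₐ[Fc] Mc)
    (hc : Module.finrank Fc Mc = p) (v : Pl T.K) (X : CrossLeg T Fc Mc gc v)
    (b : Pl Fc) (hb : (X.m : 𝓞 Fc) ∉ b.asIdeal) (e d : ℤ)
    (he : (e : ZMod p) = frobExp Fc Mc p gc b) (hd : (d : ZMod p) = frobExp T.K T.L p T.g v) :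
    e • Finsupp.single v (1 : ℤ) - d • dvNorm T.K Fc (Finsupp.single b (1 : ℤ)) ∈
      normGroup T.K T.L p := sorry

/-- the endgame: DENS on `Mc/Fc` gives `b` with `e ≠ 0`; combine the two legs. NOTE: no
hypothesis `frobExp v₂ ≠ 0` is needed. -/
theorem cr_cross_of_data (hp : p ≠ 2) (T : Tower p) (v₁ v₂ : Pl T.K) (X : CrossData T v₁ v₂)
    (k : ℤ) (hk : (k : ZMod p) * frobExp T.K T.L p T.g v₂ = frobExp T.K T.L p T.g v₁) :
    Finsupp.single v₁ (1 : ℤ) - k • Finsupp.single v₂ (1 : ℤ) ∈ normGroup T.K T.L p := sorry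

end END

/-! ## TOP `Cross.lean`: `cross` exactly as in `Spec.lean` -/

theorem cross {p : ℕ} [Fact p.Prime] (hp : p ≠ 2) (T : Tower p) (v₁ v₂ : Pl T.K) (k : ℤ)
    (h₂ : frobExp T.K T.L p T.g v₂ ≠ 0)
    (hk : (k : ZMod p) * frobExp T.K T.L p T.g v₂ = frobExp T.K T.L p T.g v₁) :
    Finsupp.single v₁ (1 : ℤ) - k • Finsupp.single v₂ (1 : ℤ) ∈ normGroup T.K T.L p := by
  obtain ⟨A⟩ := cr_exists_amb hp T v₁ v₂
  obtain ⟨X⟩ := cr_data_of_amb hp T v₁ v₂ A
  exact cr_cross_of_data hp T v₁ v₂ X k hk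

end Fermat.Agent.S14x.CrossPlan
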