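/-
S14 project, module CROSS (Artin's cyclotomic crossing): SUB-SPEC (helper65).
sorry-only; NEVER import this file from a real module.  Real modules re-prove the SAME statement
under namespace `Fermat.Agent.S14x` (same name, without `Spec.`), importing `S14x/CrossDefsB.lean`.
Rows CX1..CX9 of table s14_plan.  Target: `Spec.cross` (S14x/Spec.lean).

DESIGN (simplifies blueprint sec.4: ONE auxiliary abelian extension, no composita of different
cyclotomic fields).  Given `v₁ v₂ : Pl K` with Frobenius exponents `d₁, d₂ ≠ 0` (so not over `p`),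
`aᵢ = plNorm vᵢ`:
 * CX1 gives `m` prime to `p·a₁·a₂` and `τ ∈ (ℤ/m)ˣ` with `τ^x · aᵢ^y = 1 → p ∣ x ∧ p ∣ y`.
 * `Ω := CyclotomicField m L = L(ζ_m)`: abelian Galois over `K` (CX2), `s ∈ Gal(Ω/K)` with `s|L = g`,
   `s ζ = ζ^τ` (CX3); `fᵢ := frob K Ω vᵢ` : `fᵢ|L = frob K L vᵢ = g^dᵢ`, `fᵢ ζ = ζ^aᵢ` (CX4/CX5).
 * `Hᵢ := closure {s, fᵢ}`, `Fᵢ := fixedField Hᵢ`, `Fc := fixedField (H₁ ⊓ H₂)`.
   - `vᵢ` splits completely in `Fᵢ` (CX5: `fᵢ` fixes `Fᵢ`, `Ω/K` unramified at `vᵢ ∤ m`);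
   - `s` fixes `Fᵢ` and `Fc` pointwise and `s|L = g`, so `[L·E : E] = p` for `E = Fᵢ, Fc`, the
     restriction of `s` generates, `L·E/E` is `IsUCyc` (CX6);
   - `σ ∈ Hᵢ, σ ζ = ζ → σ = 1` (CX7), hence `Fᵢ(ζ_m) = Ω` : `IsCyclotomicExtension {m} Fᵢ Ω` (CX8):
     KER (`Spec.ker_artZ_le_rayGroup`) applies to `L·Fᵢ/Fᵢ` with the SAME modulus `m` for `i = 1, 2`.
 * CX9 assembly: DENS for `L·Fc/Fc` gives `b : Pl Fc`, `b ∤ m`, exponent `e ≠ 0`;
   `Dᵢ := e[Wᵢ] - dᵢ N_{Fc/Fᵢ} b` has `artZ = 0` (artZ_baseChange twice + dvNorm transitivity),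
   so `Dᵢ ∈ rayGroup Fᵢ (L·Fᵢ) m`, so `e[vᵢ] - dᵢ N_{Fc/K} b ∈ normGroup K L p` (dvNorm_rayGroup_le);
   combine, using `p·Dv ⊆ normGroup` and `e` prime to `p`.
-/
import Fermat.Agent.S14x.CrossDefsB

set_option autoImplicit false

namespace Fermat.Agent.S14x.Spec

open NumberField IsDedekindDomain
open Fermat.Agent.S14x

/-! ## CX1 `CrossBArtin.lean` (prefix `cxa_`): two-prime form of Artin's lemma
(from the LANDED `ArtinLemma.lean` `al_artin_lemma'` applied to `a₁` and then to `a₂` with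
`N := N·a₁·a₂·m₁`, `m := m₁·m₂`, `τ := CRT(τ₁, τ₂)`; project an identity mod `m` to `mᵢ`) -/

theorem cx_artin_two (p : ℕ) [Fact p.Prime] (a₁ a₂ N : ℕ) (h₁ : 2 ≤ a₁) (h₂ : 2 ≤ a₂)
    (hN : N ≠ 0) :
    ∃ m : ℕ, 1 < m ∧ m.Coprime N ∧ m.Coprime a₁ ∧ m.Coprime a₂ ∧
      ∃ τ : (ZMod m)ˣ, ∀ a : ℕ, a = a₁ ∨ a = a₂ → ∀ u : (ZMod m)ˣ, (u : ZMod m) = (a : ZMod m) →
        ∀ x y : ℤ, τ ^ x * u ^ y = 1 → (p : ℤ) ∣ x ∧ (p : ℤ) ∣ y := sorry

/-! ## CXN `CrossBNorm.lean` (prefix `cxn_`): general facts on `dvNorm` (Defs + Mathlib only) -/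

section Norm

variable (F F' F'' : Type) [Field F] [NumberField F] [Field F'] [NumberField F']
  [Field F''] [NumberField F''] [Algebra F F'] [Algebra F' F''] [Algebra F F'']
  [IsScalarTower F F' F'']

/-- transitivity of the divisor norm: ALREADY LANDED as `bc_dvNorm_trans` (S14x/DvNormTrans.lean) -/
theorem cx_dvNorm_trans (D : Dv F'') : dvNorm F F' (dvNorm F' F'' D) = dvNorm F F'' D := sorry

/-- the norm of a prime over a completely split prime -/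
theorem cx_dvNorm_single_of_splits (v : Pl F) (hv : SplitsCompletely F F' v) (w : Pl F')
    (hw : PlOver F F' w v) : dvNorm F F' (Finsupp.single w 1) = Finsupp.single v 1 := sorry

/-- norms of divisors prime to `m` are prime to `m` -/
theorem cx_coprimeTo_dvNorm (m : ℕ) (D : Dv F') (hD : CoprimeTo m D) :
    CoprimeTo m (dvNorm F F' D) := sorry

/-- `p·Dv ⊆ normGroup` (cf. landed `bcr_pmul_mem`, S14x/BaseChangeRay.lean) -/
theorem cx_nsmul_mem_normGroup (M : Type) [Field M] [NumberField M] [Algebra F M] (p : ℕ)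
    [NeZero p] (D : Dv F) : (p : ℤ) • D ∈ normGroup F M p := sorry

end Norm

/-! ## CXF `CrossBFrob.lean` (prefix `cxf_`): Frobenius elements of an ABELIAN extension `Ω/F` of
number fields (`frob F Ω v` of Defs = `arithFrobAt` at a chosen prime above `v`) -/

section AbFrob

variable {F Ω : Type} [Field F] [NumberField F] [Field Ω] [NumberField Ω] [Algebra F Ω]
  [IsAbelianGalois F Ω]

/-- in an abelian extension `frob F Ω v` is an arithmetic Frobenius at EVERY prime above `v`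
(conjugate primes have conjugate = equal Frobenius).  No ramification hypothesis. -/
theorem cxf_frob_spec (v : Pl F) (Q : Pl Ω) (hQ : PlOver F Ω Q v) (x : 𝓞 Ω) :
    frob F Ω v • x - x ^ plNorm v ∈ Q.asIdeal := sorry

/-- action of the Frobenius on roots of unity of order prime to `v`
(Mathlib `AlgHom.IsArithFrobAt.apply_of_pow_eq_one`) -/
theorem cxf_frob_root_of_unity (v : Pl F) (m : ℕ) (hm : (m : 𝓞 F) ∉ v.asIdeal) (ζ : Ω)
    (hζ : ζ ^ m = 1) : frob F Ω v ζ = ζ ^ plNorm v := sorry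

/-- if `Ω/F` is unramified above `v` and `E` is fixed pointwise by `frob F Ω v`, then `v` splits
completely in `E` (residue fields of `E` above `v` satisfy `x^{Nv} = x`; `e` divides `e(Q|v) = 1`). -/
theorem cxf_splitsCompletely_of_fixed (v : Pl F)
    (hur : ∀ Q : Pl Ω, PlOver F Ω Q v → Ideal.ramificationIdx Q.asIdeal (𝓞 F) = 1)
    (E : IntermediateField F Ω) (hE : ∀ x ∈ E, frob F Ω v x = x) :
    SplitsCompletely F E v := sorry

end AbFrob

/-! ## The tower setting -/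

section Tower

variable {p : ℕ} [Fact p.Prime] (T : Tower p)
variable (Ω : Type) [Field Ω] [NumberField Ω] [Algebra T.K Ω] [Algebra T.L Ω]
  [IsScalarTower T.K T.L Ω]

/-! ### CX2 `CrossBOmega.lean` (prefix `cxo_`): `Ω = L(ζ_m)` is abelian over `K` -/

theorem cx_isAbelianGalois_Omega (m : ℕ) [NeZero m] [IsCyclotomicExtension {m} T.L Ω] :
    IsAbelianGalois T.K Ω := sorry

/-! ### CX3 `CrossBLift.lean` (prefix `cxl_`): prescribed automorphisms of `L(ζ_m)/K`, `p ∤ m`.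
(`[L(ζ_m):L] = φ(m)`: `K(ζ_m) = ℚ(ζ_{pm})` has degree `φ(pm)` over `ℚ`, and `L ⊄ K(ζ_m)` because
`Gal(L/ℚ)` is not abelian by `Tower.conj`; then lift `g` and correct by an element of `Gal(Ω/L)`.) -/

theorem cx_exists_s (hp : p ≠ 2) (m : ℕ) [NeZero m] (hm : m.Coprime p)
    [IsCyclotomicExtension {m} T.L Ω] (ζ : Ω) (hζ : IsPrimitiveRoot ζ m) (τ : (ZMod m)ˣ) :
    ∃ s : Ω ≃ₐ[T.K] Ω, (∀ x : T.L, s (algebraMap T.L Ω x) = algebraMap T.L Ω (T.g x)) ∧
      s ζ = ζ ^ (τ : ZMod m).val := sorry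

/-! ### CX4 `CrossBUnram.lean` (prefix `cxu_`): `L(ζ_m)/K` is unramified at primes not dividing `m`
(`L/K` unramified by `T.unram`; inertia acts trivially on `ζ_m` since `∏_{j≠0}(1-ζ^j) = m`) -/

theorem cx_unramified_Omega (m : ℕ) [NeZero m] [IsCyclotomicExtension {m} T.L Ω] (v : Pl T.K)
    (hv : (m : 𝓞 T.K) ∉ v.asIdeal) (Q : Pl Ω) (hQ : PlOver T.K Ω Q v) :
    Ideal.ramificationIdx Q.asIdeal (𝓞 T.K) = 1 := sorry

/-! ### CX5 `CrossBFrobTower.lean` (prefix `cxt_`): the Frobenius of `Ω/K` restricts to the one of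
`L/K` (uses AAPI `frob_unique` via Spec; `tower_isUCyc`) -/

theorem cx_frob_restrict [IsAbelianGalois T.K Ω] (v : Pl T.K) (x : T.L) :
    frob T.K Ω v (algebraMap T.L Ω x) = algebraMap T.L Ω (frob T.K T.L v x) := sorry

/-! ### CX6 `CrossBBC.lean` (prefix `cxb_`): base change of the tower to an intermediate field `E`
fixed by an automorphism `s` with `s|L = g`.  (`L ∩ E ⊆ L^{⟨g⟩} = K`, so `[L·E : E] = p`.) -/

section BC

variable [IsAbelianGalois T.K Ω] (E : IntermediateField T.K Ω) (s : Ω ≃ₐ[T.K] Ω)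
  (hsE : ∀ x ∈ E, s x = x)
  (hsL : ∀ x : T.L, s (algebraMap T.L Ω x) = algebraMap T.L Ω (T.g x))

include hsL in
theorem cx_finrank_LE : Module.finrank E (cxLE T Ω E) = p := sorry

include hsL in
theorem cx_cxGE_algebraMap (x : T.L) :
    cxGE T Ω E s hsE (algebraMap T.L (cxLE T Ω E) x) = algebraMap T.L (cxLE T Ω E) (T.g x) := sorry

include hsL in
/-- assembled from `cx_finrank_LE`, `cx_cxGE_algebraMap`, `Spec.tower_isUCyc`,
`Spec.isUCyc_baseChange` -/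
theorem cx_isUCyc_LE : IsUCyc p E (cxLE T Ω E) (cxGE T Ω E s hsE) := sorry

end BC

/-! ### CX7 `CrossBIndep.lean` (prefix `cxi_`): the independence computation in `closure {s, f}` -/

theorem cx_closure_indep [IsAbelianGalois T.K Ω] (m : ℕ) [NeZero m]
    [IsCyclotomicExtension {m} T.L Ω] (ζ : Ω) (hζ : IsPrimitiveRoot ζ m)
    (s f : Ω ≃ₐ[T.K] Ω) (τ u : (ZMod m)ˣ)
    (hsL : ∀ x : T.L, s (algebraMap T.L Ω x) = algebraMap T.L Ω (T.g x))
    (hsζ : s ζ = ζ ^ (τ : ZMod m).val)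
    (d : ℕ) (hfL : ∀ x : T.L, f (algebraMap T.L Ω x) = algebraMap T.L Ω ((T.g ^ d) x))
    (hfζ : f ζ = ζ ^ (u : ZMod m).val)
    (hind : ∀ x y : ℤ, τ ^ x * u ^ y = 1 → (p : ℤ) ∣ x ∧ (p : ℤ) ∣ y) :
    ∀ σ ∈ Subgroup.closure ({s, f} : Set (Ω ≃ₐ[T.K] Ω)), σ ζ = ζ → σ = 1 := sorry

/-! ### CX8 `CrossBCyc.lean` (prefix `cxc_`): `E(ζ_m) = Ω` from the Galois correspondence -/

theorem cx_isCyclotomicExtension_of_fixed [IsGalois T.K Ω] (m : ℕ) [NeZero m] (ζ : Ω)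
    (hζ : IsPrimitiveRoot ζ m) (E : IntermediateField T.K Ω)
    (hE : ∀ σ : Ω ≃ₐ[T.K] Ω, (∀ x ∈ E, σ x = x) → σ ζ = ζ → σ = 1) :
    IsCyclotomicExtension {m} E Ω := sorry

end Tower

/-! ## CX9 `CrossB.lean` (then `Cross.lean`): assembly = `Spec.cross` of S14x/Spec.lean (owner helper65) -/

end Fermat.Agent.S14x.Spec
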