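/-
S14 project, module CROSS, row TOP in KER-HYPOTHESIS FORM (helper64; prefix `cxt64_`):
`cxt64_cross_of_ker` = the statement of `Spec.cross` (S14x/Spec.lean) given only the statement KER
(`clg_KER p`, i.e. `Spec.ker_artZ_le_rayGroup`).  Wiring:
AMBEX `cax64_exists_amb` (CrossAmbEx64) + BUILD `cb3_data_of_amb` (CrossBuild33) +
END `clg_cross_of_data_of` (CrossLegLemma) + DENS `exists_frobExp_ne_zero` (Dens).
Once KER is landed as `ker_artZ_le_rayGroup`, the bare `cross` is
`cxt64_cross_of_ker hp (fun F M _ _ _ _ _ _ g h Ω _ _ _ _ m _ _ D hD h0 =>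
   ker_artZ_le_rayGroup hp h Ω m D hD h0) T v₁ v₂ k h₂ hk`.
sorry-free.  NEVER edit once landed (add new files).
-/
import Fermat.Agent.S14x.CrossAmbEx64
import Fermat.Agent.S14x.CrossBuild33
import Fermat.Agent.S14x.CrossLegLemma
import Fermat.Agent.S14x.Dens

set_option autoImplicit false

namespace Fermat.Agent.S14x

open NumberField IsDedekindDomain

variable {p : ℕ} [Fact p.Prime]

/-- DENS in the packaged form used by `clg_cross_of_data_of`. -/
theorem cxt64_dens (hp : p ≠ 2) : clg_DENS p :=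
  fun _ _ _ _ _ _ _ _ _ h m hm => exists_frobExp_ne_zero hp h m hm

/-- **CROSS** from KER: Artin's cyclotomic crossing, exact conclusion of `Spec.cross`. -/
theorem cxt64_cross_of_ker (hp : p ≠ 2) (hKER : clg_KER p) (T : Tower p) (v₁ v₂ : Pl T.K) (k : ℤ)
    (_h₂ : frobExp T.K T.L p T.g v₂ ≠ 0)
    (hk : (k : ZMod p) * frobExp T.K T.L p T.g v₂ = frobExp T.K T.L p T.g v₁) :
    Finsupp.single v₁ (1 : ℤ) - k • Finsupp.single v₂ (1 : ℤ) ∈ normGroup T.K T.L p := by
  obtain ⟨A⟩ := cax64_exists_amb hp T v₁ v₂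
  obtain ⟨X⟩ := cb3_data_of_amb T A
  exact clg_cross_of_data_of hKER (cxt64_dens hp) T v₁ v₂ X k hk

end Fermat.Agent.S14x
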