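/-
S14 project, module CROSS, row CR-TOP in hypothesis form (helper92):
`ct_cross_of` = the conclusion of `Spec.cross` from AMBEX (`CrossPlan.cr_exists_amb`, as a
hypothesis), KER (`Spec.ker_artZ_le_rayGroup`, as the Prop `clg_KER p`) and DENS (landed:
`exists_frobExp_ne_zero`), through the landed BUILD (`cb3_data_of_amb`, helper33) and LEG/END
(`clg_cross_of_data_of`, helper52).  `ct_cross_of'` takes DENS from `Dens.lean`.
The final `S14x/Cross.lean` (bare name `cross`) is a two-line instantiation.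
-/
import Fermat.Agent.S14x.CrossBuild33
import Fermat.Agent.S14x.CrossLegLemma
import Fermat.Agent.S14x.Dens

set_option autoImplicit false

namespace Fermat.Agent.S14x

open NumberField IsDedekindDomain

variable {p : ℕ} [Fact p.Prime]

/-- DENS (landed) in the packaged form `clg_DENS`. -/
theorem ct_DENS (hp : p ≠ 2) : clg_DENS p :=
  fun _ _ _ _ _ _ _ _ _ h m hm => exists_frobExp_ne_zero hp h m hm

/-- CR-TOP, hypothesis form: AMBEX + KER + DENS ⇒ `cross`. -/
theorem ct_cross_of (T : Tower p)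
    (hamb : ∀ v₁ v₂ : Pl T.K, Nonempty (CrossAmb T v₁ v₂))
    (hKER : clg_KER p) (hDENS : clg_DENS p) (v₁ v₂ : Pl T.K) (k : ℤ)
    (hk : (k : ZMod p) * frobExp T.K T.L p T.g v₂ = frobExp T.K T.L p T.g v₁) :
    Finsupp.single v₁ (1 : ℤ) - k • Finsupp.single v₂ (1 : ℤ) ∈ normGroup T.K T.L p := by
  obtain ⟨A⟩ := hamb v₁ v₂
  obtain ⟨X⟩ := cb3_data_of_amb T A
  exact clg_cross_of_data_of hKER hDENS T v₁ v₂ X k hk

/-- CR-TOP with DENS plugged in: only AMBEX and KER remain as hypotheses. -/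
theorem ct_cross_of' (hp : p ≠ 2) (T : Tower p)
    (hamb : ∀ v₁ v₂ : Pl T.K, Nonempty (CrossAmb T v₁ v₂))
    (hKER : clg_KER p) (v₁ v₂ : Pl T.K) (k : ℤ)
    (hk : (k : ZMod p) * frobExp T.K T.L p T.g v₂ = frobExp T.K T.L p T.g v₁) :
    Finsupp.single v₁ (1 : ℤ) - k • Finsupp.single v₂ (1 : ℤ) ∈ normGroup T.K T.L p :=
  ct_cross_of T hamb hKER (ct_DENS hp) v₁ v₂ k hk

end Fermat.Agent.S14x
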