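/-
S14 project, module DICT (sub-captain helper92): the bare Spec name `exists_tower`.
The proof is helper97's `dt_exists_tower` (S14x/DictTower.lean); helper74's independent
`dtw_exists_tower` (S14x/DictTower74.lean) is a drop-in spare.
-/
import Fermat.Agent.S14x.DictTower

set_option autoImplicit false

namespace Fermat.Agent.S14x

open ExtCitation

/-- DICT (Spec T1): a non-split admissible extension produces a tower of number fields. -/
theorem exists_tower {p : ℕ} [Fact p.Prime] (h3 : 3 ≤ p)
    (V : Type) [AddCommGroup V] [Module (ZMod p) V]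
    [DistribMulAction (AlgebraicClosure ℚ ≃ₐ[ℚ] AlgebraicClosure ℚ) V]
    [SMulCommClass (AlgebraicClosure ℚ ≃ₐ[ℚ] AlgebraicClosure ℚ) (ZMod p) V]
    (C : Submodule (ZMod p) V) (hadm : IsAdmissibleExtensionCts p V C)
    (hns : ¬ SplitsGlobally C) : Nonempty (Tower p) :=
  dt_exists_tower h3 V C hadm hns

end Fermat.Agent.S14x
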