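/-
S14 project, module DICT-A (helper11): pure algebra of a 2-dimensional `𝔽_p`-representation which
is an extension of a character `χ` by the trivial character.  Prefix `da_`.
-/
import Mathlib

set_option autoImplicit false
set_option linter.unusedSectionVars false

namespace Fermat.Agent.S14x

open scoped Pointwise

section Alg

variable {G : Type*} [Group G] {p : ℕ} [Fact p.Prime] {V : Type*} [AddCommGroup V]
  [Module (ZMod p) V] [DistribMulAction G V] [SMulCommClass G (ZMod p) V]

/-- the shape of an extension of `χ` by the trivial character -/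
structure DAHyp (C : Submodule (ZMod p) V) (χ : G → ZMod p) : Prop where
  fixed : ∀ σ : G, ∀ x ∈ C, σ • x = x
  quot : ∀ (σ : G) (x : V), σ • x - χ σ • x ∈ C
  card_sub : Nat.card C = p
  card_total : Nat.card V = p ^ 2

variable {C : Submodule (ZMod p) V} {χ : G → ZMod p}

/-! ### basic consequences -/

theorem da_finite (h : DAHyp C χ) : Finite V := by
  apply Nat.finite_of_card_ne_zero
  rw [h.card_total]
  exact pow_ne_zero 2 (Fact.out : p.Prime).ne_zero

/-- there is a vector outside `C` -/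
theorem da_exists_notMem (h : DAHyp C χ) : ∃ v₀ : V, v₀ ∉ C := by
  by_contra hcon
  push Not at hcon
  have htop : C = ⊤ := eq_top_iff.mpr fun x _ => hcon x
  have h1 : Nat.card C = Nat.card V := by
    rw [htop]
    exact Nat.card_congr (Submodule.topEquiv (R := ZMod p) (M := V)).toEquiv
  rw [h.card_sub, h.card_total] at h1
  have hp := (Fact.out : p.Prime).one_lt
  nlinarith

/-- a scalar multiple of a vector outside `C` lies in `C` only if the scalar is `0` -/
theorem da_smul_mem_iff {v₀ : V} (hv₀ : v₀ ∉ C) (a : ZMod p) : a • v₀ ∈ C ↔ a = 0 := by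
  constructor
  · intro ha
    by_contra ha0
    apply hv₀
    have : v₀ = a⁻¹ • (a • v₀) := by rw [smul_smul, inv_mul_cancel₀ ha0, one_smul]
    rw [this]
    exact C.smul_mem _ ha
  · rintro rfl
    rw [zero_smul]
    exact C.zero_mem

/-- `V = 𝔽_p v₀ ⊕ C` for every `v₀ ∉ C` -/
theorem da_exists_decomp (h : DAHyp C χ) {v₀ : V} (hv₀ : v₀ ∉ C) (v : V) :
    ∃ (a : ZMod p) (c : V), c ∈ C ∧ v = a • v₀ + c := by
  have := da_finite h
  have hinj : Function.Injective (fun x : ZMod p × C => x.1 • v₀ + (x.2 : V)) := by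
    rintro ⟨a, c⟩ ⟨a', c'⟩ hx
    simp only at hx
    have h1 : (a - a') • v₀ = (c' : V) - c := by
      rw [sub_smul, sub_eq_sub_iff_add_eq_add, hx, add_comm]
    have h2 : (a - a') • v₀ ∈ C := by
      rw [h1]
      exact C.sub_mem c'.2 c.2
    have h3 := (da_smul_mem_iff hv₀ _).mp h2
    have h4 : a = a' := sub_eq_zero.mp h3
    subst h4
    have h5 : (c : V) = c' := by
      have := hx
      simpa using this
    rw [Subtype.ext h5]
  have hcard : Nat.card V ≤ Nat.card (ZMod p × C) := by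
    rw [Nat.card_prod, Nat.card_zmod, h.card_sub, h.card_total, sq]
  obtain ⟨⟨a, c⟩, hac⟩ := (hinj.bijective_of_nat_card_le hcard).2 v
  exact ⟨a, c, c.2, hac.symm⟩

/-- an element acting trivially has `χ = 1` -/
theorem da_chi_eq_one_of_trivial (h : DAHyp C χ) (σ : G) (hσ : ∀ v : V, σ • v = v) :
    χ σ = 1 := by
  obtain ⟨v₀, hv₀⟩ := da_exists_notMem h
  have h1 := h.quot σ v₀
  rw [hσ v₀] at h1
  have h2 : (1 - χ σ) • v₀ ∈ C := by
    rw [sub_smul, one_smul]
    exact h1
  have h3 := (da_smul_mem_iff hv₀ _).mp h2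
  exact (sub_eq_zero.mp h3).symm

/-- two elements with the same `χ` and the same value at one `v₀ ∉ C` act in the same way -/
theorem da_smul_eq_of (h : DAHyp C χ) {v₀ : V} (hv₀ : v₀ ∉ C) (σ τ : G)
    (h0 : σ • v₀ = τ • v₀) (v : V) : σ • v = τ • v := by
  obtain ⟨a, c, hc, rfl⟩ := da_exists_decomp h hv₀ v
  rw [smul_add, smul_add, smul_comm σ a v₀, smul_comm τ a v₀, h0, h.fixed σ c hc,
    h.fixed τ c hc]

/-- the kernel of the action has index at most `p²` (`σ H ↦ (χ σ, σ v₀ - χ σ • v₀)` is injective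
for `v₀ ∉ C`) -/
theorem da_index_le (h : DAHyp C χ) (H : Subgroup G)
    (hH : ∀ σ, σ ∈ H ↔ ∀ v : V, σ • v = v) : H.index ≠ 0 ∧ H.index ≤ p ^ 2 := by
  classical
  obtain ⟨v₀, hv₀⟩ := da_exists_notMem h
  have hfinV := da_finite h
  let f : G → ZMod p × C := fun σ => (χ σ, ⟨σ • v₀ - χ σ • v₀, h.quot σ v₀⟩)
  have hf : ∀ σ τ : G, f σ = f τ → σ⁻¹ * τ ∈ H := by
    intro σ τ hστ
    have h1 : χ σ = χ τ := congrArg Prod.fst hστ
    have h2 : σ • v₀ - χ σ • v₀ = τ • v₀ - χ τ • v₀ := congrArg (fun x => (x.2 : V)) hστ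
    rw [h1] at h2
    have h3 : σ • v₀ = τ • v₀ := sub_left_injective h2
    rw [hH]
    intro v
    rw [mul_smul, ← da_smul_eq_of h hv₀ σ τ h3 v, inv_smul_smul]
  let F : G ⧸ H → ZMod p × C := fun q => f (Quotient.out q)
  have hF : Function.Injective F := by
    intro q q' hqq'
    have h1 := hf _ _ hqq'
    have h2 : (QuotientGroup.mk (Quotient.out q) : G ⧸ H) = QuotientGroup.mk (Quotient.out q') :=
      QuotientGroup.eq.mpr h1
    rwa [QuotientGroup.out_eq', QuotientGroup.out_eq'] at h2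
  have hfinC : Finite C := inferInstance
  have hfin : Finite (G ⧸ H) := Finite.of_injective F hF
  have hcard : Nat.card (G ⧸ H) ≤ p ^ 2 := by
    calc Nat.card (G ⧸ H) ≤ Nat.card (ZMod p × C) := Nat.card_le_card_of_injective F hF
      _ = p ^ 2 := by rw [Nat.card_prod, Nat.card_zmod, h.card_sub, sq]
  rw [Subgroup.index_eq_card]
  exact ⟨Nat.card_pos.ne', hcard⟩

/-- a unipotent element preserving a complement of `C` is trivial -/
theorem da_trivial_of_isCompl (h : DAHyp C χ) (C' : Submodule (ZMod p) V) (hc : IsCompl C C')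
    (n : G) (hn : χ n = 1) (hstab : ∀ x ∈ C', n • x ∈ C') (v : V) : n • v = v := by
  have hv : v ∈ C ⊔ C' := by rw [hc.sup_eq_top]; trivial
  obtain ⟨a, ha, b, hb, rfl⟩ := Submodule.mem_sup.mp hv
  have h1 : n • b - b ∈ C := by
    have := h.quot n b
    rwa [hn, one_smul] at this
  have h2 : n • b - b ∈ C' := C'.sub_mem (hstab b hb) hb
  have h3 : n • b - b ∈ C ⊓ C' := ⟨h1, h2⟩
  rw [hc.inf_eq_bot, Submodule.mem_bot, sub_eq_zero] at h3
  rw [smul_add, h.fixed n a ha, h3]

/-- powers of a unipotent element -/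
theorem da_pow_smul (h : DAHyp C χ) (n : G) (hn : χ n = 1) (k : ℕ) (v : V) :
    n ^ k • v = v + k • (n • v - v) := by
  have hc : n • v - v ∈ C := by
    have := h.quot n v
    rwa [hn, one_smul] at this
  induction k with
  | zero => simp
  | succ k ih =>
    rw [pow_succ', mul_smul, ih, smul_add, smul_comm n k (n • v - v), h.fixed n _ hc, succ_nsmul]
    abel

/-- `σ n^k σ⁻¹ = n` on `V` when `χ n = 1` and `χ σ = k` -/
theorem da_conj (h : DAHyp C χ) (σ n : G) (k : ℕ) (hn : χ n = 1) (hσ : χ σ = (k : ZMod p))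
    (v : V) : (σ * n ^ k * σ⁻¹) • v = n • v := by
  set w : V := σ⁻¹ • v with hw
  have hcw : n • w - w ∈ C := by
    have := h.quot n w
    rwa [hn, one_smul] at this
  -- `k • w ≡ v` modulo `C`
  have h1 : v - (k : ZMod p) • w ∈ C := by
    have := h.quot σ w
    rwa [hw, smul_inv_smul, hσ] at this
  -- `c(x) = n x - x` vanishes on `C` and is linear
  have h2 : n • (v - (k : ZMod p) • w) = v - (k : ZMod p) • w := h.fixed n _ h1
  have h3 : n • v - v = (k : ZMod p) • (n • w - w) := by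
    rw [smul_sub, smul_comm n ((k : ZMod p)) w] at h2
    rw [smul_sub]
    have : n • v - v = (n • v - (k : ZMod p) • n • w) - (v - (k : ZMod p) • w)
        + ((k : ZMod p) • n • w - (k : ZMod p) • w) := by abel
    rw [this, h2]
    abel
  rw [mul_smul, mul_smul, ← hw, da_pow_smul h n hn k w, smul_add, hw, smul_inv_smul, ← hw,
    smul_comm σ k (n • w - w), h.fixed σ _ hcw, ← Nat.cast_smul_eq_nsmul (ZMod p), ← h3]
  abel

/-- Maschke: if the action factors through a finite quotient of order prime to `p`, then `C` has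
a stable complement.  (average a linear retraction `V → C` over the left cosets of `H`) -/
theorem da_dvd_index_of_not_split (h : DAHyp C χ) (H : Subgroup G)
    (hH : ∀ σ ∈ H, ∀ v : V, σ • v = v) (hfin : H.index ≠ 0)
    (hns : ¬ ∃ C' : Submodule (ZMod p) V, (∀ σ : G, ∀ x ∈ C', σ • x ∈ C') ∧ IsCompl C C') :
    p ∣ H.index := by
  classical
  by_contra hp
  apply hns
  have : Fintype (G ⧸ H) := Subgroup.fintypeOfIndexNeZero hfin
  have hm : ((H.index : ℕ) : ZMod p) ≠ 0 := by
    rwa [Ne, ZMod.natCast_eq_zero_iff]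
  have hcardm : Fintype.card (G ⧸ H) = H.index := by
    rw [Subgroup.index_eq_card, Nat.card_eq_fintype_card]
  -- a linear retraction onto `C`
  obtain ⟨C₀, hC₀⟩ := Submodule.exists_isCompl C
  set π : V →ₗ[ZMod p] C := Submodule.projectionOnto C C₀ hC₀ with hπ
  have hπC : ∀ c : C, π c = c := fun c => Submodule.projectionOnto_apply_left hC₀ c
  -- independence of the representative
  have hrep : ∀ (g g' : G), (QuotientGroup.mk g : G ⧸ H) = QuotientGroup.mk g' →
      ∀ v : V, g⁻¹ • v = g'⁻¹ • v := by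
    intro g g' hgg' v
    have h1 : g⁻¹ * g' ∈ H := QuotientGroup.eq.mp hgg'
    have h2 := hH _ h1 (g'⁻¹ • v)
    rw [mul_smul, smul_inv_smul] at h2
    exact h2
  set P : V →ₗ[ZMod p] C :=
    ∑ q : G ⧸ H, π ∘ₗ DistribSMul.toLinearMap (ZMod p) V (Quotient.out q)⁻¹ with hP
  have hPapp : ∀ v : V, P v = ∑ q : G ⧸ H, π ((Quotient.out q)⁻¹ • v) := by
    intro v
    rw [hP, LinearMap.sum_apply]
    rfl
  have hPC : ∀ c : C, P c = (H.index : ZMod p) • c := by
    intro c
    rw [hPapp]
    have : ∀ q : G ⧸ H, π ((Quotient.out q)⁻¹ • (c : V)) = c := by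
      intro q
      rw [h.fixed _ _ c.2, hπC]
    simp only [this, Finset.sum_const, Finset.card_univ, hcardm, Nat.cast_smul_eq_nsmul]
  have hPinv : ∀ (σ : G) (v : V), P (σ • v) = P v := by
    intro σ v
    rw [hPapp, hPapp]
    -- reindex by `q ↦ σ⁻¹ • q`
    rw [← Equiv.sum_comp (MulAction.toPerm σ⁻¹ : Equiv.Perm (G ⧸ H))
      (fun q => π ((Quotient.out q)⁻¹ • v))]
    refine Finset.sum_congr rfl fun q _ => ?_
    congr 1
    rw [MulAction.toPerm_apply]
    have hq : ((σ⁻¹ • q : G ⧸ H)) = QuotientGroup.mk (σ⁻¹ * Quotient.out q) := by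
      conv_lhs => rw [← QuotientGroup.out_eq' q]
      rfl
    have h1 := hrep (Quotient.out (σ⁻¹ • q : G ⧸ H)) (σ⁻¹ * Quotient.out q)
      (by rw [QuotientGroup.out_eq', hq]) v
    rw [h1, mul_inv_rev, inv_inv, mul_smul]
  set f : V →ₗ[ZMod p] C := ((H.index : ZMod p))⁻¹ • P with hf
  have hfC : ∀ c : C, f c = c := by
    intro c
    rw [hf, LinearMap.smul_apply, hPC, smul_smul, inv_mul_cancel₀ hm, one_smul]
  refine ⟨LinearMap.ker f, ?_, LinearMap.isCompl_of_proj hfC⟩
  intro σ x hx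
  rw [LinearMap.mem_ker] at hx ⊢
  rw [hf, LinearMap.smul_apply] at hx ⊢
  rw [hPinv σ x]
  exact hx

end Alg

end Fermat.Agent.S14x
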