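import Fermat.Agent.S14x.ChiNontrivial

/-!
# S14 project, DICT part (a): the cocycle algebra of an admissible extension

`V` an admissible extension (plane over `𝔽_p`, line `C` with trivial action, quotient `μ_p`).
`N = dca_kerRho V` is the kernel of the action of `G = Gal(Q̄/ℚ)` on `V`, `H = ker ω` the kernel of
the mod-`p` cyclotomic character `s14Chi p`.  Pure group theory / linear algebra:

* `dca_kerRho_le` : `N ≤ H`;
* `dca_exists_b` : a homomorphism `b : H →* Multiplicative (ZMod p)` with kernel `N`;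
* `dca_exists_gen` : for a non-split `V` (and `p ≥ 3`) there is `σ₀ ∈ H \ N`;
  `dca_exists_pow` : every `σ ∈ H` is `σ₀ ^ k` modulo `N`; `dca_pow_p_mem` : `σ ^ p ∈ N`;
* `dca_conj` : `τ σ^k = σ τ` on `V` when `ω τ = k`;
* `dca_inertia_le`, `dca_decomp_le` : the local conditions in terms of `N`;
* `dca_isOpen_kerRho` : `N` is open for a continuous admissible extension.
-/

set_option autoImplicit false
set_option linter.unusedSectionVars false

namespace Fermat.Agent.S14x

open ExtCitation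

/-- the kernel of the action of `G_ℚ` on `V` -/
noncomputable def dca_kerRho (V : Type) [MulAction s14G V] : Subgroup s14G :=
  (MulAction.toPermHom s14G V).ker

theorem dca_mem_kerRho {V : Type} [MulAction s14G V] {σ : s14G} :
    σ ∈ dca_kerRho V ↔ ∀ v : V, σ • v = v := by
  rw [dca_kerRho, MonoidHom.mem_ker, Equiv.Perm.ext_iff]
  rfl

instance dca_kerRho_normal (V : Type) [MulAction s14G V] : (dca_kerRho V).Normal :=
  MonoidHom.normal_ker _

variable {p : ℕ} [Fact p.Prime]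

/-- `σ ζ = ζ ^ k` iff `ω σ = k` -/
theorem dca_apply_zeta_eq_pow_iff {ζ : AlgebraicClosure ℚ} (hζ : IsPrimitiveRoot ζ p) (σ : s14G)
    (k : ℕ) : σ ζ = ζ ^ k ↔ (k : ZMod p) = ((s14Chi p σ : (ZMod p)ˣ) : ZMod p) := by
  have : NeZero p := ⟨(Fact.out : p.Prime).ne_zero⟩
  have hζ0 : ζ ≠ 0 := hζ.ne_zero (NeZero.ne p)
  have htmem : Units.mk0 ζ hζ0 ∈ rootsOfUnity p (AlgebraicClosure ℚ) := by
    rw [mem_rootsOfUnity]
    ext
    rw [Units.val_pow_eq_pow_val, Units.val_mk0, hζ.pow_eq_one, Units.val_one]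
  have h := s14a_chi_spec p σ htmem
  rw [Units.val_mk0] at h
  have hfin : IsOfFinOrder ζ := isOfFinOrder_iff_pow_eq_one.mpr ⟨p, NeZero.pos p, hζ.pow_eq_one⟩
  rw [h, hfin.pow_eq_pow_iff_modEq, ← hζ.eq_orderOf, ← ZMod.natCast_eq_natCast_iff,
    ZMod.natCast_zmod_val, eq_comm]

/-- `ω σ = 1` iff `σ` fixes a primitive `p`-th root of unity -/
theorem dca_chi_eq_one_iff {ζ : AlgebraicClosure ℚ} (hζ : IsPrimitiveRoot ζ p) (σ : s14G) :
    s14Chi p σ = 1 ↔ σ ζ = ζ := by
  have h := dca_apply_zeta_eq_pow_iff hζ σ 1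
  rw [pow_one, Nat.cast_one] at h
  rw [h, eq_comm, Units.ext_iff, Units.val_one]

variable {V : Type} [AddCommGroup V] [Module (ZMod p) V] [DistribMulAction s14G V]
  [SMulCommClass s14G (ZMod p) V] {C : Submodule (ZMod p) V}

/-- `σ x ≡ ω(σ) x` modulo `C` -/
theorem dca_smul_sub_mem (hC : IsAdmissibleExtension p V C) (σ : s14G) (x : V) :
    σ • x - ((s14Chi p σ : (ZMod p)ˣ) : ZMod p) • x ∈ C := by
  have := hC.cyclo_quot σ x
  rwa [s14a_cycloExp_cast] at this

/-- for `σ ∈ ker ω`: `σ x - x ∈ C` -/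
theorem dca_smul_sub_self_mem (hC : IsAdmissibleExtension p V C) {σ : s14G}
    (hσ : s14Chi p σ = 1) (x : V) : σ • x - x ∈ C := by
  have := dca_smul_sub_mem hC σ x
  rwa [hσ, Units.val_one, one_smul] at this

theorem dca_finite (hC : IsAdmissibleExtension p V C) : Finite V := by
  apply Nat.finite_of_card_ne_zero
  rw [hC.card_total]
  exact pow_ne_zero 2 (Fact.out : p.Prime).ne_zero

/-- there is a vector outside `C` -/
theorem dca_exists_not_mem (hC : IsAdmissibleExtension p V C) : ∃ x₀ : V, x₀ ∉ C := by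
  by_contra hall
  push Not at hall
  have htop : C = ⊤ := eq_top_iff.mpr fun x _ => hall x
  have h1 : Nat.card C = Nat.card V := by
    rw [htop]
    exact Nat.card_congr (Submodule.topEquiv (R := ZMod p) (M := V)).toEquiv
  rw [hC.card_sub, hC.card_total] at h1
  have hp := (Fact.out : p.Prime).one_lt
  have : p * 1 = p * p := by rw [mul_one, ← sq]; exact h1
  have := Nat.eq_of_mul_eq_mul_left (by omega) this
  omega

/-- there is a non-zero vector in `C` -/
theorem dca_exists_mem_ne_zero (hC : IsAdmissibleExtension p V C) : ∃ c₀ ∈ C, c₀ ≠ 0 := by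
  by_contra hall
  push Not at hall
  have hbot : C = ⊥ := (Submodule.eq_bot_iff _).mpr hall
  have h1 : Nat.card C = 1 := by
    rw [hbot]
    exact Nat.card_unique
  rw [hC.card_sub] at h1
  have hp := (Fact.out : p.Prime).one_lt
  omega

/-- `C` is the line spanned by any of its non-zero vectors -/
theorem dca_exists_smul_eq (hC : IsAdmissibleExtension p V C) {c₀ : V} (hc : c₀ ∈ C)
    (hc0 : c₀ ≠ 0) {c : V} (hcC : c ∈ C) : ∃ a : ZMod p, a • c₀ = c := by
  have : NeZero p := ⟨(Fact.out : p.Prime).ne_zero⟩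
  have hfinV : Finite V := dca_finite hC
  let f : ZMod p → C := fun a => ⟨a • c₀, C.smul_mem a hc⟩
  have hinj : Function.Injective f := by
    intro a a' h
    have h' : a • c₀ = a' • c₀ := congrArg Subtype.val h
    have h0 : (a - a') • c₀ = 0 := by rw [sub_smul, h', sub_self]
    rcases smul_eq_zero.mp h0 with h | h
    · exact sub_eq_zero.mp h
    · exact absurd h hc0
  have hbij : Function.Bijective f := by
    apply Function.Injective.bijective_of_nat_card_le hinj
    rw [hC.card_sub, Nat.card_eq_fintype_card, ZMod.card]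
  obtain ⟨a, ha⟩ := hbij.2 ⟨c, hcC⟩
  exact ⟨a, congrArg Subtype.val ha⟩

theorem dca_smul_injective {c₀ : V} (hc0 : c₀ ≠ 0) {a a' : ZMod p} (h : a • c₀ = a' • c₀) :
    a = a' := by
  have h0 : (a - a') • c₀ = 0 := by rw [sub_smul, h, sub_self]
  rcases smul_eq_zero.mp h0 with h | h
  · exact sub_eq_zero.mp h
  · exact absurd h hc0

/-- (A1) the kernel of `ρ` is contained in the kernel of `ω` -/
theorem dca_kerRho_le (hC : IsAdmissibleExtension p V C) :
    dca_kerRho V ≤ (s14Chi p).ker := by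
  intro σ hσ
  rw [dca_mem_kerRho] at hσ
  rw [MonoidHom.mem_ker]
  obtain ⟨x₀, hx₀⟩ := dca_exists_not_mem hC
  have h := dca_smul_sub_mem hC σ x₀
  rw [hσ x₀] at h
  set u : ZMod p := ((s14Chi p σ : (ZMod p)ˣ) : ZMod p) with hu
  have h1 : (1 - u) • x₀ ∈ C := by rwa [sub_smul, one_smul]
  by_contra hne
  have hu1 : 1 - u ≠ 0 := by
    intro h0
    apply hne
    ext
    rw [Units.val_one]
    exact (sub_eq_zero.mp h0).symm
  apply hx₀
  have := C.smul_mem (1 - u)⁻¹ h1
  rwa [smul_smul, inv_mul_cancel₀ hu1, one_smul] at this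

/-! ### the additive cocycle `β σ x = σ x - x` on `H = ker ω` -/

/-- elements of `H` fix `C` and move `x` inside `x + C`; hence `σ ↦ σ x - x` is additive on `H` -/
theorem dca_beta_mul (hC : IsAdmissibleExtension p V C) {σ τ : s14G}
    (hτ : s14Chi p τ = 1) (x : V) :
    (σ * τ) • x - x = (σ • x - x) + (τ • x - x) := by
  have hfix : σ • (τ • x - x) = τ • x - x := hC.fixed_sub σ _ (dca_smul_sub_self_mem hC hτ x)
  rw [smul_sub] at hfix
  rw [mul_smul]
  have : σ • τ • x = σ • x + (τ • x - x) := by rw [← hfix]; abel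
  rw [this]; abel

/-- `β σ` is linear and kills `C` : in terms of `x₀ ∉ C`, `c₀ ∈ C`, `σ x - x` is determined by
`σ x₀ - x₀`.  If `σ x₀ - x₀ = b • c₀` and `x = t • x₀ + c` with `c ∈ C` then `σ x - x = (t b) • c₀`. -/
theorem dca_exists_decomp (hC : IsAdmissibleExtension p V C) {x₀ : V} (hx₀ : x₀ ∉ C) (x : V) :
    ∃ t : ZMod p, x - t • x₀ ∈ C := by
  -- use an element `δ` with `ω δ ≠ 1`?  No: pure counting.  `V / C` has `p` elements.
  have : NeZero p := ⟨(Fact.out : p.Prime).ne_zero⟩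
  have hfinV : Finite V := dca_finite hC
  -- the map `ZMod p → V ⧸ C`, `t ↦ [t • x₀]` is injective, hence bijective
  let f : ZMod p → V ⧸ C := fun t => Submodule.Quotient.mk (t • x₀)
  have hinj : Function.Injective f := by
    intro a a' h
    have h' : a • x₀ - a' • x₀ ∈ C := (Submodule.Quotient.eq C).mp h
    rw [← sub_smul] at h'
    by_contra hne
    have hne' : a - a' ≠ 0 := sub_ne_zero.mpr hne
    apply hx₀
    have := C.smul_mem (a - a')⁻¹ h'
    rwa [smul_smul, inv_mul_cancel₀ hne', one_smul] at this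
  have hcard : Nat.card (V ⧸ C) = p := by
    have h1 := Submodule.card_eq_card_quotient_mul_card C
    rw [hC.card_total, hC.card_sub, sq] at h1
    exact (Nat.eq_of_mul_eq_mul_left (Fact.out : p.Prime).pos h1).symm
  have hfinQ : Finite (V ⧸ C) :=
    Nat.finite_of_card_ne_zero (by rw [hcard]; exact (Fact.out : p.Prime).ne_zero)
  have hbij : Function.Bijective f := by
    apply Function.Injective.bijective_of_nat_card_le hinj
    rw [hcard, Nat.card_eq_fintype_card, ZMod.card]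
  obtain ⟨t, ht⟩ := hbij.2 (Submodule.Quotient.mk x)
  exact ⟨t, (Submodule.Quotient.eq C).mp ht.symm⟩

/-- an element which fixes one vector outside `C` acts trivially -/
theorem dca_mem_kerRho_of_fix (hC : IsAdmissibleExtension p V C) {σ : s14G} {x₀ : V} (hx₀ : x₀ ∉ C) (hfix : σ • x₀ = x₀) : σ ∈ dca_kerRho V := by
  rw [dca_mem_kerRho]
  intro x
  obtain ⟨t, ht⟩ := dca_exists_decomp hC hx₀ x
  have h1 := hC.fixed_sub σ _ ht
  rw [smul_sub, smul_comm, hfix] at h1
  have : σ • x = (σ • x - t • x₀) + t • x₀ := by abel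
  rw [this, h1]; abel

/-- (A2) the homomorphism `b : ker ω → 𝔽_p` with kernel `N` -/
theorem dca_exists_b (hC : IsAdmissibleExtension p V C) :
    ∃ b : (s14Chi p).ker →* Multiplicative (ZMod p),
      ∀ σ : (s14Chi p).ker, b σ = 1 ↔ (σ : s14G) ∈ dca_kerRho V := by
  obtain ⟨x₀, hx₀⟩ := dca_exists_not_mem hC
  obtain ⟨c₀, hc₀, hc0⟩ := dca_exists_mem_ne_zero hC
  have hex : ∀ σ : (s14Chi p).ker, ∃ a : ZMod p, a • c₀ = (σ : s14G) • x₀ - x₀ := fun σ =>
    dca_exists_smul_eq hC hc₀ hc0 (dca_smul_sub_self_mem hC (MonoidHom.mem_ker.mp σ.2) x₀)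
  choose b hb using hex
  refine ⟨
    { toFun := fun σ => Multiplicative.ofAdd (b σ)
      map_one' := ?_
      map_mul' := ?_ }, ?_⟩
  · have h1 := hb 1
    rw [Subgroup.coe_one, one_smul, sub_self] at h1
    have : b 1 = 0 := dca_smul_injective hc0 (by rw [h1, zero_smul])
    rw [this]; rfl
  · intro σ τ
    have h1 := hb (σ * τ)
    rw [Subgroup.coe_mul, dca_beta_mul hC (MonoidHom.mem_ker.mp τ.2), ← hb σ, ← hb τ,
      ← add_smul] at h1
    have : b (σ * τ) = b σ + b τ := dca_smul_injective hc0 h1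
    rw [this]; rfl
  · intro σ
    show Multiplicative.ofAdd (b σ) = 1 ↔ _
    rw [ofAdd_eq_one]
    constructor
    · intro h0
      apply dca_mem_kerRho_of_fix hC hx₀
      have h1 := hb σ
      rw [h0, zero_smul] at h1
      exact (sub_eq_zero.mp h1.symm)
    · intro hmem
      have h1 := hb σ
      rw [dca_mem_kerRho.mp hmem x₀, sub_self] at h1
      exact dca_smul_injective hc0 (by rw [h1, zero_smul])

/-- `σ ^ p ∈ N` for `σ ∈ H` -/
theorem dca_pow_p_mem (hC : IsAdmissibleExtension p V C) {σ : s14G} (hσ : s14Chi p σ = 1) :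
    σ ^ p ∈ dca_kerRho V := by
  obtain ⟨b, hb⟩ := dca_exists_b hC
  have h := (hb (⟨σ, MonoidHom.mem_ker.mpr hσ⟩ ^ p)).mp (by
    rw [map_pow]
    apply Multiplicative.toAdd.injective
    rw [toAdd_pow, toAdd_one, nsmul_eq_mul, ZMod.natCast_self, zero_mul])
  simpa using h

/-- every `σ ∈ H` is a power of `σ₀` modulo `N`, for any `σ₀ ∈ H \ N` -/
theorem dca_exists_pow (hC : IsAdmissibleExtension p V C) {σ₀ : s14G} (hσ₀ : s14Chi p σ₀ = 1)
    (hσ₀' : σ₀ ∉ dca_kerRho V) {σ : s14G} (hσ : s14Chi p σ = 1) :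
    ∃ k : ℕ, k < p ∧ (σ₀ ^ k)⁻¹ * σ ∈ dca_kerRho V := by
  have : NeZero p := ⟨(Fact.out : p.Prime).ne_zero⟩
  obtain ⟨b, hb⟩ := dca_exists_b hC
  set s₀ : (s14Chi p).ker := ⟨σ₀, MonoidHom.mem_ker.mpr hσ₀⟩ with hs₀
  set s : (s14Chi p).ker := ⟨σ, MonoidHom.mem_ker.mpr hσ⟩ with hs
  have hb0 : Multiplicative.toAdd (b s₀) ≠ 0 := by
    intro h0
    apply hσ₀'
    exact (hb s₀).mp (Multiplicative.toAdd.injective (by rw [h0, toAdd_one]))
  set k : ZMod p := Multiplicative.toAdd (b s) * (Multiplicative.toAdd (b s₀))⁻¹ with hk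
  refine ⟨k.val, ZMod.val_lt k, ?_⟩
  have h := (hb ((s₀ ^ k.val)⁻¹ * s)).mp (by
    rw [map_mul, map_inv, map_pow]
    apply Multiplicative.toAdd.injective
    rw [toAdd_mul, toAdd_inv, toAdd_pow, toAdd_one, nsmul_eq_mul, ZMod.natCast_zmod_val, hk,
      mul_assoc, inv_mul_cancel₀ hb0, mul_one, neg_add_cancel])
  simpa using h

/-- (A2') a non-split extension (`p ≥ 3`) has an element of `ker ω` acting non-trivially -/
theorem dca_exists_gen (h3 : 3 ≤ p) (hC : IsAdmissibleExtension p V C)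
    (hns : ¬ SplitsGlobally C) : ∃ σ₀ : s14G, s14Chi p σ₀ = 1 ∧ σ₀ ∉ dca_kerRho V := by
  by_contra hall
  push Not at hall
  exact hns (s14a_splits_of_trivial_on_ker' p h3 hC fun σ hσ x => dca_mem_kerRho.mp (hall σ hσ) x)

/-- for `σ ∈ H`: `σ ^ k` moves `x` by `k` times what `σ` does -/
theorem dca_pow_smul_sub (hC : IsAdmissibleExtension p V C) {σ : s14G} (hσ : s14Chi p σ = 1)
    (k : ℕ) (x : V) : (σ ^ k) • x - x = (k : ZMod p) • (σ • x - x) := by
  induction k with
  | zero => simp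
  | succ n ih =>
    have hn : s14Chi p (σ ^ n) = 1 := by rw [map_pow, hσ, one_pow]
    rw [pow_succ', dca_beta_mul hC hn, ih, Nat.cast_succ, add_smul, one_smul, add_comm]

/-- (A3) the conjugation relation in the shape of `Tower.conj` : if `ω τ = k` then
`τ σ^k = σ τ` on `V`, for `σ ∈ ker ω`. -/
theorem dca_conj (hC : IsAdmissibleExtension p V C) (τ : s14G) {σ : s14G}
    (hσ : s14Chi p σ = 1) (k : ℕ) (hk : (k : ZMod p) = ((s14Chi p τ : (ZMod p)ˣ) : ZMod p))
    (x : V) : (τ * σ ^ k) • x = (σ * τ) • x := by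
  set u : ZMod p := ((s14Chi p τ : (ZMod p)ˣ) : ZMod p) with hu
  set β : V := σ • x - x with hβ
  have hβC : β ∈ C := dca_smul_sub_self_mem hC hσ x
  -- left side
  have hL : (τ * σ ^ k) • x = τ • x + u • β := by
    have h1 : (σ ^ k) • x = x + (k : ZMod p) • β := by
      have := dca_pow_smul_sub hC hσ k x
      rw [← this]; abel
    rw [mul_smul, h1, smul_add, smul_comm τ, hC.fixed_sub τ β hβC, hk]
  -- right side
  have hR : (σ * τ) • x = τ • x + u • β := by
    set c : V := τ • x - u • x with hc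
    have hcC : c ∈ C := dca_smul_sub_mem hC τ x
    have h1 : τ • x = u • x + c := by rw [hc]; abel
    have h2 : σ • (τ • x) = u • (σ • x) + c := by
      rw [h1, smul_add, smul_comm σ, hC.fixed_sub σ c hcC]
    rw [mul_smul, h2, h1, hβ, smul_sub]; abel
  rw [hL, hR]

/-- the same as an element of `N` -/
theorem dca_conj_mem (hC : IsAdmissibleExtension p V C) (τ : s14G) {σ : s14G}
    (hσ : s14Chi p σ = 1) (k : ℕ) (hk : (k : ZMod p) = ((s14Chi p τ : (ZMod p)ˣ) : ZMod p)) :
    (σ * τ)⁻¹ * (τ * σ ^ k) ∈ dca_kerRho V := by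
  rw [dca_mem_kerRho]
  intro x
  rw [mul_smul, dca_conj hC τ hσ k hk x, ← mul_smul, inv_mul_cancel, one_smul]

/-! ### local conditions -/

/-- (A4) inertia groups at `ℓ ≠ p` lie in `N` -/
theorem dca_inertia_le (hC : IsAdmissibleExtension p V C) {ℓ : ℕ} (hℓ : ℓ.Prime) (hℓp : ℓ ≠ p)
    (A : ValuationSubring (AlgebraicClosure ℚ)) (hA : A.LiesOverPrime ℓ) :
    A.inertiaSubgroupIn ℚ ≤ dca_kerRho V := fun σ hσ =>
  dca_mem_kerRho.mpr (hC.unramified_outside ℓ hℓ hℓp A hA σ hσ)

/-- (A5) decomposition groups at `p`, intersected with `ker ω`, lie in `N` -/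
theorem dca_decomp_le (hC : IsAdmissibleExtension p V C)
    (A : ValuationSubring (AlgebraicClosure ℚ)) (hA : A.LiesOverPrime p) :
    A.decompositionSubgroup ℚ ⊓ (s14Chi p).ker ≤ dca_kerRho V := by
  rintro σ ⟨hσD, hσH⟩
  have hσ : s14Chi p σ = 1 := MonoidHom.mem_ker.mp hσH
  obtain ⟨C', hstab, hcompl⟩ := hC.locally_split A hA
  rw [dca_mem_kerRho]
  intro x
  have hx : x ∈ C ⊔ C' := by rw [hcompl.sup_eq_top]; trivial
  obtain ⟨c, hc, c', hc', rfl⟩ := Submodule.mem_sup.mp hx
  have h1 : σ • c' - c' ∈ C ⊓ C' :=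
    ⟨dca_smul_sub_self_mem hC hσ c', C'.sub_mem (hstab σ hσD c' hc') hc'⟩
  rw [hcompl.inf_eq_bot, Submodule.mem_bot, sub_eq_zero] at h1
  rw [smul_add, hC.fixed_sub σ c hc, h1]

/-- (A6) `N` is open for a continuous admissible extension -/
theorem dca_isOpen_kerRho (hC : IsAdmissibleExtensionCts p V C) :
    IsOpen (dca_kerRho V : Set s14G) := by
  have h := hC.open_kernel
  have : (dca_kerRho V : Set s14G) = {σ : s14G | ∀ v : V, σ • v = v} := by
    ext σ
    exact dca_mem_kerRho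
  rw [this]
  exact h

end Fermat.Agent.S14x
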