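import Mathlib
import Fermat.Prelude.Def_ExtCitation_AdmissibleExtension_v2
import Fermat.Agent.S13x.LineGlue

/-!
# S14 project, DICT-A support: the cocycle algebra of an admissible extension (hom version)

Abstract setting: a group `G` with a character `ω : G →* (ZMod p)ˣ`, acting on a `ZMod p`-module
`V` of cardinality `p ^ 2`, a submodule `C` of cardinality `p` fixed pointwise, such that
`σ • x - ω σ • x ∈ C` for all `x` (`DictAdm`).

* `dict_a_f e h = h • e - e` for `h ∈ ker ω` : a homomorphism `ker ω → C` (additive), whose kernel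
  is the kernel `dict_a_N` of the action on `V` (`e ∉ C`);
* `dict_a_f_conj` : `f (σ h σ⁻¹) = (ω σ)⁻¹ • f h`;
* `dict_a_splits_of_ker_le` (Maschke, R1): if `ker ω` acts trivially then `C` has a `G`-stable
  complement;
* `dict_a_trivial_of_complement` : an element of `ker ω` preserving a complement of `C`
  acts trivially (source of `split_p`).
-/

set_option autoImplicit false

namespace Fermat.Agent.S14x

section Abstract

variable {p : ℕ} [Fact p.Prime] {G : Type*} [Group G]
  {V : Type*} [AddCommGroup V] [Module (ZMod p) V] [DistribMulAction G V]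

/-- the abstract hypotheses on `(G, ω, V, C)` -/
structure DictAdm (ω : G →* (ZMod p)ˣ) (C : Submodule (ZMod p) V) : Prop where
  fixed_sub : ∀ σ : G, ∀ x ∈ C, σ • x = x
  cyclo_quot : ∀ σ : G, ∀ x : V, σ • x - ((ω σ : (ZMod p)ˣ) : ZMod p) • x ∈ C
  card_sub : Nat.card C = p
  card_total : Nat.card V = p ^ 2

variable {ω : G →* (ZMod p)ˣ} {C : Submodule (ZMod p) V}

/-- the kernel of the action on `V` -/
def dict_a_N (G : Type*) [Group G] (V : Type*) [AddCommGroup V] [DistribMulAction G V] :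
    Subgroup G where
  carrier := {σ | ∀ v : V, σ • v = v}
  one_mem' := fun v => one_smul _ v
  mul_mem' := fun {a b} ha hb v => by rw [mul_smul, hb v, ha v]
  inv_mem' := fun {a} ha v => by rw [inv_smul_eq_iff, ha v]

theorem dict_a_mem_N {σ : G} : σ ∈ dict_a_N G V ↔ ∀ v : V, σ • v = v := Iff.rfl

instance dict_a_N_normal : (dict_a_N G V).Normal := by
  constructor
  intro n hn g v
  rw [mul_smul, mul_smul, hn, smul_inv_smul]

theorem DictAdm.stable (h : DictAdm ω C) (σ : G) {x : V} (hx : x ∈ C) : σ • x ∈ C := by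
  rw [h.fixed_sub σ x hx]; exact hx

/-- elements of `ker ω` move every vector inside `C` -/
theorem DictAdm.sub_mem_of_ker (h : DictAdm ω C) {σ : G} (hσ : σ ∈ ω.ker) (x : V) :
    σ • x - x ∈ C := by
  have := h.cyclo_quot σ x
  rw [MonoidHom.mem_ker.mp hσ, Units.val_one, one_smul] at this
  exact this

/-- an element acting trivially on `V` lies in `ker ω` (needs `C ≠ V`) -/
theorem DictAdm.N_le_ker (h : DictAdm ω C) : dict_a_N G V ≤ ω.ker := by
  intro σ hσ
  rw [MonoidHom.mem_ker]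
  by_contra hne
  -- then `(1 - ω σ) • x ∈ C` for all `x`, so `V = C`
  have hp : 1 < p := (Fact.out : p.Prime).one_lt
  have hu : ((ω σ : (ZMod p)ˣ) : ZMod p) ≠ 1 := fun h1 => hne (Units.ext h1)
  have hall : ∀ x : V, x ∈ C := by
    intro x
    have h1 := h.cyclo_quot σ x
    rw [hσ x] at h1
    have h2 : x - ((ω σ : (ZMod p)ˣ) : ZMod p) • x = (1 - ((ω σ : (ZMod p)ˣ) : ZMod p)) • x := by
      rw [sub_smul, one_smul]
    rw [h2] at h1
    have hunit : (1 - ((ω σ : (ZMod p)ˣ) : ZMod p)) ≠ 0 := sub_ne_zero.mpr (Ne.symm hu)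
    have h3 := C.smul_mem (1 - ((ω σ : (ZMod p)ˣ) : ZMod p))⁻¹ h1
    rwa [smul_smul, inv_mul_cancel₀ hunit, one_smul] at h3
  have hC : C = ⊤ := eq_top_iff.mpr fun x _ => hall x
  have h4 : Nat.card C = Nat.card V := by
    rw [hC]; exact Nat.card_congr (Submodule.topEquiv (R := ZMod p) (M := V)).toEquiv
  rw [h.card_sub, h.card_total] at h4
  have h5 : p ^ 1 < p ^ 2 := Nat.pow_lt_pow_right hp (by norm_num)
  rw [pow_one] at h5
  omega

end Abstract

section Cocycle

open Fermat.Agent.S13x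

variable {p : ℕ} [Fact p.Prime] {G : Type*} [Group G]
  {V : Type*} [AddCommGroup V] [Module (ZMod p) V] [DistribMulAction G V]
  {ω : G →* (ZMod p)ˣ} {C : Submodule (ZMod p) V}

theorem DictAdm.finite (h : DictAdm ω C) : Finite V := by
  apply Nat.finite_of_card_ne_zero
  rw [h.card_total]
  exact pow_ne_zero _ (Fact.out : p.Prime).ne_zero

theorem DictAdm.ne_bot (h : DictAdm ω C) : C ≠ ⊥ := by
  rintro rfl
  have := h.card_sub
  rw [Nat.card_eq_one_iff_unique.mpr ⟨inferInstance, inferInstance⟩] at this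
  exact (Fact.out : p.Prime).one_lt.ne this

theorem DictAdm.ne_top (h : DictAdm ω C) : C ≠ ⊤ := by
  rintro rfl
  have h4 : Nat.card (⊤ : Submodule (ZMod p) V) = Nat.card V :=
    Nat.card_congr (Submodule.topEquiv (R := ZMod p) (M := V)).toEquiv
  rw [h.card_sub, h.card_total] at h4
  have hp : 1 < p := (Fact.out : p.Prime).one_lt
  have h5 : p ^ 1 < p ^ 2 := Nat.pow_lt_pow_right hp (by norm_num)
  rw [pow_one] at h5
  omega

/-- `V = C + F_p e` for every `e ∉ C` -/
theorem DictAdm.exists_decomp (h : DictAdm ω C) {e : V} (he : e ∉ C) (v : V) :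
    ∃ a : ZMod p, ∃ c ∈ C, v = a • e + c := by
  have := h.finite
  have hcard : Nat.card V ≤ p ^ 2 := h.card_total.le
  have hspan_ne : Submodule.span (ZMod p) {e} ≠ ⊥ := by
    rw [Ne, Submodule.span_singleton_eq_bot]
    rintro rfl
    exact he C.zero_mem
  have hinf : Submodule.span (ZMod p) {e} ⊓ C = ⊥ := by
    rw [eq_bot_iff]
    rintro x ⟨hx1, hx2⟩
    obtain ⟨a, rfl⟩ := Submodule.mem_span_singleton.mp hx1
    rw [Submodule.mem_bot]
    by_cases ha : a = 0
    · rw [ha, zero_smul]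
    · exfalso
      apply he
      have := C.smul_mem a⁻¹ hx2
      rwa [smul_smul, inv_mul_cancel₀ ha, one_smul] at this
  have hsup := lgl_sup_eq_top hcard h.ne_bot hspan_ne hinf
  have hv : v ∈ Submodule.span (ZMod p) {e} ⊔ C := by rw [hsup]; trivial
  obtain ⟨y, hy, c, hc, rfl⟩ := Submodule.mem_sup.mp hv
  obtain ⟨a, rfl⟩ := Submodule.mem_span_singleton.mp hy
  exact ⟨a, c, hc, rfl⟩

/-- the cocycle `f(σ) = σ e - e` is additive on `ker ω` -/
theorem DictAdm.f_mul (h : DictAdm ω C) {σ τ : G} (hτ : τ ∈ ω.ker) (e : V) :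
    (σ * τ) • e - e = (σ • e - e) + (τ • e - e) := by
  have h1 : σ • (τ • e - e) = τ • e - e := h.fixed_sub σ _ (h.sub_mem_of_ker hτ e)
  have h2 : (σ * τ) • e - e = σ • (τ • e - e) + (σ • e - e) := by
    rw [mul_smul, smul_sub]; abel
  rw [h2, h1]; abel

theorem DictAdm.f_one (e : V) : (1 : G) • e - e = 0 := by rw [one_smul, sub_self]

theorem DictAdm.f_pow (h : DictAdm ω C) {τ : G} (hτ : τ ∈ ω.ker) (e : V) (k : ℕ) :
    (τ ^ k) • e - e = k • (τ • e - e) := by
  induction k with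
  | zero => rw [pow_zero, one_smul, sub_self, zero_smul]
  | succ n ih =>
    rw [pow_succ, h.f_mul hτ, ih, succ_nsmul]

/-- an element of `ker ω` acts trivially on `V` iff it fixes `e` (`e ∉ C`) -/
theorem DictAdm.mem_N_iff (h : DictAdm ω C) {e : V} (he : e ∉ C) {τ : G} :
    τ ∈ dict_a_N G V ↔ τ • e - e = 0 := by
  constructor
  · intro hτ
    rw [hτ e, sub_self]
  · intro hτ v
    obtain ⟨a, c, hc, rfl⟩ := h.exists_decomp he v
    rw [smul_add, lgl_smul_comm, h.fixed_sub τ c hc, sub_eq_zero.mp hτ]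

/-- `f σ = f τ` iff `σ⁻¹ τ` acts trivially -/
theorem DictAdm.f_eq_iff (h : DictAdm ω C) {e : V} (he : e ∉ C) {σ τ : G}
    (hσ : σ ∈ ω.ker) (hτ : τ ∈ ω.ker) :
    σ • e - e = τ • e - e ↔ σ⁻¹ * τ ∈ dict_a_N G V := by
  rw [h.mem_N_iff he, h.f_mul hτ]
  have h1 : σ⁻¹ • e - e = -(σ • e - e) := by
    have h2 : σ⁻¹ • (σ • e - e) = σ • e - e :=
      h.fixed_sub σ⁻¹ _ (h.sub_mem_of_ker hσ e)
    rw [smul_sub, inv_smul_smul] at h2
    rw [← h2]; abel
  rw [h1]
  constructor
  · intro h3; rw [h3]; abel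
  · intro h3
    have : τ • e - e = σ • e - e := by
      have := eq_neg_of_add_eq_zero_right h3
      rw [neg_neg] at this
      exact this
    exact this.symm

/-- **conjugation formula** `f (σ τ σ⁻¹) = (ω σ)⁻¹ • f τ` -/
theorem DictAdm.f_conj (h : DictAdm ω C) (σ : G) {τ : G} (hτ : τ ∈ ω.ker) (e : V) :
    (σ * τ * σ⁻¹) • e - e = (((ω σ)⁻¹ : (ZMod p)ˣ) : ZMod p) • (τ • e - e) := by
  set a : ZMod p := (((ω σ)⁻¹ : (ZMod p)ˣ) : ZMod p) with ha
  -- `σ⁻¹ e = a e + c`
  have hc : σ⁻¹ • e - a • e ∈ C := by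
    have := h.cyclo_quot σ⁻¹ e
    rwa [map_inv] at this
  set c : V := σ⁻¹ • e - a • e with hcdef
  have h1 : σ⁻¹ • e = a • e + c := by rw [hcdef]; abel
  have hf : τ • e - e ∈ C := h.sub_mem_of_ker hτ e
  have h2 : τ • (σ⁻¹ • e) = σ⁻¹ • e + a • (τ • e - e) := by
    rw [h1, smul_add, lgl_smul_comm, h.fixed_sub τ c hc, smul_sub]; abel
  have h3 : σ • (a • (τ • e - e)) = a • (τ • e - e) :=
    h.fixed_sub σ _ (C.smul_mem a hf)
  rw [mul_smul, mul_smul, h2, smul_add, smul_inv_smul, h3]; abel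

/-- the homomorphism `ker ω → C` -/
def DictAdm.fHom (h : DictAdm ω C) (e : V) : ω.ker →* Multiplicative C where
  toFun τ := Multiplicative.ofAdd ⟨(τ : G) • e - e, h.sub_mem_of_ker τ.2 e⟩
  map_one' := by
    apply Multiplicative.toAdd.injective
    apply Subtype.ext
    change ((1 : ω.ker) : G) • e - e = 0
    rw [Subgroup.coe_one, one_smul, sub_self]
  map_mul' σ τ := by
    apply Multiplicative.toAdd.injective
    apply Subtype.ext
    change ((σ * τ : ω.ker) : G) • e - e = ((σ : G) • e - e) + ((τ : G) • e - e)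
    rw [Subgroup.coe_mul, h.f_mul τ.2]

theorem DictAdm.fHom_ker (h : DictAdm ω C) {e : V} (he : e ∉ C) :
    (h.fHom e).ker = (dict_a_N G V).subgroupOf ω.ker := by
  ext τ
  rw [MonoidHom.mem_ker, Subgroup.mem_subgroupOf, h.mem_N_iff he]
  constructor
  · intro h1
    have := congrArg (fun x => ((Multiplicative.toAdd x : C) : V)) h1
    exact this
  · intro h1
    apply Multiplicative.toAdd.injective
    apply Subtype.ext
    exact h1

/-- the kernel of the action has index `1` or `p` in `ker ω` -/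
theorem DictAdm.relIndex (h : DictAdm ω C) :
    (dict_a_N G V).relIndex ω.ker = 1 ∨ (dict_a_N G V).relIndex ω.ker = p := by
  obtain ⟨e, he⟩ : ∃ e : V, e ∉ C := by
    by_contra hcon
    exact h.ne_top (eq_top_iff.mpr fun x _ => by_contra fun hx => hcon ⟨x, hx⟩)
  have h1 : (dict_a_N G V).relIndex ω.ker = Nat.card (h.fHom e).range := by
    rw [Subgroup.relIndex, ← h.fHom_ker he, Subgroup.index_ker]
  have h2 : Nat.card (h.fHom e).range ∣ Nat.card (Multiplicative C) :=
    Subgroup.card_subgroup_dvd_card _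
  have h3 : Nat.card (Multiplicative C) = p := h.card_sub
  rw [h3] at h2
  rw [h1]
  exact (Nat.dvd_prime (Fact.out : p.Prime)).mp h2

end Cocycle

section Maschke

open Fermat.Agent.S13x

variable {p : ℕ} [Fact p.Prime] {G : Type*} [Group G]
  {V : Type*} [AddCommGroup V] [Module (ZMod p) V] [DistribMulAction G V]
  {ω : G →* (ZMod p)ˣ} {C : Submodule (ZMod p) V}

/-- the `a`-eigenspace of `σ₀` -/
def dict_a_eigen (σ₀ : G) (a : ZMod p) : Submodule (ZMod p) V where
  carrier := {x | σ₀ • x = a • x}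
  zero_mem' := by
    change σ₀ • (0 : V) = a • (0 : V)
    rw [smul_zero, smul_zero]
  add_mem' := by
    intro x y hx hy
    change σ₀ • (x + y) = a • (x + y)
    rw [smul_add, smul_add, hx, hy]
  smul_mem' := by
    intro c x hx
    change σ₀ • (c • x) = a • (c • x)
    rw [lgl_smul_comm, hx, smul_comm]

/-- **(R1), Maschke.** If `ker ω` acts trivially on `V` then `C` has a `G`-stable complement. -/
theorem DictAdm.splits_of_ker_le (h : DictAdm ω C) (hker : ω.ker ≤ dict_a_N G V) :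
    ∃ C' : Submodule (ZMod p) V, (∀ σ : G, ∀ x ∈ C', σ • x ∈ C') ∧ IsCompl C C' := by
  by_cases htriv : ∀ σ : G, ω σ = 1
  · -- the whole group acts trivially
    obtain ⟨C', hC'⟩ := Submodule.exists_isCompl C
    refine ⟨C', fun σ x hx => ?_, hC'⟩
    have : σ ∈ dict_a_N G V := hker (MonoidHom.mem_ker.mpr (htriv σ))
    rw [this x]; exact hx
  · obtain ⟨σ₀, hσ₀⟩ : ∃ σ₀ : G, ω σ₀ ≠ 1 := by
      by_contra hcon
      exact htriv fun σ => by_contra fun hσ => hcon ⟨σ, hσ⟩
    set a : ZMod p := ((ω σ₀ : (ZMod p)ˣ) : ZMod p) with ha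
    have ha1 : a ≠ 1 := fun h1 => hσ₀ (Units.ext h1)
    have h1a : (1 - a) ≠ 0 := sub_ne_zero.mpr (Ne.symm ha1)
    refine ⟨dict_a_eigen σ₀ a, ?_, ?_⟩
    · -- stability: the action factors through an abelian quotient
      intro σ x hx
      change σ₀ • (σ • x) = a • (σ • x)
      have hcomm : σ⁻¹ * σ₀⁻¹ * σ * σ₀ ∈ dict_a_N G V := by
        apply hker
        rw [MonoidHom.mem_ker, map_mul, map_mul, map_mul, map_inv, map_inv]
        rw [mul_comm ((ω σ)⁻¹) ((ω σ₀)⁻¹), mul_assoc ((ω σ₀)⁻¹), inv_mul_cancel, mul_one,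
          inv_mul_cancel]
      have h2 : σ₀ * σ = σ * σ₀ * (σ⁻¹ * σ₀⁻¹ * σ * σ₀)⁻¹ := by group
      have h3 : (σ⁻¹ * σ₀⁻¹ * σ * σ₀)⁻¹ ∈ dict_a_N G V := (dict_a_N G V).inv_mem hcomm
      rw [← mul_smul, h2, mul_smul, h3 x, mul_smul]
      have hx' : σ₀ • x = a • x := hx
      rw [hx', lgl_smul_comm]
    · constructor
      · -- disjoint
        rw [disjoint_iff, eq_bot_iff]
        rintro x ⟨hxC, hxE⟩
        rw [Submodule.mem_bot]
        have hxE' : σ₀ • x = a • x := hxE
        rw [h.fixed_sub σ₀ x hxC] at hxE'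
        have h2 : (1 - a) • x = 0 := by rw [sub_smul, one_smul, ← hxE', sub_self]
        have := congrArg (fun y => (1 - a)⁻¹ • y) h2
        simpa [smul_smul, inv_mul_cancel₀ h1a] using this
      · -- codisjoint
        rw [codisjoint_iff, eq_top_iff]
        intro x _
        have hcC : σ₀ • x - a • x ∈ C := h.cyclo_quot σ₀ x
        set c : V := (1 - a)⁻¹ • (σ₀ • x - a • x) with hc
        have hcC' : c ∈ C := C.smul_mem _ hcC
        have hy : x - c ∈ dict_a_eigen σ₀ a := by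
          change σ₀ • (x - c) = a • (x - c)
          rw [smul_sub, smul_sub, h.fixed_sub σ₀ c hcC']
          have h2 : (1 - a) • c = σ₀ • x - a • x := by
            rw [hc, smul_smul, mul_inv_cancel₀ h1a, one_smul]
          have h3 : c - a • c = σ₀ • x - a • x := by
            rw [← h2, sub_smul, one_smul]
          have h4 : σ₀ • x - c - (a • x - a • c) = (σ₀ • x - a • x) - (c - a • c) := by abel
          rw [← sub_eq_zero, h4, h3, sub_self]
        have : x = c + (x - c) := by abel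
        rw [this]
        exact Submodule.add_mem_sup hcC' hy

/-- **source of `split_p`**: an element of `ker ω` preserving a complement of `C` acts
trivially on `V`. -/
theorem DictAdm.mem_N_of_complement (h : DictAdm ω C) {C' : Submodule (ZMod p) V}
    (hC' : IsCompl C C') {τ : G} (hτ : τ ∈ ω.ker) (hst : ∀ x ∈ C', τ • x ∈ C') :
    τ ∈ dict_a_N G V := by
  intro v
  have hv : v ∈ C ⊔ C' := by rw [hC'.sup_eq_top]; trivial
  obtain ⟨c, hc, y, hy, rfl⟩ := Submodule.mem_sup.mp hv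
  have h1 : τ • y - y ∈ C ⊓ C' := ⟨h.sub_mem_of_ker hτ y, C'.sub_mem (hst y hy) hy⟩
  rw [hC'.inf_eq_bot, Submodule.mem_bot, sub_eq_zero] at h1
  rw [smul_add, h.fixed_sub τ c hc, h1]

/-- if `C` has no stable complement then the kernel of the action has index exactly `p`
in `ker ω` -/
theorem DictAdm.relIndex_eq_of_not_splits (h : DictAdm ω C)
    (hns : ¬ ∃ C' : Submodule (ZMod p) V, (∀ σ : G, ∀ x ∈ C', σ • x ∈ C') ∧ IsCompl C C') :
    (dict_a_N G V).relIndex ω.ker = p := by
  rcases h.relIndex with h1 | h1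
  · exfalso
    apply hns
    apply h.splits_of_ker_le
    exact Subgroup.relIndex_eq_one.mp h1
  · exact h1

end Maschke

section Concrete

open ExtCitation

variable (p : ℕ) [Fact p.Prime]

/-- the mod `p` cyclotomic character of `Gal(ℚ̄/ℚ)`, as a monoid homomorphism -/
noncomputable def dict_a_omega :
    (AlgebraicClosure ℚ ≃ₐ[ℚ] AlgebraicClosure ℚ) →* (ZMod p)ˣ :=
  haveI : NeZero p := ⟨(Fact.out : p.Prime).ne_zero⟩
  { toFun := fun σ => modularCyclotomicCharacter (AlgebraicClosure ℚ)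
      (card_rootsOfUnity_eq_self p) (σ : AlgebraicClosure ℚ ≃+* AlgebraicClosure ℚ)
    map_one' := map_one (modularCyclotomicCharacter (AlgebraicClosure ℚ)
      (card_rootsOfUnity_eq_self p))
    map_mul' := fun σ τ => map_mul (modularCyclotomicCharacter (AlgebraicClosure ℚ)
      (card_rootsOfUnity_eq_self p)) (σ : AlgebraicClosure ℚ ≃+* AlgebraicClosure ℚ)
      (τ : AlgebraicClosure ℚ ≃+* AlgebraicClosure ℚ) }

theorem dict_a_cycloExp (σ : AlgebraicClosure ℚ ≃ₐ[ℚ] AlgebraicClosure ℚ) :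
    ((cycloExp p σ : ℕ) : ZMod p) = ((dict_a_omega p σ : (ZMod p)ˣ) : ZMod p) := by
  have : NeZero p := ⟨(Fact.out : p.Prime).ne_zero⟩
  unfold cycloExp
  rw [ZMod.natCast_zmod_val]
  rfl

/-- `σ ζ = ζ ^ cycloExp σ` for every `p`-th root of unity `ζ` -/
theorem dict_a_omega_spec (σ : AlgebraicClosure ℚ ≃ₐ[ℚ] AlgebraicClosure ℚ)
    {ζ : AlgebraicClosure ℚ} (hζ : ζ ^ p = 1) : σ ζ = ζ ^ cycloExp p σ := by
  have : NeZero p := ⟨(Fact.out : p.Prime).ne_zero⟩
  have hu : IsUnit ζ := IsUnit.of_pow_eq_one hζ (NeZero.ne p)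
  obtain ⟨t, rfl⟩ := hu
  have ht : t ∈ rootsOfUnity p (AlgebraicClosure ℚ) := by
    rw [mem_rootsOfUnity]
    exact Units.ext (by simpa using hζ)
  exact modularCyclotomicCharacter.spec (AlgebraicClosure ℚ) (card_rootsOfUnity_eq_self p)
    (σ : AlgebraicClosure ℚ ≃+* AlgebraicClosure ℚ) ht

variable {p}
variable {V : Type} [AddCommGroup V] [Module (ZMod p) V]
  [DistribMulAction (AlgebraicClosure ℚ ≃ₐ[ℚ] AlgebraicClosure ℚ) V]
  {C : Submodule (ZMod p) V}

/-- an admissible extension satisfies the abstract hypotheses -/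
theorem dict_a_adm (h : IsAdmissibleExtension p V C) : DictAdm (dict_a_omega p) C where
  fixed_sub := h.fixed_sub
  cyclo_quot := fun σ x => by
    rw [← dict_a_cycloExp]
    exact h.cyclo_quot σ x
  card_sub := h.card_sub
  card_total := h.card_total

/-- `SplitsGlobally` in the abstract form -/
theorem dict_a_splitsGlobally_iff :
    SplitsGlobally C ↔ ∃ C' : Submodule (ZMod p) V,
      (∀ σ : AlgebraicClosure ℚ ≃ₐ[ℚ] AlgebraicClosure ℚ, ∀ x ∈ C', σ • x ∈ C') ∧ IsCompl C C' :=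
  Iff.rfl

/-- **(R1)** for admissible extensions: if `ker ω` acts trivially then `C` splits globally. -/
theorem dict_a_splitsGlobally_of_ker_le (h : IsAdmissibleExtension p V C)
    (hker : (dict_a_omega p).ker ≤
      dict_a_N (AlgebraicClosure ℚ ≃ₐ[ℚ] AlgebraicClosure ℚ) V) : SplitsGlobally C :=
  (dict_a_adm h).splits_of_ker_le hker

/-- non-split admissible extension: the kernel of the action has index `p` in `ker ω`. -/
theorem dict_a_relIndex_eq (h : IsAdmissibleExtension p V C) (hns : ¬ SplitsGlobally C) :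
    (dict_a_N (AlgebraicClosure ℚ ≃ₐ[ℚ] AlgebraicClosure ℚ) V).relIndex (dict_a_omega p).ker
      = p :=
  (dict_a_adm h).relIndex_eq_of_not_splits hns

/-- **source of `Tower.split_p`**: the decomposition group at `A ∣ p` meets `ker ω` inside the
kernel of the action. -/
theorem dict_a_decomp_le (h : IsAdmissibleExtension p V C)
    (A : ValuationSubring (AlgebraicClosure ℚ)) (hA : A.LiesOverPrime p)
    {τ : AlgebraicClosure ℚ ≃ₐ[ℚ] AlgebraicClosure ℚ}
    (hτD : τ ∈ A.decompositionSubgroup ℚ) (hτ : τ ∈ (dict_a_omega p).ker) :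
    τ ∈ dict_a_N (AlgebraicClosure ℚ ≃ₐ[ℚ] AlgebraicClosure ℚ) V := by
  obtain ⟨C', hst, hC'⟩ := h.locally_split A hA
  exact (dict_a_adm h).mem_N_of_complement hC' hτ (fun x hx => hst τ hτD x hx)

/-- **source of `Tower.unram`**: inertia at `ℓ ≠ p` lies in the kernel of the action. -/
theorem dict_a_inertia_le (h : IsAdmissibleExtension p V C) {ℓ : ℕ} (hℓ : ℓ.Prime)
    (hℓp : ℓ ≠ p) (A : ValuationSubring (AlgebraicClosure ℚ)) (hA : A.LiesOverPrime ℓ) :
    A.inertiaSubgroupIn ℚ ≤ dict_a_N (AlgebraicClosure ℚ ≃ₐ[ℚ] AlgebraicClosure ℚ) V :=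
  fun σ hσ v => h.unramified_outside ℓ hℓ hℓp A hA σ hσ v

end Concrete

end Fermat.Agent.S14x
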