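/-
S14 project, module DICT-B support (helper33): the cyclotomic bridge.
`cycloExp p σ` (Prelude, via `modularCyclotomicCharacter`) versus the action of `σ` on the
`p`-th roots of unity of `ℚ̄`.  Prefix `dcy_`.  Mathlib + Prelude only.
-/
import Mathlib
import Fermat.Prelude.Def_ExtCitation_AdmissibleExtension_v2

set_option autoImplicit false

namespace Fermat.Agent.S14x

open ExtCitation

variable {p : ℕ} [Fact p.Prime]

local notation "Qb" => AlgebraicClosure ℚ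

/-- the defining property of `cycloExp` on units. -/
theorem dcy_apply_unit (σ : Qb ≃ₐ[ℚ] Qb) (t : Qbˣ)
    (ht : t ∈ rootsOfUnity p Qb) : σ (t : Qb) = (t : Qb) ^ cycloExp p σ := by
  have : NeZero p := ⟨(Fact.out : p.Prime).ne_zero⟩
  have h := modularCyclotomicCharacter.spec Qb (card_rootsOfUnity_eq_self p)
    (σ : Qb ≃+* Qb) ht
  simpa [cycloExp] using h

/-- `σ z = z ^ cycloExp p σ` for every `p`-th root of unity `z`. -/
theorem dcy_apply_of_pow_eq_one (σ : Qb ≃ₐ[ℚ] Qb) (z : Qb) (hz : z ^ p = 1) :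
    σ z = z ^ cycloExp p σ := by
  have hp : p ≠ 0 := (Fact.out : p.Prime).ne_zero
  have hz0 : z ≠ 0 := by
    rintro rfl
    simp [hp] at hz
  have := dcy_apply_unit (p := p) σ (Units.mk0 z hz0) (by
    rw [mem_rootsOfUnity]
    ext
    simpa using hz)
  simpa using this

theorem dcy_apply_primitiveRoot (σ : Qb ≃ₐ[ℚ] Qb) {z : Qb} (hz : IsPrimitiveRoot z p) :
    σ z = z ^ cycloExp p σ :=
  dcy_apply_of_pow_eq_one σ z hz.pow_eq_one

/-- there is a primitive `p`-th root of unity in `ℚ̄`. -/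
theorem dcy_exists_primitiveRoot : ∃ z : Qb, IsPrimitiveRoot z p := by
  have : NeZero (p : Qb) := ⟨by exact_mod_cast (Fact.out : p.Prime).ne_zero⟩
  exact HasEnoughRootsOfUnity.exists_primitiveRoot Qb p

theorem dcy_pow_eq_pow_iff {z : Qb} (hz : IsPrimitiveRoot z p) (a b : ℕ) :
    z ^ a = z ^ b ↔ (a : ZMod p) = (b : ZMod p) := by
  have hp : p ≠ 0 := (Fact.out : p.Prime).ne_zero
  obtain ⟨u, rfl⟩ := hz.isUnit hp
  have hu : IsPrimitiveRoot u p := IsPrimitiveRoot.coe_units_iff.mp hz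
  rw [← Units.val_pow_eq_pow_val, ← Units.val_pow_eq_pow_val, Units.val_inj,
    pow_eq_pow_iff_modEq, ← hu.eq_orderOf, ZMod.natCast_eq_natCast_iff]

/-- uniqueness: the exponent is determined mod `p` by the action on ONE primitive root. -/
theorem dcy_cast_eq_of_apply (σ : Qb ≃ₐ[ℚ] Qb) {z : Qb} (hz : IsPrimitiveRoot z p) (k : ℕ)
    (hk : σ z = z ^ k) : (cycloExp p σ : ZMod p) = (k : ZMod p) := by
  have h1 := dcy_apply_primitiveRoot σ hz
  rw [hk] at h1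
  exact ((dcy_pow_eq_pow_iff hz _ _).mp h1).symm

theorem dcy_cast_eq_iff (σ : Qb ≃ₐ[ℚ] Qb) {z : Qb} (hz : IsPrimitiveRoot z p) (k : ℕ) :
    (cycloExp p σ : ZMod p) = (k : ZMod p) ↔ σ z = z ^ k := by
  refine ⟨fun h => ?_, dcy_cast_eq_of_apply σ hz k⟩
  rw [dcy_apply_primitiveRoot σ hz]
  exact (dcy_pow_eq_pow_iff hz _ _).mpr h

theorem dcy_cast_eq_one_iff (σ : Qb ≃ₐ[ℚ] Qb) {z : Qb} (hz : IsPrimitiveRoot z p) :
    (cycloExp p σ : ZMod p) = 1 ↔ σ z = z := by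
  have := dcy_cast_eq_iff σ hz 1
  simpa using this

theorem dcy_cast_one : ((cycloExp p (1 : Qb ≃ₐ[ℚ] Qb) : ℕ) : ZMod p) = 1 := by
  obtain ⟨z, hz⟩ := dcy_exists_primitiveRoot (p := p)
  rw [dcy_cast_eq_one_iff _ hz]
  rfl

theorem dcy_cast_mul (σ τ : Qb ≃ₐ[ℚ] Qb) :
    ((cycloExp p (σ * τ) : ℕ) : ZMod p) = (cycloExp p σ : ZMod p) * (cycloExp p τ : ZMod p) := by
  obtain ⟨z, hz⟩ := dcy_exists_primitiveRoot (p := p)
  rw [← Nat.cast_mul, dcy_cast_eq_iff _ hz]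
  change σ (τ z) = _
  rw [dcy_apply_primitiveRoot τ hz, map_pow, dcy_apply_primitiveRoot σ hz, ← pow_mul]

theorem dcy_cast_ne_zero (σ : Qb ≃ₐ[ℚ] Qb) : ((cycloExp p σ : ℕ) : ZMod p) ≠ 0 := by
  intro h
  have h1 : ((cycloExp p (σ⁻¹ * σ) : ℕ) : ZMod p) = 1 := by
    rw [inv_mul_cancel]
    exact dcy_cast_one
  rw [dcy_cast_mul, h, mul_zero] at h1
  have : Fact (1 < p) := ⟨(Fact.out : p.Prime).one_lt⟩
  exact zero_ne_one h1

theorem dcy_cast_inv (σ : Qb ≃ₐ[ℚ] Qb) :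
    ((cycloExp p σ⁻¹ : ℕ) : ZMod p) = ((cycloExp p σ : ℕ) : ZMod p)⁻¹ := by
  have h1 : ((cycloExp p (σ⁻¹ * σ) : ℕ) : ZMod p) = 1 := by
    rw [inv_mul_cancel]
    exact dcy_cast_one
  rw [dcy_cast_mul] at h1
  exact eq_inv_of_mul_eq_one_left h1

/-- the character as a monoid hom to `(ZMod p)ˣ`. -/
noncomputable def dcy_chi : (Qb ≃ₐ[ℚ] Qb) →* (ZMod p)ˣ where
  toFun σ := Units.mk0 ((cycloExp p σ : ℕ) : ZMod p) (dcy_cast_ne_zero σ)
  map_one' := by
    ext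
    simpa using dcy_cast_one (p := p)
  map_mul' σ τ := by
    ext
    simpa using dcy_cast_mul (p := p) σ τ

@[simp] theorem dcy_chi_coe (σ : Qb ≃ₐ[ℚ] Qb) :
    ((dcy_chi (p := p) σ : (ZMod p)ˣ) : ZMod p) = ((cycloExp p σ : ℕ) : ZMod p) := rfl

theorem dcy_mem_ker_iff (σ : Qb ≃ₐ[ℚ] Qb) {z : Qb} (hz : IsPrimitiveRoot z p) :
    σ ∈ (dcy_chi (p := p)).ker ↔ σ z = z := by
  rw [MonoidHom.mem_ker, ← dcy_cast_eq_one_iff σ hz, Units.ext_iff]
  rfl

/-- index of the kernel of the mod `p` cyclotomic character is prime to `p`. -/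
theorem dcy_index_ker_dvd : (dcy_chi (p := p)).ker.index ∣ p - 1 := by
  have : NeZero p := ⟨(Fact.out : p.Prime).ne_zero⟩
  rw [Subgroup.index_ker]
  have h1 : Nat.card (dcy_chi (p := p)).range ∣ Nat.card (ZMod p)ˣ :=
    Subgroup.card_subgroup_dvd_card _
  have h2 : Nat.card (ZMod p)ˣ = p - 1 := by
    rw [Nat.card_eq_fintype_card, ZMod.card_units_eq_totient,
      Nat.totient_prime (Fact.out : p.Prime)]
  rwa [h2] at h1

end Fermat.Agent.S14x
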