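/-
S14 project, module DICT-B (helper92): the number fields cut out by an admissible extension.
`L = ℚ̄^{ker ρ}` (finite Galois over `ℚ` because the kernel is open), cyclotomic character versus
the action on a primitive `p`-th root of unity, lifting of automorphisms.
-/
import Fermat.Agent.S14x.Defs
import Fermat.Agent.S13x.FixedRat

set_option autoImplicit false

namespace Fermat.Agent.S14x

open NumberField ExtCitation

local notation "Ω" => AlgebraicClosure ℚ
local notation "Γ" => (AlgebraicClosure ℚ ≃ₐ[ℚ] AlgebraicClosure ℚ)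

/-- `ℚ̄ / ℚ` is Galois (for the `ℚ`-algebra structure in force) -/
theorem db_isGalois : IsGalois ℚ Ω := Fermat.Agent.S13x.fr_isGalois_Qb

section Ker

variable (V : Type) [AddCommGroup V] [DistribMulAction Γ V]

/-- the kernel of the Galois action on `V` -/
def dbKer : Subgroup Γ where
  carrier := {σ | ∀ v : V, σ • v = v}
  one_mem' := fun v => one_smul _ v
  mul_mem' := fun {a b} ha hb v => by rw [mul_smul, hb v, ha v]
  inv_mem' := fun {a} ha v => by
    have h := ha v
    calc a⁻¹ • v = a⁻¹ • (a • v) := by rw [h]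
      _ = v := inv_smul_smul a v

theorem db_mem_ker {σ : Γ} : σ ∈ dbKer V ↔ ∀ v : V, σ • v = v := Iff.rfl

instance db_ker_normal : (dbKer V).Normal := by
  refine ⟨fun σ hσ g v => ?_⟩
  rw [mul_smul, mul_smul, hσ (g⁻¹ • v), smul_inv_smul]

/-- the field cut out by `V` -/
noncomputable def dbL : IntermediateField ℚ Ω := IntermediateField.fixedField (dbKer V)

variable (hopen : IsOpen {σ : Γ | ∀ v : V, σ • v = v})

include hopen in
theorem db_fixingSubgroup_L : (dbL V).fixingSubgroup = dbKer V := by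
  have := db_isGalois
  have hcl : IsClosed ((dbKer V : Subgroup Γ) : Set Γ) :=
    Subgroup.isClosed_of_isOpen (dbKer V) hopen
  exact InfiniteGalois.fixingSubgroup_fixedField ⟨dbKer V, hcl⟩

include hopen in
theorem db_finiteDimensional_L : FiniteDimensional ℚ (dbL V) := by
  have := db_isGalois
  rw [← InfiniteGalois.isOpen_iff_finite, db_fixingSubgroup_L V hopen]
  exact hopen

include hopen in
theorem db_isGalois_L' :
    @IsGalois ℚ _ (dbL V) _ (IntermediateField.algebra' (dbL V)) := by
  have := db_isGalois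
  rw [← InfiniteGalois.normal_iff_isGalois, db_fixingSubgroup_L V hopen]
  exact db_ker_normal V

/-- the two `ℚ`-algebra structures on an intermediate field agree -/
theorem db_algebra_eq (M : IntermediateField ℚ Ω) :
    (DivisionRing.toRatAlgebra : Algebra ℚ M) = IntermediateField.algebra' M :=
  Subsingleton.elim _ _

include hopen in
theorem db_isGalois_L : IsGalois ℚ (dbL V) := by
  rw [db_algebra_eq]
  exact db_isGalois_L' V hopen

include hopen in
theorem db_numberField_L : NumberField (dbL V) :=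
  { to_charZero := inferInstance
    to_finiteDimensional := db_finiteDimensional_L V hopen }

end Ker

end Fermat.Agent.S14x

namespace Fermat.Agent.S14x

open NumberField ExtCitation

local notation "Ω" => AlgebraicClosure ℚ
local notation "Γ" => (AlgebraicClosure ℚ ≃ₐ[ℚ] AlgebraicClosure ℚ)

section Cyclo

variable (p : ℕ) [Fact p.Prime]

/-- a primitive `p`-th root of unity in `ℚ̄` -/
theorem db_exists_primitiveRoot : ∃ ζ : Ω, IsPrimitiveRoot ζ p := by
  have : NeZero p := ⟨(Fact.out : p.Prime).ne_zero⟩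
  have : NeZero (p : Ω) := ⟨Nat.cast_ne_zero.mpr (NeZero.ne p)⟩
  exact HasEnoughRootsOfUnity.exists_primitiveRoot Ω p

/-- the defining property of `cycloExp` -/
theorem db_cycloExp_spec (σ : Γ) {ζ : Ω} (hζ : IsPrimitiveRoot ζ p) :
    σ ζ = ζ ^ cycloExp p σ := by
  have : NeZero p := ⟨(Fact.out : p.Prime).ne_zero⟩
  have hmem : hζ.toRootsOfUnity.1 ∈ rootsOfUnity p Ω := hζ.toRootsOfUnity.2
  have h := modularCyclotomicCharacter.spec Ω (card_rootsOfUnity_eq_self p)
    (σ : Ω ≃+* Ω) hmem
  simpa [cycloExp] using h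

/-- `σ ζ = ζ ^ k` pins down `cycloExp σ` modulo `p` -/
theorem db_cycloExp_eq (σ : Γ) {ζ : Ω} (hζ : IsPrimitiveRoot ζ p) (k : ℕ) (h : σ ζ = ζ ^ k) :
    (cycloExp p σ : ZMod p) = (k : ZMod p) := by
  have h1 : ζ ^ cycloExp p σ = ζ ^ k := by rw [← db_cycloExp_spec p σ hζ, h]
  rw [ZMod.natCast_eq_natCast_iff]
  have hp : 0 < p := (Fact.out : p.Prime).pos
  obtain ⟨u, hu⟩ := hζ.isUnit hp.ne'
  have hu' : IsPrimitiveRoot u p := by
    rw [← IsPrimitiveRoot.coe_units_iff, hu]; exact hζ
  have h2 : u ^ cycloExp p σ = u ^ k := by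
    apply Units.ext
    rw [Units.val_pow_eq_pow_val, Units.val_pow_eq_pow_val, hu]
    exact h1
  have := pow_eq_pow_iff_modEq.mp h2
  rwa [← hu'.eq_orderOf] at this

end Cyclo

end Fermat.Agent.S14x

namespace Fermat.Agent.S14x

open NumberField ExtCitation

local notation "Ω" => AlgebraicClosure ℚ
local notation "Γ" => (AlgebraicClosure ℚ ≃ₐ[ℚ] AlgebraicClosure ℚ)

section Lift

variable (Lf : IntermediateField ℚ Ω)

/-- every automorphism of a Galois subfield of `ℚ̄` lifts to `ℚ̄` -/
theorem db_exists_lift [IsGalois ℚ Lf] (τ : Lf ≃ₐ[ℚ] Lf) :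
    ∃ σ : Γ, ∀ x : Lf, σ (x : Ω) = ((τ x : Lf) : Ω) := by
  have := db_isGalois
  obtain ⟨σ, hσ⟩ := AlgEquiv.restrictNormalHom_surjective (F := ℚ) (K₁ := Lf) (E := Ω) τ
  refine ⟨σ, fun x => ?_⟩
  rw [← hσ]
  exact (AlgEquiv.restrictNormal_commutes σ Lf x).symm

end Lift

end Fermat.Agent.S14x

namespace Fermat.Agent.S14x

open NumberField ExtCitation

local notation "Ω" => AlgebraicClosure ℚ
local notation "Γ" => (AlgebraicClosure ℚ ≃ₐ[ℚ] AlgebraicClosure ℚ)

section Degree

variable (V : Type) [AddCommGroup V] [DistribMulAction Γ V]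
variable (hopen : IsOpen {σ : Γ | ∀ v : V, σ • v = v})

include hopen in
/-- `[L : ℚ]` is the index of the kernel -/
theorem db_finrank_L : Module.finrank ℚ (dbL V) = (dbKer V).index := by
  have := db_isGalois
  have hcl : IsClosed ((dbKer V : Subgroup Γ) : Set Γ) :=
    Subgroup.isClosed_of_isOpen (dbKer V) hopen
  let H : ClosedSubgroup Γ := ⟨dbKer V, hcl⟩
  have : H.1.Normal := db_ker_normal V
  have hG := db_isGalois_L V hopen
  have hfd := db_finiteDimensional_L V hopen
  have e := InfiniteGalois.normalAutEquivQuotient (k := ℚ) (K := Ω) H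
  have h1 : Nat.card (Γ ⧸ dbKer V) = Nat.card ((dbL V) ≃ₐ[ℚ] (dbL V)) := Nat.card_congr e.toEquiv
  rw [Subgroup.index, h1]
  exact (IsGalois.card_aut_eq_finrank ℚ (dbL V)).symm

end Degree

end Fermat.Agent.S14x

namespace Fermat.Agent.S14x

open NumberField ExtCitation

local notation "Ω" => AlgebraicClosure ℚ
local notation "Γ" => (AlgebraicClosure ℚ ≃ₐ[ℚ] AlgebraicClosure ℚ)

section K

variable (p : ℕ) [Fact p.Prime] (Lf : IntermediateField ℚ Ω) [NumberField Lf] (ζ : Lf)

/-- `K = ℚ(ζ)` inside `L` -/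
noncomputable def dbK : IntermediateField ℚ Lf := IntermediateField.adjoin ℚ {ζ}

theorem db_zeta_mem_K : ζ ∈ dbK Lf ζ :=
  IntermediateField.subset_adjoin ℚ {ζ} (Set.mem_singleton ζ)

variable {ζ} (hζ : IsPrimitiveRoot ζ p)

include hζ in
theorem db_isCyclotomic_K : IsCyclotomicExtension {p} ℚ (dbK Lf ζ) := by
  have : NeZero p := ⟨(Fact.out : p.Prime).ne_zero⟩
  have h := hζ.intermediateField_adjoin_isCyclotomicExtension ℚ
  have e : (DivisionRing.toRatAlgebra : Algebra ℚ (dbK Lf ζ)) =
      IntermediateField.algebra' (dbK Lf ζ) := Subsingleton.elim _ _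
  rw [e]
  exact h

theorem db_numberField_K : NumberField (dbK Lf ζ) :=
  { to_charZero := inferInstance
    to_finiteDimensional := by
      have e : (DivisionRing.toRatAlgebra : Algebra ℚ (dbK Lf ζ)) =
          IntermediateField.algebra' (dbK Lf ζ) := Subsingleton.elim _ _
      have h : FiniteDimensional ℚ (dbK Lf ζ) := inferInstance
      convert h }

include hζ in
theorem db_finrank_K : Module.finrank ℚ (dbK Lf ζ) = p - 1 := by
  have : NeZero p := ⟨(Fact.out : p.Prime).ne_zero⟩
  have := db_isCyclotomic_K p Lf hζ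
  rw [IsCyclotomicExtension.finrank (n := p) (dbK Lf ζ)
    (Polynomial.cyclotomic.irreducible_rat (Fact.out : p.Prime).pos), Nat.totient_prime Fact.out]

include hζ in
theorem db_finrank_K_L : (p - 1) * Module.finrank (dbK Lf ζ) Lf = Module.finrank ℚ Lf := by
  rw [← db_finrank_K p Lf hζ]
  exact Module.finrank_mul_finrank ℚ (dbK Lf ζ) Lf

theorem db_isGalois_K_L [IsGalois ℚ Lf] : IsGalois (dbK Lf ζ) Lf :=
  IsGalois.tower_top_of_isGalois ℚ (dbK Lf ζ) Lf

end K

end Fermat.Agent.S14x
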