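/-
S14 project, module DICT (sub-captain helper92): INTERFACE STUBS for the four sub-modules.
sorry-only; NEVER import this file from a real module.  Real modules re-prove the SAME statement
under namespace `Fermat.Agent.S14x` (same name, without `Spec.`).

DICT = `exists_tower` : a non-split admissible extension produces a `Tower p`.
  DICT-A  `S14x/DictAlg.lean`   (prefix da_) : pure algebra of the 2-dimensional representation.
  DICT-C  `S14x/DictRam.lean`   (prefix dc_) : valuation subrings of `ℚ̄` versus primes of number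
                                               fields (the ramification dictionary).
  DICT-B  `S14x/DictField.lean` (prefix db_) : the fields `L = ℚ̄^{ker ρ}`, `K = ℚ(ζ_p)`.
  DICT-D  `S14x/Dict.lean`                   : assembly, exports `exists_tower`.
-/
import Fermat.Agent.S14x.Defs

set_option autoImplicit false

namespace Fermat.Agent.S14x.Spec

open NumberField IsDedekindDomain ExtCitation
open scoped Pointwise

/-! ## DICT-A : pure algebra (no fields).  `G` any group. -/

section Alg

variable {G : Type*} [Group G] {p : ℕ} [Fact p.Prime] {V : Type*} [AddCommGroup V]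
  [Module (ZMod p) V] [DistribMulAction G V] [SMulCommClass G (ZMod p) V]

/-- the shape of an extension of `χ` by the trivial character -/
structure DAHyp (C : Submodule (ZMod p) V) (χ : G → ZMod p) : Prop where
  fixed : ∀ σ : G, ∀ x ∈ C, σ • x = x
  quot : ∀ (σ : G) (x : V), σ • x - χ σ • x ∈ C
  card_sub : Nat.card C = p
  card_total : Nat.card V = p ^ 2

variable {C : Submodule (ZMod p) V} {χ : G → ZMod p}

/-- Maschke: if the action factors through a finite quotient of order prime to `p`, then `C` has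
a stable complement.  (average a linear retraction `V → C` over the left cosets of `H`) -/
theorem da_dvd_index_of_not_split (h : DAHyp C χ) (H : Subgroup G)
    (hH : ∀ σ ∈ H, ∀ v : V, σ • v = v) (hfin : H.index ≠ 0)
    (hns : ¬ ∃ C' : Submodule (ZMod p) V, (∀ σ : G, ∀ x ∈ C', σ • x ∈ C') ∧ IsCompl C C') :
    p ∣ H.index := sorry

/-- the kernel of the action has index at most `p²` (`σ H ↦ (χ σ, σ v₀ - χ σ • v₀)` is injective
for `v₀ ∉ C`) -/
theorem da_index_le (h : DAHyp C χ) (H : Subgroup G)
    (hH : ∀ σ, σ ∈ H ↔ ∀ v : V, σ • v = v) : H.index ≠ 0 ∧ H.index ≤ p ^ 2 := sorry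

/-- `σ n^k σ⁻¹ = n` on `V` when `χ n = 1` and `χ σ = k` -/
theorem da_conj (h : DAHyp C χ) (σ n : G) (k : ℕ) (hn : χ n = 1) (hσ : χ σ = (k : ZMod p))
    (v : V) : (σ * n ^ k * σ⁻¹) • v = n • v := sorry

/-- a unipotent element preserving a complement of `C` is trivial -/
theorem da_trivial_of_isCompl (h : DAHyp C χ) (C' : Submodule (ZMod p) V) (hc : IsCompl C C')
    (n : G) (hn : χ n = 1) (hstab : ∀ x ∈ C', n • x ∈ C') (v : V) : n • v = v := sorry

/-- an element acting trivially has `χ = 1` -/
theorem da_chi_eq_one_of_trivial (h : DAHyp C χ) (σ : G) (hσ : ∀ v : V, σ • v = v) :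
    χ σ = 1 := sorry

end Alg

/-! ## DICT-C : the ramification dictionary.

`Lf` a finite Galois extension of `ℚ` inside `ℚ̄`, `Kf` an intermediate field of `Lf/ℚ`.
Method: `𝓑 = integralClosure ℤ ℚ̄`; a prime `w` of `𝓞 Lf` lies under a prime `Q` of `𝓑`; the
valuation subring `A = 𝓑_Q` lies over `w` (S54x `locVS`, S13x `gu_eq_locVS`, `mink_eq_locVS`).
Finite-level inertia / decomposition elements (Mathlib `Ideal.inertia`, `MulAction.stabilizer`,
`Ideal.card_inertia_eq_ramificationIdxIn`, `Ideal.card_stabilizer_eq`) lift to `A.inertiaSubgroupIn`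
/ `A.decompositionSubgroup` (S13x `il_lift_inertia`, `gi_exists_mul_mem_inertia`,
`gu_mem_inertia_locVS`; Mathlib `Algebra.IsInvariant.exists_smul_of_under_eq_of_profinite`). -/

section Ram

variable (Lf : IntermediateField ℚ (AlgebraicClosure ℚ)) [NumberField Lf] [IsGalois ℚ Lf]
  (Kf : IntermediateField ℚ Lf) [NumberField Kf]

/-- if every inertia element (at every valuation subring of `ℚ̄` over the residue characteristic
of `w`) which fixes `Kf` also fixes `Lf`, then `w` is unramified over `Kf`. -/
theorem dc_ramificationIdx_eq_one (w : Pl Lf) (ℓ : ℕ) (hℓ : ℓ.Prime) (hw : (ℓ : 𝓞 Lf) ∈ w.asIdeal)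
    (h : ∀ A : ValuationSubring (AlgebraicClosure ℚ), A.LiesOverPrime ℓ →
      ∀ σ ∈ A.inertiaSubgroupIn ℚ,
        (∀ x : Lf, x ∈ Kf → σ (x : AlgebraicClosure ℚ) = x) →
        ∀ x : Lf, σ (x : AlgebraicClosure ℚ) = x) :
    Ideal.ramificationIdx w.asIdeal (𝓞 Kf) = 1 := sorry

/-- the same with decomposition groups: `e = f = 1`. -/
theorem dc_splitsCompletely (v : Pl Kf) (ℓ : ℕ) (hℓ : ℓ.Prime) (hv : (ℓ : 𝓞 Kf) ∈ v.asIdeal)
    (h : ∀ A : ValuationSubring (AlgebraicClosure ℚ), A.LiesOverPrime ℓ →
      ∀ σ ∈ A.decompositionSubgroup ℚ,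
        (∀ x : Lf, x ∈ Kf → σ (x : AlgebraicClosure ℚ) = x) →
        ∀ x : Lf, σ (x : AlgebraicClosure ℚ) = x) :
    SplitsCompletely Kf Lf v := sorry

/-- every prime of a number field contains a unique rational prime -/
theorem dc_exists_prime_mem (w : Pl Lf) : ∃ ℓ : ℕ, ℓ.Prime ∧ (ℓ : 𝓞 Lf) ∈ w.asIdeal := sorry

end Ram

end Fermat.Agent.S14x.Spec
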