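import Mathlib
import Fermat.Agent.S14x.Defs
import Fermat.Agent.S14x.DictVal
import Fermat.Agent.S14x.DictCocycle

/-!
# S14 project, module DICT (B + D, shadow by helper74): the tower of a non-split admissible extension

`N = ker ρ` (open normal), `Lf = ℚ̄^N`, `Kf = ℚ(ζ_p) ⊆ Lf`.  The abstract field-theoretic core
`dtw_core` produces a `Tower p` from group-theoretic data in `Gal(ℚ̄/ℚ)`; `dtw_exists_tower` feeds it
with the cocycle algebra of `DictCocycle.lean` (helper97) and the ramification dictionary of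
`DictVal.lean`.
-/

set_option autoImplicit false
set_option linter.unusedSectionVars false

namespace Fermat.Agent.S14x

open NumberField IsDedekindDomain ExtCitation
open scoped Pointwise

noncomputable section

local notation "Ω" => AlgebraicClosure ℚ
local notation "Γ" => (AlgebraicClosure ℚ ≃ₐ[ℚ] AlgebraicClosure ℚ)

open Fermat.Agent.S54x Fermat.Agent.S13x

/-- the fixed field of an open normal subgroup is a number field, Galois over `ℚ`, with fixing
subgroup the given subgroup. -/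
theorem dtw_fixedField_props (N : Subgroup Γ) [hNn : N.Normal] (hNopen : IsOpen (N : Set Γ)) :
    (IntermediateField.fixedField N).fixingSubgroup = N ∧
      ∃ (_ : NumberField (IntermediateField.fixedField N : IntermediateField ℚ Ω))
        (_ : IsGalois ℚ (IntermediateField.fixedField N : IntermediateField ℚ Ω)), True := by
  have hgalΩ := isGalois_Qbar
  have hNclosed : IsClosed (N : Set Γ) := Subgroup.isClosed_of_isOpen N hNopen
  set M : IntermediateField ℚ Ω := IntermediateField.fixedField N with hM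
  have hMH : M.fixingSubgroup = N :=
    InfiniteGalois.fixingSubgroup_fixedField ⟨N, hNclosed⟩
  have hMH' : IsOpen M.fixingSubgroup.carrier ∧ M.fixingSubgroup.Normal := by
    rw [hMH]
    exact ⟨hNopen, hNn⟩
  obtain ⟨hMfin, hMgal⟩ :=
    (InfiniteGalois.isOpen_and_normal_iff_finite_and_isGalois M).mp hMH'
  refine ⟨hMH, ?_⟩
  have key : ∀ (a : Algebra ℚ M) (_ : @FiniteDimensional ℚ M _ _ a.toModule)
      (_ : @IsGalois ℚ _ M _ a), ∃ (_ : NumberField M) (_ : IsGalois ℚ M), True := by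
    intro a h1 h2
    obtain rfl : a = DivisionRing.toRatAlgebra := Subsingleton.elim _ _
    exact ⟨NumberField.mk, h2, trivial⟩
  exact key _ hMfin hMgal

section Res

variable (Lf : IntermediateField ℚ Ω) [NumberField Lf] [IsGalois ℚ Lf]

/-- restriction `Gal(ℚ̄/ℚ) → Gal(Lf/ℚ)` -/
def dtw_res : Γ →* (Lf ≃ₐ[ℚ] Lf) := AlgEquiv.restrictNormalHom Lf

theorem dtw_res_coe (σ : Γ) (x : Lf) : ((dtw_res Lf σ x : Lf) : Ω) = σ (x : Ω) :=
  AlgEquiv.restrictNormal_commutes σ Lf x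

theorem dtw_res_surjective : Function.Surjective (dtw_res Lf) := by
  have hgalΩ := isGalois_Qbar
  have hnormΩ : Normal ℚ Ω := hgalΩ.to_normal
  exact AlgEquiv.restrictNormalHom_surjective Ω

theorem dtw_res_eq_one_iff (σ : Γ) : dtw_res Lf σ = 1 ↔ ∀ x : Lf, σ (x : Ω) = x := by
  constructor
  · intro h x
    rw [← dtw_res_coe, h]
    rfl
  · intro h
    apply AlgEquiv.ext
    intro x
    apply Subtype.ext
    rw [dtw_res_coe, h]
    rfl

variable (ζ : Lf)

/-- an automorphism of `Lf` fixing `ζ` fixes `ℚ(ζ)` pointwise -/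
theorem dtw_fixes_adjoin (τ : Lf ≃ₐ[ℚ] Lf) (hτ : τ ζ = ζ) :
    τ ∈ (IntermediateField.adjoin ℚ {ζ} : IntermediateField ℚ Lf).fixingSubgroup := by
  rw [IntermediateField.mem_fixingSubgroup_iff]
  have hle : (IntermediateField.adjoin ℚ {ζ} : IntermediateField ℚ Lf) ≤
      IntermediateField.fixedField (MulAction.stabilizer (Lf ≃ₐ[ℚ] Lf) ζ) := by
    rw [IntermediateField.adjoin_simple_le_iff, IntermediateField.mem_fixedField_iff]
    intro f hf
    exact MulAction.mem_stabilizer_iff.mp hf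
  intro x hx
  have := hle hx
  rw [IntermediateField.mem_fixedField_iff] at this
  exact this τ (MulAction.mem_stabilizer_iff.mpr hτ)

end Res

section Core

variable {p : ℕ} [Fact p.Prime]

/-- **Abstract core of DICT.**  Group-theoretic data in `Gal(ℚ̄/ℚ)` producing a `Tower p`. -/
theorem dtw_core (N : Subgroup Γ) [hNn : N.Normal] (hNopen : IsOpen (N : Set Γ))
    (ζ : Ω) (hζ : IsPrimitiveRoot ζ p)
    (hNζ : ∀ σ ∈ N, σ ζ = ζ)
    (σ₀ : Γ) (hσ₀ζ : σ₀ ζ = ζ) (hσ₀N : σ₀ ∉ N)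
    (hpow : ∀ σ : Γ, σ ζ = ζ → ∃ k : ℕ, (σ₀ ^ k)⁻¹ * σ ∈ N)
    (hp : σ₀ ^ p ∈ N)
    (hconj : ∀ (τ σ : Γ) (k : ℕ), σ ζ = ζ → τ ζ = ζ ^ k → (σ * τ)⁻¹ * (τ * σ ^ k) ∈ N)
    (hin : ∀ ℓ : ℕ, ℓ.Prime → ℓ ≠ p → ∀ A : ValuationSubring Ω, A.LiesOverPrime ℓ →
      ∀ σ ∈ A.inertiaSubgroupIn ℚ, σ ∈ N)
    (hdec : ∀ A : ValuationSubring Ω, A.LiesOverPrime p → ∀ σ ∈ A.decompositionSubgroup ℚ,
      σ ζ = ζ → σ ∈ N) :
    Nonempty (Tower p) := by
  have hpprime : p.Prime := Fact.out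
  have : NeZero p := ⟨hpprime.ne_zero⟩
  obtain ⟨hfix, hNF, hGal, -⟩ := dtw_fixedField_props N hNopen
  set Lf : IntermediateField ℚ Ω := IntermediateField.fixedField N with hLf
  -- membership in `N`
  have hNmem : ∀ σ : Γ, σ ∈ N ↔ ∀ x : Lf, σ (x : Ω) = x := by
    intro σ
    rw [← hfix, IntermediateField.mem_fixingSubgroup_iff]
    exact ⟨fun h x => h x x.2, fun h x hx => h ⟨x, hx⟩⟩
  have hNres : ∀ σ : Γ, σ ∈ N ↔ dtw_res Lf σ = 1 := fun σ => by
    rw [hNmem, dtw_res_eq_one_iff]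
  -- `ζ ∈ Lf`
  have hζmem : ζ ∈ Lf := by
    rw [hLf, IntermediateField.mem_fixedField_iff]
    exact fun σ hσ => hNζ σ hσ
  set ζL : Lf := ⟨ζ, hζmem⟩ with hζL
  have hζLprim : IsPrimitiveRoot ζL p := by
    have h1 : IsPrimitiveRoot ((algebraMap Lf Ω) ζL) p := hζ
    exact h1.of_map_of_injective (algebraMap Lf Ω).injective
  set Kf : IntermediateField ℚ Lf := IntermediateField.adjoin ℚ {ζL} with hKf
  have hcyc : IsCyclotomicExtension {p} ℚ Kf :=
    hζLprim.intermediateField_adjoin_isCyclotomicExtension ℚ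
  have hζLK : ζL ∈ Kf := IntermediateField.mem_adjoin_simple_self ℚ ζL
  -- restriction of elements fixing `ζ`
  have hresζ : ∀ σ : Γ, dtw_res Lf σ ζL = ζL ↔ σ ζ = ζ := by
    intro σ
    constructor
    · intro h
      have := dtw_res_coe Lf σ ζL
      rw [h] at this
      exact this.symm
    · intro h
      apply Subtype.ext
      rw [dtw_res_coe]
      exact h
  have hresfix : ∀ σ : Γ, σ ζ = ζ → dtw_res Lf σ ∈ Kf.fixingSubgroup := fun σ hσ =>
    dtw_fixes_adjoin Lf ζL _ ((hresζ σ).mpr hσ)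
  -- the generator
  set g : Lf ≃ₐ[Kf] Lf := IntermediateField.fixingSubgroupEquiv Kf ⟨dtw_res Lf σ₀, hresfix σ₀ hσ₀ζ⟩
    with hg
  have hgapply : ∀ x : Lf, g x = dtw_res Lf σ₀ x := fun x => rfl
  have hgpow : ∀ (k : ℕ) (x : Lf), (g ^ k) x = dtw_res Lf (σ₀ ^ k) x := by
    intro k
    induction k with
    | zero => intro x; simp
    | succ n ih =>
      intro x
      rw [pow_succ, pow_succ, map_mul, AlgEquiv.mul_apply, AlgEquiv.mul_apply, ih, hgapply]
  have hg1 : g ≠ 1 := by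
    intro h
    apply hσ₀N
    rw [hNres]
    apply AlgEquiv.ext
    intro x
    rw [← hgapply, h]
    rfl
  -- every element of `Gal(Lf/Kf)` is a power of `g`
  have hgen : ∀ h : Lf ≃ₐ[Kf] Lf, ∃ σ : Γ, σ ζ = ζ ∧ ∀ x : Lf, h x = dtw_res Lf σ x := by
    intro h
    obtain ⟨σ, hσ⟩ := dtw_res_surjective Lf (h.restrictScalars ℚ)
    refine ⟨σ, ?_, fun x => ?_⟩
    · rw [← hresζ, hσ]
      exact h.commutes ⟨ζL, hζLK⟩
    · rw [hσ]
      rfl
  have hgenpow : ∀ h : Lf ≃ₐ[Kf] Lf, ∃ k : ℕ, h = g ^ k := by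
    intro h
    obtain ⟨σ, hσζ, hσ⟩ := hgen h
    obtain ⟨k, hk⟩ := hpow σ hσζ
    refine ⟨k, ?_⟩
    apply AlgEquiv.ext
    intro x
    rw [hσ, hgpow]
    rw [hNres, map_mul, map_inv, inv_mul_eq_one] at hk
    rw [hk]
  have hgp : g ^ p = 1 := by
    apply AlgEquiv.ext
    intro x
    rw [hgpow, (hNres _).mp hp]
    rfl
  have hord : orderOf g = p := orderOf_eq_prime hgp hg1
  have hcard : Nat.card (Lf ≃ₐ[Kf] Lf) = p := by
    have htop : Subgroup.zpowers g = ⊤ := by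
      rw [eq_top_iff]
      intro h _
      obtain ⟨k, hk⟩ := hgenpow h
      rw [hk]
      exact Subgroup.npow_mem_zpowers g k
    rw [← Subgroup.card_top (G := Lf ≃ₐ[Kf] Lf), ← htop, Nat.card_zpowers, hord]
  have hfinrank : Module.finrank Kf Lf = p := by
    rw [← IsGalois.card_aut_eq_finrank Kf Lf, hcard]
  -- elements of `Γ` fixing `Kf` fix `ζ`
  have hfixK : ∀ σ : Γ, (∀ x : Kf, σ (algebraMap Kf Ω x) = algebraMap Kf Ω x) → σ ζ = ζ := by
    intro σ h
    exact h ⟨ζL, hζLK⟩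
  -- unramified everywhere + split at `p`
  have hsplit_w : ∀ w : Pl Lf, (p : 𝓞 Lf) ∈ w.asIdeal →
      Ideal.ramificationIdx w.asIdeal (𝓞 Kf) = 1 ∧ Ideal.inertiaDeg w.asIdeal (𝓞 Kf) = 1 := by
    intro w hw
    refine dictv_ramificationIdx_inertiaDeg_eq_one Kf Lf w p hpprime hw ?_
    intro A hA σ hσ hK y
    exact (hNmem σ).mp (hdec A hA σ hσ (hfixK σ hK)) y
  have hunram : UnramifiedEverywhere Kf Lf := by
    intro w
    obtain ⟨ℓ, hℓ, hℓw⟩ := dictv_exists_prime_mem Lf w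
    by_cases hℓp : ℓ = p
    · subst hℓp
      exact (hsplit_w w hℓw).1
    · refine dictv_ramificationIdx_eq_one Kf Lf w ℓ hℓ hℓw ?_
      intro A hA σ hσ _ y
      exact (hNmem σ).mp (hin ℓ hℓ hℓp A hA σ hσ) y
  have hsplit : ∀ v : Pl Kf, (p : 𝓞 Kf) ∈ v.asIdeal → SplitsCompletely Kf Lf v := by
    intro v hv w hwv
    exact hsplit_w w (dictv_natCast_mem_of_plOver Kf Lf w v hwv p hv)
  -- the conjugation formula
  have hconj' : ∀ (τ' : Lf ≃ₐ[ℚ] Lf) (h : Lf ≃ₐ[Kf] Lf) (ζ' : Kf) (k : ℕ), IsPrimitiveRoot ζ' p →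
      τ' (algebraMap Kf Lf ζ') = (algebraMap Kf Lf ζ') ^ k →
      ∀ x : Lf, τ' ((h ^ k) x) = h (τ' x) := by
    intro τ' h ζ' k hζ' hτ' x
    obtain ⟨τ, hτ⟩ := dtw_res_surjective Lf τ'
    obtain ⟨σ, hσζ, hσ⟩ := hgen h
    -- `ζL` is a power of `ζ'`
    have hζ'L : IsPrimitiveRoot (algebraMap Kf Lf ζ') p := hζ'.map_of_injective
      (algebraMap Kf Lf).injective
    obtain ⟨i, -, hi⟩ := hζ'L.eq_pow_of_pow_eq_one hζLprim.pow_eq_one
    have hτζL : τ' ζL = ζL ^ k := by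
      rw [← hi, map_pow, hτ', ← pow_mul, ← pow_mul, mul_comm]
    have hτζ : τ ζ = ζ ^ k := by
      have h1 := dtw_res_coe Lf τ ζL
      rw [hτ, hτζL] at h1
      rw [← h1]
      rfl
    have hmem := hconj τ σ k hσζ hτζ
    rw [hNres, map_mul, map_inv, inv_mul_eq_one, map_mul, map_mul, map_pow, hτ] at hmem
    -- `h^k = res σ ^ k`
    have hhk : ∀ y : Lf, (h ^ k) y = ((dtw_res Lf σ) ^ k) y := by
      have : ∀ (n : ℕ) (y : Lf), (h ^ n) y = ((dtw_res Lf σ) ^ n) y := by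
        intro n
        induction n with
        | zero => intro y; simp
        | succ n ih =>
          intro y
          rw [pow_succ, pow_succ, AlgEquiv.mul_apply, AlgEquiv.mul_apply, ih, hσ]
      exact this k
    rw [hhk, hσ]
    have := DFunLike.congr_fun hmem x
    rw [AlgEquiv.mul_apply, AlgEquiv.mul_apply] at this
    exact this.symm
  exact ⟨{ K := Kf, L := Lf, g := g, g_ne_one := hg1, finrank_eq := hfinrank, unram := hunram,
           split_p := hsplit, conj := hconj' }⟩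

end Core

section Final

/-- **DICT** (shadow version, helper74): a non-split continuous admissible extension produces a
tower of number fields.  Same statement as `Spec.exists_tower`. -/
theorem dtw_exists_tower {p : ℕ} [Fact p.Prime] (h3 : 3 ≤ p)
    (V : Type) [AddCommGroup V] [Module (ZMod p) V]
    [DistribMulAction (AlgebraicClosure ℚ ≃ₐ[ℚ] AlgebraicClosure ℚ) V]
    [SMulCommClass (AlgebraicClosure ℚ ≃ₐ[ℚ] AlgebraicClosure ℚ) (ZMod p) V]
    (C : Submodule (ZMod p) V) (hadm : IsAdmissibleExtensionCts p V C)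
    (hns : ¬ SplitsGlobally C) : Nonempty (Tower p) := by
  have : NeZero p := ⟨(Fact.out : p.Prime).ne_zero⟩
  have hC : IsAdmissibleExtension p V C := hadm.toIsAdmissibleExtension
  obtain ⟨ζ, hζ⟩ := HasEnoughRootsOfUnity.exists_primitiveRoot Ω p
  obtain ⟨σ₀, hσ₀, hσ₀N⟩ := dca_exists_gen h3 hC hns
  refine dtw_core (dca_kerRho V) (dca_isOpen_kerRho hadm) ζ hζ ?_ σ₀
    ((dca_chi_eq_one_iff hζ σ₀).mp hσ₀) hσ₀N ?_ (dca_pow_p_mem hC hσ₀) ?_ ?_ ?_
  · intro σ hσ
    exact (dca_chi_eq_one_iff hζ σ).mp (MonoidHom.mem_ker.mp (dca_kerRho_le hC hσ))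
  · intro σ hσ
    obtain ⟨k, -, hk⟩ := dca_exists_pow hC hσ₀ hσ₀N ((dca_chi_eq_one_iff hζ σ).mpr hσ)
    exact ⟨k, hk⟩
  · intro τ σ k hσ hτ
    exact dca_conj_mem hC τ ((dca_chi_eq_one_iff hζ σ).mpr hσ) k
      ((dca_apply_zeta_eq_pow_iff hζ τ k).mp hτ)
  · intro ℓ hℓ hℓp A hA σ hσ
    exact dca_inertia_le hC hℓ hℓp A hA hσ
  · intro A hA σ hσ hσζ
    exact dca_decomp_le hC A hA ⟨hσ, MonoidHom.mem_ker.mpr ((dca_chi_eq_one_iff hζ σ).mpr hσζ)⟩

end Final

end

end Fermat.Agent.S14x
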