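/-
S14 project, module FIN (= SI-FIN = FI-D(D1)): the bridge divisors <-> fractional ideals <->
class group, and finiteness of `Dv F / P_F` and of the ray class quotient
`Dv F / (P_m + <v | m>)`.   helper98, prefix `dvc_`.
-/
import Fermat.Agent.S14x.Defs
import Fermat.Agent.S14x.DensCore

set_option autoImplicit false

namespace Fermat.Agent.S14x

open NumberField IsDedekindDomain

section Basic

variable {F : Type*} [Field F] [NumberField F]

theorem dvc_divOf_one : divOf (1 : F) = 0 := by
  ext v
  simp [ordAt]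

theorem dvc_divOf_mul {x y : F} (hx : x ≠ 0) (hy : y ≠ 0) :
    divOf (x * y) = divOf x + divOf y := by
  ext v
  simp [dn_ordAt_mul v hx hy]

theorem dvc_divOf_inv (x : F) : divOf x⁻¹ = - divOf x := by
  ext v
  simp [dn_ordAt_inv v x]

theorem dvc_divOf_div {x y : F} (hx : x ≠ 0) (hy : y ≠ 0) :
    divOf (x / y) = divOf x - divOf y := by
  ext v
  simp [dn_ordAt_div v hx hy]

variable (F)

/-- the group of principal divisors (closure form, as in `normGroup`). -/
noncomputable def dvc_principal : AddSubgroup (Dv F) :=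
  AddSubgroup.closure {D | ∃ x : F, x ≠ 0 ∧ D = divOf x}

variable {F}

theorem dvc_divOf_mem_principal {x : F} (hx : x ≠ 0) : divOf x ∈ dvc_principal F :=
  AddSubgroup.subset_closure ⟨x, hx, rfl⟩

theorem dvc_mem_principal_iff (D : Dv F) :
    D ∈ dvc_principal F ↔ ∃ x : F, x ≠ 0 ∧ D = divOf x := by
  constructor
  · intro h
    induction h using AddSubgroup.closure_induction with
    | mem D hD => exact hD
    | zero => exact ⟨1, one_ne_zero, dvc_divOf_one.symm⟩
    | add D E _ _ hD hE =>
      obtain ⟨x, hx, rfl⟩ := hD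
      obtain ⟨y, hy, rfl⟩ := hE
      exact ⟨x * y, mul_ne_zero hx hy, (dvc_divOf_mul hx hy).symm⟩
    | neg D _ hD =>
      obtain ⟨x, hx, rfl⟩ := hD
      exact ⟨x⁻¹, inv_ne_zero hx, (dvc_divOf_inv x).symm⟩
  · rintro ⟨x, hx, rfl⟩
    exact dvc_divOf_mem_principal hx

end Basic

end Fermat.Agent.S14x
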