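import Fermat.Agent.S14x.DvClass

set_option autoImplicit false

namespace Fermat.Agent.S14x

open NumberField IsDedekindDomain
open scoped nonZeroDivisors

section Frac

variable {F : Type*} [Field F] [NumberField F]

/-- the fractional ideal `∏ v ^ D v` of a divisor. -/
noncomputable def dvc_toFrac (D : Dv F) : FractionalIdeal (𝓞 F)⁰ F :=
  D.prod (fun v n => (v.asIdeal : FractionalIdeal (𝓞 F)⁰ F) ^ n)

theorem dvc_coe_ne_zero (v : Pl F) : (v.asIdeal : FractionalIdeal (𝓞 F)⁰ F) ≠ 0 :=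
  FractionalIdeal.coeIdeal_ne_zero.mpr v.ne_bot

theorem dvc_toFrac_ne_zero (D : Dv F) : dvc_toFrac D ≠ 0 := by
  unfold dvc_toFrac Finsupp.prod
  exact Finset.prod_ne_zero_iff.mpr fun v _ => zpow_ne_zero _ (dvc_coe_ne_zero v)

theorem dvc_toFrac_zero : dvc_toFrac (0 : Dv F) = 1 := by
  simp [dvc_toFrac]

theorem dvc_toFrac_add (D E : Dv F) : dvc_toFrac (D + E) = dvc_toFrac D * dvc_toFrac E := by
  unfold dvc_toFrac
  exact Finsupp.prod_add_index' (fun v => zpow_zero _) (fun v m n => zpow_add₀ (dvc_coe_ne_zero v) m n)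

theorem dvc_toFrac_single (v : Pl F) (n : ℤ) :
    dvc_toFrac (Finsupp.single v n) = (v.asIdeal : FractionalIdeal (𝓞 F)⁰ F) ^ n := by
  simp [dvc_toFrac]

theorem dvc_count_toFrac (D : Dv F) (v : Pl F) :
    FractionalIdeal.count F v (dvc_toFrac D) = D v :=
  FractionalIdeal.count_finsuppProd F v D

/-- `ordAt` of an algebraic integer is the multiplicity of `v` in `(a)`. -/
theorem dvc_ordAt_integer (v : Pl F) {a : 𝓞 F} (ha : a ≠ 0) :
    ordAt v (a : F) =
      ((Associates.mk v.asIdeal).count (Associates.mk (Ideal.span {a} : Ideal (𝓞 F))).factors : ℤ) := by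
  unfold ordAt
  rw [HeightOneSpectrum.valuation_of_algebraMap, v.intValuation_if_neg ha, WithZero.log_exp]
  simp

theorem dvc_count_spanSingleton (v : Pl F) {x : F} (hx : x ≠ 0) :
    FractionalIdeal.count F v (FractionalIdeal.spanSingleton (𝓞 F)⁰ x) = ordAt v x := by
  obtain ⟨a, b, hb, rfl⟩ := IsFractionRing.div_surjective (A := 𝓞 F) x
  have hb0 : b ≠ 0 := nonZeroDivisors.ne_zero hb
  have ha0 : a ≠ 0 := by
    rintro rfl
    simp at hx
  have haF : (algebraMap (𝓞 F) F a) ≠ 0 := by simpa using ha0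
  have hbF : (algebraMap (𝓞 F) F b) ≠ 0 := by simpa using hb0
  have hI : FractionalIdeal.spanSingleton (𝓞 F)⁰ (algebraMap (𝓞 F) F a / algebraMap (𝓞 F) F b) =
      FractionalIdeal.spanSingleton (𝓞 F)⁰ ((algebraMap (𝓞 F) F) b)⁻¹ *
        ((Ideal.span {a} : Ideal (𝓞 F)) : FractionalIdeal (𝓞 F)⁰ F) := by
    rw [FractionalIdeal.coeIdeal_span_singleton, FractionalIdeal.spanSingleton_mul_spanSingleton]
    congr 1
    rw [div_eq_mul_inv, mul_comm]
  have hne : FractionalIdeal.spanSingleton (𝓞 F)⁰ (algebraMap (𝓞 F) F a / algebraMap (𝓞 F) F b) ≠ 0 := by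
    rw [Ne, FractionalIdeal.spanSingleton_eq_zero_iff]
    exact hx
  rw [FractionalIdeal.count_well_defined F v hne hI, dn_ordAt_div v haF hbF,
    dvc_ordAt_integer v ha0, dvc_ordAt_integer v hb0]

/-- two nonzero fractional ideals with the same counts are equal -/
theorem dvc_frac_ext {I J : FractionalIdeal (𝓞 F)⁰ F} (hI : I ≠ 0) (hJ : J ≠ 0)
    (h : ∀ v : Pl F, FractionalIdeal.count F v I = FractionalIdeal.count F v J) : I = J := by
  rw [← FractionalIdeal.finprod_heightOneSpectrum_factorization' F hI,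
    ← FractionalIdeal.finprod_heightOneSpectrum_factorization' F hJ]
  exact finprod_congr fun v => by rw [h v]

theorem dvc_toFrac_divOf {x : F} (hx : x ≠ 0) :
    dvc_toFrac (divOf x) = FractionalIdeal.spanSingleton (𝓞 F)⁰ x := by
  refine dvc_frac_ext (dvc_toFrac_ne_zero _) ?_ fun v => ?_
  · rw [Ne, FractionalIdeal.spanSingleton_eq_zero_iff]
    exact hx
  · rw [dvc_count_toFrac, dvc_count_spanSingleton v hx, divOf_apply]

theorem dvc_toFrac_injective : Function.Injective (dvc_toFrac (F := F)) := by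
  intro D E h
  ext v
  rw [← dvc_count_toFrac D v, ← dvc_count_toFrac E v, h]

/-- the divisor of a nonzero fractional ideal -/
noncomputable def dvc_ofFrac (I : FractionalIdeal (𝓞 F)⁰ F) : Dv F :=
  Finsupp.ofSupportFinite (fun v => FractionalIdeal.count F v I) (by
    have := FractionalIdeal.finite_factors (K := F) I
    rw [Filter.eventually_cofinite] at this
    exact this)

theorem dvc_toFrac_ofFrac {I : FractionalIdeal (𝓞 F)⁰ F} (hI : I ≠ 0) :
    dvc_toFrac (dvc_ofFrac I) = I := by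
  refine dvc_frac_ext (dvc_toFrac_ne_zero _) hI fun v => ?_
  rw [dvc_count_toFrac]
  rfl

end Frac

end Fermat.Agent.S14x
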