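/-
S14 project, module FIN (= FI-D(D1)), part 2: finiteness of the ray class quotient
`Dv F / (P_m + <v | m>)`.   helper98, prefix `dvc_`.
-/
import Fermat.Agent.S14x.DvClassCl

set_option autoImplicit false

namespace Fermat.Agent.S14x

open NumberField IsDedekindDomain
open scoped nonZeroDivisors

section Ray

variable {F : Type*} [Field F] [NumberField F]

/-! ### `ordAt` versus valuations -/

theorem dvc_ordAt_nonneg_iff (v : Pl F) {x : F} (hx : x ≠ 0) :
    0 ≤ ordAt v x ↔ v.valuation F x ≤ 1 := by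
  have hne : v.valuation F x ≠ 0 := (Valuation.ne_zero_iff _).mpr hx
  unfold ordAt
  rw [neg_nonneg, ← WithZero.log_one, WithZero.log_le_log hne one_ne_zero]

theorem dvc_ordAt_pos_iff (v : Pl F) {x : F} (hx : x ≠ 0) :
    0 < ordAt v x ↔ v.valuation F x < 1 := by
  have hne : v.valuation F x ≠ 0 := (Valuation.ne_zero_iff _).mpr hx
  unfold ordAt
  rw [neg_pos, ← WithZero.log_one, WithZero.log_lt_log hne one_ne_zero]

theorem dvc_ordAt_integer_nonneg (v : Pl F) {a : 𝓞 F} (ha : a ≠ 0) : 0 ≤ ordAt v (a : F) := by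
  rw [dvc_ordAt_nonneg_iff v (by simpa using ha)]
  exact v.valuation_le_one a

theorem dvc_ordAt_integer_pos_iff (v : Pl F) {a : 𝓞 F} (ha : a ≠ 0) :
    0 < ordAt v (a : F) ↔ a ∈ v.asIdeal := by
  rw [dvc_ordAt_pos_iff v (by simpa using ha)]
  exact v.valuation_lt_one_iff_mem a

theorem dvc_ordAt_integer_eq_zero_iff (v : Pl F) {a : 𝓞 F} (ha : a ≠ 0) :
    ordAt v (a : F) = 0 ↔ a ∉ v.asIdeal := by
  rw [← dvc_ordAt_integer_pos_iff v ha]
  have := dvc_ordAt_integer_nonneg v ha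
  omega

/-- an element of `F` with nonnegative order everywhere is an algebraic integer -/
theorem dvc_exists_integer_of_ordAt_nonneg {x : F} (hx : x ≠ 0) (h : ∀ v : Pl F, 0 ≤ ordAt v x) :
    ∃ a : 𝓞 F, (a : F) = x := by
  have := HeightOneSpectrum.mem_integers_of_valuation_le_one (R := 𝓞 F) F x
    (fun v => (dvc_ordAt_nonneg_iff v hx).mp (h v))
  obtain ⟨a, ha⟩ := this
  exact ⟨a, ha⟩

variable (F)

/-- principal divisors of integers `≡ 1 mod m` (first generator set of `rayGroup`). -/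
noncomputable def dvc_ray (m : ℕ) : AddSubgroup (Dv F) :=
  AddSubgroup.closure
    {D | ∃ x : 𝓞 F, x ≠ 0 ∧ x - 1 ∈ Ideal.span {(m : 𝓞 F)} ∧ D = divOf (x : F)}

/-- divisors supported on the primes dividing `m`. -/
noncomputable def dvc_bad (m : ℕ) : AddSubgroup (Dv F) :=
  AddSubgroup.closure
    {D | ∃ v : Pl F, (m : 𝓞 F) ∈ v.asIdeal ∧ D = Finsupp.single v 1}

variable {F}

/-- `a` is a unit at all primes dividing `m`. -/
def dvc_unitAt (m : ℕ) (a : 𝓞 F) : Prop := ∀ v : Pl F, (m : 𝓞 F) ∈ v.asIdeal → a ∉ v.asIdeal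

theorem dvc_natCast_ne_zero (m : ℕ) [NeZero m] : (m : 𝓞 F) ≠ 0 := by
  exact_mod_cast NeZero.ne m

/-- a unit at the primes over `m` is invertible modulo `m`. -/
theorem dvc_exists_inv_mod (m : ℕ) [NeZero m] {a : 𝓞 F} (ha : dvc_unitAt m a) :
    ∃ e : 𝓞 F, e * a - 1 ∈ Ideal.span {(m : 𝓞 F)} := by
  have htop : Ideal.span {a} ⊔ Ideal.span {(m : 𝓞 F)} = ⊤ := by
    by_contra hne
    obtain ⟨P, hP, hle⟩ := Ideal.exists_le_maximal _ hne
    have hmP : (m : 𝓞 F) ∈ P := hle (Ideal.mem_sup_right (Ideal.mem_span_singleton_self _))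
    have haP : a ∈ P := hle (Ideal.mem_sup_left (Ideal.mem_span_singleton_self _))
    have hP0 : P ≠ ⊥ := by
      rintro rfl
      exact dvc_natCast_ne_zero (F := F) m ((Ideal.mem_bot).mp hmP)
    exact ha ⟨P, hP.isPrime, hP0⟩ hmP haP
  have h1 : (1 : 𝓞 F) ∈ Ideal.span {a} ⊔ Ideal.span {(m : 𝓞 F)} := by
    rw [htop]
    trivial
  obtain ⟨e, b, hb, he⟩ := Ideal.mem_span_singleton_sup.mp h1
  refine ⟨e, ?_⟩
  have : e * a - 1 = -b := by
    rw [← he]
    ring
  rw [this]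
  exact Ideal.neg_mem_iff _ |>.mpr hb

theorem dvc_unitAt_of_inv_mod (m : ℕ) {a e : 𝓞 F} (h : e * a - 1 ∈ Ideal.span {(m : 𝓞 F)}) :
    dvc_unitAt m a := by
  intro v hm ha
  have h1 : e * a - 1 ∈ v.asIdeal := by
    have hle : Ideal.span {(m : 𝓞 F)} ≤ v.asIdeal := by
      rw [Ideal.span_singleton_le_iff_mem]
      exact hm
    exact hle h
  have h2 : (1 : 𝓞 F) ∈ v.asIdeal := by
    have : (1 : 𝓞 F) = e * a - (e * a - 1) := by ring
    rw [this]
    exact Ideal.sub_mem _ (Ideal.mul_mem_left _ _ ha) h1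
  exact v.isPrime.ne_top ((Ideal.eq_top_iff_one _).mpr h2)

theorem dvc_unitAt_congr (m : ℕ) {a c : 𝓞 F} (ha : dvc_unitAt m a)
    (hac : a - c ∈ Ideal.span {(m : 𝓞 F)}) : dvc_unitAt m c := by
  intro v hm hc
  apply ha v hm
  have hle : Ideal.span {(m : 𝓞 F)} ≤ v.asIdeal := by
    rw [Ideal.span_singleton_le_iff_mem]
    exact hm
  have : a = (a - c) + c := by ring
  rw [this]
  exact Ideal.add_mem _ (hle hac) hc

omit [NumberField F] in
theorem dvc_coe_ne_zero' {a : 𝓞 F} (ha : a ≠ 0) : (a : F) ≠ 0 := by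
  simpa using ha

/-- congruent units mod `m` have divisors congruent modulo `dvc_ray`. -/
theorem dvc_divOf_sub_mem_ray (m : ℕ) [NeZero m] {a c : 𝓞 F} (ha0 : a ≠ 0) (hc0 : c ≠ 0)
    (ha : dvc_unitAt m a) (hac : a - c ∈ Ideal.span {(m : 𝓞 F)}) :
    divOf (a : F) - divOf (c : F) ∈ dvc_ray F m := by
  obtain ⟨e, he⟩ := dvc_exists_inv_mod m ha
  have hec : e * c - 1 ∈ Ideal.span {(m : 𝓞 F)} := by
    have : e * c - 1 = (e * a - 1) - e * (a - c) := by ring
    rw [this]
    exact Ideal.sub_mem _ he (Ideal.mul_mem_left _ _ hac)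
  by_cases he0 : e = 0
  · -- then `(m) = ⊤`
    subst he0
    have htop : Ideal.span {(m : 𝓞 F)} = ⊤ := by
      rw [Ideal.eq_top_iff_one]
      have : (1 : 𝓞 F) = -(0 * a - 1) := by ring
      rw [this]
      exact (Ideal.neg_mem_iff _).mpr he
    have h1 : divOf (a : F) ∈ dvc_ray F m :=
      AddSubgroup.subset_closure ⟨a, ha0, by rw [htop]; trivial, rfl⟩
    have h2 : divOf (c : F) ∈ dvc_ray F m :=
      AddSubgroup.subset_closure ⟨c, hc0, by rw [htop]; trivial, rfl⟩
    exact AddSubgroup.sub_mem _ h1 h2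
  · have h1 : divOf ((e * a : 𝓞 F) : F) ∈ dvc_ray F m :=
      AddSubgroup.subset_closure ⟨e * a, mul_ne_zero he0 ha0, he, rfl⟩
    have h2 : divOf ((e * c : 𝓞 F) : F) ∈ dvc_ray F m :=
      AddSubgroup.subset_closure ⟨e * c, mul_ne_zero he0 hc0, hec, rfl⟩
    have h3 := AddSubgroup.sub_mem _ h1 h2
    have e1 : ((e * a : 𝓞 F) : F) = (e : F) * (a : F) := by push_cast; ring
    have e2 : ((e * c : 𝓞 F) : F) = (e : F) * (c : F) := by push_cast; ring
    rw [e1, e2, dvc_divOf_mul (dvc_coe_ne_zero' he0) (dvc_coe_ne_zero' ha0),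
      dvc_divOf_mul (dvc_coe_ne_zero' he0) (dvc_coe_ne_zero' hc0)] at h3
    have : divOf (a : F) - divOf (c : F) =
        divOf (e : F) + divOf (a : F) - (divOf (e : F) + divOf (c : F)) := by abel
    rw [this]
    exact h3

/-! ### the parts of a divisor over `m` and away from `m` -/

open Classical in
/-- the part of `D` supported at the primes dividing `m` -/
noncomputable def dvc_badPart (m : ℕ) (D : Dv F) : Dv F :=
  D.filter (fun v => (m : 𝓞 F) ∈ v.asIdeal)

open Classical in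
/-- the part of `D` supported away from `m` -/
noncomputable def dvc_goodPart (m : ℕ) (D : Dv F) : Dv F :=
  D.filter (fun v => ¬ (m : 𝓞 F) ∈ v.asIdeal)

theorem dvc_badPart_add_goodPart (m : ℕ) (D : Dv F) :
    dvc_badPart m D + dvc_goodPart m D = D := by
  classical
  exact Finsupp.filter_add_filter_not D _

theorem dvc_goodPart_coprime (m : ℕ) (D : Dv F) : CoprimeTo m (dvc_goodPart m D) := by
  classical
  intro v hv
  simp [dvc_goodPart, hv]

theorem dvc_goodPart_of_coprime (m : ℕ) {D : Dv F} (hD : CoprimeTo m D) :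
    dvc_goodPart m D = D := by
  classical
  ext v
  by_cases hv : (m : 𝓞 F) ∈ v.asIdeal
  · simp [dvc_goodPart, hv, hD v hv]
  · simp [dvc_goodPart, hv]

theorem dvc_badPart_mem_bad (m : ℕ) (D : Dv F) : dvc_badPart m D ∈ dvc_bad F m := by
  classical
  rw [← Finsupp.sum_single (dvc_badPart m D)]
  unfold Finsupp.sum
  refine AddSubgroup.sum_mem _ fun v hv => ?_
  have hv0 : (dvc_badPart m D) v ≠ 0 := Finsupp.mem_support_iff.mp hv
  have hmv : (m : 𝓞 F) ∈ v.asIdeal := by
    by_contra hmem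
    apply hv0
    simp [dvc_badPart, hmem]
  have hs : Finsupp.single v (1 : ℤ) ∈ dvc_bad F m :=
    AddSubgroup.subset_closure ⟨v, hmv, rfl⟩
  have : Finsupp.single v ((dvc_badPart m D) v) = ((dvc_badPart m D) v) • Finsupp.single v (1 : ℤ) := by
    rw [Finsupp.smul_single, smul_eq_mul, mul_one]
  rw [this]
  exact AddSubgroup.zsmul_mem _ hs _

theorem dvc_sub_goodPart_mem_bad (m : ℕ) (D : Dv F) : D - dvc_goodPart m D ∈ dvc_bad F m := by
  have h := dvc_badPart_add_goodPart m D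
  have : D - dvc_goodPart m D = dvc_badPart m D := by
    rw [sub_eq_iff_eq_add]
    exact h.symm
  rw [this]
  exact dvc_badPart_mem_bad m D

theorem dvc_coprime_sub {m : ℕ} {D E : Dv F} (hD : CoprimeTo m D) (hE : CoprimeTo m E) :
    CoprimeTo m (D - E) := by
  intro v hv
  rw [Finsupp.sub_apply, hD v hv, hE v hv, sub_zero]

/-! ### writing an `m`-unit of `F` as a quotient of `m`-unit integers -/

theorem dvc_exists_unit_fraction (m : ℕ) [NeZero m] {x : F} (hx : x ≠ 0)
    (hxm : CoprimeTo m (divOf x)) :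
    ∃ a b : 𝓞 F, a ≠ 0 ∧ b ≠ 0 ∧ dvc_unitAt m a ∧ dvc_unitAt m b ∧ x = (a : F) / (b : F) := by
  classical
  have hm0 : m ≠ 0 := NeZero.ne m
  set S := (dn_finite_primes_over (F := F) m hm0).toFinset with hS
  set W := (divOf x).support with hW
  obtain ⟨b, hb0, hb⟩ := dn_exists_integer (S ∪ W) (fun v => (- ordAt v x).toNat)
  have hbF : (b : F) ≠ 0 := dvc_coe_ne_zero' hb0
  have hbx : (b : F) * x ≠ 0 := mul_ne_zero hbF hx
  have hord : ∀ v : Pl F, 0 ≤ ordAt v ((b : F) * x) := by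
    intro v
    rw [dn_ordAt_mul v hbF hx]
    by_cases hv : v ∈ S ∪ W
    · rw [hb v hv]
      omega
    · have hvW : v ∉ W := fun h => hv (Finset.mem_union_right _ h)
      have h0 : ordAt v x = 0 := by
        have := Finsupp.notMem_support_iff.mp hvW
        simpa using this
      have := dvc_ordAt_integer_nonneg v hb0
      omega
  obtain ⟨a, ha⟩ := dvc_exists_integer_of_ordAt_nonneg hbx hord
  have ha0 : a ≠ 0 := by
    rintro rfl
    apply hbx
    rw [← ha]
    simp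
  have hunit_b : dvc_unitAt m b := by
    intro v hv
    have hvS : v ∈ S ∪ W := Finset.mem_union_left _ (by simpa [hS] using hv)
    have h0 : ordAt v x = 0 := by
      have := hxm v hv
      simpa using this
    rw [← dvc_ordAt_integer_eq_zero_iff v hb0, hb v hvS, h0]
    simp
  have hunit_a : dvc_unitAt m a := by
    intro v hv
    have h0 : ordAt v x = 0 := by
      have := hxm v hv
      simpa using this
    rw [← dvc_ordAt_integer_eq_zero_iff v ha0, ha, dn_ordAt_mul v hbF hx, h0,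
      (dvc_ordAt_integer_eq_zero_iff v hb0).mpr (hunit_b v hv)]
    simp
  refine ⟨a, b, ha0, hb0, hunit_a, hunit_b, ?_⟩
  rw [ha]
  field_simp

/-! ### the finiteness theorem -/

/-- every class of `Dv F / P_F` has a representative prime to `m`. -/
theorem dvc_exists_coprime_rep (m : ℕ) [NeZero m] (q : Dv F ⧸ dvc_principal F) :
    ∃ t : Dv F, CoprimeTo m t ∧ (QuotientAddGroup.mk t : Dv F ⧸ dvc_principal F) = q := by
  obtain ⟨D0, rfl⟩ := QuotientAddGroup.mk_surjective q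
  obtain ⟨x, hx, hcop⟩ := dn_exists_coprime m (NeZero.ne m) D0
  refine ⟨D0 - divOf x, hcop, ?_⟩
  rw [QuotientAddGroup.eq_iff_sub_mem]
  have : D0 - divOf x - D0 = - divOf x := by abel
  rw [this]
  exact AddSubgroup.neg_mem _ (dvc_divOf_mem_principal hx)

instance dvc_finite_quot_natCast (m : ℕ) [NeZero m] :
    Finite (𝓞 F ⧸ Ideal.span {(m : 𝓞 F)}) :=
  Ideal.finiteQuotientOfFreeOfNeBot _ (by
    rw [Ne, Ideal.span_singleton_eq_bot]
    exact dvc_natCast_ne_zero m)

/-- **FI-D (D1)**: the ray class group `Dv F / (P_m + <v | m>)` is finite. -/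
instance dvc_finite_quot_ray (m : ℕ) [NeZero m] :
    Finite (Dv F ⧸ (dvc_ray F m ⊔ dvc_bad F m)) := by
  classical
  -- coprime representatives of the ideal classes
  choose t ht1 ht2 using dvc_exists_coprime_rep (F := F) m
  -- unit representatives of the residue classes mod `m`
  let P : (𝓞 F ⧸ Ideal.span {(m : 𝓞 F)}) → 𝓞 F → Prop := fun u a =>
    a ≠ 0 ∧ dvc_unitAt m a ∧ Ideal.Quotient.mk (Ideal.span {(m : 𝓞 F)}) a = u
  let c : (𝓞 F ⧸ Ideal.span {(m : 𝓞 F)}) → 𝓞 F := fun u =>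
    if h : ∃ a, P u a then h.choose else 1
  have hc : ∀ u a, P u a → P u (c u) := by
    intro u a ha
    have h : ∃ a, P u a := ⟨a, ha⟩
    simp only [c, dif_pos h]
    exact h.choose_spec
  let f : (Dv F ⧸ dvc_principal F) × (𝓞 F ⧸ Ideal.span {(m : 𝓞 F)}) ×
      (𝓞 F ⧸ Ideal.span {(m : 𝓞 F)}) → Dv F ⧸ (dvc_ray F m ⊔ dvc_bad F m) :=
    fun x => QuotientAddGroup.mk (t x.1 + divOf (c x.2.1 : F) - divOf (c x.2.2 : F))
  refine Finite.of_surjective f ?_
  intro y
  obtain ⟨D, rfl⟩ := QuotientAddGroup.mk_surjective y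
  set D' := dvc_goodPart m D with hD'
  set q : Dv F ⧸ dvc_principal F := QuotientAddGroup.mk D' with hq
  have hmem : D' - t q ∈ dvc_principal F := by
    rw [← QuotientAddGroup.eq_iff_sub_mem, ht2 q]
  obtain ⟨x, hx, hxD⟩ := (dvc_mem_principal_iff _).mp hmem
  have hcop : CoprimeTo m (divOf x) := by
    rw [← hxD]
    exact dvc_coprime_sub (dvc_goodPart_coprime m D) (ht1 q)
  obtain ⟨a, b, ha0, hb0, hua, hub, hxab⟩ := dvc_exists_unit_fraction m hx hcop
  set u := Ideal.Quotient.mk (Ideal.span {(m : 𝓞 F)}) a with hu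
  set u' := Ideal.Quotient.mk (Ideal.span {(m : 𝓞 F)}) b with hu'
  obtain ⟨hca0, -, hca⟩ := hc u a ⟨ha0, hua, rfl⟩
  obtain ⟨hcb0, -, hcb⟩ := hc u' b ⟨hb0, hub, rfl⟩
  have h1 : divOf (a : F) - divOf (c u : F) ∈ dvc_ray F m := by
    refine dvc_divOf_sub_mem_ray m ha0 hca0 hua ?_
    rw [← Ideal.Quotient.eq, hca]
  have h2 : divOf (b : F) - divOf (c u' : F) ∈ dvc_ray F m := by
    refine dvc_divOf_sub_mem_ray m hb0 hcb0 hub ?_
    rw [← Ideal.Quotient.eq, hcb]
  refine ⟨(q, u, u'), ?_⟩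
  show (QuotientAddGroup.mk (t q + divOf (c u : F) - divOf (c u' : F)) :
    Dv F ⧸ (dvc_ray F m ⊔ dvc_bad F m)) = QuotientAddGroup.mk D
  rw [eq_comm, QuotientAddGroup.eq_iff_sub_mem]
  have hdiv : divOf x = divOf (a : F) - divOf (b : F) := by
    rw [hxab, dvc_divOf_div (dvc_coe_ne_zero' ha0) (dvc_coe_ne_zero' hb0)]
  have : D - (t q + divOf (c u : F) - divOf (c u' : F)) =
      (D - D') + ((divOf (a : F) - divOf (c u : F)) - (divOf (b : F) - divOf (c u' : F))) := by
    have e1 : D' - t q = divOf (a : F) - divOf (b : F) := by rw [hxD, hdiv]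
    have e2 : D' = t q + (divOf (a : F) - divOf (b : F)) := by
      rw [← e1]
      abel
    rw [e2]
    abel
  rw [this]
  refine AddSubgroup.add_mem _ ?_ ?_
  · exact AddSubgroup.mem_sup_right (dvc_sub_goodPart_mem_bad m D)
  · exact AddSubgroup.mem_sup_left (AddSubgroup.sub_mem _ h1 h2)

end Ray

end Fermat.Agent.S14x
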