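import Fermat.Agent.S14x.DvClassRay

set_option autoImplicit false

namespace Fermat.Agent.S14x

open NumberField IsDedekindDomain
open scoped nonZeroDivisors

section RayCor

variable {F : Type*} [Field F] [NumberField F]

/-- finiteness of any quotient by a subgroup containing `P_m + <v | m>`. -/
theorem dvc_finite_quot_of_le (m : ℕ) [NeZero m] (H : AddSubgroup (Dv F))
    (hH : dvc_ray F m ⊔ dvc_bad F m ≤ H) : Finite (Dv F ⧸ H) := by
  let g : Dv F ⧸ (dvc_ray F m ⊔ dvc_bad F m) →+ Dv F ⧸ H :=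
    QuotientAddGroup.map _ _ (AddMonoidHom.id _) (by
      intro D hD
      exact hH hD)
  refine Finite.of_surjective g ?_
  intro y
  obtain ⟨D, rfl⟩ := QuotientAddGroup.mk_surjective y
  exact ⟨QuotientAddGroup.mk D, rfl⟩

/-- the same statement with all closures spelled out (rfl-compatible with any other
definition of `P_m`, `S_m` by the same generating sets). -/
theorem dvc_finite_quot_closure (m : ℕ) [NeZero m] :
    Finite (Dv F ⧸
      (AddSubgroup.closure
          {D : Dv F | ∃ x : 𝓞 F, x ≠ 0 ∧ x - 1 ∈ Ideal.span {(m : 𝓞 F)} ∧ D = divOf (x : F)} ⊔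
        AddSubgroup.closure
          {D : Dv F | ∃ v : Pl F, (m : 𝓞 F) ∈ v.asIdeal ∧ D = Finsupp.single v 1})) :=
  dvc_finite_quot_ray (F := F) m

theorem dvc_ray_sup_bad_finiteIndex (m : ℕ) [NeZero m] :
    (dvc_ray F m ⊔ dvc_bad F m).FiniteIndex :=
  AddSubgroup.finiteIndex_of_finite_quotient

/-! ### coprimality bookkeeping -/

theorem dvc_goodPart_add (m : ℕ) (D E : Dv F) :
    dvc_goodPart m (D + E) = dvc_goodPart m D + dvc_goodPart m E := by
  classical
  exact Finsupp.filter_add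

theorem dvc_goodPart_zero (m : ℕ) : dvc_goodPart m (0 : Dv F) = 0 := by
  classical
  exact Finsupp.filter_zero _

theorem dvc_goodPart_neg (m : ℕ) (D : Dv F) : dvc_goodPart m (-D) = - dvc_goodPart m D := by
  classical
  exact Finsupp.filter_neg _ D

theorem dvc_goodPart_single_of_mem (m : ℕ) {v : Pl F} (hv : (m : 𝓞 F) ∈ v.asIdeal) (n : ℤ) :
    dvc_goodPart m (Finsupp.single v n) = 0 := by
  classical
  ext w
  by_cases hw : (m : 𝓞 F) ∈ w.asIdeal
  · simp [dvc_goodPart, hw]
  · have hne : v ≠ w := by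
      rintro rfl
      exact hw hv
    simp [dvc_goodPart, hw, hne]

theorem dvc_goodPart_of_mem_bad (m : ℕ) {D : Dv F} (hD : D ∈ dvc_bad F m) :
    dvc_goodPart m D = 0 := by
  induction hD using AddSubgroup.closure_induction with
  | mem D hD =>
    obtain ⟨v, hv, rfl⟩ := hD
    exact dvc_goodPart_single_of_mem m hv 1
  | zero => exact dvc_goodPart_zero m
  | add D E _ _ hD hE => rw [dvc_goodPart_add, hD, hE, add_zero]
  | neg D _ hD => rw [dvc_goodPart_neg, hD, neg_zero]

/-- if all elements of `H` are prime to `m`, a divisor prime to `m` in `H + <v | m>` is in `H`. -/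
theorem dvc_mem_of_mem_sup_bad (m : ℕ) (H : AddSubgroup (Dv F))
    (hH : ∀ D ∈ H, CoprimeTo m D) {D : Dv F} (hD : D ∈ H ⊔ dvc_bad F m)
    (hcop : CoprimeTo m D) : D ∈ H := by
  obtain ⟨h, hh, s, hs, rfl⟩ := AddSubgroup.mem_sup.mp hD
  have e := dvc_goodPart_of_coprime m hcop
  rw [dvc_goodPart_add, dvc_goodPart_of_mem_bad m hs, add_zero,
    dvc_goodPart_of_coprime m (hH h hh)] at e
  rw [← e]
  exact hh

theorem dvc_coprime_divOf_of_sub_one_mem (m : ℕ) {x : 𝓞 F} (hx0 : x ≠ 0)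
    (hx : x - 1 ∈ Ideal.span {(m : 𝓞 F)}) : CoprimeTo m (divOf (x : F)) := by
  intro v hv
  rw [divOf_apply, dvc_ordAt_integer_eq_zero_iff v hx0]
  have h1 : (1 : 𝓞 F) * x - 1 ∈ Ideal.span {(m : 𝓞 F)} := by
    rwa [one_mul]
  exact dvc_unitAt_of_inv_mod m h1 v hv

theorem dvc_coprime_single_of_notMem (m : ℕ) {v : Pl F} (hv : (m : 𝓞 F) ∉ v.asIdeal) (n : ℤ) :
    CoprimeTo m (Finsupp.single v n : Dv F) := by
  classical
  intro w hw
  have hne : v ≠ w := by
    rintro rfl
    exact hv hw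
  simp [hne]

theorem dvc_coprime_zero (m : ℕ) : CoprimeTo m (0 : Dv F) := fun _ _ => rfl

theorem dvc_coprime_add {m : ℕ} {D E : Dv F} (hD : CoprimeTo m D) (hE : CoprimeTo m E) :
    CoprimeTo m (D + E) := by
  intro v hv
  rw [Finsupp.add_apply, hD v hv, hE v hv, add_zero]

theorem dvc_coprime_neg {m : ℕ} {D : Dv F} (hD : CoprimeTo m D) : CoprimeTo m (-D) := by
  intro v hv
  rw [Finsupp.neg_apply, hD v hv, neg_zero]

theorem dvc_coprime_of_mem_ray (m : ℕ) {D : Dv F} (hD : D ∈ dvc_ray F m) : CoprimeTo m D := by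
  induction hD using AddSubgroup.closure_induction with
  | mem D hD =>
    obtain ⟨x, hx0, hx, rfl⟩ := hD
    exact dvc_coprime_divOf_of_sub_one_mem m hx0 hx
  | zero => exact dvc_coprime_zero m
  | add D E _ _ hD hE => exact dvc_coprime_add hD hE
  | neg D _ hD => exact dvc_coprime_neg hD

theorem dvc_mem_ray_of_mem_sup_bad (m : ℕ) {D : Dv F} (hD : D ∈ dvc_ray F m ⊔ dvc_bad F m)
    (hcop : CoprimeTo m D) : D ∈ dvc_ray F m :=
  dvc_mem_of_mem_sup_bad m _ (fun _ h => dvc_coprime_of_mem_ray m h) hD hcop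

/-- every divisor is congruent mod `<v | m>` to a divisor prime to `m`. -/
theorem dvc_exists_coprime_sub_mem_bad (m : ℕ) (D : Dv F) :
    ∃ D' : Dv F, CoprimeTo m D' ∧ D - D' ∈ dvc_bad F m :=
  ⟨dvc_goodPart m D, dvc_goodPart_coprime m D, dvc_sub_goodPart_mem_bad m D⟩

end RayCor

section RayGroup

variable (F M : Type*) [Field F] [NumberField F] [Field M] [NumberField M] [Algebra F M]

theorem dvc_ray_le_rayGroup (m : ℕ) : dvc_ray F m ≤ rayGroup F M m :=
  AddSubgroup.closure_mono Set.subset_union_left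

variable {F M}

theorem dvc_coprime_of_mem_rayGroup (m : ℕ) {D : Dv F} (hD : D ∈ rayGroup F M m) :
    CoprimeTo m D := by
  induction hD using AddSubgroup.closure_induction with
  | mem D hD =>
    rcases hD with ⟨x, hx0, hx, rfl⟩ | ⟨v, -, hv, rfl⟩
    · exact dvc_coprime_divOf_of_sub_one_mem m hx0 hx
    · exact dvc_coprime_single_of_notMem m hv 1
  | zero => exact dvc_coprime_zero m
  | add D E _ _ hD hE => exact dvc_coprime_add hD hE
  | neg D _ hD => exact dvc_coprime_neg hD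

theorem dvc_mem_rayGroup_of_mem_sup_bad (m : ℕ) {D : Dv F}
    (hD : D ∈ rayGroup F M m ⊔ dvc_bad F m) (hcop : CoprimeTo m D) : D ∈ rayGroup F M m :=
  dvc_mem_of_mem_sup_bad m _ (fun _ h => dvc_coprime_of_mem_rayGroup m h) hD hcop

variable (F M)

/-- helper22's `Q = Dv F / Hplus` is finite. -/
instance dvc_finite_quot_rayGroup (m : ℕ) [NeZero m] :
    Finite (Dv F ⧸ (rayGroup F M m ⊔ dvc_bad F m)) :=
  dvc_finite_quot_of_le m _ (sup_le_sup_right (dvc_ray_le_rayGroup F M m) _)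

end RayGroup

end Fermat.Agent.S14x
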