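/-
S14 project, FI-F (helper66): Euler product over a free commutative monoid.
For `f : ι → ℂ` such that the full monomial expansion is absolutely summable,
`∏ i, (1 - f i)⁻¹ = ∑ n : ι →₀ ℕ, ∏ i, f i ^ n i`.  Mathlib only.  Prefix `ep_`.
-/
import Mathlib

set_option autoImplicit false

namespace Fermat.Agent.S14x

open Filter Topology

/-- the monomial `∏ i, f i ^ n i` attached to a finitely supported exponent vector. -/
noncomputable def epTerm {ι : Type*} (f : ι → ℂ) (n : ι →₀ ℕ) : ℂ := n.prod fun i k => f i ^ k

section

variable {ι : Type*} (f : ι → ℂ)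

@[simp] theorem ep_term_zero : epTerm f 0 = 1 := by simp [epTerm]

theorem ep_term_add (m n : ι →₀ ℕ) : epTerm f (m + n) = epTerm f m * epTerm f n := by
  unfold epTerm
  exact Finsupp.prod_add_index' (fun _ => pow_zero _) (fun _ _ _ => pow_add _ _ _)

@[simp] theorem ep_term_single (i : ι) (k : ℕ) : epTerm f (Finsupp.single i k) = f i ^ k := by
  unfold epTerm
  exact Finsupp.prod_single_index (h := fun i k => f i ^ k) (pow_zero _)

/-- the truncated monomial function: monomials supported in the finite set `s`. -/
noncomputable def epTrunc [DecidableEq ι] (s : Finset ι) (n : ι →₀ ℕ) : ℂ :=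
  if n.support ⊆ s then epTerm f n else 0

theorem ep_norm_trunc_le [DecidableEq ι] (s : Finset ι) (n : ι →₀ ℕ) :
    ‖epTrunc f s n‖ ≤ ‖epTerm f n‖ := by
  unfold epTrunc
  split_ifs
  · exact le_rfl
  · simp

variable {f}

theorem ep_norm_lt_one (hsum : Summable fun n : ι →₀ ℕ => ‖epTerm f n‖) (i : ι) : ‖f i‖ < 1 := by
  have hinj : Function.Injective (fun k : ℕ => Finsupp.single i k) :=
    fun a b h => by simpa using (Finsupp.single_injective i) h
  have h1 : Summable fun k : ℕ => ‖f i‖ ^ k := by
    have := hsum.comp_injective hinj
    simpa [Function.comp_def, norm_pow] using this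
  have h2 := summable_geometric_iff_norm_lt_one.mp h1
  simpa using h2


theorem ep_summable_trunc [DecidableEq ι] (hsum : Summable fun n : ι →₀ ℕ => ‖epTerm f n‖)
    (s : Finset ι) : Summable fun n : ι →₀ ℕ => ‖epTrunc f s n‖ :=
  hsum.of_nonneg_of_le (fun _ => norm_nonneg _) (ep_norm_trunc_le f s)

theorem ep_hasSum_trunc [DecidableEq ι] (hsum : Summable fun n : ι →₀ ℕ => ‖epTerm f n‖)
    (s : Finset ι) : HasSum (epTrunc f s) (∏ i ∈ s, (1 - f i)⁻¹) := by
  induction s using Finset.induction_on with
  | empty =>
    rw [Finset.prod_empty]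
    have h : ∀ n : ι →₀ ℕ, n ≠ 0 → epTrunc f ∅ n = 0 := by
      intro n hn
      unfold epTrunc
      rw [if_neg]
      intro hsub
      apply hn
      rw [← Finsupp.support_eq_empty]
      exact Finset.subset_empty.mp hsub
    have h0 : epTrunc f ∅ (0 : ι →₀ ℕ) = 1 := by simp [epTrunc]
    rw [← h0]
    exact hasSum_single 0 h
  | insert a s ha ih =>
    rw [Finset.prod_insert ha]
    -- the product family on `ℕ × (ι →₀ ℕ)`
    have hgeo : HasSum (fun k : ℕ => f a ^ k) (1 - f a)⁻¹ :=
      hasSum_geometric_of_norm_lt_one (ep_norm_lt_one hsum a)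
    have hgeon : Summable fun k : ℕ => ‖f a ^ k‖ := by
      simp only [norm_pow]
      exact summable_geometric_of_lt_one (norm_nonneg _) (ep_norm_lt_one hsum a)
    have hG : HasSum (fun x : ℕ × (ι →₀ ℕ) => f a ^ x.1 * epTrunc f s x.2)
        ((1 - f a)⁻¹ * ∏ i ∈ s, (1 - f i)⁻¹) :=
      hgeo.mul ih (summable_mul_of_summable_norm hgeon (ep_summable_trunc hsum s))
    refine (hasSum_iff_hasSum_of_ne_zero_bij
      (fun x : Function.support (fun x : ℕ × (ι →₀ ℕ) => f a ^ x.1 * epTrunc f s x.2) =>
        Finsupp.single a x.1.1 + x.1.2) ?_ ?_ ?_).mpr hG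
    · -- injectivity
      rintro ⟨⟨k, n⟩, hx⟩ ⟨⟨k', n'⟩, hx'⟩ h
      simp only [Function.mem_support, ne_eq, mul_eq_zero, not_or] at hx hx'
      have hn : n.support ⊆ s := by
        by_contra hc
        exact hx.2 (by simp [epTrunc, hc])
      have hn' : n'.support ⊆ s := by
        by_contra hc
        exact hx'.2 (by simp [epTrunc, hc])
      have hna : n a = 0 := by
        by_contra hc
        exact ha (hn (Finsupp.mem_support_iff.mpr hc))
      have hna' : n' a = 0 := by
        by_contra hc
        exact ha (hn' (Finsupp.mem_support_iff.mpr hc))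
      simp only at h
      have hk : k = k' := by
        have := DFunLike.congr_fun h a
        simpa [hna, hna'] using this
      subst hk
      have hnn : n = n' := add_left_cancel h
      subst hnn
      rfl
    · -- support covered
      intro n hn
      simp only [Function.mem_support, ne_eq] at hn
      have hsub : n.support ⊆ insert a s := by
        by_contra hc
        exact hn (by simp [epTrunc, hc])
      have hdec : Finsupp.single a (n a) + n.erase a = n := Finsupp.single_add_erase a n
      have hsub' : (n.erase a).support ⊆ s := by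
        intro i hi
        rw [Finsupp.support_erase, Finset.mem_erase] at hi
        rcases Finset.mem_insert.mp (hsub hi.2) with h | h
        · exact absurd h hi.1
        · exact h
      have hterm : epTerm f n = f a ^ n a * epTerm f (n.erase a) := by
        conv_lhs => rw [← hdec]
        rw [ep_term_add, ep_term_single]
      have hne : f a ^ n a * epTrunc f s (n.erase a) ≠ 0 := by
        have : epTrunc f s (n.erase a) = epTerm f (n.erase a) := by
          rw [epTrunc, if_pos hsub']
        rw [this, ← hterm]
        have : epTrunc f (insert a s) n = epTerm f n := by rw [epTrunc, if_pos hsub]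
        rw [← this]
        exact hn
      exact ⟨⟨(n a, n.erase a), hne⟩, hdec⟩
    · -- values agree
      rintro ⟨⟨k, n⟩, hx⟩
      simp only [Function.mem_support, ne_eq, mul_eq_zero, not_or] at hx
      have hn : n.support ⊆ s := by
        by_contra hc
        exact hx.2 (by simp [epTrunc, hc])
      have hsub : (Finsupp.single a k + n).support ⊆ insert a s := by
        refine (Finsupp.support_add).trans ?_
        refine Finset.union_subset ?_ (hn.trans (Finset.subset_insert a s))
        exact (Finsupp.support_single_subset).trans (by simp)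
      simp only
      rw [epTrunc, if_pos hsub, epTrunc, if_pos hn, ep_term_add, ep_term_single]

/-- **Euler product over a free commutative monoid.** -/
theorem ep_hasProd (hsum : Summable fun n : ι →₀ ℕ => ‖epTerm f n‖) :
    HasProd (fun i => (1 - f i)⁻¹) (∑' n : ι →₀ ℕ, epTerm f n) := by
  classical
  unfold HasProd
  have hcongr : (fun s : Finset ι => ∏ i ∈ s, (1 - f i)⁻¹) =
      fun s : Finset ι => ∑' n : ι →₀ ℕ, epTrunc f s n := by
    funext s
    exact ((ep_hasSum_trunc hsum s).tsum_eq).symm
  rw [hcongr]
  refine tendsto_tsum_of_dominated_convergence (bound := fun n => ‖epTerm f n‖) hsum ?_ ?_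
  · intro n
    refine tendsto_const_nhds.congr' ?_
    filter_upwards [Filter.eventually_ge_atTop n.support] with s hs
    simp [epTrunc, show n.support ⊆ s from hs]
  · exact Filter.Eventually.of_forall fun s n => ep_norm_trunc_le f s n

end

end Fermat.Agent.S14x
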