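/-
S14 project, FI-F (part 1): abstract Euler product over an arbitrary index type.

For `c : ι → 𝕜` (`𝕜` a complete normed field) with `Summable ‖c‖` and `‖c i‖ < 1`:
  `∑' D : ι →₀ ℕ, ∏ i, c i ^ D i = ∏' i, (1 - c i)⁻¹`   (`efs_hasProd`)
and the family on the left is absolutely summable (`efs_summable_norm`).
Finite version: the sum over the `D` supported in a finite set `S` is `∏ i ∈ S, (1 - c i)⁻¹`
(`efs_hasSum_supp`).  Mathlib only.  Owner: helper12.  Prefix `efs_`.
-/
import Mathlib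

set_option autoImplicit false

namespace Fermat.Agent.S14x

open Finset Filter Topology

noncomputable section

variable {ι : Type*} {𝕜 : Type*} [NormedField 𝕜]

/-- the monomial `∏ i, c i ^ D i` attached to a finitely supported exponent vector `D`. -/
def efs_mon (c : ι → 𝕜) (D : ι →₀ ℕ) : 𝕜 := D.prod fun i n => c i ^ n

@[simp] theorem efs_mon_zero (c : ι → 𝕜) : efs_mon c 0 = 1 := by simp [efs_mon]

theorem efs_mon_add (c : ι → 𝕜) (D E : ι →₀ ℕ) : efs_mon c (D + E) = efs_mon c D * efs_mon c E := by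
  classical
  unfold efs_mon
  exact Finsupp.prod_add_index' (fun _ => pow_zero _) (fun _ _ _ => pow_add _ _ _)

@[simp] theorem efs_mon_single (c : ι → 𝕜) (a : ι) (n : ℕ) :
    efs_mon c (Finsupp.single a n) = c a ^ n := by
  unfold efs_mon
  exact Finsupp.prod_single_index (pow_zero _)

theorem efs_norm_mon (c : ι → 𝕜) (D : ι →₀ ℕ) :
    ‖efs_mon c D‖ = efs_mon (fun i => ‖c i‖) D := by
  unfold efs_mon Finsupp.prod
  rw [norm_prod]
  simp [norm_pow]

theorem efs_mon_nonneg {c : ι → ℝ} (hc : ∀ i, 0 ≤ c i) (D : ι →₀ ℕ) : 0 ≤ efs_mon c D := by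
  unfold efs_mon Finsupp.prod
  exact Finset.prod_nonneg fun i _ => pow_nonneg (hc i) _

/-- exponent vectors supported in the finite set `S` -/
def efs_supp (S : Finset ι) : Set (ι →₀ ℕ) := {D | D.support ⊆ S}

theorem efs_mem_supp {S : Finset ι} {D : ι →₀ ℕ} : D ∈ efs_supp S ↔ D.support ⊆ S := Iff.rfl

theorem efs_supp_mono {S T : Finset ι} (h : S ⊆ T) : efs_supp S ⊆ efs_supp T :=
  fun _ hD => hD.trans h

theorem efs_supp_empty : efs_supp (∅ : Finset ι) = {0} := by
  ext D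
  simp [efs_supp, Finset.subset_empty]

/-- splitting off the exponent at `a ∉ S`. -/
def efs_equiv [DecidableEq ι] {a : ι} {S : Finset ι} (ha : a ∉ S) :
    efs_supp (insert a S) ≃ ℕ × efs_supp S where
  toFun D := (D.1 a, ⟨D.1.erase a, by
    intro i hi
    rw [Finsupp.support_erase] at hi
    have h1 := Finset.mem_of_mem_erase hi
    have h2 := Finset.ne_of_mem_erase hi
    have := D.2 h1
    rcases Finset.mem_insert.mp this with h | h
    · exact absurd h h2
    · exact h⟩)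
  invFun x := ⟨Finsupp.single a x.1 + x.2.1, by
    intro i hi
    have := Finsupp.support_add hi
    rcases Finset.mem_union.mp this with h | h
    · have := Finsupp.support_single_subset h
      rw [Finset.mem_singleton] at this
      rw [this]; exact Finset.mem_insert_self _ _
    · exact Finset.mem_insert_of_mem (x.2.2 h)⟩
  left_inv D := by
    apply Subtype.ext
    simp only
    exact Finsupp.single_add_erase a D.1
  right_inv x := by
    obtain ⟨n, D, hD⟩ := x
    have hDa : D a = 0 := by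
      by_contra h
      exact ha (hD (Finsupp.mem_support_iff.mpr h))
    apply Prod.ext
    · simp [hDa]
    · apply Subtype.ext
      simp only
      rw [Finsupp.erase_add, Finsupp.erase_single, zero_add,
        Finsupp.erase_of_notMem_support (by simpa using hDa)]

theorem efs_equiv_symm_mon [DecidableEq ι] (c : ι → 𝕜) {a : ι} {S : Finset ι} (ha : a ∉ S)
    (x : ℕ × efs_supp S) :
    efs_mon c ((efs_equiv ha).symm x : ι →₀ ℕ) = c a ^ x.1 * efs_mon c (x.2 : ι →₀ ℕ) := by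
  show efs_mon c (Finsupp.single a x.1 + x.2.1) = _
  rw [efs_mon_add, efs_mon_single]

variable [CompleteSpace 𝕜]

/-- **Finite Euler product**: the sum of the monomials supported in `S` is
`∏ i ∈ S, (1 - c i)⁻¹`, with absolute convergence. -/
theorem efs_summable_and_hasSum_supp (c : ι → 𝕜) (S : Finset ι) (h1 : ∀ i ∈ S, ‖c i‖ < 1) :
    Summable (fun D : efs_supp S => ‖efs_mon c (D : ι →₀ ℕ)‖) ∧
      HasSum (fun D : efs_supp S => efs_mon c (D : ι →₀ ℕ)) (∏ i ∈ S, (1 - c i)⁻¹) := by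
  classical
  induction S using Finset.induction with
  | empty =>
    have h0 : ∀ D : efs_supp (∅ : Finset ι), (D : ι →₀ ℕ) = 0 := fun D => by
      have h := Finset.subset_empty.mp D.2
      exact Finsupp.support_eq_empty.mp h
    have : Unique (efs_supp (∅ : Finset ι)) :=
      ⟨⟨⟨0, by simp [efs_supp]⟩⟩, fun D => Subtype.ext (h0 D)⟩
    refine ⟨(hasSum_unique _).summable, ?_⟩
    have := hasSum_unique (fun D : efs_supp (∅ : Finset ι) => efs_mon c (D : ι →₀ ℕ))
    rw [h0 default, efs_mon_zero] at this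
    rw [Finset.prod_empty]
    exact this
  | insert a S ha ih =>
    have ih' := ih fun i hi => h1 i (Finset.mem_insert_of_mem hi)
    have ha1 : ‖c a‖ < 1 := h1 a (Finset.mem_insert_self _ _)
    have hgeo : Summable fun n : ℕ => ‖c a ^ n‖ := by
      simp only [norm_pow]
      exact summable_geometric_of_lt_one (norm_nonneg _) ha1
    have hfun : ∀ x : ℕ × efs_supp S,
        efs_mon c (((efs_equiv ha).symm x : efs_supp (insert a S)) : ι →₀ ℕ) =
          c a ^ x.1 * efs_mon c (x.2 : ι →₀ ℕ) := efs_equiv_symm_mon c ha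
    have hsum1 : Summable fun x : ℕ × efs_supp S => ‖c a ^ x.1 * efs_mon c (x.2 : ι →₀ ℕ)‖ :=
      Summable.mul_norm (f := fun n : ℕ => c a ^ n)
        (g := fun D : efs_supp S => efs_mon c (D : ι →₀ ℕ)) hgeo ih'.1
    have hsum2 : HasSum (fun x : ℕ × efs_supp S => c a ^ x.1 * efs_mon c (x.2 : ι →₀ ℕ))
        ((1 - c a)⁻¹ * ∏ i ∈ S, (1 - c i)⁻¹) :=
      HasSum.mul (f := fun n : ℕ => c a ^ n)
        (g := fun D : efs_supp S => efs_mon c (D : ι →₀ ℕ))
        (hasSum_geometric_of_norm_lt_one ha1) ih'.2 hsum1.of_norm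
    constructor
    · refine ((efs_equiv ha).symm.summable_iff
        (f := fun D : efs_supp (insert a S) => ‖efs_mon c (D : ι →₀ ℕ)‖)).mp ?_
      refine hsum1.congr fun x => ?_
      simp only [Function.comp_apply, hfun]
    · rw [Finset.prod_insert ha]
      refine ((efs_equiv ha).symm.hasSum_iff
        (f := fun D : efs_supp (insert a S) => efs_mon c (D : ι →₀ ℕ))).mp ?_
      refine hsum2.congr_fun fun x => ?_
      simp only [Function.comp_apply, hfun]

theorem efs_hasSum_supp (c : ι → 𝕜) (S : Finset ι) (h1 : ∀ i ∈ S, ‖c i‖ < 1) :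
    HasSum (fun D : efs_supp S => efs_mon c (D : ι →₀ ℕ)) (∏ i ∈ S, (1 - c i)⁻¹) :=
  (efs_summable_and_hasSum_supp c S h1).2

theorem efs_tsum_supp (c : ι → 𝕜) (S : Finset ι) (h1 : ∀ i ∈ S, ‖c i‖ < 1) :
    ∑' D : efs_supp S, efs_mon c (D : ι →₀ ℕ) = ∏ i ∈ S, (1 - c i)⁻¹ :=
  (efs_hasSum_supp c S h1).tsum_eq

/-! ### The infinite Euler product -/

/-- for a summable family `0 ≤ x i < 1`, the finite products `∏ i ∈ S, (1 - x i)⁻¹` are bounded. -/
theorem efs_prod_inv_le {x : ι → ℝ} (hx0 : ∀ i, 0 ≤ x i) (hx1 : ∀ i, x i < 1) (hx : Summable x) :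
    ∃ C : ℝ, ∀ S : Finset ι, ∏ i ∈ S, (1 - x i)⁻¹ ≤ C := by
  set y : ι → ℝ := fun i => x i * (1 - x i)⁻¹ with hy
  have hy0 : ∀ i, 0 ≤ y i := fun i =>
    mul_nonneg (hx0 i) (inv_nonneg.mpr (sub_nonneg.mpr (hx1 i).le))
  have hysum : Summable y := by
    have hev : ∀ᶠ i in cofinite, ‖y i‖ ≤ 2 * x i := by
      have h0 := hx.tendsto_cofinite_zero
      have : ∀ᶠ i in cofinite, x i < 1 / 2 :=
        h0.eventually (gt_mem_nhds (by norm_num : (0 : ℝ) < 1 / 2))
      filter_upwards [this] with i hi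
      rw [Real.norm_of_nonneg (hy0 i), hy]
      have h1 : (1 - x i)⁻¹ ≤ 2 := by
        rw [inv_le_comm₀ (by linarith) (by norm_num)]
        linarith
      calc x i * (1 - x i)⁻¹ ≤ x i * 2 := mul_le_mul_of_nonneg_left h1 (hx0 i)
        _ = 2 * x i := mul_comm _ _
    exact Summable.of_norm_bounded_eventually (hx.mul_left 2) hev
  refine ⟨Real.exp (∑' i, y i), fun S => ?_⟩
  have h1 : ∀ i, (1 - x i)⁻¹ = 1 + y i := by
    intro i
    have hne : (1 - x i) ≠ 0 := by have := hx1 i; linarith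
    rw [hy]
    field_simp
    ring
  calc ∏ i ∈ S, (1 - x i)⁻¹ = ∏ i ∈ S, (1 + y i) := Finset.prod_congr rfl fun i _ => h1 i
    _ ≤ Real.exp (∑ i ∈ S, y i) := Real.prod_one_add_le_exp_sum S hy0
    _ ≤ Real.exp (∑' i, y i) :=
        Real.exp_le_exp.mpr (hysum.sum_le_tsum S fun i _ => hy0 i)

/-- absolute summability of the monomials (real, non-negative case). -/
theorem efs_summable_real {x : ι → ℝ} (hx0 : ∀ i, 0 ≤ x i) (hx1 : ∀ i, x i < 1)
    (hx : Summable x) : Summable (fun D : ι →₀ ℕ => efs_mon x D) := by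
  classical
  obtain ⟨C, hC⟩ := efs_prod_inv_le hx0 hx1 hx
  refine summable_of_sum_le (fun D => efs_mon_nonneg hx0 D) (c := C) fun T => ?_
  set S : Finset ι := T.biUnion fun D => D.support with hS
  have hTS : ∀ D ∈ T, D ∈ efs_supp S := fun D hD =>
    Finset.subset_biUnion_of_mem (fun D : ι →₀ ℕ => D.support) hD
  have hnorm : ∀ i ∈ S, ‖x i‖ < 1 := fun i _ => by
    rw [Real.norm_of_nonneg (hx0 i)]; exact hx1 i
  have hfin := efs_summable_and_hasSum_supp x S hnorm
  have hsummable : Summable fun D : efs_supp S => efs_mon x (D : ι →₀ ℕ) := hfin.2.summable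
  calc ∑ D ∈ T, efs_mon x D
      = ∑ D ∈ T.subtype (· ∈ efs_supp S), efs_mon x (D : ι →₀ ℕ) := by
        rw [Finset.sum_subtype_of_mem _ hTS]
    _ ≤ ∑' D : efs_supp S, efs_mon x (D : ι →₀ ℕ) :=
        hsummable.sum_le_tsum _ fun D _ => efs_mon_nonneg hx0 _
    _ = ∏ i ∈ S, (1 - x i)⁻¹ := hfin.2.tsum_eq
    _ ≤ C := hC S

omit [CompleteSpace 𝕜] in
/-- **absolute summability of the monomials**. -/
theorem efs_summable_norm (c : ι → 𝕜) (hc : Summable fun i => ‖c i‖) (h1 : ∀ i, ‖c i‖ < 1) :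
    Summable (fun D : ι →₀ ℕ => ‖efs_mon c D‖) := by
  simp only [efs_norm_mon]
  exact efs_summable_real (fun i => norm_nonneg _) h1 hc

theorem efs_summable (c : ι → 𝕜) (hc : Summable fun i => ‖c i‖) (h1 : ∀ i, ‖c i‖ < 1) :
    Summable (fun D : ι →₀ ℕ => efs_mon c D) :=
  (efs_summable_norm c hc h1).of_norm

/-- summing over the exponent vectors supported in a large finite set `S` approximates the
full sum. -/
theorem efs_norm_tsum_sub_tsum_supp_lt {f : (ι →₀ ℕ) → 𝕜} (hf : Summable f) {ε : ℝ} (hε : 0 < ε) :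
    ∃ S₀ : Finset ι, ∀ S : Finset ι, S₀ ⊆ S →
      ‖(∑' D, f D) - ∑' D : efs_supp S, f (D : ι →₀ ℕ)‖ < ε := by
  classical
  obtain ⟨T, hT⟩ := hf.tsum_vanishing (Metric.ball_mem_nhds (0 : 𝕜) hε)
  refine ⟨T.biUnion fun D => D.support, fun S hS => ?_⟩
  have hdisj : Disjoint ((efs_supp S)ᶜ : Set (ι →₀ ℕ)) (T : Set (ι →₀ ℕ)) := by
    rw [Set.disjoint_left]
    intro D hD hDT
    apply hD
    exact (Finset.subset_biUnion_of_mem (fun D : ι →₀ ℕ => D.support) hDT).trans hS
  have := hT _ hdisj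
  rw [mem_ball_zero_iff] at this
  rwa [← hf.tsum_subtype_add_tsum_subtype_compl (efs_supp S), add_sub_cancel_left]

/-- **Euler product** over an arbitrary index type: for `c : ι → 𝕜` with `∑ ‖c i‖ < ∞` and
`‖c i‖ < 1`, `∏' i, (1 - c i)⁻¹ = ∑' D : ι →₀ ℕ, ∏ i, c i ^ D i`. -/
theorem efs_hasProd (c : ι → 𝕜) (hc : Summable fun i => ‖c i‖) (h1 : ∀ i, ‖c i‖ < 1) :
    HasProd (fun i => (1 - c i)⁻¹) (∑' D : ι →₀ ℕ, efs_mon c D) := by
  classical
  rw [HasProd, SummationFilter.unconditional]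
  show Tendsto (fun s : Finset ι => ∏ b ∈ s, (1 - c b)⁻¹) atTop _
  rw [Metric.tendsto_atTop]
  intro ε hε
  obtain ⟨S₀, hS₀⟩ := efs_norm_tsum_sub_tsum_supp_lt (efs_summable c hc h1) hε
  refine ⟨S₀, fun S hS => ?_⟩
  rw [dist_eq_norm, ← efs_tsum_supp c S fun i _ => h1 i, norm_sub_rev]
  exact hS₀ S hS

theorem efs_tprod (c : ι → 𝕜) (hc : Summable fun i => ‖c i‖) (h1 : ∀ i, ‖c i‖ < 1) :
    ∏' i, (1 - c i)⁻¹ = ∑' D : ι →₀ ℕ, efs_mon c D :=
  (efs_hasProd c hc h1).tprod_eq

theorem efs_multipliable (c : ι → 𝕜) (hc : Summable fun i => ‖c i‖) (h1 : ∀ i, ‖c i‖ < 1) :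
    Multipliable (fun i => (1 - c i)⁻¹) :=
  (efs_hasProd c hc h1).multipliable

end

end Fermat.Agent.S14x
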