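import Fermat.Agent.S14x.FIEulerBridge

/-!
# S14 project, leaf FI-F (part F2): the bridge statements in the exact `FISpec` shapes

`FISpec.fe_summable_absNorm_rpow`, `FISpec.fe_tsum_eq_LSeries`,
`FISpec.fe_tsum_absNorm_eq_dedekindZeta`, `FISpec.fe_LSeriesSummable`, `FISpec.fe_sum_Icc_eq`
(sums over the subtype `{I // I ≠ ⊥}`), here with prefix `feb2_`.  (helper43)
-/

set_option autoImplicit false

namespace Fermat.Agent.S14x

open NumberField Ideal Filter Finset Topology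

variable (F : Type*) [Field F] [NumberField F]

/-- `FISpec.fe_summable_absNorm_rpow` -/
theorem feb2_summable_absNorm_rpow (s : ℝ) (hs : 1 < s) :
    Summable (fun I : {I : Ideal (𝓞 F) // I ≠ ⊥} => ((Ideal.absNorm I.1 : ℝ)) ^ (-s)) := by
  have h := (feb_summable F (s := (s : ℂ)) (by simpa using hs)).subtype {I : Ideal (𝓞 F) | I ≠ ⊥}
  refine h.congr fun I ↦ ?_
  have := norm_febTerm_of_ne_bot (F := F) (s : ℂ) I.2
  simpa using this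

omit [NumberField F] in
theorem feb2_tsum_subtype (f : Ideal (𝓞 F) → ℂ) (hf : f ⊥ = 0) :
    ∑' I : {I : Ideal (𝓞 F) // I ≠ ⊥}, f I.1 = ∑' I : Ideal (𝓞 F), f I := by
  refine tsum_subtype_eq_of_support_subset (s := {I : Ideal (𝓞 F) | I ≠ ⊥}) fun I hI ↦ ?_
  rw [Function.mem_support] at hI
  intro h
  rw [h] at hI
  exact hI hf

/-- `FISpec.fe_tsum_eq_LSeries` -/
theorem feb2_tsum_eq_LSeries (g : Ideal (𝓞 F) → ℂ) (hg : ∀ I, ‖g I‖ ≤ 1) (s : ℂ)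
    (hs : 1 < s.re) :
    ∑' I : {I : Ideal (𝓞 F) // I ≠ ⊥}, g I.1 * ((Ideal.absNorm I.1 : ℂ)) ^ (-s) =
      LSeries (fun n => ∑' I : {I : Ideal (𝓞 F) // Ideal.absNorm I = n}, g I.1) s := by
  have h1 : ∑' I : {I : Ideal (𝓞 F) // I ≠ ⊥}, g I.1 * ((Ideal.absNorm I.1 : ℂ)) ^ (-s) =
      ∑' I : {I : Ideal (𝓞 F) // I ≠ ⊥}, g I.1 * febTerm F s I.1 :=
    tsum_congr fun I ↦ by rw [febTerm_of_ne_bot s I.2]
  rw [h1, feb2_tsum_subtype F (fun I ↦ g I * febTerm F s I) (by simp [febTerm_bot]),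
    feb_tsum_mul_eq_LSeries F hs g hg]
  rfl

/-- `FISpec.fe_tsum_absNorm_eq_dedekindZeta` -/
theorem feb2_tsum_absNorm_eq_dedekindZeta (s : ℂ) (hs : 1 < s.re) :
    ∑' I : {I : Ideal (𝓞 F) // I ≠ ⊥}, ((Ideal.absNorm I.1 : ℂ)) ^ (-s) =
      NumberField.dedekindZeta F s := by
  have h1 : ∑' I : {I : Ideal (𝓞 F) // I ≠ ⊥}, ((Ideal.absNorm I.1 : ℂ)) ^ (-s) =
      ∑' I : {I : Ideal (𝓞 F) // I ≠ ⊥}, febTerm F s I.1 :=
    tsum_congr fun I ↦ by rw [febTerm_of_ne_bot s I.2]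
  rw [h1, feb2_tsum_subtype F (fun I ↦ febTerm F s I) (febTerm_bot s),
    feb_tsum_eq_dedekindZeta F hs]

/-- `FISpec.fe_LSeriesSummable` -/
theorem feb2_LSeriesSummable (g : Ideal (𝓞 F) → ℂ) (hg : ∀ I, ‖g I‖ ≤ 1) (s : ℂ)
    (hs : 1 < s.re) :
    LSeriesSummable (fun n => ∑' I : {I : Ideal (𝓞 F) // Ideal.absNorm I = n}, g I.1) s :=
  feb_lseriesSummable_coeff F hs g hg

/-- `FISpec.fe_sum_Icc_eq` -/
theorem feb2_sum_Icc_eq (g : Ideal (𝓞 F) → ℂ) (N : ℕ) :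
    ∑ n ∈ Finset.Icc 1 N, (∑' I : {I : Ideal (𝓞 F) // Ideal.absNorm I = n}, g I.1) =
      ∑ᶠ I : {I : Ideal (𝓞 F) // I ≠ ⊥ ∧ Ideal.absNorm I ≤ N}, g I.1 := by
  have h := feb_sum_coeff F g N
  simp only [febCoeff] at h
  rw [h, finsum_subtype_eq_finsum_cond (f := g) (fun I : Ideal (𝓞 F) ↦ I ≠ ⊥ ∧ Ideal.absNorm I ≤ N)]
  have hset : {I : Ideal (𝓞 F) | 1 ≤ absNorm I ∧ absNorm I ≤ N} =
      {I : Ideal (𝓞 F) | I ≠ ⊥ ∧ Ideal.absNorm I ≤ N} := by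
    ext I
    simp only [Set.mem_ofPred_eq, Nat.one_le_iff_ne_zero, ne_eq, absNorm_eq_zero_iff]
  have h2 := finsum_mem_eq_finite_toFinset_sum g (feb_finite_norm_le F N)
  rw [← h2, hset]
  rfl

/-- partial sums as a sum of cardinalities over classes (subtype `I ≠ ⊥` form) -/
theorem feb2_sum_Icc_class {Q : Type*} [Fintype Q] (P : Ideal (𝓞 F) → Prop)
    [DecidablePred P] (g : Ideal (𝓞 F) → Q) (χ : Q → ℂ) (N : ℕ) :
    ∑ n ∈ Finset.Icc 1 N, (∑' I : {I : Ideal (𝓞 F) // Ideal.absNorm I = n},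
        if P I.1 then χ (g I.1) else 0) =
      ∑ q : Q, χ q * (Nat.card {I : Ideal (𝓞 F) //
        I ≠ ⊥ ∧ P I ∧ Ideal.absNorm I ≤ N ∧ g I = q} : ℂ) := by
  have h := feb_sum_coeff_class F P g χ N
  simp only [febCoeff] at h
  rw [h]
  refine Finset.sum_congr rfl fun q _ ↦ ?_
  congr 2
  refine Nat.card_congr (Equiv.subtypeEquivRight fun I ↦ ?_)
  rw [Nat.one_le_iff_ne_zero, ne_eq, absNorm_eq_zero_iff]
  tauto

end Fermat.Agent.S14x
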