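/-
S14 project, module FI-G3 (owner helper54): `ζ_M(s) ≤ exp(p · ∑_{v ∈ S} N v^{-s} + B₁)` on `(1, 2]`
for an everywhere unramified cyclic extension `M/F` of prime degree `p`; `S` = completely split
primes of `F` not dividing `m`.
-/
import Fermat.Agent.S14x.FIGDefs
import Fermat.Agent.S14x.Artin

set_option autoImplicit false

namespace Fermat.Agent.S14x

open NumberField IsDedekindDomain

/-! ### Abstract part -/

/-- sums over the total space of a map with fibres of cardinality `≤ p` -/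
theorem g3_tsum_comp_le {W V : Type*} (u : W → V) (p : ℕ)
    (hfin : ∀ v, Finite {w // u w = v}) (hcard : ∀ v, Nat.card {w // u w = v} ≤ p)
    (y : V → ℝ) (hy0 : ∀ v, 0 ≤ y v) (hy : Summable y) :
    Summable (fun w => y (u w)) ∧ ∑' w, y (u w) ≤ p * ∑' v, y v := by
  classical
  have key : ∀ T : Finset W, ∑ w ∈ T, y (u w) ≤ p * ∑' v, y v := by
    intro T
    have h1 : ∑ w ∈ T, y (u w) = ∑ v ∈ T.image u, ∑ w ∈ T.filter (fun w => u w = v), y (u w) :=
      (Finset.sum_fiberwise_of_maps_to (fun w hw => Finset.mem_image_of_mem u hw) _).symm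
    rw [h1]
    have h2 : ∀ v ∈ T.image u, ∑ w ∈ T.filter (fun w => u w = v), y (u w) ≤ p * y v := by
      intro v _
      have h3 : ∑ w ∈ T.filter (fun w => u w = v), y (u w)
          = ((T.filter (fun w => u w = v)).card : ℝ) * y v := by
        rw [Finset.sum_congr rfl (fun w hw => by rw [(Finset.mem_filter.mp hw).2]),
          Finset.sum_const, nsmul_eq_mul]
      rw [h3]
      refine mul_le_mul_of_nonneg_right ?_ (hy0 v)
      have : (T.filter (fun w => u w = v)).card ≤ p := by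
        have := hfin v
        refine le_trans ?_ (hcard v)
        rw [← Nat.card_eq_finsetCard]
        exact Nat.card_le_card_of_injective
          (fun w : {w // w ∈ T.filter (fun w => u w = v)} =>
            (⟨w.1, (Finset.mem_filter.mp w.2).2⟩ : {w // u w = v}))
          (fun a b hab => Subtype.ext (by simpa using congrArg Subtype.val hab))
      exact_mod_cast this
    calc ∑ v ∈ T.image u, ∑ w ∈ T.filter (fun w => u w = v), y (u w)
        ≤ ∑ v ∈ T.image u, p * y v := Finset.sum_le_sum h2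
      _ = p * ∑ v ∈ T.image u, y v := by rw [Finset.mul_sum]
      _ ≤ p * ∑' v, y v :=
          mul_le_mul_of_nonneg_left (hy.sum_le_tsum _ (fun v _ => hy0 v)) (Nat.cast_nonneg p)
  have hs : Summable (fun w => y (u w)) := summable_of_sum_le (fun w => hy0 (u w)) key
  exact ⟨hs, hs.tsum_le_of_sum_le key⟩

/-- `-log(1 - x) ≤ x + 2 x^2` for `0 ≤ x ≤ 1/2` -/
theorem g3_neg_log_le {x : ℝ} (h0 : 0 ≤ x) (h1 : x ≤ 1 / 2) :
    -Real.log (1 - x) ≤ x + 2 * x ^ 2 := by
  have hpos : 0 < 1 - x := by linarith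
  have h2 : -Real.log (1 - x) = Real.log (1 - x)⁻¹ := (Real.log_inv _).symm
  rw [h2]
  refine (Real.log_le_sub_one_of_pos (inv_pos.mpr hpos)).trans ?_
  rw [inv_eq_one_div, div_sub_one hpos.ne', div_le_iff₀ hpos]
  nlinarith [mul_nonneg (mul_nonneg h0 h0) (by linarith : (0:ℝ) ≤ 1 - 2 * x)]


/-! ### Number field facts -/

section NF

variable {p : ℕ} [Fact p.Prime]
variable {F M : Type} [Field F] [NumberField F] [Field M] [NumberField M] [Algebra F M]
  [IsGalois F M] {g : M ≃ₐ[F] M}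

/-- `N w = N v ^ f(w|v)` -/
theorem g3_plNorm_eq_pow (w : Pl M) :
    plNorm w = plNorm (plUnder F M w) ^ Ideal.inertiaDeg w.asIdeal (𝓞 F) := by
  have hLO : w.asIdeal.LiesOver (plUnder F M w).asIdeal := ⟨rfl⟩
  exact (Ideal.absNorm_pow_inertiaDeg (plUnder F M w).asIdeal w.asIdeal).symm

theorem g3_inertiaDeg_pos (w : Pl M) : 0 < Ideal.inertiaDeg w.asIdeal (𝓞 F) :=
  Ideal.inertiaDeg_pos _ _

/-- `N v ≤ N w` -/
theorem g3_plNorm_under_le (w : Pl M) : plNorm (plUnder F M w) ≤ plNorm w := by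
  rw [g3_plNorm_eq_pow (F := F) w]
  exact Nat.le_self_pow (g3_inertiaDeg_pos w).ne' _

/-- a prime which is not completely split is inert: all primes above have residue degree `≥ 2` -/
theorem g3_two_le_inertiaDeg (h : IsUCyc p F M g) (w : Pl M)
    (hns : ¬ SplitsCompletely F M (plUnder F M w)) :
    2 ≤ Ideal.inertiaDeg w.asIdeal (𝓞 F) := by
  by_contra hlt
  have h1 : Ideal.inertiaDeg w.asIdeal (𝓞 F) = 1 := by
    have := g3_inertiaDeg_pos (F := F) w
    omega
  apply hns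
  intro w' hw'
  refine ⟨h.unram w', ?_⟩
  have hLO : w.asIdeal.LiesOver (plUnder F M w).asIdeal := ⟨rfl⟩
  have hLO' : w'.asIdeal.LiesOver (plUnder F M w).asIdeal := ⟨hw'.symm⟩
  rw [← h1]
  exact Ideal.inertiaDeg_eq_of_isGaloisGroup (plUnder F M w).asIdeal w'.asIdeal w.asIdeal
    (M ≃ₐ[F] M)

/-- the fibres of `plUnder` are finite of cardinality at most `p` -/
theorem g3_fibre (h : IsUCyc p F M g) (v : Pl F) :
    Finite {w : Pl M // plUnder F M w = v} ∧ Nat.card {w : Pl M // plUnder F M w = v} ≤ p := by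
  have hfin : (Ideal.primesOver v.asIdeal (𝓞 M)).Finite := Algebra.QuasiFinite.finite_primesOver v.asIdeal
  have hinj : Function.Injective (fun w : {w : Pl M // plUnder F M w = v} =>
      (⟨w.1.asIdeal, w.1.isPrime, ⟨(congrArg HeightOneSpectrum.asIdeal w.2).symm⟩⟩ : Ideal.primesOver v.asIdeal (𝓞 M))) := by
    intro a b hab
    have : a.1.asIdeal = b.1.asIdeal := congrArg (fun x => x.1) hab
    exact Subtype.ext (HeightOneSpectrum.ext this)
  have : Finite (Ideal.primesOver v.asIdeal (𝓞 M)) := hfin.to_subtype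
  refine ⟨Finite.of_injective _ hinj, ?_⟩
  refine (Nat.card_le_card_of_injective _ hinj).trans ?_
  have hfund := Ideal.ncard_primesOver_mul_ramificationIdxIn_mul_inertiaDegIn v.asIdeal (𝓞 M)
    (M ≃ₐ[F] M)
  rw [aa_card h] at hfund
  have hne : Ideal.ramificationIdxIn v.asIdeal (𝓞 M) * Ideal.inertiaDegIn v.asIdeal (𝓞 M) ≠ 0 :=
    mul_ne_zero (Ideal.ramificationIdxIn_ne_zero (M ≃ₐ[F] M))
      (Ideal.inertiaDegIn_ne_zero (M ≃ₐ[F] M))
  rw [Nat.card_coe_set_eq]
  calc (Ideal.primesOver v.asIdeal (𝓞 M)).ncard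
      ≤ (Ideal.primesOver v.asIdeal (𝓞 M)).ncard *
          (Ideal.ramificationIdxIn v.asIdeal (𝓞 M) * Ideal.inertiaDegIn v.asIdeal (𝓞 M)) :=
        Nat.le_mul_of_pos_right _ (Nat.pos_of_ne_zero hne)
    _ = p := hfund

/-- finitely many primes divide `m` -/
theorem g3_finite_bad (m : ℕ) [NeZero m] : (fgBad F m).Finite := by
  have hm : (Ideal.span {(m : 𝓞 F)}) ≠ 0 := by
    rw [Ne, Ideal.zero_eq_bot, Ideal.span_singleton_eq_bot]
    exact_mod_cast NeZero.ne m
  refine (Ideal.finite_factors hm).subset ?_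
  intro v hv
  simp only [Set.mem_ofPred_eq]
  rw [Ideal.dvd_iff_le, Ideal.span_singleton_le_iff_mem]
  exact hv

end NF


/-! ### The comparison -/

section Main

variable {p : ℕ} [Fact p.Prime]
variable {F M : Type} [Field F] [NumberField F] [Field M] [NumberField M] [Algebra F M]
  [IsGalois F M] {g : M ≃ₐ[F] M}

open Classical in
/-- the comparison function on the primes of `F` -/
noncomputable def g3_y (F M : Type) [Field F] [NumberField F] [Field M] [NumberField M]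
    [Algebra F M] (m : ℕ) (s : ℝ) (v : Pl F) : ℝ :=
  if v ∈ fgS F M m then ((plNorm v : ℕ) : ℝ) ^ (-s)
  else if v ∈ fgBad F m then 1 / 2 else ((plNorm v : ℕ) : ℝ) ^ (-(2 : ℝ))

theorem g3_y_nonneg (m : ℕ) (s : ℝ) (v : Pl F) : 0 ≤ g3_y F M m s v := by
  unfold g3_y
  split_ifs
  · exact Real.rpow_nonneg (Nat.cast_nonneg _) _
  · norm_num
  · exact Real.rpow_nonneg (Nat.cast_nonneg _) _

theorem g3_y_le (m : ℕ) (s : ℝ) (v : Pl F) :
    g3_y F M m s v ≤ (fgS F M m).indicator (fun v => ((plNorm v : ℕ) : ℝ) ^ (-s)) v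
      + (fgBad F m).indicator (fun _ => (1 / 2 : ℝ)) v + ((plNorm v : ℕ) : ℝ) ^ (-(2 : ℝ)) := by
  classical
  have h2 : (0 : ℝ) ≤ ((plNorm v : ℕ) : ℝ) ^ (-(2 : ℝ)) := Real.rpow_nonneg (Nat.cast_nonneg _) _
  have hs : (0 : ℝ) ≤ ((plNorm v : ℕ) : ℝ) ^ (-s) := Real.rpow_nonneg (Nat.cast_nonneg _) _
  unfold g3_y
  by_cases h1 : v ∈ fgS F M m
  · rw [if_pos h1, Set.indicator_of_mem h1]
    by_cases hb : v ∈ fgBad F m
    · rw [Set.indicator_of_mem hb]; linarith
    · rw [Set.indicator_of_notMem hb]; linarith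
  · rw [if_neg h1, Set.indicator_of_notMem h1]
    by_cases hb : v ∈ fgBad F m
    · rw [if_pos hb, Set.indicator_of_mem hb]; linarith
    · rw [if_neg hb, Set.indicator_of_notMem hb]; linarith

/-- the key pointwise estimate -/
theorem g3_term_le (h : IsUCyc p F M g) (m : ℕ) {s : ℝ} (hs1 : 1 < s) (w : Pl M) :
    ((plNorm w : ℕ) : ℝ) ^ (-s) ≤ g3_y F M m s (plUnder F M w) := by
  classical
  set v := plUnder F M w with hv
  have hv2 : (2 : ℝ) ≤ (plNorm v : ℝ) := by exact_mod_cast aa_two_le_plNorm v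
  have hw2 : (2 : ℝ) ≤ (plNorm w : ℝ) := by exact_mod_cast aa_two_le_plNorm w
  have hvw : (plNorm v : ℝ) ≤ (plNorm w : ℝ) := by exact_mod_cast g3_plNorm_under_le (F := F) w
  unfold g3_y
  by_cases h1 : v ∈ fgS F M m
  · rw [if_pos h1]
    exact Real.rpow_le_rpow_of_nonpos (by linarith) hvw (by linarith)
  · rw [if_neg h1]
    by_cases hb : v ∈ fgBad F m
    · rw [if_pos hb]
      calc ((plNorm w : ℕ) : ℝ) ^ (-s) ≤ (2 : ℝ) ^ (-s) :=
            Real.rpow_le_rpow_of_nonpos (by norm_num) hw2 (by linarith)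
        _ ≤ (2 : ℝ) ^ (-(1 : ℝ)) :=
            Real.rpow_le_rpow_of_exponent_le (by norm_num) (by linarith)
        _ = 1 / 2 := by rw [Real.rpow_neg_one]; norm_num
    · rw [if_neg hb]
      have hns : ¬ SplitsCompletely F M v := fun hsp => h1 ⟨hb, hsp⟩
      have hf := g3_two_le_inertiaDeg h w hns
      have hpow : (plNorm v : ℝ) ^ (2 : ℕ) ≤ (plNorm w : ℝ) := by
        have h3 : plNorm v ^ 2 ≤ plNorm w := by
          rw [g3_plNorm_eq_pow (F := F) w]
          exact Nat.pow_le_pow_right (by have := aa_two_le_plNorm v; omega) hf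
        exact_mod_cast h3
      have hpos : (0 : ℝ) < (plNorm v : ℝ) ^ (2 : ℕ) := by positivity
      calc ((plNorm w : ℕ) : ℝ) ^ (-s) ≤ ((plNorm v : ℝ) ^ (2 : ℕ)) ^ (-s) :=
            Real.rpow_le_rpow_of_nonpos hpos hpow (by linarith)
        _ ≤ ((plNorm v : ℝ) ^ (2 : ℕ)) ^ (-(1 : ℝ)) :=
            Real.rpow_le_rpow_of_exponent_le (by nlinarith) (by linarith)
        _ = ((plNorm v : ℕ) : ℝ) ^ (-(2 : ℝ)) := by
            rw [← Real.rpow_natCast, ← Real.rpow_mul (by linarith)]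
            norm_num

end Main


/-! ### The main estimate -/

section Final

variable {p : ℕ} [Fact p.Prime]
variable {F M : Type} [Field F] [NumberField F] [Field M] [NumberField M] [Algebra F M]
  [IsGalois F M] {g : M ≃ₐ[F] M}

/-- the Euler product of `ζ_M` in exp-log form (the output shape of FI-F) -/
def g3_EulerHyp (M : Type) [Field M] [NumberField M] : Prop :=
  ∀ s : ℝ, 1 < s →
    Summable (fun w : Pl M => -Complex.log (1 - ((plNorm w : ℕ) : ℂ) ^ (-(s : ℂ)))) ∧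
    NumberField.dedekindZeta M (s : ℂ) =
      Complex.exp (∑' w : Pl M, -Complex.log (1 - ((plNorm w : ℕ) : ℂ) ^ (-(s : ℂ))))

theorem g3_cpow_eq (n : ℕ) (s : ℝ) :
    ((n : ℕ) : ℂ) ^ (-(s : ℂ)) = (((n : ℝ) ^ (-s) : ℝ) : ℂ) := by
  rw [Complex.ofReal_cpow (Nat.cast_nonneg n)]
  simp

theorem g3_term_re (n : ℕ) (s : ℝ) (hx : ((n : ℕ) : ℝ) ^ (-s) < 1) :
    (-Complex.log (1 - ((n : ℕ) : ℂ) ^ (-(s : ℂ)))).re = -Real.log (1 - ((n : ℕ) : ℝ) ^ (-s)) := by
  rw [g3_cpow_eq, Complex.neg_re]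
  have : (1 : ℂ) - (((n : ℝ) ^ (-s) : ℝ) : ℂ) = ((1 - (n : ℝ) ^ (-s) : ℝ) : ℂ) := by
    push_cast; ring
  rw [this, Complex.log_ofReal_re]

theorem g3_x_le_half (w : Pl M) {s : ℝ} (hs1 : 1 < s) : ((plNorm w : ℕ) : ℝ) ^ (-s) ≤ 1 / 2 := by
  have hw2 : (2 : ℝ) ≤ (plNorm w : ℝ) := by exact_mod_cast aa_two_le_plNorm w
  calc ((plNorm w : ℕ) : ℝ) ^ (-s) ≤ (2 : ℝ) ^ (-s) :=
        Real.rpow_le_rpow_of_nonpos (by norm_num) hw2 (by linarith)
    _ ≤ (2 : ℝ) ^ (-(1 : ℝ)) := Real.rpow_le_rpow_of_exponent_le (by norm_num) (by linarith)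
    _ = 1 / 2 := by rw [Real.rpow_neg_one]; norm_num

/-- **FI-G3**, with the FI-F inputs as hypotheses. -/
theorem g3_norm_dedekindZeta_le_of (h : IsUCyc p F M g) (m : ℕ) [NeZero m]
    (hsumF : ∀ s : ℝ, 1 < s → Summable (fun v : Pl F => ((plNorm v : ℕ) : ℝ) ^ (-s)))
    (hE : g3_EulerHyp M) :
    ∃ B1 : ℝ, ∀ s : ℝ, 1 < s → s ≤ 2 →
      ‖NumberField.dedekindZeta M (s : ℂ)‖ ≤ Real.exp (p * fgSplitSum F M m s + B1) := by
  classical
  set Z2 : ℝ := ∑' v : Pl F, ((plNorm v : ℕ) : ℝ) ^ (-(2 : ℝ)) with hZ2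
  set Bb : ℝ := ∑' v : Pl F, (fgBad F m).indicator (fun _ => (1 / 2 : ℝ)) v with hBb
  have hsum2 : Summable (fun v : Pl F => ((plNorm v : ℕ) : ℝ) ^ (-(2 : ℝ))) :=
    hsumF 2 (by norm_num)
  have hsumBad : Summable (fun v : Pl F => (fgBad F m).indicator (fun _ => (1 / 2 : ℝ)) v) :=
    summable_of_finite_support ((g3_finite_bad (F := F) m).subset Set.support_indicator_subset)
  refine ⟨p * Bb + 3 * p * Z2, fun s hs1 hs2 => ?_⟩
  obtain ⟨hsumlog, hzeta⟩ := hE s hs1
  rw [hzeta, Complex.norm_exp, Real.exp_le_exp, Complex.re_tsum hsumlog]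
  -- notation
  set x : Pl M → ℝ := fun w => ((plNorm w : ℕ) : ℝ) ^ (-s) with hx
  have hx0 : ∀ w, 0 ≤ x w := fun w => Real.rpow_nonneg (Nat.cast_nonneg _) _
  have hxh : ∀ w, x w ≤ 1 / 2 := fun w => g3_x_le_half w hs1
  have hre : ∀ w : Pl M, (-Complex.log (1 - ((plNorm w : ℕ) : ℂ) ^ (-(s : ℂ)))).re
      = -Real.log (1 - x w) := fun w => g3_term_re _ s (by have := hxh w; simp only [hx] at this; linarith)
  simp_rw [hre]
  have hsumlogR : Summable (fun w : Pl M => -Real.log (1 - x w)) := by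
    have := (Complex.hasSum_re hsumlog.hasSum).summable
    simpa [hre] using this
  -- the comparison function
  have hfib := fun v => g3_fibre h v
  have hysum : Summable (g3_y F M m s) := by
    refine Summable.of_nonneg_of_le (g3_y_nonneg m s) (g3_y_le m s) ?_
    exact (((hsumF s hs1).indicator _).add hsumBad).add hsum2
  have hytsum : ∑' v, g3_y F M m s v ≤ fgSplitSum F M m s + Bb + Z2 := by
    refine (hysum.tsum_le_tsum (g3_y_le m s)
      ((((hsumF s hs1).indicator _).add hsumBad).add hsum2)).trans ?_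
    rw [(((hsumF s hs1).indicator _).add hsumBad).tsum_add hsum2,
      ((hsumF s hs1).indicator _).tsum_add hsumBad]
    rfl
  obtain ⟨hyu, hyule⟩ := g3_tsum_comp_le (plUnder F M) p (fun v => (hfib v).1)
    (fun v => (hfib v).2) (g3_y F M m s) (g3_y_nonneg m s) hysum
  have hxsum : Summable x := Summable.of_nonneg_of_le hx0 (fun w => g3_term_le h m hs1 w) hyu
  have hxle : ∑' w, x w ≤ p * (fgSplitSum F M m s + Bb + Z2) :=
    ((hxsum.tsum_le_tsum (fun w => g3_term_le h m hs1 w) hyu).trans hyule).trans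
      (mul_le_mul_of_nonneg_left hytsum (Nat.cast_nonneg p))
  -- the squares
  obtain ⟨h2u, h2ule⟩ := g3_tsum_comp_le (plUnder F M) p (fun v => (hfib v).1)
    (fun v => (hfib v).2) (fun v => ((plNorm v : ℕ) : ℝ) ^ (-(2 : ℝ)))
    (fun v => Real.rpow_nonneg (Nat.cast_nonneg _) _) hsum2
  have hsq : ∀ w, x w ^ 2 ≤ ((plNorm (plUnder F M w) : ℕ) : ℝ) ^ (-(2 : ℝ)) := by
    intro w
    have hv2 : (2 : ℝ) ≤ (plNorm (plUnder F M w) : ℝ) := by
      exact_mod_cast aa_two_le_plNorm (plUnder F M w)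
    have hw2 : (2 : ℝ) ≤ (plNorm w : ℝ) := by exact_mod_cast aa_two_le_plNorm w
    have hvw : (plNorm (plUnder F M w) : ℝ) ≤ (plNorm w : ℝ) := by
      exact_mod_cast g3_plNorm_under_le (F := F) w
    calc x w ^ 2 = ((plNorm w : ℕ) : ℝ) ^ (-s * 2) := by
          rw [hx, Real.rpow_mul (Nat.cast_nonneg _), ← Real.rpow_natCast]
          norm_num
      _ ≤ ((plNorm w : ℕ) : ℝ) ^ (-(2 : ℝ)) :=
          Real.rpow_le_rpow_of_exponent_le (by linarith) (by linarith)
      _ ≤ ((plNorm (plUnder F M w) : ℕ) : ℝ) ^ (-(2 : ℝ)) :=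
          Real.rpow_le_rpow_of_nonpos (by linarith) hvw (by norm_num)
  have hsqsum : Summable (fun w => x w ^ 2) :=
    Summable.of_nonneg_of_le (fun w => sq_nonneg _) hsq h2u
  have hsqle : ∑' w, x w ^ 2 ≤ p * Z2 := (hsqsum.tsum_le_tsum hsq h2u).trans h2ule
  -- conclusion
  have hfinal : ∑' w, -Real.log (1 - x w) ≤ ∑' w, (x w + 2 * x w ^ 2) :=
    hsumlogR.tsum_le_tsum (fun w => g3_neg_log_le (hx0 w) (hxh w))
      (hxsum.add (hsqsum.mul_left 2))
  rw [hxsum.tsum_add (hsqsum.mul_left 2), tsum_mul_left] at hfinal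
  have hp0 : (0 : ℝ) ≤ p := Nat.cast_nonneg p
  nlinarith [hfinal, hxle, hsqle]

end Final

end Fermat.Agent.S14x
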