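/-
S14 / FI-G, row FG-TC (helper82): a number field containing a primitive `p`-th root of unity,
`p` an odd prime, is totally complex.  In particular the base field `F` of an `IsUCyc p F M g`
with `p ≠ 2`.
-/
import Fermat.Agent.S14x.Defs

set_option autoImplicit false

namespace Fermat.Agent.S14x

open NumberField

/-- a field with a real embedding has no primitive `n`-th root of unity for odd `n > 1`. -/
theorem ftc_not_isReal {K : Type*} [Field K] {n : ℕ} (hn : Odd n) (hn1 : 1 < n) {ζ : K}
    (hζ : IsPrimitiveRoot ζ n) (w : InfinitePlace K) : ¬ w.IsReal := by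
  intro hw
  let φ : K →+* ℝ := InfinitePlace.embedding_of_isReal hw
  have h1 : (φ ζ) ^ n = 1 := by rw [← map_pow, hζ.pow_eq_one, map_one]
  have h2 : φ ζ = 1 := by
    have hinj := (hn.strictMono_pow (R := ℝ)).injective
    apply hinj
    simp only [h1, one_pow]
  have h3 : ζ = 1 := by
    apply φ.injective
    rw [h2, map_one]
  have h4 : n = 1 := by
    have := hζ.unique (h3 ▸ IsPrimitiveRoot.one)
    exact this
  omega

theorem ftc_totallyComplex_of_primitiveRoot {K : Type*} [Field K] {n : ℕ} (hn : Odd n)
    (hn1 : 1 < n) {ζ : K} (hζ : IsPrimitiveRoot ζ n) : NumberField.IsTotallyComplex K :=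
  ⟨fun w => InfinitePlace.not_isReal_iff_isComplex.mp (ftc_not_isReal hn hn1 hζ w)⟩

/-- FG-TC: the base field of an everywhere unramified cyclic extension of odd prime degree `p`
(containing `μ_p` by definition of `IsUCyc`) is totally complex. -/
theorem ftc_totallyComplex {p : ℕ} [Fact p.Prime] {F M : Type*} [Field F] [NumberField F]
    [Field M] [NumberField M] [Algebra F M] [IsGalois F M] {g : M ≃ₐ[F] M} (hp : p ≠ 2)
    (h : IsUCyc p F M g) : NumberField.IsTotallyComplex F := by
  obtain ⟨ζ, hζ⟩ := h.zeta
  have hpp : p.Prime := Fact.out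
  exact ftc_totallyComplex_of_primitiveRoot (hpp.odd_of_ne_two hp) hpp.one_lt hζ

end Fermat.Agent.S14x
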