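/-
S14 project, FI-G4 (helper70): FINAL INSTANTIATION of the analytic norm-index inequality.

`H = rayGroup F M m ⊔ fd_Sm F m`, `G χ = fgmG m fd_dv H χ` (helper30), `L(s,χ) = LSeries (A χ) s`
with `A χ n = ∑_{N I = n} G χ I`, `Σ(s) = fgSplitSum F M m s` (helper54).
The four analytic inputs of `g4_fi_main_of` (FIMainOf) are produced here from
  FG-L2 : helper16 `g1_L_bounded_ray` (needs the FI-C counting statement `hfc`),
  FG-L4 : helper91 `gl91_L_le_zeta` + helper43 bridge `feb2_*`,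
  FG-P  : helper96 `g2_prod_ge_of` + helper31 `fe_tsum_eq_cexp` + helper30 `fgm_G_*`,
  FG-ZM : helper54 `g3_norm_dedekindZeta_le_of` + helper31/helper43.
The only remaining hypothesis is `hfc` = the output of FI-C (ray class counting, helper2 et al.).
-/
import Fermat.Agent.S14x.FIMainOf
import Fermat.Agent.S14x.FICharDefs
import Fermat.Agent.S14x.FIGCoeffUnif
import Fermat.Agent.S14x.FIGEulerNF
import Fermat.Agent.S14x.FIGZetaM
import Fermat.Agent.S14x.FIGLZeta91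
import Fermat.Agent.S14x.FIGMul
import Fermat.Agent.S14x.FIEuler
import Fermat.Agent.S14x.FIEuler2
import Fermat.Agent.S14x.FIEulerBridge2
import Fermat.Agent.S14x.FITotallyComplex

set_option autoImplicit false

namespace Fermat.Agent.S14x

open NumberField IsDedekindDomain

section Generic

variable {F : Type*} [Field F] [NumberField F]

/-- Dirichlet coefficients of `L(s,χ)`. -/
noncomputable def g4A (m : ℕ) (H : AddSubgroup (Dv F)) (χ : AddChar (Dv F ⧸ H) ℂ) (n : ℕ) : ℂ :=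
  ∑' I : {I : Ideal (𝓞 F) // Ideal.absNorm I = n}, fgmG m fd_dv H χ I.1

/-- helper16's coefficients are the same function. -/
theorem g4_g1_A_eq (m : ℕ) (H : AddSubgroup (Dv F)) (χ : AddChar (Dv F ⧸ H) ℂ) :
    g1_A (g1_cop m fd_dv) fd_dv H χ = g4A m H χ := by
  funext n
  unfold g1_A g4A
  refine tsum_congr fun I => ?_
  classical
  rw [g1_G_cop_eq_ite]
  unfold fgmG
  congr

/-- the completely multiplicative function `I ↦ G χ I * N I ^ (-s)`. -/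
noncomputable def g4f (m : ℕ) (H : AddSubgroup (Dv F)) (χ : AddChar (Dv F ⧸ H) ℂ) (s : ℂ)
    (I : Ideal (𝓞 F)) : ℂ :=
  fgmG m fd_dv H χ I * febTerm F s I

theorem g4_f_top (m : ℕ) (H : AddSubgroup (Dv F)) (χ : AddChar (Dv F ⧸ H) ℂ) (s : ℂ) :
    g4f m H χ s ⊤ = 1 := by
  unfold g4f
  rw [fgm_G_top m fd_dv H fd_dv_top χ, febTerm_top, one_mul]

theorem g4_f_mul (m : ℕ) (H : AddSubgroup (Dv F)) (χ : AddChar (Dv F ⧸ H) ℂ) (s : ℂ)
    (I J : Ideal (𝓞 F)) : g4f m H χ s (I * J) = g4f m H χ s I * g4f m H χ s J := by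
  unfold g4f
  rw [fgm_G_mul m fd_dv H (fun I J hI hJ => fd_dv_mul hI hJ) fd_dv_nonneg χ I J, febTerm_mul]
  ring

theorem g4_f_summable (m : ℕ) (H : AddSubgroup (Dv F)) [Finite (Dv F ⧸ H)]
    (χ : AddChar (Dv F ⧸ H) ℂ) (s : ℂ) (hs : 1 < s.re) :
    Summable (fun I : {I : Ideal (𝓞 F) // I ≠ ⊥} => ‖g4f m H χ s I.1‖) :=
  (feb_summable_mul F hs (fgmG m fd_dv H χ) (fgm_G_norm_le m fd_dv H χ)).subtype _

/-- `∑_{I ≠ 0} G χ I N I ^ (-s) = L(s,χ)`. -/
theorem g4_tsum_f_eq_LSeries (m : ℕ) (H : AddSubgroup (Dv F)) [Finite (Dv F ⧸ H)]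
    (χ : AddChar (Dv F ⧸ H) ℂ) (s : ℂ) (hs : 1 < s.re) :
    ∑' I : {I : Ideal (𝓞 F) // I ≠ ⊥}, g4f m H χ s I.1 = LSeries (g4A m H χ) s := by
  have h := feb2_tsum_eq_LSeries F (fgmG m fd_dv H χ) (fgm_G_norm_le m fd_dv H χ) s hs
  unfold g4A
  rw [← h]
  refine tsum_congr fun I => ?_
  unfold g4f
  rw [febTerm_of_ne_bot s I.2]

/-- **FG-L3**: Euler product of `L(s,χ)` in exp-log form. -/
theorem g4_L_eq_cexp (m : ℕ) (H : AddSubgroup (Dv F)) [Finite (Dv F ⧸ H)]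
    (χ : AddChar (Dv F ⧸ H) ℂ) (s : ℝ) (hs : 1 < s) :
    Summable (fun v : Pl F =>
      -Complex.log (1 - fgmG m fd_dv H χ v.asIdeal * ((plNorm v : ℂ)) ^ (-(s : ℂ)))) ∧
    LSeries (g4A m H χ) (s : ℂ) = Complex.exp (∑' v : Pl F,
      -Complex.log (1 - fgmG m fd_dv H χ v.asIdeal * ((plNorm v : ℂ)) ^ (-(s : ℂ)))) := by
  have hs' : 1 < (s : ℂ).re := by simpa using hs
  have hsum := g4_f_summable m H χ (s : ℂ) hs'
  have hlt := fe_norm_lt_one (g4f m H χ (s : ℂ)) (g4_f_top m H χ _) (g4_f_mul m H χ _) hsum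
  have key := fe_tsum_eq_cexp (g4f m H χ (s : ℂ)) (g4_f_top m H χ _) (g4_f_mul m H χ _) hsum hlt
  have hterm : ∀ v : Pl F, g4f m H χ (s : ℂ) v.asIdeal =
      fgmG m fd_dv H χ v.asIdeal * ((plNorm v : ℂ)) ^ (-(s : ℂ)) := by
    intro v
    unfold g4f
    rw [febTerm_asIdeal]
    rfl
  simp_rw [hterm] at key
  rw [g4_tsum_f_eq_LSeries m H χ (s : ℂ) hs'] at key
  exact key

/-- **FG-L4**: `‖L(s,χ)‖ ≤ ‖ζ_F(s)‖`. -/
theorem g4_L_le_zeta (m : ℕ) (H : AddSubgroup (Dv F)) [Finite (Dv F ⧸ H)]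
    (χ : AddChar (Dv F ⧸ H) ℂ) (s : ℝ) (hs : 1 < s) :
    ‖LSeries (g4A m H χ) (s : ℂ)‖ ≤ ‖dedekindZeta F (s : ℂ)‖ := by
  have hs' : 1 < (s : ℂ).re := by simpa using hs
  have h := gl91_L_le_zeta F (fgmG m fd_dv H χ) (fgm_G_norm_le m fd_dv H χ) s
    (feb2_summable_absNorm_rpow F s hs)
    (feb2_tsum_eq_LSeries F _ (fgm_G_norm_le m fd_dv H χ) (s : ℂ) hs')
    (feb2_tsum_absNorm_eq_dedekindZeta F (s : ℂ) hs')
  unfold g4A
  exact h

/-- summability of `N v ^ (-s)` over the primes. -/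
theorem g4_summable_plNorm (s : ℝ) (hs : 1 < s) :
    Summable (fun v : Pl F => ((plNorm v : ℕ) : ℝ) ^ (-s)) := by
  have h := feb2_summable_absNorm_rpow F s hs
  let e : Pl F → {I : Ideal (𝓞 F) // I ≠ ⊥} := fun v => ⟨v.asIdeal, v.ne_bot⟩
  have hinj : Function.Injective e := by
    intro v w hvw
    have h1 : v.asIdeal = w.asIdeal := congrArg Subtype.val hvw
    exact HeightOneSpectrum.ext h1
  have h2 := h.comp_injective hinj
  refine h2.congr fun v => ?_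
  rfl

end Generic

section EulerM

/-- the Euler product of the Dedekind zeta function in exp-log form (`g3_EulerHyp`). -/
theorem g4_eulerHyp (M : Type) [Field M] [NumberField M] : g3_EulerHyp M := by
  intro s hs
  have hs' : 1 < (s : ℂ).re := by simpa using hs
  have hsum : Summable (fun I : {I : Ideal (𝓞 M) // I ≠ ⊥} => ‖febTerm M (s : ℂ) I.1‖) :=
    (feb_summable M hs').subtype _
  have hlt := fe_norm_lt_one (febTerm M (s : ℂ)) (febTerm_top _) (febTerm_mul _) hsum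
  have key := fe_tsum_eq_cexp (febTerm M (s : ℂ)) (febTerm_top _) (febTerm_mul _) hsum hlt
  have hterm : ∀ w : Pl M, febTerm M (s : ℂ) w.asIdeal = ((plNorm w : ℕ) : ℂ) ^ (-(s : ℂ)) := by
    intro w
    rw [febTerm_asIdeal]
    rfl
  simp_rw [hterm] at key
  have hz : ∑' I : {I : Ideal (𝓞 M) // I ≠ ⊥}, febTerm M (s : ℂ) I.1 =
      dedekindZeta M (s : ℂ) := by
    rw [← feb2_tsum_absNorm_eq_dedekindZeta M (s : ℂ) hs']
    refine tsum_congr fun I => ?_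
    rw [febTerm_of_ne_bot _ I.2]
  rw [hz] at key
  exact key

end EulerM

section Main

variable {p : ℕ} [Fact p.Prime]
variable {F M : Type} [Field F] [NumberField F] [Field M] [NumberField M] [Algebra F M]
  [IsGalois F M] {g : M ≃ₐ[F] M}

/-- **FI (`Spec.fi_main`) from the FI-C counting statement.** -/
theorem g4_fi_main_of_count (h : IsUCyc p F M g) (m : ℕ) [NeZero m] (κ : ℝ)
    (hfc : ∀ D0 : Dv F, (∀ v : Pl F, (m : 𝓞 F) ∈ v.asIdeal → D0 v = 0) → ∃ C : ℝ, ∀ x : ℝ, 1 ≤ x →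
      |(Nat.card {I : Ideal (𝓞 F) // I ≠ ⊥ ∧ (Ideal.absNorm I : ℝ) ≤ x ∧
          fd_dv I - D0 ∈ fd_Pm F m} : ℝ) - κ * x| ≤ C * x ^ (1 - 1 / (Module.finrank ℚ F : ℝ)))
    (ψ : Dv F →+ ZMod p) (hker : rayGroup F M m ≤ ψ.ker)
    (hsurj : ∃ D₀ : Dv F, CoprimeTo m D₀ ∧ ψ D₀ ≠ 0)
    (D : Dv F) (hD : CoprimeTo m D) (h0 : ψ D = 0) : D ∈ rayGroup F M m := by
  classical
  have hfin : Finite (Dv F ⧸ (rayGroup F M m ⊔ fd_Sm F m)) := fd_rayGroup_sup_finite F M m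
  have hH : fd_Pm F m ⊔ fd_Sm F m ≤ rayGroup F M m ⊔ fd_Sm F m :=
    sup_le_sup_right (fd_Pm_le_rayGroup' F M m) _
  refine g4_fi_main_of (M := M) m (fd_Sm F m) (fge_closure_supported (F := F) m)
    (fun χ s => LSeries (g4A m (rayGroup F M m ⊔ fd_Sm F m) χ) (s : ℂ))
    (fgSplitSum F M m) ?_ ?_ ?_ ?_ ψ hker hsurj D hD h0
  · -- FG-L2
    intro χ hχ
    have := g1_L_bounded_ray m fd_dv κ hfc hH χ hχ
    rwa [g4_g1_A_eq] at this
  · -- FG-L4
    intro s hs1 _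
    exact g4_L_le_zeta m _ 0 s hs1
  · -- FG-P
    intro s hs1 _
    have hP := g2_prod_ge_of m (rayGroup F M m ⊔ fd_Sm F m)
      (fun χ v => fgmG m fd_dv (rayGroup F M m ⊔ fd_Sm F m) χ v.asIdeal)
      (fun χ => LSeries (g4A m (rayGroup F M m ⊔ fd_Sm F m) χ) (s : ℂ)) s hs1
      (fun χ v => fgm_G_prime m fd_dv _ fd_dv_asIdeal χ v)
      (fun χ => g4_L_eq_cexp m _ χ s hs1)
      (fgS F M m)
      (fun v hv => ⟨hv.1, (le_sup_left : rayGroup F M m ≤ _)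
        (AddSubgroup.subset_closure (Or.inr ⟨v, hv.2, hv.1, rfl⟩))⟩)
    have hS : ∑' v : fgS F M m, ((plNorm v.1 : ℝ)) ^ (-s) = fgSplitSum F M m s := by
      unfold fgSplitSum
      rw [tsum_subtype (fgS F M m) (fun v => ((plNorm v : ℕ) : ℝ) ^ (-s))]
    rwa [hS] at hP
  · -- FG-ZM
    exact g3_norm_dedekindZeta_le_of h m (fun s hs => g4_summable_plNorm s hs) (g4_eulerHyp M)

end Main

end Fermat.Agent.S14x
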