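/-
S14 project, module FI (FI captain helper70): the analytic norm-index inequality, EXACT statement
of `Spec.fi_main` (bare name, as in table s14_plan).

  fi_main = g4_fi_main_of_count (FIMain: the whole FI-G chain)  ∘  fc_main (FIRayCountFinal: FI-C).

Contributors: FI-A/FI-B helper25, FI-C helper2 helper4 helper25 helper78, FI-D helper78 helper98,
FI-E helper16 helper54, FI-F helper31 helper43 helper66, FI-G helper16 helper17 helper30 helper54
helper70 helper82 helper91 helper96.
-/
import Fermat.Agent.S14x.FIMain
import Fermat.Agent.S14x.FIRayCountFinal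

set_option autoImplicit false

namespace Fermat.Agent.S14x

open NumberField IsDedekindDomain

variable {p : ℕ} [Fact p.Prime]
variable {F M : Type} [Field F] [NumberField F] [Field M] [NumberField M] [Algebra F M]
  [IsGalois F M] {g : M ≃ₐ[F] M}

/-- FI: the analytic (universal) norm-index inequality `[I^m : P_m · <split primes>] ≤ p`,
phrased without quotient groups: any hom `ψ` to `ZMod p` killing the ray group and non-trivial
on divisors prime to `m` has kernel (on divisors prime to `m`) equal to the ray group. -/
theorem fi_main (hp : p ≠ 2) (h : IsUCyc p F M g) (m : ℕ) [NeZero m]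
    (ψ : Dv F →+ ZMod p) (hker : rayGroup F M m ≤ ψ.ker)
    (hsurj : ∃ D₀ : Dv F, CoprimeTo m D₀ ∧ ψ D₀ ≠ 0)
    (D : Dv F) (hD : CoprimeTo m D) (h0 : ψ D = 0) : D ∈ rayGroup F M m :=
  g4_fi_main_of_count h m (fc_kappa F m) (fun D0 hD0 => fc_main F m D0 hD0)
    ψ hker hsurj D hD h0

end Fermat.Agent.S14x
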