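/-
S14 project, module FI-E (owner helper54): Abel summation.  A Dirichlet series whose coefficient
sums have a power-saving bound `O(N^θ)`, `θ < 1`, is bounded on the real interval `(1, 2]`.
Mathlib only.
-/
import Mathlib

set_option autoImplicit false

namespace Fermat.Agent.S14x

open Finset Filter MeasureTheory Topology Complex Asymptotics

/-- `∫_{t > 1} t^(θ - s - 1) dt = 1/(s - θ)` -/
theorem fie_integral_rpow {θ s : ℝ} (h : θ < s) :
    ∫ t in Set.Ioi (1 : ℝ), t ^ (θ - s - 1) = 1 / (s - θ) := by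
  rw [integral_Ioi_rpow_of_lt (by linarith) zero_lt_one, Real.one_rpow]
  have : θ - s - 1 + 1 = -(s - θ) := by ring
  rw [this, neg_div_neg_eq]

theorem fie_integrableOn_rpow {θ s : ℝ} (h : θ < s) :
    IntegrableOn (fun t : ℝ => t ^ (θ - s - 1)) (Set.Ioi 1) :=
  integrableOn_Ioi_rpow_of_lt (by linarith) zero_lt_one

/-- **Abel summation bound**: if `‖∑_{k ≤ N} a k‖ ≤ C₀ N^θ` with `0 ≤ θ < 1` and the L-series of
`a` converges for real `s > 1`, then `‖L(a, s)‖ ≤ s C₀ / (s - θ)` for real `s > 1`. -/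
theorem fie_norm_LSeries_le' (a : ℕ → ℂ) (C₀ θ : ℝ) (h0 : 0 ≤ θ) (h1 : θ < 1)
    (hA : ∀ N : ℕ, ‖∑ k ∈ Icc 1 N, a k‖ ≤ C₀ * (N : ℝ) ^ θ)
    (hsum : ∀ s : ℝ, 1 < s → LSeriesSummable a s) (s : ℝ) (hs : 1 < s) :
    ‖LSeries a s‖ ≤ s * C₀ / (s - θ) := by
  have hC₀ : 0 ≤ C₀ := by
    have := hA 1
    simp only [Nat.cast_one, Real.one_rpow, mul_one] at this
    exact le_trans (norm_nonneg _) this
  have hsθ : θ < s := h1.trans hs
  have hO : (fun n : ℕ ↦ ∑ k ∈ Icc 1 n, a k) =O[atTop] fun n ↦ (n : ℝ) ^ θ := by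
    refine IsBigO.of_bound C₀ (Eventually.of_forall fun n => ?_)
    rw [Real.norm_of_nonneg (Real.rpow_nonneg (Nat.cast_nonneg n) θ)]
    exact hA n
  have hre : θ < (s : ℂ).re := by simpa using hsθ
  rw [LSeries_eq_mul_integral a h0 hre (hsum s hs) hO, norm_mul, Complex.norm_real,
    Real.norm_of_nonneg (by linarith : (0 : ℝ) ≤ s), mul_div_assoc]
  refine mul_le_mul_of_nonneg_left ?_ (by linarith)
  have hbound : ∀ᵐ t : ℝ ∂(volume.restrict (Set.Ioi (1 : ℝ))),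
      ‖(∑ k ∈ Icc 1 ⌊t⌋₊, a k) * ((t : ℝ) : ℂ) ^ (-((s : ℂ) + 1))‖ ≤ C₀ * t ^ (θ - s - 1) := by
    refine (ae_restrict_iff' measurableSet_Ioi).mpr (Eventually.of_forall fun t ht => ?_)
    have ht0 : (0 : ℝ) < t := zero_lt_one.trans ht
    rw [norm_mul, Complex.norm_cpow_eq_rpow_re_of_pos ht0]
    have hre' : (-((s : ℂ) + 1)).re = -(s + 1) := by simp
    rw [hre']
    have hfl : ((⌊t⌋₊ : ℕ) : ℝ) ^ θ ≤ t ^ θ :=
      Real.rpow_le_rpow (Nat.cast_nonneg _) (Nat.floor_le ht0.le) h0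
    calc ‖∑ k ∈ Icc 1 ⌊t⌋₊, a k‖ * t ^ (-(s + 1))
        ≤ (C₀ * t ^ θ) * t ^ (-(s + 1)) := by
          refine mul_le_mul_of_nonneg_right ?_ (Real.rpow_nonneg ht0.le _)
          exact (hA _).trans (mul_le_mul_of_nonneg_left hfl hC₀)
      _ = C₀ * t ^ (θ - s - 1) := by
          rw [mul_assoc, ← Real.rpow_add ht0]
          congr 2
          ring
  have hint : Integrable (fun t : ℝ => C₀ * t ^ (θ - s - 1)) (volume.restrict (Set.Ioi (1 : ℝ))) :=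
    (fie_integrableOn_rpow hsθ).const_mul C₀
  calc ‖∫ t in Set.Ioi (1 : ℝ), (∑ k ∈ Icc 1 ⌊t⌋₊, a k) * (t : ℂ) ^ (-((s : ℂ) + 1))‖
      ≤ ∫ t in Set.Ioi (1 : ℝ), C₀ * t ^ (θ - s - 1) := norm_integral_le_of_norm_le hint hbound
    _ = C₀ / (s - θ) := by
        rw [integral_const_mul, fie_integral_rpow hsθ, mul_one_div]

/-- **Abel summation bound on `(1, 2]`**: under the same hypotheses, `‖L(a, s)‖ ≤ 2 C₀ / (1 - θ)`
for real `1 < s ≤ 2`. -/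
theorem fie_norm_LSeries_le (a : ℕ → ℂ) (C₀ θ : ℝ) (h0 : 0 ≤ θ) (h1 : θ < 1)
    (hA : ∀ N : ℕ, ‖∑ k ∈ Icc 1 N, a k‖ ≤ C₀ * (N : ℝ) ^ θ)
    (hsum : ∀ s : ℝ, 1 < s → LSeriesSummable a s) (s : ℝ) (hs : 1 < s) (hs2 : s ≤ 2) :
    ‖LSeries a s‖ ≤ 2 * C₀ / (1 - θ) := by
  have hC₀ : 0 ≤ C₀ := by
    have := hA 1
    simp only [Nat.cast_one, Real.one_rpow, mul_one] at this
    exact le_trans (norm_nonneg _) this
  refine (fie_norm_LSeries_le' a C₀ θ h0 h1 hA hsum s hs).trans ?_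
  have h1θ : 0 < 1 - θ := by linarith
  have hsθ : 0 < s - θ := by linarith
  rw [div_le_div_iff₀ hsθ h1θ]
  have : s * C₀ * (1 - θ) ≤ 2 * C₀ * (s - θ) := by
    have h2 : s * (1 - θ) ≤ 2 * (s - θ) := by nlinarith
    nlinarith
  exact this

end Fermat.Agent.S14x
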