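/-
S14 / FI-F, the number field BRIDGE (F2) (helper91, shadow of helper43).  Mathlib only.
Sums over the non-zero ideals of `𝓞 F` versus `L`-series:
* `fbr91_summable_absNorm_rpow`       = FISpec `fe_summable_absNorm_rpow`
* `fbr91_tsum_eq_LSeries`             = FISpec `fe_tsum_eq_LSeries`
* `fbr91_tsum_absNorm_eq_dedekindZeta`= FISpec `fe_tsum_absNorm_eq_dedekindZeta`
* `fbr91_LSeriesSummable`             = FISpec `fe_LSeriesSummable`
Prefix `fbr91_`.
-/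
import Mathlib

set_option autoImplicit false

namespace Fermat.Agent.S14x

open NumberField Filter Topology Finset

section

variable (F : Type*) [Field F] [NumberField F]

/-- the number of ideals of norm `n` -/
noncomputable def fbr91_cnt (n : ℕ) : ℂ :=
  (Nat.card {I : Ideal (𝓞 F) // Ideal.absNorm I = n} : ℂ)

instance fbr91_finite_fibre (n : ℕ) : Finite {I : Ideal (𝓞 F) // Ideal.absNorm I = n} :=
  (Ideal.finite_setOfPred_absNorm_eq (S := 𝓞 F) n).to_subtype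

instance fbr91_finite_le (n : ℕ) : Finite {I : Ideal (𝓞 F) // Ideal.absNorm I ≤ n} :=
  (Ideal.finite_setOfPred_absNorm_le (S := 𝓞 F) n).to_subtype

theorem fbr91_sum_card_le (n : ℕ) :
    ∑ k ∈ Icc 1 n, Nat.card {I : Ideal (𝓞 F) // Ideal.absNorm I = k} ≤
      Nat.card {I : Ideal (𝓞 F) // Ideal.absNorm I ≤ n} := by
  classical
  set S : Finset (Ideal (𝓞 F)) := (Ideal.finite_setOfPred_absNorm_le (S := 𝓞 F) n).toFinset with hS
  have hmem : ∀ I, I ∈ S ↔ Ideal.absNorm I ≤ n := by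
    intro I
    rw [hS, Set.Finite.mem_toFinset]
    rfl
  have hcardS : Nat.card {I : Ideal (𝓞 F) // Ideal.absNorm I ≤ n} = S.card :=
    Nat.subtype_card S hmem
  have hfib : ∀ k ∈ Icc 1 n, Nat.card {I : Ideal (𝓞 F) // Ideal.absNorm I = k} =
      (S.filter (fun I => Ideal.absNorm I = k)).card := by
    intro k hk
    apply Nat.subtype_card
    intro I
    rw [Finset.mem_filter, hmem]
    constructor
    · exact fun h => h.2
    · intro h
      exact ⟨h ▸ (mem_Icc.mp hk).2, h⟩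
  rw [hcardS, Finset.sum_congr rfl hfib]
  have hmaps : ∀ I ∈ S, Ideal.absNorm I ∈ Icc 0 n := fun I hI =>
    mem_Icc.mpr ⟨Nat.zero_le _, (hmem I).mp hI⟩
  rw [Finset.card_eq_sum_card_fiberwise hmaps]
  exact Finset.sum_le_sum_of_subset (fun k hk => mem_Icc.mpr ⟨Nat.zero_le _, (mem_Icc.mp hk).2⟩)

theorem fbr91_isBigO :
    (fun n : ℕ => ∑ k ∈ Icc 1 n, ‖fbr91_cnt F k‖) =O[atTop] fun n : ℕ => (n : ℝ) ^ (1 : ℝ) := by
  have h1 := (NumberField.Ideal.tendsto_norm_le_div_atTop F).comp tendsto_natCast_atTop_atTop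
  have h2 : (fun n : ℕ => (Nat.card {I : Ideal (𝓞 F) // Ideal.absNorm I ≤ n} : ℝ)) =O[atTop]
      fun n : ℕ => (n : ℝ) := by
    refine Asymptotics.isBigO_of_div_tendsto_nhds ?_ _ (h1.congr fun n => ?_)
    · filter_upwards [eventually_ge_atTop 1] with n hn h0
      exfalso
      have : (n : ℝ) ≠ 0 := by exact_mod_cast (by omega : n ≠ 0)
      exact this h0
    · simp only [Function.comp_apply, Pi.div_apply, Nat.cast_le]
  have h3 : (fun n : ℕ => ∑ k ∈ Icc 1 n, ‖fbr91_cnt F k‖) =O[atTop]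
      fun n : ℕ => (Nat.card {I : Ideal (𝓞 F) // Ideal.absNorm I ≤ n} : ℝ) := by
    apply Asymptotics.IsBigO.of_bound 1
    filter_upwards with n
    rw [one_mul, Real.norm_of_nonneg (Finset.sum_nonneg fun _ _ => norm_nonneg _),
      Real.norm_of_nonneg (Nat.cast_nonneg _)]
    have := fbr91_sum_card_le F n
    have h' : (∑ k ∈ Icc 1 n, ‖fbr91_cnt F k‖) =
        ((∑ k ∈ Icc 1 n, Nat.card {I : Ideal (𝓞 F) // Ideal.absNorm I = k} : ℕ) : ℝ) := by
      push_cast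
      refine Finset.sum_congr rfl fun k _ => ?_
      simp [fbr91_cnt]
    rw [h']
    exact_mod_cast this
  simpa using h3.trans h2

theorem fbr91_LSeriesSummable_cnt (s : ℂ) (hs : 1 < s.re) : LSeriesSummable (fbr91_cnt F) s :=
  LSeriesSummable_of_sum_norm_bigO (fbr91_isBigO F) zero_le_one hs


/-- the fibration of the ideals by their norm -/
noncomputable def fbr91_e :
    (Σ n : ℕ, {I : Ideal (𝓞 F) // Ideal.absNorm I = n}) ≃ Ideal (𝓞 F) :=
  Equiv.sigmaFiberEquiv (fun I : Ideal (𝓞 F) => Ideal.absNorm I)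

theorem fbr91_e_apply (x : Σ n : ℕ, {I : Ideal (𝓞 F) // Ideal.absNorm I = n}) :
    fbr91_e F x = x.2.1 := rfl

/-- `∑_I N(I)^{-σ}` over ALL ideals (the term at `⊥` is `0`) converges for `σ > 1` -/
theorem fbr91_summable_all (σ : ℝ) (hσ : 1 < σ) :
    Summable (fun I : Ideal (𝓞 F) => ((Ideal.absNorm I : ℝ)) ^ (-σ)) := by
  rw [← (fbr91_e F).summable_iff]
  refine (summable_sigma_of_nonneg
    (fun x => Real.rpow_nonneg (Nat.cast_nonneg _) _)).mpr ⟨fun n => Summable.of_finite, ?_⟩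
  have hL := (fbr91_LSeriesSummable_cnt F (σ : ℂ) (by simpa using hσ)).norm
  refine hL.congr fun n => ?_
  have h1 : ∀ y : {I : Ideal (𝓞 F) // Ideal.absNorm I = n},
      ((Ideal.absNorm ((fbr91_e F) ⟨n, y⟩) : ℝ)) ^ (-σ) = (n : ℝ) ^ (-σ) := by
    intro y
    rw [fbr91_e_apply, y.2]
  symm
  show ∑' y : {I : Ideal (𝓞 F) // Ideal.absNorm I = n},
      ((Ideal.absNorm ((fbr91_e F) ⟨n, y⟩) : ℝ)) ^ (-σ) = _
  rw [tsum_congr h1, tsum_const, LSeries.norm_term_eq]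
  by_cases hn : n = 0
  · subst hn
    rw [if_pos rfl]
    simp [Real.zero_rpow (by linarith : -σ ≠ 0)]
  · rw [if_neg hn, nsmul_eq_mul, Real.rpow_neg (Nat.cast_nonneg n)]
    simp [fbr91_cnt, div_eq_mul_inv]

/-- FISpec `fe_summable_absNorm_rpow` -/
theorem fbr91_summable_absNorm_rpow (s : ℝ) (hs : 1 < s) :
    Summable (fun I : {I : Ideal (𝓞 F) // I ≠ ⊥} => ((Ideal.absNorm I.1 : ℝ)) ^ (-s)) :=
  (fbr91_summable_all F s hs).subtype _

/-- the Dirichlet coefficients attached to `g` -/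
noncomputable def fbr91_coeff (g : Ideal (𝓞 F) → ℂ) (n : ℕ) : ℂ :=
  ∑' I : {I : Ideal (𝓞 F) // Ideal.absNorm I = n}, g I.1

theorem fbr91_norm_coeff_le (g : Ideal (𝓞 F) → ℂ) (hg : ∀ I, ‖g I‖ ≤ 1) (n : ℕ) :
    ‖fbr91_coeff F g n‖ ≤ ‖fbr91_cnt F n‖ := by
  classical
  have : Fintype {I : Ideal (𝓞 F) // Ideal.absNorm I = n} := Fintype.ofFinite _
  unfold fbr91_coeff fbr91_cnt
  rw [tsum_fintype, Complex.norm_natCast, Nat.card_eq_fintype_card]
  calc ‖∑ I : {I : Ideal (𝓞 F) // Ideal.absNorm I = n}, g I.1‖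
      ≤ ∑ I : {I : Ideal (𝓞 F) // Ideal.absNorm I = n}, ‖g I.1‖ := norm_sum_le _ _
    _ ≤ ∑ _I : {I : Ideal (𝓞 F) // Ideal.absNorm I = n}, (1 : ℝ) :=
        Finset.sum_le_sum fun I _ => hg I.1
    _ = _ := by simp

/-- FISpec `fe_LSeriesSummable` -/
theorem fbr91_LSeriesSummable (g : Ideal (𝓞 F) → ℂ) (hg : ∀ I, ‖g I‖ ≤ 1) (s : ℂ)
    (hs : 1 < s.re) :
    LSeriesSummable (fun n => ∑' I : {I : Ideal (𝓞 F) // Ideal.absNorm I = n}, g I.1) s :=
  Summable.of_norm_bounded (fbr91_LSeriesSummable_cnt F s hs).norm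
    (fun _ => LSeries.norm_term_le s (fbr91_norm_coeff_le F g hg _))

theorem fbr91_norm_term_le (g : Ideal (𝓞 F) → ℂ) (hg : ∀ I, ‖g I‖ ≤ 1) (s : ℂ) (I : Ideal (𝓞 F)) :
    ‖g I * ((Ideal.absNorm I : ℂ)) ^ (-s)‖ ≤ ((Ideal.absNorm I : ℝ)) ^ (-s.re) := by
  rw [norm_mul]
  by_cases hI : Ideal.absNorm I = 0
  · rw [hI]
    by_cases hs : s = 0
    · subst hs
      simp only [Nat.cast_zero, neg_zero, Complex.cpow_zero, norm_one, mul_one, Complex.zero_re,
        Real.rpow_zero]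
      exact hg I
    · rw [Nat.cast_zero, Complex.zero_cpow (neg_ne_zero.mpr hs), norm_zero, mul_zero]
      exact Real.rpow_nonneg (by simp) _
  · rw [Complex.norm_natCast_cpow_of_pos (Nat.pos_of_ne_zero hI), Complex.neg_re]
    calc ‖g I‖ * ((Ideal.absNorm I : ℝ)) ^ (-s.re) ≤ 1 * ((Ideal.absNorm I : ℝ)) ^ (-s.re) :=
          mul_le_mul_of_nonneg_right (hg I) (Real.rpow_nonneg (Nat.cast_nonneg _) _)
      _ = _ := one_mul _

/-- FISpec `fe_tsum_eq_LSeries` -/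
theorem fbr91_tsum_eq_LSeries (g : Ideal (𝓞 F) → ℂ) (hg : ∀ I, ‖g I‖ ≤ 1) (s : ℂ)
    (hs : 1 < s.re) :
    ∑' I : {I : Ideal (𝓞 F) // I ≠ ⊥}, g I.1 * ((Ideal.absNorm I.1 : ℂ)) ^ (-s) =
      LSeries (fun n => ∑' I : {I : Ideal (𝓞 F) // Ideal.absNorm I = n}, g I.1) s := by
  have hs0 : s ≠ 0 := by
    rintro rfl
    simp at hs
    linarith
  set f : Ideal (𝓞 F) → ℂ := fun I => g I * ((Ideal.absNorm I : ℂ)) ^ (-s) with hf
  have hfsum : Summable f :=
    Summable.of_norm_bounded (fbr91_summable_all F s.re hs) (fbr91_norm_term_le F g hg s)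
  -- step 1: all ideals
  have h1 : ∑' I : {I : Ideal (𝓞 F) // I ≠ ⊥}, f I.1 = ∑' I : Ideal (𝓞 F), f I := by
    have hsupp : Function.support f ⊆ {I : Ideal (𝓞 F) | I ≠ ⊥} := by
      intro I hI
      rw [Function.mem_support] at hI
      intro hbot
      apply hI
      rw [hf]
      simp only
      rw [hbot, Ideal.absNorm_bot, Nat.cast_zero, Complex.zero_cpow (neg_ne_zero.mpr hs0),
        mul_zero]
    exact tsum_subtype_eq_of_support_subset hsupp
  -- step 2: regroup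
  have h2 : ∑' I : Ideal (𝓞 F), f I =
      ∑' n : ℕ, ∑' y : {I : Ideal (𝓞 F) // Ideal.absNorm I = n}, f y.1 := by
    rw [← (fbr91_e F).tsum_eq f]
    exact Summable.tsum_sigma' (fun n => Summable.of_finite) ((fbr91_e F).summable_iff.mpr hfsum)
  show ∑' I : {I : Ideal (𝓞 F) // I ≠ ⊥}, f I.1 = _
  rw [h1, h2, LSeries]
  refine tsum_congr fun n => ?_
  have h3 : ∀ y : {I : Ideal (𝓞 F) // Ideal.absNorm I = n}, f y.1 = g y.1 * ((n : ℂ)) ^ (-s) := by
    intro y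
    rw [hf]
    simp only [y.2]
  rw [tsum_congr h3, tsum_mul_right]
  by_cases hn : n = 0
  · subst hn
    rw [LSeries.term_zero, Nat.cast_zero, Complex.zero_cpow (neg_ne_zero.mpr hs0), mul_zero]
  · rw [LSeries.term_of_ne_zero hn, Complex.cpow_neg, div_eq_mul_inv]

/-- FISpec `fe_tsum_absNorm_eq_dedekindZeta` -/
theorem fbr91_tsum_absNorm_eq_dedekindZeta (s : ℂ) (hs : 1 < s.re) :
    ∑' I : {I : Ideal (𝓞 F) // I ≠ ⊥}, ((Ideal.absNorm I.1 : ℂ)) ^ (-s) =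
      NumberField.dedekindZeta F s := by
  have h := fbr91_tsum_eq_LSeries F (fun _ => 1) (fun _ => by simp) s hs
  simp only [one_mul] at h
  rw [h, NumberField.dedekindZeta]
  congr 1
  funext n
  rw [tsum_const, nsmul_eq_mul, mul_one]


/-- FISpec `fe_sum_Icc_eq`: partial sums of the grouped coefficients -/
theorem fbr91_sum_Icc_eq (g : Ideal (𝓞 F) → ℂ) (N : ℕ) :
    ∑ n ∈ Finset.Icc 1 N, (∑' I : {I : Ideal (𝓞 F) // Ideal.absNorm I = n}, g I.1) =
      ∑ᶠ I : {I : Ideal (𝓞 F) // I ≠ ⊥ ∧ Ideal.absNorm I ≤ N}, g I.1 := by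
  classical
  have hfin : {I : Ideal (𝓞 F) | I ≠ ⊥ ∧ Ideal.absNorm I ≤ N}.Finite :=
    (Ideal.finite_setOfPred_absNorm_le (S := 𝓞 F) N).subset fun I hI => hI.2
  set T : Finset (Ideal (𝓞 F)) := hfin.toFinset with hT
  have hmem : ∀ I, I ∈ T ↔ I ≠ ⊥ ∧ Ideal.absNorm I ≤ N := by
    intro I
    rw [hT, Set.Finite.mem_toFinset]
    rfl
  have hR : ∑ᶠ I : {I : Ideal (𝓞 F) // I ≠ ⊥ ∧ Ideal.absNorm I ≤ N}, g I.1 = ∑ I ∈ T, g I := by
    rw [finsum_subtype_eq_finsum_cond (fun I : Ideal (𝓞 F) => I ≠ ⊥ ∧ Ideal.absNorm I ≤ N)]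
    exact finsum_mem_eq_finite_toFinset_sum g hfin
  rw [hR]
  have hmaps : ∀ I ∈ T, Ideal.absNorm I ∈ Icc 1 N := by
    intro I hI
    obtain ⟨h0, hN⟩ := (hmem I).mp hI
    exact mem_Icc.mpr ⟨Nat.one_le_iff_ne_zero.mpr (fun h => h0 (Ideal.absNorm_eq_zero_iff.mp h)), hN⟩
  rw [← Finset.sum_fiberwise_of_maps_to hmaps g]
  refine Finset.sum_congr rfl fun k hk => ?_
  have hset : {I : Ideal (𝓞 F) | Ideal.absNorm I = k} =
      ((T.filter (fun I => Ideal.absNorm I = k) : Finset (Ideal (𝓞 F))) : Set (Ideal (𝓞 F))) := by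
    ext I
    simp only [Set.mem_ofPred_eq, coe_filter, hmem]
    constructor
    · intro h
      refine ⟨⟨fun hbot => ?_, h ▸ (mem_Icc.mp hk).2⟩, h⟩
      rw [hbot, Ideal.absNorm_bot] at h
      have := (mem_Icc.mp hk).1
      omega
    · exact fun h => h.2
  rw [show (∑' I : {I : Ideal (𝓞 F) // Ideal.absNorm I = k}, g I.1) =
      ∑' I : ({I : Ideal (𝓞 F) | Ideal.absNorm I = k} : Set (Ideal (𝓞 F))), g I.1 from rfl,
    tsum_congr_set_coe g hset, Finset.tsum_subtype']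

end

end Fermat.Agent.S14x
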