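/-
S14 / FI-D complement (helper16).  Prefix `fdv_`.  Imports S14x/FICharDv (helper78's `fd_dv`).
* `fdv_pow`, `fdv_prod` : `fd_dv` of powers / finite products of nonzero ideals;
* `fdv_exists_ideal` : every effective divisor is the divisor of a nonzero integral ideal;
* `fdv_exists_sub` : every divisor is `fd_dv I - fd_dv J` with `I, J ≠ ⊥`, and if the divisor is
  prime to `m` so are `fd_dv I`, `fd_dv J` (needed by FI-C, C1 (iii)).
-/
import Fermat.Agent.S14x.FICharDv

set_option autoImplicit false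

namespace Fermat.Agent.S14x

open NumberField IsDedekindDomain

variable {F : Type*} [Field F] [NumberField F]

theorem fdv_pow {I : Ideal (𝓞 F)} (hI : I ≠ ⊥) (n : ℕ) : fd_dv (I ^ n) = n • fd_dv I := by
  induction n with
  | zero => rw [pow_zero, Ideal.one_eq_top, fd_dv_top, zero_smul]
  | succ k ih =>
    rw [pow_succ, fd_dv_mul (pow_ne_zero k hI) hI, ih, succ_nsmul]

theorem fdv_prod {ι : Type*} (s : Finset ι) (J : ι → Ideal (𝓞 F)) (hJ : ∀ i ∈ s, J i ≠ ⊥) :
    fd_dv (∏ i ∈ s, J i) = ∑ i ∈ s, fd_dv (J i) := by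
  classical
  induction s using Finset.induction_on with
  | empty => rw [Finset.prod_empty, Finset.sum_empty, Ideal.one_eq_top, fd_dv_top]
  | insert a s ha ih =>
    have h1 : J a ≠ ⊥ := hJ a (Finset.mem_insert_self a s)
    have h2 : ∀ i ∈ s, J i ≠ ⊥ := fun i hi => hJ i (Finset.mem_insert_of_mem hi)
    have h3 : ∏ i ∈ s, J i ≠ ⊥ := by
      rw [← Ideal.zero_eq_bot, Finset.prod_ne_zero_iff]
      exact h2
    rw [Finset.prod_insert ha, Finset.sum_insert ha, fd_dv_mul h1 h3, ih h2]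

/-- every effective divisor is the divisor of a nonzero integral ideal. -/
theorem fdv_exists_ideal (D : Dv F) (hD : ∀ v, 0 ≤ D v) :
    ∃ I : Ideal (𝓞 F), I ≠ ⊥ ∧ fd_dv I = D := by
  classical
  have hne : ∀ v ∈ D.support, v.asIdeal ^ (D v).toNat ≠ ⊥ := fun v _ => pow_ne_zero _ v.ne_bot
  refine ⟨∏ v ∈ D.support, v.asIdeal ^ (D v).toNat, ?_, ?_⟩
  · rw [← Ideal.zero_eq_bot, Finset.prod_ne_zero_iff]
    exact hne
  · rw [fdv_prod _ _ hne]
    have h1 : ∀ v ∈ D.support, fd_dv (v.asIdeal ^ (D v).toNat) = Finsupp.single v (D v) := by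
      intro v _
      rw [fdv_pow v.ne_bot, fd_dv_asIdeal, Finsupp.smul_single, nsmul_eq_mul, mul_one,
        Int.toNat_of_nonneg (hD v)]
    rw [Finset.sum_congr rfl h1]
    exact Finsupp.sum_single D

theorem fdv_exists_ideal' (D : Dv F) (hD : 0 ≤ D) : ∃ I : Ideal (𝓞 F), I ≠ ⊥ ∧ fd_dv I = D :=
  fdv_exists_ideal D fun v => hD v

/-- every divisor is a difference of divisors of nonzero integral ideals; if it is prime to `m`,
so are the two ideals. -/
theorem fdv_exists_sub (m : ℕ) (D : Dv F) :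
    ∃ I J : Ideal (𝓞 F), I ≠ ⊥ ∧ J ≠ ⊥ ∧ fd_dv I - fd_dv J = D ∧
      (CoprimeTo m D → CoprimeTo m (fd_dv I) ∧ CoprimeTo m (fd_dv J)) := by
  classical
  -- positive and negative parts
  let Dp : Dv F := D.mapRange (fun n : ℤ => max n 0) (by simp)
  let Dn : Dv F := D.mapRange (fun n : ℤ => max (-n) 0) (by simp)
  have hp : ∀ v, Dp v = max (D v) 0 := fun v => Finsupp.mapRange_apply ..
  have hn : ∀ v, Dn v = max (-(D v)) 0 := fun v => Finsupp.mapRange_apply ..
  obtain ⟨I, hI, hIe⟩ := fdv_exists_ideal Dp (fun v => by rw [hp]; exact le_max_right _ _)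
  obtain ⟨J, hJ, hJe⟩ := fdv_exists_ideal Dn (fun v => by rw [hn]; exact le_max_right _ _)
  refine ⟨I, J, hI, hJ, ?_, fun hc => ⟨?_, ?_⟩⟩
  · rw [hIe, hJe]
    ext v
    rw [Finsupp.sub_apply, hp, hn]
    rcases le_total (D v) 0 with h | h
    · rw [max_eq_right h, max_eq_left (by omega)]
      omega
    · rw [max_eq_left h, max_eq_right (by omega)]
      omega
  · intro v hv
    rw [hIe, hp, hc v hv]
    rfl
  · intro v hv
    rw [hJe, hn, hc v hv]
    rfl

end Fermat.Agent.S14x
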