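/-
S14 / FI-D dictionary "divisor of an integral ideal" (helper30), completing helper28's
`bcn_divI` (S14x/BaseChangeNorm.lean: `bcn_divI_mul`, `bcn_divI_top`, `bcn_divI_prime`,
`bcn_divI_pow`, `bcn_divOf_eq_divI`) to the full FISpec list for `fd_dv`:
bot, nonneg, apply_pos_iff, injective, span_singleton, coprime_iff.
So `dv := bcn_divI` is a complete model of the FISpec `fd_dv`.
-/
import Fermat.Agent.S14x.BaseChangeNorm

set_option autoImplicit false

namespace Fermat.Agent.S14x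

open NumberField IsDedekindDomain nonZeroDivisors

variable {K : Type*} [Field K] [NumberField K]

theorem fdd_divI_bot : bcn_divI (⊥ : Ideal (𝓞 K)) = 0 := by
  ext v
  rw [bcn_divI_apply, Finsupp.zero_apply, FractionalIdeal.coeIdeal_bot, FractionalIdeal.count_zero]

theorem fdd_divI_nonneg (I : Ideal (𝓞 K)) (v : Pl K) : 0 ≤ bcn_divI I v := by
  rw [bcn_divI_apply]
  exact FractionalIdeal.count_coe_nonneg K v I

theorem fdd_divI_apply_eq {I : Ideal (𝓞 K)} (hI : I ≠ ⊥) (v : Pl K) :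
    bcn_divI I v = ((Associates.mk v.asIdeal).count (Associates.mk I).factors : ℤ) := by
  rw [bcn_divI_apply]
  exact FractionalIdeal.count_coe K v hI

theorem fdd_divI_apply_pos_iff {I : Ideal (𝓞 K)} (hI : I ≠ ⊥) (v : Pl K) :
    0 < bcn_divI I v ↔ I ≤ v.asIdeal := by
  rw [fdd_divI_apply_eq hI, ← Ideal.dvd_iff_le, Int.natCast_pos, Nat.pos_iff_ne_zero]
  exact Associates.count_ne_zero_iff_dvd hI v.irreducible

theorem fdd_divI_apply_eq_zero_iff {I : Ideal (𝓞 K)} (hI : I ≠ ⊥) (v : Pl K) :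
    bcn_divI I v = 0 ↔ ¬ I ≤ v.asIdeal := by
  rw [← fdd_divI_apply_pos_iff hI v]
  have := fdd_divI_nonneg I v
  omega

theorem fdd_divI_injective {I J : Ideal (𝓞 K)} (hI : I ≠ ⊥) (hJ : J ≠ ⊥)
    (h : bcn_divI I = bcn_divI J) : I = J := by
  rw [← Ideal.finprod_heightOneSpectrum_factorization hI,
    ← Ideal.finprod_heightOneSpectrum_factorization hJ]
  congr 1
  ext1 v
  have h1 : bcn_divI I v = bcn_divI J v := by rw [h]
  rw [fdd_divI_apply_eq hI, fdd_divI_apply_eq hJ, Nat.cast_inj] at h1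
  unfold IsDedekindDomain.HeightOneSpectrum.maxPowDividing
  rw [h1]

theorem fdd_divI_span_singleton {x : 𝓞 K} (hx : x ≠ 0) :
    bcn_divI (Ideal.span {x}) = divOf (x : K) :=
  (bcn_divOf_eq_divI x hx).symm

/-- `I` is prime to `m` (as a divisor) iff `I + (m) = 1`. -/
theorem fdd_coprime_iff (m : ℕ) {I : Ideal (𝓞 K)} (hI : I ≠ ⊥) :
    CoprimeTo m (bcn_divI I) ↔ IsCoprime I (Ideal.span {(m : 𝓞 K)}) := by
  rw [Ideal.isCoprime_iff_sup_eq]
  constructor
  · intro h
    by_contra hne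
    obtain ⟨P, hP, hle⟩ := Ideal.exists_le_maximal _ hne
    have hIP : I ≤ P := le_trans le_sup_left hle
    have hmP : (m : 𝓞 K) ∈ P := hle (Ideal.mem_sup_right (Ideal.mem_span_singleton_self _))
    have hPbot : P ≠ ⊥ := by
      rintro rfl
      exact hI (le_bot_iff.mp hIP)
    let v : Pl K := ⟨P, hP.isPrime, hPbot⟩
    have h0 : bcn_divI I v = 0 := h v hmP
    exact (fdd_divI_apply_eq_zero_iff hI v).mp h0 hIP
  · intro h v hv
    rw [fdd_divI_apply_eq_zero_iff hI v]
    intro hIv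
    have : I ⊔ Ideal.span {(m : 𝓞 K)} ≤ v.asIdeal := by
      refine sup_le hIv ?_
      rw [Ideal.span_le]
      intro y hy
      rw [Set.mem_singleton_iff] at hy
      rw [hy]
      exact hv
    rw [h] at this
    exact v.isPrime.ne_top (top_le_iff.mp this)

end Fermat.Agent.S14x
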