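import Mathlib

/-!
# S14 project, leaf FI-F (part F2): bridge between sums over ideals and L-series

For a number field `F`, `s : ℂ` with `1 < s.re` and a bounded coefficient function
`c : Ideal (𝓞 F) → ℂ`:

* `feb_lseriesSummable` : the coefficients `n ↦ #{I | N I = n}` are L-series summable at `s`;
* `feb_summable` : `I ↦ ‖febTerm F s I‖` is summable over all ideals;
* `feb_tsum_eq_dedekindZeta` : `∑' I, febTerm F s I = dedekindZeta F s`;
* `feb_summable_mul`, `feb_tsum_mul_eq_LSeries` : the twisted versions, with coefficients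
  `febCoeff F c n = ∑_{N I = n} c I`;
* `feb_sum_coeff` : partial sums of `febCoeff` are sums of `c` over ideals of bounded norm.
-/

set_option autoImplicit false

namespace Fermat.Agent.S14x

open NumberField Ideal Filter Finset Topology

variable (F : Type*) [Field F] [NumberField F]

/-- the Dirichlet term `N I ^ (-s)` of a nonzero ideal (`0` at the zero ideal) -/
noncomputable def febTerm (s : ℂ) (I : Ideal (𝓞 F)) : ℂ :=
  if I = ⊥ then 0 else ((absNorm I : ℕ) : ℂ) ^ (-s)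

instance feb_finite_fiber (n : ℕ) : Finite {I : Ideal (𝓞 F) // absNorm I = n} :=
  (finite_setOfPred_absNorm_eq (S := 𝓞 F) n).to_subtype

/-- partial sums of the ideal-counting coefficients -/
theorem feb_tendsto_sum_card :
    Tendsto (fun n : ℕ ↦
      (∑ k ∈ Icc 1 n, (Nat.card {I : Ideal (𝓞 F) // absNorm I = k} : ℝ)) / (n : ℝ)) atTop
      (𝓝 (dedekindZeta_residue F)) := by
  refine ((Ideal.tendsto_norm_le_div_atTop₀ F).comp tendsto_natCast_atTop_atTop).congr fun n ↦ ?_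
  simp only [Function.comp_apply, Nat.cast_le, ← Nat.cast_sum]
  congr
  rw [← add_left_inj 1, ← card_norm_le_eq_card_norm_le_add_one,
    show Finset.Icc 1 n = Finset.Ioc 0 n from Finset.Icc_succ_left_eq_Ioc _ _,
    show 1 = Nat.card {I : Ideal (𝓞 F) // absNorm I = 0} by simp [Ideal.absNorm_eq_zero_iff],
    Finset.sum_Ioc_add_eq_sum_Icc (n.zero_le),
    ← Finset.card_preimage_eq_sum_card_image_eq (fun k _ ↦ finite_setOfPred_absNorm_eq k)]
  simp [Set.coe_eq_subtype]

theorem feb_lseriesSummable {s : ℂ} (hs : 1 < s.re) :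
    LSeriesSummable (fun n ↦ (Nat.card {I : Ideal (𝓞 F) // absNorm I = n} : ℂ)) s := by
  have h := LSeriesSummable_of_sum_norm_bigO_and_nonneg (s := s)
    (f := fun n ↦ (Nat.card {I : Ideal (𝓞 F) // absNorm I = n} : ℝ)) (r := 1)
    (Asymptotics.isBigO_atTop_natCast_rpow_of_tendsto_div_rpow (a := dedekindZeta_residue F)
      (by simpa using feb_tendsto_sum_card F))
    (fun _ ↦ Nat.cast_nonneg _) zero_le_one hs
  simpa using h

variable {F}

theorem febTerm_bot (s : ℂ) : febTerm F s ⊥ = 0 := by simp [febTerm]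

theorem febTerm_of_ne_bot (s : ℂ) {I : Ideal (𝓞 F)} (hI : I ≠ ⊥) :
    febTerm F s I = ((absNorm I : ℕ) : ℂ) ^ (-s) := by simp [febTerm, hI]

theorem febTerm_top (s : ℂ) : febTerm F s ⊤ = 1 := by
  rw [febTerm_of_ne_bot s top_ne_bot]
  simp

theorem febTerm_mul (s : ℂ) (I J : Ideal (𝓞 F)) :
    febTerm F s (I * J) = febTerm F s I * febTerm F s J := by
  rcases eq_or_ne I ⊥ with rfl | hI
  · simp [febTerm_bot]
  rcases eq_or_ne J ⊥ with rfl | hJ
  · simp [febTerm_bot]
  rw [febTerm_of_ne_bot s hI, febTerm_of_ne_bot s hJ, febTerm_of_ne_bot s (mul_ne_zero hI hJ),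
    map_mul, Nat.cast_mul, Complex.natCast_mul_natCast_cpow]

theorem febTerm_pow (s : ℂ) (I : Ideal (𝓞 F)) (k : ℕ) :
    febTerm F s (I ^ k) = febTerm F s I ^ k := by
  induction k with
  | zero => simp [febTerm_top]
  | succ k ih => rw [pow_succ, febTerm_mul, ih, pow_succ]

theorem febTerm_asIdeal (s : ℂ) (v : IsDedekindDomain.HeightOneSpectrum (𝓞 F)) :
    febTerm F s v.asIdeal = ((absNorm v.asIdeal : ℕ) : ℂ) ^ (-s) :=
  febTerm_of_ne_bot s v.ne_bot

/-- for real `s` the term is the (cast of the) real number `N I ^ (-s)` -/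
theorem febTerm_ofReal (s : ℝ) {I : Ideal (𝓞 F)} (hI : I ≠ ⊥) :
    febTerm F (s : ℂ) I = (((absNorm I : ℕ) : ℝ) ^ (-s) : ℝ) := by
  rw [febTerm_of_ne_bot _ hI, Complex.ofReal_cpow (Nat.cast_nonneg _)]
  simp

theorem norm_febTerm_of_ne_bot (s : ℂ) {I : Ideal (𝓞 F)} (hI : I ≠ ⊥) :
    ‖febTerm F s I‖ = ((absNorm I : ℕ) : ℝ) ^ (-s.re) := by
  rw [febTerm_of_ne_bot s hI, Complex.norm_natCast_cpow_of_pos
    (Nat.pos_of_ne_zero (fun h ↦ hI (absNorm_eq_zero_iff.mp h)))]
  simp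

theorem febTerm_of_absNorm_eq {s : ℂ} {n : ℕ} (hn : n ≠ 0) {I : Ideal (𝓞 F)}
    (hI : absNorm I = n) : febTerm F s I = (n : ℂ) ^ (-s) := by
  have hne : I ≠ ⊥ := by
    rintro rfl
    rw [absNorm_bot] at hI
    exact hn hI.symm
  rw [febTerm, if_neg hne, hI]

theorem febTerm_of_absNorm_eq_zero {s : ℂ} {I : Ideal (𝓞 F)} (hI : absNorm I = 0) :
    febTerm F s I = 0 := by
  rw [absNorm_eq_zero_iff] at hI
  rw [hI, febTerm_bot]

theorem norm_febTerm_of_absNorm_eq {s : ℂ} {n : ℕ} (hn : n ≠ 0) {I : Ideal (𝓞 F)}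
    (hI : absNorm I = n) : ‖febTerm F s I‖ = (n : ℝ) ^ (-s.re) := by
  rw [febTerm_of_absNorm_eq hn hI, Complex.norm_natCast_cpow_of_pos (Nat.pos_of_ne_zero hn)]
  simp

variable (F)

/-- the fibration of the ideals by their norm -/
noncomputable def febEquiv : (Σ n : ℕ, {I : Ideal (𝓞 F) // absNorm I = n}) ≃ Ideal (𝓞 F) :=
  Equiv.sigmaFiberEquiv (fun I : Ideal (𝓞 F) ↦ absNorm I)

@[simp] theorem febEquiv_apply (x : Σ n : ℕ, {I : Ideal (𝓞 F) // absNorm I = n}) :
    febEquiv F x = x.2.1 := rfl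

/-- coefficients of the twisted series: `febCoeff c n = ∑_{N I = n} c I` -/
noncomputable def febCoeff (c : Ideal (𝓞 F) → ℂ) (n : ℕ) : ℂ :=
  ∑' I : {I : Ideal (𝓞 F) // absNorm I = n}, c I.1

theorem feb_fiber_tsum_norm (s : ℂ) (n : ℕ) :
    ∑' I : {I : Ideal (𝓞 F) // absNorm I = n}, ‖febTerm F s I.1‖ =
      ‖LSeries.term (fun n ↦ (Nat.card {I : Ideal (𝓞 F) // absNorm I = n} : ℂ)) s n‖ := by
  rcases eq_or_ne n 0 with rfl | hn
  · rw [LSeries.term_zero, norm_zero]
    have : ∀ I : {I : Ideal (𝓞 F) // absNorm I = 0}, ‖febTerm F s I.1‖ = 0 := fun I ↦ by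
      rw [febTerm_of_absNorm_eq_zero I.2, norm_zero]
    simp [this]
  · have : ∀ I : {I : Ideal (𝓞 F) // absNorm I = n}, ‖febTerm F s I.1‖ = (n : ℝ) ^ (-s.re) :=
      fun I ↦ norm_febTerm_of_absNorm_eq hn I.2
    simp only [this]
    have : Fintype {I : Ideal (𝓞 F) // absNorm I = n} := Fintype.ofFinite _
    rw [tsum_fintype, Finset.sum_const, Finset.card_univ, nsmul_eq_mul,
      LSeries.term_of_ne_zero hn, norm_div, Complex.norm_natCast_cpow_of_pos
      (Nat.pos_of_ne_zero hn), Complex.norm_natCast, Nat.card_eq_fintype_card,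
      Real.rpow_neg (Nat.cast_nonneg n), div_eq_mul_inv]

/-- (a) absolute summability of `N I ^ (-s)` over all ideals, `1 < re s`. -/
theorem feb_summable {s : ℂ} (hs : 1 < s.re) : Summable (fun I : Ideal (𝓞 F) ↦ ‖febTerm F s I‖) := by
  rw [← (febEquiv F).summable_iff]
  have key : Summable (fun x : (Σ n : ℕ, {I : Ideal (𝓞 F) // absNorm I = n}) ↦
      ‖febTerm F s x.2.1‖) := by
    rw [summable_sigma_of_nonneg (fun _ ↦ norm_nonneg _)]
    refine ⟨fun n ↦ Summable.of_finite, ?_⟩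
    have := (feb_lseriesSummable F hs).norm
    refine this.congr fun n ↦ ?_
    exact (feb_fiber_tsum_norm F s n).symm
  exact key

/-- (c1) absolute summability of the twisted terms -/
theorem feb_summable_mul {s : ℂ} (hs : 1 < s.re) (c : Ideal (𝓞 F) → ℂ) (hc : ∀ I, ‖c I‖ ≤ 1) :
    Summable (fun I : Ideal (𝓞 F) ↦ ‖c I * febTerm F s I‖) := by
  refine Summable.of_nonneg_of_le (fun _ ↦ norm_nonneg _) (fun I ↦ ?_) (feb_summable F hs)
  rw [norm_mul]
  exact mul_le_of_le_one_left (norm_nonneg _) (hc I)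

theorem feb_fiber_tsum (s : ℂ) (c : Ideal (𝓞 F) → ℂ) (n : ℕ) :
    ∑' I : {I : Ideal (𝓞 F) // absNorm I = n}, c I.1 * febTerm F s I.1 =
      LSeries.term (febCoeff F c) s n := by
  rcases eq_or_ne n 0 with rfl | hn
  · rw [LSeries.term_zero]
    have : ∀ I : {I : Ideal (𝓞 F) // absNorm I = 0}, c I.1 * febTerm F s I.1 = 0 := fun I ↦ by
      rw [febTerm_of_absNorm_eq_zero I.2, mul_zero]
    simp [this]
  · have : ∀ I : {I : Ideal (𝓞 F) // absNorm I = n},
        c I.1 * febTerm F s I.1 = c I.1 * (n : ℂ) ^ (-s) :=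
      fun I ↦ by rw [febTerm_of_absNorm_eq hn I.2]
    simp only [this]
    rw [tsum_mul_right, LSeries.term_of_ne_zero hn, febCoeff, Complex.cpow_neg, div_eq_mul_inv]

/-- (c2) the twisted sum over ideals is an L-series -/
theorem feb_tsum_mul_eq_LSeries {s : ℂ} (hs : 1 < s.re) (c : Ideal (𝓞 F) → ℂ)
    (hc : ∀ I, ‖c I‖ ≤ 1) :
    ∑' I : Ideal (𝓞 F), c I * febTerm F s I = LSeries (febCoeff F c) s := by
  have hsum : Summable (fun I : Ideal (𝓞 F) ↦ c I * febTerm F s I) :=
    (feb_summable_mul F hs c hc).of_norm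
  have hsum' : Summable (fun x : (Σ n : ℕ, {I : Ideal (𝓞 F) // absNorm I = n}) ↦
      c x.2.1 * febTerm F s x.2.1) := (febEquiv F).summable_iff.mpr hsum
  have h1 : ∑' I : Ideal (𝓞 F), c I * febTerm F s I =
      ∑' x : (Σ n : ℕ, {I : Ideal (𝓞 F) // absNorm I = n}), c x.2.1 * febTerm F s x.2.1 :=
    ((febEquiv F).tsum_eq (fun I ↦ c I * febTerm F s I)).symm
  rw [h1, Summable.tsum_sigma' (fun n ↦ Summable.of_finite) hsum', LSeries]
  exact tsum_congr fun n ↦ feb_fiber_tsum F s c n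

/-- L-series summability of the twisted coefficients -/
theorem feb_lseriesSummable_coeff {s : ℂ} (hs : 1 < s.re) (c : Ideal (𝓞 F) → ℂ)
    (hc : ∀ I, ‖c I‖ ≤ 1) : LSeriesSummable (febCoeff F c) s := by
  have hsum : Summable (fun I : Ideal (𝓞 F) ↦ c I * febTerm F s I) :=
    (feb_summable_mul F hs c hc).of_norm
  have hsum' : Summable (fun x : (Σ n : ℕ, {I : Ideal (𝓞 F) // absNorm I = n}) ↦
      c x.2.1 * febTerm F s x.2.1) := (febEquiv F).summable_iff.mpr hsum
  exact hsum'.sigma.congr fun n ↦ feb_fiber_tsum F s c n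

/-- (b) the sum of `N I ^ (-s)` over the nonzero ideals is the Dedekind zeta function -/
theorem feb_tsum_eq_dedekindZeta {s : ℂ} (hs : 1 < s.re) :
    ∑' I : Ideal (𝓞 F), febTerm F s I = dedekindZeta F s := by
  have h := feb_tsum_mul_eq_LSeries F hs (fun _ ↦ 1) (fun _ ↦ by simp)
  simp only [one_mul] at h
  rw [h, dedekindZeta]
  congr 1
  funext n
  have : Fintype {I : Ideal (𝓞 F) // absNorm I = n} := Fintype.ofFinite _
  rw [febCoeff, tsum_fintype, Finset.sum_const, Finset.card_univ, nsmul_eq_mul, mul_one,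
    Nat.card_eq_fintype_card]

/-- the nonzero ideals of norm at most `N` form a finite set -/
theorem feb_finite_norm_le (N : ℕ) :
    {I : Ideal (𝓞 F) | 1 ≤ absNorm I ∧ absNorm I ≤ N}.Finite :=
  (finite_setOfPred_absNorm_le (S := 𝓞 F) N).subset fun _ h ↦ h.2

theorem feb_mem_toFinset {N : ℕ} {I : Ideal (𝓞 F)} :
    I ∈ (feb_finite_norm_le F N).toFinset ↔ 1 ≤ absNorm I ∧ absNorm I ≤ N := by
  simp

/-- `febCoeff` as a finite sum -/
theorem febCoeff_eq_sum (c : Ideal (𝓞 F) → ℂ) (n : ℕ) :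
    febCoeff F c n = ∑ I ∈ (finite_setOfPred_absNorm_eq (S := 𝓞 F) n).toFinset, c I := by
  have : Fintype {I : Ideal (𝓞 F) // absNorm I = n} := Fintype.ofFinite _
  rw [febCoeff, tsum_fintype]
  exact (Finset.sum_subtype _ (fun I ↦ by simp) c).symm

/-- (d) partial sums of the coefficients are sums over the ideals of bounded norm -/
theorem feb_sum_coeff (c : Ideal (𝓞 F) → ℂ) (N : ℕ) :
    ∑ n ∈ Icc 1 N, febCoeff F c n = ∑ I ∈ (feb_finite_norm_le F N).toFinset, c I := by
  classical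
  rw [← Finset.sum_fiberwise_of_maps_to (s := (feb_finite_norm_le F N).toFinset)
    (t := Icc 1 N) (g := fun I : Ideal (𝓞 F) ↦ absNorm I) (f := c)
    (fun I hI ↦ by simpa using hI)]
  refine Finset.sum_congr rfl fun n hn ↦ ?_
  rw [febCoeff_eq_sum]
  refine Finset.sum_congr ?_ fun _ _ ↦ rfl
  ext I
  simp only [Set.Finite.mem_toFinset, Set.mem_ofPred_eq, Finset.mem_filter, Finset.mem_Icc] at hn ⊢
  constructor
  · intro h
    exact ⟨by rw [h]; exact hn, h⟩
  · exact fun h ↦ h.2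

/-- (d') partial sums for a coefficient function which is a class function `χ ∘ g` on the
ideals satisfying `P`, and `0` elsewhere: the sum over the classes of the counting functions. -/
theorem feb_sum_coeff_class {Q : Type*} [Fintype Q] (P : Ideal (𝓞 F) → Prop)
    [DecidablePred P] (g : Ideal (𝓞 F) → Q) (χ : Q → ℂ) (N : ℕ) :
    ∑ n ∈ Icc 1 N, febCoeff F (fun I ↦ if P I then χ (g I) else 0) n =
      ∑ q : Q, χ q * (Nat.card {I : Ideal (𝓞 F) //
        P I ∧ g I = q ∧ 1 ≤ absNorm I ∧ absNorm I ≤ N} : ℂ) := by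
  classical
  rw [feb_sum_coeff]
  set T := (feb_finite_norm_le F N).toFinset with hT
  have h1 : ∀ I ∈ T, (if P I then χ (g I) else 0) =
      ∑ q : Q, if P I ∧ g I = q then χ q else 0 := by
    intro I _
    by_cases hP : P I
    · simp [hP]
    · simp [hP]
  rw [Finset.sum_congr rfl h1, Finset.sum_comm]
  refine Finset.sum_congr rfl fun q _ ↦ ?_
  rw [← Finset.sum_filter, Finset.sum_const, nsmul_eq_mul, mul_comm]
  congr 2
  rw [← Nat.card_eq_finsetCard]
  refine Nat.card_congr (Equiv.subtypeEquivRight fun I ↦ ?_)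
  simp only [hT, Finset.mem_filter, Set.Finite.mem_toFinset, Set.mem_ofPred_eq]
  tauto

end Fermat.Agent.S14x
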