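/-
# Lattice point counting with an explicit error term (helper25)

Mathlib only proves the *limit* `#(ℤ^ι ∩ t • D) / t^d → vol D` (`tendsto_card_div_pow_atTop_volume`).
For the analytic class number formula with a power-saving error term one needs

  `|#((v + ℤ^ι) ∩ t • D) - vol(D) * t^d| ≤ C * t^(d-1)`  for all `t ≥ 1` and all shifts `v`,

whenever the frontier of `D` is `(d-1)`-Lipschitz parametrizable.  This file proves exactly that:

* `lc_count_sub_volume_le`   : one scale, error ≤ number of unit boxes meeting the frontier;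
* `lc_count_sub_volume_le_net`: the same with a finite sup-distance net of the frontier;
* `lc_count_scaled`          : scaled + shifted version;
* `lcNets`                   : "the set has `R/t`-nets with `≤ C₀ t^m` points for all `t ≥ 1`";
  `lcNets.mono`, `lcNets.union`, `lcNets_iUnion_fin`, `lcNets_lipschitz_image`;
* `lc_count_of_nets`, `lc_count_of_lipschitz` : the main theorems;
* `lc_count_cone`, `lc_count_cone_le` : cone + homogeneous gauge versions, error `O(c^(1-1/d))`.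
-/
import Mathlib

set_option autoImplicit false

open MeasureTheory Set BoxIntegral BoxIntegral.unitPartition Bornology Fintype
open scoped Pointwise Classical

namespace Fermat.Agent.S14x

variable {ι : Type*} [Fintype ι]

theorem lc_subset_interior_or_subset_compl {X : Type*} [TopologicalSpace X] {C S : Set X}
    (hC : IsPreconnected C) (h : Disjoint C (frontier S)) :
    C ⊆ interior S ∨ C ⊆ (closure S)ᶜ := by
  refine hC.subset_or_subset isOpen_interior isClosed_closure.isOpen_compl ?_ ?_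
  · exact disjoint_compl_right.mono_left interior_subset_closure
  · intro x hx
    by_cases h1 : x ∈ interior S
    · exact Or.inl h1
    · right
      intro h2
      exact (Set.disjoint_left.mp h hx) ⟨h2, h1⟩

omit [Fintype ι] in
theorem lc_box_isPreconnected (ν : ι → ℤ) : IsPreconnected (box 1 ν : Set (ι → ℝ)) := by
  have : Convex ℝ (box 1 ν : Set (ι → ℝ)) := by
    rw [BoxIntegral.Box.coe_eq_pi]
    exact convex_pi fun i _ => convex_Ioc _ _
  exact this.isPreconnected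

omit [Fintype ι] in
theorem lc_tag_one (ν : ι → ℤ) (i : ι) : tag 1 ν i = (ν i : ℝ) + 1 := by
  simp [tag]

theorem lc_volume_box_one (ν : ι → ℤ) : volume (box 1 ν : Set (ι → ℝ)) = 1 := by
  simp

omit [Fintype ι] in
theorem lc_mem_box_index (x : ι → ℝ) : x ∈ box 1 (index 1 x) := mem_box_iff_index.mpr rfl

/-- the integer point attached to `a : ι → ℤ` -/
def lcPt (a : ι → ℤ) : ι → ℝ := fun i => (a i : ℝ)

/-- per-box comparison: if the unit box `ν` does not meet the frontier of `S`, then the indicator of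
`tag ν ∈ S` equals the volume of `S ∩ box ν`. -/
theorem lc_term_eq (S : Set (ι → ℝ)) (ν : ι → ℤ)
    (h : Disjoint (box 1 ν : Set (ι → ℝ)) (frontier S)) :
    (if tag 1 ν ∈ S then (1 : ℝ) else 0) = volume.real (S ∩ (box 1 ν : Set (ι → ℝ))) := by
  rcases lc_subset_interior_or_subset_compl (lc_box_isPreconnected ν) h with h1 | h1
  · have hsub : (box 1 ν : Set (ι → ℝ)) ⊆ S := h1.trans interior_subset
    rw [if_pos (hsub (tag_mem 1 ν)), inter_eq_right.mpr hsub, measureReal_def, lc_volume_box_one]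
    simp
  · have hdis : S ∩ (box 1 ν : Set (ι → ℝ)) = ∅ := by
      ext x
      simp only [mem_inter_iff, mem_empty_iff_false, iff_false, not_and]
      intro hxS hxb
      exact h1 hxb (subset_closure hxS)
    have htag : tag 1 ν ∉ S := fun hh => by
      have : tag 1 ν ∈ S ∩ (box 1 ν : Set (ι → ℝ)) := ⟨hh, tag_mem 1 ν⟩
      rw [hdis] at this
      exact this
    rw [if_neg htag, hdis]
    simp

theorem lc_term_abs_le (S : Set (ι → ℝ)) (ν : ι → ℤ) :
    |(if tag 1 ν ∈ S then (1 : ℝ) else 0) - volume.real (S ∩ (box 1 ν : Set (ι → ℝ)))| ≤ 1 := by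
  have h0 : 0 ≤ volume.real (S ∩ (box 1 ν : Set (ι → ℝ))) := measureReal_nonneg
  have h1 : volume.real (S ∩ (box 1 ν : Set (ι → ℝ))) ≤ 1 := by
    have : volume.real (S ∩ (box 1 ν : Set (ι → ℝ))) ≤ volume.real (box 1 ν : Set (ι → ℝ)) :=
      measureReal_mono inter_subset_right (by rw [lc_volume_box_one]; simp)
    have h2 : volume.real (box 1 ν : Set (ι → ℝ)) = 1 := by
      rw [measureReal_def, lc_volume_box_one, ENNReal.toReal_one]
    rwa [h2] at this
  split_ifs <;> rw [abs_le] <;> constructor <;> linarith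


theorem lc_volume_eq_sum (S : Set (ι → ℝ)) (hSm : MeasurableSet S) {B : Box ι}
    (hB : hasIntegralVertices B) (hSB : S ≤ (B : Set (ι → ℝ))) :
    volume.real S = ∑ ν ∈ admissibleIndex 1 B, volume.real (S ∩ (box 1 ν : Set (ι → ℝ))) := by
  have hU : S = ⋃ ν ∈ admissibleIndex 1 B, S ∩ (box 1 ν : Set (ι → ℝ)) := by
    ext x
    simp only [mem_iUnion, mem_inter_iff, exists_and_left, exists_prop]
    constructor
    · intro hx
      exact ⟨hx, index 1 x, mem_admissibleIndex_of_mem_box 1 hB (hSB hx), lc_mem_box_index x⟩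
    · rintro ⟨hx, _⟩
      exact hx
  conv_lhs => rw [hU]
  refine measureReal_biUnion_finset ?_ ?_ ?_
  · intro ν _ ν' _ hne
    exact ((disjoint.mp hne).inter_left' S).inter_right' S
  · intro ν _
    exact hSm.inter (box 1 ν).measurableSet_coe
  · intro ν _
    refine ne_top_of_le_ne_top ?_ (measure_mono inter_subset_right)
    rw [lc_volume_box_one]
    simp

theorem lc_card_eq_sum (S : Set (ι → ℝ)) {B : Box ι}
    (hB : hasIntegralVertices B) (hSB : S ≤ (B : Set (ι → ℝ))) :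
    (Nat.card {a : ι → ℤ // lcPt a ∈ S} : ℝ) =
      ∑ ν ∈ admissibleIndex 1 B, (if tag 1 ν ∈ S then (1 : ℝ) else 0) := by
  rw [Finset.sum_boole]
  congr 1
  rw [← Nat.card_eq_finsetCard]
  refine Nat.card_congr ?_
  refine ⟨fun a => ⟨fun i => a.1 i - 1, ?_⟩, fun ν => ⟨fun i => ν.1 i + 1, ?_⟩, ?_, ?_⟩
  · have htag : tag 1 (fun i => a.1 i - 1) = lcPt a.1 := by
      funext i
      simp [tag, lcPt]
    rw [Finset.mem_filter]
    refine ⟨?_, by rw [htag]; exact a.2⟩
    have := mem_admissibleIndex_of_mem_box 1 hB (hSB a.2)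
    have hidx : index 1 (lcPt a.1) = fun i => a.1 i - 1 := by
      rw [← htag, index_tag]
    rwa [hidx] at this
  · have h := (Finset.mem_filter.mp ν.2).2
    have htag : tag 1 ν.1 = lcPt (fun i => ν.1 i + 1) := by
      funext i
      simp [tag, lcPt]
    rwa [htag] at h
  · intro a
    ext i
    simp
  · intro ν
    ext i
    simp


/-- **Counting lemma, one scale.** For a bounded measurable `S`, the number of integer points in `S`
differs from the volume of `S` by at most the number of unit boxes meeting the frontier of `S`. -/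
theorem lc_count_sub_volume_le (S : Set (ι → ℝ)) (hSm : MeasurableSet S) (hSb : IsBounded S)
    (Bd : Finset (ι → ℤ))
    (hBd : ∀ ν : ι → ℤ, ¬ Disjoint (box 1 ν : Set (ι → ℝ)) (frontier S) → ν ∈ Bd) :
    |(Nat.card {a : ι → ℤ // lcPt a ∈ S} : ℝ) - volume.real S| ≤ Bd.card := by
  obtain ⟨B, hB, hSB⟩ := le_hasIntegralVertices_of_isBounded hSb
  rw [lc_card_eq_sum S hB hSB, lc_volume_eq_sum S hSm hB hSB, ← Finset.sum_sub_distrib]
  calc |∑ ν ∈ admissibleIndex 1 B, ((if tag 1 ν ∈ S then (1 : ℝ) else 0) -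
          volume.real (S ∩ (box 1 ν : Set (ι → ℝ))))|
      ≤ ∑ ν ∈ admissibleIndex 1 B, |(if tag 1 ν ∈ S then (1 : ℝ) else 0) -
          volume.real (S ∩ (box 1 ν : Set (ι → ℝ)))| := Finset.abs_sum_le_sum_abs _ _
    _ ≤ ∑ ν ∈ admissibleIndex 1 B, (if ν ∈ Bd then (1 : ℝ) else 0) := by
        refine Finset.sum_le_sum fun ν _ => ?_
        by_cases h : Disjoint (box 1 ν : Set (ι → ℝ)) (frontier S)
        · rw [lc_term_eq S ν h, sub_self, abs_zero]
          split_ifs <;> norm_num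
        · rw [if_pos (hBd ν h)]
          exact lc_term_abs_le S ν
    _ ≤ Bd.card := by
        rw [Finset.sum_boole]
        exact_mod_cast Finset.card_le_card (fun ν hν => (Finset.mem_filter.mp hν).2)


/-- the finite set of unit-box indices that can meet the closed sup-ball of radius `r` at `y` -/
noncomputable def lcNbhd (y : ι → ℝ) (r : ℝ) : Finset (ι → ℤ) :=
  Fintype.piFinset fun i => Finset.Icc (⌈y i - r⌉ - 1) (⌈y i - r⌉ - 1 + (⌈2 * r⌉₊ : ℤ))

theorem lc_card_lcNbhd (y : ι → ℝ) (r : ℝ) : (lcNbhd y r).card = (⌈2 * r⌉₊ + 1) ^ card ι := by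
  unfold lcNbhd
  rw [Fintype.card_piFinset]
  have : ∀ i : ι, (Finset.Icc (⌈y i - r⌉ - 1) (⌈y i - r⌉ - 1 + (⌈2 * r⌉₊ : ℤ))).card
      = ⌈2 * r⌉₊ + 1 := by
    intro i
    rw [Int.card_Icc]
    omega
  rw [Finset.prod_congr rfl fun i _ => this i]
  simp

theorem lc_mem_lcNbhd {y : ι → ℝ} {r : ℝ} (hr : 0 ≤ r) {ν : ι → ℤ} {x : ι → ℝ}
    (hx : x ∈ box 1 ν) (hxy : dist x y ≤ r) : ν ∈ lcNbhd y r := by
  unfold lcNbhd
  rw [Fintype.mem_piFinset]
  intro i
  have hν : ν i = ⌈x i⌉ - 1 := by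
    have := mem_box_iff_index.mp hx
    rw [← this]
    simp [index]
  have hd : |x i - y i| ≤ r := by
    have := (dist_pi_le_iff hr).mp hxy i
    rwa [Real.dist_eq] at this
  rw [abs_le] at hd
  rw [Finset.mem_Icc, hν]
  constructor
  · have : ⌈y i - r⌉ ≤ ⌈x i⌉ := Int.ceil_le_ceil (by linarith)
    omega
  · have h1 : ⌈x i⌉ ≤ ⌈(y i - r) + 2 * r⌉ := Int.ceil_le_ceil (by linarith)
    have h2 : ⌈(y i - r) + 2 * r⌉ ≤ ⌈y i - r⌉ + ⌈2 * r⌉ := Int.ceil_add_le _ _
    have h3 : ⌈2 * r⌉ = (⌈2 * r⌉₊ : ℤ) := by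
      rw [Int.natCast_ceil_eq_ceil (by positivity)]
    omega


/-- **Counting lemma with a net.** If the frontier of the bounded measurable set `S` is covered by
the closed sup-balls of radius `r` around the points of a finite set `P`, then the number of integer
points of `S` differs from the volume of `S` by at most `#P * (⌈2r⌉₊ + 1) ^ d`. -/
theorem lc_count_sub_volume_le_net (S : Set (ι → ℝ)) (hSm : MeasurableSet S) (hSb : IsBounded S)
    (r : ℝ) (hr : 0 ≤ r) (P : Finset (ι → ℝ))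
    (hP : ∀ x ∈ frontier S, ∃ y ∈ P, dist x y ≤ r) :
    |(Nat.card {a : ι → ℤ // lcPt a ∈ S} : ℝ) - volume.real S|
      ≤ P.card * ((⌈2 * r⌉₊ : ℝ) + 1) ^ card ι := by
  refine (lc_count_sub_volume_le S hSm hSb (P.biUnion fun y => lcNbhd y r) ?_).trans ?_
  · intro ν hν
    rw [Set.not_disjoint_iff] at hν
    obtain ⟨x, hxb, hxf⟩ := hν
    obtain ⟨y, hyP, hxy⟩ := hP x hxf
    exact Finset.mem_biUnion.mpr ⟨y, hyP, lc_mem_lcNbhd hr hxb hxy⟩
  · have := Finset.card_biUnion_le (s := P) (t := fun y => lcNbhd y r)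
    simp only [lc_card_lcNbhd, Finset.sum_const, smul_eq_mul] at this
    exact_mod_cast this


theorem lc_volume_preimage_scale (D : Set (ι → ℝ)) {t : ℝ} (ht : 0 < t) (v : ι → ℝ) :
    volume.real ((fun x : ι → ℝ => t⁻¹ • (v + x)) ⁻¹' D) = volume.real D * t ^ card ι := by
  have h1 : (fun x : ι → ℝ => t⁻¹ • (v + x)) ⁻¹' D
      = (fun x : ι → ℝ => v + x) ⁻¹' ((fun x : ι → ℝ => t⁻¹ • x) ⁻¹' D) := rfl
  rw [h1, measureReal_def, measure_preimage_add,
    Measure.addHaar_preimage_smul volume (inv_ne_zero ht.ne'), ENNReal.toReal_mul,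
    Module.finrank_fintype_fun_eq_card, ← measureReal_def, mul_comm]
  congr 1
  rw [ENNReal.toReal_ofReal (abs_nonneg _), inv_pow, inv_inv, abs_of_pos (pow_pos ht _)]

/-- **Counting theorem, scaled and shifted.** -/
theorem lc_count_scaled (D : Set (ι → ℝ)) (hDm : MeasurableSet D) (hDb : IsBounded D)
    {t : ℝ} (ht : 0 < t) (v : ι → ℝ) {R : ℝ} (hR : 0 ≤ R) (P : Finset (ι → ℝ))
    (hP : ∀ x ∈ frontier D, ∃ y ∈ P, dist x y ≤ R / t) :
    |(Nat.card {a : ι → ℤ // t⁻¹ • (v + lcPt a) ∈ D} : ℝ) - volume.real D * t ^ card ι|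
      ≤ P.card * ((⌈2 * R⌉₊ : ℝ) + 1) ^ card ι := by
  set g : (ι → ℝ) → (ι → ℝ) := fun x => t⁻¹ • (v + x) with hg
  set gs : (ι → ℝ) → (ι → ℝ) := fun y => t • y - v with hgs
  have hgc : Continuous g := by fun_prop
  have hgsc : Continuous gs := by fun_prop
  have hggs : ∀ y, g (gs y) = y := fun y => by
    simp only [hg, hgs, add_sub_cancel, inv_smul_smul₀ ht.ne']
  have hgsg : ∀ x, gs (g x) = x := fun x => by
    simp only [hg, hgs, smul_inv_smul₀ ht.ne', add_sub_cancel_left]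
  let G : (ι → ℝ) ≃ₜ (ι → ℝ) := ⟨⟨g, gs, hgsg, hggs⟩, hgc, hgsc⟩
  have hSm : MeasurableSet (g ⁻¹' D) := hDm.preimage hgc.measurable
  have hSb : IsBounded (g ⁻¹' D) := by
    obtain ⟨M, hM⟩ := hDb.subset_closedBall (0 : ι → ℝ)
    refine (Metric.isBounded_closedBall (x := (0 : ι → ℝ)) (r := t * M + ‖v‖)).subset ?_
    intro x hx
    have h1 := hM hx
    rw [mem_closedBall_zero_iff] at h1 ⊢
    have h2 : ‖v + x‖ ≤ t * M := by
      have : ‖g x‖ = t⁻¹ * ‖v + x‖ := by
        rw [hg, norm_smul, Real.norm_eq_abs, abs_of_pos (inv_pos.mpr ht)]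
      rw [this, inv_mul_le_iff₀ ht] at h1
      exact h1
    calc ‖x‖ = ‖(v + x) - v‖ := by rw [add_sub_cancel_left]
      _ ≤ ‖v + x‖ + ‖v‖ := norm_sub_le _ _
      _ ≤ t * M + ‖v‖ := by linarith
  have hfr : frontier (g ⁻¹' D) = g ⁻¹' frontier D := (G.preimage_frontier D).symm
  have hnet : ∀ x ∈ frontier (g ⁻¹' D), ∃ y ∈ P.image gs, dist x y ≤ R := by
    intro x hx
    rw [hfr] at hx
    obtain ⟨y, hyP, hxy⟩ := hP (g x) hx
    refine ⟨gs y, Finset.mem_image_of_mem gs hyP, ?_⟩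
    have : dist x (gs y) = t * dist (g x) y := by
      conv_lhs => rw [← hgsg x]
      rw [hgs, dist_eq_norm, dist_eq_norm]
      simp only [sub_sub_sub_cancel_right, ← smul_sub, norm_smul, Real.norm_eq_abs,
        abs_of_pos ht]
    rw [this]
    calc t * dist (g x) y ≤ t * (R / t) := by gcongr
      _ = R := by field_simp
  have key := lc_count_sub_volume_le_net (g ⁻¹' D) hSm hSb R hR (P.image gs) hnet
  rw [lc_volume_preimage_scale D ht v] at key
  refine key.trans ?_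
  have hc : ((P.image gs).card : ℝ) ≤ P.card := by exact_mod_cast Finset.card_image_le
  gcongr


/-- `F` admits, for every scale `t ≥ 1`, a finite `R/t`-net (for the sup-distance) having at most
`C₀ * t ^ m` points. -/
def lcNets (F : Set (ι → ℝ)) (m : ℕ) (C₀ R : ℝ) : Prop :=
  ∀ t : ℝ, 1 ≤ t → ∃ P : Finset (ι → ℝ), (P.card : ℝ) ≤ C₀ * t ^ m ∧
    ∀ x ∈ F, ∃ y ∈ P, dist x y ≤ R / t

theorem lcNets.mono {F F' : Set (ι → ℝ)} {m m' : ℕ} {C₀ C₀' R R' : ℝ} (h : lcNets F m C₀ R)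
    (hF : F' ⊆ F) (hm : m ≤ m') (hC : C₀ ≤ C₀') (hC0 : 0 ≤ C₀) (hR : R ≤ R') :
    lcNets F' m' C₀' R' := by
  intro t ht
  obtain ⟨P, hPc, hP⟩ := h t ht
  refine ⟨P, hPc.trans ?_, fun x hx => ?_⟩
  · have : t ^ m ≤ t ^ m' := pow_le_pow_right₀ ht hm
    have h0 : (0 : ℝ) ≤ t ^ m := by positivity
    nlinarith [mul_le_mul hC this h0 (hC0.trans hC)]
  · obtain ⟨y, hy, hxy⟩ := hP x (hF hx)
    refine ⟨y, hy, hxy.trans ?_⟩
    have : (0 : ℝ) < t := by linarith
    gcongr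

theorem lcNets.union {F F' : Set (ι → ℝ)} {m : ℕ} {C₀ C₀' R : ℝ} (h : lcNets F m C₀ R)
    (h' : lcNets F' m C₀' R) : lcNets (F ∪ F') m (C₀ + C₀') R := by
  intro t ht
  obtain ⟨P, hPc, hP⟩ := h t ht
  obtain ⟨P', hPc', hP'⟩ := h' t ht
  refine ⟨P ∪ P', ?_, fun x hx => ?_⟩
  · have : ((P ∪ P').card : ℝ) ≤ P.card + P'.card := by exact_mod_cast Finset.card_union_le P P'
    rw [add_mul]
    linarith
  · rcases hx with hx | hx
    · obtain ⟨y, hy, hxy⟩ := hP x hx
      exact ⟨y, Finset.mem_union_left _ hy, hxy⟩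
    · obtain ⟨y, hy, hxy⟩ := hP' x hx
      exact ⟨y, Finset.mem_union_right _ hy, hxy⟩

theorem lcNets_empty (m : ℕ) (R : ℝ) : lcNets (∅ : Set (ι → ℝ)) m 0 R := by
  intro t _
  exact ⟨∅, by simp, fun x hx => absurd hx (Set.notMem_empty x)⟩

theorem lcNets_iUnion_fin {J : ℕ} (F : Fin J → Set (ι → ℝ)) {m : ℕ} {C₀ R : ℝ}
    (h : ∀ k, lcNets (F k) m C₀ R) : lcNets (⋃ k, F k) m (J * C₀) R := by
  induction J with
  | zero =>
    have : (⋃ k, F k) = ∅ := by
      ext x
      simp only [mem_iUnion, mem_empty_iff_false, iff_false, not_exists]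
      exact fun k => k.elim0
    rw [this]
    simpa using lcNets_empty m R
  | succ J ih =>
    have hU : (⋃ k, F k) = (⋃ k : Fin J, F k.castSucc) ∪ F (Fin.last J) := by
      ext x
      simp only [mem_iUnion, mem_union]
      constructor
      · rintro ⟨k, hk⟩
        refine Fin.lastCases ?_ (fun k' => ?_) k hk
        · exact fun h => Or.inr h
        · exact fun h => Or.inl ⟨k', h⟩
      · rintro (⟨k, hk⟩ | h)
        · exact ⟨_, hk⟩
        · exact ⟨_, h⟩
    rw [hU]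
    have := (ih (fun k => F k.castSucc) fun k => h k.castSucc).union (h (Fin.last J))
    convert this using 1
    push_cast
    ring

/-- Lipschitz images of unit cubes have nets. -/
theorem lcNets_lipschitz_image {κ : Type*} [Fintype κ] (φ : (κ → ℝ) → (ι → ℝ)) (L : NNReal)
    (hφ : LipschitzOnWith L φ (Icc 0 1)) :
    lcNets (φ '' Icc 0 1) (card κ) (3 ^ card κ) L := by
  intro t ht
  have ht0 : (0 : ℝ) < t := by linarith
  set n : ℕ := ⌈t⌉₊ with hn
  have hn1 : 1 ≤ n := Nat.one_le_iff_ne_zero.mpr (by rw [hn]; exact (Nat.ceil_pos.mpr ht0).ne')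
  have hnt : t ≤ n := Nat.le_ceil t
  have hn0 : (0 : ℝ) < n := by exact_mod_cast hn1
  have hnlt : (n : ℝ) < t + 1 := Nat.ceil_lt_add_one ht0.le
  let pt : (κ → ℕ) → (κ → ℝ) := fun j i => (j i : ℝ) / n
  let Grid : Finset (κ → ℕ) := Fintype.piFinset fun _ => Finset.range (n + 1)
  refine ⟨Grid.image fun j => φ (pt j), ?_, ?_⟩
  · have h1 : ((Grid.image fun j => φ (pt j)).card : ℝ) ≤ Grid.card := by
      exact_mod_cast Finset.card_image_le
    have h2 : Grid.card = (n + 1) ^ card κ := by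
      simp [Grid, Fintype.card_piFinset]
    rw [h2] at h1
    refine h1.trans ?_
    rw [← mul_pow]
    push_cast
    gcongr
    linarith
  · rintro x ⟨u, hu, rfl⟩
    rw [mem_Icc] at hu
    let j : κ → ℕ := fun i => ⌊u i * n⌋₊
    have hj0 : ∀ i, 0 ≤ u i * n := fun i => mul_nonneg (hu.1 i) hn0.le
    have hjn : ∀ i, j i ≤ n := fun i => by
      have : u i * n ≤ n := by
        have := hu.2 i
        simp only [Pi.one_apply] at this
        nlinarith
      exact Nat.floor_le_of_le this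
    have hjG : j ∈ Grid := by
      simp only [Grid, Fintype.mem_piFinset, Finset.mem_range]
      exact fun i => Nat.lt_succ_of_le (hjn i)
    have hptI : pt j ∈ Icc (0 : κ → ℝ) 1 := by
      rw [mem_Icc]
      constructor
      · intro i
        simp only [pt, Pi.zero_apply]
        positivity
      · intro i
        simp only [pt, Pi.one_apply]
        rw [div_le_one hn0]
        exact_mod_cast hjn i
    have hdist : dist u (pt j) ≤ 1 / n := by
      rw [dist_pi_le_iff (by positivity)]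
      intro i
      rw [Real.dist_eq]
      have h1 : (j i : ℝ) ≤ u i * n := Nat.floor_le (hj0 i)
      have h2 : u i * n < j i + 1 := Nat.lt_floor_add_one _
      have h3 : u i - pt j i = (u i * n - j i) / n := by
        simp only [pt]
        field_simp
      rw [h3, abs_of_nonneg (div_nonneg (by linarith) hn0.le)]
      gcongr
      linarith
    refine ⟨φ (pt j), Finset.mem_image_of_mem _ hjG, ?_⟩
    calc dist (φ u) (φ (pt j)) ≤ L * dist u (pt j) := hφ.dist_le_mul u (mem_Icc.mpr hu) _ hptI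
      _ ≤ L * (1 / n) := by gcongr
      _ ≤ L / t := by
        rw [mul_one_div]
        gcongr


/-- **Lattice point counting with error term.** If the frontier of the bounded measurable set `D`
has `R/t`-nets with at most `C₀ * t ^ (d - 1)` points (`d = card ι`), then for every `t ≥ 1` and
every shift `v`, the number of points of the shifted lattice `v + ℤ^ι` in `t • D` differs from
`vol(D) * t ^ d` by at most `C₀ * (⌈2R⌉₊ + 1) ^ d * t ^ (d - 1)`. -/
theorem lc_count_of_nets (D : Set (ι → ℝ)) (hDm : MeasurableSet D) (hDb : IsBounded D)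
    {C₀ R : ℝ} (hR : 0 ≤ R) (h : lcNets (frontier D) (card ι - 1) C₀ R)
    {t : ℝ} (ht : 1 ≤ t) (v : ι → ℝ) :
    |(Nat.card {a : ι → ℤ // t⁻¹ • (v + lcPt a) ∈ D} : ℝ) - volume.real D * t ^ card ι|
      ≤ C₀ * ((⌈2 * R⌉₊ : ℝ) + 1) ^ card ι * t ^ (card ι - 1) := by
  obtain ⟨P, hPc, hP⟩ := h t ht
  refine (lc_count_scaled D hDm hDb (by linarith) v hR P hP).trans ?_
  have h0 : (0 : ℝ) ≤ ((⌈2 * R⌉₊ : ℝ) + 1) ^ card ι := by positivity
  calc (P.card : ℝ) * ((⌈2 * R⌉₊ : ℝ) + 1) ^ card ι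
      ≤ (C₀ * t ^ (card ι - 1)) * ((⌈2 * R⌉₊ : ℝ) + 1) ^ card ι :=
        mul_le_mul_of_nonneg_right hPc h0
    _ = C₀ * ((⌈2 * R⌉₊ : ℝ) + 1) ^ card ι * t ^ (card ι - 1) := by ring

/-- **Lattice point counting with error term, Lipschitz-parametrizable frontier.** -/
theorem lc_count_of_lipschitz (D : Set (ι → ℝ)) (hDm : MeasurableSet D) (hDb : IsBounded D)
    {κ : Type*} [Fintype κ] (hκ : card κ + 1 ≤ card ι) {J : ℕ}
    (φ : Fin J → (κ → ℝ) → (ι → ℝ)) (L : NNReal)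
    (hφ : ∀ k, LipschitzOnWith L (φ k) (Icc 0 1))
    (hfr : frontier D ⊆ ⋃ k, φ k '' Icc 0 1) {t : ℝ} (ht : 1 ≤ t) (v : ι → ℝ) :
    |(Nat.card {a : ι → ℤ // t⁻¹ • (v + lcPt a) ∈ D} : ℝ) - volume.real D * t ^ card ι|
      ≤ J * 3 ^ card κ * ((⌈2 * (L : ℝ)⌉₊ : ℝ) + 1) ^ card ι * t ^ (card ι - 1) := by
  have h1 : lcNets (⋃ k, φ k '' Icc 0 1) (card κ) (J * 3 ^ card κ) L :=
    lcNets_iUnion_fin _ fun k => lcNets_lipschitz_image (φ k) L (hφ k)
  have h2 : lcNets (frontier D) (card ι - 1) (J * 3 ^ card κ) L :=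
    h1.mono hfr (by omega) le_rfl (by positivity) le_rfl
  exact lc_count_of_nets D hDm hDb L.coe_nonneg h2 ht v


omit [Fintype ι] in
theorem lc_cone_mem_iff {d : ℕ} {X : Set (ι → ℝ)} (hX : ∀ ⦃x⦄ ⦃r : ℝ⦄, x ∈ X → 0 < r → r • x ∈ X)
    {F : (ι → ℝ) → ℝ} (hF : ∀ x ⦃r : ℝ⦄, 0 ≤ r → F (r • x) = r ^ d * F x)
    {t : ℝ} (ht : 0 < t) (y : ι → ℝ) :
    t⁻¹ • y ∈ {x | x ∈ X ∧ F x ≤ 1} ↔ y ∈ X ∧ F y ≤ t ^ d := by
  simp only [Set.mem_ofPred_eq]
  rw [hF y (inv_pos.mpr ht).le, inv_pow, inv_mul_le_iff₀ (pow_pos ht _), mul_one]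
  refine and_congr_left fun _ => ⟨fun h => ?_, fun h => hX h (inv_pos.mpr ht)⟩
  have := hX h ht
  rwa [smul_inv_smul₀ ht.ne'] at this

/-- **Counting in a cone with a homogeneous gauge, with error term** (shifted `ℤ^ι`). -/
theorem lc_count_cone {X : Set (ι → ℝ)} (hX : ∀ ⦃x⦄ ⦃r : ℝ⦄, x ∈ X → 0 < r → r • x ∈ X)
    {F : (ι → ℝ) → ℝ} (hF : ∀ x ⦃r : ℝ⦄, 0 ≤ r → F (r • x) = r ^ card ι * F x)
    (hb : IsBounded {x | x ∈ X ∧ F x ≤ 1}) (hm : MeasurableSet {x | x ∈ X ∧ F x ≤ 1})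
    {C₀ R : ℝ} (hR : 0 ≤ R) (hn : lcNets (frontier {x | x ∈ X ∧ F x ≤ 1}) (card ι - 1) C₀ R)
    {t : ℝ} (ht : 1 ≤ t) (v : ι → ℝ) :
    |(Nat.card {a : ι → ℤ // v + lcPt a ∈ X ∧ F (v + lcPt a) ≤ t ^ card ι} : ℝ)
        - volume.real {x | x ∈ X ∧ F x ≤ 1} * t ^ card ι|
      ≤ C₀ * ((⌈2 * R⌉₊ : ℝ) + 1) ^ card ι * t ^ (card ι - 1) := by
  have ht0 : (0 : ℝ) < t := by linarith
  have key := lc_count_of_nets _ hm hb hR hn ht v
  have hcard : Nat.card {a : ι → ℤ // t⁻¹ • (v + lcPt a) ∈ {x | x ∈ X ∧ F x ≤ 1}}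
      = Nat.card {a : ι → ℤ // v + lcPt a ∈ X ∧ F (v + lcPt a) ≤ t ^ card ι} :=
    Nat.card_congr (Equiv.subtypeEquivRight fun a => lc_cone_mem_iff hX hF ht0 _)
  rwa [hcard] at key

/-- **Counting in a cone with a homogeneous gauge, with error term**, in terms of the bound `c` on
the gauge: the error is `O(c ^ (1 - 1/d))`. -/
theorem lc_count_cone_le [Nonempty ι] {X : Set (ι → ℝ)}
    (hX : ∀ ⦃x⦄ ⦃r : ℝ⦄, x ∈ X → 0 < r → r • x ∈ X)
    {F : (ι → ℝ) → ℝ} (hF : ∀ x ⦃r : ℝ⦄, 0 ≤ r → F (r • x) = r ^ card ι * F x)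
    (hb : IsBounded {x | x ∈ X ∧ F x ≤ 1}) (hm : MeasurableSet {x | x ∈ X ∧ F x ≤ 1})
    {C₀ R : ℝ} (hR : 0 ≤ R) (hn : lcNets (frontier {x | x ∈ X ∧ F x ≤ 1}) (card ι - 1) C₀ R)
    {c : ℝ} (hc : 1 ≤ c) (v : ι → ℝ) :
    |(Nat.card {a : ι → ℤ // v + lcPt a ∈ X ∧ F (v + lcPt a) ≤ c} : ℝ)
        - volume.real {x | x ∈ X ∧ F x ≤ 1} * c|
      ≤ C₀ * ((⌈2 * R⌉₊ : ℝ) + 1) ^ card ι * c ^ (1 - 1 / (card ι : ℝ)) := by
  have hc0 : (0 : ℝ) < c := by linarith
  have hd : (0 : ℝ) < (card ι : ℝ) := by exact_mod_cast Fintype.card_pos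
  set t : ℝ := c ^ (1 / (card ι : ℝ)) with ht
  have ht1 : 1 ≤ t := Real.one_le_rpow hc (by positivity)
  have htd : t ^ card ι = c := by
    rw [ht, ← Real.rpow_natCast, ← Real.rpow_mul hc0.le, one_div, inv_mul_cancel₀ hd.ne',
      Real.rpow_one]
  have htd1 : t ^ (card ι - 1) = c ^ (1 - 1 / (card ι : ℝ)) := by
    rw [ht, ← Real.rpow_natCast, ← Real.rpow_mul hc0.le]
    congr 1
    have : 1 ≤ card ι := Fintype.card_pos
    rw [Nat.cast_sub this, Nat.cast_one]
    field_simp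
  have key := lc_count_cone hX hF hb hm hR hn ht1 v
  rwa [htd, htd1] at key

end Fermat.Agent.S14x
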