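/-
# Counting points of a shifted ℤ-lattice in a cone, with power-saving error term (helper25)

Error-term analogues of Mathlib's `ZLattice.covolume.tendsto_card_le_div''` and
`ZLattice.covolume.tendsto_card_le_div'`, for SHIFTED lattices `v + L`, under the hypothesis that
the frontier of `{x ∈ X | F x ≤ 1}` is covered by finitely many Lipschitz images of unit cubes of
dimension `< d`.

* `lz_count_cone''` : general normed space, basis `b` of `L`;
* `lz_count_cone'`  : inner product space, main term `vol / covolume L * c`,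
  error `≤ C * c ^ (1 - 1/d)` uniformly in the shift `v`.
-/
import Fermat.Agent.S14x.LatticeCount

set_option autoImplicit false

open MeasureTheory Set Bornology Fintype Module
open scoped Pointwise Classical

namespace Fermat.Agent.S14x

section General

variable {E : Type*} [NormedAddCommGroup E] [NormedSpace ℝ E] [FiniteDimensional ℝ E]
  [MeasurableSpace E] [BorelSpace E]
variable {L : Submodule ℤ E} [DiscreteTopology L] [IsZLattice ℝ L]
variable {ι : Type*} [Fintype ι] (b : Basis ι ℤ L)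

omit [MeasurableSpace E] [BorelSpace E] in
/-- membership in the lattice in terms of integrality of coordinates -/
theorem lz_mem_iff (x : E) :
    x ∈ L ↔ ∃ a : ι → ℤ, (b.ofZLatticeBasis ℝ L).equivFun x = lcPt a := by
  conv_lhs => rw [← b.ofZLatticeBasis_span ℝ, Basis.mem_span_iff_repr_mem]
  constructor
  · intro h
    choose a ha using h
    refine ⟨a, ?_⟩
    funext i
    simp only [Basis.equivFun_apply, lcPt]
    rw [← ha i]
    simp
  · rintro ⟨a, ha⟩ i
    refine ⟨a i, ?_⟩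
    have := congrFun ha i
    simp only [Basis.equivFun_apply, lcPt] at this
    rw [this]
    simp

omit [Fintype ι] in
theorem lcPt_injective : Function.Injective (lcPt : (ι → ℤ) → (ι → ℝ)) := by
  intro a a' h
  funext i
  have := congrFun h i
  simpa [lcPt] using this

/-- **Counting points of a shifted lattice in a cone with homogeneous gauge, with error term**
(general normed space version; the main term is expressed through the coordinates of the basis). -/
theorem lz_count_cone'' [Nonempty ι] {X : Set E}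
    (hX : ∀ ⦃x⦄ ⦃r : ℝ⦄, x ∈ X → 0 < r → r • x ∈ X)
    {F : E → ℝ} (hF : ∀ x ⦃r : ℝ⦄, 0 ≤ r → F (r • x) = r ^ card ι * F x)
    (hb : IsBounded {x | x ∈ X ∧ F x ≤ 1}) (hm : MeasurableSet {x | x ∈ X ∧ F x ≤ 1})
    {κ : Type*} [Fintype κ] (hκ : card κ + 1 ≤ card ι) {J : ℕ}
    (φ : Fin J → (κ → ℝ) → E) (Lip : NNReal) (hφ : ∀ k, LipschitzOnWith Lip (φ k) (Icc 0 1))
    (hfr : frontier {x | x ∈ X ∧ F x ≤ 1} ⊆ ⋃ k, φ k '' Icc 0 1) :
    ∃ C : ℝ, ∀ c : ℝ, 1 ≤ c → ∀ v : E,
      |(Nat.card {x : E // (x ∈ X ∧ F x ≤ c) ∧ x - v ∈ L} : ℝ)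
        - volume.real ((b.ofZLatticeBasis ℝ L).equivFun '' {x | x ∈ X ∧ F x ≤ 1}) * c|
      ≤ C * c ^ (1 - 1 / (card ι : ℝ)) := by
  set e : E ≃L[ℝ] (ι → ℝ) := (b.ofZLatticeBasis ℝ L).equivFunL with he
  have hee : ∀ x, e x = (b.ofZLatticeBasis ℝ L).equivFun x := fun _ => rfl
  set X' : Set (ι → ℝ) := e.symm ⁻¹' X with hX'def
  set F' : (ι → ℝ) → ℝ := fun y => F (e.symm y) with hF'def
  have hX' : ∀ ⦃x : ι → ℝ⦄ ⦃r : ℝ⦄, x ∈ X' → 0 < r → r • x ∈ X' := by
    intro x r hx hr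
    simp only [hX'def, mem_preimage, map_smul] at hx ⊢
    exact hX hx hr
  have hF' : ∀ (x : ι → ℝ) ⦃r : ℝ⦄, 0 ≤ r → F' (r • x) = r ^ card ι * F' x := by
    intro x r hr
    simp only [hF'def, map_smul]
    exact hF _ hr
  have hD' : {y | y ∈ X' ∧ F' y ≤ 1} = e.symm ⁻¹' {x | x ∈ X ∧ F x ≤ 1} := rfl
  have hD'' : {y | y ∈ X' ∧ F' y ≤ 1}
      = (b.ofZLatticeBasis ℝ L).equivFun '' {x | x ∈ X ∧ F x ≤ 1} := by
    rw [hD', ← e.image_eq_preimage_symm]
    rfl
  have hb' : IsBounded {y | y ∈ X' ∧ F' y ≤ 1} := by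
    rw [hD', ← e.image_eq_preimage_symm]
    exact e.lipschitz.isBounded_image hb
  have hm' : MeasurableSet {y | y ∈ X' ∧ F' y ≤ 1} := by
    rw [hD']
    exact hm.preimage e.symm.continuous.measurable
  have hfr' : frontier {y | y ∈ X' ∧ F' y ≤ 1} ⊆ ⋃ k, (fun u => e (φ k u)) '' Icc 0 1 := by
    rw [hD', ← e.symm.coe_toHomeomorph, ← Homeomorph.preimage_frontier]
    intro y hy
    have := hfr hy
    simp only [mem_iUnion, mem_image] at this ⊢
    obtain ⟨k, u, hu, huy⟩ := this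
    refine ⟨k, u, hu, ?_⟩
    rw [huy]
    exact e.apply_symm_apply y
  have hφ' : ∀ k, LipschitzOnWith (‖(e : E →L[ℝ] (ι → ℝ))‖₊ * Lip) (fun u => e (φ k u))
      (Icc 0 1) := fun k => e.lipschitz.comp_lipschitzOnWith (hφ k)
  have h1 : lcNets (⋃ k, (fun u => e (φ k u)) '' Icc 0 1) (card κ) (J * 3 ^ card κ)
      ((‖(e : E →L[ℝ] (ι → ℝ))‖₊ * Lip : NNReal) : ℝ) :=
    lcNets_iUnion_fin _ fun k => lcNets_lipschitz_image _ _ (hφ' k)
  have h2 : lcNets (frontier {y | y ∈ X' ∧ F' y ≤ 1}) (card ι - 1) (J * 3 ^ card κ)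
      ((‖(e : E →L[ℝ] (ι → ℝ))‖₊ * Lip : NNReal) : ℝ) :=
    h1.mono hfr' (by omega) le_rfl (by positivity) le_rfl
  refine ⟨J * 3 ^ card κ *
    ((⌈2 * ((‖(e : E →L[ℝ] (ι → ℝ))‖₊ * Lip : NNReal) : ℝ)⌉₊ : ℝ) + 1) ^ card ι, ?_⟩
  intro c hc v
  have key := lc_count_cone_le hX' hF' hb' hm' (NNReal.coe_nonneg _) h2 hc (e v)
  rw [hD''] at key
  have hcard : Nat.card {x : E // (x ∈ X ∧ F x ≤ c) ∧ x - v ∈ L}
      = Nat.card {a : ι → ℤ // e v + lcPt a ∈ X' ∧ F' (e v + lcPt a) ≤ c} := by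
    symm
    refine Nat.card_congr (Equiv.ofBijective
      (fun a => ⟨e.symm (e v + lcPt a.1), ⟨a.2, ?_⟩⟩) ⟨?_, ?_⟩)
    · rw [(lz_mem_iff b _)]
      refine ⟨a.1, ?_⟩
      rw [← hee, map_sub, e.apply_symm_apply, add_sub_cancel_left]
    · intro a a' h
      have h' := congrArg Subtype.val h
      simp only at h'
      exact Subtype.ext (lcPt_injective (add_left_cancel (e.symm.injective h')))
    · rintro ⟨x, hx1, hx2⟩
      obtain ⟨a, ha⟩ := (lz_mem_iff b _).mp hx2
      rw [← hee, map_sub] at ha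
      have hx : e v + lcPt a = e x := by rw [← ha]; abel
      refine ⟨⟨a, ?_⟩, ?_⟩
      · simp only [hX'def, hF'def, mem_preimage, hx, e.symm_apply_apply]
        exact hx1
      · apply Subtype.ext
        simp only [hx, e.symm_apply_apply]
  rw [hcard]
  exact key

end General


section InnerProductSpace

variable {E : Type*} [NormedAddCommGroup E] [InnerProductSpace ℝ E] [FiniteDimensional ℝ E]
  [MeasurableSpace E] [BorelSpace E]
variable (L : Submodule ℤ E) [DiscreteTopology L] [IsZLattice ℝ L]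

/-- **Counting points of a shifted lattice `v + L` in a cone with homogeneous gauge, with a
power-saving error term**, inner product space version (error-term analogue of Mathlib's
`ZLattice.covolume.tendsto_card_le_div'`). -/
theorem lz_count_cone' [Nontrivial E] {X : Set E}
    (hX : ∀ ⦃x⦄ ⦃r : ℝ⦄, x ∈ X → 0 < r → r • x ∈ X)
    {F : E → ℝ} (hF : ∀ x ⦃r : ℝ⦄, 0 ≤ r → F (r • x) = r ^ finrank ℝ E * F x)
    (hb : IsBounded {x | x ∈ X ∧ F x ≤ 1}) (hm : MeasurableSet {x | x ∈ X ∧ F x ≤ 1})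
    {κ : Type*} [Fintype κ] (hκ : card κ + 1 ≤ finrank ℝ E) {J : ℕ}
    (φ : Fin J → (κ → ℝ) → E) (Lip : NNReal) (hφ : ∀ k, LipschitzOnWith Lip (φ k) (Icc 0 1))
    (hfr : frontier {x | x ∈ X ∧ F x ≤ 1} ⊆ ⋃ k, φ k '' Icc 0 1) :
    ∃ C : ℝ, ∀ c : ℝ, 1 ≤ c → ∀ v : E,
      |(Nat.card {x : E // (x ∈ X ∧ F x ≤ c) ∧ x - v ∈ L} : ℝ)
        - volume.real {x | x ∈ X ∧ F x ≤ 1} / ZLattice.covolume L * c|
      ≤ C * c ^ (1 - 1 / (finrank ℝ E : ℝ)) := by
  let b := Module.Free.chooseBasis ℤ L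
  have hcard : card (Module.Free.ChooseBasisIndex ℤ L) = finrank ℝ E := by
    rw [← finrank_eq_card_chooseBasisIndex, ZLattice.rank ℝ L]
  have : Nontrivial L := nontrivial_of_finrank_pos <| (ZLattice.rank ℝ L).symm ▸ finrank_pos
  have hne : Nonempty (Module.Free.ChooseBasisIndex ℤ L) := inferInstance
  have hvol : volume.real ((b.ofZLatticeBasis ℝ L).equivFun '' {x | x ∈ X ∧ F x ≤ 1})
      = volume.real {x | x ∈ X ∧ F x ≤ 1} / ZLattice.covolume L := by
    simp only [measureReal_def]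
    rw [ZLattice.volume_image_eq_volume_div_covolume' L b hm.nullMeasurableSet, ENNReal.toReal_div,
      ENNReal.toReal_ofReal (ZLattice.covolume_pos L volume).le]
  have key := lz_count_cone'' b hX (by rwa [hcard]) hb hm (by rwa [hcard]) φ Lip hφ hfr
  rw [hcard, hvol] at key
  exact key

end InnerProductSpace

end Fermat.Agent.S14x
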