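/-
# FI-B: the frontier of `normLeOne K` is Lipschitz-parametrizable; counting with error (helper25)

* `fb_faces` : the image of the boundary of a unit cube under a Lipschitz map is covered by the
  Lipschitz images of its `2 (m+1)` faces (unit cubes of one dimension less);
* `fbPhi` : explicit smooth parametrisation `(s, y, θ) ↦ x` of (a superset of) the closure of
  `normLeOne K` by the unit cube of dimension `[K:ℚ]`;
* `fb_frontier_normLeOne_cover` : the frontier of `normLeOne K` is covered by finitely many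
  Lipschitz images of the unit cube of dimension `[K:ℚ] - 1`;
* `fb_count_fundamentalCone` : for every `ℤ`-lattice `L` of `euclidean.mixedSpace K` there is `C`
  such that for all `c ≥ 1` and all shifts `v`:
  `|#{x ∈ v + L | x ∈ fundamentalCone, norm x ≤ c} - vol(normLeOne K)/covol(L) * c| ≤ C c^(1-1/d)`.
-/
import Fermat.Agent.S14x.LatticeCountZ

set_option autoImplicit false

open Set Fintype MeasureTheory
open scoped Classical

namespace Fermat.Agent.S14x

section CubeFaces

variable {κ : Type*} [Fintype κ] {E : Type*} [PseudoMetricSpace E]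

/-- insertion of the value `a` at coordinate `j`, the other coordinates being read off
`u : Fin m → ℝ` through the equivalence `e`. -/
noncomputable def fbIns {m : ℕ} (j : κ) (e : {k : κ // k ≠ j} ≃ Fin m) (a : ℝ)
    (u : Fin m → ℝ) : κ → ℝ :=
  fun k => if h : k = j then a else u (e ⟨k, h⟩)

theorem fbIns_lipschitz {m : ℕ} (j : κ) (e : {k : κ // k ≠ j} ≃ Fin m) (a : ℝ) :
    LipschitzWith 1 (fbIns j e a) := by
  refine LipschitzWith.of_dist_le_mul fun u u' => ?_
  rw [NNReal.coe_one, one_mul, dist_pi_le_iff dist_nonneg]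
  intro k
  unfold fbIns
  split_ifs with h
  · simp
  · exact dist_le_pi_dist u u' _

omit [Fintype κ] in
theorem fbIns_mem_Icc {m : ℕ} (j : κ) (e : {k : κ // k ≠ j} ≃ Fin m) {a : ℝ}
    (ha : a ∈ Icc (0 : ℝ) 1) {u : Fin m → ℝ} (hu : u ∈ Icc (0 : Fin m → ℝ) 1) :
    fbIns j e a u ∈ Icc (0 : κ → ℝ) 1 := by
  rw [mem_Icc] at hu ⊢
  constructor
  · intro k
    unfold fbIns
    split_ifs with h
    · exact ha.1
    · exact hu.1 _
  · intro k
    unfold fbIns
    split_ifs with h
    · exact ha.2
    · exact hu.2 _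

/-- **Faces of the cube.** If `Φ` is Lipschitz on the unit cube of `κ → ℝ` (`card κ = m + 1`), the
image of the boundary of the cube is covered by `2 (m + 1)` Lipschitz images of the unit cube of
`Fin m → ℝ`. -/
theorem fb_faces {m : ℕ} (hκ : card κ = m + 1) (Φ : (κ → ℝ) → E) (Lip : NNReal)
    (hΦ : LipschitzOnWith Lip Φ (Icc 0 1)) :
    ∃ ψ : κ × Bool → (Fin m → ℝ) → E, (∀ i, LipschitzOnWith Lip (ψ i) (Icc 0 1)) ∧
      ∀ u ∈ Icc (0 : κ → ℝ) 1, (∃ j, u j = 0 ∨ u j = 1) → Φ u ∈ ⋃ i, ψ i '' Icc 0 1 := by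
  have hcard : ∀ j : κ, card {k : κ // k ≠ j} = card (Fin m) := by
    intro j
    rw [Fintype.card_subtype_compl, Fintype.card_subtype_eq, hκ, Fintype.card_fin]
    simp
  let e : ∀ j : κ, {k : κ // k ≠ j} ≃ Fin m := fun j => Fintype.equivOfCardEq (hcard j)
  let val : Bool → ℝ := fun b => if b then 1 else 0
  have hval : ∀ b, val b ∈ Icc (0 : ℝ) 1 := by
    intro b
    cases b <;> simp [val]
  refine ⟨fun i u => Φ (fbIns i.1 (e i.1) (val i.2) u), ?_, ?_⟩
  · intro i
    have h1 : LipschitzOnWith 1 (fbIns i.1 (e i.1) (val i.2)) (Icc 0 1) :=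
      (fbIns_lipschitz i.1 (e i.1) (val i.2)).lipschitzOnWith
    have := hΦ.comp h1 (fun u hu => fbIns_mem_Icc i.1 (e i.1) (hval i.2) hu)
    rw [mul_one] at this
    exact this
  · rintro u hu ⟨j, hj⟩
    have hu' := mem_Icc.mp hu
    rw [mem_iUnion]
    refine ⟨(j, if u j = 1 then true else false), fun k => u ((e j).symm k), ?_, ?_⟩
    · rw [mem_Icc]
      exact ⟨fun k => hu'.1 _, fun k => hu'.2 _⟩
    · show Φ (fbIns j (e j) (val (if u j = 1 then true else false))
        fun k => u ((e j).symm k)) = Φ u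
      congr 1
      funext k
      unfold fbIns
      split_ifs with h h1
      · subst h
        simp [val, h1]
      · subst h
        rcases hj with hj | hj
        · simp [val, hj]
        · exact absurd hj h1
      · simp

end CubeFaces


open NumberField NumberField.InfinitePlace NumberField.mixedEmbedding NumberField.Units
  NumberField.mixedEmbedding.fundamentalCone NumberField.Units.dirichletUnitTheorem
  NumberField.mixedEmbedding.euclidean

variable (K : Type*) [Field K] [NumberField K]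

/-- parameter index type: one coordinate per infinite place (the `w₀`-coordinate is the scale
`s ∈ [0,1]`), plus one angle per complex place. -/
abbrev fbIdx := InfinitePlace K ⊕ {w : InfinitePlace K // IsComplex w}

/-- exponential part: `G_w(y) = exp(∑_{i ≠ w₀} y_i log |η_i|_w)` -/
noncomputable def fbG (y : InfinitePlace K → ℝ) (w : InfinitePlace K) : ℝ :=
  Real.exp (∑ i : {w : InfinitePlace K // w ≠ w₀},
    y i * Real.log (w (fundSystem K (equivFinRank.symm i))))

/-- the parametrisation -/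
noncomputable def fbPhi (ε : {w : InfinitePlace K // IsReal w} → ℝ) (u : fbIdx K → ℝ) :
    mixedSpace K :=
  (fun w => ε w * (u (Sum.inl w₀) * fbG K (fun i => u (Sum.inl i)) w.1),
   fun w => ((u (Sum.inl w₀) * fbG K (fun i => u (Sum.inl i)) w.1 : ℝ) : ℂ) *
      Complex.exp (((2 * Real.pi * u (Sum.inr w) - Real.pi : ℝ) : ℂ) * Complex.I))

theorem fbG_eq (y : InfinitePlace K → ℝ) (w : InfinitePlace K) :
    fbG K y w = expMapBasis (fun i => if i = w₀ then 0 else y i) w := by
  rw [expMapBasis_apply']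
  simp only [if_pos, Real.exp_zero, one_smul]
  unfold fbG
  rw [Real.exp_sum]
  refine Finset.prod_congr rfl fun i _ => ?_
  rw [if_neg i.2, Real.rpow_def_of_pos, mul_comm]
  exact InfinitePlace.pos_iff.mpr (by simp)

theorem fbPhi_contDiff (ε : {w : InfinitePlace K // IsReal w} → ℝ) :
    ContDiff ℝ 1 (fbPhi K ε) := by
  unfold fbPhi fbG
  refine ContDiff.prodMk ?_ ?_
  · rw [contDiff_pi]
    intro w
    fun_prop
  · rw [contDiff_pi]
    intro w
    have hof : ContDiff ℝ 1 (fun x : ℝ => (x : ℂ)) := Complex.ofRealCLM.contDiff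
    refine ContDiff.mul (hof.comp (by fun_prop)) (ContDiff.cexp (ContDiff.mul (hof.comp ?_)
      contDiff_const))
    fun_prop

/-- sign pattern attached to a boolean pattern -/
noncomputable def fbSgn (b : {w : InfinitePlace K // IsReal w} → Bool) :
    {w : InfinitePlace K // IsReal w} → ℝ := fun w => if b w then 1 else -1

theorem fbPhi_zero (ε : {w : InfinitePlace K // IsReal w} → ℝ) : fbPhi K ε 0 = 0 := by
  unfold fbPhi
  ext w <;> simp

theorem fb_mem_image (x : mixedSpace K) (y : realSpace K) (hy : y ∈ closure (paramSet K))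
    (hx : normAtAllPlaces x = expMapBasis y) :
    ∃ b : {w : InfinitePlace K // IsReal w} → Bool, ∃ u ∈ Icc (0 : fbIdx K → ℝ) 1,
      fbPhi K (fbSgn K b) u = x ∧ u (Sum.inl w₀) = Real.exp (y w₀) ∧
        ∀ w, w ≠ w₀ → u (Sum.inl w) = y w := by
  rw [closure_paramSet, Set.mem_univ_pi] at hy
  have hy0 : y w₀ ≤ 0 := by simpa using hy w₀
  have hyw : ∀ w, w ≠ w₀ → y w ∈ Icc (0 : ℝ) 1 := fun w hw => by simpa [hw] using hy w
  set u : fbIdx K → ℝ := Sum.elim (fun w => if w = w₀ then Real.exp (y w₀) else y w)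
    (fun w => (Complex.arg (x.2 w) + Real.pi) / (2 * Real.pi)) with hu
  have hpi : 0 < Real.pi := Real.pi_pos
  have hG : ∀ w : InfinitePlace K,
      u (Sum.inl w₀) * fbG K (fun i => u (Sum.inl i)) w = normAtPlace w x := by
    intro w
    rw [fbG_eq]
    have h1 : (fun i => if i = w₀ then 0 else u (Sum.inl i))
        = (fun i => if i = w₀ then 0 else y i) := by
      funext i
      by_cases hi : i = w₀
      · simp [hi]
      · simp [hu, hi]
    have h2 : u (Sum.inl w₀) = Real.exp (y w₀) := by simp [hu]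
    rw [h1, h2, ← normAtAllPlaces_apply, hx]
    conv_rhs => rw [expMapBasis_apply'']
    simp
  refine ⟨fun w => decide (0 ≤ x.1 w), u, ?_, ?_, by simp [hu], fun w hw => by simp [hu, hw]⟩
  · rw [mem_Icc]
    constructor
    · intro k
      rcases k with w | w
      · simp only [hu, Sum.elim_inl, Pi.zero_apply]
        split_ifs with h
        · exact (Real.exp_pos _).le
        · exact (hyw w h).1
      · simp only [hu, Sum.elim_inr, Pi.zero_apply]
        have := Complex.neg_pi_lt_arg (x.2 w)
        apply div_nonneg <;> linarith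
    · intro k
      rcases k with w | w
      · simp only [hu, Sum.elim_inl, Pi.one_apply]
        split_ifs with h
        · exact Real.exp_le_one_iff.mpr hy0
        · exact (hyw w h).2
      · simp only [hu, Sum.elim_inr, Pi.one_apply]
        have := Complex.arg_le_pi (x.2 w)
        rw [div_le_one (by positivity)]
        linarith
  · unfold fbPhi
    refine Prod.ext ?_ ?_
    · funext w
      simp only
      rw [hG w.1, normAtPlace_apply_of_isReal w.2, Real.norm_eq_abs]
      unfold fbSgn
      by_cases h : 0 ≤ x.1 w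
      · simp [h, abs_of_nonneg h]
      · simp [h, abs_of_neg (not_le.mp h)]
    · funext w
      simp only
      rw [hG w.1, normAtPlace_apply_of_isComplex w.2]
      have h3 : (2 * Real.pi * u (Sum.inr w) - Real.pi : ℝ) = Complex.arg (x.2 w) := by
        simp only [hu, Sum.elim_inr]
        field_simp
        ring
      rw [h3]
      exact Complex.norm_mul_exp_arg_mul_I _

theorem fb_frontier_subset (x : mixedSpace K) (hx : x ∈ frontier (normLeOne K)) :
    ∃ b : {w : InfinitePlace K // IsReal w} → Bool, ∃ u ∈ Icc (0 : fbIdx K → ℝ) 1,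
      (∃ j, u j = 0 ∨ u j = 1) ∧ fbPhi K (fbSgn K b) u = x := by
  have h1 : normAtAllPlaces x ∈ compactSet K := closure_normLeOne_subset K hx.1
  have h2 : normAtAllPlaces x ∉ expMapBasis '' interior (paramSet K) :=
    fun h => hx.2 (subset_interior_normLeOne K h)
  rw [compactSet_eq_union] at h1
  rcases h1 with ⟨y, hy, hxy⟩ | h0
  · obtain ⟨b, u, hu, hΦ, hu0, huw⟩ := fb_mem_image K x y hy hxy.symm
    refine ⟨b, u, hu, ?_, hΦ⟩
    have hyint : y ∉ interior (paramSet K) := fun h => h2 ⟨y, h, hxy⟩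
    rw [interior_paramSet, Set.mem_univ_pi] at hyint
    rw [closure_paramSet, Set.mem_univ_pi] at hy
    simp only [not_forall] at hyint
    obtain ⟨w, hw⟩ := hyint
    have hyw := hy w
    by_cases hw0 : w = w₀
    · subst hw0
      simp only [if_true, mem_Iio, not_lt, mem_Iic] at hw hyw
      refine ⟨Sum.inl w₀, Or.inr ?_⟩
      rw [hu0, le_antisymm hyw hw, Real.exp_zero]
    · simp only [if_neg hw0, mem_Ioo, not_and, not_lt, mem_Icc] at hw hyw
      refine ⟨Sum.inl w, ?_⟩
      rw [huw w hw0]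
      by_cases h : 0 < y w
      · exact Or.inr (le_antisymm hyw.2 (hw h))
      · exact Or.inl (le_antisymm (not_lt.mp h) hyw.1)
  · have hx0 : x = 0 := by
      rw [← forall_normAtPlace_eq_zero_iff]
      intro w
      have := congrFun h0 w
      simpa using this
    refine ⟨fun _ => true, 0, ?_, ⟨Sum.inl w₀, Or.inl rfl⟩, ?_⟩
    · rw [mem_Icc]
      exact ⟨le_rfl, fun _ => zero_le_one⟩
    · rw [fbPhi_zero, hx0]

theorem fbPhi_lipschitzOn (ε : {w : InfinitePlace K // IsReal w} → ℝ) :
    ∃ Lip : NNReal, LipschitzOnWith Lip (fbPhi K ε) (Icc 0 1) :=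
  LocallyLipschitzOn.exists_lipschitzOnWith_of_compact isCompact_Icc
    ((fbPhi_contDiff K ε).locallyLipschitz.locallyLipschitzOn)

theorem fb_card_fbIdx : card (fbIdx K) = (Module.finrank ℚ K - 1) + 1 := by
  have h1 : card (fbIdx K) = Module.finrank ℚ K := by
    rw [Fintype.card_sum, card_eq_nrRealPlaces_add_nrComplexPlaces,
      ← card_add_two_mul_card_eq_rank K]
    ring
  have h2 : 0 < Module.finrank ℚ K := Module.finrank_pos
  omega

/-- **FI-B.** The frontier of `normLeOne K` is covered by finitely many Lipschitz images of the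
unit cube of dimension `[K:ℚ] - 1`. -/
theorem fb_frontier_normLeOne_cover :
    ∃ (J : ℕ) (φ : Fin J → (Fin (Module.finrank ℚ K - 1) → ℝ) → mixedSpace K) (Lip : NNReal),
      (∀ k, LipschitzOnWith Lip (φ k) (Icc 0 1)) ∧
        frontier (normLeOne K) ⊆ ⋃ k, φ k '' Icc 0 1 := by
  choose Lipb hLipb using fun b : {w : InfinitePlace K // IsReal w} → Bool =>
    fbPhi_lipschitzOn K (fbSgn K b)
  set Lip : NNReal := ∑ b, Lipb b with hLip
  have hLip' : ∀ b, LipschitzOnWith Lip (fbPhi K (fbSgn K b)) (Icc 0 1) := fun b =>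
    (hLipb b).weaken (Finset.single_le_sum (f := Lipb) (fun _ _ => zero_le) (Finset.mem_univ b))
  choose ψ hψ1 hψ2 using fun b : {w : InfinitePlace K // IsReal w} → Bool =>
    fb_faces (fb_card_fbIdx K) (fbPhi K (fbSgn K b)) Lip (hLip' b)
  let I := ({w : InfinitePlace K // IsReal w} → Bool) × (fbIdx K × Bool)
  let eI : I ≃ Fin (card I) := Fintype.equivFin I
  refine ⟨card I, fun k => ψ (eI.symm k).1 (eI.symm k).2, Lip, fun k => hψ1 _ _, ?_⟩
  intro x hx
  obtain ⟨b, u, hu, hface, rfl⟩ := fb_frontier_subset K x hx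
  have := hψ2 b u hu hface
  rw [mem_iUnion] at this ⊢
  obtain ⟨i, hi⟩ := this
  refine ⟨eI (b, i), ?_⟩
  simpa using hi

theorem fb_set_eq :
    {x | x ∈ toMixed K ⁻¹' fundamentalCone K ∧ mixedEmbedding.norm (toMixed K x) ≤ 1} =
      toMixed K ⁻¹' normLeOne K := by
  ext x
  simp

theorem fb_frontier_preimage :
    frontier (toMixed K ⁻¹' normLeOne K) = toMixed K ⁻¹' frontier (normLeOne K) := by
  rw [← (toMixed K).coe_toHomeomorph, ← Homeomorph.preimage_frontier]

theorem fb_lip_transfer (J : ℕ) (φ : Fin J → (Fin (Module.finrank ℚ K - 1) → ℝ) → mixedSpace K)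
    (Lip : NNReal) (hφ : ∀ k, LipschitzOnWith Lip (φ k) (Icc 0 1)) :
    ∃ Lip' : NNReal,
      ∀ k, LipschitzOnWith Lip' (fun u => (toMixed K).symm (φ k u)) (Icc 0 1) := by
  obtain ⟨C, hC⟩ : ∃ C : NNReal, LipschitzWith C ((toMixed K).symm) :=
    ⟨_, (toMixed K).symm.lipschitz⟩
  exact ⟨C * Lip, fun k => hC.comp_lipschitzOnWith (hφ k)⟩

theorem fb_cover_transfer (J : ℕ)
    (φ : Fin J → (Fin (Module.finrank ℚ K - 1) → ℝ) → mixedSpace K)
    (hfr : frontier (normLeOne K) ⊆ ⋃ k, φ k '' Icc 0 1) :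
    toMixed K ⁻¹' frontier (normLeOne K) ⊆
      ⋃ k, (fun u => (toMixed K).symm (φ k u)) '' Icc 0 1 := by
  intro x hx
  have := hfr hx
  simp only [mem_iUnion, mem_image] at this ⊢
  obtain ⟨k, u, hu, hux⟩ := this
  refine ⟨k, u, hu, ?_⟩
  rw [hux]
  exact (toMixed K).symm_apply_apply x

theorem fb_frontier_euclidean_cover :
    ∃ (J : ℕ) (φ : Fin J → (Fin (Module.finrank ℚ K - 1) → ℝ) → euclidean.mixedSpace K)
      (Lip : NNReal), (∀ k, LipschitzOnWith Lip (φ k) (Icc 0 1)) ∧
        frontier (toMixed K ⁻¹' normLeOne K) ⊆ ⋃ k, φ k '' Icc 0 1 := by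
  obtain ⟨J, φ, Lip, hφ, hfr⟩ := fb_frontier_normLeOne_cover K
  obtain ⟨Lip', hLip'⟩ := fb_lip_transfer K J φ Lip hφ
  refine ⟨J, fun k u => (toMixed K).symm (φ k u), Lip', hLip', ?_⟩
  rw [fb_frontier_preimage]
  exact fb_cover_transfer K J φ hfr

theorem fb_cone_smul ⦃x : euclidean.mixedSpace K⦄ ⦃r : ℝ⦄
    (hx : x ∈ toMixed K ⁻¹' fundamentalCone K) (hr : 0 < r) :
    r • x ∈ toMixed K ⁻¹' fundamentalCone K := by
  rwa [Set.mem_preimage, map_smul, smul_mem_iff_mem hr.ne']

theorem fb_norm_smul (x : euclidean.mixedSpace K) ⦃r : ℝ⦄ (hr : 0 ≤ r) :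
    mixedEmbedding.norm (toMixed K (r • x)) =
      r ^ Module.finrank ℝ (euclidean.mixedSpace K) * mixedEmbedding.norm (toMixed K x) := by
  rw [map_smul, mixedEmbedding.norm_smul, euclidean.finrank, abs_of_nonneg hr]

theorem fb_bounded : Bornology.IsBounded
    {x | x ∈ toMixed K ⁻¹' fundamentalCone K ∧ mixedEmbedding.norm (toMixed K x) ≤ 1} := by
  rw [fb_set_eq]
  exact (toMixed K).antilipschitz.isBounded_preimage (isBounded_normLeOne K)

theorem fb_measurable : MeasurableSet
    {x | x ∈ toMixed K ⁻¹' fundamentalCone K ∧ mixedEmbedding.norm (toMixed K x) ≤ 1} := by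
  rw [fb_set_eq]
  exact (toMixed K).continuous.measurable (measurableSet_normLeOne K)

theorem fb_volume_eq :
    volume.real {x | x ∈ toMixed K ⁻¹' fundamentalCone K ∧
      mixedEmbedding.norm (toMixed K x) ≤ 1} = volume.real (normLeOne K) := by
  rw [fb_set_eq, measureReal_def, (volumePreserving_toMixed K).measure_preimage
    (measurableSet_normLeOne K).nullMeasurableSet, measureReal_def]

/-- **Counting points of a shifted lattice in the fundamental cone, with power-saving error.** -/
theorem fb_count_fundamentalCone (L : Submodule ℤ (euclidean.mixedSpace K)) [DiscreteTopology L]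
    [IsZLattice ℝ L] :
    ∃ C : ℝ, ∀ c : ℝ, 1 ≤ c → ∀ v : euclidean.mixedSpace K,
      |(Nat.card {x : euclidean.mixedSpace K //
          (x ∈ toMixed K ⁻¹' fundamentalCone K ∧ mixedEmbedding.norm (toMixed K x) ≤ c) ∧
            x - v ∈ L} : ℝ)
        - volume.real (normLeOne K) / ZLattice.covolume L * c|
      ≤ C * c ^ (1 - 1 / (Module.finrank ℚ K : ℝ)) := by
  obtain ⟨J, φ, Lip, hφ, hfr⟩ := fb_frontier_euclidean_cover K
  have hfin : Module.finrank ℝ (euclidean.mixedSpace K) = Module.finrank ℚ K := euclidean.finrank K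
  have hpos : 0 < Module.finrank ℚ K := Module.finrank_pos
  have hκ : card (Fin (Module.finrank ℚ K - 1)) + 1 ≤
      Module.finrank ℝ (euclidean.mixedSpace K) := by
    rw [hfin, Fintype.card_fin]; omega
  rw [← fb_set_eq] at hfr
  obtain ⟨C, hC⟩ := lz_count_cone' L (fb_cone_smul K) (fb_norm_smul K) (fb_bounded K)
    (fb_measurable K) hκ φ Lip hφ hfr
  refine ⟨C, fun c hc v => ?_⟩
  have := hC c hc v
  rw [fb_volume_eq, hfin] at this
  exact this

end Fermat.Agent.S14x
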