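/-
S14 / FI-G, rows FG-L4 + FG-MUL for the REAL coefficient function (helper16).  Prefix `g1_`.
* `g1_Gr_eq_fgmG` : `g1_Gr F m H χ = fgmG m fd_dv H χ` (helper30's generic formula at `dv := fd_dv`),
  hence `g1_Gr_top`, `g1_Gr_bot`, `g1_Gr_mul`, `g1_Gr_norm_le`, `g1_Gr_prime`;
* `g1_L_le_zeta` (FG-L4, final): `‖L(s,χ)‖ ≤ ‖ζ_F(s)‖` for real `s > 1`, any `χ`;
* `g1_L_eq_tsum` : `L(s,χ) = ∑_{I ≠ ⊥} g_χ(I) N I ^ (-s)`.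
-/
import Fermat.Agent.S14x.FIGCoeffFinal
import Fermat.Agent.S14x.FIGMul
import Fermat.Agent.S14x.FIGLZeta91
import Fermat.Agent.S14x.FIEulerBridge2

set_option autoImplicit false

namespace Fermat.Agent.S14x

open NumberField IsDedekindDomain

section L4

variable (F : Type*) [Field F] [NumberField F] (m : ℕ) [NeZero m] (H : AddSubgroup (Dv F))

theorem g1_Gr_eq_fgmG (χ : AddChar (Dv F ⧸ H) ℂ) : g1_Gr F m H χ = fgmG m fd_dv H χ := by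
  classical
  funext I
  rw [g1_Gr_apply]
  rfl

theorem g1_Gr_bot (χ : AddChar (Dv F ⧸ H) ℂ) : g1_Gr F m H χ ⊥ = 0 := by
  rw [g1_Gr_eq_fgmG]; exact fgm_G_bot m fd_dv H χ

theorem g1_Gr_top (χ : AddChar (Dv F ⧸ H) ℂ) : g1_Gr F m H χ ⊤ = 1 := by
  rw [g1_Gr_eq_fgmG]; exact fgm_G_top m fd_dv H fd_dv_top χ

theorem g1_Gr_mul (χ : AddChar (Dv F ⧸ H) ℂ) (I J : Ideal (𝓞 F)) :
    g1_Gr F m H χ (I * J) = g1_Gr F m H χ I * g1_Gr F m H χ J := by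
  rw [g1_Gr_eq_fgmG]
  exact fgm_G_mul m fd_dv H (fun I J hI hJ => fd_dv_mul hI hJ) fd_dv_nonneg χ I J

theorem g1_Gr_norm_le [Finite (Dv F ⧸ H)] (χ : AddChar (Dv F ⧸ H) ℂ) (I : Ideal (𝓞 F)) :
    ‖g1_Gr F m H χ I‖ ≤ 1 :=
  g1_G_norm_le _ fd_dv H χ I

theorem g1_Gr_prime (χ : AddChar (Dv F ⧸ H) ℂ) (v : Pl F) :
    g1_Gr F m H χ v.asIdeal =
      open Classical in
      if (m : 𝓞 F) ∈ v.asIdeal then 0 else χ (QuotientAddGroup.mk (Finsupp.single v 1)) := by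
  rw [g1_Gr_eq_fgmG]; exact fgm_G_prime m fd_dv H fd_dv_asIdeal χ v

/-- `L(s,χ)` as a sum over nonzero ideals. -/
theorem g1_L_eq_tsum [Finite (Dv F ⧸ H)] (χ : AddChar (Dv F ⧸ H) ℂ) (s : ℂ) (hs : 1 < s.re) :
    ∑' I : {I : Ideal (𝓞 F) // I ≠ ⊥}, g1_Gr F m H χ I.1 * ((Ideal.absNorm I.1 : ℂ)) ^ (-s) =
      LSeries (g1_Ar F m H χ) s :=
  feb2_tsum_eq_LSeries F (g1_Gr F m H χ) (g1_Gr_norm_le F m H χ) s hs

/-- **FG-L4, final**: any `L(s,χ)` is dominated by `ζ_F(s)` for real `s > 1`. -/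
theorem g1_L_le_zeta [Finite (Dv F ⧸ H)] (χ : AddChar (Dv F ⧸ H) ℂ) (s : ℝ) (hs : 1 < s) :
    ‖LSeries (g1_Ar F m H χ) (s : ℂ)‖ ≤ ‖dedekindZeta F (s : ℂ)‖ :=
  gl91_L_le_zeta F (g1_Gr F m H χ) (g1_Gr_norm_le F m H χ) s
    (feb2_summable_absNorm_rpow F s hs)
    (feb2_tsum_eq_LSeries F (g1_Gr F m H χ) (g1_Gr_norm_le F m H χ) (s : ℂ) (by simpa using hs))
    (feb2_tsum_absNorm_eq_dedekindZeta F (s : ℂ) (by simpa using hs))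

end L4

end Fermat.Agent.S14x
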