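/-
S14 / FI-G abstract real-analysis core (helper30).  Mathlib only.

If `c/(s-1) ≤ ZM s`, `0 < ZF s ≤ C/(s-1)` and `ZM s ≤ A * (ZF s * B) ^ (p/h)` for all `s ∈ (1,2]`
(with `c, A, B, C > 0`, `h, p ≥ 1`), then `h ≤ p`.
(Used with `ZM = ζ_M`, `ZF = ζ_F`, `B = bound ^ (h-1)` of the non-trivial `L`-functions.)
-/
import Mathlib

set_option autoImplicit false

namespace Fermat.Agent.S14x

open Filter Topology

/-- small powers of small numbers are small: for `ε > 0`, `K ≥ 0`, `c > 0` there is `t ∈ (0,1]`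
with `K * t ^ ε < c`. -/
theorem fgc_exists_small {ε K c : ℝ} (hε : 0 < ε) (hc : 0 < c) :
    ∃ t : ℝ, 0 < t ∧ t ≤ 1 ∧ K * t ^ ε < c := by
  have h1 : Tendsto (fun t : ℝ => K * t ^ ε) (𝓝[>] 0) (𝓝 (K * 0)) := by
    have h0 : Tendsto (fun t : ℝ => t ^ ε) (𝓝 0) (𝓝 ((0:ℝ) ^ ε)) :=
      (Real.continuousAt_rpow_const 0 ε (Or.inr hε.le)).tendsto
    rw [Real.zero_rpow hε.ne'] at h0
    exact (h0.mono_left nhdsWithin_le_nhds).const_mul K
  rw [mul_zero] at h1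
  have h2 : ∀ᶠ t in 𝓝[>] (0:ℝ), K * t ^ ε < c := h1.eventually (gt_mem_nhds hc)
  have h3 : ∀ᶠ t in 𝓝[>] (0:ℝ), t ≤ 1 := by
    have : ∀ᶠ t in 𝓝 (0:ℝ), t ≤ 1 := eventually_le_nhds (by norm_num)
    exact this.filter_mono nhdsWithin_le_nhds
  have h4 : ∀ᶠ t in 𝓝[>] (0:ℝ), 0 < t := eventually_mem_nhdsWithin
  obtain ⟨t, ht2, ht3, ht4⟩ := (h2.and (h3.and h4)).exists
  exact ⟨t, ht4, ht3, ht2⟩

/-- the comparison lemma. -/
theorem fgc_le_of_bounds {h p : ℕ} (hh : 0 < h) (ZM ZF : ℝ → ℝ) {c C A B : ℝ}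
    (hc : 0 < c) (hC : 0 < C) (hA : 0 < A) (hB : 0 < B)
    (hM : ∀ s : ℝ, 1 < s → s ≤ 2 → c / (s - 1) ≤ ZM s)
    (hF0 : ∀ s : ℝ, 1 < s → s ≤ 2 → 0 < ZF s)
    (hF : ∀ s : ℝ, 1 < s → s ≤ 2 → ZF s ≤ C / (s - 1))
    (hcmp : ∀ s : ℝ, 1 < s → s ≤ 2 → ZM s ≤ A * (ZF s * B) ^ ((p : ℝ) / (h : ℝ))) :
    h ≤ p := by
  by_contra hlt'
  have hlt : p < h := Nat.lt_of_not_le hlt'
  have hhR : (0 : ℝ) < h := by exact_mod_cast hh
  set θ : ℝ := (p : ℝ) / (h : ℝ) with hθ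
  have hθ0 : 0 ≤ θ := div_nonneg (Nat.cast_nonneg _) hhR.le
  have hθ1 : θ < 1 := by
    rw [hθ, div_lt_one hhR]
    exact_mod_cast hlt
  set ε : ℝ := 1 - θ with hε
  have hε0 : 0 < ε := by linarith
  -- K := A * (C * B) ^ θ
  set K : ℝ := A * (C * B) ^ θ with hK
  obtain ⟨t, ht0, ht1, htc⟩ := fgc_exists_small (K := K) hε0 hc
  have hs1 : 1 < 1 + t := by linarith
  have hs2 : 1 + t ≤ 2 := by linarith
  have e1 := hM (1 + t) hs1 hs2
  have e2 := hcmp (1 + t) hs1 hs2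
  have e3 := hF (1 + t) hs1 hs2
  have e4 := hF0 (1 + t) hs1 hs2
  have hst : 1 + t - 1 = t := by ring
  rw [hst] at e1 e3
  -- (ZF * B)^θ ≤ (C/t * B)^θ
  have e5 : (ZF (1 + t) * B) ^ θ ≤ (C / t * B) ^ θ := by
    apply Real.rpow_le_rpow (by positivity) _ hθ0
    exact mul_le_mul_of_nonneg_right e3 hB.le
  have e6 : (C / t * B) ^ θ = (C * B) ^ θ * t ^ (-θ) := by
    have : C / t * B = (C * B) * t⁻¹ := by field_simp
    rw [this, Real.mul_rpow (by positivity) (by positivity), Real.inv_rpow ht0.le,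
      Real.rpow_neg ht0.le]
  have e7 : c / t ≤ K * t ^ (-θ) := by
    calc c / t ≤ ZM (1 + t) := e1
      _ ≤ A * (ZF (1 + t) * B) ^ θ := e2
      _ ≤ A * ((C * B) ^ θ * t ^ (-θ)) := by
          rw [← e6]; exact mul_le_mul_of_nonneg_left e5 hA.le
      _ = K * t ^ (-θ) := by rw [hK]; ring
  -- multiply by t : c ≤ K * t^(1-θ)
  have e8 : c ≤ K * t ^ ε := by
    have h1 : c = c / t * t := by field_simp
    have h2 : t ^ ε = t ^ (-θ) * t := by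
      rw [hε, show (1 : ℝ) - θ = -θ + 1 by ring, Real.rpow_add ht0, Real.rpow_one]
    rw [h1, h2, ← mul_assoc]
    exact mul_le_mul_of_nonneg_right e7 ht0.le
  linarith

end Fermat.Agent.S14x
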