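/-
S14 project, FI-G2 abstract core (helper72; prefix `g2b_`; Mathlib only).

EULER-LOG IDENTITY for the characters of a finite abelian group `Q`.
Data: an index type `ι` ("primes"), classes `c : ι → Q`, sizes `x : ι → ℝ` (`0 ≤ x v < 1`, summable;
in the application `x v = N v ^ (-s)` for `v ∤ m`, `0` otherwise).  Then
  `∏_χ exp (∑_v -log (1 - χ (c v) x v)) = exp (h · G)`,   `h = #Q`,
  `G = ∑_v ∑_{n ≥ 1, n • c v = 0} x v ^ n / n  ≥  ∑_{v, c v = 0} x v`.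
Together with `fe_tsum_eq_cexp` (FIEuler) this gives `∏_χ L(s,χ) = exp (h G(s))` and
`‖∏_χ L(s,χ)‖ ≥ exp (h ∑_{v split, v ∤ m} N v ^ (-s))`.
-/
import Mathlib

set_option autoImplicit false
set_option linter.unusedSectionVars false

namespace Fermat.Agent.S14x

open Complex

noncomputable section

variable {Q : Type*} [AddCommGroup Q] [Fintype Q] [DecidableEq Q]

/-- `∑_{n ≥ 1, n • c = 0} x ^ n / n` (the `n = 0` term is `1 / 0 = 0`) -/
def g2bG (c : Q) (x : ℝ) : ℝ := ∑' n : ℕ, if n • c = 0 then x ^ n / n else 0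

theorem g2b_term_nonneg (c : Q) {x : ℝ} (hx0 : 0 ≤ x) (n : ℕ) :
    0 ≤ (if n • c = 0 then x ^ n / n else 0 : ℝ) := by
  split_ifs
  · positivity
  · exact le_rfl

theorem g2b_summable (c : Q) {x : ℝ} (hx0 : 0 ≤ x) (hx1 : x < 1) :
    Summable (fun n : ℕ => (if n • c = 0 then x ^ n / n else 0 : ℝ)) := by
  refine Summable.of_nonneg_of_le (g2b_term_nonneg c hx0) (fun n => ?_)
    (summable_geometric_of_lt_one hx0 hx1)
  split_ifs
  · rcases Nat.eq_zero_or_pos n with rfl | hn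
    · simp
    · have h1 : (1 : ℝ) ≤ n := by exact_mod_cast hn
      exact div_le_self (pow_nonneg hx0 n) h1
  · exact pow_nonneg hx0 n

theorem g2b_hasSum (c : Q) {x : ℝ} (hx0 : 0 ≤ x) (hx1 : x < 1) :
    HasSum (fun n : ℕ => (if n • c = 0 then x ^ n / n else 0 : ℝ)) (g2bG c x) :=
  (g2b_summable c hx0 hx1).hasSum

theorem g2bG_nonneg (c : Q) {x : ℝ} (hx0 : 0 ≤ x) : 0 ≤ g2bG c x :=
  tsum_nonneg (g2b_term_nonneg c hx0)

/-- the `n = 1` term -/
theorem g2b_le_G {c : Q} (hc : c = 0) {x : ℝ} (hx0 : 0 ≤ x) (hx1 : x < 1) : x ≤ g2bG c x := by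
  have h := (g2b_summable c hx0 hx1).le_tsum 1 (fun n _ => g2b_term_nonneg c hx0 n)
  have h1 : (if (1 : ℕ) • c = 0 then x ^ (1 : ℕ) / ((1 : ℕ) : ℝ) else 0 : ℝ) = x := by
    simp [hc]
  rw [h1] at h
  exact h

theorem g2b_ite_le_G (c : Q) {x : ℝ} (hx0 : 0 ≤ x) (hx1 : x < 1) :
    (if c = 0 then x else 0) ≤ g2bG c x := by
  split_ifs with hc
  · exact g2b_le_G hc hx0 hx1
  · exact g2bG_nonneg c hx0

/-- per-prime identity: `∑_χ -log (1 - χ c · x) = #Q · ∑_{n ≥ 1, n • c = 0} x ^ n / n` -/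
theorem g2b_sum_log (c : Q) {x : ℝ} (hx0 : 0 ≤ x) (hx1 : x < 1) :
    ∑ χ : AddChar Q ℂ, -Complex.log (1 - χ c * (x : ℂ)) =
      ((Fintype.card Q : ℝ) * g2bG c x : ℝ) := by
  have hnorm : ∀ χ : AddChar Q ℂ, ‖χ c * (x : ℂ)‖ < 1 := by
    intro χ
    rw [norm_mul, AddChar.norm_apply, one_mul, Complex.norm_real, Real.norm_of_nonneg hx0]
    exact hx1
  have h1 : HasSum (fun n : ℕ => ∑ χ : AddChar Q ℂ, (χ c * (x : ℂ)) ^ n / n)
      (∑ χ : AddChar Q ℂ, -Complex.log (1 - χ c * (x : ℂ))) :=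
    hasSum_sum fun χ _ => Complex.hasSum_taylorSeries_neg_log (hnorm χ)
  have h2 : ∀ n : ℕ, ∑ χ : AddChar Q ℂ, (χ c * (x : ℂ)) ^ n / n =
      (((Fintype.card Q : ℝ) * (if n • c = 0 then x ^ n / n else 0 : ℝ) : ℝ) : ℂ) := by
    intro n
    have h3 : ∀ χ : AddChar Q ℂ, (χ c * (x : ℂ)) ^ n / n = χ (n • c) * ((x : ℂ) ^ n / n) := by
      intro χ
      rw [mul_pow, AddChar.map_nsmul_eq_pow]
      ring
    simp_rw [h3]
    rw [← Finset.sum_mul, AddChar.sum_apply_eq_ite]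
    split_ifs <;> push_cast <;> ring
  simp_rw [h2] at h1
  have h4 : HasSum (fun n : ℕ =>
      (((Fintype.card Q : ℝ) * (if n • c = 0 then x ^ n / n else 0 : ℝ) : ℝ) : ℂ))
      (((Fintype.card Q : ℝ) * g2bG c x : ℝ) : ℂ) :=
    Complex.hasSum_ofReal.mpr ((g2b_hasSum c hx0 hx1).mul_left _)
  exact h1.unique h4

section family

variable {ι : Type*} (c : ι → Q) (x : ι → ℝ)

theorem g2b_summable_log (hx0 : ∀ v, 0 ≤ x v) (hx : Summable x) (χ : AddChar Q ℂ) :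
    Summable (fun v => -Complex.log (1 - χ (c v) * (x v : ℂ))) := by
  have h1 : Summable (fun v => -(χ (c v) * (x v : ℂ))) := by
    refine (Summable.of_norm ?_).neg
    refine hx.congr fun v => ?_
    rw [norm_mul, AddChar.norm_apply, one_mul, Complex.norm_real, Real.norm_of_nonneg (hx0 v)]
  have h2 := (Complex.summable_log_one_add_of_summable h1).neg
  refine h2.congr fun v => ?_
  rw [← sub_eq_add_neg]

theorem g2b_summable_G (hx0 : ∀ v, 0 ≤ x v) (hx1 : ∀ v, x v < 1) (hx : Summable x) :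
    Summable (fun v => g2bG (c v) (x v)) := by
  have hcard : (Fintype.card Q : ℝ) ≠ 0 := Nat.cast_ne_zero.mpr Fintype.card_ne_zero
  have h1 : Summable (fun v => ∑ χ : AddChar Q ℂ, -Complex.log (1 - χ (c v) * (x v : ℂ))) :=
    summable_sum fun χ _ => g2b_summable_log c x hx0 hx χ
  have h2 : Summable (fun v => (((Fintype.card Q : ℝ) * g2bG (c v) (x v) : ℝ) : ℂ)) :=
    h1.congr fun v => g2b_sum_log (c v) (hx0 v) (hx1 v)
  have h3 : Summable (fun v => (Fintype.card Q : ℝ) * g2bG (c v) (x v)) :=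
    Complex.summable_ofReal.mp h2
  exact (summable_mul_left_iff hcard).mp h3

/-- **Euler-log identity, sum form.** -/
theorem g2b_sum_tsum_log (hx0 : ∀ v, 0 ≤ x v) (hx1 : ∀ v, x v < 1) (hx : Summable x) :
    ∑ χ : AddChar Q ℂ, ∑' v, -Complex.log (1 - χ (c v) * (x v : ℂ)) =
      (((Fintype.card Q : ℝ) * ∑' v, g2bG (c v) (x v) : ℝ) : ℂ) := by
  rw [← Summable.tsum_finsetSum fun χ _ => g2b_summable_log c x hx0 hx χ]
  simp_rw [g2b_sum_log (c _) (hx0 _) (hx1 _)]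
  rw [← Complex.ofReal_tsum, tsum_mul_left]

/-- **Euler-log identity, product form.** -/
theorem g2b_prod_exp (hx0 : ∀ v, 0 ≤ x v) (hx1 : ∀ v, x v < 1) (hx : Summable x) :
    ∏ χ : AddChar Q ℂ, Complex.exp (∑' v, -Complex.log (1 - χ (c v) * (x v : ℂ))) =
      ((Real.exp ((Fintype.card Q : ℝ) * ∑' v, g2bG (c v) (x v)) : ℝ) : ℂ) := by
  rw [← Complex.exp_sum, g2b_sum_tsum_log c x hx0 hx1 hx, Complex.ofReal_exp]

/-- the lower bound `G ≥ ∑_{c v = 0} x v` -/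
theorem g2b_le_tsum_G (hx0 : ∀ v, 0 ≤ x v) (hx1 : ∀ v, x v < 1) (hx : Summable x) :
    ∑' v, (if c v = 0 then x v else 0) ≤ ∑' v, g2bG (c v) (x v) := by
  have hs : Summable (fun v => (if c v = 0 then x v else 0 : ℝ)) := by
    refine Summable.of_nonneg_of_le (fun v => ?_) (fun v => ?_) hx
    · split_ifs
      · exact hx0 v
      · exact le_rfl
    · split_ifs
      · exact le_rfl
      · exact hx0 v
  exact hs.tsum_le_tsum (fun v => g2b_ite_le_G (c v) (hx0 v) (hx1 v))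
    (g2b_summable_G c x hx0 hx1 hx)

/-- **FI-G2 (abstract).** `‖∏_χ exp(∑_v -log(1 - χ(c v) x v))‖ ≥ exp (h ∑_{c v = 0} x v)` -/
theorem g2b_norm_prod_ge (hx0 : ∀ v, 0 ≤ x v) (hx1 : ∀ v, x v < 1) (hx : Summable x) :
    Real.exp ((Fintype.card Q : ℝ) * ∑' v, (if c v = 0 then x v else 0)) ≤
      ‖∏ χ : AddChar Q ℂ, Complex.exp (∑' v, -Complex.log (1 - χ (c v) * (x v : ℂ)))‖ := by
  rw [g2b_prod_exp c x hx0 hx1 hx, Complex.norm_real, Real.norm_of_nonneg (Real.exp_pos _).le,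
    Real.exp_le_exp]
  exact mul_le_mul_of_nonneg_left (g2b_le_tsum_G c x hx0 hx1 hx) (Nat.cast_nonneg _)

end family

end

end Fermat.Agent.S14x
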