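/-
S14 / FI-G rows FG-L3 (Euler product of `L(s,χ)` in exp-log form) and FG-P (lower bound for the
product over all characters), helper30.  GENERIC in the "divisor of an ideal" map `dv`
(hypotheses = the FISpec `fd_dv` API; a complete model on main is `dv := bcn_divI`, see
`S14x/FIDvDict.lean`).  The `L`-functions are helper16's
`LSeries (g1_A (g1_cop m dv) dv H χ)` (the ones used in the final FI-G4 assembly).
-/
import Fermat.Agent.S14x.FIGMul
import Fermat.Agent.S14x.FIEuler2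
import Fermat.Agent.S14x.FIEulerBridge
import Fermat.Agent.S14x.FIGEulerNF
import Fermat.Agent.S14x.FIGCoeffRay
import Fermat.Agent.S14x.FIGDefs

set_option autoImplicit false

namespace Fermat.Agent.S14x

open NumberField IsDedekindDomain

section L3

variable {F : Type*} [Field F] [NumberField F]
variable (m : ℕ) (dv : Ideal (𝓞 F) → Dv F) (H : AddSubgroup (Dv F))

/-- helper16's coefficient function (ray predicate) is the generic `fgmG`. -/
theorem fgl_G_eq (χ : AddChar (Dv F ⧸ H) ℂ) :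
    g1_G (g1_cop m dv) dv H χ = fgmG m dv H χ := by
  funext I
  classical
  rw [g1_G_cop_eq_ite m dv H χ I]
  unfold fgmG
  congr

/-- helper16's Dirichlet coefficients are helper43's `febCoeff` of `fgmG`. -/
theorem fgl_A_eq (χ : AddChar (Dv F ⧸ H) ℂ) :
    g1_A (g1_cop m dv) dv H χ = febCoeff F (fgmG m dv H χ) := by
  funext n
  unfold g1_A febCoeff
  rw [fgl_G_eq]

/-- **FG-L3** (generic `dv`): Euler product of `L(s,χ)` in exp-log form, real `s > 1`. -/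
theorem fgl_L_eq_cexp (htop : dv ⊤ = 0)
    (hmul : ∀ I J : Ideal (𝓞 F), I ≠ ⊥ → J ≠ ⊥ → dv (I * J) = dv I + dv J)
    (hnn : ∀ (I : Ideal (𝓞 F)) (v : Pl F), 0 ≤ dv I v)
    [Finite (Dv F ⧸ H)] (χ : AddChar (Dv F ⧸ H) ℂ) (s : ℝ) (hs : 1 < s) :
    Summable (fun v : Pl F =>
      -Complex.log (1 - fgmG m dv H χ v.asIdeal * ((plNorm v : ℂ)) ^ (-(s : ℂ)))) ∧
    LSeries (g1_A (g1_cop m dv) dv H χ) (s : ℂ) =
      Complex.exp (∑' v : Pl F,
        -Complex.log (1 - fgmG m dv H χ v.asIdeal * ((plNorm v : ℂ)) ^ (-(s : ℂ)))) := by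
  have hs' : 1 < ((s : ℂ)).re := by simpa using hs
  set f : Ideal (𝓞 F) → ℂ := fun I => fgmG m dv H χ I * febTerm F (s : ℂ) I with hf
  have h1 : f ⊤ = 1 := by
    simp only [hf]
    rw [fgm_G_top m dv H htop χ, febTerm_top, one_mul]
  have hfmul : ∀ I J : Ideal (𝓞 F), f (I * J) = f I * f J := by
    intro I J
    simp only [hf]
    rw [fgm_G_mul m dv H hmul hnn χ I J, febTerm_mul]
    ring
  have hsumall : Summable (fun I : Ideal (𝓞 F) => ‖f I‖) :=
    feb_summable_mul F hs' (fgmG m dv H χ) (fgm_G_norm_le m dv H χ)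
  have hsum : Summable (fun I : {I : Ideal (𝓞 F) // I ≠ ⊥} => ‖f I.1‖) := hsumall.subtype _
  have hlt := fe_norm_lt_one f h1 hfmul hsum
  obtain ⟨hS, hE⟩ := fe_tsum_eq_cexp f h1 hfmul hsum hlt
  have hfv : ∀ v : Pl F, f v.asIdeal =
      fgmG m dv H χ v.asIdeal * ((plNorm v : ℂ)) ^ (-(s : ℂ)) := by
    intro v
    simp only [hf]
    rw [febTerm_asIdeal]
    rfl
  simp_rw [hfv] at hS hE
  refine ⟨hS, ?_⟩
  rw [← hE, fgl_A_eq, ← feb_tsum_mul_eq_LSeries F hs' (fgmG m dv H χ) (fgm_G_norm_le m dv H χ)]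
  have h2 : ∑' I : {I : Ideal (𝓞 F) // I ≠ ⊥}, f I.1 =
      ∑' I : Ideal (𝓞 F), ({I : Ideal (𝓞 F) | I ≠ ⊥}).indicator f I :=
    tsum_subtype {I : Ideal (𝓞 F) | I ≠ ⊥} f
  rw [h2]
  refine tsum_congr fun I => ?_
  by_cases hI : I = ⊥
  · subst hI
    rw [Set.indicator_of_notMem (by simp), febTerm_bot, mul_zero]
  · rw [Set.indicator_of_mem (by simpa using hI)]

end L3

section P

variable {F : Type*} [Field F] [NumberField F]
variable (M : Type*) [Field M] [NumberField M] [Algebra F M]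
variable (m : ℕ) (dv : Ideal (𝓞 F) → Dv F) (H : AddSubgroup (Dv F))

/-- the split primes not dividing `m` are in the ray group. -/
theorem fgl_single_mem_rayGroup {v : Pl F} (hv : v ∈ fgS F M m) :
    Finsupp.single v (1 : ℤ) ∈ rayGroup F M m :=
  AddSubgroup.subset_closure (Or.inr ⟨v, hv.2, hv.1, rfl⟩)

/-- the sum over the subtype `fgS` is `fgSplitSum`. -/
theorem fgl_tsum_fgS (s : ℝ) :
    ∑' v : fgS F M m, ((plNorm v.1 : ℝ)) ^ (-s) = fgSplitSum F M m s := by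
  unfold fgSplitSum
  exact tsum_subtype (fgS F M m) (fun v : Pl F => ((plNorm v : ℕ) : ℝ) ^ (-s))

/-- **FG-P** (generic `dv`): for `H ≥ rayGroup F M m` of finite index and real `s > 1`,
`exp (|Q| * ∑_{v split, v ∤ m} N v ^ (-s)) ≤ ‖∏_χ L(s,χ)‖`. -/
theorem fgl_prod_ge (htop : dv ⊤ = 0)
    (hmul : ∀ I J : Ideal (𝓞 F), I ≠ ⊥ → J ≠ ⊥ → dv (I * J) = dv I + dv J)
    (hnn : ∀ (I : Ideal (𝓞 F)) (v : Pl F), 0 ≤ dv I v)
    (hprime : ∀ v : Pl F, dv v.asIdeal = Finsupp.single v 1)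
    (hH : rayGroup F M m ≤ H) [Finite (Dv F ⧸ H)] (s : ℝ) (hs : 1 < s) :
    Real.exp ((Nat.card (Dv F ⧸ H) : ℝ) * fgSplitSum F M m s) ≤
      ‖∏ χ : AddChar (Dv F ⧸ H) ℂ, LSeries (g1_A (g1_cop m dv) dv H χ) (s : ℂ)‖ := by
  rw [← fgl_tsum_fgS M m s]
  exact g2_prod_ge_of m H (fun χ v => fgmG m dv H χ v.asIdeal)
    (fun χ => LSeries (g1_A (g1_cop m dv) dv H χ) (s : ℂ)) s hs
    (fun χ v => fgm_G_prime m dv H hprime χ v)
    (fun χ => fgl_L_eq_cexp m dv H htop hmul hnn χ s hs)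
    (fgS F M m)
    (fun v hv => ⟨hv.1, hH (fgl_single_mem_rayGroup M m hv)⟩)

end P

end Fermat.Agent.S14x
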