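/-
S14 / FI-G tail (helper91).  Two small leaves for `fi_main`:
* `gt91_isTotallyComplex` : a number field containing a primitive `p`-th root of unity, `p` an odd
  prime, is totally complex (in particular the base field of an `IsUCyc p F M g`).
* `gt91_fi_main_of_card_le` : the group-theoretic finale of `fi_main`: if the quotient of `Dv F`
  by `rayGroup F M m ⊔ <[v] : v ∣ m>` is finite of cardinality `≤ p`, then the conclusion of
  `Spec.fi_main` holds.
All names prefixed `gt91_`.
-/
import Fermat.Agent.S14x.Defs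

set_option autoImplicit false

namespace Fermat.Agent.S14x

open NumberField IsDedekindDomain

/-! ### totally complex -/

theorem gt91_isTotallyComplex_of_primitiveRoot {F : Type*} [Field F] [NumberField F]
    {p : ℕ} (hp : p.Prime) (hp2 : p ≠ 2) {ζ : F} (hζ : IsPrimitiveRoot ζ p) :
    NumberField.IsTotallyComplex F := by
  refine ⟨fun w => ?_⟩
  rw [← InfinitePlace.not_isReal_iff_isComplex]
  intro hw
  have hφ : ComplexEmbedding.IsReal w.embedding := InfinitePlace.isReal_iff.mp hw
  set φ : F →+* ℝ := hφ.embedding with hφdef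
  have hζ' : IsPrimitiveRoot (φ ζ) p := hζ.map_of_injective φ.injective
  have hodd : Odd p := hp.odd_of_ne_two hp2
  have h1 : (φ ζ) ^ p = 1 := hζ'.pow_eq_one
  have h2 : φ ζ = 1 := by
    have := hodd.strictMono_pow (R := ℝ)
    exact this.injective (by rw [h1, one_pow])
  rw [h2] at hζ'
  have := hζ'.unique IsPrimitiveRoot.one
  exact hp.one_lt.ne' this

theorem gt91_isTotallyComplex {p : ℕ} [Fact p.Prime] {F M : Type*} [Field F] [NumberField F]
    [Field M] [NumberField M] [Algebra F M] [IsGalois F M] {g : M ≃ₐ[F] M}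
    (h : IsUCyc p F M g) (hp : p ≠ 2) : NumberField.IsTotallyComplex F := by
  obtain ⟨ζ, hζ⟩ := h.zeta
  exact gt91_isTotallyComplex_of_primitiveRoot (Fact.out : p.Prime) hp hζ

/-! ### the prime-to-`m` part of a divisor -/

section Cop

variable {F : Type*} [Field F] [NumberField F] (m : ℕ)

/-- the subgroup generated by the primes dividing `m` -/
noncomputable def gt91_Sm (F : Type*) [Field F] [NumberField F] (m : ℕ) : AddSubgroup (Dv F) :=
  AddSubgroup.closure {D | ∃ v : Pl F, (m : 𝓞 F) ∈ v.asIdeal ∧ D = Finsupp.single v 1}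

open Classical in
/-- the prime-to-`m` part of a divisor -/
noncomputable def gt91_cop (F : Type*) [Field F] [NumberField F] (m : ℕ) : Dv F →+ Dv F :=
  Finsupp.filterAddHom (fun v : Pl F => (m : 𝓞 F) ∉ v.asIdeal)

theorem gt91_cop_apply_of_notMem (D : Dv F) {v : Pl F} (hv : (m : 𝓞 F) ∉ v.asIdeal) :
    gt91_cop F m D v = D v := by
  classical
  show Finsupp.filter (fun v : Pl F => (m : 𝓞 F) ∉ v.asIdeal) D v = D v
  rw [Finsupp.filter_apply, if_pos hv]

theorem gt91_cop_apply_of_mem (D : Dv F) {v : Pl F} (hv : (m : 𝓞 F) ∈ v.asIdeal) :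
    gt91_cop F m D v = 0 := by
  classical
  show Finsupp.filter (fun v : Pl F => (m : 𝓞 F) ∉ v.asIdeal) D v = 0
  rw [Finsupp.filter_apply, if_neg (not_not.mpr hv)]

theorem gt91_cop_eq_self {D : Dv F} (hD : CoprimeTo m D) : gt91_cop F m D = D := by
  ext v
  by_cases h : (m : 𝓞 F) ∈ v.asIdeal
  · rw [gt91_cop_apply_of_mem m D h, hD v h]
  · rw [gt91_cop_apply_of_notMem m D h]

theorem gt91_coprimeTo_cop (D : Dv F) : CoprimeTo m (gt91_cop F m D) :=
  fun _ hv => gt91_cop_apply_of_mem m D hv

theorem gt91_single_apply_of_ne {v w : Pl F} (hne : v ≠ w) (n : ℤ) :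
    (Finsupp.single v n : Dv F) w = 0 := by
  classical
  rw [Finsupp.single_apply, if_neg hne]

theorem gt91_cop_single_of_mem {v : Pl F} (hv : (m : 𝓞 F) ∈ v.asIdeal) (n : ℤ) :
    gt91_cop F m (Finsupp.single v n) = 0 := by
  ext w
  by_cases h : (m : 𝓞 F) ∈ w.asIdeal
  · rw [gt91_cop_apply_of_mem m _ h]; rfl
  · have hne : v ≠ w := by
      rintro rfl
      exact h hv
    rw [gt91_cop_apply_of_notMem m _ h, gt91_single_apply_of_ne hne]; rfl

theorem gt91_cop_single_of_notMem {v : Pl F} (hv : (m : 𝓞 F) ∉ v.asIdeal) (n : ℤ) :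
    gt91_cop F m (Finsupp.single v n) = Finsupp.single v n :=
  gt91_cop_eq_self m (fun w hw => by
    have hne : v ≠ w := by
      rintro rfl
      exact hv hw
    exact gt91_single_apply_of_ne hne n)

theorem gt91_cop_eq_zero_of_mem_Sm {D : Dv F} (hD : D ∈ gt91_Sm F m) : gt91_cop F m D = 0 := by
  unfold gt91_Sm at hD
  induction hD using AddSubgroup.closure_induction with
  | mem x hx =>
    obtain ⟨v, hv, rfl⟩ := hx
    exact gt91_cop_single_of_mem m hv 1
  | zero => exact map_zero _
  | add x y _ _ hx hy => rw [map_add, hx, hy, add_zero]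
  | neg x _ hx => rw [map_neg, hx, neg_zero]

theorem gt91_sub_cop_mem_Sm (D : Dv F) : D - gt91_cop F m D ∈ gt91_Sm F m := by
  induction D using Finsupp.induction_linear with
  | zero => simp
  | add f g hf hg =>
    have : f + g - gt91_cop F m (f + g) = (f - gt91_cop F m f) + (g - gt91_cop F m g) := by
      rw [map_add]; abel
    rw [this]
    exact add_mem hf hg
  | single v n =>
    by_cases hv : (m : 𝓞 F) ∈ v.asIdeal
    · rw [gt91_cop_single_of_mem m hv, sub_zero]
      have : (Finsupp.single v n : Dv F) = n • Finsupp.single v 1 := by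
        rw [Finsupp.smul_single, smul_eq_mul, mul_one]
      rw [this]
      have hmem : (Finsupp.single v 1 : Dv F) ∈ gt91_Sm F m :=
        AddSubgroup.subset_closure ⟨v, hv, rfl⟩
      exact zsmul_mem hmem n
    · rw [gt91_cop_single_of_notMem m hv, sub_self]
      exact zero_mem _

end Cop

/-! ### the ray group consists of divisors prime to `m` -/

section Ray

variable {F : Type*} [Field F] [NumberField F]

theorem gt91_coprimeTo_zero (m : ℕ) : CoprimeTo m (0 : Dv F) := fun _ _ => rfl

theorem gt91_coprimeTo_add {m : ℕ} {D E : Dv F} (hD : CoprimeTo m D) (hE : CoprimeTo m E) :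
    CoprimeTo m (D + E) := fun v hv => by
  rw [Finsupp.add_apply, hD v hv, hE v hv, add_zero]

theorem gt91_coprimeTo_neg {m : ℕ} {D : Dv F} (hD : CoprimeTo m D) : CoprimeTo m (-D) :=
  fun v hv => by rw [Finsupp.neg_apply, hD v hv, neg_zero]

theorem gt91_coprimeTo_divOf {m : ℕ} (x : 𝓞 F) (hx : x - 1 ∈ Ideal.span {(m : 𝓞 F)}) :
    CoprimeTo m (divOf (x : F)) := by
  intro v hv
  rw [divOf_apply, ordAt]
  have hxv : x ∉ v.asIdeal := by
    intro hxv
    have h1 : x - 1 ∈ v.asIdeal :=
      (Ideal.span_singleton_le_iff_mem (I := v.asIdeal)).mpr hv hx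
    have : (1 : 𝓞 F) ∈ v.asIdeal := by
      have := v.asIdeal.sub_mem hxv h1
      simpa using this
    exact v.isPrime.ne_top ((Ideal.eq_top_iff_one _).mpr this)
  have hval : v.valuation F (x : F) = 1 :=
    (v.valuation_eq_one_iff_notMem (K := F)).mpr hxv
  rw [hval]
  simp

variable (M : Type*) [Field M] [NumberField M] [Algebra F M]

theorem gt91_coprimeTo_of_mem_rayGroup {m : ℕ} {D : Dv F} (hD : D ∈ rayGroup F M m) :
    CoprimeTo m D := by
  unfold rayGroup at hD
  induction hD using AddSubgroup.closure_induction with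
  | mem x hx =>
    rcases hx with ⟨y, _, hy1, rfl⟩ | ⟨v, _, hv, rfl⟩
    · exact gt91_coprimeTo_divOf y hy1
    · intro w hw
      have hne : v ≠ w := by
        rintro rfl
        exact hv hw
      exact gt91_single_apply_of_ne hne 1
  | zero => exact gt91_coprimeTo_zero m
  | add x y _ _ hx hy => exact gt91_coprimeTo_add hx hy
  | neg x _ hx => exact gt91_coprimeTo_neg hx

end Ray

/-! ### the finale -/

section Finale

variable {p : ℕ} [Fact p.Prime]
variable {F M : Type*} [Field F] [NumberField F] [Field M] [NumberField M] [Algebra F M]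

/-- If `Dv F ⧸ (rayGroup F M m ⊔ <[v] : v ∣ m>)` is finite of cardinality at most `p`, then any
`ψ : Dv F →+ ZMod p` killing the ray group and non-trivial on divisors prime to `m` has kernel (on
divisors prime to `m`) equal to the ray group: the conclusion of `fi_main`. -/
theorem gt91_fi_main_of_card_le (m : ℕ)
    [hfin : Finite (Dv F ⧸ (rayGroup F M m ⊔ gt91_Sm F m))]
    (hcard : Nat.card (Dv F ⧸ (rayGroup F M m ⊔ gt91_Sm F m)) ≤ p)
    (ψ : Dv F →+ ZMod p) (hker : rayGroup F M m ≤ ψ.ker)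
    (hsurj : ∃ D₀ : Dv F, CoprimeTo m D₀ ∧ ψ D₀ ≠ 0)
    (D : Dv F) (hD : CoprimeTo m D) (h0 : ψ D = 0) : D ∈ rayGroup F M m := by
  classical
  set Hp : AddSubgroup (Dv F) := rayGroup F M m ⊔ gt91_Sm F m with hHp
  set ψ' : Dv F →+ ZMod p := ψ.comp (gt91_cop F m) with hψ'
  have hle : Hp ≤ ψ'.ker := by
    rw [hHp, sup_le_iff]
    constructor
    · intro R hR
      rw [AddMonoidHom.mem_ker, hψ', AddMonoidHom.comp_apply,
        gt91_cop_eq_self m (gt91_coprimeTo_of_mem_rayGroup M hR)]
      exact hker hR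
    · intro S hS
      rw [AddMonoidHom.mem_ker, hψ', AddMonoidHom.comp_apply, gt91_cop_eq_zero_of_mem_Sm m hS,
        map_zero]
  set φ : Dv F ⧸ Hp →+ ZMod p := QuotientAddGroup.lift Hp ψ' hle with hφ
  obtain ⟨D₀, hD₀, hne⟩ := hsurj
  have hφ0 : φ (QuotientAddGroup.mk D₀) = ψ D₀ := by
    rw [hφ, QuotientAddGroup.lift_mk, hψ', AddMonoidHom.comp_apply, gt91_cop_eq_self m hD₀]
  have hsurjφ : Function.Surjective φ := by
    intro y
    set c : ZMod p := ψ D₀ with hc
    refine ⟨((y * c⁻¹).val : ℤ) • (QuotientAddGroup.mk D₀ : Dv F ⧸ Hp), ?_⟩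
    rw [map_zsmul, hφ0, zsmul_eq_mul]
    push_cast
    rw [ZMod.natCast_zmod_val, mul_assoc, inv_mul_cancel₀ hne, mul_one]
  have hcard' : Nat.card (Dv F ⧸ Hp) ≤ Nat.card (ZMod p) := by
    rw [Nat.card_zmod]; exact hcard
  have hbij := hsurjφ.bijective_of_nat_card_le hcard'
  have hDφ : φ (QuotientAddGroup.mk D) = 0 := by
    rw [hφ, QuotientAddGroup.lift_mk, hψ', AddMonoidHom.comp_apply, gt91_cop_eq_self m hD, h0]
  have hDmem : D ∈ Hp := by
    have : (QuotientAddGroup.mk D : Dv F ⧸ Hp) = 0 := hbij.injective (by rw [hDφ, map_zero])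
    exact (QuotientAddGroup.eq_zero_iff D).mp this
  rw [hHp, AddSubgroup.mem_sup] at hDmem
  obtain ⟨R, hR, S, hS, hRS⟩ := hDmem
  have : D = R := by
    have h1 := congrArg (gt91_cop F m) hRS
    rw [map_add, gt91_cop_eq_self m (gt91_coprimeTo_of_mem_rayGroup M hR),
      gt91_cop_eq_zero_of_mem_Sm m hS, add_zero, gt91_cop_eq_self m hD] at h1
    exact h1.symm
  rw [this]
  exact hR

end Finale

end Fermat.Agent.S14x
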