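/-
S14 project, FI-G3 final wiring (helper54, prefix `g3_`): the upper bound for `ζ_M` in the exact
shape of `FISpec.fg_zetaM_le` (row FG-ZM), with all FI-F inputs discharged from the landed
modules `FIEuler`, `FIEuler2`, `FIEulerBridge`, `FIEulerBridge2`.
-/
import Fermat.Agent.S14x.FIGZetaM
import Fermat.Agent.S14x.FIEuler2
import Fermat.Agent.S14x.FIEulerBridge2

set_option autoImplicit false

namespace Fermat.Agent.S14x

open NumberField IsDedekindDomain

/-- prime sums `∑_v N v ^ (-s)` converge for `s > 1` -/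
theorem g3_summable_plNorm (F : Type) [Field F] [NumberField F] (s : ℝ) (hs : 1 < s) :
    Summable (fun v : Pl F => ((plNorm v : ℕ) : ℝ) ^ (-s)) := by
  have h := feb2_summable_absNorm_rpow F s hs
  have hι : Function.Injective
      (fun v : Pl F => (⟨v.asIdeal, v.ne_bot⟩ : {I : Ideal (𝓞 F) // I ≠ ⊥})) := by
    intro v w hvw
    exact HeightOneSpectrum.ext (congrArg Subtype.val hvw)
  have h2 := h.comp_injective hι
  refine h2.congr (fun v => ?_)
  simp only [Function.comp_def, plNorm]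

/-- the Euler product of `ζ_M` in exp-log form (FI-F for `M`) -/
theorem g3_eulerHyp (M : Type) [Field M] [NumberField M] : g3_EulerHyp M := by
  intro s hs
  have hs' : 1 < ((s : ℝ) : ℂ).re := by simpa using hs
  have hsum : Summable (fun I : {I : Ideal (𝓞 M) // I ≠ ⊥} => ‖febTerm M (s : ℂ) I.1‖) :=
    (feb_summable M (s := (s : ℂ)) hs').subtype {I : Ideal (𝓞 M) | I ≠ ⊥}
  have hlt := fe_norm_lt_one (febTerm M (s : ℂ)) (febTerm_top _) (febTerm_mul _) hsum
  obtain ⟨h1, h2⟩ := fe_tsum_eq_cexp (febTerm M (s : ℂ)) (febTerm_top _) (febTerm_mul _) hsum hlt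
  have hfun : (fun w : Pl M => -Complex.log (1 - febTerm M (s : ℂ) w.asIdeal)) =
      fun w : Pl M => -Complex.log (1 - ((plNorm w : ℕ) : ℂ) ^ (-(s : ℂ))) := by
    funext w
    rw [febTerm_asIdeal]
    rfl
  rw [hfun] at h1 h2
  refine ⟨h1, ?_⟩
  rw [← h2, ← feb2_tsum_absNorm_eq_dedekindZeta M (s : ℂ) hs']
  exact tsum_congr fun I => (febTerm_of_ne_bot (s : ℂ) I.2).symm

variable {p : ℕ} [Fact p.Prime] {F M : Type} [Field F] [NumberField F] [Field M] [NumberField M]
  [Algebra F M] [IsGalois F M] {g : M ≃ₐ[F] M}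

omit [IsGalois F M] in
/-- `fgSplitSum` as a sum over the subtype of split primes not dividing `m` -/
theorem g3_splitSum_eq (m : ℕ) (s : ℝ) :
    fgSplitSum F M m s =
      ∑' v : {v : Pl F | (m : 𝓞 F) ∉ v.asIdeal ∧ SplitsCompletely F M v},
        ((plNorm v.1 : ℝ)) ^ (-s) := by
  rw [fgSplitSum]
  exact (tsum_subtype (fgS F M m) (fun v : Pl F => ((plNorm v : ℕ) : ℝ) ^ (-s))).symm

/-- **FG-ZM** (= `FISpec.fg_zetaM_le`): upper bound for `ζ_M` by the split primes of `F`. -/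
theorem g3_zetaM_le (h : IsUCyc p F M g) (m : ℕ) [NeZero m] :
    ∃ B : ℝ, ∀ s : ℝ, 1 < s → s ≤ 2 →
      ‖dedekindZeta M (s : ℂ)‖ ≤
        Real.exp ((p : ℝ) * ∑' v : {v : Pl F | (m : 𝓞 F) ∉ v.asIdeal ∧ SplitsCompletely F M v},
          ((plNorm v.1 : ℝ)) ^ (-s) + B) := by
  obtain ⟨B, hB⟩ := g3_norm_dedekindZeta_le_of h m (g3_summable_plNorm F) (g3_eulerHyp M)
  refine ⟨B, fun s hs1 hs2 => ?_⟩
  have := hB s hs1 hs2
  rwa [g3_splitSum_eq] at this

end Fermat.Agent.S14x
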