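/-
S14 / FI-G4 final assembly, SHADOW by helper16 (prefix `g4s_`): the analytic norm-index inequality
`[Dv F : rayGroup F M m ⊔ fd_Sm F m] ≤ p` and `Spec.fi_main` (exact statement), from the landed
pieces:
  G1  `g1_L_bounded_unif`, L4 `g1_L_le_zeta`   (helper16, on FI-C `fc_main` of helper2 & co),
  P   `fgl_prod_ge` at `dv := fd_dv`            (helper30, on helper96/helper72's Euler-log core),
  ZM  `g3_norm_dedekindZeta_le_of` + `g3_summable_plNorm` + `g3_eulerHyp` (helper54),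
  assembly `g4_fi_main_of` (helper70), endgame `fge_fi_main_of` (helper30).
-/
import Fermat.Agent.S14x.FIMainOf
import Fermat.Agent.S14x.FIGCoeffL4
import Fermat.Agent.S14x.FIGL3
import Fermat.Agent.S14x.FIGZetaMFinal

set_option autoImplicit false

namespace Fermat.Agent.S14x

open NumberField IsDedekindDomain

section Main

variable {p : ℕ} [Fact p.Prime] {F M : Type} [Field F] [NumberField F] [Field M] [NumberField M]
  [Algebra F M] [IsGalois F M] {g : M ≃ₐ[F] M}

/-- `fd_Sm F m` is supported on the primes dividing `m`. -/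
theorem g4s_Sm_supported (m : ℕ) :
    ∀ D ∈ fd_Sm F m, ∀ v : Pl F, (m : 𝓞 F) ∉ v.asIdeal → D v = 0 :=
  fge_closure_supported (F := F) m

/-- **FG-CARD**: the analytic norm-index inequality `[Dv F : rayGroup ⊔ S_m] ≤ p`. -/
theorem g4s_card_le (h : IsUCyc p F M g) (m : ℕ) [NeZero m] :
    haveI := fd_rayGroup_sup_finite (F := F) M m
    Nat.card (Dv F ⧸ (rayGroup F M m ⊔ fd_Sm F m)) ≤ p := by
  have hfin := fd_rayGroup_sup_finite (F := F) M m
  have hH : fd_Pm F m ⊔ fd_Sm F m ≤ rayGroup F M m ⊔ fd_Sm F m :=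
    sup_le_sup_right (fd_Pm_le_rayGroup F m M) _
  refine g4_card_le_of' (F := F) (M := M) m (fd_Sm F m) p
    (fun χ s => LSeries (g1_Ar F m (rayGroup F M m ⊔ fd_Sm F m) χ) (s : ℂ))
    (fgSplitSum F M m) ?_ ?_ ?_ ?_
  · intro χ hχ
    exact g1_L_bounded F m hH χ hχ
  · intro s hs1 _
    exact g1_L_le_zeta F m _ 0 s hs1
  · intro s hs1 _
    exact fgl_prod_ge M m fd_dv (rayGroup F M m ⊔ fd_Sm F m) fd_dv_top
      (fun I J hI hJ => fd_dv_mul hI hJ) fd_dv_nonneg fd_dv_asIdeal le_sup_left s hs1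
  · exact g3_norm_dedekindZeta_le_of h m (g3_summable_plNorm F) (g3_eulerHyp M)

/-- **FI = `Spec.fi_main`** (exact statement). -/
theorem g4s_fi_main (hp : p ≠ 2) (h : IsUCyc p F M g) (m : ℕ) [NeZero m]
    (ψ : Dv F →+ ZMod p) (hker : rayGroup F M m ≤ ψ.ker)
    (hsurj : ∃ D₀ : Dv F, CoprimeTo m D₀ ∧ ψ D₀ ≠ 0)
    (D : Dv F) (hD : CoprimeTo m D) (h0 : ψ D = 0) : D ∈ rayGroup F M m := by
  have hfin := fd_rayGroup_sup_finite (F := F) M m
  exact fge_fi_main_of M m (fd_Sm F m) (g4s_Sm_supported m) (g4s_card_le h m) ψ hker hsurj D hD h0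

end Main

end Fermat.Agent.S14x
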