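/-
S14 / FI-C bridge C1a + C1b (helper78): for every divisor `D0` prime to `m` there is a nonzero
integral ideal `J` prime to `m` such that, for nonzero integral `I`,
`fd_dv I - D0 ∈ fd_Pm F m ↔ J * I = (a)` with `a ≡ 1 mod m`.
-/
import Fermat.Agent.S14x.FICharDefs
set_option autoImplicit false
set_option linter.unusedSectionVars false
set_option linter.style.haveILetI false
namespace Fermat.Agent.S14x
open NumberField IsDedekindDomain
open scoped nonZeroDivisors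

variable {F : Type*} [Field F] [NumberField F]

/-- the integral ideal with prescribed (effective) divisor -/
noncomputable def fbr_ideal (E : Pl F →₀ ℕ) : Ideal (𝓞 F) :=
  E.prod fun v n => v.asIdeal ^ n

theorem fbr_asIdeal_pow_ne_bot (v : Pl F) (n : ℕ) : v.asIdeal ^ n ≠ ⊥ :=
  pow_ne_zero n v.ne_bot

theorem fbr_dv_pow (v : Pl F) (n : ℕ) : fd_dv (v.asIdeal ^ n) = Finsupp.single v (n : ℤ) := by
  induction n with
  | zero =>
    rw [pow_zero, Ideal.one_eq_top, fd_dv_top]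
    simp
  | succ n ih =>
    rw [pow_succ, fd_dv_mul (fbr_asIdeal_pow_ne_bot v n) v.ne_bot, ih, fd_dv_asIdeal,
      ← Finsupp.single_add]
    push_cast
    rfl

theorem fbr_prod_ne_bot {ι : Type*} (s : Finset ι) (f : ι → Ideal (𝓞 F))
    (hf : ∀ i ∈ s, f i ≠ ⊥) : ∏ i ∈ s, f i ≠ ⊥ :=
  Finset.prod_ne_zero_iff.mpr hf

theorem fbr_dv_prod {ι : Type*} (s : Finset ι) (f : ι → Ideal (𝓞 F))
    (hf : ∀ i ∈ s, f i ≠ ⊥) : fd_dv (∏ i ∈ s, f i) = ∑ i ∈ s, fd_dv (f i) := by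
  classical
  induction s using Finset.induction_on with
  | empty => simp [Ideal.one_eq_top, fd_dv_top]
  | insert a s ha ih =>
    rw [Finset.prod_insert ha, Finset.sum_insert ha,
      fd_dv_mul (hf a (Finset.mem_insert_self a s))
        (fbr_prod_ne_bot s f fun i hi => hf i (Finset.mem_insert_of_mem hi)),
      ih fun i hi => hf i (Finset.mem_insert_of_mem hi)]

theorem fbr_ideal_ne_bot (E : Pl F →₀ ℕ) : fbr_ideal E ≠ ⊥ := by
  unfold fbr_ideal Finsupp.prod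
  exact fbr_prod_ne_bot _ _ fun v _ => fbr_asIdeal_pow_ne_bot v _

theorem fbr_dv_ideal (E : Pl F →₀ ℕ) (v : Pl F) : fd_dv (fbr_ideal E) v = (E v : ℤ) := by
  classical
  unfold fbr_ideal Finsupp.prod
  rw [fbr_dv_prod _ _ fun v _ => fbr_asIdeal_pow_ne_bot v _]
  simp only [fbr_dv_pow]
  rw [Finsupp.finsetSum_apply]
  simp only [Finsupp.single_apply]
  rw [Finset.sum_ite_eq']
  split_ifs with h
  · rfl
  · rw [Finsupp.notMem_support_iff.mp h]; rfl


variable (m : ℕ)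

/-- every element of the principal ray is `div x - div y` with `x ≡ y ≡ 1 mod m` -/
theorem fbr_exists_of_mem_Pm {D : Dv F} (h : D ∈ fd_Pm F m) :
    ∃ x y : 𝓞 F, x ≠ 0 ∧ y ≠ 0 ∧ x - 1 ∈ Ideal.span {((m : ℕ) : 𝓞 F)} ∧
      y - 1 ∈ Ideal.span {((m : ℕ) : 𝓞 F)} ∧ D = divOf (x : F) - divOf (y : F) := by
  have h1 : (1 : 𝓞 F) - 1 ∈ Ideal.span {((m : ℕ) : 𝓞 F)} := by simp
  have hd1 : divOf ((1 : 𝓞 F) : F) = 0 := by
    ext v
    rw [divOf_apply]
    simp [fd_ordAt_one]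
  unfold fd_Pm at h
  induction h using AddSubgroup.closure_induction with
  | mem D hD =>
    obtain ⟨x, hx, hx1, rfl⟩ := hD
    exact ⟨x, 1, hx, one_ne_zero, hx1, h1, by rw [hd1, sub_zero]⟩
  | zero => exact ⟨1, 1, one_ne_zero, one_ne_zero, h1, h1, by rw [sub_self]⟩
  | add D D' _ _ h h' =>
    obtain ⟨x, y, hx, hy, hx1, hy1, rfl⟩ := h
    obtain ⟨x', y', hx', hy', hx1', hy1', rfl⟩ := h'
    have hxF : (x : F) ≠ 0 := by simpa using hx
    have hyF : (y : F) ≠ 0 := by simpa using hy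
    have hxF' : (x' : F) ≠ 0 := by simpa using hx'
    have hyF' : (y' : F) ≠ 0 := by simpa using hy'
    refine ⟨x * x', y * y', mul_ne_zero hx hx', mul_ne_zero hy hy', ?_, ?_, ?_⟩
    · have e : x * x' - 1 = (x - 1) * x' + (x' - 1) := by ring
      rw [e]
      exact Ideal.add_mem _ (Ideal.mul_mem_right _ _ hx1) hx1'
    · have e : y * y' - 1 = (y - 1) * y' + (y' - 1) := by ring
      rw [e]
      exact Ideal.add_mem _ (Ideal.mul_mem_right _ _ hy1) hy1'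
    · have e1 : (((x * x' : 𝓞 F)) : F) = (x : F) * (x' : F) := by push_cast; ring
      have e2 : (((y * y' : 𝓞 F)) : F) = (y : F) * (y' : F) := by push_cast; ring
      rw [e1, e2, fd_divOf_mul hxF hxF', fd_divOf_mul hyF hyF']
      abel
  | neg D _ h =>
    obtain ⟨x, y, hx, hy, hx1, hy1, rfl⟩ := h
    exact ⟨y, x, hy, hx, hy1, hx1, by abel⟩

/-- core lemma: a nonzero ideal has divisor in the principal ray iff it is generated by an
element `≡ 1 mod m` -/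
theorem fbr_mem_Pm_iff {K : Ideal (𝓞 F)} (hK : K ≠ ⊥) :
    fd_dv K ∈ fd_Pm F m ↔
      ∃ a : 𝓞 F, a - 1 ∈ Ideal.span {((m : ℕ) : 𝓞 F)} ∧ K = Ideal.span {a} := by
  constructor
  · intro h
    obtain ⟨x, y, hx, hy, hx1, hy1, hD⟩ := fbr_exists_of_mem_Pm m h
    have hxs : Ideal.span {x} ≠ ⊥ := by simpa using hx
    have hys : Ideal.span {y} ≠ ⊥ := by simpa using hy
    have hprod : K * Ideal.span {y} = Ideal.span {x} := by
      refine fd_dv_injective (mul_ne_zero hK hys) hxs ?_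
      rw [fd_dv_mul hK hys, fd_dv_span_singleton hy, fd_dv_span_singleton hx, hD]
      abel
    have hxmem : x ∈ K * Ideal.span {y} := by
      rw [hprod]; exact Ideal.subset_span rfl
    obtain ⟨k, hkK, hkx⟩ := Ideal.mem_mul_span_singleton.mp hxmem
    refine ⟨k, ?_, ?_⟩
    · have e : k - 1 = (x - 1) - k * (y - 1) := by rw [← hkx]; ring
      rw [e]
      exact Ideal.sub_mem _ hx1 (Ideal.mul_mem_left _ _ hy1)
    · have h2 : K * Ideal.span {y} = Ideal.span {k} * Ideal.span {y} := by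
        rw [hprod, Ideal.span_singleton_mul_span_singleton, hkx]
      exact mul_right_cancel₀ hys h2
  · rintro ⟨a, ha1, rfl⟩
    have ha : a ≠ 0 := by
      rintro rfl
      exact hK (by simp)
    rw [fd_dv_span_singleton ha]
    exact fd_divOf_mem_Pm m a ha ha1

/-- the order of the ray class group kills every divisor -/
theorem fbr_card_nsmul_mem [NeZero m] (D : Dv F) :
    Nat.card (fd_RayCl F m) • D ∈ fd_Pm F m ⊔ fd_Sm F m := by
  haveI := fd_finite_rayCl F m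
  have h : (Nat.card (fd_RayCl F m)) • (QuotientAddGroup.mk D : fd_RayCl F m) = 0 :=
    card_nsmul_eq_zero'
  rw [← QuotientAddGroup.mk_nsmul] at h
  exact (QuotientAddGroup.eq_zero_iff _).mp h

/-- C1a: for `D0` prime to `m` there is a nonzero integral ideal `J` prime to `m` with
`fd_dv J + D0` in the principal ray -/
theorem fbr_exists_J [NeZero m] (D0 : Dv F) (hD0 : CoprimeTo m D0) :
    ∃ J : Ideal (𝓞 F), J ≠ ⊥ ∧ CoprimeTo m (fd_dv J) ∧ fd_dv J + D0 ∈ fd_Pm F m := by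
  classical
  have hfin := fd_finite_rayCl F m
  obtain ⟨h, hh⟩ : ∃ h : ℕ, h = Nat.card (fd_RayCl F m) := ⟨_, rfl⟩
  have hpos : 0 < h := hh ▸ Nat.card_pos
  -- positive and negative parts
  obtain ⟨Dp, hDp⟩ : ∃ Dp : Pl F →₀ ℕ, ∀ v, Dp v = (D0 v).toNat :=
    ⟨D0.mapRange Int.toNat Int.toNat_zero, fun v => Finsupp.mapRange_apply ..⟩
  obtain ⟨Dn, hDn⟩ : ∃ Dn : Pl F →₀ ℕ, ∀ v, Dn v = (-(D0 v)).toNat :=
    ⟨(-D0).mapRange Int.toNat Int.toNat_zero, fun v => by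
      rw [Finsupp.mapRange_apply, Finsupp.neg_apply]⟩
  have hsplit : ∀ v, D0 v = (Dp v : ℤ) - (Dn v : ℤ) := fun v => by
    rw [hDp, hDn]
    exact (Int.toNat_sub_toNat_neg (D0 v)).symm
  obtain ⟨E, hE⟩ : ∃ E : Pl F →₀ ℕ, ∀ v, E v = (h - 1) * Dp v + Dn v :=
    ⟨(h - 1) • Dp + Dn, fun v => by
      rw [Finsupp.add_apply, Finsupp.smul_apply, smul_eq_mul]⟩
  have hcast : ((h - 1 : ℕ) : ℤ) = (h : ℤ) - 1 := by
    rw [Nat.cast_sub hpos]; simp
  have hdvJ : ∀ v, fd_dv (fbr_ideal E) v = ((h : ℤ) - 1) * (Dp v : ℤ) + (Dn v : ℤ) := fun v => by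
    rw [fbr_dv_ideal, hE, ← hcast]
    push_cast
    rfl
  obtain ⟨DpZ, hDpZ⟩ : ∃ DpZ : Dv F, ∀ v, DpZ v = (Dp v : ℤ) :=
    ⟨Dp.mapRange (Nat.cast : ℕ → ℤ) Nat.cast_zero, fun v => Finsupp.mapRange_apply ..⟩
  have hsum : fd_dv (fbr_ideal E) + D0 = h • DpZ := by
    ext v
    rw [Finsupp.add_apply, hdvJ, hsplit v, Finsupp.smul_apply, hDpZ, nsmul_eq_mul]
    ring
  have hcopE : CoprimeTo m (fd_dv (fbr_ideal E)) := fun v hv => by
    have h0 := hD0 v hv
    have hp0 : Dp v = 0 := by rw [hDp, h0]; rfl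
    have hn0 : Dn v = 0 := by rw [hDn, h0]; rfl
    rw [hdvJ, hp0, hn0]; simp
  refine ⟨fbr_ideal E, fbr_ideal_ne_bot E, hcopE, ?_⟩
  refine fd_mem_Pm_of_coprime m ?_ (fd_coprimeTo_add m hcopE hD0)
  rw [hsum, hh]
  exact fbr_card_nsmul_mem m _

/-- the bridge C1a + C1b in the shape used by `FIRayFinal` -/
theorem fbr_bridge [NeZero m] (D0 : Dv F) (hD0 : CoprimeTo m D0) :
    ∃ J : (Ideal (𝓞 F))⁰, IsCoprime (J : Ideal (𝓞 F)) (Ideal.span {((m : ℕ) : 𝓞 F)}) ∧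
      ∀ I : Ideal (𝓞 F), I ≠ ⊥ →
        (fd_dv I - D0 ∈ fd_Pm F m ↔
          ∃ a : 𝓞 F, a - 1 ∈ Ideal.span {((m : ℕ) : 𝓞 F)} ∧
            (J : Ideal (𝓞 F)) * I = Ideal.span {a}) := by
  obtain ⟨J, hJ, hJcop, hJD⟩ := fbr_exists_J m D0 hD0
  refine ⟨⟨J, mem_nonZeroDivisors_iff_ne_zero.mpr hJ⟩, (fd_coprime_iff m hJ).mp hJcop,
    fun I hI => ?_⟩
  show fd_dv I - D0 ∈ fd_Pm F m ↔ ∃ a : 𝓞 F, a - 1 ∈ Ideal.span {((m : ℕ) : 𝓞 F)} ∧
    J * I = Ideal.span {a}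
  rw [← fbr_mem_Pm_iff m (mul_ne_zero hJ hI), fd_dv_mul hJ hI]
  have e : fd_dv J + fd_dv I = (fd_dv I - D0) + (fd_dv J + D0) := by abel
  rw [e]
  constructor
  · intro h
    exact (fd_Pm F m).add_mem h hJD
  · intro h
    have := (fd_Pm F m).sub_mem h hJD
    rwa [add_sub_cancel_right] at this

end Fermat.Agent.S14x
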