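/-
S14 / FI-C (C2, helper2): counting points of a SHIFTED ideal lattice in the fundamental cone with a
power-saving error term, uniformly in the shift.  Thin wrapper over helper25's
`fb_count_fundamentalCone` (S14x/FIFrontier.lean): transport from `euclidean.mixedSpace F` to
`mixedSpace F` along `toMixed`.

* `fc_count_shift` : for every invertible fractional ideal `I` there is `C` with, for all `X ≥ 1`
  and all `b : F`:
  `|#{a ∈ fundamentalCone F | norm a ≤ X, a - b ∈ idealLattice F I}
      - vol(normLeOne F) / covol(idealLattice F I) * X| ≤ C * X^(1-1/[F:ℚ])`.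
-/
import Fermat.Agent.S14x.FIFrontier

set_option autoImplicit false

open NumberField NumberField.mixedEmbedding NumberField.mixedEmbedding.fundamentalCone
  NumberField.mixedEmbedding.euclidean
open MeasureTheory Set Module
open scoped nonZeroDivisors Classical

namespace Fermat.Agent.S14x

noncomputable section

variable (F : Type*) [Field F] [NumberField F]

/-- the lattice of an ideal pulled back to the euclidean mixed space -/
abbrev fcLat (I : (FractionalIdeal (𝓞 F)⁰ F)ˣ) : Submodule ℤ (euclidean.mixedSpace F) :=
  ZLattice.comap ℝ (idealLattice F I) (toMixed F).toLinearMap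

theorem fc_mem_fcLat (I : (FractionalIdeal (𝓞 F)⁰ F)ˣ) (x : euclidean.mixedSpace F) :
    x ∈ fcLat F I ↔ toMixed F x ∈ idealLattice F I := by
  rw [← SetLike.mem_coe, ZLattice.coe_comap, Set.mem_preimage]
  rfl

/-- the counting set in the euclidean space and in the mixed space are in bijection -/
def fcEquiv (I : (FractionalIdeal (𝓞 F)⁰ F)ˣ) (c : ℝ) (b : F) :
    {x : euclidean.mixedSpace F // (x ∈ toMixed F ⁻¹' fundamentalCone F ∧
        mixedEmbedding.norm (toMixed F x) ≤ c) ∧
        x - (toMixed F).symm (mixedEmbedding F b) ∈ fcLat F I} ≃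
    {a : mixedSpace F // a ∈ fundamentalCone F ∧ mixedEmbedding.norm a ≤ c ∧
        a - mixedEmbedding F b ∈ idealLattice F I} where
  toFun x := ⟨toMixed F x.1, x.2.1.1, x.2.1.2, by
    have h := x.2.2
    rw [fc_mem_fcLat, map_sub, ContinuousLinearEquiv.apply_symm_apply] at h
    exact h⟩
  invFun a := ⟨(toMixed F).symm a.1, ⟨by
      rw [Set.mem_preimage, ContinuousLinearEquiv.apply_symm_apply]; exact a.2.1, by
      rw [ContinuousLinearEquiv.apply_symm_apply]; exact a.2.2.1⟩, by
    rw [fc_mem_fcLat, map_sub, ContinuousLinearEquiv.apply_symm_apply,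
      ContinuousLinearEquiv.apply_symm_apply]
    exact a.2.2.2⟩
  left_inv x := by
    apply Subtype.ext
    exact ContinuousLinearEquiv.symm_apply_apply _ _
  right_inv a := by
    apply Subtype.ext
    exact ContinuousLinearEquiv.apply_symm_apply _ _

/-- **C2**: shifted ideal-lattice points in the fundamental cone, with error term.
The constant is uniform in the shift `b`. -/
theorem fc_count_shift (I : (FractionalIdeal (𝓞 F)⁰ F)ˣ) :
    ∃ C : ℝ, ∀ X : ℝ, 1 ≤ X → ∀ b : F,
      |(Nat.card {a : mixedSpace F // a ∈ fundamentalCone F ∧ mixedEmbedding.norm a ≤ X ∧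
            a - mixedEmbedding F b ∈ idealLattice F I} : ℝ)
        - volume.real (normLeOne F) / ZLattice.covolume (idealLattice F I) * X|
      ≤ C * X ^ (1 - 1 / (finrank ℚ F : ℝ)) := by
  obtain ⟨C, hC⟩ := fb_count_fundamentalCone F (fcLat F I)
  refine ⟨C, fun X hX b => ?_⟩
  have key := hC X hX ((toMixed F).symm (mixedEmbedding F b))
  have hcov : ZLattice.covolume (fcLat F I) = ZLattice.covolume (idealLattice F I) :=
    ZLattice.covolume_comap _ _ _ (volumePreserving_toMixed F)
  rw [hcov, Nat.card_congr (fcEquiv F I X b)] at key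
  exact key

end

end Fermat.Agent.S14x
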