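/-
S14 / FI-C (helper2): abstract final assembly of the ray-class counting theorem.

Given the algebraic dictionary (C1, helper4: `w * #{ideals of norm ≤ x in the class}` is a sum over
`fc_unitIndex F m` shifted lattices `b + (m)J` of cone-point counts with norm `≤ x * N J`), the
shifted-lattice count `fc_count_shift` gives

  `|#{ideals of norm ≤ x in the class} - fc_kappa F m * x| ≤ C * x^(1-1/[F:ℚ])`,

with `fc_kappa F m > 0` INDEPENDENT of the class.
-/
import Fermat.Agent.S14x.FIRayDefs
import Fermat.Agent.S14x.FIRayCount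

set_option autoImplicit false

open NumberField NumberField.mixedEmbedding NumberField.mixedEmbedding.fundamentalCone
  NumberField.Units
open MeasureTheory Set Module
open scoped nonZeroDivisors Classical

namespace Fermat.Agent.S14x

noncomputable section

variable (F : Type*) [Field F] [NumberField F]

/-- the density of integral ideals in a fixed ray class modulo `m` -/
def fc_kappa (m : ℕ) [NeZero m] : ℝ :=
  (fc_unitIndex F m : ℝ) * volume.real (normLeOne F) /
    ((torsionOrder F : ℝ) *
      ZLattice.covolume (idealLattice F (FractionalIdeal.mk0 F (fc_natIdeal F m))))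

theorem fc_volume_normLeOne_pos : 0 < volume.real (normLeOne F) := by
  rw [measureReal_def, volume_normLeOne]
  refine ENNReal.toReal_pos ?_ ?_
  · refine mul_ne_zero (mul_ne_zero (by simp) (by simp [NNReal.pi_ne_zero])) ?_
    simpa using regulator_pos F
  · refine ENNReal.mul_ne_top (ENNReal.mul_ne_top (by simp) (by simp)) ENNReal.ofReal_ne_top

theorem fc_kappa_pos (m : ℕ) [NeZero m] : 0 < fc_kappa F m := by
  unfold fc_kappa
  have h1 : (0 : ℝ) < fc_unitIndex F m := by exact_mod_cast fc_unitIndex_pos F m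
  have h2 : (0 : ℝ) < torsionOrder F := by exact_mod_cast torsionOrder_pos F
  have h3 := ZLattice.covolume_pos (idealLattice F (FractionalIdeal.mk0 F (fc_natIdeal F m))) volume
  have h4 := fc_volume_normLeOne_pos F
  positivity

theorem fc_covolume_mulNat (m : ℕ) [NeZero m] (J : (Ideal (𝓞 F))⁰) :
    ZLattice.covolume (idealLattice F (FractionalIdeal.mk0 F (fc_mulNat F m J))) =
      ZLattice.covolume (idealLattice F (FractionalIdeal.mk0 F (fc_natIdeal F m))) *
        (Ideal.absNorm (J : Ideal (𝓞 F)) : ℝ) := by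
  rw [covolume_idealLattice, covolume_idealLattice, FractionalIdeal.coe_mk0,
    FractionalIdeal.coe_mk0, FractionalIdeal.coeIdeal_absNorm, FractionalIdeal.coeIdeal_absNorm,
    fc_mulNat_coe, map_mul, ← fc_natIdeal_coe]
  push_cast
  ring

/-- **FI-C, abstract assembly.** -/
theorem fc_main_of (m : ℕ) [NeZero m] (cnt : ℝ → ℕ)
    (J : (Ideal (𝓞 F))⁰) (S : Finset (𝓞 F)) (hS : S.card = fc_unitIndex F m)
    (hcnt : ∀ x : ℝ, torsionOrder F * cnt x =
      ∑ b ∈ S, Nat.card {a : mixedSpace F // a ∈ fundamentalCone F ∧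
        mixedEmbedding.norm a ≤ x * (Ideal.absNorm (J : Ideal (𝓞 F)) : ℝ) ∧
        a - mixedEmbedding F (b : F) ∈
          idealLattice F (FractionalIdeal.mk0 F (fc_mulNat F m J))}) :
    ∃ C : ℝ, ∀ x : ℝ, 1 ≤ x →
      |(cnt x : ℝ) - fc_kappa F m * x| ≤ C * x ^ (1 - 1 / (finrank ℚ F : ℝ)) := by
  obtain ⟨C, hC⟩ := fc_count_shift F (FractionalIdeal.mk0 F (fc_mulNat F m J))
  set N : ℝ := (Ideal.absNorm (J : Ideal (𝓞 F)) : ℝ) with hN
  set e : ℝ := 1 - 1 / (finrank ℚ F : ℝ) with he
  set w : ℝ := (torsionOrder F : ℝ) with hw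
  set V : ℝ := volume.real (normLeOne F) with hV
  set cov : ℝ :=
    ZLattice.covolume (idealLattice F (FractionalIdeal.mk0 F (fc_natIdeal F m))) with hcov
  have hN1 : 1 ≤ N := by
    rw [hN]
    exact_mod_cast Nat.one_le_iff_ne_zero.mpr (Ideal.absNorm_ne_zero_of_nonZeroDivisors J)
  have hN0 : 0 < N := lt_of_lt_of_le one_pos hN1
  have hw0 : 0 < w := by rw [hw]; exact_mod_cast torsionOrder_pos F
  have hcov0 : 0 < cov :=
    ZLattice.covolume_pos (idealLattice F (FractionalIdeal.mk0 F (fc_natIdeal F m))) volume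
  refine ⟨(S.card : ℝ) * C * N ^ e / w, fun x hx => ?_⟩
  have hx0 : 0 < x := lt_of_lt_of_le one_pos hx
  have hX1 : 1 ≤ x * N := by nlinarith
  have hterm : ∀ b ∈ S,
      |(Nat.card {a : mixedSpace F // a ∈ fundamentalCone F ∧
        mixedEmbedding.norm a ≤ x * N ∧
        a - mixedEmbedding F (b : F) ∈
          idealLattice F (FractionalIdeal.mk0 F (fc_mulNat F m J))} : ℝ) - V / cov * x|
        ≤ C * (x * N) ^ e := by
    intro b _
    have h := hC (x * N) hX1 (b : F)
    rw [fc_covolume_mulNat] at h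
    have heq : V / (cov * N) * (x * N) = V / cov * x := by
      field_simp
    rwa [heq] at h
  have hsum : |((torsionOrder F * cnt x : ℕ) : ℝ) - (S.card : ℝ) * (V / cov * x)|
      ≤ (S.card : ℝ) * (C * (x * N) ^ e) := by
    rw [hcnt x, Nat.cast_sum]
    have : (S.card : ℝ) * (V / cov * x) = ∑ _b ∈ S, V / cov * x := by
      rw [Finset.sum_const, nsmul_eq_mul]
    rw [this, ← Finset.sum_sub_distrib]
    refine (Finset.abs_sum_le_sum_abs _ _).trans ?_
    refine (Finset.sum_le_sum hterm).trans ?_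
    rw [Finset.sum_const, nsmul_eq_mul]
  have hmul : (x * N) ^ e = x ^ e * N ^ e := Real.mul_rpow hx0.le hN0.le
  have hk0 : fc_kappa F m = (S.card : ℝ) * V / (w * cov) := by rw [hS]; rfl
  have hk : fc_kappa F m * x = (S.card : ℝ) * (V / cov * x) / w := by
    rw [hk0]
    field_simp
  have hc0 : ((torsionOrder F * cnt x : ℕ) : ℝ) = w * (cnt x : ℝ) := by
    rw [Nat.cast_mul]
  have hc : (cnt x : ℝ) = ((torsionOrder F * cnt x : ℕ) : ℝ) / w := by
    rw [hc0]
    field_simp
  rw [hk, hc, ← sub_div, abs_div, abs_of_pos hw0]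
  calc _ ≤ (S.card : ℝ) * (C * (x * N) ^ e) / w := by gcongr
    _ = (S.card : ℝ) * C * N ^ e / w * x ^ e := by rw [hmul]; ring

end

end Fermat.Agent.S14x
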