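/-
S14 / FI (analytic norm-index inequality) : SUB-SPEC (FI captain helper82).
SORRY-ONLY interface file: NEVER import it from a real module.  Real modules restate the
statements they prove/consume (namespace `Fermat.Agent.S14x`, fresh prefixed names).
The REAL definitions `fd_Pm fd_Sm fd_dv` live in `S14x/FICharDefs.lean` (helper78); the copies
below (namespace `FISpec`) are only here so that this file typechecks stand-alone.
The REAL definitions `fgG fgA` live in `S14x/FIGDefs.lean` (helper82).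

Rows:  FI-C (fc_count)  FI-D (fd_*)  FI-E (landed: ab_LSeries_norm_le / fie_norm_LSeries_le)
       FI-F (fe_*)  and the FI-G sub-rows FG-TC FG-CHAR FG-MUL FG-L1 FG-L2 FG-L3 FG-L4 FG-P FG-ZM
       FG-POLE FG-CARD FG-MAIN.
-/
import Fermat.Agent.S14x.Defs

set_option autoImplicit false

namespace Fermat.Agent.S14x.FISpec

open NumberField IsDedekindDomain

/-! ## copies of the FI-D definitions (helper78) -/
section Defs
variable (F : Type*) [Field F] [NumberField F] (m : ℕ)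

/-- principal ray divisors mod `m` -/
noncomputable def fd_Pm : AddSubgroup (Dv F) :=
  AddSubgroup.closure {D | ∃ x : 𝓞 F, x ≠ 0 ∧ x - 1 ∈ Ideal.span {(m : 𝓞 F)} ∧ D = divOf (x : F)}

/-- divisors supported on the primes dividing `m` -/
noncomputable def fd_Sm : AddSubgroup (Dv F) :=
  AddSubgroup.closure {D | ∃ v : Pl F, (m : 𝓞 F) ∈ v.asIdeal ∧ D = Finsupp.single v 1}

variable {F}
/-- divisor of a nonzero integral ideal (`0` for `⊥`) -/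
noncomputable def fd_dv (I : Ideal (𝓞 F)) : Dv F := sorry

variable (F)
/-- FI-G coefficient function on ideals attached to a character of `Dv F ⧸ H`. -/
noncomputable def fgG (H : AddSubgroup (Dv F)) (χ : AddChar (Dv F ⧸ H) ℂ) (I : Ideal (𝓞 F)) : ℂ :=
  open Classical in
  if I ≠ ⊥ ∧ CoprimeTo m (fd_dv I) then χ (QuotientAddGroup.mk (fd_dv I)) else 0

/-- Dirichlet coefficients `a_χ(n) = ∑_{N I = n} g_χ(I)` (shape of helper31's `fe_tsum_eq_LSeries`). -/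
noncomputable def fgA (H : AddSubgroup (Dv F)) (χ : AddChar (Dv F ⧸ H) ℂ) (n : ℕ) : ℂ :=
  ∑' I : {I : Ideal (𝓞 F) // Ideal.absNorm I = n}, fgG F m H χ I.1

end Defs

/-! ## FI-C  (helper2 squad 1, helper4 squad 2): ray class counting with power saving error -/
section FIC
variable (F : Type*) [Field F] [NumberField F] (m : ℕ)

theorem fc_count [NumberField.IsTotallyComplex F] [NeZero m] :
    ∃ κ : ℝ, ∀ D0 : Dv F, ∃ C : ℝ, ∀ N : ℕ, 1 ≤ N →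
      |(Nat.card {I : Ideal (𝓞 F) // I ≠ ⊥ ∧ CoprimeTo m (fd_dv I) ∧ Ideal.absNorm I ≤ N ∧
          fd_dv I - D0 ∈ fd_Pm F m ⊔ fd_Sm F m} : ℝ) - κ * N| ≤
        C * (N : ℝ) ^ (1 - 1 / (Module.finrank ℚ F : ℝ)) := sorry

end FIC

/-! ## FI-D (helper78): finiteness + dictionary -/
section FID
variable (F M : Type*) [Field F] [NumberField F] [Field M] [NumberField M] [Algebra F M]
  (m : ℕ)

theorem fd_finite_quotient [NeZero m] (H : AddSubgroup (Dv F)) (hH : fd_Pm F m ⊔ fd_Sm F m ≤ H) :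
    Finite (Dv F ⧸ H) := sorry
theorem fd_Pm_le_rayGroup : fd_Pm F m ≤ rayGroup F M m := sorry
theorem fd_rayGroup_sup_finite [NeZero m] : Finite (Dv F ⧸ (rayGroup F M m ⊔ fd_Sm F m)) := sorry

variable {F}
theorem fd_dv_bot : fd_dv (⊥ : Ideal (𝓞 F)) = 0 := sorry
theorem fd_dv_top : fd_dv (⊤ : Ideal (𝓞 F)) = 0 := sorry
theorem fd_dv_mul {I J : Ideal (𝓞 F)} (hI : I ≠ ⊥) (hJ : J ≠ ⊥) :
    fd_dv (I * J) = fd_dv I + fd_dv J := sorry
theorem fd_dv_span_singleton {x : 𝓞 F} (hx : x ≠ 0) :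
    fd_dv (Ideal.span {x}) = divOf (x : F) := sorry
theorem fd_dv_asIdeal (v : Pl F) : fd_dv v.asIdeal = Finsupp.single v 1 := sorry
theorem fd_dv_nonneg (I : Ideal (𝓞 F)) (v : Pl F) : 0 ≤ fd_dv I v := sorry
theorem fd_dv_apply_pos_iff {I : Ideal (𝓞 F)} (hI : I ≠ ⊥) (v : Pl F) :
    0 < fd_dv I v ↔ I ≤ v.asIdeal := sorry
theorem fd_dv_injective {I J : Ideal (𝓞 F)} (hI : I ≠ ⊥) (hJ : J ≠ ⊥) (h : fd_dv I = fd_dv J) :
    I = J := sorry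
theorem fd_coprime_iff {I : Ideal (𝓞 F)} (hI : I ≠ ⊥) :
    CoprimeTo m (fd_dv I) ↔ IsCoprime I (Ideal.span {(m : 𝓞 F)}) := sorry
/-- a divisor prime to `m` in `P_m + S_m` is in `P_m`. -/
theorem fd_mem_Pm_of_coprime {D : Dv F} (h : D ∈ fd_Pm F m ⊔ fd_Sm F m) (hD : CoprimeTo m D) :
    D ∈ fd_Pm F m := sorry
theorem fd_mem_rayGroup_of_coprime {D : Dv F} (h : D ∈ rayGroup F M m ⊔ fd_Sm F m)
    (hD : CoprimeTo m D) : D ∈ rayGroup F M m := sorry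
theorem fd_exists_coprime_rep (D : Dv F) : ∃ D' : Dv F, CoprimeTo m D' ∧ D - D' ∈ fd_Sm F m := sorry

end FID

/-! ## FI-F (helper31 F1 + F2, helper43 bridge) -/
section FIF
open Complex

theorem fe_tsum_eq_cexp {R : Type*} [CommRing R] [IsDedekindDomain R] (f : Ideal R → ℂ)
    (h1 : f ⊤ = 1) (hmul : ∀ I J : Ideal R, f (I * J) = f I * f J)
    (hsum : Summable (fun I : {I : Ideal R // I ≠ ⊥} => ‖f I.1‖))
    (hlt : ∀ v : HeightOneSpectrum R, ‖f v.asIdeal‖ < 1) :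
    Summable (fun v : HeightOneSpectrum R => -Complex.log (1 - f v.asIdeal)) ∧
    ∑' I : {I : Ideal R // I ≠ ⊥}, f I.1 =
      cexp (∑' v : HeightOneSpectrum R, -Complex.log (1 - f v.asIdeal)) := sorry

variable (F : Type*) [Field F] [NumberField F]

theorem fe_summable_absNorm_rpow (s : ℝ) (hs : 1 < s) :
    Summable (fun I : {I : Ideal (𝓞 F) // I ≠ ⊥} => ((Ideal.absNorm I.1 : ℝ)) ^ (-s)) := sorry

theorem fe_tsum_eq_LSeries (g : Ideal (𝓞 F) → ℂ) (hg : ∀ I, ‖g I‖ ≤ 1) (s : ℂ) (hs : 1 < s.re) :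
    ∑' I : {I : Ideal (𝓞 F) // I ≠ ⊥}, g I.1 * ((Ideal.absNorm I.1 : ℂ)) ^ (-s) =
      LSeries (fun n => ∑' I : {I : Ideal (𝓞 F) // Ideal.absNorm I = n}, g I.1) s := sorry

theorem fe_tsum_absNorm_eq_dedekindZeta (s : ℂ) (hs : 1 < s.re) :
    ∑' I : {I : Ideal (𝓞 F) // I ≠ ⊥}, ((Ideal.absNorm I.1 : ℂ)) ^ (-s) =
      NumberField.dedekindZeta F s := sorry

/-- WANTED in addition (helper43 bridge): summability of the grouped series -/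
theorem fe_LSeriesSummable (g : Ideal (𝓞 F) → ℂ) (hg : ∀ I, ‖g I‖ ≤ 1) (s : ℂ) (hs : 1 < s.re) :
    LSeriesSummable (fun n => ∑' I : {I : Ideal (𝓞 F) // Ideal.absNorm I = n}, g I.1) s := sorry

/-- WANTED in addition (helper43 bridge): partial sums of the grouped coefficients -/
theorem fe_sum_Icc_eq (g : Ideal (𝓞 F) → ℂ) (N : ℕ) :
    ∑ n ∈ Finset.Icc 1 N, (∑' I : {I : Ideal (𝓞 F) // Ideal.absNorm I = n}, g I.1) =
      ∑ᶠ I : {I : Ideal (𝓞 F) // I ≠ ⊥ ∧ Ideal.absNorm I ≤ N}, g I.1 := sorry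

end FIF

/-! ## FI-G sub-rows -/
section FIG
open Complex

/-- FG-CHAR (abstract, Mathlib only). -/
theorem fg_char_log_sum {Q : Type*} [AddCommGroup Q] [Finite Q] (q : Q) (z : ℝ) (hz0 : 0 ≤ z)
    (hz1 : z < 1) :
    ∃ r : ℝ, 0 ≤ r ∧ (q = 0 → z ≤ r) ∧
      ∑ χ : AddChar Q ℂ, -Complex.log (1 - χ q * (z : ℂ)) = (Nat.card Q : ℂ) * (r : ℂ) := sorry

/-- FG-POLE (Mathlib only). -/
theorem fg_zeta_pole (K : Type*) [Field K] [NumberField K] :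
    ∃ ε c C : ℝ, 0 < ε ∧ 0 < c ∧ ∀ s : ℝ, 1 < s → s < 1 + ε →
      c / (s - 1) ≤ ‖dedekindZeta K (s : ℂ)‖ ∧ ‖dedekindZeta K (s : ℂ)‖ ≤ C / (s - 1) := sorry

variable {p : ℕ} [Fact p.Prime] {F M : Type} [Field F] [NumberField F] [Field M] [NumberField M]
  [Algebra F M] [IsGalois F M] {g : M ≃ₐ[F] M}

/-- FG-TC -/
theorem fg_totallyComplex (hp : p ≠ 2) (h : IsUCyc p F M g) : NumberField.IsTotallyComplex F := sorry

variable (m : ℕ) (H : AddSubgroup (Dv F))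

/-- FG-MUL -/
theorem fg_G_top (χ : AddChar (Dv F ⧸ H) ℂ) : fgG F m H χ ⊤ = 1 := sorry
theorem fg_G_bot (χ : AddChar (Dv F ⧸ H) ℂ) : fgG F m H χ ⊥ = 0 := sorry
theorem fg_G_mul (χ : AddChar (Dv F ⧸ H) ℂ) (I J : Ideal (𝓞 F)) :
    fgG F m H χ (I * J) = fgG F m H χ I * fgG F m H χ J := sorry
theorem fg_G_norm_le [Finite (Dv F ⧸ H)] (χ : AddChar (Dv F ⧸ H) ℂ) (I : Ideal (𝓞 F)) :
    ‖fgG F m H χ I‖ ≤ 1 := sorry
theorem fg_G_prime (χ : AddChar (Dv F ⧸ H) ℂ) (v : Pl F) :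
    fgG F m H χ v.asIdeal =
      open Classical in if (m : 𝓞 F) ∈ v.asIdeal then 0 else χ (QuotientAddGroup.mk (Finsupp.single v 1)) :=
  sorry

/-- FG-L1: character sum bound (FI-C + orthogonality on `Dv F ⧸ (P_m ⊔ S_m)`). -/
theorem fg_charsum_le [NumberField.IsTotallyComplex F] [NeZero m]
    (hH : fd_Pm F m ⊔ fd_Sm F m ≤ H) (χ : AddChar (Dv F ⧸ H) ℂ) (hχ : χ ≠ 0) :
    ∃ C : ℝ, ∀ N : ℕ, ‖∑ n ∈ Finset.Icc 1 N, fgA F m H χ n‖ ≤
      C * (N : ℝ) ^ (1 - 1 / (Module.finrank ℚ F : ℝ)) := sorry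

/-- FG-L2: `L(s,χ)` bounded on `(1,2]` for `χ ≠ 0`. -/
theorem fg_L_bounded [NumberField.IsTotallyComplex F] [NeZero m]
    (hH : fd_Pm F m ⊔ fd_Sm F m ≤ H) (χ : AddChar (Dv F ⧸ H) ℂ) (hχ : χ ≠ 0) :
    ∃ B : ℝ, ∀ s : ℝ, 1 < s → s ≤ 2 → ‖LSeries (fgA F m H χ) (s : ℂ)‖ ≤ B := sorry

/-- FG-L3: Euler product in exp-log form. -/
theorem fg_L_eq_cexp [Finite (Dv F ⧸ H)] (χ : AddChar (Dv F ⧸ H) ℂ) (s : ℝ) (hs : 1 < s) :
    Summable (fun v : Pl F => -Complex.log (1 - fgG F m H χ v.asIdeal * ((plNorm v : ℂ)) ^ (-(s : ℂ))))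
    ∧ LSeries (fgA F m H χ) (s : ℂ) =
      cexp (∑' v : Pl F, -Complex.log (1 - fgG F m H χ v.asIdeal * ((plNorm v : ℂ)) ^ (-(s : ℂ)))) :=
  sorry

/-- FG-L4: any `L(s,χ)` is dominated by `ζ_F(s)`. -/
theorem fg_L_le_zeta [Finite (Dv F ⧸ H)] (χ : AddChar (Dv F ⧸ H) ℂ) (s : ℝ) (hs : 1 < s) :
    ‖LSeries (fgA F m H χ) (s : ℂ)‖ ≤ ‖dedekindZeta F (s : ℂ)‖ := sorry

/-- FG-P: product over all characters (uses FG-CHAR, FG-L3). -/
theorem fg_prod_ge [Finite (Dv F ⧸ H)] (S : Set (Pl F))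
    (hS : ∀ v ∈ S, (m : 𝓞 F) ∉ v.asIdeal ∧ Finsupp.single v 1 ∈ H) (s : ℝ) (hs : 1 < s) :
    Real.exp ((Nat.card (Dv F ⧸ H) : ℝ) * ∑' v : S, ((plNorm v.1 : ℝ)) ^ (-s)) ≤
      ‖∏ χ : AddChar (Dv F ⧸ H) ℂ, LSeries (fgA F m H χ) (s : ℂ)‖ := sorry

/-- FG-ZM: upper bound for `ζ_M` (splitting types in `M/F` + FI-F for `M`). -/
theorem fg_zetaM_le (h : IsUCyc p F M g) [NeZero m] :
    ∃ B : ℝ, ∀ s : ℝ, 1 < s → s ≤ 2 →
      ‖dedekindZeta M (s : ℂ)‖ ≤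
        Real.exp ((p : ℝ) * ∑' v : {v : Pl F | (m : 𝓞 F) ∉ v.asIdeal ∧ SplitsCompletely F M v},
          ((plNorm v.1 : ℝ)) ^ (-s) + B) := sorry

/-- FG-CARD: the norm index inequality. -/
theorem fg_card_le (hp : p ≠ 2) (h : IsUCyc p F M g) [NeZero m] :
    Nat.card (Dv F ⧸ (rayGroup F M m ⊔ fd_Sm F m)) ≤ p := sorry

/-- FG-MAIN = Spec.fi_main -/
theorem fi_main (hp : p ≠ 2) (h : IsUCyc p F M g) (m : ℕ) [NeZero m]
    (ψ : Dv F →+ ZMod p) (hker : rayGroup F M m ≤ ψ.ker)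
    (hsurj : ∃ D₀ : Dv F, CoprimeTo m D₀ ∧ ψ D₀ ≠ 0)
    (D : Dv F) (hD : CoprimeTo m D) (h0 : ψ D = 0) : D ∈ rayGroup F M m := sorry

end FIG

end Fermat.Agent.S14x.FISpec
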