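/-
# FI-C helper: the "unit trick" for ray classes (helper25), Mathlib only

`K` a number field, `mI` (the modulus) and `J` coprime ideals of `𝓞 K`, `a0 ∈ J`, `a0 ≡ 1 mod mI`,
`S` a set of representatives (units) of the image of `(𝓞 K)ˣ` in `(𝓞 K ⧸ mI)ˣ`.

* `fuP mI J I`  : `I` is principal with a generator in `J` congruent to `1` modulo `mI`;
* `fu_card_mul_torsion` : `#{I | fuP I, N I ≤ X} * torsionOrder K`
    `= #{y ∈ integerSet | norm y ≤ X, preimage y ∈ J and is a unit mod mI}`  (via `integerSetEquiv`);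
* `fu_card_eq_sum` : the latter `= ∑_{s ∈ S} #{a ∈ fundamentalCone | norm a ≤ X,`
    `a - mixedEmbedding (s * a0) ∈ idealLattice (mI * J)}`;
* `fu_main` : the combination;  `fu_exists_reps` : existence of `S`, with
  `S.card = Nat.card (range (Units.map (Ideal.Quotient.mk mI)))`.
-/
import Mathlib

set_option autoImplicit false

open NumberField NumberField.mixedEmbedding NumberField.mixedEmbedding.fundamentalCone
  NumberField.Units Ideal Submodule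
open scoped nonZeroDivisors Classical

namespace Fermat.Agent.S14x

theorem fu_card_partition {α ι : Type*} (S : Finset ι) (PT : ι → α → Prop) (PL : α → Prop)
    (h1 : ∀ a, PL a ↔ ∃ s ∈ S, PT s a)
    (h2 : ∀ a, ∀ s ∈ S, ∀ s' ∈ S, PT s a → PT s' a → s = s')
    (hfin : ∀ s ∈ S, {a | PT s a}.Finite) :
    Nat.card {a // PL a} = ∑ s ∈ S, Nat.card {a // PT s a} := by
  let F : ι → Finset α := fun s => if hs : s ∈ S then (hfin s hs).toFinset else ∅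
  have hF : ∀ s ∈ S, ∀ a, a ∈ F s ↔ PT s a := by
    intro s hs a
    simp [F, hs]
  have hset : {a | PL a} = ↑(S.biUnion F) := by
    ext a
    simp only [Set.mem_ofPred_eq, Finset.coe_biUnion, Set.mem_iUnion, Finset.mem_coe, h1]
    constructor
    · rintro ⟨s, hs, hsa⟩
      exact ⟨s, hs, (hF s hs a).mpr hsa⟩
    · rintro ⟨s, hs, hsa⟩
      exact ⟨s, hs, (hF s hs a).mp hsa⟩
  have hL : Nat.card {a // PL a} = (S.biUnion F).card := by
    have : Nat.card {a // PL a} = Nat.card ↥({a | PL a} : Set α) := rfl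
    rw [this, hset, Nat.card_coe_set_eq, Set.ncard_coe_finset]
  rw [hL, Finset.card_biUnion]
  · refine Finset.sum_congr rfl fun s hs => ?_
    have : Nat.card {a // PT s a} = Nat.card ↥({a | PT s a} : Set α) := rfl
    rw [this, Nat.card_eq_card_finite_toFinset (hfin s hs)]
    congr 1
    ext a
    simp [hF s hs a]
  · intro s hs s' hs' hne
    show Disjoint (F s) (F s')
    rw [Finset.disjoint_left]
    intro a ha ha'
    exact hne (h2 a s hs s' hs' ((hF s hs a).mp ha) ((hF s' hs' a).mp ha'))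


variable {K : Type*} [Field K] [NumberField K]

/-- `I` is principal with a generator in `J` congruent to `1` modulo `mI`. -/
def fuP (mI J : Ideal (𝓞 K)) (I : Ideal (𝓞 K)) : Prop :=
  ∃ a : 𝓞 K, I = Ideal.span {a} ∧ a ∈ J ∧ a - 1 ∈ mI

/-- `b ∈ J` and `b` is congruent to a unit modulo `mI`. -/
def fuQ (mI J : Ideal (𝓞 K)) (b : 𝓞 K) : Prop :=
  b ∈ J ∧ ∃ u : (𝓞 K)ˣ, b - (u : 𝓞 K) ∈ mI

omit [NumberField K] in
theorem fuQ_iff_fuP (mI J : Ideal (𝓞 K)) (b : 𝓞 K) : fuQ mI J b ↔ fuP mI J (Ideal.span {b}) := by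
  constructor
  · rintro ⟨hbJ, u, hu⟩
    refine ⟨(↑u⁻¹ : 𝓞 K) * b, ?_, J.mul_mem_left _ hbJ, ?_⟩
    · rw [Ideal.span_singleton_eq_span_singleton]
      exact ⟨u⁻¹, by rw [mul_comm]⟩
    · have : (↑u⁻¹ : 𝓞 K) * b - 1 = (↑u⁻¹ : 𝓞 K) * (b - u) := by
        rw [mul_sub, Units.inv_mul]
      rw [this]
      exact mI.mul_mem_left _ hu
  · rintro ⟨a, hab, haJ, ha1⟩
    rw [Ideal.span_singleton_eq_span_singleton] at hab
    obtain ⟨u, hu⟩ := hab
    have hb : b = a * (↑u⁻¹ : 𝓞 K) := by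
      rw [← hu, mul_assoc, Units.mul_inv, mul_one]
    refine ⟨hb ▸ J.mul_mem_right _ haJ, u⁻¹, ?_⟩
    have : b - (↑u⁻¹ : 𝓞 K) = (a - 1) * (↑u⁻¹ : 𝓞 K) := by
      rw [hb]; ring
    rw [this]
    exact mI.mul_mem_right _ ha1

section Partition

variable {mI J : Ideal (𝓞 K)} {a0 : 𝓞 K}

omit [NumberField K] in
theorem fu_exists (hco : IsCoprime mI J) (ha0J : a0 ∈ J) (ha01 : a0 - 1 ∈ mI)
    (S : Finset (𝓞 K)ˣ) (hS : ∀ u : (𝓞 K)ˣ, ∃ s ∈ S, (u : 𝓞 K) - (s : 𝓞 K) ∈ mI) {b : 𝓞 K}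
    (hb : fuQ mI J b) : ∃ s ∈ S, b - (s : 𝓞 K) * a0 ∈ mI * J := by
  obtain ⟨hbJ, u, hu⟩ := hb
  obtain ⟨s, hsS, hus⟩ := hS u
  refine ⟨s, hsS, ?_⟩
  rw [Ideal.mul_eq_inf_of_isCoprime hco]
  refine ⟨?_, J.sub_mem hbJ (J.mul_mem_left _ ha0J)⟩
  have : b - (s : 𝓞 K) * a0 = (b - u) + ((u : 𝓞 K) - s) - (s : 𝓞 K) * (a0 - 1) := by ring
  rw [this]
  exact mI.sub_mem (mI.add_mem hu hus) (mI.mul_mem_left _ ha01)

omit [NumberField K] in
theorem fuQ_of_mem (ha0J : a0 ∈ J) (ha01 : a0 - 1 ∈ mI) (s : (𝓞 K)ˣ) {b : 𝓞 K}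
    (hb : b - (s : 𝓞 K) * a0 ∈ mI * J) : fuQ mI J b := by
  have h1 : b - (s : 𝓞 K) * a0 ∈ mI := (Ideal.mul_le_left : mI * J ≤ mI) hb
  have h2 : b - (s : 𝓞 K) * a0 ∈ J := (Ideal.mul_le_right : mI * J ≤ J) hb
  refine ⟨?_, s, ?_⟩
  · have : b = (b - (s : 𝓞 K) * a0) + (s : 𝓞 K) * a0 := by ring
    rw [this]
    exact J.add_mem h2 (J.mul_mem_left _ ha0J)
  · have : b - (s : 𝓞 K) = (b - (s : 𝓞 K) * a0) + (s : 𝓞 K) * (a0 - 1) := by ring
    rw [this]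
    exact mI.add_mem h1 (mI.mul_mem_left _ ha01)

omit [NumberField K] in
theorem fu_unique (ha01 : a0 - 1 ∈ mI) (S : Finset (𝓞 K)ˣ)
    (hS' : ∀ s ∈ S, ∀ s' ∈ S, (s : 𝓞 K) - (s' : 𝓞 K) ∈ mI → s = s') {b : 𝓞 K}
    {s s' : (𝓞 K)ˣ} (hs : s ∈ S) (hs' : s' ∈ S) (h : b - (s : 𝓞 K) * a0 ∈ mI * J)
    (h' : b - (s' : 𝓞 K) * a0 ∈ mI * J) : s = s' := by
  have h1 : b - (s : 𝓞 K) * a0 ∈ mI := (Ideal.mul_le_left : mI * J ≤ mI) h
  have h1' : b - (s' : 𝓞 K) * a0 ∈ mI := (Ideal.mul_le_left : mI * J ≤ mI) h'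
  refine hS' s hs s' hs' ?_
  have : ((s : 𝓞 K) - s') = (b - (s' : 𝓞 K) * a0) - (b - (s : 𝓞 K) * a0)
      - ((s : 𝓞 K) - s') * (a0 - 1) := by ring
  rw [this]
  exact mI.sub_mem (mI.sub_mem h1' h1) (mI.mul_mem_left _ ha01)

end Partition


theorem fu_norm_eq (y : integerSet K) :
    mixedEmbedding.norm (y : mixedSpace K) =
      (absNorm (Ideal.span {(preimageOfMemIntegerSet y : 𝓞 K)}) : ℝ) := by
  rw [← intNorm_coe, intNorm, absNorm_span_singleton]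

/-- **Unit trick, part 1**: principal ideals with a generator in `J` congruent to `1` mod `mI`
versus points of `integerSet` whose preimage lies in `J` and is a unit modulo `mI`. -/
theorem fu_card_mul_torsion (mI J : Ideal (𝓞 K)) (X : ℝ) :
    Nat.card {I : (Ideal (𝓞 K))⁰ // fuP mI J (I : Ideal (𝓞 K)) ∧
        (absNorm (I : Ideal (𝓞 K)) : ℝ) ≤ X} * torsionOrder K
      = Nat.card {y : integerSet K // mixedEmbedding.norm (y : mixedSpace K) ≤ X ∧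
          fuQ mI J (preimageOfMemIntegerSet y : 𝓞 K)} := by
  have e1 : {y : integerSet K // mixedEmbedding.norm (y : mixedSpace K) ≤ X ∧
      fuQ mI J (preimageOfMemIntegerSet y : 𝓞 K)} ≃
      {q : {I : (Ideal (𝓞 K))⁰ // IsPrincipal I.val} × torsion K //
        fuP mI J (q.1.1 : Ideal (𝓞 K)) ∧ (absNorm (q.1.1 : Ideal (𝓞 K)) : ℝ) ≤ X} := by
    refine (integerSetEquiv K).subtypeEquiv fun y => ?_
    rw [integerSetEquiv_apply_fst, ← fuQ_iff_fuP, ← fu_norm_eq, and_comm]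
  have e2 : {q : {I : (Ideal (𝓞 K))⁰ // IsPrincipal I.val} × torsion K //
        fuP mI J (q.1.1 : Ideal (𝓞 K)) ∧ (absNorm (q.1.1 : Ideal (𝓞 K)) : ℝ) ≤ X} ≃
      {a : {I : (Ideal (𝓞 K))⁰ // IsPrincipal I.val} //
        fuP mI J (a.1 : Ideal (𝓞 K)) ∧ (absNorm (a.1 : Ideal (𝓞 K)) : ℝ) ≤ X} × torsion K :=
    Equiv.prodSubtypeFstEquivSubtypeProd
      (p := fun a : {I : (Ideal (𝓞 K))⁰ // IsPrincipal I.val} =>
        fuP mI J (a.1 : Ideal (𝓞 K)) ∧ (absNorm (a.1 : Ideal (𝓞 K)) : ℝ) ≤ X)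
  have e3 : {a : {I : (Ideal (𝓞 K))⁰ // IsPrincipal I.val} //
        fuP mI J (a.1 : Ideal (𝓞 K)) ∧ (absNorm (a.1 : Ideal (𝓞 K)) : ℝ) ≤ X} ≃
      {I : (Ideal (𝓞 K))⁰ // fuP mI J (I : Ideal (𝓞 K)) ∧
        (absNorm (I : Ideal (𝓞 K)) : ℝ) ≤ X} := by
    refine (Equiv.subtypeSubtypeEquivSubtypeInter
      (fun I : (Ideal (𝓞 K))⁰ ↦ IsPrincipal I.1) (fun I ↦ fuP mI J (I : Ideal (𝓞 K)) ∧
        (absNorm (I : Ideal (𝓞 K)) : ℝ) ≤ X)).trans (Equiv.subtypeEquivRight fun I => ?_)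
    constructor
    · exact fun h => h.2
    · intro h
      refine ⟨?_, h⟩
      obtain ⟨a, ha, _⟩ := h.1
      exact ⟨a, by rw [ha]⟩
  rw [Nat.card_congr (e1.trans (e2.trans (Equiv.prodCongrLeft fun _ => e3))), Nat.card_prod]
  rfl


theorem fu_finite_integerSet_le (X : ℝ) :
    Finite {y : integerSet K // mixedEmbedding.norm (y : mixedSpace K) ≤ X} := by
  have hfin : Finite {I : (Ideal (𝓞 K))⁰ // absNorm (I : Ideal (𝓞 K)) ≤ ⌊X⌋₊} :=
    (finite_setOfPred_absNorm_le₀ (S := 𝓞 K) ⌊X⌋₊).to_subtype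
  let f : {y : integerSet K // mixedEmbedding.norm (y : mixedSpace K) ≤ X} →
      {I : (Ideal (𝓞 K))⁰ // absNorm (I : Ideal (𝓞 K)) ≤ ⌊X⌋₊} × torsion K := fun y =>
    (⟨(integerSetEquiv K y.1).1.1, by
      rw [integerSetEquiv_apply_fst]
      apply Nat.le_floor
      rw [← fu_norm_eq]
      exact y.2⟩, (integerSetEquiv K y.1).2)
  refine Finite.of_injective f ?_
  intro y y' h
  have h1 : (integerSetEquiv K y.1).1.1 = (integerSetEquiv K y'.1).1.1 := by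
    have := congrArg (fun q => (q.1 : (Ideal (𝓞 K))⁰)) h
    exact this
  have h2 : (integerSetEquiv K y.1).2 = (integerSetEquiv K y'.1).2 :=
    congrArg (fun q => (q.2 : torsion K)) h
  exact Subtype.ext ((integerSetEquiv K).injective (Prod.ext (Subtype.ext h1) h2))

theorem fu_mem_idealLattice (N : (Ideal (𝓞 K))⁰) (x : mixedSpace K) :
    x ∈ idealLattice K (FractionalIdeal.mk0 K N) ↔
      ∃ c : 𝓞 K, c ∈ (N : Ideal (𝓞 K)) ∧ mixedEmbedding K (c : K) = x := by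
  rw [mem_idealLattice]
  constructor
  · rintro ⟨y, hy, rfl⟩
    rw [SetLike.mem_coe, FractionalIdeal.coe_mk0, FractionalIdeal.mem_coeIdeal] at hy
    obtain ⟨c, hc, rfl⟩ := hy
    exact ⟨c, hc, rfl⟩
  · rintro ⟨c, hc, rfl⟩
    refine ⟨(c : K), ?_, rfl⟩
    rw [SetLike.mem_coe, FractionalIdeal.coe_mk0, FractionalIdeal.mem_coeIdeal]
    exact ⟨c, hc, rfl⟩


theorem fu_mixedEmbedding_inj {b b' : 𝓞 K} (h : mixedEmbedding K (b : K) = mixedEmbedding K (b' : K)) :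
    b = b' :=
  RingOfIntegers.coe_injective ((mixedEmbedding_injective K) h)

/-- **Unit trick, part 2**: the points of `integerSet` whose preimage is in `J` and a unit mod `mI`
split according to the residue class of the preimage modulo `mI * J`. -/
theorem fu_card_eq_sum {mI J : Ideal (𝓞 K)} {a0 : 𝓞 K} (hco : IsCoprime mI J) (ha0J : a0 ∈ J)
    (ha01 : a0 - 1 ∈ mI) (S : Finset (𝓞 K)ˣ)
    (hS : ∀ u : (𝓞 K)ˣ, ∃ s ∈ S, (u : 𝓞 K) - (s : 𝓞 K) ∈ mI)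
    (hS' : ∀ s ∈ S, ∀ s' ∈ S, (s : 𝓞 K) - (s' : 𝓞 K) ∈ mI → s = s')
    (N : (Ideal (𝓞 K))⁰) (hN : (N : Ideal (𝓞 K)) = mI * J) (X : ℝ) :
    Nat.card {y : integerSet K // mixedEmbedding.norm (y : mixedSpace K) ≤ X ∧
        fuQ mI J (preimageOfMemIntegerSet y : 𝓞 K)}
      = ∑ s ∈ S, Nat.card {a : mixedSpace K // a ∈ fundamentalCone K ∧
          mixedEmbedding.norm a ≤ X ∧
          a - mixedEmbedding K ((((s : 𝓞 K) * a0 : 𝓞 K)) : K) ∈
            idealLattice K (FractionalIdeal.mk0 K N)} := by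
  set PL : mixedSpace K → Prop := fun a => a ∈ fundamentalCone K ∧ mixedEmbedding.norm a ≤ X ∧
    ∃ b : 𝓞 K, mixedEmbedding K (b : K) = a ∧ fuQ mI J b with hPL
  set PT : (𝓞 K)ˣ → mixedSpace K → Prop := fun s a => a ∈ fundamentalCone K ∧
    mixedEmbedding.norm a ≤ X ∧ a - mixedEmbedding K ((((s : 𝓞 K) * a0 : 𝓞 K)) : K) ∈
      idealLattice K (FractionalIdeal.mk0 K N) with hPT
  -- step 1: LHS ≃ {a // PL a}
  have e1 : {y : integerSet K // mixedEmbedding.norm (y : mixedSpace K) ≤ X ∧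
        fuQ mI J (preimageOfMemIntegerSet y : 𝓞 K)} ≃ {a : mixedSpace K // PL a} := by
    refine (Equiv.subtypeSubtypeEquivSubtypeExists _ _).trans (Equiv.subtypeEquivRight fun a => ?_)
    constructor
    · rintro ⟨ha, hn, hQ⟩
      exact ⟨ha.1, hn, (preimageOfMemIntegerSet ⟨a, ha⟩ : 𝓞 K),
        mixedEmbedding_preimageOfMemIntegerSet ⟨a, ha⟩, hQ⟩
    · rintro ⟨hc, hn, b, rfl, hQ⟩
      have hmem : mixedEmbedding K (b : K) ∈ integerSet K := mem_integerSet.mpr ⟨hc, b, rfl⟩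
      refine ⟨hmem, hn, ?_⟩
      rw [preimageOfMemIntegerSet_mixedEmbedding hmem]
      exact hQ
  rw [Nat.card_congr e1]
  refine fu_card_partition S PT PL ?_ ?_ ?_
  · intro a
    constructor
    · rintro ⟨hc, hn, b, rfl, hQ⟩
      obtain ⟨s, hsS, hs⟩ := fu_exists hco ha0J ha01 S hS hQ
      refine ⟨s, hsS, hc, hn, ?_⟩
      rw [fu_mem_idealLattice]
      refine ⟨b - (s : 𝓞 K) * a0, hN ▸ hs, ?_⟩
      simp
    · rintro ⟨s, _, hc, hn, hl⟩
      rw [fu_mem_idealLattice] at hl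
      obtain ⟨c, hcN, hc'⟩ := hl
      refine ⟨hc, hn, (s : 𝓞 K) * a0 + c, ?_, ?_⟩
      · have : a = mixedEmbedding K ((((s : 𝓞 K) * a0 : 𝓞 K)) : K) + mixedEmbedding K (c : K) := by
          rw [hc']; abel
        rw [this, ← map_add]
        simp
      · refine fuQ_of_mem ha0J ha01 s ?_
        rw [add_sub_cancel_left, ← hN]
        exact hcN
  · rintro a s hs s' hs' ⟨_, _, hl⟩ ⟨_, _, hl'⟩
    rw [fu_mem_idealLattice] at hl hl'
    obtain ⟨c, hcN, hc⟩ := hl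
    obtain ⟨c', hcN', hc'⟩ := hl'
    have hb : (s : 𝓞 K) * a0 + c = (s' : 𝓞 K) * a0 + c' := by
      apply fu_mixedEmbedding_inj
      have h1 : mixedEmbedding K ((((s : 𝓞 K) * a0 + c : 𝓞 K)) : K) = a := by
        have : a = mixedEmbedding K ((((s : 𝓞 K) * a0 : 𝓞 K)) : K) + mixedEmbedding K (c : K) := by
          rw [hc]; abel
        rw [this, ← map_add]
        simp
      have h2 : mixedEmbedding K ((((s' : 𝓞 K) * a0 + c' : 𝓞 K)) : K) = a := by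
        have : a = mixedEmbedding K ((((s' : 𝓞 K) * a0 : 𝓞 K)) : K) + mixedEmbedding K (c' : K) := by
          rw [hc']; abel
        rw [this, ← map_add]
        simp
      rw [h1, h2]
    refine fu_unique (J := J) (b := (s : 𝓞 K) * a0 + c) ha01 S hS' hs hs' ?_ ?_
    · rw [add_sub_cancel_left, ← hN]
      exact hcN
    · rw [hb, add_sub_cancel_left, ← hN]
      exact hcN'
  · intro s _
    have hfin := fu_finite_integerSet_le (K := K) X
    refine (Set.finite_range (fun y : {y : integerSet K //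
      mixedEmbedding.norm (y : mixedSpace K) ≤ X} => ((y.1 : integerSet K) : mixedSpace K))).subset ?_
    rintro a ⟨hc, hn, hl⟩
    rw [fu_mem_idealLattice] at hl
    obtain ⟨c, _, hc'⟩ := hl
    have ha : a = mixedEmbedding K ((((s : 𝓞 K) * a0 + c : 𝓞 K)) : K) := by
      have : a = mixedEmbedding K ((((s : 𝓞 K) * a0 : 𝓞 K)) : K) + mixedEmbedding K (c : K) := by
        rw [hc']; abel
      rw [this, ← map_add]
      simp
    exact ⟨⟨⟨a, mem_integerSet.mpr ⟨hc, (s : 𝓞 K) * a0 + c, ha.symm⟩⟩, hn⟩, rfl⟩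


/-- **Unit trick.** -/
theorem fu_main {mI J : Ideal (𝓞 K)} {a0 : 𝓞 K} (hco : IsCoprime mI J) (ha0J : a0 ∈ J)
    (ha01 : a0 - 1 ∈ mI) (S : Finset (𝓞 K)ˣ)
    (hS : ∀ u : (𝓞 K)ˣ, ∃ s ∈ S, (u : 𝓞 K) - (s : 𝓞 K) ∈ mI)
    (hS' : ∀ s ∈ S, ∀ s' ∈ S, (s : 𝓞 K) - (s' : 𝓞 K) ∈ mI → s = s')
    (N : (Ideal (𝓞 K))⁰) (hN : (N : Ideal (𝓞 K)) = mI * J) (X : ℝ) :
    Nat.card {I : (Ideal (𝓞 K))⁰ // fuP mI J (I : Ideal (𝓞 K)) ∧
        (absNorm (I : Ideal (𝓞 K)) : ℝ) ≤ X} * torsionOrder K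
      = ∑ s ∈ S, Nat.card {a : mixedSpace K // a ∈ fundamentalCone K ∧
          mixedEmbedding.norm a ≤ X ∧
          a - mixedEmbedding K ((((s : 𝓞 K) * a0 : 𝓞 K)) : K) ∈
            idealLattice K (FractionalIdeal.mk0 K N)} := by
  rw [fu_card_mul_torsion, fu_card_eq_sum hco ha0J ha01 S hS hS' N hN X]

omit [NumberField K] in
theorem fu_units_map_eq_iff (mI : Ideal (𝓞 K)) (u v : (𝓞 K)ˣ) :
    Units.map (Ideal.Quotient.mk mI).toMonoidHom u = Units.map (Ideal.Quotient.mk mI).toMonoidHom v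
      ↔ (u : 𝓞 K) - (v : 𝓞 K) ∈ mI := by
  rw [Units.ext_iff]
  simp only [Units.coe_map, RingHom.toMonoidHom_eq_coe, MonoidHom.coe_coe]
  exact Ideal.Quotient.eq

/-- representatives of the image of the unit group in `(𝓞 K ⧸ mI)ˣ`. -/
theorem fu_exists_reps (mI : Ideal (𝓞 K)) (hmI : mI ≠ ⊥) :
    ∃ S : Finset (𝓞 K)ˣ, (∀ u : (𝓞 K)ˣ, ∃ s ∈ S, (u : 𝓞 K) - (s : 𝓞 K) ∈ mI) ∧
      (∀ s ∈ S, ∀ s' ∈ S, (s : 𝓞 K) - (s' : 𝓞 K) ∈ mI → s = s') ∧
      S.card = Nat.card (MonoidHom.range (Units.map (Ideal.Quotient.mk mI).toMonoidHom)) := by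
  set f := Units.map (Ideal.Quotient.mk mI).toMonoidHom with hf
  have : Finite (𝓞 K ⧸ mI) := Ideal.finiteQuotientOfFreeOfNeBot mI hmI
  have : Finite (𝓞 K ⧸ mI)ˣ := inferInstance
  have : Finite (MonoidHom.range f) := inferInstance
  let _ : Fintype (MonoidHom.range f) := Fintype.ofFinite _
  have hg : ∀ r : MonoidHom.range f, ∃ u : (𝓞 K)ˣ, f u = r := fun r => r.2
  choose g hg using hg
  have hginj : Function.Injective g := by
    intro r r' h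
    apply Subtype.ext
    rw [← hg r, ← hg r', h]
  refine ⟨Finset.univ.image g, ?_, ?_, ?_⟩
  · intro u
    refine ⟨g ⟨f u, u, rfl⟩, Finset.mem_image_of_mem _ (Finset.mem_univ _), ?_⟩
    rw [← fu_units_map_eq_iff, ← hf, hg]
  · intro s hs s' hs' h
    obtain ⟨r, _, rfl⟩ := Finset.mem_image.mp hs
    obtain ⟨r', _, rfl⟩ := Finset.mem_image.mp hs'
    rw [← fu_units_map_eq_iff, ← hf, hg, hg] at h
    rw [Subtype.ext h]
  · rw [Finset.card_image_of_injective _ hginj, Finset.card_univ, Nat.card_eq_fintype_card]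


end Fermat.Agent.S14x
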