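/-
S14 project, module SI (owner helper48): **the algebraic norm-index inequality**
`normGroup F M p ≠ ⊤` for an everywhere unramified cyclic extension `M/F` of odd prime degree `p`
(`F ∋ ζ_p`).  Final assembly of
* SI-CORE `hq_core` (HqCore.lean, helper48) + SI-ASM part 1 (HqAsm.lean, helper48),
* SI-DIV (SIDiv.lean, SIDivExt.lean, helper38), SI-FIN (DvClass*.lean, helper98),
* SI-NG (SINormGroup.lean, helper87), SI-H90 + SI-BRIDGE (SIH90.lean, SIBridge*.lean, helper40),
* SI-UNITS (HerbrandUnitsB.lean, helper11, on top of HqCyclic.lean `hq_cyclic_formula`).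
-/
import Fermat.Agent.S14x.HqAsm
import Fermat.Agent.S14x.SIBridgeUnits
import Fermat.Agent.S14x.HerbrandUnitsB

set_option autoImplicit false

namespace Fermat.Agent.S14x

open NumberField IsDedekindDomain

section General

variable {p : ℕ} [Fact p.Prime]
variable {F M : Type} [Field F] [NumberField F] [Field M] [NumberField M] [Algebra F M]
  [IsGalois F M] {g : M ≃ₐ[F] M}

/-- the unit-bridge inequality in the shape consumed by `hq_normGroup_ne_top_of`. -/
theorem hq_bridge_ineq (hp : p ≠ 2) (h : IsUCyc p F M g) :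
    hq_c2 g ≠ 0 ∧ p * hq_c2 g ≤ hq_c1 F M := by
  obtain ⟨h0, h1⟩ := hub_units_index hp h
  set nU : (𝓞 M)ˣ →* (𝓞 M)ˣ := (hub_iU F M).comp (hub_nU F M) with hnU
  have hker : nU.ker = (hub_nU F M).ker := by
    ext η
    rw [MonoidHom.mem_ker, MonoidHom.mem_ker, hnU, MonoidHom.comp_apply]
    constructor
    · intro hη
      exact hub_iU_injective (by rw [hη, map_one])
    · intro hη
      rw [hη, map_one]
  have hrange : nU.range = (hub_nU F M).range.map (hub_iU F M) := by
    rw [hnU, MonoidHom.range_eq_map, MonoidHom.range_eq_map, ← Subgroup.map_map]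
  have hH0 : nU.range.relIndex (hub_dU g).ker = (hub_nU F M).range.index := by
    rw [hrange, hub_ker_dU h, MonoidHom.range_eq_map (hub_iU F M),
      Subgroup.relIndex_map_map_of_injective _ _ hub_iU_injective, Subgroup.relIndex_top_right]
  exact ub_units_bridge h (dvc_principal F) (dvc_principal M) (sd_dvExt (F := F) (M := M))
    (sd_dvSmul g).toAddMonoidHom
    (fun D => dvc_mem_principal_iff D) (fun D => dvc_mem_principal_iff D)
    (fun x _ => sd_dvExt_divOf x)
    sd_dvExt_injective
    (fun a _ => (sd_divOf_smul g a).symm)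
    (fun D hD => (sd_invariant_iff h D).mp hD)
    (fun D => sd_dvSmul_dvExt g D)
    (fun a ha => dvNorm_divOf a ha)
    (hub_dU g) nU
    (fun u => by
      have e : hub_gU g u = hub_dU g u * u := by rw [hub_dU_apply, div_mul_cancel]
      have e' : g ((u : 𝓞 M) : M) =
          (((hub_dU g u : (𝓞 M)ˣ) : 𝓞 M) : M) * ((u : 𝓞 M) : M) := by
        rw [← hub_gU_coe, e]
        simp
      have hu0 : ((u : 𝓞 M) : M) ≠ 0 := by
        intro h0
        simp at h0
      rw [e', mul_div_assoc, div_self hu0, mul_one])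
    (fun u => by
      rw [hnU, MonoidHom.comp_apply, hub_iU_nU h]
      simp [Units.coe_prod, hub_gU_coe])
    (by rw [hker, hH0]; exact h1)
    (by rw [hH0]; exact h0)

/-- **SI** (exact statement of `Spec.normGroup_ne_top`; the bare Spec name lives in `Dens.lean`):
`[I_F : P_F N(I_M)] ≥ p`, in the form "`normGroup F M p ≠ ⊤`". -/
theorem hq_normGroup_ne_top (hp : p ≠ 2) (h : IsUCyc p F M g) : normGroup F M p ≠ ⊤ := by
  obtain ⟨hc2, hc⟩ := hq_bridge_ineq hp h
  exact hq_normGroup_ne_top_of h hc2 hc

end General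

end Fermat.Agent.S14x
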