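/-
S14x/HerbrandUnitsC.lean (helper11): adapter of `hub_units_index` (HerbrandUnitsB) to the
endomorphism shape consumed by the SI bridge (`ub_units_bridge`, `ub_bridge_of`):
`hub_nE F M := hub_iU ∘ hub_nU : (𝓞 M)ˣ →* (𝓞 M)ˣ` (the norm as an endomorphism),
coercion formulas `hub_dU_coe`, `hub_nE_coe`, and `hub_units_herbrand`.
-/
import Fermat.Agent.S14x.HerbrandUnitsB

set_option autoImplicit false

namespace Fermat.Agent.S14x

open NumberField

variable {p : ℕ} [Fact p.Prime] {F M : Type} [Field F] [NumberField F] [Field M] [NumberField M]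
  [Algebra F M] [IsGalois F M] {g : M ≃ₐ[F] M}

variable (F M) in
/-- the relative norm on units, as an endomorphism of `(𝓞 M)ˣ`. -/
noncomputable def hub_nE : (𝓞 M)ˣ →* (𝓞 M)ˣ := (hub_iU F M).comp (hub_nU F M)

omit [NumberField F] [NumberField M] [IsGalois F M] in
theorem hub_nE_apply (η : (𝓞 M)ˣ) : hub_nE F M η = hub_iU F M (hub_nU F M η) := rfl

theorem hub_dU_coe (s : M ≃ₐ[F] M) (η : (𝓞 M)ˣ) :
    (((hub_dU s η : (𝓞 M)ˣ) : 𝓞 M) : M) = s ((η : 𝓞 M) : M) / ((η : 𝓞 M) : M) := by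
  have h1 : hub_dU s η * η = hub_gU s η := by
    rw [hub_dU_apply, div_mul_cancel]
  have h2 : (((hub_dU s η * η : (𝓞 M)ˣ) : 𝓞 M) : M) = s ((η : 𝓞 M) : M) := by
    rw [h1, hub_gU_coe]
  have e1 : ∀ a b : 𝓞 M, ((a * b : 𝓞 M) : M) = (a : M) * (b : M) := fun _ _ => rfl
  rw [Units.val_mul, e1] at h2
  have h3 : (((η : (𝓞 M)ˣ) : 𝓞 M) : M) ≠ 0 := by
    intro h0
    have : ((η : (𝓞 M)ˣ) : 𝓞 M) = 0 := RingOfIntegers.ext h0
    exact η.ne_zero this
  rw [eq_div_iff h3, h2]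

theorem hub_nE_coe (h : IsUCyc p F M g) (η : (𝓞 M)ˣ) :
    (((hub_nE F M η : (𝓞 M)ˣ) : 𝓞 M) : M) =
      ∏ i ∈ Finset.range p, (g ^ i) ((η : 𝓞 M) : M) := by
  rw [hub_nE_apply, hub_iU_coe]
  have h1 : (((hub_nU F M η : (𝓞 F)ˣ) : 𝓞 F) : F) = Algebra.norm F ((η : 𝓞 M) : M) := rfl
  rw [h1, h9_norm_eq_prod h]

theorem hub_nE_ker : (hub_nE F M).ker = (hub_nU F M).ker := by
  ext η
  rw [MonoidHom.mem_ker, MonoidHom.mem_ker, hub_nE_apply]
  constructor
  · intro h1
    apply hub_iU_injective (F := F) (M := M)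
    rw [h1, map_one]
  · intro h1
    rw [h1, map_one]

omit [NumberField F] [NumberField M] [IsGalois F M] in
theorem hub_nE_range : (hub_nE F M).range = (hub_nU F M).range.map (hub_iU F M) := by
  unfold hub_nE
  rw [MonoidHom.range_eq_map, MonoidHom.range_eq_map, ← Subgroup.map_map]

/-- the Herbrand quotient of the units, in the endomorphism form of the SI bridge. -/
theorem hub_units_herbrand (hp : p ≠ 2) (h : IsUCyc p F M g) :
    (hub_dU g).range.relIndex (hub_nE F M).ker =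
        p * (hub_nE F M).range.relIndex (hub_dU g).ker ∧
      (hub_nE F M).range.relIndex (hub_dU g).ker ≠ 0 := by
  obtain ⟨h0, h1⟩ := hub_units_index hp h
  have e : (hub_nE F M).range.relIndex (hub_dU g).ker = (hub_nU F M).range.index := by
    rw [hub_ker_dU h, hub_nE_range, MonoidHom.range_eq_map (hub_iU F M),
      Subgroup.relIndex_map_map_of_injective _ _ hub_iU_injective, Subgroup.relIndex_top_right]
  rw [hub_nE_ker, e]
  exact ⟨h1, h0⟩

end Fermat.Agent.S14x
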