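/-
S14x/HerbrandFinalB.lean (helper11): SI final assembly in the `hub_` prefix:
units Herbrand quotient (`hub_units_herbrand`) + unit bridge (`ub_units_bridge`) +
assembly (`hq_normGroup_ne_top_of`) ⟹ `normGroup F M p ≠ ⊤` for `IsUCyc p F M g`, `p ≠ 2`.
-/
import Fermat.Agent.S14x.HerbrandUnitsC
import Fermat.Agent.S14x.SIBridgeUnits
import Fermat.Agent.S14x.HqAsm

set_option autoImplicit false

namespace Fermat.Agent.S14x

open NumberField IsDedekindDomain

variable {p : ℕ} [Fact p.Prime] {F M : Type} [Field F] [NumberField F] [Field M] [NumberField M]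
  [Algebra F M] [IsGalois F M] {g : M ≃ₐ[F] M}

/-- the unit-bridge inequality `c₂ ≠ 0 ∧ p c₂ ≤ c₁`. -/
theorem hub_bridge_final (hp : p ≠ 2) (h : IsUCyc p F M g) :
    hq_c2 g ≠ 0 ∧ p * hq_c2 g ≤ hq_c1 F M := by
  obtain ⟨hq, hq0⟩ := hub_units_herbrand hp h
  exact ub_units_bridge h (dvc_principal F) (dvc_principal M) (sd_dvExt (F := F) (M := M))
    (sd_dvSmul g).toAddMonoidHom (fun D => dvc_mem_principal_iff D)
    (fun D => dvc_mem_principal_iff D)
    (fun x _ => sd_dvExt_divOf x) sd_dvExt_injective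
    (fun a _ => (sd_divOf_smul g a).symm)
    (fun D hD => (sd_invariant_iff h D).mp hD)
    (fun D => sd_dvSmul_dvExt g D)
    (fun a ha => dvNorm_divOf a ha)
    (hub_dU g) (hub_nE F M) (fun u => hub_dU_coe g u) (fun u => hub_nE_coe h u) hq hq0

/-- SI: the algebraic norm-index inequality `[I_F : P_F N(I_M)] ≥ p` in the form `≠ ⊤`. -/
theorem hub_normGroup_ne_top (hp : p ≠ 2) (h : IsUCyc p F M g) : normGroup F M p ≠ ⊤ := by
  obtain ⟨h2, h1⟩ := hub_bridge_final hp h
  exact hq_normGroup_ne_top_of h h2 h1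

end Fermat.Agent.S14x
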