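/-
S14 project, leaf SI-UNITS (helper93), abstract part.
Herbrand quotient of a finitely generated abelian group with an automorphism of prime order `p`,
in division-free form.  Mathlib only.  Prefix `hl_`.
-/
import Mathlib

set_option autoImplicit false

namespace Fermat.Agent.S14x

open Module Finset

section Index

variable {A A' : Type*} [AddCommGroup A] [AddCommGroup A']

/-- `[A : B] = [ker f : ker f ∩ B] * [f A : f B]`. -/
theorem hl_index_eq (f : A →+ A') (B : AddSubgroup A) :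
    B.index = (f.ker ⊓ B).relIndex f.ker * (B.map f).relIndex f.range := by
  have h1 : (B.map f).relIndex f.range = (B ⊔ f.ker).index := by
    have := AddSubgroup.relIndex_map_map f B ⊤
    rw [← AddMonoidHom.range_eq_map] at this
    simpa using this
  have h2 : (f.ker ⊓ B).relIndex f.ker = B.relIndex (B ⊔ f.ker) := by
    rw [AddSubgroup.inf_relIndex_left, AddSubgroup.relIndex_sup_left]
  rw [h1, h2, AddSubgroup.relIndex_mul_index le_sup_left]

/-- `[f A : f B] = [A : B + ker f]`. -/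
theorem hl_relIndex_map_range (f : A →+ A') (B : AddSubgroup A) :
    (B.map f).relIndex f.range = (B ⊔ f.ker).index := by
  have := AddSubgroup.relIndex_map_map f B ⊤
  rw [← AddMonoidHom.range_eq_map] at this
  simpa using this

/-- the relative "cohomology index" `[ker g ∩ X : f X]` of a pair of endomorphisms with
`g ∘ f = 0` on a stable subgroup `X`. -/
noncomputable def hl_h (f g : A →+ A) (X : AddSubgroup A) : ℕ :=
  (X.map f).relIndex (g.ker ⊓ X)

theorem hl_h_top (f g : A →+ A) : hl_h f g ⊤ = f.range.relIndex g.ker := by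
  simp [hl_h, AddMonoidHom.range_eq_map]

/-- one half of the comparison between `X = ⊤` and `X = B`. -/
theorem hl_h_chain (f g : A →+ A) (hgf : ∀ x, g (f x) = 0) (B : AddSubgroup A)
    (hB : B.map f ≤ B) :
    hl_h f g ⊤ * (B.map f).relIndex f.range = (g.ker ⊓ B).relIndex g.ker * hl_h f g B := by
  have hr : f.range ≤ g.ker := by
    rintro _ ⟨x, rfl⟩
    exact hgf x
  have h1 : B.map f ≤ f.range := AddSubgroup.map_le_range f B
  have h2 : B.map f ≤ g.ker ⊓ B := le_inf (h1.trans hr) hB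
  rw [hl_h_top, hl_h, mul_comm, AddSubgroup.relIndex_mul_relIndex _ _ _ h1 hr, mul_comm,
    AddSubgroup.relIndex_mul_relIndex _ _ _ h2 inf_le_left]

/-- Invariance of the Herbrand quotient under passage to a stable subgroup of finite index
(cross-multiplied form, with finiteness transfer). -/
theorem hl_invariance (D N : A →+ A) (hND : ∀ x, N (D x) = 0) (hDN : ∀ x, D (N x) = 0)
    (B : AddSubgroup A) (hBD : B.map D ≤ B) (hBN : B.map N ≤ B) (hB : B.index ≠ 0) :
    hl_h N D ⊤ * hl_h D N B = hl_h D N ⊤ * hl_h N D B ∧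
    (hl_h N D B ≠ 0 → hl_h N D ⊤ ≠ 0) ∧ (hl_h D N B ≠ 0 → hl_h D N ⊤ ≠ 0) := by
  have e1 := hl_h_chain N D hDN B hBN
  have e2 := hl_h_chain D N hND B hBD
  have i1 := hl_index_eq D B
  have i2 := hl_index_eq N B
  set a := (D.ker ⊓ B).relIndex D.ker
  set b := (B.map D).relIndex D.range
  set c := (N.ker ⊓ B).relIndex N.ker
  set d := (B.map N).relIndex N.range
  set m := B.index
  have ha : a ≠ 0 := fun h => hB (by rw [i1, h, zero_mul])
  have hb : b ≠ 0 := fun h => hB (by rw [i1, h, mul_zero])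
  have hc : c ≠ 0 := fun h => hB (by rw [i2, h, zero_mul])
  have hd : d ≠ 0 := fun h => hB (by rw [i2, h, mul_zero])
  refine ⟨?_, ?_, ?_⟩
  · have hm : m ≠ 0 := hB
    apply Nat.eq_of_mul_eq_mul_right (Nat.pos_of_ne_zero hm)
    calc hl_h N D ⊤ * hl_h D N B * m
        = (hl_h N D ⊤ * d) * (c * hl_h D N B) := by rw [i2]; ring
      _ = (a * hl_h N D B) * (hl_h D N ⊤ * b) := by rw [e1, e2]
      _ = hl_h D N ⊤ * hl_h N D B * m := by rw [i1]; ring
  · intro h0 h
    rw [h, zero_mul] at e1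
    exact (mul_ne_zero ha h0) e1.symm
  · intro h0 h
    rw [h, zero_mul] at e2
    exact (mul_ne_zero hc h0) e2.symm

end Index

section Cyc

open Polynomial

variable {Y : Type*} [AddCommGroup Y]

/-- polynomial identity: `∏_{k<p-1} (1 - X^(k+1)) = p + Φ_p * Q` in `ℤ[X]`. -/
theorem hl_poly_identity (p : ℕ) (hp : p.Prime) :
    ∃ Q : ℤ[X], (∏ k ∈ range (p - 1), (1 - (X : ℤ[X]) ^ (k + 1))) =
      C (p : ℤ) + (∑ i ∈ range p, (X : ℤ[X]) ^ i) * Q := by
  have : Fact p.Prime := ⟨hp⟩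
  obtain ⟨n, rfl⟩ : ∃ n, p = n + 1 := ⟨p - 1, (Nat.succ_pred_eq_of_pos hp.pos).symm⟩
  have hζ : IsPrimitiveRoot (Complex.exp (2 * Real.pi * Complex.I / ((n + 1 : ℕ) : ℂ))) (n + 1) :=
    Complex.isPrimitiveRoot_exp (n + 1) (Nat.succ_ne_zero n)
  set ζ := Complex.exp (2 * Real.pi * Complex.I / ((n + 1 : ℕ) : ℂ)) with hζdef
  have hmin : cyclotomic (n + 1) ℤ = minpoly ℤ ζ :=
    Polynomial.cyclotomic_eq_minpoly hζ (Nat.succ_pos n)
  have hint : IsIntegral ℤ ζ := hζ.isIntegral (Nat.succ_pos n)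
  set f : ℤ[X] := (∏ k ∈ range n, (1 - (X : ℤ[X]) ^ (k + 1))) - C ((n + 1 : ℕ) : ℤ) with hf
  have hev : aeval ζ f = 0 := by
    have := hζ.prod_one_sub_pow_eq_order
    simp only [hf, map_sub, map_prod, map_one, map_pow, aeval_X, aeval_C]
    rw [this]
    simp
  have hdvd : cyclotomic (n + 1) ℤ ∣ f := by
    rw [hmin]
    exact minpoly.isIntegrallyClosed_dvd hint hev
  obtain ⟨Q, hQ⟩ := hdvd
  refine ⟨Q, ?_⟩
  rw [Polynomial.cyclotomic_prime ℤ (n + 1)] at hQ
  simp only [Nat.add_sub_cancel]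
  rw [← hQ, hf]
  ring

/-- `(X - 1)^(p-1) * W = p + Φ_p * Q` in `ℤ[X]`. -/
theorem hl_poly_identity' (p : ℕ) (hp : p.Prime) :
    ∃ W Q : ℤ[X], ((X : ℤ[X]) - 1) ^ (p - 1) * W =
      C (p : ℤ) + (∑ i ∈ range p, (X : ℤ[X]) ^ i) * Q := by
  obtain ⟨Q, hQ⟩ := hl_poly_identity p hp
  refine ⟨(-1) ^ (p - 1) * ∏ k ∈ range (p - 1), ∑ j ∈ range (k + 1), (X : ℤ[X]) ^ j, Q, ?_⟩
  rw [← hQ]
  have h1 : ∀ k ∈ range (p - 1), (1 - (X : ℤ[X]) ^ (k + 1)) =
      (1 - X) * ∑ j ∈ range (k + 1), (X : ℤ[X]) ^ j := fun k _ => (mul_neg_geom_sum _ _).symm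
  rw [Finset.prod_congr rfl h1, Finset.prod_mul_distrib, Finset.prod_const, card_range]
  have h2 : (1 - (X : ℤ[X])) ^ (p - 1) = (-1) ^ (p - 1) * (X - 1) ^ (p - 1) := by
    rw [← mul_pow]; congr 1; ring
  rw [h2]; ring

/-- `(t - 1)^(p-1) = p • U` when `∑_{i<p} t^i = 0`. -/
theorem hl_pow_eq_nsmul (p : ℕ) (hp : p.Prime) (t : AddMonoid.End Y)
    (ht : ∑ i ∈ range p, t ^ i = 0) :
    ∃ U : AddMonoid.End Y, (t - 1) ^ (p - 1) = p • U := by
  have key := congrArg (aeval (t - 1)) (geom_sum_X_comp_X_add_one_eq_sum (R := ℤ) p)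
  rw [aeval_comp] at key
  simp only [map_add, aeval_X, map_one, sub_add_cancel, map_sum, map_pow, map_mul,
    map_natCast] at key
  rw [ht] at key
  obtain ⟨n, rfl⟩ : ∃ n, p = n + 1 := ⟨p - 1, (Nat.succ_pred_eq_of_pos hp.pos).symm⟩
  rw [Finset.sum_range_succ] at key
  simp only [Nat.choose_self, Nat.cast_one, one_mul, Nat.add_sub_cancel] at key ⊢
  refine ⟨-∑ i ∈ range n, (((n + 1).choose (i + 1) / (n + 1) : ℕ) : AddMonoid.End Y) * (t - 1) ^ i,
    ?_⟩
  have h3 : ∑ i ∈ range n, (((n + 1).choose (i + 1) : ℕ) : AddMonoid.End Y) * (t - 1) ^ i =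
      (n + 1) • ∑ i ∈ range n,
        (((n + 1).choose (i + 1) / (n + 1) : ℕ) : AddMonoid.End Y) * (t - 1) ^ i := by
    rw [← Finset.sum_nsmul]
    refine Finset.sum_congr rfl fun i hi => ?_
    have hi' : i < n := Finset.mem_range.mp hi
    have hdvd : (n + 1) ∣ (n + 1).choose (i + 1) :=
      hp.dvd_choose_self (Nat.succ_ne_zero i) (by omega)
    obtain ⟨c, hc⟩ := hdvd
    rw [hc, Nat.mul_div_cancel_left _ (Nat.succ_pos n), Nat.cast_mul, nsmul_eq_mul, mul_assoc]
  rw [neg_nsmul, ← h3]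
  exact eq_neg_of_add_eq_zero_right key.symm

/-- `p = (t - 1)^(p-1) * W` when `∑_{i<p} t^i = 0`. -/
theorem hl_natCast_eq_pow_mul (p : ℕ) (hp : p.Prime) (t : AddMonoid.End Y)
    (ht : ∑ i ∈ range p, t ^ i = 0) :
    ∃ W : AddMonoid.End Y, (p : AddMonoid.End Y) = (t - 1) ^ (p - 1) * W := by
  obtain ⟨W, Q, h⟩ := hl_poly_identity' p hp
  have key := congrArg (aeval t) h
  simp only [map_mul, map_pow, map_sub, aeval_X, map_one, map_add, map_sum,
    map_natCast] at key
  rw [ht, zero_mul, add_zero] at key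
  exact ⟨aeval t W, key.symm⟩

theorem hl_end_sum_apply {ι : Type*} (s : Finset ι) (f : ι → AddMonoid.End Y) (x : Y) :
    (∑ i ∈ s, f i) x = ∑ i ∈ s, f i x :=
  map_sum (AddMonoidHom.eval x) f s

theorem hl_pow_apply_of_fixed (t : AddMonoid.End Y) (x : Y) (hx : t x = x) (i : ℕ) :
    (t ^ i) x = x := by
  induction i with
  | zero => simp
  | succ i ih => rw [pow_succ, AddMonoid.End.coe_mul, Function.comp_apply, hx, ih]

theorem hl_geom_apply_of_fixed (p : ℕ) (t : AddMonoid.End Y) (x : Y) (hx : t x = x) :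
    (∑ i ∈ range p, t ^ i) x = p • x := by
  rw [hl_end_sum_apply]
  simp [hl_pow_apply_of_fixed t x hx]

theorem hl_cyc_injective (p : ℕ) (hp : p.Prime) [IsTorsionFree ℤ Y]
    (t : AddMonoid.End Y) (ht : ∑ i ∈ range p, t ^ i = 0) :
    Function.Injective (t - 1 : AddMonoid.End Y) := by
  rw [injective_iff_map_eq_zero]
  intro x hx
  have hfix : t x = x := by
    have : t x - x = 0 := hx
    exact sub_eq_zero.mp this
  have h := hl_geom_apply_of_fixed p t x hfix
  rw [ht] at h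
  have h0 : p • x = 0 := by rw [← h]; rfl
  exact AddSubgroup.nsmulAddMonoidHom_injective_of_isTorsionFree hp.ne_zero (by simpa using h0)

theorem hl_cyc_range (p : ℕ) (hp : p.Prime) (t : AddMonoid.End Y)
    (ht : ∑ i ∈ range p, t ^ i = 0) :
    AddMonoidHom.range ((t - 1) ^ (p - 1) : AddMonoid.End Y) =
      (nsmulAddMonoidHom (α := Y) p).range := by
  obtain ⟨U, hU⟩ := hl_pow_eq_nsmul p hp t ht
  obtain ⟨W, hW⟩ := hl_natCast_eq_pow_mul p hp t ht
  ext y
  constructor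
  · rintro ⟨x, rfl⟩
    refine ⟨U x, ?_⟩
    rw [hU]
    rfl
  · rintro ⟨x, rfl⟩
    refine ⟨W x, ?_⟩
    have := congrArg (fun f : AddMonoid.End Y => f x) hW
    simp only [AddMonoid.End.natCast_apply, AddMonoid.End.coe_mul, Function.comp_apply] at this
    exact this.symm

theorem hl_index_range_pow (D : AddMonoid.End Y) (hD : Function.Injective D) (k : ℕ) :
    (AddMonoidHom.range (D ^ k : AddMonoid.End Y)).index =
      (AddMonoidHom.range (D : Y →+ Y)).index ^ k := by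
  induction k with
  | zero =>
    have : AddMonoidHom.range (D ^ 0 : AddMonoid.End Y) = ⊤ := by
      ext x
      simp only [AddSubgroup.mem_top, iff_true]
      exact ⟨x, by rw [pow_zero]; rfl⟩
    rw [this]; simp
  | succ k ih =>
    have : AddMonoidHom.range (D ^ (k + 1) : AddMonoid.End Y) =
        (AddMonoidHom.range (D ^ k : AddMonoid.End Y)).map (D : Y →+ Y) := by
      ext y
      constructor
      · rintro ⟨x, rfl⟩
        exact ⟨(D ^ k) x, ⟨x, rfl⟩, by rw [pow_succ']; rfl⟩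
      · rintro ⟨_, ⟨x, rfl⟩, rfl⟩
        exact ⟨x, by rw [pow_succ']; rfl⟩
    rw [this, AddSubgroup.index_map_of_injective _ hD, ih, pow_succ]

/-- **Lemma CYC**: on a free abelian group of finite rank on which `Φ_p(t) = 0`,
`[Y : (t-1)Y]^(p-1) = p^rank`. -/
theorem hl_cyc_index (p : ℕ) (hp : p.Prime) [Module.Free ℤ Y] [Module.Finite ℤ Y]
    (t : AddMonoid.End Y) (ht : ∑ i ∈ range p, t ^ i = 0) :
    (AddMonoidHom.range (t - 1 : AddMonoid.End Y)).index ^ (p - 1) = p ^ finrank ℤ Y := by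
  rw [← hl_index_range_pow _ (hl_cyc_injective p hp t ht), hl_cyc_range p hp t ht,
    AddSubgroup.index_range_nsmul]

end Cyc

section Free

variable {A : Type*} [AddCommGroup A]

def hl_N (p : ℕ) (s : AddMonoid.End A) : A →+ A := (∑ i ∈ range p, s ^ i : AddMonoid.End A)

def hl_D (s : AddMonoid.End A) : A →+ A := (s - 1 : AddMonoid.End A)

theorem hl_D_apply (s : AddMonoid.End A) (x : A) : hl_D s x = s x - x := rfl

theorem hl_N_apply (p : ℕ) (s : AddMonoid.End A) (x : A) :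
    hl_N p s x = ∑ i ∈ range p, (s ^ i) x := hl_end_sum_apply _ _ _

/-- restriction of an endomorphism to a stable subgroup -/
def hl_res (s : AddMonoid.End A) (X : AddSubgroup A) (h : ∀ x ∈ X, s x ∈ X) : AddMonoid.End X :=
  ((s : A →+ A).comp X.subtype).codRestrict X (fun x => h x x.2)

theorem hl_res_pow_apply (s : AddMonoid.End A) (X : AddSubgroup A) (h : ∀ x ∈ X, s x ∈ X)
    (i : ℕ) (x : X) : (((hl_res s X h) ^ i) x : A) = (s ^ i) (x : A) := by
  induction i generalizing x with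
  | zero => simp
  | succ i ih =>
    rw [pow_succ, pow_succ, AddMonoid.End.coe_mul, AddMonoid.End.coe_mul, Function.comp_apply,
      Function.comp_apply, ih]
    rfl

theorem hl_res_pow_eq_one (s : AddMonoid.End A) (X : AddSubgroup A) (h : ∀ x ∈ X, s x ∈ X)
    (p : ℕ) (hs : s ^ p = 1) : (hl_res s X h) ^ p = 1 := by
  ext x
  rw [hl_res_pow_apply, hs]
  rfl

theorem hl_N_res_apply (p : ℕ) (s : AddMonoid.End A) (X : AddSubgroup A) (h : ∀ x ∈ X, s x ∈ X)
    (x : X) : (hl_N p (hl_res s X h) x : A) = hl_N p s (x : A) := by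
  rw [hl_N_apply, hl_N_apply]
  simp only [AddSubmonoidClass.coe_finsetSum, hl_res_pow_apply]

theorem hl_D_res_apply (s : AddMonoid.End A) (X : AddSubgroup A) (h : ∀ x ∈ X, s x ∈ X)
    (x : X) : (hl_D (hl_res s X h) x : A) = hl_D s (x : A) := rfl

/-- transport of the cohomology indices from the subtype `↥X` to the ambient group. -/
theorem hl_h_res (p : ℕ) (s : AddMonoid.End A) (X : AddSubgroup A) (h : ∀ x ∈ X, s x ∈ X) :
    (hl_N p (hl_res s X h)).range.relIndex (hl_D (hl_res s X h)).ker =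
        hl_h (hl_N p s) (hl_D s) X ∧
    (hl_D (hl_res s X h)).range.relIndex (hl_N p (hl_res s X h)).ker =
        hl_h (hl_D s) (hl_N p s) X := by
  have a1 : (hl_N p (hl_res s X h)).range.map X.subtype = X.map (hl_N p s) := by
    ext y
    constructor
    · rintro ⟨_, ⟨x, rfl⟩, rfl⟩
      exact ⟨x, x.2, (hl_N_res_apply p s X h x).symm⟩
    · rintro ⟨x, hx, rfl⟩
      exact ⟨_, ⟨⟨x, hx⟩, rfl⟩, hl_N_res_apply p s X h ⟨x, hx⟩⟩
  have a2 : (hl_D (hl_res s X h)).ker.map X.subtype = (hl_D s).ker ⊓ X := by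
    ext y
    constructor
    · rintro ⟨x, hx, rfl⟩
      refine ⟨?_, x.2⟩
      have hx' : hl_D (hl_res s X h) x = 0 := hx
      have := congrArg Subtype.val hx'
      rw [hl_D_res_apply] at this
      exact this
    · rintro ⟨hy, hyX⟩
      refine ⟨⟨y, hyX⟩, ?_, rfl⟩
      have hy' : hl_D s y = 0 := hy
      show hl_D (hl_res s X h) ⟨y, hyX⟩ = 0
      apply Subtype.ext
      rw [hl_D_res_apply]
      exact hy'
  have a3 : (hl_D (hl_res s X h)).range.map X.subtype = X.map (hl_D s) := by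
    ext y
    constructor
    · rintro ⟨_, ⟨x, rfl⟩, rfl⟩
      exact ⟨x, x.2, (hl_D_res_apply s X h x).symm⟩
    · rintro ⟨x, hx, rfl⟩
      exact ⟨_, ⟨⟨x, hx⟩, rfl⟩, hl_D_res_apply s X h ⟨x, hx⟩⟩
  have a4 : (hl_N p (hl_res s X h)).ker.map X.subtype = (hl_N p s).ker ⊓ X := by
    ext y
    constructor
    · rintro ⟨x, hx, rfl⟩
      refine ⟨?_, x.2⟩
      have hx' : hl_N p (hl_res s X h) x = 0 := hx
      have := congrArg Subtype.val hx'
      rw [hl_N_res_apply] at this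
      exact this
    · rintro ⟨hy, hyX⟩
      refine ⟨⟨y, hyX⟩, ?_, rfl⟩
      have hy' : hl_N p s y = 0 := hy
      show hl_N p (hl_res s X h) ⟨y, hyX⟩ = 0
      apply Subtype.ext
      rw [hl_N_res_apply]
      exact hy'
  constructor
  · rw [hl_h, ← a1, ← a2,
      AddSubgroup.relIndex_map_map_of_injective _ _ X.subtype_injective]
  · rw [hl_h, ← a3, ← a4,
      AddSubgroup.relIndex_map_map_of_injective _ _ X.subtype_injective]

/-- rank of the fixed points of the restriction -/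
theorem hl_finrank_ker_res (s : AddMonoid.End A) (X : AddSubgroup A) (h : ∀ x ∈ X, s x ∈ X) :
    finrank ℤ (hl_D (hl_res s X h)).ker = finrank ℤ ((hl_D s).ker ⊓ X : AddSubgroup A) := by
  let e : (hl_D (hl_res s X h)).ker ≃+ ((hl_D s).ker ⊓ X : AddSubgroup A) :=
    { toFun := fun x => ⟨x.1.1, by
        refine ⟨?_, x.1.2⟩
        have hx : hl_D (hl_res s X h) x.1 = 0 := x.2
        have := congrArg Subtype.val hx
        rw [hl_D_res_apply] at this
        exact this⟩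
      invFun := fun y => ⟨⟨y.1, y.2.2⟩, by
        have hy : hl_D s y.1 = 0 := y.2.1
        show hl_D (hl_res s X h) ⟨y.1, y.2.2⟩ = 0
        apply Subtype.ext
        rw [hl_D_res_apply]
        exact hy⟩
      left_inv := fun x => rfl
      right_inv := fun x => rfl
      map_add' := fun x y => rfl }
  exact e.toIntLinearEquiv.finrank_eq

theorem hl_N_D (p : ℕ) (s : AddMonoid.End A) (hs : s ^ p = 1) (x : A) :
    hl_N p s (hl_D s x) = 0 := by
  have h : (∑ i ∈ range p, s ^ i : AddMonoid.End A) * (s - 1) = 0 := by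
    rw [geom_sum_mul, hs, sub_self]
  exact congrArg (fun f : AddMonoid.End A => f x) h

theorem hl_D_N (p : ℕ) (s : AddMonoid.End A) (hs : s ^ p = 1) (x : A) :
    hl_D s (hl_N p s x) = 0 := by
  have h : (s - 1) * (∑ i ∈ range p, s ^ i : AddMonoid.End A) = 0 := by
    rw [mul_geom_sum, hs, sub_self]
  exact congrArg (fun f : AddMonoid.End A => f x) h

theorem hl_mem_ker_D (s : AddMonoid.End A) (x : A) : x ∈ (hl_D s).ker ↔ s x = x := by
  rw [AddMonoidHom.mem_ker, hl_D_apply, sub_eq_zero]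

theorem hl_N_of_mem_ker_D (p : ℕ) (s : AddMonoid.End A) (x : A) (hx : x ∈ (hl_D s).ker) :
    hl_N p s x = p • x :=
  hl_geom_apply_of_fixed p s x ((hl_mem_ker_D s x).mp hx)

theorem hl_range_N_le (p : ℕ) (s : AddMonoid.End A) (hs : s ^ p = 1) :
    (hl_N p s).range ≤ (hl_D s).ker := by
  rintro _ ⟨x, rfl⟩
  exact hl_D_N p s hs x

theorem hl_range_D_le (p : ℕ) (s : AddMonoid.End A) (hs : s ^ p = 1) :
    (hl_D s).range ≤ (hl_N p s).ker := by
  rintro _ ⟨x, rfl⟩
  exact hl_N_D p s hs x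

theorem hl_nsmul_le_sup (p : ℕ) (s : AddMonoid.End A) (hs : s ^ p = 1) :
    (nsmulAddMonoidHom (α := A) p).range ≤ (hl_D s).ker ⊔ (hl_N p s).ker := by
  rintro _ ⟨x, rfl⟩
  have h1 : hl_N p s x ∈ (hl_D s).ker := hl_D_N p s hs x
  have h2 : p • x - hl_N p s x ∈ (hl_N p s).ker := by
    rw [AddMonoidHom.mem_ker, map_sub, map_nsmul, hl_N_of_mem_ker_D p s _ h1, sub_self]
  have : nsmulAddMonoidHom (α := A) p x = hl_N p s x + (p • x - hl_N p s x) := by
    simp
  rw [this]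
  exact AddSubgroup.add_mem_sup h1 h2

theorem hl_ker_inf_ker (p : ℕ) (hp : p ≠ 0) [IsTorsionFree ℤ A] (s : AddMonoid.End A) :
    (hl_D s).ker ⊓ (hl_N p s).ker = ⊥ := by
  rw [eq_bot_iff]
  rintro x ⟨h1, h2⟩
  have h3 := hl_N_of_mem_ker_D p s x h1
  rw [AddMonoidHom.mem_ker.mp h2] at h3
  rw [AddSubgroup.mem_bot]
  exact AddSubgroup.nsmulAddMonoidHom_injective_of_isTorsionFree hp (by simpa using h3.symm)


/-- `(K ⊔ C).index ≠ 0` -/
theorem hl_sup_index_ne_zero (p : ℕ) (hp : p ≠ 0) [Module.Free ℤ A] [Module.Finite ℤ A]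
    (s : AddMonoid.End A) (hs : s ^ p = 1) :
    ((hl_D s).ker ⊔ (hl_N p s).ker).index ≠ 0 := by
  have h1 : (nsmulAddMonoidHom (α := A) p).range.index ≠ 0 := by
    rw [AddSubgroup.index_range_nsmul]
    exact pow_ne_zero _ hp
  exact fun h => h1 (Nat.eq_zero_of_zero_dvd (h ▸ AddSubgroup.index_dvd_of_le (hl_nsmul_le_sup p s hs)))

/-- `h0 * i = p ^ rank K` -/
theorem hl_h0_mul (p : ℕ) [Module.Free ℤ A] [Module.Finite ℤ A]
    (s : AddMonoid.End A) (hs : s ^ p = 1) :
    (hl_N p s).range.relIndex (hl_D s).ker * ((hl_D s).ker ⊔ (hl_N p s).ker).index =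
      p ^ finrank ℤ (hl_D s).ker := by
  have h1 := hl_relIndex_map_range (hl_N p s) (hl_D s).ker
  have h2 : (hl_D s).ker.map (hl_N p s) = (hl_D s).ker.map (nsmulAddMonoidHom (α := A) p) := by
    ext y
    constructor
    · rintro ⟨x, hx, rfl⟩
      exact ⟨x, hx, (hl_N_of_mem_ker_D p s x hx).symm⟩
    · rintro ⟨x, hx, rfl⟩
      exact ⟨x, hx, hl_N_of_mem_ker_D p s x hx⟩
  have h3 : (hl_D s).ker.map (hl_N p s) ≤ (hl_N p s).range := AddSubgroup.map_le_range _ _
  have h4 := AddSubgroup.relIndex_mul_relIndex _ _ _ h3 (hl_range_N_le p s hs)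
  rw [← h1, mul_comm, h4, h2, AddSubgroup.relIndex_map_nsmul]


/-- `h1 * i = [C : D C]` -/
theorem hl_h1_mul (p : ℕ) (s : AddMonoid.End A) (hs : s ^ p = 1) :
    (hl_D s).range.relIndex (hl_N p s).ker * ((hl_D s).ker ⊔ (hl_N p s).ker).index =
      ((hl_N p s).ker.map (hl_D s)).relIndex (hl_N p s).ker := by
  have h1 := hl_relIndex_map_range (hl_D s) (hl_N p s).ker
  have h3 : (hl_N p s).ker.map (hl_D s) ≤ (hl_D s).range := AddSubgroup.map_le_range _ _
  have h4 := AddSubgroup.relIndex_mul_relIndex _ _ _ h3 (hl_range_D_le p s hs)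
  rw [sup_comm, ← h1, mul_comm, h4]

/-- `s` preserves `C = ker N`. -/
theorem hl_s_mem_ker_N (p : ℕ) (s : AddMonoid.End A) (x : A)
    (hx : x ∈ (hl_N p s).ker) : s x ∈ (hl_N p s).ker := by
  have h : (∑ i ∈ range p, s ^ i : AddMonoid.End A) * s = s * ∑ i ∈ range p, s ^ i := by
    rw [Finset.sum_mul, Finset.mul_sum]
    exact Finset.sum_congr rfl fun i _ => by rw [← pow_succ, ← pow_succ']
  have h2 := congrArg (fun f : AddMonoid.End A => f x) h
  simp only [AddMonoid.End.coe_mul, Function.comp_apply] at h2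
  rw [AddMonoidHom.mem_ker]
  change (∑ i ∈ range p, s ^ i : AddMonoid.End A) (s x) = 0
  rw [h2]
  have : (∑ i ∈ range p, s ^ i : AddMonoid.End A) x = 0 := hx
  rw [this, map_zero]

/-- the restriction of `s` to `C = ker N`. -/
def hl_resC (p : ℕ) (s : AddMonoid.End A) : AddMonoid.End (hl_N p s).ker :=
  hl_res s (hl_N p s).ker (fun x hx => hl_s_mem_ker_N p s x hx)

theorem hl_resC_pow_apply (p : ℕ) (s : AddMonoid.End A) (i : ℕ)
    (x : (hl_N p s).ker) : (((hl_resC p s) ^ i) x : A) = (s ^ i) (x : A) :=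
  hl_res_pow_apply s _ _ i x

theorem hl_resC_geom (p : ℕ) (s : AddMonoid.End A) :
    ∑ i ∈ range p, (hl_resC p s) ^ i = 0 := by
  ext x
  rw [hl_end_sum_apply]
  simp only [AddSubmonoidClass.coe_finsetSum, hl_resC_pow_apply]
  have : hl_N p s (x : A) = 0 := x.2
  rw [hl_N_apply] at this
  simpa using this

theorem hl_relIndex_C (p : ℕ) (s : AddMonoid.End A) :
    ((hl_N p s).ker.map (hl_D s)).relIndex (hl_N p s).ker =
      (AddMonoidHom.range (hl_resC p s - 1 : AddMonoid.End (hl_N p s).ker)).index := by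
  rw [AddSubgroup.relIndex]
  congr 1
  ext ⟨y, hy⟩
  rw [AddSubgroup.mem_addSubgroupOf]
  constructor
  · rintro ⟨x, hx, hxy⟩
    refine ⟨⟨x, hx⟩, ?_⟩
    apply Subtype.ext
    exact hxy
  · rintro ⟨⟨x, hx⟩, hxy⟩
    refine ⟨x, hx, ?_⟩
    exact congrArg Subtype.val hxy

/-- `[C : D C]^(p-1) = p ^ rank C` -/
theorem hl_relIndex_C_pow (p : ℕ) (hp : p.Prime) [Module.Free ℤ A] [Module.Finite ℤ A]
    (s : AddMonoid.End A) :
    (((hl_N p s).ker.map (hl_D s)).relIndex (hl_N p s).ker) ^ (p - 1) =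
      p ^ finrank ℤ (hl_N p s).ker := by
  rw [hl_relIndex_C p s]
  have : Module.Finite ℤ (hl_N p s).ker :=
    inferInstanceAs (Module.Finite ℤ (hl_N p s).ker.toIntSubmodule)
  have : Module.Free ℤ (hl_N p s).ker :=
    inferInstanceAs (Module.Free ℤ (hl_N p s).ker.toIntSubmodule)
  exact hl_cyc_index p hp (hl_resC p s) (hl_resC_geom p s)


theorem hl_finrank_eq_of_carrier (H : AddSubgroup A) (S : Submodule ℤ A)
    (h : ∀ x, x ∈ H ↔ x ∈ S) : finrank ℤ H = finrank ℤ S := by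
  let e : H ≃+ S :=
    { toFun := fun x => ⟨x.1, (h x.1).mp x.2⟩
      invFun := fun x => ⟨x.1, (h x.1).mpr x.2⟩
      left_inv := fun x => rfl
      right_inv := fun x => rfl
      map_add' := fun x y => rfl }
  exact e.toIntLinearEquiv.finrank_eq

/-- `rank K + rank C = rank A` -/
theorem hl_finrank_add (p : ℕ) (hp : p ≠ 0) [Module.Free ℤ A] [Module.Finite ℤ A]
    (s : AddMonoid.End A) (hs : s ^ p = 1) :
    finrank ℤ (hl_D s).ker + finrank ℤ (hl_N p s).ker = finrank ℤ A := by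
  set f : A →ₗ[ℤ] A := (hl_N p s).toIntLinearMap with hf
  have e1 : finrank ℤ (A ⧸ LinearMap.ker f) + finrank ℤ (LinearMap.ker f) = finrank ℤ A :=
    Submodule.finrank_quotient_add_finrank _
  have e2 : finrank ℤ (A ⧸ LinearMap.ker f) = finrank ℤ (LinearMap.range f) :=
    f.quotKerEquivRange.finrank_eq
  have e3 : finrank ℤ (hl_N p s).ker = finrank ℤ (LinearMap.ker f) :=
    hl_finrank_eq_of_carrier _ _ (fun x => Iff.rfl)
  have e4 : finrank ℤ (hl_N p s).range = finrank ℤ (LinearMap.range f) :=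
    hl_finrank_eq_of_carrier _ _ (fun x => Iff.rfl)
  have h0 : (hl_N p s).range.relIndex (hl_D s).ker ≠ 0 := by
    intro h
    have := hl_h0_mul p s hs
    rw [h, zero_mul] at this
    exact (pow_ne_zero _ hp) this.symm
  have : Module.Finite ℤ (hl_D s).ker :=
    inferInstanceAs (Module.Finite ℤ (hl_D s).ker.toIntSubmodule)
  have : IsTorsionFree ℤ (hl_D s).ker :=
    inferInstanceAs (IsTorsionFree ℤ (hl_D s).ker.toIntSubmodule)
  have : (hl_N p s).range.IsFiniteRelIndex (hl_D s).ker := ⟨h0⟩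
  have e5 : finrank ℤ (hl_N p s).range = finrank ℤ (hl_D s).ker :=
    AddSubgroup.finrank_eq_of_isFiniteRelIndex (hl_range_N_le p s hs)
  rw [← e5, e4, e3, ← e2]
  exact e1

/-- **Free case** of the Herbrand quotient formula. -/
theorem hl_free_formula (p : ℕ) (hp : p.Prime) [Module.Free ℤ A] [Module.Finite ℤ A]
    (s : AddMonoid.End A) (hs : s ^ p = 1) :
    (hl_N p s).range.relIndex (hl_D s).ker ≠ 0 ∧ (hl_D s).range.relIndex (hl_N p s).ker ≠ 0 ∧
    (hl_N p s).range.relIndex (hl_D s).ker ^ (p - 1) * p ^ finrank ℤ A =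
      (hl_D s).range.relIndex (hl_N p s).ker ^ (p - 1) * p ^ (p * finrank ℤ (hl_D s).ker) := by
  have hi := hl_sup_index_ne_zero p hp.ne_zero s hs
  have e0 := hl_h0_mul p s hs
  have e1 := hl_h1_mul p s hs
  have e2 := hl_relIndex_C_pow p hp s
  have e3 := hl_finrank_add p hp.ne_zero s hs
  set i := ((hl_D s).ker ⊔ (hl_N p s).ker).index
  set h0 := (hl_N p s).range.relIndex (hl_D s).ker
  set h1 := (hl_D s).range.relIndex (hl_N p s).ker
  set c := ((hl_N p s).ker.map (hl_D s)).relIndex (hl_N p s).ker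
  set rK := finrank ℤ (hl_D s).ker
  set rC := finrank ℤ (hl_N p s).ker
  have hp0 : p ≠ 0 := hp.ne_zero
  have hh0 : h0 ≠ 0 := fun h => by
    rw [h, zero_mul] at e0; exact (pow_ne_zero _ hp0) e0.symm
  have hc : c ≠ 0 := fun h => by
    rw [h, zero_pow (Nat.sub_ne_zero_of_lt hp.one_lt)] at e2; exact (pow_ne_zero _ hp0) e2.symm
  have hh1 : h1 ≠ 0 := fun h => by
    rw [h, zero_mul] at e1; exact hc e1.symm
  refine ⟨hh0, hh1, ?_⟩
  have hip : i ^ (p - 1) ≠ 0 := pow_ne_zero _ hi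
  apply Nat.eq_of_mul_eq_mul_right (Nat.pos_of_ne_zero hip)
  have hpp : p = (p - 1) + 1 := (Nat.succ_pred_eq_of_pos hp.pos).symm
  calc h0 ^ (p - 1) * p ^ finrank ℤ A * i ^ (p - 1)
      = (h0 * i) ^ (p - 1) * p ^ finrank ℤ A := by ring
    _ = (p ^ rK) ^ (p - 1) * p ^ (rK + rC) := by rw [e0, e3]
    _ = (p ^ rC) * p ^ (p * rK) := by
        rw [← pow_mul, ← pow_add, ← pow_add]
        congr 1
        conv_rhs => rw [hpp]
        ring
    _ = c ^ (p - 1) * p ^ (p * rK) := by rw [e2]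
    _ = (h1 * i) ^ (p - 1) * p ^ (p * rK) := by rw [e1]
    _ = h1 ^ (p - 1) * p ^ (p * rK) * i ^ (p - 1) := by ring

end Free

section General

variable {A : Type*} [AddCommGroup A]

/-- finrank comparison: if `n • X ≤ Z ≤ X` then `rank Z = rank X`. -/
theorem hl_finrank_eq_of_nsmul_le [Module.Finite ℤ A] (n : ℕ) (hn : n ≠ 0) (Z X : AddSubgroup A)
    (hZX : Z ≤ X) (h : ∀ x ∈ X, n • x ∈ Z) : finrank ℤ Z = finrank ℤ X := by
  have : Module.Finite ℤ X := inferInstanceAs (Module.Finite ℤ X.toIntSubmodule)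
  let φ : X →ₗ[ℤ] X := (n : ℤ) • LinearMap.id
  have hker : LinearMap.ker φ ≤ Submodule.torsion ℤ X := by
    intro x hx
    rw [Submodule.mem_torsion_iff]
    refine ⟨⟨(n : ℤ), mem_nonZeroDivisors_of_ne_zero (by exact_mod_cast hn)⟩, ?_⟩
    simpa [φ] using hx
  have e1 : finrank ℤ (X ⧸ LinearMap.ker φ) = finrank ℤ X :=
    finrank_quotient_eq_of_le_torsion hker
  have e2 : finrank ℤ (X ⧸ LinearMap.ker φ) = finrank ℤ (LinearMap.range φ) :=
    φ.quotKerEquivRange.finrank_eq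
  let Z' : Submodule ℤ X := (Z.addSubgroupOf X).toIntSubmodule
  have hle : LinearMap.range φ ≤ Z' := by
    rintro _ ⟨x, rfl⟩
    show ((φ x : X) : A) ∈ Z
    have : ((φ x : X) : A) = n • (x : A) := by simp [φ]
    rw [this]
    exact h x x.2
  have e3 : finrank ℤ (LinearMap.range φ) ≤ finrank ℤ Z' := Submodule.finrank_mono hle
  have e4 : finrank ℤ Z' ≤ finrank ℤ X := Submodule.finrank_le Z'
  have e5 : finrank ℤ Z' = finrank ℤ Z :=
    (AddSubgroup.addSubgroupOfEquivOfLe hZX).toIntLinearEquiv.finrank_eq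
  omega

theorem hl_exists_torsion_killer [Module.Finite ℤ A] :
    ∃ n : ℕ, n ≠ 0 ∧ ∀ (x : A) (k : ℤ), k ≠ 0 → k • x = 0 → n • x = 0 := by
  have hfin : Finite (Submodule.torsion ℤ A) :=
    Module.finite_of_fg_torsion _ Submodule.torsion_isTorsion
  refine ⟨Nat.card (Submodule.torsion ℤ A), Nat.card_pos.ne', ?_⟩
  intro x k hk hx
  have hxT : x ∈ Submodule.torsion ℤ A := by
    rw [Submodule.mem_torsion_iff]
    exact ⟨⟨k, mem_nonZeroDivisors_of_ne_zero hk⟩, hx⟩
  have := card_nsmul_eq_zero' (G := Submodule.torsion ℤ A) (x := ⟨x, hxT⟩)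
  have h2 := congrArg Subtype.val this
  simpa using h2

theorem hl_index_range_nsmul_ne_zero [Module.Finite ℤ A] (n : ℕ) (hn : n ≠ 0) :
    (nsmulAddMonoidHom (α := A) n).range.index ≠ 0 := by
  have : AddGroup.FG A := Module.Finite.iff_addGroup_fg.mp inferInstance
  have htors : IsAddTorsion (A ⧸ (nsmulAddMonoidHom (α := A) n).range) := by
    intro x
    induction x using QuotientAddGroup.induction_on with
    | H a =>
      rw [isOfFinAddOrder_iff_nsmul_eq_zero]
      refine ⟨n, Nat.pos_of_ne_zero hn, ?_⟩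
      rw [← QuotientAddGroup.mk_nsmul, QuotientAddGroup.eq_zero_iff]
      exact ⟨a, rfl⟩
  have : Finite (A ⧸ (nsmulAddMonoidHom (α := A) n).range) :=
    AddCommGroup.finite_of_fg_isAddTorsion _ htors
  exact AddSubgroup.index_ne_zero_of_finite


/-- **Herbrand quotient of a finitely generated abelian group with an automorphism of prime
order `p`** (division-free form): with `h0 = [ker (s-1) : N A]`, `h1 = [ker N : (s-1) A]`,
`r = rank A`, `r0 = rank ker (s-1)`:  `h0^(p-1) * p^r = h1^(p-1) * p^(p*r0)`, both finite. -/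
theorem hl_formula (p : ℕ) (hp : p.Prime) [Module.Finite ℤ A]
    (s : AddMonoid.End A) (hs : s ^ p = 1) :
    (hl_N p s).range.relIndex (hl_D s).ker ≠ 0 ∧ (hl_D s).range.relIndex (hl_N p s).ker ≠ 0 ∧
    (hl_N p s).range.relIndex (hl_D s).ker ^ (p - 1) * p ^ finrank ℤ A =
      (hl_D s).range.relIndex (hl_N p s).ker ^ (p - 1) * p ^ (p * finrank ℤ (hl_D s).ker) := by
  obtain ⟨n, hn, hkill⟩ := hl_exists_torsion_killer (A := A)
  set B : AddSubgroup A := (nsmulAddMonoidHom (α := A) n).range with hB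
  have hBf : ∀ f : A →+ A, ∀ x ∈ B, f x ∈ B := by
    rintro f _ ⟨y, rfl⟩
    exact ⟨f y, by simp⟩
  have hBs : ∀ x ∈ B, s x ∈ B := hBf s
  have hBD : B.map (hl_D s) ≤ B := by
    rintro _ ⟨x, hx, rfl⟩; exact hBf _ x hx
  have hBN : B.map (hl_N p s) ≤ B := by
    rintro _ ⟨x, hx, rfl⟩; exact hBf _ x hx
  have hBidx : B.index ≠ 0 := hl_index_range_nsmul_ne_zero n hn
  have : Module.Finite ℤ B := inferInstanceAs (Module.Finite ℤ B.toIntSubmodule)
  have : IsTorsionFree ℤ B := by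
    apply Module.IsTorsionFree.of_smul_eq_zero
    rintro r ⟨_, ⟨y, rfl⟩⟩ hr
    by_cases hr0 : r = 0
    · exact Or.inl hr0
    · right
      have h1 : r • (n • y) = 0 := by
        have := congrArg Subtype.val hr
        simpa using this
      have h2 : (r * n) • y = 0 := by
        rw [mul_smul]; simpa using h1
      have h3 := hkill y (r * n) (mul_ne_zero hr0 (by exact_mod_cast hn)) h2
      apply Subtype.ext
      simpa using h3
  have hsB := hl_res_pow_eq_one s B hBs p hs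
  obtain ⟨f0, f1, fe⟩ := hl_free_formula p hp (hl_res s B hBs) hsB
  obtain ⟨t0, t1⟩ := hl_h_res p s B hBs
  rw [t0] at f0 fe
  rw [t1] at f1 fe
  have r1 : finrank ℤ B = finrank ℤ A := by
    rw [hl_finrank_eq_of_nsmul_le n hn B ⊤ le_top (fun x _ => ⟨x, rfl⟩)]
    exact AddSubgroup.topEquiv.toIntLinearEquiv.finrank_eq
  have r2 : finrank ℤ (hl_D (hl_res s B hBs)).ker = finrank ℤ (hl_D s).ker := by
    rw [hl_finrank_ker_res]
    exact hl_finrank_eq_of_nsmul_le n hn _ _ inf_le_left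
      (fun x hx => ⟨(hl_D s).ker.nsmul_mem hx n, ⟨x, rfl⟩⟩)
  rw [r1, r2] at fe
  obtain ⟨inv, i0, i1⟩ := hl_invariance (hl_D s) (hl_N p s) (hl_N_D p s hs) (hl_D_N p s hs) B
    hBD hBN hBidx
  simp only [hl_h_top] at inv i0 i1
  have g0 := i0 f0
  have g1 := i1 f1
  refine ⟨g0, g1, ?_⟩
  set h0A := (hl_N p s).range.relIndex (hl_D s).ker
  set h1A := (hl_D s).range.relIndex (hl_N p s).ker
  set h0B := hl_h (hl_N p s) (hl_D s) B
  set h1B := hl_h (hl_D s) (hl_N p s) B
  have hpos : 0 < h1B ^ (p - 1) := Nat.pos_of_ne_zero (pow_ne_zero _ f1)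
  apply Nat.eq_of_mul_eq_mul_right hpos
  calc h0A ^ (p - 1) * p ^ finrank ℤ A * h1B ^ (p - 1)
      = (h0A * h1B) ^ (p - 1) * p ^ finrank ℤ A := by ring
    _ = (h1A * h0B) ^ (p - 1) * p ^ finrank ℤ A := by rw [inv]
    _ = h1A ^ (p - 1) * (h0B ^ (p - 1) * p ^ finrank ℤ A) := by ring
    _ = h1A ^ (p - 1) * (h1B ^ (p - 1) * p ^ (p * finrank ℤ (hl_D s).ker)) := by rw [fe]
    _ = h1A ^ (p - 1) * p ^ (p * finrank ℤ (hl_D s).ker) * h1B ^ (p - 1) := by ring

/-- the case used for units: `r + 1 = p * (r0 + 1)` gives `h1 = p * h0`. -/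
theorem hl_formula_units (p : ℕ) (hp : p.Prime) [Module.Finite ℤ A]
    (s : AddMonoid.End A) (hs : s ^ p = 1)
    (hr : finrank ℤ A + 1 = p * (finrank ℤ (hl_D s).ker + 1)) :
    (hl_N p s).range.relIndex (hl_D s).ker ≠ 0 ∧
    (hl_D s).range.relIndex (hl_N p s).ker = p * (hl_N p s).range.relIndex (hl_D s).ker := by
  obtain ⟨g0, g1, e⟩ := hl_formula p hp s hs
  refine ⟨g0, ?_⟩
  set h0 := (hl_N p s).range.relIndex (hl_D s).ker
  set h1 := (hl_D s).range.relIndex (hl_N p s).ker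
  set r := finrank ℤ A
  set r0 := finrank ℤ (hl_D s).ker
  have hp1 : p - 1 ≠ 0 := Nat.sub_ne_zero_of_lt hp.one_lt
  -- p * r0 + (p - 1) = r
  have hr' : p * r0 + (p - 1) = r := by
    have : p * (r0 + 1) = p * r0 + (p - 1) + 1 := by
      have := hp.pos
      rw [mul_add, mul_one]; omega
    omega
  have e2 : (p * h0) ^ (p - 1) * p ^ (p * r0) = h1 ^ (p - 1) * p ^ (p * r0) := by
    rw [← e, ← hr', mul_pow, pow_add]; ring
  have e3 : (p * h0) ^ (p - 1) = h1 ^ (p - 1) :=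
    Nat.eq_of_mul_eq_mul_right (Nat.pos_of_ne_zero (pow_ne_zero _ hp.ne_zero)) e2
  exact (Nat.pow_left_injective (n := p - 1) (by omega) e3).symm

end General

end Fermat.Agent.S14x
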