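/-
S14 project, module SI (helper48): abstract "unit bridge".
`A` = (additive version of) `Mˣ`, `B` = `Fˣ`, `IM`, `IF` divisor groups, `dvM`, `dvF` the divisor
maps (kernel = units), `σ` the generator, `ι : B → A` the inclusion, `Nm : A → B` the norm.
With Hilbert 90 we get `[ext⁻¹ P_M : P_F] = [E ∩ ker N : (σ-1) E]` and
`[P_M ∩ ker nm : (act-1) P_M] ≤ [E ∩ ker (σ-1) : N E]`, where `E = ker dvM`, `N = ι ∘ Nm`.
Mathlib-only.  Prefix `hq_`.
-/
import Mathlib

set_option autoImplicit false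

namespace Fermat.Agent.S14x

open AddSubgroup

section Bridge

variable {A B IF IM : Type*} [AddCommGroup A] [AddCommGroup B] [AddCommGroup IF]
  [AddCommGroup IM]

/-- first half of the bridge: the capitulation index is `|H¹(E)|`. -/
theorem hq_bridge_c1 (σ : A →+ A) (ι : B →+ A) (Nm : A →+ B)
    (dvM : A →+ IM) (dvF : B →+ IF) (ext : IF →+ IM) (act : IM →+ IM)
    (hι : Function.Injective ι) (hext : Function.Injective ext)
    (h1 : ∀ a, dvM (σ a) = act (dvM a))
    (h2 : ∀ x, dvM (ι x) = ext (dvF x))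
    (hfix : ∀ a, σ a = a → a ∈ ι.range) (hσι : ∀ x, σ (ι x) = ι x)
    (h90 : ∀ a, Nm a = 0 → ∃ z, a = σ z - z)
    (hNσ : ∀ a, Nm (σ a) = Nm a)
    (hinv : ∀ D, act D = D → D ∈ ext.range) (hactext : ∀ D, act (ext D) = ext D) :
    dvF.range.relIndex (dvM.range.comap ext) =
      (dvM.ker.map (σ - AddMonoidHom.id A)).relIndex (dvM.ker ⊓ (ι.comp Nm).ker) := by
  set D : A →+ A := σ - AddMonoidHom.id A with hDdef
  set N : A →+ A := ι.comp Nm with hNdef
  set E : AddSubgroup A := dvM.ker with hE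
  have hDapp : ∀ x, D x = σ x - x := fun x => by simp [hDdef]
  have hNapp : ∀ x, N x = ι (Nm x) := fun x => rfl
  -- `ker D = range ι`
  have hkerD : D.ker = ι.range := by
    ext a
    rw [AddMonoidHom.mem_ker, hDapp, sub_eq_zero]
    constructor
    · exact hfix a
    · rintro ⟨x, rfl⟩
      exact hσι x
  -- `range D = ker N`  (Hilbert 90)
  have hrangeD : D.range = N.ker := by
    ext a
    rw [AddMonoidHom.mem_ker, hNapp]
    constructor
    · rintro ⟨z, rfl⟩
      rw [hDapp, map_sub, hNσ, sub_self, map_zero]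
    · intro ha
      have : Nm a = 0 := hι (by rw [ha, map_zero])
      obtain ⟨z, hz⟩ := h90 a this
      exact ⟨z, by rw [hDapp, hz]⟩
  set X : AddSubgroup A := E.comap D with hX
  have hEX : E ≤ X := by
    intro e he
    have he' : dvM e = 0 := he
    show dvM (D e) = 0
    rw [hDapp, map_sub, h1, he', map_zero, sub_zero]
  have hkerDX : D.ker ≤ X := by
    intro a ha
    show D a ∈ E
    rw [AddMonoidHom.mem_ker.mp ha]
    exact E.zero_mem
  -- `X = dvM⁻¹ (range ext)`
  have hXeq : X = ext.range.comap dvM := by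
    ext a
    show dvM (D a) = 0 ↔ dvM a ∈ ext.range
    rw [hDapp, map_sub, h1, sub_eq_zero]
    constructor
    · exact hinv _
    · rintro ⟨d, hd⟩
      rw [← hd, hactext]
  -- right-hand side
  have hR : (E.map D).relIndex (E ⊓ N.ker) = (E ⊔ D.ker).relIndex X := by
    have e1 : E ⊓ N.ker = X.map D := by
      rw [hX, AddSubgroup.map_comap_eq, hrangeD, inf_comm]
    rw [e1, AddSubgroup.relIndex_map_map, sup_eq_left.mpr hkerDX]
  -- left-hand side
  have hL : dvF.range.relIndex (dvM.range.comap ext) = (E ⊔ D.ker).relIndex X := by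
    rw [← AddSubgroup.relIndex_map_map_of_injective _ _ hext]
    have e1 : dvF.range.map ext = D.ker.map dvM := by
      rw [hkerD]
      ext d
      constructor
      · rintro ⟨_, ⟨x, rfl⟩, rfl⟩
        exact ⟨ι x, ⟨x, rfl⟩, h2 x⟩
      · rintro ⟨_, ⟨x, rfl⟩, rfl⟩
        exact ⟨dvF x, ⟨x, rfl⟩, (h2 x).symm⟩
    have e2 : (dvM.range.comap ext).map ext = X.map dvM := by
      rw [hXeq, AddSubgroup.map_comap_eq, AddSubgroup.map_comap_eq, inf_comm]
    rw [e1, e2, AddSubgroup.relIndex_map_map, sup_eq_left.mpr hEX, sup_comm]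
  rw [hL, hR]

/-- second half of the bridge: `c2 ≤ |H⁰(E)|`. -/
theorem hq_bridge_c2 (σ : A →+ A) (ι : B →+ A) (Nm : A →+ B)
    (dvM : A →+ IM) (dvF : B →+ IF) (ext : IF →+ IM) (nm : IM →+ IF) (act : IM →+ IM)
    (hι : Function.Injective ι) (hext : Function.Injective ext)
    (h1 : ∀ a, dvM (σ a) = act (dvM a))
    (h2 : ∀ x, dvM (ι x) = ext (dvF x))
    (h3 : ∀ a, dvF (Nm a) = nm (dvM a))
    (hσι : ∀ x, σ (ι x) = ι x)
    (h90 : ∀ a, Nm a = 0 → ∃ z, a = σ z - z)
    (hNσ : ∀ a, Nm (σ a) = Nm a)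
    (hH0 : (dvM.ker.map (ι.comp Nm)).relIndex (dvM.ker ⊓ (σ - AddMonoidHom.id A).ker) ≠ 0) :
    (dvM.range.map (act - AddMonoidHom.id IM)).relIndex (dvM.range ⊓ nm.ker) ≠ 0 ∧
    (dvM.range.map (act - AddMonoidHom.id IM)).relIndex (dvM.range ⊓ nm.ker) ≤
      (dvM.ker.map (ι.comp Nm)).relIndex (dvM.ker ⊓ (σ - AddMonoidHom.id A).ker) := by
  set D : A →+ A := σ - AddMonoidHom.id A with hDdef
  set N : A →+ A := ι.comp Nm with hNdef
  set E : AddSubgroup A := dvM.ker with hE
  set Dv : IM →+ IM := act - AddMonoidHom.id IM with hDvdef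
  have hDapp : ∀ x, D x = σ x - x := fun x => by simp [hDdef]
  have hDvapp : ∀ x, Dv x = act x - x := fun x => by simp [hDvdef]
  have hNapp : ∀ x, N x = ι (Nm x) := fun x => rfl
  have hrangeD : D.range = N.ker := by
    ext a
    rw [AddMonoidHom.mem_ker, hNapp]
    constructor
    · rintro ⟨z, rfl⟩
      rw [hDapp, map_sub, hNσ, sub_self, map_zero]
    · intro ha
      have : Nm a = 0 := hι (by rw [ha, map_zero])
      obtain ⟨z, hz⟩ := h90 a this
      exact ⟨z, by rw [hDapp, hz]⟩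
  set Y : AddSubgroup A := nm.ker.comap dvM with hY
  have hEY : E ≤ Y := by
    intro e he
    have he' : dvM e = 0 := he
    show nm (dvM e) = 0
    rw [he', map_zero]
  -- `c2 = [Y : range D + E]`
  have e1 : dvM.range.map Dv = D.range.map dvM := by
    ext d
    constructor
    · rintro ⟨_, ⟨a, rfl⟩, rfl⟩
      exact ⟨D a, ⟨a, rfl⟩, by rw [hDapp, hDvapp, map_sub, h1]⟩
    · rintro ⟨_, ⟨a, rfl⟩, rfl⟩
      exact ⟨dvM a, ⟨a, rfl⟩, by rw [hDapp, hDvapp, map_sub, h1]⟩
  have e2 : dvM.range ⊓ nm.ker = Y.map dvM := by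
    rw [hY, AddSubgroup.map_comap_eq]
  have hc2 : (dvM.range.map Dv).relIndex (dvM.range ⊓ nm.ker) = (D.range ⊔ E).relIndex Y := by
    rw [e1, e2, AddSubgroup.relIndex_map_map, sup_eq_left.mpr hEY]
  -- `range D + E = N⁻¹ (N E)` and `Y = N⁻¹ (E ⊓ ker D)`
  have e3 : D.range ⊔ E = (E.map N).comap N := by
    rw [AddSubgroup.comap_map_eq, hrangeD, sup_comm]
  have e4 : Y = (E ⊓ D.ker).comap N := by
    ext a
    show nm (dvM a) = 0 ↔ (dvM (N a) = 0 ∧ D (N a) = 0)
    rw [hNapp, h2, ← h3, hDapp, hσι, sub_self]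
    constructor
    · intro h
      exact ⟨by rw [h, map_zero], rfl⟩
    · rintro ⟨h, -⟩
      exact hext (by rw [h, map_zero])
  rw [hc2, e3, e4, AddSubgroup.relIndex_comap, AddSubgroup.map_comap_eq]
  constructor
  · intro h0
    exact hH0 (AddSubgroup.relIndex_eq_zero_of_le_right inf_le_right h0)
  · exact AddSubgroup.relIndex_le_of_le_right inf_le_right hH0

end Bridge

end Fermat.Agent.S14x
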