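/-
S14 / FI-F support (helper66): effective divisors `HeightOneSpectrum R →₀ ℕ` versus nonzero ideals
of a Dedekind domain `R`, and the Euler product over ideals (product form and exp-log form)
for completely multiplicative functions, on top of `ep_hasProd` (S14x/EulerFCM.lean).
Mathlib + EulerFCM only.  prefix `ie_`.
-/
import Mathlib
import Fermat.Agent.S14x.EulerFCM

set_option autoImplicit false
set_option linter.unusedSectionVars false

namespace Fermat.Agent.S14x

open IsDedekindDomain

section IdealEff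

variable {R : Type*} [CommRing R] [IsDedekindDomain R]

/-- the ideal `∏ v ^ n v` attached to an effective divisor `n`. -/
noncomputable def ieIdeal (n : HeightOneSpectrum R →₀ ℕ) : Ideal R :=
  n.prod fun v k => v.asIdeal ^ k

theorem ie_ideal_zero : ieIdeal (0 : HeightOneSpectrum R →₀ ℕ) = ⊤ := by
  simp [ieIdeal]

theorem ie_ideal_add (m n : HeightOneSpectrum R →₀ ℕ) :
    ieIdeal (m + n) = ieIdeal m * ieIdeal n := by
  unfold ieIdeal
  exact Finsupp.prod_add_index' (fun _ => pow_zero _) (fun _ _ _ => pow_add _ _ _)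

theorem ie_ideal_single (v : HeightOneSpectrum R) (k : ℕ) :
    ieIdeal (Finsupp.single v k) = v.asIdeal ^ k := by
  unfold ieIdeal
  exact Finsupp.prod_single_index (pow_zero _)

theorem ie_ideal_ne_bot (n : HeightOneSpectrum R →₀ ℕ) : ieIdeal n ≠ ⊥ := by
  unfold ieIdeal Finsupp.prod
  rw [← Ideal.zero_eq_bot, Finset.prod_ne_zero_iff]
  intro v _
  exact pow_ne_zero _ v.ne_bot

theorem ie_count (n : HeightOneSpectrum R →₀ ℕ) (v : HeightOneSpectrum R) :
    FractionalIdeal.count (FractionRing R) v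
      ((ieIdeal n : Ideal R) : FractionalIdeal (nonZeroDivisors R) (FractionRing R)) = (n v : ℤ) := by
  classical
  have h := FractionalIdeal.count_finsuppProd (K := FractionRing R) v
    (n.mapRange (Nat.cast : ℕ → ℤ) Nat.cast_zero)
  rw [Finsupp.mapRange_apply] at h
  rw [← h]
  congr 1
  rw [Finsupp.prod_mapRange_index (fun _ => zpow_zero _)]
  unfold ieIdeal
  rw [← FractionalIdeal.coeIdealHom_apply, map_finsuppProd]
  refine Finsupp.prod_congr (fun w _ => ?_)
  rw [FractionalIdeal.coeIdealHom_apply, FractionalIdeal.coeIdeal_pow, zpow_natCast]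

theorem ie_injective : Function.Injective (ieIdeal (R := R)) := by
  intro m n h
  ext v
  have h1 := ie_count m v
  have h2 := ie_count n v
  rw [h] at h1
  exact_mod_cast h1.symm.trans h2

theorem ie_surjective (I : Ideal R) (hI : I ≠ ⊥) : ∃ n : HeightOneSpectrum R →₀ ℕ, ieIdeal n = I := by
  induction I using UniqueFactorizationMonoid.induction_on_prime with
  | h₁ => exact absurd rfl hI
  | h₂ x hx =>
    refine ⟨0, ?_⟩
    rw [ie_ideal_zero]
    exact (Ideal.isUnit_iff.mp hx).symm
  | h₃ a p ha hp ih =>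
    obtain ⟨n, hn⟩ := ih ha
    refine ⟨Finsupp.single ⟨p, Ideal.isPrime_of_prime hp, hp.ne_zero⟩ 1 + n, ?_⟩
    rw [ie_ideal_add, ie_ideal_single, hn, pow_one]

/-- effective divisors are the same thing as nonzero ideals. -/
noncomputable def ieEquiv : (HeightOneSpectrum R →₀ ℕ) ≃ {I : Ideal R // I ≠ ⊥} :=
  Equiv.ofBijective (fun n => ⟨ieIdeal n, ie_ideal_ne_bot n⟩)
    ⟨fun _ _ h => ie_injective (congrArg Subtype.val h),
     fun I => (ie_surjective I.1 I.2).imp fun _ hn => Subtype.ext hn⟩

@[simp] theorem ie_equiv_apply_coe (n : HeightOneSpectrum R →₀ ℕ) :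
    ((ieEquiv n : {I : Ideal R // I ≠ ⊥}) : Ideal R) = ieIdeal n := rfl

theorem ie_apply_pow (f : Ideal R → ℂ) (h1 : f ⊤ = 1) (hmul : ∀ I J : Ideal R, f (I * J) = f I * f J)
    (I : Ideal R) (k : ℕ) : f (I ^ k) = f I ^ k := by
  induction k with
  | zero => rw [pow_zero, pow_zero, Ideal.one_eq_top, h1]
  | succ k ih => rw [pow_succ, pow_succ, hmul, ih]

/-- a completely multiplicative function evaluated at `ieIdeal n`. -/
theorem ie_apply_eq_epTerm (f : Ideal R → ℂ) (h1 : f ⊤ = 1)
    (hmul : ∀ I J : Ideal R, f (I * J) = f I * f J) (n : HeightOneSpectrum R →₀ ℕ) :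
    f (ieIdeal n) = epTerm (fun v : HeightOneSpectrum R => f v.asIdeal) n := by
  induction n using Finsupp.induction_linear with
  | zero => rw [ie_ideal_zero, h1, ep_term_zero]
  | add m n hm hn => rw [ie_ideal_add, hmul, hm, hn, ep_term_add]
  | single v k => rw [ie_ideal_single, ie_apply_pow f h1 hmul, ep_term_single]

theorem ie_summable_epTerm (f : Ideal R → ℂ) (h1 : f ⊤ = 1)
    (hmul : ∀ I J : Ideal R, f (I * J) = f I * f J)
    (hsum : Summable (fun I : {I : Ideal R // I ≠ ⊥} => ‖f I.1‖)) :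
    Summable fun n : HeightOneSpectrum R →₀ ℕ =>
      ‖epTerm (fun v : HeightOneSpectrum R => f v.asIdeal) n‖ := by
  have h := (ieEquiv.summable_iff (f := fun I : {I : Ideal R // I ≠ ⊥} => ‖f I.1‖)).mpr hsum
  refine h.congr (fun n => ?_)
  simp only [Function.comp_apply, ie_equiv_apply_coe, ie_apply_eq_epTerm f h1 hmul]

theorem ie_tsum_eq_tsum_epTerm (f : Ideal R → ℂ) (h1 : f ⊤ = 1)
    (hmul : ∀ I J : Ideal R, f (I * J) = f I * f J) :
    ∑' I : {I : Ideal R // I ≠ ⊥}, f I.1 =
      ∑' n : HeightOneSpectrum R →₀ ℕ, epTerm (fun v : HeightOneSpectrum R => f v.asIdeal) n := by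
  rw [← ieEquiv.tsum_eq (fun I : {I : Ideal R // I ≠ ⊥} => f I.1)]
  refine tsum_congr (fun n => ?_)
  simp only [ie_equiv_apply_coe, ie_apply_eq_epTerm f h1 hmul]

/-- **Euler product over the nonzero ideals of a Dedekind domain** (product form). -/
theorem ie_hasProd (f : Ideal R → ℂ) (h1 : f ⊤ = 1)
    (hmul : ∀ I J : Ideal R, f (I * J) = f I * f J)
    (hsum : Summable (fun I : {I : Ideal R // I ≠ ⊥} => ‖f I.1‖)) :
    HasProd (fun v : HeightOneSpectrum R => (1 - f v.asIdeal)⁻¹)
      (∑' I : {I : Ideal R // I ≠ ⊥}, f I.1) := by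
  rw [ie_tsum_eq_tsum_epTerm f h1 hmul]
  exact ep_hasProd (ie_summable_epTerm f h1 hmul hsum)

theorem ie_norm_lt_one (f : Ideal R → ℂ) (h1 : f ⊤ = 1)
    (hmul : ∀ I J : Ideal R, f (I * J) = f I * f J)
    (hsum : Summable (fun I : {I : Ideal R // I ≠ ⊥} => ‖f I.1‖)) (v : HeightOneSpectrum R) :
    ‖f v.asIdeal‖ < 1 :=
  ep_norm_lt_one (ie_summable_epTerm f h1 hmul hsum) v

theorem ie_summable_primes (f : Ideal R → ℂ)
    (hsum : Summable (fun I : {I : Ideal R // I ≠ ⊥} => ‖f I.1‖)) :
    Summable (fun v : HeightOneSpectrum R => ‖f v.asIdeal‖) := by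
  have hinj : Function.Injective
      (fun v : HeightOneSpectrum R => (⟨v.asIdeal, v.ne_bot⟩ : {I : Ideal R // I ≠ ⊥})) := by
    intro v w h
    have h' : v.asIdeal = w.asIdeal := congrArg Subtype.val h
    exact HeightOneSpectrum.ext h'
  have := hsum.comp_injective hinj
  exact this

/-- **Euler product over the nonzero ideals of a Dedekind domain** (exp-log form). -/
theorem ie_tsum_eq_cexp (f : Ideal R → ℂ) (h1 : f ⊤ = 1)
    (hmul : ∀ I J : Ideal R, f (I * J) = f I * f J)
    (hsum : Summable (fun I : {I : Ideal R // I ≠ ⊥} => ‖f I.1‖)) :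
    Summable (fun v : HeightOneSpectrum R => -Complex.log (1 - f v.asIdeal)) ∧
    ∑' I : {I : Ideal R // I ≠ ⊥}, f I.1 =
      Complex.exp (∑' v : HeightOneSpectrum R, -Complex.log (1 - f v.asIdeal)) := by
  have hlt := ie_norm_lt_one f h1 hmul hsum
  have hfv : Summable (fun v : HeightOneSpectrum R => f v.asIdeal) :=
    (ie_summable_primes f hsum).of_norm
  have hlog : Summable (fun v : HeightOneSpectrum R => -Complex.log (1 - f v.asIdeal)) := by
    have := (Complex.summable_log_one_add_of_summable hfv.neg).neg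
    refine this.congr (fun v => ?_)
    simp [sub_eq_add_neg]
  refine ⟨hlog, ?_⟩
  have hre : ∀ v : HeightOneSpectrum R, 0 < (1 - f v.asIdeal).re := by
    intro v
    have := (Complex.abs_re_le_norm (f v.asIdeal)).trans_lt (hlt v)
    have := (abs_lt.mp this).2
    simp only [Complex.sub_re, Complex.one_re]
    linarith
  have hne : ∀ v : HeightOneSpectrum R, (1 - f v.asIdeal)⁻¹ ≠ 0 := by
    intro v
    apply inv_ne_zero
    intro h
    have := hre v
    rw [h] at this
    simp at this
  have hloginv : ∀ v : HeightOneSpectrum R,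
      Complex.log ((1 - f v.asIdeal)⁻¹) = -Complex.log (1 - f v.asIdeal) := by
    intro v
    apply Complex.log_inv
    intro h
    have := (Complex.arg_eq_pi_iff.mp h).1
    linarith [hre v]
  have hlog' : Summable (fun v : HeightOneSpectrum R => Complex.log ((1 - f v.asIdeal)⁻¹)) :=
    hlog.congr (fun v => (hloginv v).symm)
  have h2 := Complex.cexp_tsum_eq_tprod hne hlog'
  rw [(ie_hasProd f h1 hmul hsum).tprod_eq] at h2
  rw [← h2]
  congr 1
  exact tsum_congr (fun v => hloginv v)

end IdealEff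

end Fermat.Agent.S14x
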