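/-
S14 / SI-CORE (helper38): the abstract counting lemma behind the algebraic norm-index
inequality `[I_F : P_F N(I_M)] ≥ p`.  Pure index calculus in abelian groups (Mathlib only).
Prefix `sc_`.
-/
import Mathlib

set_option autoImplicit false

namespace Fermat.Agent.S14x

section Core

variable {IF IM : Type*} [AddCommGroup IF] [AddCommGroup IM]

/-- **SI-CORE**.  `IF`, `IM` = divisor groups of `F`, `M`; `PF`, `PM` = principal divisors;
`g` = action of the generator; `ext`, `nm` = extension and norm of divisors.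
`c₁ = [ext⁻¹ PM : PF]`, `c₂ = [PM ∩ ker nm : (g-1) PM]`.  If `p c₂ ≤ c₁` then
`[IF : PF + nm IM] ≥ p`. -/
theorem sc_index_ge
    (p : ℕ) (PF : AddSubgroup IF) (PM : AddSubgroup IM)
    (g : IM →+ IM) (ext : IF →+ IM) (nm : IM →+ IF)
    (hfix : ∀ D : IM, g D = D → D ∈ ext.range)
    (hnm_g : ∀ D : IM, nm (g D) = nm D)
    (hgPM : ∀ D ∈ PM, g D ∈ PM)
    (hextP : ∀ D ∈ PF, ext D ∈ PM)
    (hnmP : ∀ D ∈ PM, nm D ∈ PF)
    (hF : PF.index ≠ 0) (hM : PM.index ≠ 0)
    (hc : p * (PM.map (g - AddMonoidHom.id IM)).relIndex (PM ⊓ nm.ker) ≤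
      PF.relIndex (PM.comap ext))
    (hc2 : (PM.map (g - AddMonoidHom.id IM)).relIndex (PM ⊓ nm.ker) ≠ 0) :
    p ≤ (PF ⊔ nm.range).index := by
  set φ : IM →+ IM := g - AddMonoidHom.id IM with hφ
  have hφ_apply : ∀ D, φ D = g D - D := fun D => by simp [hφ]
  set c1 := PF.relIndex (PM.comap ext) with hc1
  set c2 := (PM.map φ).relIndex (PM ⊓ nm.ker) with hc2'
  set a := (PF ⊔ nm.range).index with ha
  set T := PF.comap nm with hT
  set T₀ := PM ⊔ φ.range with hT₀
  set Z := PM.comap φ with hZ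
  set W := PM ⊔ φ.ker with hW
  set b := (PM.comap ext).index with hb
  -- (1),(2): PF.index = T.index * a
  have h1 : T.index * a = PF.index := by
    have := AddSubgroup.relIndex_mul_index (le_sup_left : PF ≤ PF ⊔ nm.range)
    rw [AddSubgroup.relIndex_sup_left, ← AddSubgroup.index_comap] at this
    exact this
  -- (3): T₀ ≤ T
  have hPMT : PM ≤ T := fun D hD => hnmP D hD
  have hφT : φ.range ≤ T := by
    rintro _ ⟨D, rfl⟩
    show nm (φ D) ∈ PF
    rw [hφ_apply, map_sub, hnm_g, sub_self]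
    exact PF.zero_mem
  have hT₀T : T₀ ≤ T := sup_le hPMT hφT
  have hT₀0 : T₀.index ≠ 0 := by
    have hd := AddSubgroup.index_dvd_of_le (le_sup_left : PM ≤ T₀)
    intro h0
    rw [h0] at hd
    exact hM (Nat.eq_zero_of_zero_dvd hd)
  have h3 : T.index ≤ T₀.index :=
    Nat.le_of_dvd (Nat.pos_of_ne_zero hT₀0) (AddSubgroup.index_dvd_of_le hT₀T)
  -- (4): T₀.index = PM.relIndex Z
  have hPMZ : PM ≤ Z := by
    intro D hD
    show φ D ∈ PM
    rw [hφ_apply]
    exact PM.sub_mem (hgPM D hD) hD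
  have hZ0 : Z.index ≠ 0 := by
    have hd := AddSubgroup.index_dvd_of_le hPMZ
    intro h0
    rw [h0] at hd
    exact hM (Nat.eq_zero_of_zero_dvd hd)
  have h4 : T₀.index = PM.relIndex Z := by
    have e1 := AddSubgroup.relIndex_mul_index (le_sup_left : PM ≤ T₀)
    rw [AddSubgroup.relIndex_sup_left, ← AddSubgroup.index_comap] at e1
    have e2 := AddSubgroup.relIndex_mul_index hPMZ
    -- e1 : Z.index * T₀.index = PM.index ; e2 : PM.relIndex Z * Z.index = PM.index
    have : Z.index * T₀.index = Z.index * PM.relIndex Z := by rw [e1, ← e2, mul_comm]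
    exact Nat.eq_of_mul_eq_mul_left (Nat.pos_of_ne_zero hZ0) this
  -- (5): PM ≤ W ≤ Z
  have hPMW : PM ≤ W := le_sup_left
  have hkerZ : φ.ker ≤ Z := by
    intro D hD
    show φ D ∈ PM
    rw [AddMonoidHom.mem_ker.mp hD]
    exact PM.zero_mem
  have hWZ : W ≤ Z := sup_le hPMZ hkerZ
  have h5 : PM.relIndex W * W.relIndex Z = PM.relIndex Z :=
    AddSubgroup.relIndex_mul_relIndex PM W Z hPMW hWZ
  -- (6): W.relIndex Z ≤ c2
  have hZmap : Z.map φ ≤ PM ⊓ nm.ker := by
    rintro _ ⟨D, hD, rfl⟩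
    refine ⟨hD, ?_⟩
    show φ D ∈ nm.ker
    rw [AddMonoidHom.mem_ker, hφ_apply, map_sub, hnm_g, sub_self]
  have h6 : W.relIndex Z ≤ c2 := by
    have : W = (PM.map φ).comap φ := (AddSubgroup.comap_map_eq φ PM).symm
    rw [this, AddSubgroup.relIndex_comap]
    exact AddSubgroup.relIndex_le_of_le_right hZmap hc2
  -- (7): PM.relIndex W ≤ b
  have hPFle : PF ≤ PM.comap ext := fun D hD => hextP D hD
  have hb0 : b ≠ 0 := by
    have hd := AddSubgroup.index_dvd_of_le hPFle
    intro h0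
    rw [hb] at h0
    rw [h0] at hd
    exact hF (Nat.eq_zero_of_zero_dvd hd)
  have hkerext : φ.ker ≤ ext.range := by
    intro D hD
    apply hfix
    have := AddMonoidHom.mem_ker.mp hD
    rw [hφ_apply, sub_eq_zero] at this
    exact this
  have h7 : PM.relIndex W ≤ b := by
    rw [hW, AddSubgroup.relIndex_sup_left, hb, AddSubgroup.index_comap]
    refine AddSubgroup.relIndex_le_of_le_right hkerext ?_
    rw [← AddSubgroup.index_comap]
    exact hb0
  -- (8): c1 * b = PF.index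
  have h8 : c1 * b = PF.index := AddSubgroup.relIndex_mul_index hPFle
  -- combine
  have hmain : PF.index ≤ b * c2 * a := by
    calc PF.index = T.index * a := h1.symm
      _ ≤ T₀.index * a := Nat.mul_le_mul_right a h3
      _ = PM.relIndex W * W.relIndex Z * a := by rw [h4, h5]
      _ ≤ b * c2 * a := Nat.mul_le_mul_right a (Nat.mul_le_mul h7 h6)
  have hF0 : 0 < PF.index := Nat.pos_of_ne_zero hF
  have hc1le : c1 ≤ c2 * a := by
    have : c1 * PF.index ≤ PF.index * (c2 * a) := by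
      calc c1 * PF.index ≤ c1 * (b * c2 * a) := Nat.mul_le_mul_left c1 hmain
        _ = (c1 * b) * (c2 * a) := by ring
        _ = PF.index * (c2 * a) := by rw [h8]
    rw [mul_comm c1] at this
    exact Nat.le_of_mul_le_mul_left this hF0
  have : c2 * p ≤ c2 * a := by
    calc c2 * p = p * c2 := mul_comm _ _
      _ ≤ c1 := hc
      _ ≤ c2 * a := hc1le
  exact Nat.le_of_mul_le_mul_left this (Nat.pos_of_ne_zero hc2)

theorem sc_ne_top
    (p : ℕ) (hp : 2 ≤ p) (PF : AddSubgroup IF) (PM : AddSubgroup IM)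
    (g : IM →+ IM) (ext : IF →+ IM) (nm : IM →+ IF)
    (hfix : ∀ D : IM, g D = D → D ∈ ext.range)
    (hnm_g : ∀ D : IM, nm (g D) = nm D)
    (hgPM : ∀ D ∈ PM, g D ∈ PM)
    (hextP : ∀ D ∈ PF, ext D ∈ PM)
    (hnmP : ∀ D ∈ PM, nm D ∈ PF)
    (hF : PF.index ≠ 0) (hM : PM.index ≠ 0)
    (hc : p * (PM.map (g - AddMonoidHom.id IM)).relIndex (PM ⊓ nm.ker) ≤
      PF.relIndex (PM.comap ext))
    (hc2 : (PM.map (g - AddMonoidHom.id IM)).relIndex (PM ⊓ nm.ker) ≠ 0) :
    PF ⊔ nm.range ≠ ⊤ := by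
  intro htop
  have h := sc_index_ge p PF PM g ext nm hfix hnm_g hgPM hextP hnmP hF hM hc hc2
  rw [htop, AddSubgroup.index_top] at h
  omega

end Core

end Fermat.Agent.S14x
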