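/-
S14 / SI-ASM in hypothesis form (helper38): `normGroup F M p ≠ ⊤` for an unramified cyclic
extension, from the two unit-index facts `c₂ ≠ 0`, `p * c₂ ≤ c₁` (SI-BRIDGE + SI-UNITS).
Everything else is discharged here from SIDiv / SIDivExt / DvClass / DvClassCl / BaseChangeNorm /
SICore.   Prefix `sa_`.
-/
import Mathlib
import Fermat.Agent.S14x.Defs
import Fermat.Agent.S14x.SIDiv
import Fermat.Agent.S14x.SIDivExt
import Fermat.Agent.S14x.SICore
import Fermat.Agent.S14x.DvClass
import Fermat.Agent.S14x.DvClassCl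
import Fermat.Agent.S14x.BaseChangeNorm

set_option autoImplicit false

namespace Fermat.Agent.S14x

open NumberField IsDedekindDomain

section Asm

variable {p : ℕ} [Fact p.Prime]
variable {F M : Type} [Field F] [NumberField F] [Field M] [NumberField M] [Algebra F M]
  [IsGalois F M] {g : M ≃ₐ[F] M}

/-- `c₁ = [ext⁻¹ P_M : P_F]` (the capitulation index; `= |H¹(G, E_M)|`). -/
noncomputable def sa_c1 (F M : Type) [Field F] [NumberField F] [Field M] [NumberField M]
    [Algebra F M] : ℕ :=
  (dvc_principal F).relIndex ((dvc_principal M).comap (sd_dvExt (F := F) (M := M)))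

/-- `c₂ = [P_M ∩ ker N : (g - 1) P_M]` (`= |H¹(G, P_M)| ≤ |Ĥ⁰(G, E_M)|`). -/
noncomputable def sa_c2 (F : Type) {M : Type} [Field F] [NumberField F] [Field M] [NumberField M]
    [Algebra F M] (g : M ≃ₐ[F] M) : ℕ :=
  ((dvc_principal M).map ((sd_dvSmul g).toAddMonoidHom - AddMonoidHom.id (Dv M))).relIndex
    (dvc_principal M ⊓ (dvNorm F M).ker)

theorem sa_index_ge_of (h : IsUCyc p F M g)
    (hc2 : sa_c2 F g ≠ 0) (hc : p * sa_c2 F g ≤ sa_c1 F M) :
    p ≤ (dvc_principal F ⊔ (dvNorm F M).range).index := by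
  refine sc_index_ge p (dvc_principal F) (dvc_principal M) (sd_dvSmul g).toAddMonoidHom
    (sd_dvExt (F := F) (M := M)) (dvNorm F M) ?_ ?_ ?_ ?_ ?_
    dvc_principal_index_ne_zero dvc_principal_index_ne_zero hc hc2
  · intro D hD
    obtain ⟨D₀, rfl⟩ := sd_invariant h D hD
    exact ⟨D₀, rfl⟩
  · intro D
    exact sd_dvNorm_smul g D
  · intro D hD
    obtain ⟨x, hx, rfl⟩ := (dvc_mem_principal_iff D).mp hD
    show sd_dvSmul g (divOf x) ∈ dvc_principal M
    rw [← sd_divOf_smul]
    exact dvc_divOf_mem_principal (by simpa using hx)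
  · intro D hD
    obtain ⟨x, hx, rfl⟩ := (dvc_mem_principal_iff D).mp hD
    rw [sd_dvExt_divOf]
    exact dvc_divOf_mem_principal (by simpa using hx)
  · intro D hD
    obtain ⟨x, hx, rfl⟩ := (dvc_mem_principal_iff D).mp hD
    rw [dvNorm_divOf x hx]
    exact dvc_divOf_mem_principal (by rwa [ne_eq, Algebra.norm_eq_zero_iff])

/-- **SI in hypothesis form**: the norm group of an unramified cyclic extension of prime degree
is a proper subgroup, given the unit-index inequality `p * c₂ ≤ c₁`, `c₂ ≠ 0`. -/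
theorem sa_normGroup_ne_top_of (h : IsUCyc p F M g)
    (hc2 : sa_c2 F g ≠ 0) (hc : p * sa_c2 F g ≤ sa_c1 F M) :
    normGroup F M p ≠ ⊤ := by
  intro htop
  have h1 := sa_index_ge_of h hc2 hc
  have h2 : dvc_principal F ⊔ (dvNorm F M).range = ⊤ := by
    rw [eq_top_iff, ← htop]
    exact sd_normGroup_le h
  rw [h2, AddSubgroup.index_top] at h1
  have := (Fact.out : p.Prime).two_le
  omega

end Asm

end Fermat.Agent.S14x
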