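/-
S14 project: INTERFACE STUBS (architect helper22).  sorry-only; NEVER import this file from a
real module.  Real modules re-prove the SAME statement under namespace `Fermat.Agent.S14x`
(same name, without `Spec.`) in the file named in table s14_plan.
Blueprint: docs name = 'S14_blueprint_helper22'.
-/
import Fermat.Agent.S14x.Defs

set_option autoImplicit false

namespace Fermat.Agent.S14x.Spec

open NumberField IsDedekindDomain ExtCitation
open scoped Pointwise

/-! ## T1. DICT : from a non-split admissible extension to a tower of number fields -/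

theorem exists_tower {p : ℕ} [Fact p.Prime] (h3 : 3 ≤ p)
    (V : Type) [AddCommGroup V] [Module (ZMod p) V]
    [DistribMulAction (AlgebraicClosure ℚ ≃ₐ[ℚ] AlgebraicClosure ℚ) V]
    [SMulCommClass (AlgebraicClosure ℚ ≃ₐ[ℚ] AlgebraicClosure ℚ) (ZMod p) V]
    (C : Submodule (ZMod p) V) (hadm : IsAdmissibleExtensionCts p V C)
    (hns : ¬ SplitsGlobally C) : Nonempty (Tower p) := sorry

/-! ## T2. CORE : such a tower does not exist -/

theorem no_tower {p : ℕ} [Fact p.Prime] (hp : p ≠ 2) (T : Tower p) : False := sorry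

/-! ## Level 2 (used by `no_tower`) -/

section Tower

variable {p : ℕ} [Fact p.Prime]

theorem tower_isUCyc (T : Tower p) : IsUCyc p T.K T.L T.g := sorry

/-- RECIP: Artin reciprocity for the tower: principal divisors have trivial Artin symbol.
(assembled by helper22 from `cross`, `normGroup_ne_top`, `frobExp_eq_zero_iff`,
`exists_frobExp_ne_zero`) -/
theorem reciprocity (hp : p ≠ 2) (T : Tower p) (x : T.K) (hx : x ≠ 0) :
    artZ T.K T.L p T.g (divOf x) = 0 := sorry

/-- EQUIV: Galois-equivariance of the Frobenius exponent: if `σ ∈ Gal(K/ℚ)` acts on `μ_p` by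
`ζ ↦ ζ^k` then `k * frobExp (σ v) = frobExp v`. -/
theorem frobExp_equivariant (T : Tower p) (σ : T.K ≃ₐ[ℚ] T.K) (ζ : T.K) (k : ℕ)
    (hζ : IsPrimitiveRoot ζ p) (hσ : σ ζ = ζ ^ k) (v w : Pl T.K)
    (hw : w.asIdeal = σ • v.asIdeal) :
    (k : ZMod p) * frobExp T.K T.L p T.g w = frobExp T.K T.L p T.g v := sorry

/-- CROSS: Artin's cyclotomic crossing: the class of a prime modulo the norm group depends only
(and multiplicatively) on its Frobenius. -/
theorem cross (hp : p ≠ 2) (T : Tower p) (v₁ v₂ : Pl T.K) (k : ℤ)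
    (h₂ : frobExp T.K T.L p T.g v₂ ≠ 0)
    (hk : (k : ZMod p) * frobExp T.K T.L p T.g v₂ = frobExp T.K T.L p T.g v₁) :
    Finsupp.single v₁ (1 : ℤ) - k • Finsupp.single v₂ (1 : ℤ) ∈ normGroup T.K T.L p := sorry

end Tower

/-- JAC (helper96): the Jacobi-sum ideal + the decomposition-group argument, packaged abstractly:
an equivariant `ZMod p`-valued function on the primes of `ℚ(ζ_p)` which kills principal
divisors vanishes at every prime not above `p`. -/
theorem jacobi_kill {p : ℕ} [Fact p.Prime] (hp : p ≠ 2)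
    (K : Type) [Field K] [NumberField K] [IsCyclotomicExtension {p} ℚ K]
    (φ : Pl K → ZMod p)
    (hrec : ∀ x : K, x ≠ 0 → (divOf x).sum (fun v n => (n : ZMod p) * φ v) = 0)
    (hequiv : ∀ (σ : K ≃ₐ[ℚ] K) (ζ : K) (k : ℕ), IsPrimitiveRoot ζ p → σ ζ = ζ ^ k →
      ∀ v w : Pl K, w.asIdeal = σ • v.asIdeal → (k : ZMod p) * φ w = φ v)
    (v : Pl K) (hv : (p : 𝓞 K) ∉ v.asIdeal) : φ v = 0 := sorry

/-! ## General unramified cyclic extensions `M/F` of degree `p` (`IsUCyc`) -/

section General

variable {p : ℕ} [Fact p.Prime]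
variable {F M : Type} [Field F] [NumberField F] [Field M] [NumberField M] [Algebra F M]
  [IsGalois F M] {g : M ≃ₐ[F] M}

/-! ### AAPI : Artin-map API -/

/-- every element of `Gal(M/F)` is a power of `g`, hence `frobExp` is the true exponent. -/
theorem frob_eq_pow (h : IsUCyc p F M g) (v : Pl F) :
    frob F M v = g ^ (frobExp F M p g v).val := sorry

/-- a completely split prime has trivial Frobenius, and conversely. -/
theorem frobExp_eq_zero_iff (h : IsUCyc p F M g) (v : Pl F) :
    frobExp F M p g v = 0 ↔ SplitsCompletely F M v := sorry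

/-- the Frobenius `frob F M v` does not depend on the chosen prime above (abelian case):
it is an arithmetic Frobenius at EVERY prime `w` above `v`. -/
theorem frob_spec (h : IsUCyc p F M g) (v : Pl F) (w : Pl M) (hw : PlOver F M w v)
    (x : 𝓞 M) : (frob F M v • x) - x ^ plNorm v ∈ w.asIdeal := sorry

/-- ...and is characterised by this property at ONE prime above. -/
theorem frob_unique (h : IsUCyc p F M g) (v : Pl F) (w : Pl M) (hw : PlOver F M w v)
    (s : M ≃ₐ[F] M) (hs : ∀ x : 𝓞 M, (s • x) - x ^ plNorm v ∈ w.asIdeal) :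
    s = frob F M v := sorry

/-! ### SI : the algebraic norm-index inequality (Herbrand quotient) and its corollary DENS -/

/-- SI: `[I_F : P_F N(I_M)] ≥ p` in the form "`≠ ⊤`". -/
theorem normGroup_ne_top (hp : p ≠ 2) (h : IsUCyc p F M g) : normGroup F M p ≠ ⊤ := sorry

/-- DENS (corollary of SI + approximation): there is a non-split prime not dividing `m`. -/
theorem exists_frobExp_ne_zero (hp : p ≠ 2) (h : IsUCyc p F M g) (m : ℕ) (hm : m ≠ 0) :
    ∃ v : Pl F, (m : 𝓞 F) ∉ v.asIdeal ∧ frobExp F M p g v ≠ 0 := sorry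

/-! ### KER = FI + CYC -/

/-- FI: the analytic (universal) norm-index inequality `[I^m : P_m · <split primes>] ≤ p`,
phrased without quotient groups: any hom `ψ` to `ZMod p` killing the ray group and non-trivial
on divisors prime to `m` has kernel (on divisors prime to `m`) equal to the ray group. -/
theorem fi_main (hp : p ≠ 2) (h : IsUCyc p F M g) (m : ℕ) [NeZero m]
    (ψ : Dv F →+ ZMod p) (hker : rayGroup F M m ≤ ψ.ker)
    (hsurj : ∃ D₀ : Dv F, CoprimeTo m D₀ ∧ ψ D₀ ≠ 0)
    (D : Dv F) (hD : CoprimeTo m D) (h0 : ψ D = 0) : D ∈ rayGroup F M m := sorry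

/-- CYC: explicit reciprocity for sub-cyclotomic extensions: if `M ⊆ Ω = F(ζ_m)` then the Artin
map of `M/F` kills the ray group mod `m`. -/
theorem cyc_main (h : IsUCyc p F M g) (Ω : Type) [Field Ω] [Algebra F Ω] [Algebra M Ω]
    [IsScalarTower F M Ω] (m : ℕ) [NeZero m] [IsCyclotomicExtension {m} F Ω] :
    rayGroup F M m ≤ (artZ F M p g).ker := sorry

/-- KER: for `M ⊆ F(ζ_m)`, every divisor prime to `m` with trivial Artin symbol is in the ray
group mod `m`.  (from `fi_main`, `cyc_main`, `exists_frobExp_ne_zero`) -/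
theorem ker_artZ_le_rayGroup (hp : p ≠ 2) (h : IsUCyc p F M g) (Ω : Type) [Field Ω]
    [Algebra F Ω] [Algebra M Ω] [IsScalarTower F M Ω] (m : ℕ) [NeZero m]
    [IsCyclotomicExtension {m} F Ω]
    (D : Dv F) (hD : CoprimeTo m D) (h0 : artZ F M p g D = 0) :
    D ∈ rayGroup F M m := sorry

/-! ### BC : base change `F ⊆ F'`, `M' = M F'` -/

variable {F' M' : Type} [Field F'] [NumberField F'] [Field M'] [NumberField M']
  [Algebra F F'] [Algebra F' M'] [Algebra M M'] [Algebra F M']
  [IsScalarTower F F' M'] [IsScalarTower F M M'] [IsGalois F' M'] {g' : M' ≃ₐ[F'] M'}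

theorem isUCyc_baseChange (h : IsUCyc p F M g)
    (hg : ∀ x : M, g' (algebraMap M M' x) = algebraMap M M' (g x))
    (hdeg : Module.finrank F' M' = p) : IsUCyc p F' M' g' := sorry

/-- functoriality of the Artin map: `Art_{M'/F'}(D') |_M = Art_{M/F}(N_{F'/F} D')`. -/
theorem artZ_baseChange (h : IsUCyc p F M g) (h' : IsUCyc p F' M' g')
    (hg : ∀ x : M, g' (algebraMap M M' x) = algebraMap M M' (g x)) (D' : Dv F') :
    artZ F' M' p g' D' = artZ F M p g (dvNorm F F' D') := sorry

theorem dvNorm_divOf (x : F') (hx : x ≠ 0) :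
    dvNorm F F' (divOf x) = divOf (Algebra.norm F x) := sorry

/-- the norm of the ray group of `M'/F'` lands in the norm group of `M/F`. -/
theorem dvNorm_rayGroup_le (h : IsUCyc p F M g) (h' : IsUCyc p F' M' g')
    (hg : ∀ x : M, g' (algebraMap M M' x) = algebraMap M M' (g x)) (m : ℕ) :
    (rayGroup F' M' m).map (dvNorm F F') ≤ normGroup F M p := sorry

end General

end Fermat.Agent.S14x.Spec
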