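/-
S14 project: CORRECTIONS to the interface stubs of `Spec.lean` (architect helper22).
sorry-only; NEVER import this file from a real module.
* `cyc_main` needs `p ≠ 2` (helper49: false for p = 2, F = ℚ(√3), M = Ω = F(i), m = 4, x = 1 + 4√3).
  THE STATEMENT BELOW SUPERSEDES `Spec.cyc_main`.
-/
import Fermat.Agent.S14x.Defs

set_option autoImplicit false

namespace Fermat.Agent.S14x.Spec2

open NumberField IsDedekindDomain

variable {p : ℕ} [Fact p.Prime]
variable {F M : Type} [Field F] [NumberField F] [Field M] [NumberField M] [Algebra F M]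
  [IsGalois F M] {g : M ≃ₐ[F] M}

/-- CYC (corrected): explicit reciprocity for sub-cyclotomic extensions: if `M ⊆ Ω = F(ζ_m)` then
the Artin map of `M/F` kills the ray group mod `m`. -/
theorem cyc_main (h : IsUCyc p F M g) (hp : p ≠ 2) (Ω : Type) [Field Ω] [Algebra F Ω]
    [Algebra M Ω] [IsScalarTower F M Ω] (m : ℕ) [NeZero m] [IsCyclotomicExtension {m} F Ω] :
    rayGroup F M m ≤ (artZ F M p g).ker := sorry

end Fermat.Agent.S14x.Spec2
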