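import Mathlib
import Fermat.Prelude.Def_ExtCitation_AdmissibleExtension_v2

/-!
# S14 project, step (R0): the extension splits as soon as `G_K = ker ω` acts trivially

`V` is an `𝔽_p`-plane with an action of `G = Gal(Q̄/ℚ)`, `C` a line with trivial action and `G`
acting on `V/C` through the mod-`p` cyclotomic character `ω` (`cyclo_quot`).  If every `σ` with
`ω σ = 1` acts trivially on `V` and some `δ₀` has `ω δ₀ ≠ 1`, then the `ω δ₀`-eigenspace of `δ₀` is
a `G`-stable complement of `C`.  Pure linear algebra; no number theory.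
-/

set_option autoImplicit false

namespace Fermat.Agent.S14x

open ExtCitation

/-- the absolute Galois group of `ℚ` -/
abbrev s14G := AlgebraicClosure ℚ ≃ₐ[ℚ] AlgebraicClosure ℚ

variable (p : ℕ) [Fact p.Prime]

/-- the mod-`p` cyclotomic character as a unit-valued monoid homomorphism -/
noncomputable def s14Chi : s14G →* (ZMod p)ˣ :=
  haveI : NeZero p := ⟨(Fact.out : p.Prime).ne_zero⟩
  (modularCyclotomicCharacter (AlgebraicClosure ℚ) (card_rootsOfUnity_eq_self p)).comp
    (MulSemiringAction.toRingAut s14G (AlgebraicClosure ℚ))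

theorem s14a_cycloExp_cast (σ : s14G) :
    ((cycloExp p σ : ℕ) : ZMod p) = ((s14Chi p σ : (ZMod p)ˣ) : ZMod p) := by
  haveI : NeZero p := ⟨(Fact.out : p.Prime).ne_zero⟩
  rw [cycloExp, ZMod.natCast_zmod_val]
  rfl

variable {p}
variable {V : Type} [AddCommGroup V] [Module (ZMod p) V] [DistribMulAction s14G V]
  [SMulCommClass s14G (ZMod p) V]

/-- (R0) if `ker ω` acts trivially on `V` and `ω` is not trivial, the extension splits -/
theorem s14a_splits_of_trivial_on_ker {C : Submodule (ZMod p) V}
    (hC : IsAdmissibleExtension p V C)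
    (hker : ∀ σ : s14G, s14Chi p σ = 1 → ∀ x : V, σ • x = x)
    (δ₀ : s14G) (hδ₀ : s14Chi p δ₀ ≠ 1) : SplitsGlobally C := by
  set u : ZMod p := ((s14Chi p δ₀ : (ZMod p)ˣ) : ZMod p) with hu
  have hu1 : u - 1 ≠ 0 := by
    intro h
    apply hδ₀
    ext
    rw [Units.val_one]
    exact sub_eq_zero.mp h
  have hcyc : ∀ x : V, δ₀ • x - u • x ∈ C := by
    intro x
    have := hC.cyclo_quot δ₀ x
    rwa [s14a_cycloExp_cast] at this
  -- the eigenspace
  let C' : Submodule (ZMod p) V :=
    { carrier := {x | δ₀ • x = u • x}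
      add_mem' := by
        intro a b ha hb
        show δ₀ • (a + b) = u • (a + b)
        rw [smul_add, smul_add, ha, hb]
      zero_mem' := by
        show δ₀ • (0 : V) = u • (0 : V)
        rw [smul_zero, smul_zero]
      smul_mem' := by
        intro c a ha
        show δ₀ • (c • a) = u • (c • a)
        rw [smul_comm δ₀ c a, ha, smul_comm] }
  have hmemC' : ∀ x : V, x ∈ C' ↔ δ₀ • x = u • x := fun x => Iff.rfl
  refine ⟨C', ?_, ?_⟩
  · -- stability
    intro σ x hx
    rw [hmemC'] at hx ⊢
    -- the commutator acts trivially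
    have hk : s14Chi p ((σ * δ₀)⁻¹ * (δ₀ * σ)) = 1 := by
      rw [map_mul, map_inv, map_mul, map_mul, mul_comm (s14Chi p σ) (s14Chi p δ₀), inv_mul_cancel]
    have hk' := hker _ hk x
    have hcomm : δ₀ * σ = (σ * δ₀) * ((σ * δ₀)⁻¹ * (δ₀ * σ)) := by
      rw [← mul_assoc, mul_inv_cancel, one_mul]
    calc δ₀ • σ • x = (δ₀ * σ) • x := (mul_smul _ _ _).symm
      _ = ((σ * δ₀) * ((σ * δ₀)⁻¹ * (δ₀ * σ))) • x := by rw [← hcomm]
      _ = (σ * δ₀) • x := by rw [mul_smul, hk']
      _ = σ • δ₀ • x := mul_smul _ _ _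
      _ = σ • u • x := by rw [hx]
      _ = u • σ • x := smul_comm _ _ _
  · -- complement
    rw [isCompl_iff]
    constructor
    · rw [Submodule.disjoint_def]
      intro x hxC hxC'
      rw [hmemC'] at hxC'
      have hfix := hC.fixed_sub δ₀ x hxC
      rw [hfix] at hxC'
      have h0 : (u - 1) • x = 0 := by
        rw [sub_smul, one_smul, ← hxC', sub_self]
      rcases smul_eq_zero.mp h0 with h | h
      · exact absurd h hu1
      · exact h
    · rw [codisjoint_iff, eq_top_iff]
      intro x _
      set y : V := δ₀ • x - u • x with hy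
      have hyC : y ∈ C := hcyc x
      set z : V := (1 - u)⁻¹ • y with hz
      have hzC : z ∈ C := C.smul_mem _ hyC
      have h1u : (1 - u) ≠ 0 := by
        intro h
        apply hu1
        rw [← neg_sub, h, neg_zero]
      have hzz : (1 - u) • z = y := by
        rw [hz, smul_smul, mul_inv_cancel₀ h1u, one_smul]
      have hxz : x - z ∈ C' := by
        rw [hmemC', smul_sub, smul_sub, hC.fixed_sub δ₀ z hzC]
        have e1 : δ₀ • x = u • x + y := by rw [hy]; abel
        have e2 : z = y + u • z := by
          rw [← hzz, sub_smul, one_smul]; abel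
        rw [e1]
        nth_rewrite 1 [e2]
        abel
      have : x = z + (x - z) := by abel
      rw [this]
      exact Submodule.add_mem_sup hzC hxz

end Fermat.Agent.S14x
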