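import Fermat.Agent.S14x.Defs

/-!
# S14 project: TOP and KER assemblies in hypothesis form (helper70, deputy)

* `ta_extVanishingCts_of` : the frozen S14 statement from `exists_tower` (DICT) and `no_tower`
  (CORE), both taken as hypotheses in their exact Spec shapes.
* `ka_ker_artZ_le_rayGroup_of` : KER from `fi_main` (FI), `cyc_main` (CYC) and
  `exists_frobExp_ne_zero` (DENS), taken as hypotheses in their exact Spec shapes.
-/

set_option autoImplicit false

namespace Fermat.Agent.S14x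

open NumberField IsDedekindDomain ExtCitation

/-- TOP: `ExtVanishingCts p` from DICT and CORE. -/
theorem ta_extVanishingCts_of {p : ℕ} [Fact p.Prime] (h3 : 3 ≤ p)
    (hDict : ∀ (V : Type) [AddCommGroup V] [Module (ZMod p) V]
      [DistribMulAction (AlgebraicClosure ℚ ≃ₐ[ℚ] AlgebraicClosure ℚ) V]
      [SMulCommClass (AlgebraicClosure ℚ ≃ₐ[ℚ] AlgebraicClosure ℚ) (ZMod p) V]
      (C : Submodule (ZMod p) V), IsAdmissibleExtensionCts p V C →
        ¬ SplitsGlobally C → Nonempty (Tower p))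
    (hCore : Tower p → False) : ExtVanishingCts p := by
  intro V _ _ _ _ C hadm
  by_contra hns
  obtain ⟨T⟩ := hDict V C hadm hns
  exact hCore T

section Ker

variable {p : ℕ} [Fact p.Prime]
variable {F M : Type} [Field F] [NumberField F] [Field M] [NumberField M] [Algebra F M]
  [IsGalois F M] {g : M ≃ₐ[F] M}

theorem ka_artZ_single (v : Pl F) (n : ℤ) :
    artZ F M p g (Finsupp.single v n) = (n : ZMod p) * frobExp F M p g v := by
  simp [artZ]

theorem ka_coprimeTo_single {m : ℕ} {v : Pl F} (hv : (m : 𝓞 F) ∉ v.asIdeal) (n : ℤ) :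
    CoprimeTo m (Finsupp.single v n : Dv F) := by
  intro w hw
  classical
  rw [Finsupp.single_apply]
  split_ifs with h
  · subst h; exact absurd hw hv
  · rfl

/-- KER from FI + CYC + DENS (all in Spec shape, as hypotheses). -/
theorem ka_ker_artZ_le_rayGroup_of (m : ℕ)
    (hFI : ∀ (ψ : Dv F →+ ZMod p), rayGroup F M m ≤ ψ.ker →
      (∃ D₀ : Dv F, CoprimeTo m D₀ ∧ ψ D₀ ≠ 0) →
      ∀ D : Dv F, CoprimeTo m D → ψ D = 0 → D ∈ rayGroup F M m)
    (hCyc : rayGroup F M m ≤ (artZ F M p g).ker)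
    (hDens : ∃ v : Pl F, (m : 𝓞 F) ∉ v.asIdeal ∧ frobExp F M p g v ≠ 0)
    (D : Dv F) (hD : CoprimeTo m D) (h0 : artZ F M p g D = 0) :
    D ∈ rayGroup F M m := by
  obtain ⟨v, hvm, hv⟩ := hDens
  refine hFI (artZ F M p g) hCyc ⟨Finsupp.single v 1, ka_coprimeTo_single hvm 1, ?_⟩ D hD h0
  rw [ka_artZ_single]
  simpa using hv

end Ker

end Fermat.Agent.S14x
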